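import Mathlib
import Fermat.Prelude.Def_ModularCurve_HeckeModule
import Fermat.Agent.Common.Frobenius

/-!
# S37, formal assembly

`SpecializationExists` follows from the existence of a "detector": an additive map `ρ` out of
`J` that is invariant under inertia, satisfies the quadratic relation for one Frobenius lift and
is injective on `p`-power torsion.  The specialization is the universal one: the quotient of `J`
by the Hecke submodule generated by `(τ - 1) J` (`τ` in inertia) and `(s² - T_ℓ s + ℓ) J`.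
-/

set_option autoImplicit false

namespace Fermat.Agent.S37.Assembly

open ModularCurve

noncomputable section

section Galois

variable {K L : Type*} [Field K] [Field L] [Algebra K L]

/-- Membership in the prelude's inertia subgroup. -/
theorem mem_inertiaSubgroupIn_iff (A : ValuationSubring L) (σ : L ≃ₐ[K] L) :
    σ ∈ A.inertiaSubgroupIn K ↔
      ∃ hσ : σ ∈ A.decompositionSubgroup K,
        ∀ x : IsLocalRing.ResidueField A,
          (⟨σ, hσ⟩ : A.decompositionSubgroup K) • x = x := by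
  constructor
  · rintro ⟨d, hd, rfl⟩
    refine ⟨d.2, fun x => ?_⟩
    have h1 : MulSemiringAction.toRingAut (A.decompositionSubgroup K)
        (IsLocalRing.ResidueField A) d = 1 := hd
    have h2 := congrArg (fun f : RingAut (IsLocalRing.ResidueField A) => f x) h1
    exact h2
  · rintro ⟨hσ, h⟩
    refine ⟨⟨σ, hσ⟩, ?_, rfl⟩
    show MulSemiringAction.toRingAut (A.decompositionSubgroup K)
        (IsLocalRing.ResidueField A) ⟨σ, hσ⟩ = 1
    ext x
    exact h x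

/-- Inertia is normalised by the decomposition group. -/
theorem conj_mem_inertiaSubgroupIn (A : ValuationSubring L) {s σ : L ≃ₐ[K] L}
    (hs : s ∈ A.decompositionSubgroup K) (hσ : σ ∈ A.inertiaSubgroupIn K) :
    s * σ * s⁻¹ ∈ A.inertiaSubgroupIn K := by
  rw [mem_inertiaSubgroupIn_iff] at hσ ⊢
  obtain ⟨hσD, hσ⟩ := hσ
  have hmem : s * σ * s⁻¹ ∈ A.decompositionSubgroup K :=
    mul_mem (mul_mem hs hσD) (inv_mem hs)
  refine ⟨hmem, fun x => ?_⟩
  have e : (⟨s * σ * s⁻¹, hmem⟩ : A.decompositionSubgroup K)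
      = (⟨s, hs⟩ : A.decompositionSubgroup K) * ⟨σ, hσD⟩ * (⟨s, hs⟩)⁻¹ := rfl
  rw [e, mul_smul, mul_smul, hσ, smul_inv_smul]

/-- Two Frobenius lifts differ by an element of inertia. -/
theorem inv_mul_mem_inertiaSubgroupIn (A : ValuationSubring L) {ℓ : ℕ} {s₀ s : L ≃ₐ[K] L}
    (hs₀ : A.IsFrobeniusAt s₀ ℓ) (hs : A.IsFrobeniusAt s ℓ) :
    s₀⁻¹ * s ∈ A.inertiaSubgroupIn K := by
  rw [mem_inertiaSubgroupIn_iff]
  obtain ⟨h₀, H₀⟩ := hs₀
  obtain ⟨h₁, H₁⟩ := hs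
  have hmem : s₀⁻¹ * s ∈ A.decompositionSubgroup K := mul_mem (inv_mem h₀) h₁
  refine ⟨hmem, fun x => ?_⟩
  have e : (⟨s₀⁻¹ * s, hmem⟩ : A.decompositionSubgroup K)
      = (⟨s₀, h₀⟩ : A.decompositionSubgroup K)⁻¹ * ⟨s, h₁⟩ := rfl
  rw [e, mul_smul, H₁, ← H₀, inv_smul_smul]

end Galois

section Abstract

variable {K L : Type*} [Field K] [Field L] [Algebra K L]
variable (J : Type) [AddCommGroup J] [Module HeckeAlg J]
  [DistribMulAction (L ≃ₐ[K] L) J] [SMulCommClass (L ≃ₐ[K] L) HeckeAlg J]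

/-- The generators of the universal kernel. -/
def kernelGens (A : ValuationSubring L) (ℓ : Nat.Primes) (s₀ : L ≃ₐ[K] L) : Set J :=
  {y | ∃ σ ∈ A.inertiaSubgroupIn K, ∃ x : J, y = σ • x - x} ∪
    {y | ∃ x : J, y = s₀ • s₀ • x - heckeGen ℓ • s₀ • x + (ℓ : ℕ) • x}

/-- The universal kernel: the Hecke submodule generated by `(τ - 1) J` and
`(s₀² - T_ℓ s₀ + ℓ) J`. -/
def kernelSub (A : ValuationSubring L) (ℓ : Nat.Primes) (s₀ : L ≃ₐ[K] L) :
    Submodule HeckeAlg J :=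
  Submodule.span HeckeAlg (kernelGens J A ℓ s₀)

variable {J}

theorem smul_mem_kernelGens (A : ValuationSubring L) (ℓ : Nat.Primes) (s₀ : L ≃ₐ[K] L)
    (t : HeckeAlg) {y : J} (hy : y ∈ kernelGens J A ℓ s₀) : t • y ∈ kernelGens J A ℓ s₀ := by
  rcases hy with ⟨σ, hσ, x, rfl⟩ | ⟨x, rfl⟩
  · left
    refine ⟨σ, hσ, t • x, ?_⟩
    rw [smul_sub, smul_comm σ t x]
  · right
    refine ⟨t • x, ?_⟩
    rw [smul_add, smul_sub, smul_comm s₀ t x, smul_comm s₀ t (s₀ • x), smul_comm t (heckeGen ℓ),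
      smul_comm ((ℓ : ℕ)) t x]

theorem galois_smul_mem_kernelGens (A : ValuationSubring L) (ℓ : Nat.Primes) {s₀ : L ≃ₐ[K] L}
    (hs₀ : s₀ ∈ A.decompositionSubgroup K)
    {y : J} (hy : y ∈ kernelGens J A ℓ s₀) : s₀ • y ∈ kernelGens J A ℓ s₀ := by
  rcases hy with ⟨σ, hσ, x, rfl⟩ | ⟨x, rfl⟩
  · left
    refine ⟨s₀ * σ * s₀⁻¹, conj_mem_inertiaSubgroupIn A hs₀ hσ, s₀ • x, ?_⟩
    rw [smul_sub, mul_smul, mul_smul, inv_smul_smul]
  · right
    refine ⟨s₀ • x, ?_⟩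
    rw [smul_add, smul_sub, smul_comm s₀ (heckeGen ℓ) (s₀ • x), smul_comm s₀ ((ℓ : ℕ)) x]

theorem galois_smul_mem_kernelSub (A : ValuationSubring L) (ℓ : Nat.Primes) {s₀ : L ≃ₐ[K] L}
    (hs₀ : s₀ ∈ A.decompositionSubgroup K)
    {y : J} (hy : y ∈ kernelSub J A ℓ s₀) : s₀ • y ∈ kernelSub J A ℓ s₀ := by
  unfold kernelSub at hy ⊢
  induction hy using Submodule.span_induction with
  | mem y hy => exact Submodule.subset_span (galois_smul_mem_kernelGens A ℓ hs₀ hy)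
  | zero => rw [smul_zero]; exact Submodule.zero_mem _
  | add y z _ _ hy hz => rw [smul_add]; exact Submodule.add_mem _ hy hz
  | smul a y _ hy => rw [smul_comm s₀ a y]; exact Submodule.smul_mem _ a hy

/-- A detector kills the universal kernel. -/
theorem detector_eq_zero_of_mem_kernelSub (A : ValuationSubring L) (ℓ : Nat.Primes)
    (s₀ : L ≃ₐ[K] L) {G : Type*} [AddCommGroup G] (ρ : J →+ G)
    (hI : ∀ σ ∈ A.inertiaSubgroupIn K, ∀ x : J, ρ (σ • x) = ρ x)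
    (hF : ∀ x : J, ρ (s₀ • s₀ • x) - ρ (heckeGen ℓ • s₀ • x) + (ℓ : ℕ) • ρ x = 0)
    {y : J} (hy : y ∈ kernelSub J A ℓ s₀) : ρ y = 0 := by
  have key : ∀ t : HeckeAlg, ρ (t • y) = 0 := by
    unfold kernelSub at hy
    induction hy using Submodule.span_induction with
    | mem y hy =>
      intro t
      rcases smul_mem_kernelGens A ℓ s₀ t hy with ⟨σ, hσ, x, hx⟩ | ⟨x, hx⟩
      · rw [hx, map_sub, hI σ hσ x, sub_self]
      · rw [hx, map_add, map_sub, map_nsmul]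
        exact hF x
    | zero => intro t; rw [smul_zero, map_zero]
    | add y z _ _ hy hz => intro t; rw [smul_add, map_add, hy t, hz t, add_zero]
    | smul a y _ hy => intro t; rw [smul_smul]; exact hy (t * a)
  have := key 1
  rwa [one_smul] at this

/-- The abstract assembly: a detector gives a specialization datum. -/
theorem exists_specialization_of_detector (p : ℕ) (A : ValuationSubring L) (ℓ : ℕ)
    (hℓ : ℓ.Prime) (s₀ : L ≃ₐ[K] L) (hs₀ : A.IsFrobeniusAt s₀ ℓ)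
    {G : Type*} [AddCommGroup G] (ρ : J →+ G)
    (hI : ∀ σ ∈ A.inertiaSubgroupIn K, ∀ x : J, ρ (σ • x) = ρ x)
    (hF : ∀ x : J, ρ (s₀ • s₀ • x) - ρ (heckeGen ⟨ℓ, hℓ⟩ • s₀ • x) + ℓ • ρ x = 0)
    (hinj : ∀ x : J, (∃ n : ℕ, p ^ n • x = 0) → ρ x = 0 → x = 0) :
    ∃ (J' : Type) (_ : AddCommGroup J') (_ : Module HeckeAlg J') (sp : J →+ J')
      (F : J' →+ J'),
      IsSpecialization (K := K) p J J' A ℓ sp F ∧ SpecialFibreRelation J' ℓ hℓ F := by
  have hD : s₀ ∈ A.decompositionSubgroup K := hs₀.mem_decompositionSubgroup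
  set M : Submodule HeckeAlg J := kernelSub J A ⟨ℓ, hℓ⟩ s₀ with hM
  -- the linear map induced by the Frobenius lift
  let f : J →ₗ[HeckeAlg] J :=
    { toFun := fun x => s₀ • x
      map_add' := fun x y => smul_add s₀ x y
      map_smul' := fun t x => smul_comm s₀ t x }
  have hf : ∀ x : J, f x = s₀ • x := fun _ => rfl
  have hfM : M ≤ M.comap f := fun y hy => by
    rw [Submodule.mem_comap, hf]
    exact galois_smul_mem_kernelSub A ⟨ℓ, hℓ⟩ hD hy
  have hinertia : ∀ σ ∈ A.inertiaSubgroupIn K, ∀ x : J, σ • x - x ∈ M := fun σ hσ x =>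
    Submodule.subset_span (Or.inl ⟨σ, hσ, x, rfl⟩)
  have hquad : ∀ x : J, s₀ • s₀ • x - heckeGen ⟨ℓ, hℓ⟩ • s₀ • x + ℓ • x ∈ M := fun x =>
    Submodule.subset_span (Or.inr ⟨x, rfl⟩)
  refine ⟨J ⧸ M, inferInstance, inferInstance, M.mkQ.toAddMonoidHom,
    (M.mapQ M f hfM).toAddMonoidHom, ⟨?_, ?_, ?_, ?_⟩, ?_⟩
  · intro T x
    exact M.mkQ.map_smul T x
  · intro σ hσ x
    show M.mkQ (σ • x) = M.mkQ x
    rw [← sub_eq_zero, ← map_sub, Submodule.mkQ_apply, Submodule.Quotient.mk_eq_zero]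
    exact hinertia σ hσ x
  · intro σ hσ x
    show M.mkQ (σ • x) = M.mapQ M f hfM (M.mkQ x)
    rw [Submodule.mkQ_apply, Submodule.mkQ_apply, Submodule.mapQ_apply, hf, ← sub_eq_zero,
      ← Submodule.Quotient.mk_sub, Submodule.Quotient.mk_eq_zero]
    have hτ : s₀⁻¹ * σ ∈ A.inertiaSubgroupIn K := inv_mul_mem_inertiaSubgroupIn A hs₀ hσ
    have h1 := galois_smul_mem_kernelSub A ⟨ℓ, hℓ⟩ hD (hinertia _ hτ x)
    rwa [smul_sub, mul_smul, smul_inv_smul] at h1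
  · intro x hx hx0
    have hxM : x ∈ M := by
      have : M.mkQ x = 0 := hx0
      rwa [Submodule.mkQ_apply, Submodule.Quotient.mk_eq_zero] at this
    exact hinj x hx (detector_eq_zero_of_mem_kernelSub A ⟨ℓ, hℓ⟩ s₀ ρ hI hF hxM)
  · intro y
    obtain ⟨x, rfl⟩ := M.mkQ_surjective y
    show M.mapQ M f hfM (M.mapQ M f hfM (M.mkQ x)) - heckeGen ⟨ℓ, hℓ⟩ • M.mapQ M f hfM (M.mkQ x)
      + ℓ • M.mkQ x = 0
    rw [Submodule.mkQ_apply, Submodule.mapQ_apply, Submodule.mapQ_apply, hf, hf,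
      ← Submodule.Quotient.mk_smul, ← Submodule.Quotient.mk_sub, ← Submodule.Quotient.mk_smul,
      ← Submodule.Quotient.mk_add, Submodule.Quotient.mk_eq_zero]
    exact hquad x

end Abstract

section JZero

local notation "Qb" => AlgebraicClosure ℚ

/-- **S37 from a detector.**  `SpecializationExists` for `J₀(N)` holds as soon as, for every
prime `ℓ ∤ N p` and every place `A` over `ℓ`, there is an additive map `ρ` out of `J₀(N)` which
is invariant under inertia at `A`, satisfies `ρ ∘ (s² - T_ℓ s + ℓ) = 0` for the Frobenius lifts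
`s` at `A`, and is injective on `p`-power torsion. -/
theorem specializationExists_of_detector (N p : ℕ) [NeZero N]
    (hcomm : HeckeOperatorsCommuteBar N) :
    letI := heckeModuleBar N
    ∀ (_ : SMulCommClass (Qb ≃ₐ[ℚ] Qb) HeckeAlg (JZero N)),
      (∀ ℓ : ℕ, (hℓ : ℓ.Prime) → ¬ ℓ ∣ N * p →
        ∀ A : ValuationSubring Qb, A.LiesOverPrime ℓ →
          ∃ (G : Type) (_ : AddCommGroup G) (ρ : JZero N →+ G),
            (∀ σ ∈ A.inertiaSubgroupIn ℚ, ∀ x : JZero N, ρ (σ • x) = ρ x) ∧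
            (∀ σ : Qb ≃ₐ[ℚ] Qb, A.IsFrobeniusAt σ ℓ → ∀ x : JZero N,
              ρ (σ • σ • x) - ρ (heckeOperatorBar N ⟨ℓ, hℓ⟩ (σ • x)) + ℓ • ρ x = 0) ∧
            (∀ x : JZero N, (∃ n : ℕ, p ^ n • x = 0) → ρ x = 0 → x = 0)) →
      SpecializationExists (K := ℚ) (L := Qb) N p (JZero N) := by
  let _instM : Module HeckeAlg (JZero N) := heckeModuleBar N
  intro _ H ℓ hℓ hℓNp A hA
  obtain ⟨G, _, ρ, hI, hF, hinj⟩ := H ℓ hℓ hℓNp A hA
  obtain ⟨s₀, hs₀⟩ := Fermat.Agent.Common.exists_isFrobeniusAt A ℓ hℓ hA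
  refine exists_specialization_of_detector (K := ℚ) (L := Qb) (J := JZero N) p A ℓ hℓ s₀ hs₀ ρ
    hI (fun x => ?_) hinj
  have e : (heckeGen ⟨ℓ, hℓ⟩ : HeckeAlg) • (s₀ • x) = heckeOperatorBar N ⟨ℓ, hℓ⟩ (s₀ • x) :=
    heckeModuleBar_heckeGen_smul hcomm ⟨ℓ, hℓ⟩ (s₀ • x)
  rw [e]
  exact hF s₀ hs₀ x

/-- **S37 from a reduction map**, split form: `ρ` is invariant under inertia, intertwines the
Frobenius lifts with an additive map `φ`, satisfies the congruence relation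
`ρ ∘ T_ℓ = (φ + ℓ ψ) ∘ ρ` with `ψ ∘ φ = id`, and is injective on `p`-power torsion. -/
theorem specializationExists_of_reduction (N p : ℕ) [NeZero N]
    (hcomm : HeckeOperatorsCommuteBar N) :
    letI := heckeModuleBar N
    ∀ (_ : SMulCommClass (Qb ≃ₐ[ℚ] Qb) HeckeAlg (JZero N)),
      (∀ ℓ : ℕ, (hℓ : ℓ.Prime) → ¬ ℓ ∣ N * p →
        ∀ A : ValuationSubring Qb, A.LiesOverPrime ℓ →
          ∃ (G : Type) (_ : AddCommGroup G) (ρ : JZero N →+ G) (φ ψ : G →+ G),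
            (∀ g : G, ψ (φ g) = g) ∧
            (∀ σ ∈ A.inertiaSubgroupIn ℚ, ∀ x : JZero N, ρ (σ • x) = ρ x) ∧
            (∀ σ : Qb ≃ₐ[ℚ] Qb, A.IsFrobeniusAt σ ℓ → ∀ x : JZero N, ρ (σ • x) = φ (ρ x)) ∧
            (∀ x : JZero N, ρ (heckeOperatorBar N ⟨ℓ, hℓ⟩ x) = φ (ρ x) + ℓ • ψ (ρ x)) ∧
            (∀ x : JZero N, (∃ n : ℕ, p ^ n • x = 0) → ρ x = 0 → x = 0)) →
      SpecializationExists (K := ℚ) (L := Qb) N p (JZero N) := by
  intro inst H
  refine specializationExists_of_detector N p hcomm inst ?_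
  intro ℓ hℓ hℓNp A hA
  obtain ⟨G, instG, ρ, φ, ψ, hψφ, hI, hFr, hT, hinj⟩ := H ℓ hℓ hℓNp A hA
  refine ⟨G, instG, ρ, hI, fun σ hσ x => ?_, hinj⟩
  rw [hT, hFr σ hσ, hFr σ hσ, hψφ]
  abel

end JZero

end

end Fermat.Agent.S37.Assembly
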