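import Mathlib
import Fermat.Prelude.Def_ModularCurve_HeckeModule
import Fermat.Agent.S37.Assembly

/-!
# S37: the Galois side of the centre library

* elementwise forms of "decomposition group", "inertia", "Frobenius lift" for a valuation
  subring `A` of `L` (prelude currency `inertiaSubgroupIn`, `IsFrobeniusAt`);
* values of functions at places (`IsValueAt`) and their behaviour under semilinear
  automorphisms, in particular under the arithmetic Galois action on `laurentBaseChange L F₀`.
-/

set_option autoImplicit false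

namespace Fermat.Agent.S37.GaloisValue

open ModularCurve AlgebraicCurve

open scoped Pointwise

noncomputable section

section Elementwise

variable {K L : Type*} [Field K] [Field L] [Algebra K L]

/-- Elementwise form of the decomposition group. -/
theorem mem_decompositionSubgroup_iff (A : ValuationSubring L) (σ : L ≃ₐ[K] L) :
    σ ∈ A.decompositionSubgroup K ↔ ∀ x : L, x ∈ A ↔ σ x ∈ A := by
  rw [MulAction.mem_stabilizer_iff]
  constructor
  · intro h x
    constructor
    · intro hx
      have h1 : σ • x ∈ σ • A := ValuationSubring.smul_mem_pointwise_smul σ x A hx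
      rw [h] at h1
      exact h1
    · intro hx
      have h1 : σ x ∈ σ • A := by rw [h]; exact hx
      rw [ValuationSubring.mem_pointwise_smul_iff_inv_smul_mem] at h1
      have h2 : σ⁻¹ • σ x = x := by
        show σ.symm (σ x) = x
        exact σ.symm_apply_apply x
      rwa [h2] at h1
  · intro h
    ext x
    rw [ValuationSubring.mem_pointwise_smul_iff_inv_smul_mem, h (σ⁻¹ • x)]
    have h2 : σ (σ⁻¹ • x) = x := by
      show σ (σ.symm x) = x
      exact σ.apply_symm_apply x
    rw [h2]

theorem map_mem_of_mem_decompositionSubgroup (A : ValuationSubring L) {σ : L ≃ₐ[K] L}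
    (hσ : σ ∈ A.decompositionSubgroup K) {x : L} (hx : x ∈ A) : σ x ∈ A :=
  ((mem_decompositionSubgroup_iff A σ).mp hσ x).mp hx

/-- The action of the decomposition group on `A` is the restriction of the action on `L`. -/
theorem coe_decomposition_smul (A : ValuationSubring L) {σ : L ≃ₐ[K] L}
    (hσ : σ ∈ A.decompositionSubgroup K) (a : A) :
    (((⟨σ, hσ⟩ : A.decompositionSubgroup K) • a : A) : L) = σ (a : L) := rfl

/-- Elementwise form of a Frobenius lift. -/
theorem isFrobeniusAt_iff (A : ValuationSubring L) (σ : L ≃ₐ[K] L) (ℓ : ℕ) :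
    A.IsFrobeniusAt σ ℓ ↔
      (∀ x : L, x ∈ A ↔ σ x ∈ A) ∧ ∀ x : L, x ∈ A → A.valuation (σ x - x ^ ℓ) < 1 := by
  constructor
  · rintro ⟨hσ, h⟩
    refine ⟨(mem_decompositionSubgroup_iff A σ).mp hσ, fun x hx => ?_⟩
    have h1 := h (IsLocalRing.residue A ⟨x, hx⟩)
    rw [← IsLocalRing.ResidueField.residue_smul, ← map_pow, ← sub_eq_zero, ← map_sub,
      IsLocalRing.residue_eq_zero_iff, A.valuation_lt_one_iff] at h1
    exact h1
  · rintro ⟨hmem, h⟩
    have hσ : σ ∈ A.decompositionSubgroup K := (mem_decompositionSubgroup_iff A σ).mpr hmem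
    refine ⟨hσ, fun y => ?_⟩
    obtain ⟨a, rfl⟩ := IsLocalRing.residue_surjective y
    rw [← IsLocalRing.ResidueField.residue_smul, ← map_pow, ← sub_eq_zero, ← map_sub,
      IsLocalRing.residue_eq_zero_iff, A.valuation_lt_one_iff]
    exact h a a.2

/-- Elementwise form of the prelude's inertia subgroup. -/
theorem mem_inertiaSubgroupIn_iff_valuation (A : ValuationSubring L) (σ : L ≃ₐ[K] L) :
    σ ∈ A.inertiaSubgroupIn K ↔
      (∀ x : L, x ∈ A ↔ σ x ∈ A) ∧ ∀ x : L, x ∈ A → A.valuation (σ x - x) < 1 := by
  rw [Fermat.Agent.S37.Assembly.mem_inertiaSubgroupIn_iff]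
  constructor
  · rintro ⟨hσ, h⟩
    refine ⟨(mem_decompositionSubgroup_iff A σ).mp hσ, fun x hx => ?_⟩
    have h1 := h (IsLocalRing.residue A ⟨x, hx⟩)
    rw [← IsLocalRing.ResidueField.residue_smul, ← sub_eq_zero, ← map_sub,
      IsLocalRing.residue_eq_zero_iff, A.valuation_lt_one_iff] at h1
    exact h1
  · rintro ⟨hmem, h⟩
    have hσ : σ ∈ A.decompositionSubgroup K := (mem_decompositionSubgroup_iff A σ).mpr hmem
    refine ⟨hσ, fun y => ?_⟩
    obtain ⟨a, rfl⟩ := IsLocalRing.residue_surjective y
    rw [← IsLocalRing.ResidueField.residue_smul, ← sub_eq_zero, ← map_sub,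
      IsLocalRing.residue_eq_zero_iff, A.valuation_lt_one_iff]
    exact h a a.2

theorem IsFrobeniusAt.valuation_sub_pow_lt_one {A : ValuationSubring L} {σ : L ≃ₐ[K] L} {ℓ : ℕ}
    (h : A.IsFrobeniusAt σ ℓ) {x : L} (hx : x ∈ A) : A.valuation (σ x - x ^ ℓ) < 1 :=
  ((isFrobeniusAt_iff A σ ℓ).mp h).2 x hx

theorem valuation_sub_lt_one_of_mem_inertia {A : ValuationSubring L} {σ : L ≃ₐ[K] L}
    (h : σ ∈ A.inertiaSubgroupIn K) {x : L} (hx : x ∈ A) : A.valuation (σ x - x) < 1 :=
  ((mem_inertiaSubgroupIn_iff_valuation A σ).mp h).2 x hx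

theorem mem_decompositionSubgroup_of_mem_inertia {A : ValuationSubring L} {σ : L ≃ₐ[K] L}
    (h : σ ∈ A.inertiaSubgroupIn K) : σ ∈ A.decompositionSubgroup K :=
  (mem_decompositionSubgroup_iff A σ).mpr ((mem_inertiaSubgroupIn_iff_valuation A σ).mp h).1

end Elementwise

section Values

variable {K F : Type*} [Field K] [Field F] [Algebra K F]

/-- `u` has the value `a` at the place `v`: `u - a` lies in the maximal ideal of `v`. -/
def IsValueAt (v : Place K F) (u : F) (a : K) : Prop :=
  u - algebraMap K F a ∈ v.toValuationSubring.nonunits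

theorem isValueAt_iff (v : Place K F) (u : F) (a : K) :
    IsValueAt v u a ↔ v.toValuationSubring.valuation (u - algebraMap K F a) < 1 :=
  v.toValuationSubring.mem_nonunits_iff

theorem IsValueAt.mem {v : Place K F} {u : F} {a : K} (h : IsValueAt v u a) :
    u ∈ v.toValuationSubring := by
  have h1 : u - algebraMap K F a ∈ v.toValuationSubring :=
    v.toValuationSubring.nonunits_le h
  have h2 := add_mem h1 (v.algebraMap_mem' a)
  rwa [sub_add_cancel] at h2

theorem isValueAt_algebraMap (v : Place K F) (a : K) : IsValueAt v (algebraMap K F a) a := by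
  rw [isValueAt_iff, sub_self, map_zero]
  exact zero_lt_one

theorem IsValueAt.add {v : Place K F} {u u' : F} {a a' : K} (h : IsValueAt v u a)
    (h' : IsValueAt v u' a') : IsValueAt v (u + u') (a + a') := by
  rw [isValueAt_iff] at h h' ⊢
  have e : u + u' - algebraMap K F (a + a')
      = (u - algebraMap K F a) + (u' - algebraMap K F a') := by rw [map_add]; ring
  rw [e]
  exact lt_of_le_of_lt (Valuation.map_add _ _ _) (max_lt h h')

theorem IsValueAt.neg {v : Place K F} {u : F} {a : K} (h : IsValueAt v u a) :
    IsValueAt v (-u) (-a) := by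
  rw [isValueAt_iff] at h ⊢
  have e : -u - algebraMap K F (-a) = -(u - algebraMap K F a) := by rw [map_neg]; ring
  rwa [e, Valuation.map_neg]

theorem IsValueAt.sub {v : Place K F} {u u' : F} {a a' : K} (h : IsValueAt v u a)
    (h' : IsValueAt v u' a') : IsValueAt v (u - u') (a - a') := by
  rw [sub_eq_add_neg, sub_eq_add_neg]
  exact h.add h'.neg

theorem IsValueAt.mul {v : Place K F} {u u' : F} {a a' : K} (h : IsValueAt v u a)
    (h' : IsValueAt v u' a') : IsValueAt v (u * u') (a * a') := by
  have hu' : v.toValuationSubring.valuation u' ≤ 1 :=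
    (v.toValuationSubring.valuation_le_one_iff u').mpr h'.mem
  have ha : v.toValuationSubring.valuation (algebraMap K F a) ≤ 1 :=
    (v.toValuationSubring.valuation_le_one_iff _).mpr (v.algebraMap_mem' a)
  rw [isValueAt_iff] at h h' ⊢
  have e : u * u' - algebraMap K F (a * a')
      = (u - algebraMap K F a) * u' + algebraMap K F a * (u' - algebraMap K F a') := by
    rw [map_mul]; ring
  rw [e]
  refine lt_of_le_of_lt (Valuation.map_add _ _ _) (max_lt ?_ ?_)
  · rw [map_mul]
    calc v.toValuationSubring.valuation (u - algebraMap K F a) * v.toValuationSubring.valuation u'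
        ≤ v.toValuationSubring.valuation (u - algebraMap K F a) * 1 := by gcongr
      _ = v.toValuationSubring.valuation (u - algebraMap K F a) := mul_one _
      _ < 1 := h
  · rw [map_mul]
    calc v.toValuationSubring.valuation (algebraMap K F a)
          * v.toValuationSubring.valuation (u' - algebraMap K F a')
        ≤ 1 * v.toValuationSubring.valuation (u' - algebraMap K F a') := by gcongr
      _ = v.toValuationSubring.valuation (u' - algebraMap K F a') := one_mul _
      _ < 1 := h'

theorem IsValueAt.pow {v : Place K F} {u : F} {a : K} (h : IsValueAt v u a) (n : ℕ) :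
    IsValueAt v (u ^ n) (a ^ n) := by
  induction n with
  | zero =>
    rw [pow_zero, pow_zero]
    simpa using isValueAt_algebraMap v (1 : K)
  | succ n ih =>
    rw [pow_succ, pow_succ]
    exact ih.mul h

/-- Values are unique. -/
theorem IsValueAt.unique {v : Place K F} {u : F} {a b : K} (h : IsValueAt v u a)
    (h' : IsValueAt v u b) : a = b := by
  by_contra hab
  have h1 : IsValueAt v (u - u) (a - b) := h.sub h'
  rw [sub_self, isValueAt_iff, zero_sub, Valuation.map_neg] at h1
  have hne : a - b ≠ 0 := sub_ne_zero.mpr hab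
  have h2 : algebraMap K F (a - b)⁻¹ ∈ v.toValuationSubring := v.algebraMap_mem' _
  have h3 : v.toValuationSubring.valuation (algebraMap K F (a - b)⁻¹) ≤ 1 :=
    (v.toValuationSubring.valuation_le_one_iff _).mpr h2
  have h4 : v.toValuationSubring.valuation (algebraMap K F (a - b)⁻¹ * algebraMap K F (a - b))
      = 1 := by
    rw [← map_mul, inv_mul_cancel₀ hne, map_one, map_one]
  rw [map_mul] at h4
  have h5 : v.toValuationSubring.valuation (algebraMap K F (a - b)⁻¹)
      * v.toValuationSubring.valuation (algebraMap K F (a - b)) < 1 := by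
    calc v.toValuationSubring.valuation (algebraMap K F (a - b)⁻¹)
          * v.toValuationSubring.valuation (algebraMap K F (a - b))
        ≤ 1 * v.toValuationSubring.valuation (algebraMap K F (a - b)) := by gcongr
      _ = v.toValuationSubring.valuation (algebraMap K F (a - b)) := one_mul _
      _ < 1 := h1
  rw [h4] at h5
  exact lt_irrefl _ h5

/-- Membership in the valuation ring of a translated place. -/
theorem smul_mem_smul_place_iff (g : SemilinearAut K F) (v : Place K F) (u : F) :
    g • u ∈ (g • v).toValuationSubring ↔ u ∈ v.toValuationSubring := by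
  rw [SemilinearAut.smul_toValuationSubring,
    ValuationSubring.mem_pointwise_smul_iff_inv_smul_mem, inv_smul_smul]

/-- Nonunits of a valuation subring: zero, or the inverse is not in the ring. -/
theorem mem_nonunits_iff_inv_notMem (A : ValuationSubring F) (u : F) :
    u ∈ A.nonunits ↔ u = 0 ∨ u⁻¹ ∉ A := by
  rw [A.mem_nonunits_iff]
  by_cases hu : u = 0
  · subst hu
    simp
  · have hv : A.valuation u ≠ 0 := (Valuation.ne_zero_iff _).mpr hu
    rw [← A.valuation_le_one_iff, map_inv₀, not_le, one_lt_inv₀ (zero_lt_iff.mpr hv)]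
    simp [hu]

/-- Membership in the maximal ideal of a translated place. -/
theorem smul_mem_nonunits_smul_place_iff (g : SemilinearAut K F) (v : Place K F) (u : F) :
    g • u ∈ (g • v).toValuationSubring.nonunits ↔ u ∈ v.toValuationSubring.nonunits := by
  rw [mem_nonunits_iff_inv_notMem, mem_nonunits_iff_inv_notMem]
  have h0 : g • u = 0 ↔ u = 0 := by
    constructor
    · intro h
      have := congrArg (fun z => g⁻¹ • z) h
      simpa using this
    · intro h
      rw [h, smul_zero]
  have h1 : (g • u)⁻¹ = g • u⁻¹ := (smul_inv'' g u).symm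
  rw [h0, h1, smul_mem_smul_place_iff]

/-- Semilinear automorphisms transport values. -/
theorem IsValueAt.smul {v : Place K F} {u : F} {a : K} (h : IsValueAt v u a)
    (g : SemilinearAut K F) :
    IsValueAt (g • v) (g • u) (SemilinearAut.baseAut g a) := by
  unfold IsValueAt at h ⊢
  rw [← SemilinearAut.smul_algebraMap, ← smul_sub]
  exact (smul_mem_nonunits_smul_place_iff g v _).mpr h

/-- `f (g P) = g ((g⁻¹ f) (P))`. -/
theorem IsValueAt.of_inv_smul {v : Place K F} {u : F} {a : K} (g : SemilinearAut K F)
    (h : IsValueAt v (g⁻¹ • u) a) : IsValueAt (g • v) u (SemilinearAut.baseAut g a) := by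
  have h1 := h.smul g
  rwa [smul_inv_smul] at h1

theorem isValueAt_smul_iff (g : SemilinearAut K F) (v : Place K F) (u : F) (a : K) :
    IsValueAt (g • v) (g • u) (SemilinearAut.baseAut g a) ↔ IsValueAt v u a := by
  unfold IsValueAt
  rw [← SemilinearAut.smul_algebraMap, ← smul_sub]
  exact smul_mem_nonunits_smul_place_iff g v _

end Values

section Arithmetic

variable {L : Type*} [Field L] [Algebra ℚ L] (F₀ : IntermediateField ℚ (LaurentSeries ℚ))

/-- Values under the arithmetic Galois action (coefficientwise on `q`-expansions):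
`(σ f) (σ P) = σ (f (P))`. -/
theorem isValueAt_arithmeticGalois {P : Place L (laurentBaseChange L F₀)}
    {f : laurentBaseChange L F₀} {c : L} (h : IsValueAt P f c) (σ : L ≃ₐ[ℚ] L) :
    IsValueAt (arithmeticGalois F₀ σ • P) (arithmeticGalois F₀ σ • f) (σ c) :=
  h.smul (arithmeticGalois F₀ σ)

/-- `f (σ P) = σ ((σ⁻¹ f) (P))` for the arithmetic Galois action. -/
theorem isValueAt_arithmeticGalois_of_inv {P : Place L (laurentBaseChange L F₀)}
    {f : laurentBaseChange L F₀} {c : L} (σ : L ≃ₐ[ℚ] L)
    (h : IsValueAt P ((arithmeticGalois F₀ σ)⁻¹ • f) c) :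
    IsValueAt (arithmeticGalois F₀ σ • P) f (σ c) :=
  h.of_inv_smul (arithmeticGalois F₀ σ)

/-- The arithmetic Galois action on a function is coefficientwise. -/
theorem coe_arithmeticGalois_inv_smul (σ : L ≃ₐ[ℚ] L) (f : laurentBaseChange L F₀) :
    (((arithmeticGalois F₀ σ)⁻¹ • f : laurentBaseChange L F₀) : LaurentSeries L)
      = coeffMap (σ.symm : L →+* L) (f : LaurentSeries L) := by
  rw [← map_inv]
  exact coe_arithmeticGalois_smul F₀ σ⁻¹ f

end Arithmetic

end

end Fermat.Agent.S37.GaloisValue
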