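import Mathlib
import Fermat.Prelude.Def_ModularCurve_HeckeModule
import Fermat.Agent.S24.Defs
import Fermat.Agent.S37.GaloisValue

/-!
# S37: the centre relation on places (definition layer)

`A` is a valuation subring of `ℚ̄` (over a prime `ℓ ∤ N`), `F = modularFunctionFieldBar N`,
`j = S24.jBC ℚ̄ N`.

* `IsFinInt A N f` : `f` is integral over `A[j]`;  `IsCuspInt A N f` : `f` is integral over the
  local ring `A[t]_(𝔪_A, t)`, `t = 1/j` (i.e. `u(t) f` is integral over `A[t]` for some
  `u ∈ A[t]` with unit constant coefficient);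
* `IsFinPlace A N P` : `j(P) ∈ A`;  `IsCuspPlace A N P` : `(1/j)(P) ∈ 𝔪_A`;
* `SameCentre A N P P'` : both places are of the same type and every function integral on the
  corresponding chart has congruent values at `P` and `P'`;
* `centreSubgroup A N` : the subgroup of divisors generated by `P - P'` with `P ~ P'`;
* `GaussInt A g` / `GaussSmall A g` for a `q`-series `g` over `ℚ̄` (quotient currency);
* the three Props `ValueProp`, `GaussIntProp`, `GaussSmallProp` consumed by `(K-a)`, `(K-b)`.
-/

set_option autoImplicit false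

namespace Fermat.Agent.S37.Centre

open ModularCurve AlgebraicCurve Fermat.Agent.S37.GaloisValue

noncomputable section

local notation "Qb" => AlgebraicClosure ℚ

section Series

variable (A : ValuationSubring Qb)

/-- `g = x / y` with `x, y ∈ A((q))` and `y` of nonzero reduction. -/
def GaussInt (g : LaurentSeries Qb) : Prop :=
  ∃ x y : LaurentSeries A, coeffMap (IsLocalRing.residue A) y ≠ 0 ∧
    g * coeffMap A.subtype y = coeffMap A.subtype x

/-- `g = x / y` with `x, y ∈ A((q))`, `x` of zero reduction and `y` of nonzero reduction. -/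
def GaussSmall (g : LaurentSeries Qb) : Prop :=
  ∃ x y : LaurentSeries A, coeffMap (IsLocalRing.residue A) x = 0 ∧
    coeffMap (IsLocalRing.residue A) y ≠ 0 ∧
    g * coeffMap A.subtype y = coeffMap A.subtype x

theorem GaussSmall.gaussInt {g : LaurentSeries Qb} (h : GaussSmall A g) : GaussInt A g := by
  obtain ⟨x, y, _, hy, hxy⟩ := h
  exact ⟨x, y, hy, hxy⟩

end Series

variable (A : ValuationSubring Qb) (N : ℕ) [NeZero N]

/-- The constants of `A` inside the function field. -/
def constA : ↥A →+* ↥(modularFunctionFieldBar N) :=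
  (algebraMap Qb ↥(modularFunctionFieldBar N)).comp A.subtype

/-- `A[X] → F`, `X ↦ j`. -/
def evJ : Polynomial ↥A →+* ↥(modularFunctionFieldBar N) :=
  Polynomial.eval₂RingHom (constA A N) (Fermat.Agent.S24.jBC Qb N)

/-- `A[X] → F`, `X ↦ 1/j`. -/
def evJinv : Polynomial ↥A →+* ↥(modularFunctionFieldBar N) :=
  Polynomial.eval₂RingHom (constA A N) (Fermat.Agent.S24.jBC Qb N)⁻¹

/-- `f` is integral over `A[j]`. -/
def IsFinInt (f : ↥(modularFunctionFieldBar N)) : Prop :=
  (evJ A N).IsIntegralElem f

/-- `f` is integral over the LOCAL ring `A[t]_(𝔪_A, t)`, `t = 1/j`: there is `u ∈ A[t]` with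
unit constant coefficient such that `u(t) f` is integral over `A[t]`.  (The cusp chart must be
local at `t = 0`: `1/j(q)` is integral over `A[1/j(q^ℓ)]` only after inverting such a `u`.) -/
def IsCuspInt (f : ↥(modularFunctionFieldBar N)) : Prop :=
  ∃ u : Polynomial ↥A, IsUnit (u.coeff 0) ∧ (evJinv A N).IsIntegralElem (evJinv A N u * f)

variable {A N}

theorem isFinInt_evJ (u : Polynomial ↥A) : IsFinInt A N (evJ A N u) :=
  (evJ A N).isIntegralElem_map

theorem IsFinInt.add {f g : ↥(modularFunctionFieldBar N)} (hf : IsFinInt A N f)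
    (hg : IsFinInt A N g) : IsFinInt A N (f + g) :=
  RingHom.IsIntegralElem.add _ hf hg

theorem IsFinInt.mul {f g : ↥(modularFunctionFieldBar N)} (hf : IsFinInt A N f)
    (hg : IsFinInt A N g) : IsFinInt A N (f * g) :=
  RingHom.IsIntegralElem.mul _ hf hg

theorem IsFinInt.neg {f : ↥(modularFunctionFieldBar N)} (hf : IsFinInt A N f) :
    IsFinInt A N (-f) :=
  RingHom.IsIntegralElem.neg _ hf

theorem IsFinInt.sub {f g : ↥(modularFunctionFieldBar N)} (hf : IsFinInt A N f)
    (hg : IsFinInt A N g) : IsFinInt A N (f - g) :=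
  RingHom.IsIntegralElem.sub _ hf hg

theorem evJ_C (a : ↥A) : evJ A N (Polynomial.C a) = algebraMap Qb _ (a : Qb) := by
  simp [evJ, constA]

theorem evJ_X : evJ A N Polynomial.X = Fermat.Agent.S24.jBC Qb N := by
  simp [evJ]

theorem evJinv_C (a : ↥A) : evJinv A N (Polynomial.C a) = algebraMap Qb _ (a : Qb) := by
  simp [evJinv, constA]

theorem evJinv_X : evJinv A N Polynomial.X = (Fermat.Agent.S24.jBC Qb N)⁻¹ := by
  simp [evJinv]

theorem isFinInt_const {a : Qb} (ha : a ∈ A) :
    IsFinInt A N (algebraMap Qb ↥(modularFunctionFieldBar N) a) := by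
  have := isFinInt_evJ (A := A) (N := N) (Polynomial.C ⟨a, ha⟩)
  rwa [evJ_C] at this

theorem isFinInt_j : IsFinInt A N (Fermat.Agent.S24.jBC Qb N) := by
  have := isFinInt_evJ (A := A) (N := N) Polynomial.X
  rwa [evJ_X] at this

theorem isCuspInt_of_isIntegralElem {f : ↥(modularFunctionFieldBar N)}
    (hf : (evJinv A N).IsIntegralElem f) : IsCuspInt A N f :=
  ⟨1, by simp, by simpa using hf⟩

theorem isCuspInt_evJinv (u : Polynomial ↥A) : IsCuspInt A N (evJinv A N u) :=
  isCuspInt_of_isIntegralElem (evJinv A N).isIntegralElem_map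

theorem IsCuspInt.add {f g : ↥(modularFunctionFieldBar N)} (hf : IsCuspInt A N f)
    (hg : IsCuspInt A N g) : IsCuspInt A N (f + g) := by
  obtain ⟨u, hu, hf⟩ := hf
  obtain ⟨w, hw, hg⟩ := hg
  refine ⟨u * w, ?_, ?_⟩
  · rw [Polynomial.mul_coeff_zero]
    exact hu.mul hw
  · have e : evJinv A N (u * w) * (f + g)
        = evJinv A N w * (evJinv A N u * f) + evJinv A N u * (evJinv A N w * g) := by
      rw [map_mul]; ring
    rw [e]
    exact RingHom.IsIntegralElem.add _
      (RingHom.IsIntegralElem.mul _ (evJinv A N).isIntegralElem_map hf)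
      (RingHom.IsIntegralElem.mul _ (evJinv A N).isIntegralElem_map hg)

theorem IsCuspInt.mul {f g : ↥(modularFunctionFieldBar N)} (hf : IsCuspInt A N f)
    (hg : IsCuspInt A N g) : IsCuspInt A N (f * g) := by
  obtain ⟨u, hu, hf⟩ := hf
  obtain ⟨w, hw, hg⟩ := hg
  refine ⟨u * w, ?_, ?_⟩
  · rw [Polynomial.mul_coeff_zero]
    exact hu.mul hw
  · have e : evJinv A N (u * w) * (f * g)
        = (evJinv A N u * f) * (evJinv A N w * g) := by
      rw [map_mul]; ring
    rw [e]
    exact RingHom.IsIntegralElem.mul _ hf hg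

theorem IsCuspInt.neg {f : ↥(modularFunctionFieldBar N)} (hf : IsCuspInt A N f) :
    IsCuspInt A N (-f) := by
  obtain ⟨u, hu, hf⟩ := hf
  refine ⟨u, hu, ?_⟩
  rw [mul_neg]
  exact RingHom.IsIntegralElem.neg _ hf

theorem IsCuspInt.sub {f g : ↥(modularFunctionFieldBar N)} (hf : IsCuspInt A N f)
    (hg : IsCuspInt A N g) : IsCuspInt A N (f - g) := by
  rw [sub_eq_add_neg]
  exact hf.add hg.neg

theorem isCuspInt_const {a : Qb} (ha : a ∈ A) :
    IsCuspInt A N (algebraMap Qb ↥(modularFunctionFieldBar N) a) := by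
  have := isCuspInt_evJinv (A := A) (N := N) (Polynomial.C ⟨a, ha⟩)
  rwa [evJinv_C] at this

theorem isCuspInt_jinv : IsCuspInt A N (Fermat.Agent.S24.jBC Qb N)⁻¹ := by
  have := isCuspInt_evJinv (A := A) (N := N) Polynomial.X
  rwa [evJinv_X] at this

variable (A N)

/-- `j(P) ∈ A`. -/
def IsFinPlace (P : Place Qb ↥(modularFunctionFieldBar N)) : Prop :=
  ∃ a : Qb, a ∈ A ∧ IsValueAt P (Fermat.Agent.S24.jBC Qb N) a

/-- `(1/j)(P) ∈ 𝔪_A`. -/
def IsCuspPlace (P : Place Qb ↥(modularFunctionFieldBar N)) : Prop :=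
  ∃ a : Qb, A.valuation a < 1 ∧ IsValueAt P (Fermat.Agent.S24.jBC Qb N)⁻¹ a

/-- Same centre on the finite chart. -/
def SameCentreFin (P P' : Place Qb ↥(modularFunctionFieldBar N)) : Prop :=
  IsFinPlace A N P ∧ IsFinPlace A N P' ∧
    ∀ f : ↥(modularFunctionFieldBar N), IsFinInt A N f → ∀ c c' : Qb,
      IsValueAt P f c → IsValueAt P' f c' → A.valuation (c - c') < 1

/-- Same centre on the cusp chart. -/
def SameCentreCusp (P P' : Place Qb ↥(modularFunctionFieldBar N)) : Prop :=
  IsCuspPlace A N P ∧ IsCuspPlace A N P' ∧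
    ∀ f : ↥(modularFunctionFieldBar N), IsCuspInt A N f → ∀ c c' : Qb,
      IsValueAt P f c → IsValueAt P' f c' → A.valuation (c - c') < 1

/-- `P ~ P'`: the two places have the same centre on the special fibre. -/
def SameCentre (P P' : Place Qb ↥(modularFunctionFieldBar N)) : Prop :=
  SameCentreFin A N P P' ∨ SameCentreCusp A N P P'

/-- The subgroup of divisors generated by the `P - P'` with `P ~ P'`. -/
def centreSubgroup : AddSubgroup (Divisor Qb ↥(modularFunctionFieldBar N)) :=
  AddSubgroup.closure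
    {D | ∃ P P' : Place Qb ↥(modularFunctionFieldBar N), SameCentre A N P P' ∧
      D = Finsupp.single P 1 - Finsupp.single P' 1}

theorem single_sub_single_mem_centreSubgroup {P P' : Place Qb ↥(modularFunctionFieldBar N)}
    (h : SameCentre A N P P') :
    (Finsupp.single P 1 - Finsupp.single P' 1 : Divisor Qb ↥(modularFunctionFieldBar N))
      ∈ centreSubgroup A N :=
  AddSubgroup.subset_closure ⟨P, P', h, rfl⟩

/-- (VAL) functions integral on a chart have values in `A` at the places of that chart. -/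
def ValueProp : Prop :=
  (∀ f : ↥(modularFunctionFieldBar N), IsFinInt A N f →
      ∀ P : Place Qb ↥(modularFunctionFieldBar N), IsFinPlace A N P →
        ∃ c : Qb, c ∈ A ∧ IsValueAt P f c) ∧
  (∀ f : ↥(modularFunctionFieldBar N), IsCuspInt A N f →
      ∀ P : Place Qb ↥(modularFunctionFieldBar N), IsCuspPlace A N P →
        ∃ c : Qb, c ∈ A ∧ IsValueAt P f c)

/-- (GI) functions integral on a chart are Gauss-integral. -/
def GaussIntProp : Prop :=
  (∀ f : ↥(modularFunctionFieldBar N), IsFinInt A N f → GaussInt A (f : LaurentSeries Qb)) ∧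
  (∀ f : ↥(modularFunctionFieldBar N), IsCuspInt A N f → GaussInt A (f : LaurentSeries Qb))

/-- (GS) a Gauss-small function integral on a chart has values in `𝔪_A` at the places of
that chart. -/
def GaussSmallProp : Prop :=
  (∀ g : ↥(modularFunctionFieldBar N), IsFinInt A N g → GaussSmall A (g : LaurentSeries Qb) →
      ∀ P : Place Qb ↥(modularFunctionFieldBar N), IsFinPlace A N P →
        ∃ c : Qb, A.valuation c < 1 ∧ IsValueAt P g c) ∧
  (∀ g : ↥(modularFunctionFieldBar N), IsCuspInt A N g → GaussSmall A (g : LaurentSeries Qb) →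
      ∀ P : Place Qb ↥(modularFunctionFieldBar N), IsCuspPlace A N P →
        ∃ c : Qb, A.valuation c < 1 ∧ IsValueAt P g c)

end

end Fermat.Agent.S37.Centre
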