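import Mathlib
import Fermat.Prelude.Def_ModularCurve_HeckeModule
import Fermat.Agent.S37.Assembly

/-!
# S37, formal assembly: subgroup form

The same reduction as `Assembly.specializationExists_of_detector`, with the detector given as an
additive subgroup `K` of `J₀(N)` (the detector is the quotient map `J → J ⧸ K`).
-/

set_option autoImplicit false

namespace Fermat.Agent.S37.Assembly

open ModularCurve

noncomputable section

section Abstract

variable {K L : Type*} [Field K] [Field L] [Algebra K L]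
variable {J : Type} [AddCommGroup J] [Module HeckeAlg J]
  [DistribMulAction (L ≃ₐ[K] L) J] [SMulCommClass (L ≃ₐ[K] L) HeckeAlg J]

/-- The abstract assembly, subgroup form. -/
theorem exists_specialization_of_subgroup (p : ℕ) (A : ValuationSubring L) (ℓ : ℕ)
    (hℓ : ℓ.Prime) (s₀ : L ≃ₐ[K] L) (hs₀ : A.IsFrobeniusAt s₀ ℓ)
    (K' : AddSubgroup J)
    (hI : ∀ σ ∈ A.inertiaSubgroupIn K, ∀ x : J, σ • x - x ∈ K')
    (hF : ∀ x : J, s₀ • s₀ • x - heckeGen ⟨ℓ, hℓ⟩ • s₀ • x + ℓ • x ∈ K')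
    (hinj : ∀ x ∈ K', (∃ n : ℕ, p ^ n • x = 0) → x = 0) :
    ∃ (J' : Type) (_ : AddCommGroup J') (_ : Module HeckeAlg J') (sp : J →+ J')
      (F : J' →+ J'),
      IsSpecialization (K := K) p J J' A ℓ sp F ∧ SpecialFibreRelation J' ℓ hℓ F := by
  refine exists_specialization_of_detector (K := K) (L := L) (J := J) p A ℓ hℓ s₀ hs₀
    (QuotientAddGroup.mk' K') (fun σ hσ x => ?_) (fun x => ?_) (fun x hx hx0 => ?_)
  · rw [← sub_eq_zero, ← map_sub]
    exact (QuotientAddGroup.eq_zero_iff _).mpr (hI σ hσ x)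
  · rw [← map_nsmul, ← map_sub, ← map_add]
    exact (QuotientAddGroup.eq_zero_iff _).mpr (hF x)
  · exact hinj x ((QuotientAddGroup.eq_zero_iff _).mp hx0) hx

end Abstract

local notation "Qb" => AlgebraicClosure ℚ

/-- **S37 from a subgroup.**  For every prime `ℓ ∤ N p` and every place `A` over `ℓ` it suffices
to give ONE Frobenius lift `s` at `A` and an additive subgroup `K` of `J₀(N)` which contains
`σ x - x` for `σ` in inertia, contains `s s x - T_ℓ (s x) + ℓ x`, and has no nonzero element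
killed by a power of `p`. -/
theorem specializationExists_of_subgroup (N p : ℕ) [NeZero N]
    (hcomm : HeckeOperatorsCommuteBar N) :
    letI := heckeModuleBar N
    ∀ (_ : SMulCommClass (Qb ≃ₐ[ℚ] Qb) HeckeAlg (JZero N)),
      (∀ ℓ : ℕ, (hℓ : ℓ.Prime) → ¬ ℓ ∣ N * p →
        ∀ A : ValuationSubring Qb, A.LiesOverPrime ℓ →
          ∃ (s : Qb ≃ₐ[ℚ] Qb) (K : AddSubgroup (JZero N)),
            A.IsFrobeniusAt s ℓ ∧
            (∀ σ ∈ A.inertiaSubgroupIn ℚ, ∀ x : JZero N, σ • x - x ∈ K) ∧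
            (∀ x : JZero N, s • s • x - heckeOperatorBar N ⟨ℓ, hℓ⟩ (s • x) + ℓ • x ∈ K) ∧
            (∀ x ∈ K, (∃ n : ℕ, p ^ n • x = 0) → x = 0)) →
      SpecializationExists (K := ℚ) (L := Qb) N p (JZero N) := by
  let _instM : Module HeckeAlg (JZero N) := heckeModuleBar N
  intro _ H ℓ hℓ hℓNp A hA
  obtain ⟨s, K, hs, hI, hF, hinj⟩ := H ℓ hℓ hℓNp A hA
  refine exists_specialization_of_subgroup (K := ℚ) (L := Qb) (J := JZero N) p A ℓ hℓ s hs K
    hI (fun x => ?_) hinj
  have e : (heckeGen ⟨ℓ, hℓ⟩ : HeckeAlg) • (s • x) = heckeOperatorBar N ⟨ℓ, hℓ⟩ (s • x) :=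
    heckeModuleBar_heckeGen_smul hcomm ⟨ℓ, hℓ⟩ (s • x)
  rw [e]
  exact hF x

end

end Fermat.Agent.S37.Assembly
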