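import Mathlib
import Fermat.Prelude.Def_ModularCurve_HeckeModule
import Fermat.Agent.S37.AssemblySubgroup

/-!
# S37: reduction to three divisor-level statements

`SpecializationExists` for `J₀(N)` follows from `HeckeInputsAlong` together with, for each prime
`ℓ ∤ N p` and place `A` over `ℓ`, a Frobenius lift `s` and an additive subgroup `R` of the
divisor group of `F_N` over `ℚ̄` ("divisors with trivial specialization") such that

* (a) `σ P - P ∈ R` for `σ` in the inertia group at `A` and every place `P`;
* (b) `s² P - T_ℓ (s P) + ℓ P ∈ R` for every place `P` (`T_ℓ` the divisor correspondence);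
* (c) a degree-zero divisor in `R`, a `p`-power multiple of which is principal, is principal.
-/

set_option autoImplicit false

namespace Fermat.Agent.S37.DivisorForm

open ModularCurve AlgebraicCurve

noncomputable section

local notation "Qb" => AlgebraicClosure ℚ

section General

variable {K F : Type*} [Field K] [Field F] [Algebra K F]

/-- The classes of the degree-zero divisors lying in a subgroup `R` of the divisor group. -/
def classesOf (R : AddSubgroup (Divisor K F)) : AddSubgroup (Pic0 K F) where
  carrier := {x | ∃ D : Divisor.degZero (K := K) (F := F), (D : Divisor K F) ∈ R ∧ Pic0.mk D = x}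
  zero_mem' := ⟨0, R.zero_mem, rfl⟩
  add_mem' := by
    rintro _ _ ⟨D, hD, rfl⟩ ⟨E, hE, rfl⟩
    exact ⟨D + E, R.add_mem hD hE, rfl⟩
  neg_mem' := by
    rintro _ ⟨D, hD, rfl⟩
    exact ⟨-D, R.neg_mem hD, rfl⟩

theorem mk_mem_classesOf {R : AddSubgroup (Divisor K F)}
    {D : Divisor.degZero (K := K) (F := F)} (hD : (D : Divisor K F) ∈ R) :
    Pic0.mk D ∈ classesOf R :=
  ⟨D, hD, rfl⟩

/-- An additive map on divisors takes values in `R` as soon as it does so on single places. -/
theorem map_mem_of_forall_single (R : AddSubgroup (Divisor K F))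
    (φ : Divisor K F →+ Divisor K F)
    (h : ∀ P : Place K F, φ (Finsupp.single P 1) ∈ R) (D : Divisor K F) : φ D ∈ R := by
  induction D using Finsupp.induction_linear with
  | zero => rw [map_zero]; exact R.zero_mem
  | add D E hD hE => rw [map_add]; exact R.add_mem hD hE
  | single P n =>
    have e : (Finsupp.single P n : Divisor K F) = n • Finsupp.single P 1 := by
      rw [Finsupp.smul_single, smul_eq_mul, mul_one]
    rw [e, map_zsmul]
    exact R.zsmul_mem (h P) n

/-- Torsion-freeness of the classes, from a divisor-level statement. -/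
theorem eq_zero_of_mem_classesOf (R : AddSubgroup (Divisor K F)) (p : ℕ)
    (hc : ∀ D : Divisor K F, D ∈ R → Divisor.degree D = 0 → ∀ n : ℕ,
      (p ^ n) • D ∈ Divisor.principal (K := K) (F := F) →
        D ∈ Divisor.principal (K := K) (F := F))
    {x : Pic0 K F} (hx : x ∈ classesOf R) (hpx : ∃ n : ℕ, p ^ n • x = 0) : x = 0 := by
  obtain ⟨D, hD, rfl⟩ := hx
  obtain ⟨n, hn⟩ := hpx
  have h1 : Pic0.mk ((p ^ n) • D) = 0 := hn
  have h2 : ((p ^ n) • D : Divisor.degZero (K := K) (F := F)) ∈
      (Divisor.principal (K := K) (F := F)).addSubgroupOf (Divisor.degZero (K := K) (F := F)) :=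
    (QuotientAddGroup.eq_zero_iff _).mp h1
  rw [AddSubgroup.mem_addSubgroupOf, AddSubgroupClass.coe_nsmul] at h2
  have h3 := hc (D : Divisor K F) hD (Divisor.mem_degZero.mp D.2) n h2
  exact (QuotientAddGroup.eq_zero_iff _).mpr (AddSubgroup.mem_addSubgroupOf.mpr h3)

/-- `g x - x` lies in the classes of `R` if `g P - P ∈ R` for all places. -/
theorem smul_sub_mem_classesOf (R : AddSubgroup (Divisor K F)) (g : SemilinearAut K F)
    (h : ∀ P : Place K F,
      (Finsupp.single (g • P) 1 - Finsupp.single P 1 : Divisor K F) ∈ R)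
    (x : Pic0 K F) : g • x - x ∈ classesOf R := by
  obtain ⟨D, rfl⟩ := Pic0.mk_surjective x
  rw [SemilinearAut.pic0_smul_mk]
  refine ⟨SemilinearAut.degZeroSMulHom g D - D, ?_, rfl⟩
  rw [AddSubgroupClass.coe_sub, SemilinearAut.coe_degZeroSMulHom]
  have key := map_mem_of_forall_single R
    (DistribSMul.toAddMonoidHom (Divisor K F) g - AddMonoidHom.id _) (fun P => by
      rw [AddMonoidHom.sub_apply, AddMonoidHom.id_apply]
      show g • (Finsupp.single P 1 : Divisor K F) - Finsupp.single P 1 ∈ R
      rw [SemilinearAut.smul_single]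
      exact h P) (D : Divisor K F)
  exact key

/-- The quadratic relation in the classes of `R`, from its divisor form on single places. -/
theorem quad_mem_classesOf (R : AddSubgroup (Divisor K F)) (g : SemilinearAut K F) (ℓ : ℕ)
    (T : Pic0 K F →+ Pic0 K F) (Tdiv : Divisor K F →+ Divisor K F)
    (hT : ∀ D : Divisor.degZero (K := K) (F := F),
      ∃ E : Divisor.degZero (K := K) (F := F),
        T (Pic0.mk D) = Pic0.mk E ∧ (E : Divisor K F) = Tdiv (D : Divisor K F))
    (hb : ∀ P : Place K F,
      (Finsupp.single (g • g • P) 1 - Tdiv (Finsupp.single (g • P) 1)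
        + ℓ • Finsupp.single P 1 : Divisor K F) ∈ R)
    (x : Pic0 K F) : g • g • x - T (g • x) + ℓ • x ∈ classesOf R := by
  obtain ⟨D, rfl⟩ := Pic0.mk_surjective x
  rw [SemilinearAut.pic0_smul_mk, SemilinearAut.pic0_smul_mk]
  obtain ⟨E, hE, hEcoe⟩ := hT (SemilinearAut.degZeroSMulHom g D)
  rw [hE]
  refine ⟨SemilinearAut.degZeroSMulHom g (SemilinearAut.degZeroSMulHom g D) - E + ℓ • D, ?_,
    rfl⟩
  rw [AddMemClass.coe_add, AddSubgroupClass.coe_sub, AddSubgroupClass.coe_nsmul,
    SemilinearAut.coe_degZeroSMulHom, SemilinearAut.coe_degZeroSMulHom, hEcoe,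
    SemilinearAut.coe_degZeroSMulHom]
  have key := map_mem_of_forall_single R
    ((DistribSMul.toAddMonoidHom (Divisor K F) g).comp
        (DistribSMul.toAddMonoidHom (Divisor K F) g)
      - Tdiv.comp (DistribSMul.toAddMonoidHom (Divisor K F) g)
      + ℓ • AddMonoidHom.id _) (fun P => by
    have h1 := hb P
    simp only [AddMonoidHom.add_apply, AddMonoidHom.sub_apply, AddMonoidHom.comp_apply,
      AddMonoidHom.smul_apply, AddMonoidHom.id_apply, DistribSMul.toAddMonoidHom_apply,
      SemilinearAut.smul_single]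
    exact h1) (D : Divisor K F)
  simpa only [AddMonoidHom.add_apply, AddMonoidHom.sub_apply, AddMonoidHom.comp_apply,
    AddMonoidHom.smul_apply, AddMonoidHom.id_apply, DistribSMul.toAddMonoidHom_apply] using key

end General

section Hecke

variable (N ℓ : ℕ) [NeZero N] [NeZero ℓ]

/-- Unfolding of the prelude's Hecke operator on a class, given the Hecke inputs. -/
theorem heckeOperatorAlong_mk (h : HeckeInputsAlong Qb N ℓ)
    (D : Divisor.degZero (K := Qb) (F := modularFunctionFieldBar N)) :
    ∃ E : Divisor.degZero (K := Qb) (F := modularFunctionFieldBar N),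
      heckeOperatorAlong Qb N ℓ (Pic0.mk D) = Pic0.mk E ∧
        (E : Divisor Qb (modularFunctionFieldBar N))
          = (haveI := h.snd.snd.fst; heckeDivBar h.fst h.snd.fst
              (D : Divisor Qb (modularFunctionFieldBar N))) := by
  have := h.snd.snd.fst
  refine ⟨Pic0.degZeroCorrespondence (heckeBetaBar Qb N ℓ) (heckeAlphaBar Qb N ℓ) h.snd.fst h.fst
    h.snd.snd.snd.snd.1 D, ?_, rfl⟩
  rw [heckeOperatorAlong, dif_pos h]
  rfl

end Hecke

section Main

/-- **S37 from a subgroup of divisors.**  See the module docstring: for each prime `ℓ ∤ N p` and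
place `A` over `ℓ` one needs the Hecke inputs at `(N, ℓ)`, one Frobenius lift `s` and a subgroup
`R` of divisors of `F_N` over `ℚ̄` with (a) `σ P - P ∈ R` for `σ` in inertia, (b)
`s² P - T_ℓ (s P) + ℓ P ∈ R`, (c) degree-zero divisors in `R` with a principal `p`-power
multiple are principal. -/
theorem specializationExists_of_divisorSubgroup (N p : ℕ) [NeZero N]
    (hcomm : HeckeOperatorsCommuteBar N) :
    letI := heckeModuleBar N
    ∀ (_ : SMulCommClass (Qb ≃ₐ[ℚ] Qb) HeckeAlg (JZero N)),
      (∀ ℓ : ℕ, (hℓ : ℓ.Prime) → ¬ ℓ ∣ N * p →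
        ∀ A : ValuationSubring Qb, A.LiesOverPrime ℓ →
          haveI : NeZero ℓ := ⟨hℓ.ne_zero⟩
          HeckeInputsAlong Qb N ℓ ∧
          ∃ (s : Qb ≃ₐ[ℚ] Qb) (R : AddSubgroup (Divisor Qb (modularFunctionFieldBar N))),
            A.IsFrobeniusAt s ℓ ∧
            (∀ σ ∈ A.inertiaSubgroupIn ℚ, ∀ P : Place Qb (modularFunctionFieldBar N),
              (Finsupp.single (arithmeticGalois (modularFunctionFieldFull N) σ • P) 1
                - Finsupp.single P 1 : Divisor Qb (modularFunctionFieldBar N)) ∈ R) ∧
            (∀ (hα : HeckeAlphaBarIntegral Qb N ℓ) (hβ : HeckeBetaBarIntegral Qb N ℓ)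
              (_ : HasPrincipalDivisors Qb (modularFunctionFieldBar (N * ℓ)))
              (P : Place Qb (modularFunctionFieldBar N)),
              (Finsupp.single (arithmeticGalois (modularFunctionFieldFull N) s •
                  arithmeticGalois (modularFunctionFieldFull N) s • P) 1
                - heckeDivBar hα hβ
                    (Finsupp.single (arithmeticGalois (modularFunctionFieldFull N) s • P) 1)
                + ℓ • Finsupp.single P 1 : Divisor Qb (modularFunctionFieldBar N)) ∈ R) ∧
            (∀ D : Divisor Qb (modularFunctionFieldBar N), D ∈ R → Divisor.degree D = 0 →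
              ∀ n : ℕ, (p ^ n) • D ∈ Divisor.principal (K := Qb) (F := modularFunctionFieldBar N) →
                D ∈ Divisor.principal (K := Qb) (F := modularFunctionFieldBar N))) →
      SpecializationExists (K := ℚ) (L := Qb) N p (JZero N) := by
  intro inst H
  refine Fermat.Agent.S37.Assembly.specializationExists_of_subgroup N p hcomm inst ?_
  intro ℓ hℓ hℓNp A hA
  have : NeZero ℓ := ⟨hℓ.ne_zero⟩
  obtain ⟨hIn, s, R, hs, ha, hb, hc⟩ := H ℓ hℓ hℓNp A hA
  refine ⟨s, classesOf R, hs, fun σ hσ x => ?_, fun x => ?_, fun x hx hpx => ?_⟩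
  · rw [galois_smul_pic0_def]
    exact smul_sub_mem_classesOf R _ (ha σ hσ) x
  · -- the quadratic relation
    have := hIn.snd.snd.fst
    have e : heckeOperatorBar N ⟨ℓ, hℓ⟩ (s • x)
        = heckeOperatorAlong Qb N ℓ (s • x) := heckeOperatorBar_apply N ⟨ℓ, hℓ⟩ _
    rw [e]
    exact quad_mem_classesOf R (arithmeticGalois (modularFunctionFieldFull N) s) ℓ
      (heckeOperatorAlong Qb N ℓ) (heckeDivBar hIn.fst hIn.snd.fst)
      (fun D => heckeOperatorAlong_mk N ℓ hIn D) (hb hIn.fst hIn.snd.fst hIn.snd.snd.fst) x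
  · exact eq_zero_of_mem_classesOf R p hc hx hpx

end Main

end

end Fermat.Agent.S37.DivisorForm
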