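import Mathlib
import Fermat.Prelude.Def_AlgebraicCurve_DivisorPushPull
import Fermat.Agent.S24.PrimeBridge

/-!
# S37, package R0 (Dedekind part): the norm formula

For a finite extension `F'/F` of fields over `K`, a Dedekind domain `B` with fraction field `F`
and its integral closure `B'` in `F'`, and a place `v` of `F` containing `B`, the orders of a
function `f` of `F'` at the places over `v` add up to the order at `v` of the norm of `f`
(all places of `F'` of degree one, characteristic zero).  The proof counts primes in the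
relative ideal norm.
-/

set_option autoImplicit false
set_option linter.unusedSectionVars false

namespace Fermat.Agent.S37

open AlgebraicCurve IsDedekindDomain
open UniqueFactorizationMonoid

namespace NormFormula


section Additive

variable {S : Type*} [CommRing S] [IsDedekindDomain S]

/-- two additive functions on nonzero ideals that agree on primes agree -/
theorem additive_ext (c d : Ideal S → ℤ) (hc1 : c ⊤ = 0) (hd1 : d ⊤ = 0)
    (hcm : ∀ I J : Ideal S, I ≠ ⊥ → J ≠ ⊥ → c (I * J) = c I + c J)
    (hdm : ∀ I J : Ideal S, I ≠ ⊥ → J ≠ ⊥ → d (I * J) = d I + d J)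
    (h : ∀ Q : Ideal S, Q.IsPrime → Q ≠ ⊥ → c Q = d Q) (I : Ideal S) (hI : I ≠ ⊥) :
    c I = d I := by
  induction I using UniqueFactorizationMonoid.induction_on_prime with
  | h₁ => exact absurd rfl hI
  | h₂ x hx =>
    rw [Ideal.isUnit_iff] at hx
    rw [hx, hc1, hd1]
  | h₃ a p ha hp ih =>
    have hp0 : p ≠ ⊥ := hp.ne_zero
    have hpp : p.IsPrime := (Ideal.prime_iff_isPrime hp0).mp hp
    rw [hcm p a hp0 ha, hdm p a hp0 ha, h p hpp hp0, ih ha]

open Classical in
/-- the multiplicity of a prime in an ideal of a Dedekind domain -/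
noncomputable def cnt (P I : Ideal S) : ℤ := (Multiset.count P (normalizedFactors I) : ℤ)

theorem cnt_top (P : Ideal S) : cnt P ⊤ = 0 := by
  classical
  rw [cnt, ← Ideal.one_eq_top, normalizedFactors_one]
  simp

theorem cnt_mul (P I J : Ideal S) (hI : I ≠ ⊥) (hJ : J ≠ ⊥) :
    cnt P (I * J) = cnt P I + cnt P J := by
  classical
  rw [cnt, cnt, cnt, normalizedFactors_mul hI hJ, Multiset.count_add]
  push_cast
  rfl

theorem cnt_prime (P Q : Ideal S) (hQ : Q.IsPrime) (hQ0 : Q ≠ ⊥) :
    cnt P Q = if P = Q then 1 else 0 := by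
  classical
  have hirr : Irreducible Q := (Ideal.prime_of_isPrime hQ0 hQ).irreducible
  rw [cnt, normalizedFactors_irreducible hirr, normalize_eq, Multiset.count_singleton]
  split_ifs <;> simp

theorem cnt_pow (P I : Ideal S) (n : ℕ) : cnt P (I ^ n) = n * cnt P I := by
  classical
  rw [cnt, cnt, normalizedFactors_pow, Multiset.count_nsmul]
  push_cast
  rfl

end Additive

section Val

variable {R : Type*} [CommRing R] [IsDedekindDomain R]
variable {F : Type*} [Field F] [Algebra R F] [IsFractionRing R F]

/-- the valuation of an element of `R` at a height-one prime counts the prime in the principal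
ideal -/
theorem neg_log_valuation_eq_cnt (P : HeightOneSpectrum R) (r : R) (hr : r ≠ 0) :
    -(WithZero.log (P.valuation F (algebraMap R F r))) = cnt P.asIdeal (Ideal.span {r}) := by
  have hsr : (Ideal.span {r} : Ideal R) ≠ 0 := by
    rw [Ne, Ideal.zero_eq_bot, Ideal.span_singleton_eq_bot]
    exact hr
  rw [HeightOneSpectrum.valuation_of_algebraMap, HeightOneSpectrum.intValuation_if_neg _ hr,
    WithZero.log_exp, neg_neg, Ideal.count_associates_factors_eq hsr P.isPrime P.ne_bot, cnt]

end Val


section Main

open Fermat.Agent.S24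

variable {K F F' : Type*} [Field K] [Field F] [Field F'] [Algebra K F] [Algebra K F']
  [Algebra F F'] [IsScalarTower K F F'] [FiniteDimensional F F']
variable (B : Type*) [CommRing B] [IsDedekindDomain B] [Algebra B F] [IsFractionRing B F]
variable (B' : Type*) [CommRing B'] [IsDedekindDomain B'] [Algebra B' F'] [IsFractionRing B' F']
  [Algebra B B'] [Algebra B F'] [IsScalarTower B B' F'] [IsScalarTower B F F']
  [IsIntegralClosure B' B F']

theorem algebraMap_eq (b : B) :
    algebraMap B' F' (algebraMap B B' b) = algebraMap F F' (algebraMap B F b) := by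
  rw [← IsScalarTower.algebraMap_apply B B' F', IsScalarTower.algebraMap_apply B F F']

/-- constants lie in `B'` -/
theorem const_mem_range (hK : ∀ a : K, algebraMap K F a ∈ (algebraMap B F).range) (a : K) :
    algebraMap K F' a ∈ (algebraMap B' F').range := by
  obtain ⟨b, hb⟩ := hK a
  refine ⟨algebraMap B B' b, ?_⟩
  rw [algebraMap_eq (F := F), hb, ← IsScalarTower.algebraMap_apply]

variable {B}

/-- `B'` lies in the valuation ring of every place whose restriction contains `B` -/
theorem mem_of_restrict (w : Place K F')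
    (hB : ∀ b : B, algebraMap B F b ∈ (w.restrict F).toValuationSubring) (b' : B') :
    algebraMap B' F' b' ∈ w.toValuationSubring := by
  have hint : IsIntegral B (algebraMap B' F' b') :=
    (IsIntegralClosure.isIntegral B F' b').algebraMap
  refine PrimeBridge.mem_of_isIntegral (algebraMap B F') w ?_ _ hint
  intro b
  have := hB b
  rw [Place.mem_restrict_iff] at this
  rwa [IsScalarTower.algebraMap_apply B F F']

variable {B'}

/-- the center of a place on `B'` lies over the center of its restriction on `B` -/
theorem comap_center (w : Place K F')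
    (hB' : ∀ b' : B', algebraMap B' F' b' ∈ w.toValuationSubring)
    (hB : ∀ b : B, algebraMap B F b ∈ (w.restrict F).toValuationSubring) :
    (PrimeBridge.toPrime w hB').asIdeal.comap (algebraMap B B') =
      (PrimeBridge.toPrime (w.restrict F) hB).asIdeal := by
  ext b
  rw [Ideal.mem_comap]
  rcases eq_or_ne b 0 with rfl | hb
  · simp
  have hb' : algebraMap B B' b ≠ 0 := by
    intro h0
    have h2 := congrArg (algebraMap B' F') h0
    rw [algebraMap_eq (F := F), map_zero, map_eq_zero_iff _ (algebraMap F F').injective,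
      map_eq_zero_iff _ (IsFractionRing.injective B F)] at h2
    exact hb h2
  rw [← PrimeBridge.ord_pos_iff_mem_toPrime w hB' _ hb',
    ← PrimeBridge.ord_pos_iff_mem_toPrime (w.restrict F) hB _ hb, algebraMap_eq (F := F),
    w.ord_restrict]
  have he : 0 < Place.ramificationIndex (F := F) w := w.ramificationIndex_pos
  constructor
  · intro h
    by_contra hle
    rw [not_lt] at hle
    have : (Place.ramificationIndex (F := F) w : ℤ) * (w.restrict F).ord (algebraMap B F b) ≤ 0 :=
      mul_nonpos_of_nonneg_of_nonpos (by positivity) hle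
    omega
  · intro h
    positivity

/-- the place of a prime of `B'` lying over the center of `v` restricts to `v` -/
theorem restrict_placeOfPrime (hK : ∀ a : K, algebraMap K F a ∈ (algebraMap B F).range)
    (hK' : ∀ a : K, algebraMap K F' a ∈ (algebraMap B' F').range)
    (v : Place K F) (hB : ∀ b : B, algebraMap B F b ∈ v.toValuationSubring)
    (Q : HeightOneSpectrum B')
    (hQ : Q.asIdeal.comap (algebraMap B B') = (PrimeBridge.toPrime v hB).asIdeal) :
    (PrimeBridge.placeOfPrime B' hK' Q).restrict F = v := by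
  set w₀ := PrimeBridge.placeOfPrime B' hK' Q with hw₀
  have hB'w : ∀ b' : B', algebraMap B' F' b' ∈ w₀.toValuationSubring :=
    PrimeBridge.algebraMap_mem_placeOfPrime B' hK' Q
  have hBv' : ∀ b : B, algebraMap B F b ∈ (w₀.restrict F).toValuationSubring := by
    intro b
    rw [Place.mem_restrict_iff, ← algebraMap_eq B B']
    exact hB'w _
  have hP : PrimeBridge.toPrime (w₀.restrict F) hBv' = PrimeBridge.toPrime v hB := by
    apply HeightOneSpectrum.ext
    rw [← comap_center w₀ hB'w hBv', PrimeBridge.toPrime_placeOfPrime hK' Q hB'w, hQ]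
  rw [← PrimeBridge.placeOfPrime_toPrime hK (w₀.restrict F) hBv', hP,
    PrimeBridge.placeOfPrime_toPrime hK v hB]

/-- residue degree one: every element of `B'` is congruent to an element of `B` modulo a prime,
when the places of `F'` have degree one -/
theorem exists_sub_mem (hK : ∀ a : K, algebraMap K F a ∈ (algebraMap B F).range)
    (hK' : ∀ a : K, algebraMap K F' a ∈ (algebraMap B' F').range)
    (hdeg : ∀ w : Place K F', w.deg = 1) (Q : HeightOneSpectrum B') (b' : B') :
    ∃ b : B, b' - algebraMap B B' b ∈ Q.asIdeal := by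
  set w := PrimeBridge.placeOfPrime B' hK' Q with hw
  have hB'w : ∀ b' : B', algebraMap B' F' b' ∈ w.toValuationSubring :=
    PrimeBridge.algebraMap_mem_placeOfPrime B' hK' Q
  have hbij := (Algebra.finrank_eq_one_iff_bijective_algebraMap (F := K)
    (E := w.ResidueField)).mp (hdeg w)
  obtain ⟨a, ha⟩ := hbij.2 (IsLocalRing.residue w.toValuationSubring
    ⟨algebraMap B' F' b', hB'w b'⟩)
  obtain ⟨b, hb⟩ := hK a
  refine ⟨b, ?_⟩
  rw [← PrimeBridge.center_placeOfPrime hK' Q hB'w]
  show PrimeBridge.incl w hB'w (b' - algebraMap B B' b) ∈ IsLocalRing.maximalIdeal _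
  have h1 : PrimeBridge.incl w hB'w (b' - algebraMap B B' b) =
      (⟨algebraMap B' F' b', hB'w b'⟩ : w.toValuationSubring) -
        algebraMap K w.toValuationSubring a := by
    apply Subtype.ext
    rw [PrimeBridge.coe_incl, map_sub, algebraMap_eq (F := F) B B', hb,
      ← IsScalarTower.algebraMap_apply K F F']
    rfl
  rw [h1, ← IsLocalRing.residue_eq_zero_iff, map_sub, sub_eq_zero]
  exact ha.symm

theorem finrank_quot_eq_one (hK : ∀ a : K, algebraMap K F a ∈ (algebraMap B F).range)
    (hK' : ∀ a : K, algebraMap K F' a ∈ (algebraMap B' F').range)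
    (hdeg : ∀ w : Place K F', w.deg = 1) (Q : HeightOneSpectrum B')
    (p : Ideal B) [hp : p.IsMaximal] [Q.asIdeal.LiesOver p] :
    Module.finrank (B ⧸ p) (B' ⧸ Q.asIdeal) = 1 := by
  let _ := Ideal.Quotient.field p
  have hnz : (1 : B' ⧸ Q.asIdeal) ≠ 0 := by
    have := Q.isPrime
    exact one_ne_zero
  rw [finrank_eq_one_iff_of_nonzero' _ hnz]
  intro x
  obtain ⟨b', rfl⟩ := Ideal.Quotient.mk_surjective x
  obtain ⟨b, hb⟩ := exists_sub_mem hK hK' hdeg Q b'
  refine ⟨Ideal.Quotient.mk p b, ?_⟩
  rw [Algebra.smul_def, mul_one, Ideal.Quotient.algebraMap_mk_of_liesOver]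
  exact (Ideal.Quotient.eq.2 hb).symm

variable [Module.Finite B B'] [Module.IsTorsionFree B B'] [CharZero F]

/-- the multiplicity of `P` in the relative norm of a prime `Q`: one if `Q` lies over `P`,
zero otherwise (all residue degrees are one) -/
theorem cnt_relNorm_prime (hK : ∀ a : K, algebraMap K F a ∈ (algebraMap B F).range)
    (hK' : ∀ a : K, algebraMap K F' a ∈ (algebraMap B' F').range)
    (hdeg : ∀ w : Place K F', w.deg = 1) (P : Ideal B) (Q : Ideal B') (hQ : Q.IsPrime)
    (hQ0 : Q ≠ ⊥) :
    cnt P (Ideal.relNorm B Q) = if P = Q.comap (algebraMap B B') then 1 else 0 := by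
  have : Algebra.IsIntegral B B' := IsIntegralClosure.isIntegral_algebra B F'
  have hQm : Q.IsMaximal := hQ.isMaximal hQ0
  have hpm : (Q.under B).IsMaximal := Ideal.IsMaximal.under B Q
  have : CharZero B := ((algebraMap B F).charZero_iff (IsFractionRing.injective B F)).mpr
    inferInstance
  have : PerfectField (FractionRing B) := inferInstance
  have h1 := Ideal.relNorm_eq_pow_of_isMaximal Q (Q.under B)
  have h2 : Q.inertiaDeg B = 1 := by
    rw [Ideal.inertiaDeg_eq_of_isMaximal (Q.under B) Q]
    exact finrank_quot_eq_one hK hK' hdeg ⟨Q, hQ, hQ0⟩ (Q.under B)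
  rw [h2, pow_one] at h1
  rw [h1, cnt_prime P (Q.under B) hpm.isPrime (Ideal.under_ne_bot B hQ0)]

omit [FiniteDimensional F F'] [IsIntegralClosure B' B F'] [Module.Finite B B']
  [Module.IsTorsionFree B B'] [CharZero F] [IsDedekindDomain B'] [IsFractionRing B' F']
  [IsScalarTower B B' F'] [IsScalarTower B F F'] [Algebra B B'] [Algebra B F'] in
theorem toPrime_congr {v v' : Place K F} (h : v = v')
    (hB : ∀ b : B, algebraMap B F b ∈ v.toValuationSubring)
    (hB' : ∀ b : B, algebraMap B F b ∈ v'.toValuationSubring) :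
    (PrimeBridge.toPrime v hB).asIdeal = (PrimeBridge.toPrime v' hB').asIdeal := by
  subst h
  rfl

/-- the norm formula for nonzero elements of `B'` -/
theorem sum_fiber_ord_algebraMap [HasPrincipalDivisors K F']
    (hK : ∀ a : K, algebraMap K F a ∈ (algebraMap B F).range)
    (hdeg : ∀ w : Place K F', w.deg = 1)
    (v : Place K F) (hB : ∀ b : B, algebraMap B F b ∈ v.toValuationSubring)
    (b' : B') (hb' : b' ≠ 0) :
    ∑ w ∈ v.fiber F', w.ord (algebraMap B' F' b') =
      v.ord (Algebra.norm F (algebraMap B' F' b')) := by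
  classical
  have hK' : ∀ a : K, algebraMap K F' a ∈ (algebraMap B' F').range :=
    const_mem_range B B' hK
  have hmem : ∀ w ∈ v.fiber F', ∀ b' : B', algebraMap B' F' b' ∈ w.toValuationSubring := by
    intro w hw
    have hwv : w.restrict F = v := Place.mem_fiber.mp hw
    exact mem_of_restrict B' w (by rw [hwv]; exact hB)
  let c : Ideal B' → ℤ := fun I =>
    ∑ w ∈ (v.fiber F').attach, cnt (PrimeBridge.toPrime w.1 (hmem w.1 w.2)).asIdeal I
  let d : Ideal B' → ℤ := fun I => cnt (PrimeBridge.toPrime v hB).asIdeal (Ideal.relNorm B I)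
  have hcd : ∀ I : Ideal B', I ≠ ⊥ → c I = d I := by
    apply additive_ext c d
    · simp only [c, cnt_top, Finset.sum_const_zero]
    · simp only [d, Ideal.relNorm_top, cnt_top]
    · intro I J hI hJ
      simp only [c]
      rw [← Finset.sum_add_distrib]
      exact Finset.sum_congr rfl (fun w _ => cnt_mul _ I J hI hJ)
    · intro I J hI hJ
      simp only [d]
      rw [map_mul, cnt_mul _ _ _ (by rwa [Ne, Ideal.relNorm_eq_bot_iff])
        (by rwa [Ne, Ideal.relNorm_eq_bot_iff])]
    · intro Q hQ hQ0
      simp only [c, d]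
      rw [cnt_relNorm_prime hK hK' hdeg _ Q hQ hQ0]
      simp_rw [cnt_prime _ Q hQ hQ0]
      split_ifs with h
      · let w₀ := PrimeBridge.placeOfPrime B' hK' ⟨Q, hQ, hQ0⟩
        have hw₀ : w₀ ∈ v.fiber F' :=
          Place.mem_fiber.mpr (restrict_placeOfPrime hK hK' v hB ⟨Q, hQ, hQ0⟩ h.symm)
        rw [Finset.sum_eq_single_of_mem ⟨w₀, hw₀⟩ (Finset.mem_attach _ _)]
        · rw [if_pos]
          exact congrArg HeightOneSpectrum.asIdeal
            (PrimeBridge.toPrime_placeOfPrime hK' ⟨Q, hQ, hQ0⟩ _)
        · rintro ⟨w, hw⟩ _ hne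
          rw [if_neg]
          intro hEq
          apply hne
          apply Subtype.ext
          show w = w₀
          rw [← PrimeBridge.placeOfPrime_toPrime hK' w (hmem w hw)]
          exact congrArg (PrimeBridge.placeOfPrime B' hK') (HeightOneSpectrum.ext hEq)
      · apply Finset.sum_eq_zero
        rintro ⟨w, hw⟩ _
        rw [if_neg]
        intro hEq
        apply h
        have hwv : w.restrict F = v := Place.mem_fiber.mp hw
        have h3 := comap_center w (hmem w hw) (by rw [hwv]; exact hB)
        rw [hEq] at h3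
        rw [h3]
        exact (toPrime_congr hwv _ hB).symm
  have hspan : (Ideal.span {b'} : Ideal B') ≠ ⊥ := by
    rw [Ne, Ideal.span_singleton_eq_bot]
    exact hb'
  have hbF' : algebraMap B' F' b' ≠ 0 := by
    rw [Ne, map_eq_zero_iff _ (IsFractionRing.injective B' F')]
    exact hb'
  have hnorm : algebraMap B F (Algebra.intNorm B B' b') =
      Algebra.norm F (algebraMap B' F' b') := Algebra.algebraMap_intNorm b'
  have hN0 : Algebra.intNorm B B' b' ≠ 0 := by
    intro h0
    rw [h0, map_zero] at hnorm
    exact (Algebra.norm_ne_zero_iff.mpr hbF') hnorm.symm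
  calc ∑ w ∈ v.fiber F', w.ord (algebraMap B' F' b')
      = ∑ w ∈ (v.fiber F').attach, w.1.ord (algebraMap B' F' b') :=
        (Finset.sum_attach _ _).symm
    _ = c (Ideal.span {b'}) := by
        refine Finset.sum_congr rfl fun w _ => ?_
        rw [PrimeBridge.ord_eq_toPrime w.1 (hmem w.1 w.2), neg_log_valuation_eq_cnt _ _ hb']
    _ = d (Ideal.span {b'}) := hcd _ hspan
    _ = cnt (PrimeBridge.toPrime v hB).asIdeal (Ideal.span {Algebra.intNorm B B' b'}) := by
        simp only [d]
        rw [Ideal.relNorm_singleton]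
    _ = v.ord (algebraMap B F (Algebra.intNorm B B' b')) := by
        rw [PrimeBridge.ord_eq_toPrime v hB, neg_log_valuation_eq_cnt _ _ hN0]
    _ = v.ord (Algebra.norm F (algebraMap B' F' b')) := by rw [hnorm]

variable (B B') in
include B' in
/-- **Norm formula** (Dedekind form): for a place `v` of `F` containing the Dedekind domain `B`
and `B'` the integral closure of `B` in the finite extension `F'`, the orders of `f` at the
places over `v` add up to the order of the norm of `f` at `v` (all places of degree one). -/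
theorem sum_fiber_ord [HasPrincipalDivisors K F']
    (hK : ∀ a : K, algebraMap K F a ∈ (algebraMap B F).range)
    (hdeg : ∀ w : Place K F', w.deg = 1)
    (v : Place K F) (hB : ∀ b : B, algebraMap B F b ∈ v.toValuationSubring)
    (f : F') (hf : f ≠ 0) :
    ∑ w ∈ v.fiber F', w.ord f = v.ord (Algebra.norm F f) := by
  obtain ⟨x, y, hy, rfl⟩ := IsFractionRing.div_surjective (A := B') f
  have hy0 : y ≠ 0 := nonZeroDivisors.ne_zero hy
  have hyF : algebraMap B' F' y ≠ 0 := by
    rw [Ne, map_eq_zero_iff _ (IsFractionRing.injective B' F')]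
    exact hy0
  have hxF : algebraMap B' F' x ≠ 0 := by
    intro h0
    rw [h0, zero_div] at hf
    exact hf rfl
  have hx0 : x ≠ 0 := by
    rintro rfl
    exact hxF (map_zero _)
  have h1 := sum_fiber_ord_algebraMap hK hdeg v hB x hx0
  have h2 := sum_fiber_ord_algebraMap hK hdeg v hB y hy0
  have hdiv : ∀ w : Place K F', w.ord (algebraMap B' F' x / algebraMap B' F' y) =
      w.ord (algebraMap B' F' x) - w.ord (algebraMap B' F' y) := by
    intro w
    rw [div_eq_mul_inv, w.ord_mul hxF (inv_ne_zero hyF), w.ord_inv]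
    ring
  simp_rw [hdiv]
  rw [Finset.sum_sub_distrib, h1, h2]
  have hn : Algebra.norm F (algebraMap B' F' x / algebraMap B' F' y) *
      Algebra.norm F (algebraMap B' F' y) = Algebra.norm F (algebraMap B' F' x) := by
    rw [← map_mul, div_mul_cancel₀ _ hyF]
  rw [← hn, v.ord_mul (Algebra.norm_ne_zero_iff.mpr (div_ne_zero hxF hyF))
    (Algebra.norm_ne_zero_iff.mpr hyF)]
  ring

end Main

end NormFormula

end Fermat.Agent.S37
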