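import Mathlib
import Fermat.Prelude.Def_AlgebraicCurve_Correspondence
import Fermat.Agent.S24.Hurwitz
import Fermat.Agent.S37.NormFormula

/-!
# S37, package R0 (general part): maps of function fields of one variable

`K` is an algebraically closed field of characteristic zero, `F` and `F'` are function fields of
one variable over `K` (each finite over `K(x)` for a transcendental `x`) and `F'` is an
`F`-algebra over `K`.  Then `F'` is finite over `F`, principal divisors exist, the pushforward
of divisors satisfies the norm formula and the fundamental identity `∑ e = [F' : F]` holds.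
The same statements are given along an arbitrary `K`-algebra homomorphism `φ : F →ₐ[K] F'` in
the currency of `Def_AlgebraicCurve_Correspondence`.
-/

set_option autoImplicit false
set_option linter.unusedSectionVars false
set_option linter.style.haveILetI false

universe u v w

namespace Fermat.Agent.S37

open AlgebraicCurve IsDedekindDomain IntermediateField
open scoped Polynomial

namespace FunctionFieldMaps

open Fermat.Agent.S24

section Single

variable {K : Type u} {F : Type v} [Field K] [IsAlgClosed K] [CharZero K] [Field F] [Algebra K F]

/-- principal divisors exist and have degree zero -/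
theorem hasPrincipalDivisors (x : F) (hx : Transcendental K x) [FiniteDimensional K⟮x⟯ F] :
    HasPrincipalDivisors K F := by
  classical
  constructor
  intro f hf
  obtain ⟨s, hs, hsum⟩ := sum_ord_eq_zero x hx f hf
  refine ⟨Finsupp.onFinset s (fun v => v.ord f) (fun v hv => hs v hv), fun v => rfl, ?_⟩
  have hdecomp : ∀ E : Divisor K F,
      Divisor.degree E = E.sum (fun v n => n * (v.deg : ℤ)) := by
    intro E
    simp [Divisor.degree, Finsupp.liftAddHom_apply]
  rw [hdecomp, Finsupp.onFinset_sum _ (by intro v; simp)]
  rw [← hsum]
  refine Finset.sum_congr rfl fun v _ => ?_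
  rw [place_deg_eq_one x hx v]; simp

/-- every place contains a Dedekind domain with fraction field `F` that contains the constants -/
theorem exists_dedekind (x : F) (hx : Transcendental K x) [FiniteDimensional K⟮x⟯ F]
    (v : Place K F) :
    ∃ (B : Type v) (_ : CommRing B) (_ : IsDedekindDomain B) (_ : Algebra B F)
      (_ : IsFractionRing B F),
      (∀ a : K, algebraMap K F a ∈ (algebraMap B F).range) ∧
        (∀ b : B, algebraMap B F b ∈ v.toValuationSubring) := by
  obtain ⟨y, hy, hyv, hfd⟩ : ∃ y : F, Transcendental K y ∧ y ∈ v.toValuationSubring ∧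
      FiniteDimensional K⟮y⟯ F := by
    rcases v.toValuationSubring.mem_or_inv_mem x with h | h
    · exact ⟨x, hx, h, inferInstance⟩
    · have hx' : Transcendental K x⁻¹ := Hurwitz.transcendental_inv x hx
      exact ⟨x⁻¹, hx', h, finiteDimensional_of_transcendental x x⁻¹ hx hx'⟩
  obtain ⟨i1, i2, h1, h2, h3, h4, h5, h6⟩ := exists_ffInst y hy
  refine ⟨FunctionField.ringOfIntegers K F, inferInstance, inferInstance, inferInstance,
    inferInstance, ?_, ?_⟩
  · intro a
    have hint : IsIntegral K[X] (algebraMap K F a) := by
      rw [IsScalarTower.algebraMap_apply K K[X] F]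
      exact isIntegral_algebraMap
    exact ⟨⟨algebraMap K F a, hint⟩, rfl⟩
  · intro b
    exact PlacesFF.mem_of_mem_ringOfIntegers K F v (h1 ▸ hyv) b b.2

end Single

section Maps

variable {K : Type u} {F : Type v} {F' : Type w} [Field K] [IsAlgClosed K] [CharZero K]
  [Field F] [Field F'] [Algebra K F] [Algebra K F'] [Algebra F F'] [IsScalarTower K F F']

/-- a function field is finite over any function field mapping to it -/
theorem finite_of_transcendental (x : F) (hx : Transcendental K x) (x' : F')
    (hx' : Transcendental K x') [FiniteDimensional K⟮x'⟯ F'] : Module.Finite F F' := by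
  classical
  set y : F' := algebraMap F F' x with hy
  have hyT : Transcendental K y :=
    (transcendental_algebraMap_iff (algebraMap F F').injective).mpr hx
  have : FiniteDimensional K⟮y⟯ F' := finiteDimensional_of_transcendental x' y hx' hyT
  let b := Module.finBasis K⟮y⟯ F'
  have hle : K⟮y⟯ ≤ (IsScalarTower.toAlgHom K F F').fieldRange := by
    rw [IntermediateField.adjoin_simple_le_iff]
    exact ⟨x, rfl⟩
  refine ⟨⟨Finset.univ.image b, ?_⟩⟩
  rw [eq_top_iff]
  intro z _
  rw [← b.sum_repr z]
  refine Submodule.sum_mem _ fun i _ => ?_
  obtain ⟨d, hd⟩ := hle (b.repr z i).2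
  have h1 : (b.repr z i) • b i = d • b i := by
    rw [Algebra.smul_def, Algebra.smul_def]
    congr 1
    exact hd.symm
  rw [h1]
  exact Submodule.smul_mem _ _ (Submodule.subset_span (by simp))

/-- **Norm formula** for function fields over an algebraically closed field -/
theorem sum_fiber_ord_eq (x : F) (hx : Transcendental K x) [FiniteDimensional K⟮x⟯ F]
    (x' : F') (hx' : Transcendental K x') [FiniteDimensional K⟮x'⟯ F']
    [Algebra.IsIntegral F F'] [HasPrincipalDivisors K F'] (v : Place K F) (f : F') (hf : f ≠ 0) :
    ∑ w ∈ v.fiber F', w.ord f = v.ord (Algebra.norm F f) := by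
  have : FiniteDimensional F F' := finite_of_transcendental x hx x' hx'
  obtain ⟨B, iB1, iB2, iB3, iB4, hK, hB⟩ := exists_dedekind x hx v
  let : Algebra B F' := ((algebraMap F F').comp (algebraMap B F)).toAlgebra
  have : IsScalarTower B F F' := IsScalarTower.of_algebraMap_eq (fun _ => rfl)
  have : CharZero F := charZero_of_injective_algebraMap (algebraMap K F).injective
  have : IsDedekindDomain (integralClosure B F') := integralClosure.isDedekindDomain B F F'
  have : IsFractionRing (integralClosure B F') F' :=
    integralClosure.isFractionRing_of_finite_extension F F'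
  have : Module.Finite B (integralClosure B F') :=
    IsIntegralClosure.finite B F F' (integralClosure B F')
  have : Module.IsTorsionFree B (integralClosure B F') := by
    rw [Module.isTorsionFree_iff_algebraMap_injective]
    intro a b hab
    have h2 := congrArg (algebraMap (integralClosure B F') F') hab
    rw [← IsScalarTower.algebraMap_apply, ← IsScalarTower.algebraMap_apply,
      IsScalarTower.algebraMap_apply B F F', IsScalarTower.algebraMap_apply B F F'] at h2
    exact IsFractionRing.injective B F ((algebraMap F F').injective h2)
  exact NormFormula.sum_fiber_ord B (integralClosure B F') hK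
    (fun w => place_deg_eq_one x' hx' w) v hB f hf

/-- residue degrees are one -/
theorem inertiaDeg_eq_one (x : F) (hx : Transcendental K x) [FiniteDimensional K⟮x⟯ F]
    (x' : F') (hx' : Transcendental K x') [FiniteDimensional K⟮x'⟯ F']
    [Algebra.IsIntegral F F'] (w : Place K F') : w.inertiaDeg F = 1 := by
  have h := w.deg_restrict_mul_inertiaDeg (F := F)
  rw [place_deg_eq_one x hx, place_deg_eq_one x' hx', one_mul] at h
  exact h

/-- the pushforward of a principal divisor is the divisor of the norm -/
theorem pushforwardNormFormula (x : F) (hx : Transcendental K x) [FiniteDimensional K⟮x⟯ F]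
    (x' : F') (hx' : Transcendental K x') [FiniteDimensional K⟮x'⟯ F']
    [Module.Finite F F'] : Divisor.PushforwardNormFormula K F F' := by
  classical
  have : HasPrincipalDivisors K F' := hasPrincipalDivisors x' hx'
  intro f hf D hD v
  rw [Divisor.pushforward_apply, ← sum_fiber_ord_eq x hx x' hx' v f hf, ← Finset.sum_filter]
  have hsub : D.support.filter (fun w => w.restrict F = v) ⊆ v.fiber F' := by
    intro w hw
    rw [Finset.mem_filter] at hw
    exact Place.mem_fiber.mpr hw.2
  rw [← Finset.sum_subset hsub]
  · refine Finset.sum_congr rfl fun w _ => ?_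
    rw [inertiaDeg_eq_one x hx x' hx' w, hD w]
    simp
  · intro w hw hnot
    rw [Finset.mem_filter, not_and] at hnot
    have h1 : w ∉ D.support := fun h => hnot h (Place.mem_fiber.mp hw)
    rw [Finsupp.notMem_support_iff] at h1
    rw [← hD w, h1]

/-- the fundamental identity `∑ e = [F' : F]` -/
theorem fundamentalIdentity (x : F) (hx : Transcendental K x) [FiniteDimensional K⟮x⟯ F]
    (x' : F') (hx' : Transcendental K x') [FiniteDimensional K⟮x'⟯ F']
    [Algebra.IsIntegral F F'] [HasPrincipalDivisors K F'] : FundamentalIdentity K F F' := by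
  have : FiniteDimensional F F' := finite_of_transcendental x hx x' hx'
  constructor
  intro v
  obtain ⟨π, hπ⟩ := IsDiscreteValuationRing.exists_irreducible v.toValuationSubring
  have hord : v.ord (π : F) = 1 := v.ord_coe_irreducible hπ
  have hπ0 : (π : F) ≠ 0 := by
    intro h0
    rw [h0, Place.ord_zero] at hord
    exact zero_ne_one hord
  have h := sum_fiber_ord_eq x hx x' hx' v (algebraMap F F' (π : F))
    (by rwa [Ne, map_eq_zero_iff _ (algebraMap F F').injective])
  rw [Algebra.norm_algebraMap, ← zpow_natCast, v.ord_zpow, hord, mul_one] at h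
  rw [place_deg_eq_one x hx v, Nat.cast_one, mul_one, ← h]
  refine Finset.sum_congr rfl fun w hw => ?_
  rw [place_deg_eq_one x' hx' w, w.ord_restrict, Place.mem_fiber.mp hw, hord]
  simp

end Maps

/-! ### The same along a `K`-algebra homomorphism -/

section Along

variable {K : Type u} {F : Type v} {F' : Type w} [Field K] [IsAlgClosed K] [CharZero K]
  [Field F] [Field F'] [Algebra K F] [Algebra K F']

theorem finiteAlong (φ : F →ₐ[K] F') (x : F) (hx : Transcendental K x) (x' : F')
    (hx' : Transcendental K x') [FiniteDimensional K⟮x'⟯ F'] : FiniteAlong K φ := by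
  letI := algebraAlong φ
  haveI := isScalarTower_along φ
  exact finite_of_transcendental x hx x' hx'

theorem isIntegralAlong (φ : F →ₐ[K] F') (x : F) (hx : Transcendental K x) (x' : F')
    (hx' : Transcendental K x') [FiniteDimensional K⟮x'⟯ F'] : φ.toRingHom.IsIntegral := by
  letI := algebraAlong φ
  haveI := isScalarTower_along φ
  haveI : Module.Finite F F' := finite_of_transcendental x hx x' hx'
  exact (Algebra.IsIntegral.of_finite F F').isIntegral

theorem normFormulaAlong (φ : F →ₐ[K] F') (x : F) (hx : Transcendental K x)
    [FiniteDimensional K⟮x⟯ F] (x' : F') (hx' : Transcendental K x')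
    [FiniteDimensional K⟮x'⟯ F'] (hfin : FiniteAlong K φ) : NormFormulaAlong K φ hfin := by
  letI := algebraAlong φ
  haveI := isScalarTower_along φ
  haveI : Module.Finite F F' := hfin
  exact pushforwardNormFormula x hx x' hx'

theorem fundamentalIdentityAlong (φ : F →ₐ[K] F') (x : F) (hx : Transcendental K x)
    [FiniteDimensional K⟮x⟯ F] (x' : F') (hx' : Transcendental K x')
    [FiniteDimensional K⟮x'⟯ F'] [HasPrincipalDivisors K F'] (hφ : φ.toRingHom.IsIntegral) :
    FundamentalIdentityAlong K φ hφ := by
  letI := algebraAlong φ
  haveI := isScalarTower_along φ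
  haveI := AlgebraicCurve.isIntegral_along φ hφ
  exact fundamentalIdentity x hx x' hx'

/-- residue degrees along `φ` are one -/
theorem inertiaDegAlong_eq_one (φ : F →ₐ[K] F') (x : F) (hx : Transcendental K x)
    [FiniteDimensional K⟮x⟯ F] (x' : F') (hx' : Transcendental K x')
    [FiniteDimensional K⟮x'⟯ F'] (hφ : φ.toRingHom.IsIntegral) (w : Place K F') :
    w.inertiaDegAlong φ hφ = 1 := by
  letI := algebraAlong φ
  haveI := isScalarTower_along φ
  haveI := AlgebraicCurve.isIntegral_along φ hφ
  exact inertiaDeg_eq_one x hx x' hx' w

/-- **Norm formula along `φ`**: the orders of `f` at the places lying over `v` along `φ` add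
up to the order at `v` of the norm of `f` -/
theorem sum_fiberAlong_ord (φ : F →ₐ[K] F') (x : F) (hx : Transcendental K x)
    [FiniteDimensional K⟮x⟯ F] (x' : F') (hx' : Transcendental K x')
    [FiniteDimensional K⟮x'⟯ F'] [HasPrincipalDivisors K F'] (hφ : φ.toRingHom.IsIntegral)
    (v : Place K F) (f : F') (hf : f ≠ 0) :
    ∑ w ∈ Place.fiberAlong φ hφ v, w.ord f =
      v.ord (letI := algebraAlong φ; Algebra.norm F f) := by
  letI := algebraAlong φ
  haveI := isScalarTower_along φ
  haveI := AlgebraicCurve.isIntegral_along φ hφ
  exact sum_fiber_ord_eq x hx x' hx' v f hf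

end Along

end FunctionFieldMaps

end Fermat.Agent.S37
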