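import Mathlib
import Fermat.Prelude.Def_ModularCurve_HeckeModule
import Fermat.Agent.S18.Witness
import Fermat.Agent.S37.FunctionFieldMaps

/-!
# S37, package R0: the Hecke inputs over `ℚ̄`

`HeckeInputsAlong (AlgebraicClosure ℚ) N ℓ` holds for all `N`, `ℓ`, so that the Prelude's total
Hecke operator `heckeOperatorAlong` is the genuine correspondence `α_* ∘ β^*`
(`α` the inclusion of level `N` in level `N * ℓ`, `β` the substitution `q ↦ q ^ ℓ`).
-/

set_option autoImplicit false
set_option linter.unusedSectionVars false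
set_option linter.style.haveILetI false

namespace Fermat.Agent.S37

open AlgebraicCurve ModularCurve IntermediateField

namespace HeckeInputs

local notation "L" => AlgebraicClosure ℚ

variable (N ℓ : ℕ) [NeZero N] [NeZero ℓ]

/-- principal divisors on the modular function field over `ℚ̄` -/
instance hasPrincipalDivisorsBar : HasPrincipalDivisors L (modularFunctionFieldBar N) :=
  ⟨fun f hf => S18.Witness.bar_exists_divisor N f hf⟩

theorem alphaIntegral : HeckeAlphaBarIntegral L N ℓ := by
  obtain ⟨hx, hfd⟩ := S18.Witness.bar_transcendental_finite N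
  obtain ⟨hx', hfd'⟩ := S18.Witness.bar_transcendental_finite (N * ℓ)
  exact FunctionFieldMaps.isIntegralAlong (heckeAlphaBar L N ℓ) _ hx _ hx'

theorem betaIntegral : HeckeBetaBarIntegral L N ℓ := by
  obtain ⟨hx, hfd⟩ := S18.Witness.bar_transcendental_finite N
  obtain ⟨hx', hfd'⟩ := S18.Witness.bar_transcendental_finite (N * ℓ)
  exact FunctionFieldMaps.isIntegralAlong (heckeBetaBar L N ℓ) _ hx _ hx'

theorem alphaFinite : FiniteAlong L (heckeAlphaBar L N ℓ) := by
  obtain ⟨hx, hfd⟩ := S18.Witness.bar_transcendental_finite N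
  obtain ⟨hx', hfd'⟩ := S18.Witness.bar_transcendental_finite (N * ℓ)
  exact FunctionFieldMaps.finiteAlong (heckeAlphaBar L N ℓ) _ hx _ hx'

theorem betaFinite : FiniteAlong L (heckeBetaBar L N ℓ) := by
  obtain ⟨hx, hfd⟩ := S18.Witness.bar_transcendental_finite N
  obtain ⟨hx', hfd'⟩ := S18.Witness.bar_transcendental_finite (N * ℓ)
  exact FunctionFieldMaps.finiteAlong (heckeBetaBar L N ℓ) _ hx _ hx'

theorem alphaNormFormula : NormFormulaAlong L (heckeAlphaBar L N ℓ) (alphaFinite N ℓ) := by
  obtain ⟨hx, hfd⟩ := S18.Witness.bar_transcendental_finite N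
  obtain ⟨hx', hfd'⟩ := S18.Witness.bar_transcendental_finite (N * ℓ)
  exact FunctionFieldMaps.normFormulaAlong (heckeAlphaBar L N ℓ) _ hx _ hx' _

theorem betaNormFormula : NormFormulaAlong L (heckeBetaBar L N ℓ) (betaFinite N ℓ) := by
  obtain ⟨hx, hfd⟩ := S18.Witness.bar_transcendental_finite N
  obtain ⟨hx', hfd'⟩ := S18.Witness.bar_transcendental_finite (N * ℓ)
  exact FunctionFieldMaps.normFormulaAlong (heckeBetaBar L N ℓ) _ hx _ hx' _

theorem alphaFundamentalIdentity :
    FundamentalIdentityAlong L (heckeAlphaBar L N ℓ) (alphaIntegral N ℓ) := by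
  obtain ⟨hx, hfd⟩ := S18.Witness.bar_transcendental_finite N
  obtain ⟨hx', hfd'⟩ := S18.Witness.bar_transcendental_finite (N * ℓ)
  exact FunctionFieldMaps.fundamentalIdentityAlong (heckeAlphaBar L N ℓ) _ hx _ hx' _

theorem betaFundamentalIdentity :
    FundamentalIdentityAlong L (heckeBetaBar L N ℓ) (betaIntegral N ℓ) := by
  obtain ⟨hx, hfd⟩ := S18.Witness.bar_transcendental_finite N
  obtain ⟨hx', hfd'⟩ := S18.Witness.bar_transcendental_finite (N * ℓ)
  exact FunctionFieldMaps.fundamentalIdentityAlong (heckeBetaBar L N ℓ) _ hx _ hx' _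

/-- **R0**: the Hecke inputs hold over `ℚ̄` for every level `N` and every `ℓ`. -/
theorem heckeInputsAlong : HeckeInputsAlong L N ℓ :=
  heckeInputsAlong_intro (alphaIntegral N ℓ) (betaIntegral N ℓ) (betaFundamentalIdentity N ℓ)
    (alphaFinite N ℓ) (alphaNormFormula N ℓ)

/-- the total Hecke operator is the correspondence `α_* ∘ β^*` -/
theorem heckeOperatorAlong_eq_correspondence :
    heckeOperatorAlong L N ℓ =
      heckePic0Bar (alphaIntegral N ℓ) (betaIntegral N ℓ) (betaFundamentalIdentity N ℓ)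
        (alphaFinite N ℓ) (alphaNormFormula N ℓ) :=
  heckeOperatorAlong_eq _ _ _ _ _

/-- residue degrees along the inclusion `α` are one -/
theorem inertiaDegAlong_alpha (hα : HeckeAlphaBarIntegral L N ℓ)
    (W : Place L (modularFunctionFieldBar (N * ℓ))) :
    W.inertiaDegAlong (heckeAlphaBar L N ℓ) hα = 1 := by
  obtain ⟨hx, hfd⟩ := S18.Witness.bar_transcendental_finite N
  obtain ⟨hx', hfd'⟩ := S18.Witness.bar_transcendental_finite (N * ℓ)
  exact FunctionFieldMaps.inertiaDegAlong_eq_one (heckeAlphaBar L N ℓ) _ hx _ hx' hα W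

/-- the Hecke correspondence on a single place: `T [P] = ∑_{W ↦ P along β} e_β(W) • [W|α]` -/
theorem heckeDivBar_single (hα : HeckeAlphaBarIntegral L N ℓ) (hβ : HeckeBetaBarIntegral L N ℓ)
    (P : Place L (modularFunctionFieldBar N)) (n : ℤ) :
    heckeDivBar hα hβ (Finsupp.single P n) =
      ∑ W ∈ Place.fiberAlong (heckeBetaBar L N ℓ) hβ P,
        Finsupp.single (W.restrictAlong (heckeAlphaBar L N ℓ) hα)
          (n * (W.ramificationIndexAlong (heckeBetaBar L N ℓ) : ℤ)) := by
  rw [heckeDivBar, Divisor.correspondence_apply, Divisor.pullbackAlong_single, map_sum]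
  refine Finset.sum_congr rfl fun W _ => ?_
  rw [Divisor.pushforwardAlong_single, inertiaDegAlong_alpha N ℓ hα W, Nat.cast_one, mul_one]

/-- the Hecke operator on the class of a degree-zero divisor -/
theorem heckeOperatorAlong_mk (D : Divisor.degZero (K := L) (F := modularFunctionFieldBar N)) :
    heckeOperatorAlong L N ℓ (Pic0.mk D) =
      Pic0.mk (Pic0.degZeroCorrespondence (heckeBetaBar L N ℓ) (heckeAlphaBar L N ℓ)
        (betaIntegral N ℓ) (alphaIntegral N ℓ) (betaFundamentalIdentity N ℓ) D) := by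
  rw [heckeOperatorAlong_eq_correspondence]
  rfl

/-- the underlying divisor of the Hecke image of a degree-zero divisor -/
theorem coe_degZeroCorrespondence_eq
    (D : Divisor.degZero (K := L) (F := modularFunctionFieldBar N)) :
    (Pic0.degZeroCorrespondence (heckeBetaBar L N ℓ) (heckeAlphaBar L N ℓ)
        (betaIntegral N ℓ) (alphaIntegral N ℓ) (betaFundamentalIdentity N ℓ) D :
      Divisor L (modularFunctionFieldBar N)) =
      heckeDivBar (alphaIntegral N ℓ) (betaIntegral N ℓ) (D : Divisor L _) :=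
  rfl

end HeckeInputs

namespace HeckeInputs

local notation "L" => AlgebraicClosure ℚ

variable (N : ℕ) [NeZero N]

/-- the Hecke operator `T_ℓ` of the Hecke module structure on `J₀(N)`, on the class of a
degree-zero divisor -/
theorem heckeOperatorBar_mk (ℓ : Nat.Primes)
    (D : Divisor.degZero (K := L) (F := modularFunctionFieldBar N)) :
    haveI : NeZero (ℓ : ℕ) := ⟨ℓ.2.ne_zero⟩
    heckeOperatorBar N ℓ (Pic0.mk D) =
      Pic0.mk (Pic0.degZeroCorrespondence (heckeBetaBar L N ℓ) (heckeAlphaBar L N ℓ)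
        (betaIntegral N ℓ) (alphaIntegral N ℓ) (betaFundamentalIdentity N ℓ) D) := by
  haveI : NeZero (ℓ : ℕ) := ⟨ℓ.2.ne_zero⟩
  rw [heckeOperatorBar_apply]
  exact heckeOperatorAlong_mk N ℓ D

end HeckeInputs

end Fermat.Agent.S37
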