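import Mathlib
import Fermat.Agent.S18.WitnessCore
import Fermat.Agent.S24.Hurwitz

/-!
# S37, clause (c): divisors with trivial specialisation and a principal multiple
prime to `ℓ` are principal

`R` is any subgroup of divisors of `F = modularFunctionFieldBar N` (in the application: the
subgroup generated by the differences of places with the same centre).  Input `hW` is the
statement (W) for `R`: a function whose divisor lies in `R` is a constant times a quotient of
two integral series with equal nonzero reductions.  Together with the geometric core of S18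
(`WitnessCore.KummerCore`) this gives clause (c) of
`DivisorForm.specializationExists_of_divisorSubgroup`.
-/

set_option autoImplicit false

noncomputable section

namespace Fermat.Agent.S37.TorsionFree

open ModularCurve AlgebraicCurve
open Fermat.Agent.S18

local notation "Qb" => AlgebraicClosure ℚ

variable {N : ℕ} [NeZero N] {ℓ : ℕ} {A : ValuationSubring Qb}
  {R : AddSubgroup (Divisor Qb (modularFunctionFieldBar N))}

/-- The statement (W) for the place `A`, the level `N` and the subgroup `R` of divisors. -/
def ConstReduction (A : ValuationSubring Qb) (N : ℕ) [NeZero N]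
    (R : AddSubgroup (Divisor Qb (modularFunctionFieldBar N))) : Prop :=
  ∀ (f : modularFunctionFieldBar N), f ≠ 0 →
    ∀ D : Divisor Qb (modularFunctionFieldBar N), D ∈ R →
      (∀ v : Place Qb (modularFunctionFieldBar N), D v = v.ord f) →
      ∃ (c : Qb) (Y₁ Y₂ : LaurentSeries A)
        (h₁ : Witness.IsMem A (IsLocalRing.residue A) N Y₁)
        (h₂ : Witness.IsMem A (IsLocalRing.residue A) N Y₂),
        c ≠ 0 ∧ coeffMap (IsLocalRing.residue A) Y₁ = coeffMap (IsLocalRing.residue A) Y₂ ∧
        coeffMap (IsLocalRing.residue A) Y₁ ≠ 0 ∧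
        f = algebraMap Qb (modularFunctionFieldBar N) c *
          (Witness.toBar Y₁ h₁ / Witness.toBar Y₂ h₂)

/-- One prime step: if `r • D` is principal with `D ∈ R` and `r ≠ ℓ` prime, then `D`
is principal. -/
theorem principal_of_prime_smul (hW : ConstReduction A N R)
    (hcore : WitnessCore.KummerCore A (IsLocalRing.residue A) N ℓ)
    {r : ℕ} (hr : r.Prime) (hrℓ : r ≠ ℓ)
    {D : Divisor Qb (modularFunctionFieldBar N)} (hD : D ∈ R)
    (hpr : r • D ∈ Divisor.principal (K := Qb) (F := modularFunctionFieldBar N)) :
    D ∈ Divisor.principal (K := Qb) (F := modularFunctionFieldBar N) := by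
  obtain ⟨f, hf, hdiv⟩ := hpr
  obtain ⟨c, Y₁, Y₂, h₁, h₂, hc, heq, hne, hfeq⟩ :=
    hW f hf (r • D) (R.nsmul_mem hD r) hdiv
  set w := Witness.toBar Y₁ h₁ / Witness.toBar Y₂ h₂ with hw
  have hc' : algebraMap Qb (modularFunctionFieldBar N) c ≠ 0 := by
    simpa using hc
  have hw0 : w ≠ 0 := by
    intro h0
    apply hf
    rw [hfeq, h0, mul_zero]
  have hordw : ∀ v : Place Qb (modularFunctionFieldBar N), v.ord w = (r : ℤ) * D v := by
    intro v
    have h1 := hdiv v
    rw [hfeq, v.ord_mul hc' hw0, Fermat.Agent.S24.Hurwitz.ord_algebraMap, zero_add] at h1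
    rw [← h1, Finsupp.smul_apply, nsmul_eq_mul]
  obtain ⟨a, ha⟩ := hcore r hr hrℓ Y₁ Y₂ h₁ h₂ heq hne (fun v => ⟨D v, hordw v⟩)
  rw [← hw] at ha
  have ha0 : a ≠ 0 := by
    intro h0
    apply hw0
    rw [← ha, h0, zero_pow hr.ne_zero]
  refine ⟨a, ha0, fun v => ?_⟩
  have h2 : v.ord w = (r : ℤ) * v.ord a := by
    rw [← ha, ← zpow_natCast, v.ord_zpow]
  have h3 : (r : ℤ) * D v = (r : ℤ) * v.ord a := by rw [← hordw v, h2]
  exact mul_left_cancel₀ (Nat.cast_ne_zero.mpr hr.ne_zero) h3

/-- **Clause (c).**  A divisor with trivial specialisation having a principal multiple prime to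
`ℓ` is principal. -/
theorem principal_of_smul (hW : ConstReduction A N R)
    (hcore : WitnessCore.KummerCore A (IsLocalRing.residue A) N ℓ) :
    ∀ (m : ℕ), ¬ ℓ ∣ m → ∀ D : Divisor Qb (modularFunctionFieldBar N), D ∈ R →
      m • D ∈ Divisor.principal (K := Qb) (F := modularFunctionFieldBar N) →
      D ∈ Divisor.principal (K := Qb) (F := modularFunctionFieldBar N) := by
  intro m
  induction m using Nat.strong_induction_on with
  | _ m ih =>
    intro hm D hD hpr
    rcases Nat.lt_or_ge m 2 with hlt | hge
    · interval_cases m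
      · exact absurd (dvd_zero ℓ) hm
      · simpa using hpr
    · set r := m.minFac with hr
      have hrp : r.Prime := Nat.minFac_prime (by omega)
      obtain ⟨m', hm'⟩ : r ∣ m := Nat.minFac_dvd m
      have hrℓ : r ≠ ℓ := by
        intro h
        apply hm
        rw [← h]
        exact Nat.minFac_dvd m
      have hm'lt : m' < m := by
        have h2 : 2 ≤ r := hrp.two_le
        have hpos : 0 < m' := by
          rcases Nat.eq_zero_or_pos m' with h0 | h0
          · rw [h0, mul_zero] at hm'
            omega
          · exact h0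
        nlinarith
      have hℓm' : ¬ ℓ ∣ m' := fun h => hm (hm' ▸ Dvd.dvd.mul_left h r)
      have hD' : m' • D ∈ R := R.nsmul_mem hD m'
      have hpr' : r • (m' • D) ∈ Divisor.principal (K := Qb) (F := modularFunctionFieldBar N) := by
        rw [← mul_smul, ← hm']
        exact hpr
      exact ih m' hm'lt hℓm' D hD (principal_of_prime_smul hW hcore hrp hrℓ hD' hpr')

/-- Clause (c) in the literal shape of `DivisorForm.specializationExists_of_divisorSubgroup`. -/
theorem principal_of_pow_smul (hW : ConstReduction A N R)
    (hcore : WitnessCore.KummerCore A (IsLocalRing.residue A) N ℓ) (hℓ : ℓ.Prime)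
    (p : ℕ) (hp : ¬ ℓ ∣ p)
    (D : Divisor Qb (modularFunctionFieldBar N)) (hD : D ∈ R) (n : ℕ)
    (hpr : (p ^ n) • D ∈ Divisor.principal (K := Qb) (F := modularFunctionFieldBar N)) :
    D ∈ Divisor.principal (K := Qb) (F := modularFunctionFieldBar N) :=
  principal_of_smul hW hcore (p ^ n) (fun h => hp (hℓ.dvd_of_dvd_pow h)) D hD hpr

end Fermat.Agent.S37.TorsionFree
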