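import Mathlib
import Fermat.Agent.S37.Centre
import Fermat.Agent.S37.DivisorForm
import Fermat.Agent.S37.HeckeInputs
import Fermat.Agent.S37.TorsionFree
import Fermat.Agent.Common.Frobenius

/-!
# S37: the final assembly from the four geometric inputs

`specializationExists_of_centre` derives the statement S37 from

* `InertiaInput`  (K-a): `σ P - P ∈ centreSubgroup A N` for `σ` in the inertia group of `A`;
* `HeckeInput`    (K-b): `s² P - T_ℓ (s P) + ℓ P ∈ centreSubgroup A N` for every Frobenius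
  lift `s` at `A`;
* `TorsionFree.ConstReduction A N (centreSubgroup A N)`  (W);
* `WitnessCore.KummerCore A (residue A) N ℓ`  (the geometric core of S18),

for every prime `ℓ ∤ N` and every valuation subring `A` of `ℚ̄` over `ℓ`.
-/

set_option autoImplicit false

noncomputable section

namespace Fermat.Agent.S37.Final

open ModularCurve AlgebraicCurve
open Fermat.Agent.S37.Centre Fermat.Agent.S18

local notation "Qb" => AlgebraicClosure ℚ

/-- (K-a) for the place `A` and the level `N`. -/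
def InertiaInput (A : ValuationSubring Qb) (N : ℕ) [NeZero N] : Prop :=
  ∀ σ ∈ A.inertiaSubgroupIn ℚ, ∀ P : Place Qb (modularFunctionFieldBar N),
    (Finsupp.single (arithmeticGalois (modularFunctionFieldFull N) σ • P) 1
      - Finsupp.single P 1 : Divisor Qb (modularFunctionFieldBar N)) ∈ centreSubgroup A N

/-- (K-b) for the place `A`, the level `N`, the prime `ℓ` and a Frobenius lift `s`. -/
def HeckeInput (A : ValuationSubring Qb) (N ℓ : ℕ) [NeZero N] [NeZero ℓ]
    (s : Qb ≃ₐ[ℚ] Qb) : Prop :=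
  ∀ (hα : HeckeAlphaBarIntegral Qb N ℓ) (hβ : HeckeBetaBarIntegral Qb N ℓ)
    (_ : HasPrincipalDivisors Qb (modularFunctionFieldBar (N * ℓ)))
    (P : Place Qb (modularFunctionFieldBar N)),
    (Finsupp.single (arithmeticGalois (modularFunctionFieldFull N) s •
        arithmeticGalois (modularFunctionFieldFull N) s • P) 1
      - heckeDivBar hα hβ
          (Finsupp.single (arithmeticGalois (modularFunctionFieldFull N) s • P) 1)
      + ℓ • Finsupp.single P 1 : Divisor Qb (modularFunctionFieldBar N)) ∈ centreSubgroup A N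

/-- **S37 from the four geometric inputs.** -/
theorem specializationExists_of_centre (N p : ℕ) [NeZero N]
    (hcomm : ModularCurve.HeckeOperatorsCommuteBar N)
    (hKa : ∀ ℓ : ℕ, ℓ.Prime → ¬ ℓ ∣ N → ∀ A : ValuationSubring Qb, A.LiesOverPrime ℓ →
      InertiaInput A N)
    (hKb : ∀ ℓ : ℕ, (hℓ : ℓ.Prime) → ¬ ℓ ∣ N → ∀ A : ValuationSubring Qb, A.LiesOverPrime ℓ →
      ∀ s : Qb ≃ₐ[ℚ] Qb, A.IsFrobeniusAt s ℓ →
        haveI : NeZero ℓ := ⟨hℓ.ne_zero⟩
        HeckeInput A N ℓ s)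
    (hW : ∀ ℓ : ℕ, ℓ.Prime → ¬ ℓ ∣ N → ∀ A : ValuationSubring Qb, A.LiesOverPrime ℓ →
      TorsionFree.ConstReduction A N (centreSubgroup A N))
    (hcore : ∀ ℓ : ℕ, ℓ.Prime → ¬ ℓ ∣ N → ∀ A : ValuationSubring Qb, A.LiesOverPrime ℓ →
      WitnessCore.KummerCore A (IsLocalRing.residue A) N ℓ) :
    letI := ModularCurve.heckeModuleBar N
    ∀ (_ : SMulCommClass (AlgebraicClosure ℚ ≃ₐ[ℚ] AlgebraicClosure ℚ) ModularCurve.HeckeAlg
      (ModularCurve.JZero N)),
      ModularCurve.SpecializationExists (K := ℚ) (L := AlgebraicClosure ℚ) N p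
        (ModularCurve.JZero N) := by
  intro inst
  refine Fermat.Agent.S37.DivisorForm.specializationExists_of_divisorSubgroup N p hcomm inst ?_
  intro ℓ hℓ hℓNp A hA
  have hℓN : ¬ ℓ ∣ N := fun h => hℓNp (dvd_mul_of_dvd_left h p)
  have hℓp : ¬ ℓ ∣ p := fun h => hℓNp (dvd_mul_of_dvd_right h N)
  obtain ⟨s, hs⟩ := Fermat.Agent.Common.exists_isFrobeniusAt A ℓ hℓ hA
  have : NeZero ℓ := ⟨hℓ.ne_zero⟩
  exact ⟨Fermat.Agent.S37.HeckeInputs.heckeInputsAlong N ℓ, s, centreSubgroup A N, hs,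
    hKa ℓ hℓ hℓN A hA, hKb ℓ hℓ hℓN A hA s hs,
    fun D hD _ n hpr => TorsionFree.principal_of_pow_smul (hW ℓ hℓ hℓN A hA)
      (hcore ℓ hℓ hℓN A hA) hℓ p hℓp D hD n hpr⟩

end Fermat.Agent.S37.Final
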