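import Mathlib
import Fermat.Agent.S18.GaussVal
import Fermat.Agent.S18.CuspGauss
import Fermat.Agent.S18.EtaleGauss
import Fermat.Agent.S18.Descent
import Fermat.Agent.S18.BaseDVR
import Fermat.Agent.S18.BaseDVRGeneric
import Fermat.Agent.S18.Witness
import Fermat.Agent.S37.GaloisValue
import Fermat.Agent.S37.Centre

/-!
# S37: Gauss-small functions have small values (the lemma (GS)), and the three Props of `Centre`

`A` is a valuation subring of `ℚ̄` over a prime `ℓ ∤ N`, `F` the function field of `X₀(N)` over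
`ℚ̄`, `j` the modular invariant.

* `exists_value_of_isIntegralElem` : (generic) an element integral over `A[x]` has a value in
  `A` at every place of degree one where `x` has a value in `A`.
* `core_j`, `core_inv` : over a discrete valuation ring `W` (uniformiser `ϖ`, algebraically
  closed residue field of characteristic `ℓ ∤ N`): if `h` is Gauss-integral and `ϖ h` is integral
  over `W[j]` (resp. `W[1/j]`) then so is `h`.
* `exists_eq_mul_j`, `exists_eq_mul_inv` : a Gauss-small function integral over `A[j]` (resp.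
  `A[1/j]`) is `c * h` with `c` a non-unit of `A` and `h` integral over the same ring.
* `valueProp`, `gaussIntProp`, `gaussSmallProp` : the three Props of `Centre.lean`.
-/

set_option autoImplicit false
set_option linter.style.haveILetI false
set_option linter.unusedSectionVars false

noncomputable section

namespace Fermat.Agent.S37.GaussSmall

open Polynomial AlgebraicCurve ModularCurve Fermat.Agent.S37.GaloisValue

/-! ### Ring-hom form of the integral-closure lemma -/

theorem isIntegralElem_of_mul {R Y : Type*} [CommRing R] [IsDomain R] [IsIntegrallyClosed R]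
    [Field Y] (φ : R →+* Y) (hφ : Function.Injective φ) (π s : R) (hπ : Prime π)
    (hs : ¬ π ∣ s) (c : Y) (h1 : φ.IsIntegralElem (φ π * c)) (h2 : φ.IsIntegralElem (φ s * c)) :
    φ.IsIntegralElem c := by
  letI : Algebra R Y := φ.toAlgebra
  letI : Algebra (FractionRing R) Y :=
    (IsFractionRing.lift hφ : FractionRing R →+* Y).toAlgebra
  haveI : IsScalarTower R (FractionRing R) Y :=
    IsScalarTower.of_algebraMap_eq (fun a => (IsFractionRing.lift_algebraMap hφ a).symm)
  exact Fermat.Agent.S18.EtaleGauss.isIntegral_of_smul_isIntegral (FractionRing R) π s hπ hs c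
    h1 h2

/-! ### Values of integral elements -/

section Value

variable {K F : Type*} [Field K] [Field F] [Algebra K F]

/-- Evaluation `A[X] → F`, `X ↦ x`, constants through `A ⊆ K → F`. -/
def evAt (A : ValuationSubring K) (x : F) : (↥A)[X] →+* F :=
  Polynomial.eval₂RingHom ((algebraMap K F).comp A.subtype) x

theorem evAt_C (A : ValuationSubring K) (x : F) (a : A) :
    evAt A x (C a) = algebraMap K F (a : K) := by
  simp [evAt]

theorem evAt_X (A : ValuationSubring K) (x : F) : evAt A x X = x := by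
  simp [evAt]

/-- At a place of degree one every element of the valuation ring has a value. -/
theorem exists_isValueAt (v : Place K F) (hdeg : v.deg = 1) {u : F}
    (hu : u ∈ v.toValuationSubring) : ∃ a : K, IsValueAt v u a := by
  obtain ⟨a, ha⟩ := Fermat.Agent.S18.Witness.exists_const_of_deg_one v hdeg hu
  refine ⟨a, ?_⟩
  rcases ha with ha | ha
  · rw [ha]; exact isValueAt_algebraMap v a
  · have hne : u - algebraMap K F a ≠ 0 := by
      intro h0
      rw [h0] at ha
      simp at ha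
    have hmem : u - algebraMap K F a ∈ v.toValuationSubring :=
      sub_mem hu (v.algebraMap_mem' a)
    have h1 := (Fermat.Agent.S24.Places.ord_pos_iff_mem_maximalIdeal v
      (⟨u - algebraMap K F a, hmem⟩ : v.toValuationSubring) (by
        intro h0; exact hne (congrArg Subtype.val h0))).mp ha
    exact (ValuationSubring.mem_nonunits_iff_exists_mem_maximalIdeal).mpr ⟨hmem, h1⟩

/-- Values of polynomials in `x`. -/
theorem isValueAt_evAt (A : ValuationSubring K) (v : Place K F) (x : F) (a₀ : A)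
    (hx : IsValueAt v x (a₀ : K)) (q : (↥A)[X]) :
    IsValueAt v (evAt A x q) ((q.eval a₀ : A) : K) := by
  induction q using Polynomial.induction_on' with
  | add p q hp hq =>
    rw [map_add, eval_add]
    exact hp.add hq
  | monomial n a =>
    rw [← C_mul_X_pow_eq_monomial, map_mul, map_pow, evAt_C, evAt_X, eval_mul, eval_C, eval_pow,
      eval_X]
    exact (isValueAt_algebraMap v (a : K)).mul (hx.pow n)

/-- Values of polynomial expressions in an element with a value. -/
theorem isValueAt_eval₂_evAt (A : ValuationSubring K) (v : Place K F) (x : F) (a₀ : A)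
    (hx : IsValueAt v x (a₀ : K)) (f : F) (c : K) (hf : IsValueAt v f c) (p : ((↥A)[X])[X]) :
    IsValueAt v (p.eval₂ (evAt A x) f) ((p.map (Polynomial.evalRingHom a₀)).eval₂ A.subtype c) := by
  induction p using Polynomial.induction_on' with
  | add p q hp hq =>
    rw [eval₂_add, Polynomial.map_add, eval₂_add]
    exact hp.add hq
  | monomial n q =>
    rw [eval₂_monomial, Polynomial.map_monomial, eval₂_monomial]
    exact (isValueAt_evAt A v x a₀ hx q).mul (hf.pow n)

/-- **Values of integral elements are integral.**  If `f` is integral over `A[x]` and `x` has a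
value in `A` at the place `v` (of degree one), then `f` has a value in `A` at `v`. -/
theorem exists_value_of_isIntegralElem (A : ValuationSubring K) (v : Place K F)
    (hdeg : v.deg = 1) (x : F) (a₀ : K) (ha₀ : a₀ ∈ A) (hx : IsValueAt v x a₀) (f : F)
    (hf : (evAt A x).IsIntegralElem f) : ∃ c : K, c ∈ A ∧ IsValueAt v f c := by
  obtain ⟨p, hp, hpf⟩ := hf
  -- `f` lies in the valuation ring of `v`
  have hfO : f ∈ v.toValuationSubring := by
    let φ' : (↥A)[X] →+* v.toValuationSubring :=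
      Polynomial.eval₂RingHom
        ((algebraMap K v.toValuationSubring).comp A.subtype) ⟨x, hx.mem⟩
    have hcomp : v.toValuationSubring.subtype.comp φ' = evAt A x := by
      apply Polynomial.ringHom_ext
      · intro a
        simp [φ', evAt]
      · simp [φ', evAt]
    have hint : IsIntegral v.toValuationSubring f := by
      refine ⟨p.map φ', hp.map _, ?_⟩
      rw [eval₂_map]
      have : (algebraMap (↥v.toValuationSubring) F).comp φ' = evAt A x := hcomp
      rw [this]
      exact hpf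
    obtain ⟨y, hy⟩ := IsIntegrallyClosed.isIntegral_iff.mp hint
    rw [← hy]
    exact y.2
  obtain ⟨c, hc⟩ := exists_isValueAt v hdeg hfO
  refine ⟨c, ?_, hc⟩
  have h1 := isValueAt_eval₂_evAt A v x ⟨a₀, ha₀⟩ hx f c hc p
  rw [hpf] at h1
  have h0 : IsValueAt v (0 : F) (0 : K) := by
    simpa using isValueAt_algebraMap v (0 : K)
  have h2 := h0.unique h1
  have hcint : IsIntegral A c :=
    ⟨p.map (Polynomial.evalRingHom (⟨a₀, ha₀⟩ : A)), hp.map _, h2.symm⟩
  obtain ⟨y, hy⟩ := IsIntegrallyClosed.isIntegral_iff.mp hcint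
  rw [← hy]
  exact y.2

end Value

/-! ### The core over a discrete valuation ring -/

section Core

open Fermat.Agent.S18 Fermat.Agent.S18.Gauss

variable {E : Type*} [Field E] [Algebra ℚ E] (W : ValuationSubring E) (N : ℕ) [NeZero N]

theorem evF_eq_evAt : Gauss.evF W N = evAt W (Fermat.Agent.S24.jBC E N) := by
  apply Polynomial.ringHom_ext
  · intro a; rw [Gauss.evF_C, evAt_C]
  · rw [Gauss.evF_X, evAt_X]

theorem evAt_jBC_injective : Function.Injective (evAt W (Fermat.Agent.S24.jBC E N)) := by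
  rw [← evF_eq_evAt]; exact Gauss.evF_injective W N

theorem jBC_ne_zero : Fermat.Agent.S24.jBC E N ≠ 0 := by
  intro h
  have h1 : evAt (⊤ : ValuationSubring E) (Fermat.Agent.S24.jBC E N) X
      = evAt (⊤ : ValuationSubring E) (Fermat.Agent.S24.jBC E N) 0 := by
    rw [evAt_X, map_zero, h]
  exact Polynomial.X_ne_zero (evAt_jBC_injective (⊤ : ValuationSubring E) N h1)

/-- The structure of `W`-algebra on the function field used to compare with `aeval`. -/
@[reducible] def algW : Algebra W (Fermat.Agent.S24.FF E N) :=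
  ((algebraMap E (Fermat.Agent.S24.FF E N)).comp W.subtype).toAlgebra

theorem aeval_eq_evAt (x : Fermat.Agent.S24.FF E N) :
    letI := algW W N
    ((aeval x : (↥W)[X] →ₐ[W] Fermat.Agent.S24.FF E N).toRingHom) = evAt W x := by
  letI := algW W N
  apply Polynomial.ringHom_ext
  · intro a
    rw [evAt_C]
    simp
    rfl
  · rw [evAt_X]
    simp

theorem evAt_inv_injective :
    Function.Injective (evAt W (Fermat.Agent.S24.jBC E N)⁻¹) := by
  letI := algW W N
  rw [injective_iff_map_eq_zero]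
  intro q hq
  have hj := jBC_ne_zero (E := E) N
  have key := CuspGauss.aeval_reflect (W := W) (Fermat.Agent.S24.jBC E N)⁻¹
    (Fermat.Agent.S24.jBC E N) (inv_mul_cancel₀ hj) q.natDegree q le_rfl
  have e1 : aeval (Fermat.Agent.S24.jBC E N)⁻¹ q = evAt W (Fermat.Agent.S24.jBC E N)⁻¹ q :=
    congrArg (fun φ : (↥W)[X] →+* Fermat.Agent.S24.FF E N => φ q) (aeval_eq_evAt W N _)
  have e2 : aeval (Fermat.Agent.S24.jBC E N) (reflect q.natDegree q)
      = evAt W (Fermat.Agent.S24.jBC E N) (reflect q.natDegree q) :=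
    congrArg (fun φ : (↥W)[X] →+* Fermat.Agent.S24.FF E N => φ (reflect q.natDegree q))
      (aeval_eq_evAt W N _)
  rw [e1, hq, mul_zero, e2] at key
  have h0 : reflect q.natDegree q = 0 :=
    evAt_jBC_injective W N (by rw [key, map_zero])
  exact (Polynomial.reflect_eq_zero_iff).mp h0

variable (ℓ : ℕ) [Fact ℓ.Prime] [CharP (IsLocalRing.ResidueField W) ℓ]
  [IsAlgClosed (IsLocalRing.ResidueField W)] [IsDiscreteValuationRing W]

/-- **Core, finite chart.** -/
theorem core_j (hℓN : ¬ ℓ ∣ N) {ϖ : W} (hϖ : Irreducible ϖ) (h : Fermat.Agent.S24.FF E N)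
    (hh : (h : LaurentSeries E) ∈ Gauss.contentRing W)
    (hint : (evAt W (Fermat.Agent.S24.jBC E N)).IsIntegralElem
      (algebraMap E (Fermat.Agent.S24.FF E N) (ϖ : E) * h)) :
    (evAt W (Fermat.Agent.S24.jBC E N)).IsIntegralElem h := by
  obtain ⟨S, hS, hSh⟩ := Gauss.isGaussInt_of_mem W N ℓ hℓN h hh
  rw [evF_eq_evAt] at hSh
  have hprime : Prime (C ϖ : (↥W)[X]) := Polynomial.prime_C_iff.mpr hϖ.prime
  have hs : ¬ (C ϖ : (↥W)[X]) ∣ S := fun hd =>
    hS ((Gauss.map_residue_eq_zero_iff_C_dvd W hϖ S).mpr hd)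
  refine isIntegralElem_of_mul (evAt W (Fermat.Agent.S24.jBC E N)) (evAt_jBC_injective W N)
    (C ϖ) S hprime hs h ?_ hSh
  rw [evAt_C]; exact hint

/-- **Core, cusp chart.** -/
theorem core_inv (hℓN : ¬ ℓ ∣ N) {ϖ : W} (hϖ : Irreducible ϖ) (h : Fermat.Agent.S24.FF E N)
    (hh : (h : LaurentSeries E) ∈ Gauss.contentRing W)
    (hint : (evAt W (Fermat.Agent.S24.jBC E N)⁻¹).IsIntegralElem
      (algebraMap E (Fermat.Agent.S24.FF E N) (ϖ : E) * h)) :
    (evAt W (Fermat.Agent.S24.jBC E N)⁻¹).IsIntegralElem h := by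
  obtain ⟨S, hS, hSh⟩ := Gauss.isGaussInt_of_mem W N ℓ hℓN h hh
  rw [evF_eq_evAt] at hSh
  have hprime : Prime (C ϖ : (↥W)[X]) := Polynomial.prime_C_iff.mpr hϖ.prime
  have hs : ¬ (C ϖ : (↥W)[X]) ∣ S := fun hd =>
    hS ((Gauss.map_residue_eq_zero_iff_C_dvd W hϖ S).mpr hd)
  have hj := jBC_ne_zero (E := E) N
  letI := algW W N
  have hSh' : (aeval (Fermat.Agent.S24.jBC E N) :
      (↥W)[X] →ₐ[W] Fermat.Agent.S24.FF E N).toRingHom.IsIntegralElem
      (aeval (Fermat.Agent.S24.jBC E N) S * h) := by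
    rw [aeval_eq_evAt W N]
    have e : aeval (Fermat.Agent.S24.jBC E N) S = evAt W (Fermat.Agent.S24.jBC E N) S :=
      congrArg (fun φ : (↥W)[X] →+* Fermat.Agent.S24.FF E N => φ S) (aeval_eq_evAt W N _)
    rw [e]
    exact hSh
  obtain ⟨S', hS', hS'h⟩ := CuspGauss.gaussInt_inv (W := W) ϖ (Fermat.Agent.S24.jBC E N)
    (Fermat.Agent.S24.jBC E N)⁻¹ (mul_inv_cancel₀ hj) h ⟨S, hs, hSh'⟩
  rw [aeval_eq_evAt W N] at hS'h
  have e : aeval (Fermat.Agent.S24.jBC E N)⁻¹ S' = evAt W (Fermat.Agent.S24.jBC E N)⁻¹ S' :=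
    congrArg (fun φ : (↥W)[X] →+* Fermat.Agent.S24.FF E N => φ S') (aeval_eq_evAt W N _)
  rw [e] at hS'h
  refine isIntegralElem_of_mul (evAt W (Fermat.Agent.S24.jBC E N)⁻¹) (evAt_inv_injective W N)
    (C ϖ) S' hprime hS' h ?_ hS'h
  rw [evAt_C]; exact hint

end Core

/-! ### Descent from `ℚ̄` to a discrete valuation ring -/

section Descent

open Fermat.Agent.S18 Fermat.Agent.S18.Gauss

local notation "Qb" => AlgebraicClosure ℚ

variable (N : ℕ) [NeZero N] {ℓ : ℕ} (A : ValuationSubring Qb)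

/-- **Division by a uniformiser**, generic chart: a Gauss-small element of the function field
which is integral over `A[x]` is a non-unit of `A` times an element integral over `A[x]`. -/
theorem exists_eq_mul_aux (hℓ : ℓ.Prime) (hℓN : ¬ ℓ ∣ N) (hA : A.LiesOverPrime ℓ)
    (xQ : Fermat.Agent.S24.FF Qb N)
    (x : ∀ (L : Type) [Field L] [Algebra ℚ L], Fermat.Agent.S24.FF L N)
    (hx : ∀ (L : Type) [Field L] [Algebra ℚ L] (ι : L →+* Qb),
      Fermat.Agent.S24.CoeffBC.bc ι (modularFunctionFieldFull N) (x L) = xQ)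
    (hcore : ∀ (L : Type) [Field L] [Algebra ℚ L] (ι : L →+* Qb),
      IsDiscreteValuationRing (A.comap ι) →
      IsAlgClosed (IsLocalRing.ResidueField (A.comap ι)) →
      CharP (IsLocalRing.ResidueField (A.comap ι)) ℓ →
      ∀ ϖ : A.comap ι, Irreducible ϖ → ∀ h : Fermat.Agent.S24.FF L N,
        (h : LaurentSeries L) ∈ Gauss.contentRing (A.comap ι) →
        (evAt (A.comap ι) (x L)).IsIntegralElem
          (algebraMap L (Fermat.Agent.S24.FF L N) (ϖ : L) * h) →
        (evAt (A.comap ι) (x L)).IsIntegralElem h)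
    (g : Fermat.Agent.S24.FF Qb N)
    (hsmall : Fermat.Agent.S37.Centre.GaussSmall A (g : LaurentSeries Qb))
    (hint : (evAt A xQ).IsIntegralElem g) :
    ∃ (c : Qb) (h : Fermat.Agent.S24.FF Qb N), c ∈ A.nonunits ∧
      g = algebraMap Qb (Fermat.Agent.S24.FF Qb N) c * h ∧ (evAt A xQ).IsIntegralElem h := by
  classical
  haveI : Fact ℓ.Prime := ⟨hℓ⟩
  by_cases hg0 : g = 0
  · refine ⟨0, 0, ?_, by rw [hg0, mul_zero], ?_⟩
    · rw [ValuationSubring.mem_nonunits_iff, map_zero]; exact zero_lt_one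
    · exact ⟨X, monic_X, by simp⟩
  obtain ⟨xA, yA, hxA, hyA, hxy⟩ := hsmall
  obtain ⟨p, hp, hpg⟩ := hint
  obtain ⟨S₁, hS₁⟩ := Descent.exists_finset_descent (modularFunctionFieldFull N) g.2
  let S₂ : Finset Qb := p.coeffs.biUnion (fun q => q.coeffs.image (fun a : A => (a : Qb)))
  obtain ⟨L, _, _, ι, hSE, -, hdvr, hac, -, hchar, -, -⟩ :=
    BaseDVRGeneric.exists_base A hℓ hA (S₁ ∪ S₂)
  haveI := hdvr
  haveI := hchar
  obtain ⟨y, hyF, hy⟩ := hS₁ L ι (fun a ha => hSE a (Finset.mem_union_left _ ha))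
  let gE : Fermat.Agent.S24.FF L N := ⟨y, hyF⟩
  have hbc : Fermat.Agent.S24.CoeffBC.bc ι (modularFunctionFieldFull N) gE = g :=
    Subtype.ext hy
  have hy0 : y ≠ 0 := by
    intro h0
    apply hg0
    apply Subtype.ext
    rw [← hy, h0, map_zero]
    rfl
  obtain ⟨ϖ, hϖ⟩ := IsDiscreteValuationRing.exists_irreducible (A.comap ι)
  -- the structure theorem over the discrete valuation ring
  obtain ⟨a, Y₁, Y₂, ha0, -, -, hY₁, hY₂, hrel⟩ :=
    Gauss.exists_integral_rep (A.comap ι) N ℓ hℓN hyF hy0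
  have htoA : ∀ Y : LaurentSeries (A.comap ι), coeffMap ι (Gauss.toL (A.comap ι) Y)
      = coeffMap A.subtype (coeffMap (Descent.inclComap ι A) Y) := by
    intro Y
    show coeffMap ι (coeffMap (A.comap ι).subtype Y) = _
    rw [coeffMap_coeffMap, coeffMap_coeffMap]
    rfl
  have hredA : ∀ Y : LaurentSeries (A.comap ι), Gauss.toK (A.comap ι) Y ≠ 0 →
      coeffMap (IsLocalRing.residue A) (coeffMap (Descent.inclComap ι A) Y) ≠ 0 := by
    intro Y hY h0
    apply hY
    apply Descent.coeffMap_injective (Descent.resComap ι A) (Descent.resComap_injective ι A)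
    rw [map_zero]
    show coeffMap (Descent.resComap ι A) (coeffMap (IsLocalRing.residue _) Y) = 0
    rw [Descent.coeffMap_resComap, h0]
  have hrelA : (g : LaurentSeries Qb) * coeffMap A.subtype (coeffMap (Descent.inclComap ι A) Y₂)
      = HahnSeries.C (ι a) * coeffMap A.subtype (coeffMap (Descent.inclComap ι A) Y₁) := by
    have h1 := congrArg (coeffMap ι) hrel
    rw [map_mul, map_mul, htoA, htoA, hy] at h1
    rw [h1]
    congr 1
    exact coeffMap_single ι 0 a
  -- the constant is a non-unit of `A`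
  have hιa : ι a ∈ A.nonunits := by
    by_contra hnon
    rw [ValuationSubring.mem_nonunits_iff_or] at hnon
    push Not at hnon
    obtain ⟨hιa0, hb⟩ := hnon
    have hC0 : (HahnSeries.C (ι a) : LaurentSeries Qb) ≠ 0 := HahnSeries.C_ne_zero hιa0
    have hCb : (HahnSeries.C ((ι a)⁻¹) : LaurentSeries Qb)
        = coeffMap A.subtype (HahnSeries.C (⟨(ι a)⁻¹, hb⟩ : A)) :=
      (coeffMap_single A.subtype 0 (⟨(ι a)⁻¹, hb⟩ : A)).symm
    have hCinv : (HahnSeries.C ((ι a)⁻¹) : LaurentSeries Qb) * HahnSeries.C (ι a) = 1 := by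
      rw [← map_mul, inv_mul_cancel₀ hιa0, map_one]
    have h2 : coeffMap A.subtype (coeffMap (Descent.inclComap ι A) Y₁ * yA)
        = coeffMap A.subtype (HahnSeries.C (⟨(ι a)⁻¹, hb⟩ : A) * xA *
          coeffMap (Descent.inclComap ι A) Y₂) := by
      rw [map_mul, map_mul, map_mul, ← hCb, ← hxy]
      calc coeffMap A.subtype (coeffMap (Descent.inclComap ι A) Y₁) * coeffMap A.subtype yA
          = (HahnSeries.C ((ι a)⁻¹) * HahnSeries.C (ι a)) *
              coeffMap A.subtype (coeffMap (Descent.inclComap ι A) Y₁) * coeffMap A.subtype yA := by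
            rw [hCinv, one_mul]
        _ = HahnSeries.C ((ι a)⁻¹) * (HahnSeries.C (ι a) *
              coeffMap A.subtype (coeffMap (Descent.inclComap ι A) Y₁)) * coeffMap A.subtype yA := by
            ring
        _ = HahnSeries.C ((ι a)⁻¹) * ((g : LaurentSeries Qb) * coeffMap A.subtype yA) *
              coeffMap A.subtype (coeffMap (Descent.inclComap ι A) Y₂) := by
            rw [← hrelA]; ring
    have h3 := Descent.coeffMap_injective A.subtype Subtype.val_injective h2
    have h4 := congrArg (coeffMap (IsLocalRing.residue A)) h3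
    rw [map_mul, map_mul, map_mul, hxA, mul_zero, zero_mul] at h4
    rcases mul_eq_zero.mp h4 with h5 | h5
    · exact hredA Y₁ hY₁ h5
    · exact hyA h5
  have haW : a ∈ A.comap ι := A.nonunits_le hιa
  have hres : IsLocalRing.residue (A.comap ι) ⟨a, haW⟩ = 0 := by
    rw [IsLocalRing.residue_eq_zero_iff, IsLocalRing.mem_maximalIdeal, mem_nonunits_iff]
    intro hu
    have hu' : IsUnit (Descent.inclComap ι A ⟨a, haW⟩) := hu.map _
    obtain ⟨ha', hmem⟩ := ValuationSubring.mem_nonunits_iff_exists_mem_maximalIdeal.mp hιa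
    rw [IsLocalRing.mem_maximalIdeal, mem_nonunits_iff] at hmem
    exact hmem hu'
  obtain ⟨a', ha'⟩ := (Gauss.residue_eq_zero_iff_unif (A.comap ι) hϖ ⟨a, haW⟩).mp hres
  have haa' : a = (ϖ : L) * (a' : L) := congrArg Subtype.val ha'
  have hϖE : algebraMap L (Fermat.Agent.S24.FF L N) (ϖ : L) ≠ 0 := by
    rw [Ne, map_eq_zero]
    intro h0
    exact hϖ.ne_zero (Subtype.ext h0)
  let hE : Fermat.Agent.S24.FF L N := (algebraMap L (Fermat.Agent.S24.FF L N) (ϖ : L))⁻¹ * gE
  have hmulE : algebraMap L (Fermat.Agent.S24.FF L N) (ϖ : L) * hE = gE :=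
    mul_inv_cancel_left₀ hϖE gE
  have hY₂0 : Gauss.toL (A.comap ι) Y₂ ≠ 0 := fun h0 =>
    hY₂ (by rw [(Gauss.toL_eq_zero_iff (A.comap ι) _).mp h0, map_zero])
  have hhE : (hE : LaurentSeries L) = HahnSeries.C ((a' : A.comap ι) : L) *
      (Gauss.toL (A.comap ι) Y₁ / Gauss.toL (A.comap ι) Y₂) := by
    have hyZ : y = HahnSeries.C ((ϖ : A.comap ι) : L) * (HahnSeries.C ((a' : A.comap ι) : L) *
        (Gauss.toL (A.comap ι) Y₁ / Gauss.toL (A.comap ι) Y₂)) := by
      rw [← mul_assoc, ← map_mul, ← haa', mul_div_assoc', ← hrel, mul_div_assoc,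
        div_self hY₂0, mul_one]
    have e1 : ((algebraMap L (Fermat.Agent.S24.FF L N) (ϖ : L))⁻¹ * gE :
        Fermat.Agent.S24.FF L N).1 = (algebraMap L (LaurentSeries L) (ϖ : L))⁻¹ * y := rfl
    show ((algebraMap L (Fermat.Agent.S24.FF L N) (ϖ : L))⁻¹ * gE : Fermat.Agent.S24.FF L N).1 = _
    rw [e1, Fermat.Agent.S28.Content.algebraMap_eq_C_of_field, hyZ]
    exact inv_mul_cancel_left₀ (Gauss.C_unif_ne_zero _ hϖ) _
  have hcont : (hE : LaurentSeries L) ∈ Gauss.contentRing (A.comap ι) := by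
    rw [hhE]
    exact mul_mem (Gauss.C_mem_contentRing _ a') (Gauss.quot_mem_contentRing _ Y₁ Y₂ hY₂)
  -- descent of the integrality equation
  let f₁ : (↥(A.comap ι))[X] →+* (↥A)[X] := Polynomial.mapRingHom (Descent.inclComap ι A)
  have hlift : p ∈ Polynomial.lifts f₁ := by
    rw [Polynomial.lifts_iff_coeff_lifts]
    intro n
    have h1 : p.coeff n ∈ Polynomial.lifts (Descent.inclComap ι A) := by
      rw [Polynomial.lifts_iff_coeff_lifts]
      intro m
      by_cases h0 : (p.coeff n).coeff m = 0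
      · exact ⟨0, by rw [h0, map_zero]⟩
      · have hn0 : p.coeff n ≠ 0 := by
          intro h
          rw [h] at h0
          exact h0 (Polynomial.coeff_zero m)
        have hmem : (((p.coeff n).coeff m : A) : Qb) ∈ S₂ := by
          simp only [S₂, Finset.mem_biUnion, Finset.mem_image]
          exact ⟨p.coeff n, Polynomial.coeff_mem_coeffs hn0, (p.coeff n).coeff m,
            Polynomial.coeff_mem_coeffs h0, rfl⟩
        obtain ⟨b, hb⟩ := hSE _ (Finset.mem_union_right _ hmem)
        have hbA : b ∈ A.comap ι := by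
          show ι b ∈ A
          rw [hb]
          exact ((p.coeff n).coeff m).2
        exact ⟨⟨b, hbA⟩, Subtype.ext hb⟩
    obtain ⟨q, hq⟩ := (Polynomial.mem_lifts _).mp h1
    exact ⟨q, hq⟩
  obtain ⟨pE, hpE, -, hpEm⟩ := Polynomial.lifts_and_degree_eq_and_monic hlift hp
  have hcomp : (Fermat.Agent.S24.CoeffBC.bc ι (modularFunctionFieldFull N)).comp
      (evAt (A.comap ι) (x L)) = (evAt A xQ).comp f₁ := by
    apply Polynomial.ringHom_ext
    · intro a
      simp only [RingHom.comp_apply]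
      rw [evAt_C, Fermat.Agent.S24.CoeffBC.bc_algebraMap]
      show _ = evAt A xQ (Polynomial.map _ (C a))
      rw [Polynomial.map_C, evAt_C]
      rfl
    · simp only [RingHom.comp_apply]
      rw [evAt_X, hx L ι]
      show _ = evAt A xQ (Polynomial.map _ X)
      rw [Polynomial.map_X, evAt_X]
  have hgE : (evAt (A.comap ι) (x L)).IsIntegralElem gE := by
    refine ⟨pE, hpEm, ?_⟩
    apply (Fermat.Agent.S24.CoeffBC.bc ι (modularFunctionFieldFull N)).injective
    rw [Polynomial.hom_eval₂, hcomp, hbc, ← Polynomial.eval₂_map, map_zero]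
    show (Polynomial.map f₁ pE).eval₂ (evAt A xQ) g = 0
    rw [hpE]
    exact hpg
  obtain ⟨Q, hQ, hQh⟩ := hcore L ι hdvr hac hchar ϖ hϖ hE hcont (by rw [hmulE]; exact hgE)
  refine ⟨ι (ϖ : L), Fermat.Agent.S24.CoeffBC.bc ι (modularFunctionFieldFull N) hE, ?_, ?_,
    ⟨Q.map f₁, hQ.map _, ?_⟩⟩
  · rw [ValuationSubring.mem_nonunits_iff_exists_mem_maximalIdeal]
    refine ⟨ϖ.2, ?_⟩
    have h1 : (⟨ι (ϖ : L), ϖ.2⟩ : A) = Descent.inclComap ι A ϖ := rfl
    rw [h1, IsLocalRing.mem_maximalIdeal, mem_nonunits_iff]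
    intro hu
    exact hϖ.not_isUnit (isUnit_of_map_unit (Descent.inclComap ι A) ϖ hu)
  · rw [← hbc, ← Fermat.Agent.S24.CoeffBC.bc_algebraMap, ← map_mul, hmulE]
  · rw [Polynomial.eval₂_map, ← hcomp, ← Polynomial.hom_eval₂, hQh, map_zero]

end Descent

/-! ### The statements over `ℚ̄` -/

section Main

open Fermat.Agent.S18 Fermat.Agent.S18.Gauss

local notation "Qb" => AlgebraicClosure ℚ

variable (N : ℕ) [NeZero N] {ℓ : ℕ} (A : ValuationSubring Qb)

theorem bc_jBC {L : Type*} [Field L] [Algebra ℚ L] (ι : L →+* Qb) :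
    Fermat.Agent.S24.CoeffBC.bc ι (modularFunctionFieldFull N) (Fermat.Agent.S24.jBC L N)
      = Fermat.Agent.S24.jBC Qb N :=
  Subtype.ext (Fermat.Agent.S24.CoeffBC.coeffMap_coeffEmb' ι jq)

/-- **Division by a non-unit, finite chart.**  A Gauss-small element of the function field of
`X₀(N)` over `ℚ̄` which is integral over `A[j]` is `c * h` with `c` a non-unit of `A` and `h`
integral over `A[j]`. -/
theorem exists_eq_mul_j (hℓ : ℓ.Prime) (hℓN : ¬ ℓ ∣ N) (hA : A.LiesOverPrime ℓ)
    (g : Fermat.Agent.S24.FF Qb N)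
    (hsmall : Fermat.Agent.S37.Centre.GaussSmall A (g : LaurentSeries Qb))
    (hint : (evAt A (Fermat.Agent.S24.jBC Qb N)).IsIntegralElem g) :
    ∃ (c : Qb) (h : Fermat.Agent.S24.FF Qb N), c ∈ A.nonunits ∧
      g = algebraMap Qb (Fermat.Agent.S24.FF Qb N) c * h ∧
      (evAt A (Fermat.Agent.S24.jBC Qb N)).IsIntegralElem h :=
  haveI : Fact ℓ.Prime := ⟨hℓ⟩
  exists_eq_mul_aux N A hℓ hℓN hA (Fermat.Agent.S24.jBC Qb N)
    (fun L _ _ => Fermat.Agent.S24.jBC L N) (fun _ _ _ ι => bc_jBC N ι)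
    (fun L _ _ ι hdvr hac hchar ϖ hϖ h hh hi => by
      haveI := hdvr; haveI := hac; haveI := hchar
      exact core_j (A.comap ι) N ℓ hℓN hϖ h hh hi) g hsmall hint

/-- **Division by a non-unit, cusp chart.** -/
theorem exists_eq_mul_inv (hℓ : ℓ.Prime) (hℓN : ¬ ℓ ∣ N) (hA : A.LiesOverPrime ℓ)
    (g : Fermat.Agent.S24.FF Qb N)
    (hsmall : Fermat.Agent.S37.Centre.GaussSmall A (g : LaurentSeries Qb))
    (hint : (evAt A (Fermat.Agent.S24.jBC Qb N)⁻¹).IsIntegralElem g) :
    ∃ (c : Qb) (h : Fermat.Agent.S24.FF Qb N), c ∈ A.nonunits ∧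
      g = algebraMap Qb (Fermat.Agent.S24.FF Qb N) c * h ∧
      (evAt A (Fermat.Agent.S24.jBC Qb N)⁻¹).IsIntegralElem h :=
  haveI : Fact ℓ.Prime := ⟨hℓ⟩
  exists_eq_mul_aux N A hℓ hℓN hA (Fermat.Agent.S24.jBC Qb N)⁻¹
    (fun L _ _ => (Fermat.Agent.S24.jBC L N)⁻¹)
    (fun _ _ _ ι => by rw [map_inv₀, bc_jBC N ι])
    (fun L _ _ ι hdvr hac hchar ϖ hϖ h hh hi => by
      haveI := hdvr; haveI := hac; haveI := hchar
      exact core_inv (A.comap ι) N ℓ hℓN hϖ h hh hi) g hsmall hint

/-- Values of elements integral over `A[x]` at a place where `x` has a value in `A`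
(function field of `X₀(N)` over `ℚ̄`). -/
theorem exists_value_of_integral (x : Fermat.Agent.S24.FF Qb N)
    (P : Place Qb (modularFunctionFieldBar N)) (a₀ : Qb) (ha₀ : a₀ ∈ A)
    (hP : IsValueAt P x a₀) (f : Fermat.Agent.S24.FF Qb N)
    (hf : (evAt A x).IsIntegralElem f) : ∃ c : Qb, c ∈ A ∧ IsValueAt P f c :=
  exists_value_of_isIntegralElem A P (Fermat.Agent.S18.Witness.bar_deg_eq_one N P) x a₀ ha₀ hP
    f hf

theorem value_small_aux (x : Fermat.Agent.S24.FF Qb N)
    (g : Fermat.Agent.S24.FF Qb N)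
    (hdiv : ∃ (c : Qb) (h : Fermat.Agent.S24.FF Qb N), c ∈ A.nonunits ∧
      g = algebraMap Qb (Fermat.Agent.S24.FF Qb N) c * h ∧ (evAt A x).IsIntegralElem h)
    (P : Place Qb (modularFunctionFieldBar N)) (a₀ : Qb) (ha₀ : a₀ ∈ A)
    (hP : IsValueAt P x a₀) : ∃ c : Qb, c ∈ A.nonunits ∧ IsValueAt P g c := by
  obtain ⟨c₀, h, hc₀, rfl, hh⟩ := hdiv
  obtain ⟨c₁, hc₁, hv⟩ := exists_value_of_integral N A x P a₀ ha₀ hP h hh
  refine ⟨c₀ * c₁, ?_, (isValueAt_algebraMap P c₀).mul hv⟩
  rw [ValuationSubring.mem_nonunits_iff] at hc₀ ⊢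
  rw [map_mul]
  have h1 : A.valuation c₁ ≤ 1 := (A.valuation_le_one_iff c₁).mpr hc₁
  calc A.valuation c₀ * A.valuation c₁ ≤ A.valuation c₀ * 1 := by gcongr
    _ = A.valuation c₀ := mul_one _
    _ < 1 := hc₀

/-- **(GS), finite chart.**  A Gauss-small function integral over `A[j]` has a value in the
maximal ideal of `A` at every place where `j` has a value in `A`. -/
theorem isValueAt_of_small_j (hℓ : ℓ.Prime) (hℓN : ¬ ℓ ∣ N) (hA : A.LiesOverPrime ℓ)
    (g : Fermat.Agent.S24.FF Qb N)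
    (hsmall : Fermat.Agent.S37.Centre.GaussSmall A (g : LaurentSeries Qb))
    (hint : (evAt A (Fermat.Agent.S24.jBC Qb N)).IsIntegralElem g)
    (P : Place Qb (modularFunctionFieldBar N)) (a₀ : Qb) (ha₀ : a₀ ∈ A)
    (hP : IsValueAt P (Fermat.Agent.S24.jBC Qb N) a₀) :
    ∃ c : Qb, c ∈ A.nonunits ∧ IsValueAt P g c :=
  value_small_aux N A _ g (exists_eq_mul_j N A hℓ hℓN hA g hsmall hint) P a₀ ha₀ hP

/-- **(GS), cusp chart.**  A Gauss-small function integral over `A[1/j]` has a value in the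
maximal ideal of `A` at every place where `1/j` has a value in `A`. -/
theorem isValueAt_of_small_inv (hℓ : ℓ.Prime) (hℓN : ¬ ℓ ∣ N) (hA : A.LiesOverPrime ℓ)
    (g : Fermat.Agent.S24.FF Qb N)
    (hsmall : Fermat.Agent.S37.Centre.GaussSmall A (g : LaurentSeries Qb))
    (hint : (evAt A (Fermat.Agent.S24.jBC Qb N)⁻¹).IsIntegralElem g)
    (P : Place Qb (modularFunctionFieldBar N)) (a₀ : Qb) (ha₀ : a₀ ∈ A)
    (hP : IsValueAt P (Fermat.Agent.S24.jBC Qb N)⁻¹ a₀) :
    ∃ c : Qb, c ∈ A.nonunits ∧ IsValueAt P g c :=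
  value_small_aux N A _ g (exists_eq_mul_inv N A hℓ hℓN hA g hsmall hint) P a₀ ha₀ hP

end Main

/-! ### The three Props of `Centre.lean` -/

section Props

open Fermat.Agent.S18 Fermat.Agent.S18.Gauss Fermat.Agent.S37.Centre

local notation "Qb" => AlgebraicClosure ℚ

/-- Values of inverses. -/
theorem isValueAt_inv {K F : Type*} [Field K] [Field F] [Algebra K F] {v : Place K F} {u : F}
    {a : K} (h : IsValueAt v u a) (ha : a ≠ 0) : IsValueAt v u⁻¹ a⁻¹ := by
  rw [isValueAt_iff] at h ⊢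
  have haF : algebraMap K F a ≠ 0 := by rwa [Ne, map_eq_zero]
  have hVa : v.toValuationSubring.valuation (algebraMap K F a) = 1 := by
    apply le_antisymm
    · exact (v.toValuationSubring.valuation_le_one_iff _).mpr (v.algebraMap_mem' a)
    · have h1 : v.toValuationSubring.valuation (algebraMap K F a⁻¹) ≤ 1 :=
        (v.toValuationSubring.valuation_le_one_iff _).mpr (v.algebraMap_mem' _)
      rw [map_inv₀, map_inv₀] at h1
      by_contra hlt
      push Not at hlt
      have h0 : v.toValuationSubring.valuation (algebraMap K F a) ≠ 0 := by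
        rwa [Ne, Valuation.zero_iff]
      have h2 : 1 < (v.toValuationSubring.valuation (algebraMap K F a))⁻¹ :=
        (one_lt_inv₀ (zero_lt_iff.mpr h0)).mpr hlt
      exact absurd h1 (not_le.mpr h2)
  have hVu : v.toValuationSubring.valuation u = 1 := by
    have e : u = (u - algebraMap K F a) + algebraMap K F a := by ring
    rw [e, Valuation.map_add_eq_of_lt_right _ (by rw [hVa]; exact h), hVa]
  have hu0 : u ≠ 0 := by
    intro h0
    rw [h0, map_zero] at hVu
    exact zero_ne_one hVu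
  have e : u⁻¹ - algebraMap K F a⁻¹ = -(u - algebraMap K F a) * u⁻¹ * (algebraMap K F a)⁻¹ := by
    rw [map_inv₀]
    field_simp
    ring
  rw [e, map_mul, map_mul, Valuation.map_neg, map_inv₀, map_inv₀, hVu, hVa, inv_one, mul_one,
    mul_one]
  exact h

variable (N : ℕ) [NeZero N] {ℓ : ℕ} (A : ValuationSubring Qb)

theorem evJ_eq : Centre.evJ A N = evAt A (Fermat.Agent.S24.jBC Qb N) := rfl

theorem evJinv_eq : Centre.evJinv A N = evAt A (Fermat.Agent.S24.jBC Qb N)⁻¹ := rfl

/-- The value of `u(1/j)` at a cusp place is a unit of `A` when `u(0)` is. -/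
theorem exists_unit_value (u : (↥A)[X]) (hu : IsUnit (u.coeff 0))
    (P : Place Qb (modularFunctionFieldBar N)) (a : Qb) (ha : A.valuation a < 1)
    (hP : IsValueAt P (Fermat.Agent.S24.jBC Qb N)⁻¹ a) :
    ∃ b : Qb, b ≠ 0 ∧ b⁻¹ ∈ A ∧ IsValueAt P (Centre.evJinv A N u) b := by
  have haA : a ∈ A := (A.valuation_le_one_iff a).mp ha.le
  have hval := isValueAt_evAt A P (Fermat.Agent.S24.jBC Qb N)⁻¹ ⟨a, haA⟩ hP u
  have hunit : IsUnit (u.eval (⟨a, haA⟩ : A)) := by
    rw [← IsLocalRing.residue_ne_zero_iff_isUnit]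
    have e : u.eval (⟨a, haA⟩ : A) = u.divX.eval ⟨a, haA⟩ * ⟨a, haA⟩ + u.coeff 0 := by
      conv_lhs => rw [← Polynomial.divX_mul_X_add u]
      simp
    have hmem : (⟨a, haA⟩ : A) ∈ IsLocalRing.maximalIdeal A := by
      rw [A.valuation_lt_one_iff]
      exact ha
    rw [e, map_add, map_mul, (IsLocalRing.residue_eq_zero_iff _).mpr hmem, mul_zero, zero_add,
      IsLocalRing.residue_ne_zero_iff_isUnit]
    exact hu
  obtain ⟨w, hw⟩ := hunit.exists_right_inv
  have hw' : ((u.eval (⟨a, haA⟩ : A) : A) : Qb) * (w : Qb) = 1 := congrArg Subtype.val hw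
  have hb0 : ((u.eval (⟨a, haA⟩ : A) : A) : Qb) ≠ 0 := left_ne_zero_of_mul_eq_one hw'
  refine ⟨_, hb0, ?_, hval⟩
  rw [inv_eq_of_mul_eq_one_right hw']
  exact w.2

/-- **(VAL)** of `Centre.lean`. -/
theorem valueProp : Centre.ValueProp A N := by
  refine ⟨fun f hf P hP => ?_, fun f hf P hP => ?_⟩
  · obtain ⟨a, ha, hP⟩ := hP
    exact exists_value_of_integral N A _ P a ha hP f hf
  · obtain ⟨a, ha, hP⟩ := hP
    obtain ⟨u, hu, hf⟩ := hf
    have haA : a ∈ A := (A.valuation_le_one_iff a).mp ha.le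
    obtain ⟨b, hb0, hbA, hb⟩ := exists_unit_value N A u hu P a ha hP
    obtain ⟨c, hc, hv⟩ := exists_value_of_integral N A _ P a haA hP _ hf
    have hu0 : Centre.evJinv A N u ≠ 0 := by
      intro h0
      rw [h0] at hb
      have h1 : IsValueAt P (0 : modularFunctionFieldBar N) (0 : Qb) := by
        simpa using isValueAt_algebraMap P (0 : Qb)
      exact hb0 (h1.unique hb).symm
    refine ⟨b⁻¹ * c, A.mul_mem _ _ hbA hc, ?_⟩
    have e : f = (Centre.evJinv A N u)⁻¹ * (Centre.evJinv A N u * f) := by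
      rw [inv_mul_cancel_left₀ hu0]
    rw [e]
    exact (isValueAt_inv hb hb0).mul hv

/-- **(GI)** of `Centre.lean`. -/
theorem gaussIntProp (hℓ : ℓ.Prime) (hℓN : ¬ ℓ ∣ N) (hA : A.LiesOverPrime ℓ) :
    Centre.GaussIntProp A N := by
  haveI : Fact ℓ.Prime := ⟨hℓ⟩
  haveI : CharP (IsLocalRing.ResidueField A) ℓ := BaseDVR.charP_residueField A hℓ hA
  refine ⟨fun f hf => ?_, fun f hf => ?_⟩
  · have h1 : (Gauss.evF A N).IsIntegralElem (Gauss.evF A N 1 * f) := by
      rw [map_one, one_mul, evF_eq_evAt]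
      exact hf
    exact Gauss.mem_of_isGaussInt A N ℓ hℓN f 1 (by simp) h1
  · obtain ⟨u, hu, hf⟩ := hf
    have hj := jBC_ne_zero (E := Qb) N
    letI := algW A N
    have hf' : (aeval (Fermat.Agent.S24.jBC Qb N)⁻¹ :
        (↥A)[X] →ₐ[A] Fermat.Agent.S24.FF Qb N).toRingHom.IsIntegralElem
        (Centre.evJinv A N u * f) := by
      rw [aeval_eq_evAt A N]
      exact hf
    obtain ⟨k₀, hk₀⟩ := CuspGauss.isIntegralElem_inv (W := A) (Fermat.Agent.S24.jBC Qb N)⁻¹
      (Fermat.Agent.S24.jBC Qb N) (inv_mul_cancel₀ hj) _ hf'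
    set k := max k₀ u.natDegree with hk
    have h1 := hk₀ k (le_max_left _ _)
    rw [aeval_eq_evAt A N] at h1
    have h2 := CuspGauss.aeval_reflect (W := A) (Fermat.Agent.S24.jBC Qb N)⁻¹
      (Fermat.Agent.S24.jBC Qb N) (inv_mul_cancel₀ hj) k u (le_max_right _ _)
    have e1 : aeval (Fermat.Agent.S24.jBC Qb N) (reflect k u)
        = evAt A (Fermat.Agent.S24.jBC Qb N) (reflect k u) :=
      congrArg (fun φ : (↥A)[X] →+* Fermat.Agent.S24.FF Qb N => φ (reflect k u))
        (aeval_eq_evAt A N _)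
    have e2 : aeval (Fermat.Agent.S24.jBC Qb N)⁻¹ u = Centre.evJinv A N u :=
      congrArg (fun φ : (↥A)[X] →+* Fermat.Agent.S24.FF Qb N => φ u) (aeval_eq_evAt A N _)
    rw [e1, e2] at h2
    have h3 : (Gauss.evF A N).IsIntegralElem (Gauss.evF A N (reflect k u) * f) := by
      rw [evF_eq_evAt, h2, mul_assoc]
      exact h1
    refine Gauss.mem_of_isGaussInt A N ℓ hℓN f (reflect k u) ?_ h3
    intro h0
    have h4 := congrArg (fun q : (IsLocalRing.ResidueField A)[X] => q.coeff k) h0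
    simp only [coeff_map, coeff_zero, coeff_reflect, revAt_le le_rfl, Nat.sub_self] at h4
    exact (IsLocalRing.residue_ne_zero_iff_isUnit _).mpr hu h4

/-- Gauss-small times Gauss-integral is Gauss-small. -/
theorem gaussSmall_mul {g g' : LaurentSeries Qb} (hg : Centre.GaussSmall A g)
    (hg' : Centre.GaussInt A g') : Centre.GaussSmall A (g' * g) := by
  obtain ⟨x, y, hx, hy, hxy⟩ := hg
  obtain ⟨x', y', hy', hxy'⟩ := hg'
  refine ⟨x' * x, y' * y, ?_, ?_, ?_⟩
  · rw [map_mul, hx, mul_zero]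
  · rw [map_mul]; exact mul_ne_zero hy' hy
  · rw [map_mul, map_mul, ← hxy, ← hxy']; ring

/-- **(GS)** of `Centre.lean`. -/
theorem gaussSmallProp (hℓ : ℓ.Prime) (hℓN : ¬ ℓ ∣ N) (hA : A.LiesOverPrime ℓ) :
    Centre.GaussSmallProp A N := by
  refine ⟨fun g hg hsm P hP => ?_, fun g hg hsm P hP => ?_⟩
  · obtain ⟨a, ha, hP⟩ := hP
    obtain ⟨c, hc, hv⟩ := isValueAt_of_small_j N A hℓ hℓN hA g hsm hg P a ha hP
    exact ⟨c, A.mem_nonunits_iff.mp hc, hv⟩
  · obtain ⟨a, ha, hP⟩ := hP
    obtain ⟨u, hu, hg⟩ := hg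
    have haA : a ∈ A := (A.valuation_le_one_iff a).mp ha.le
    obtain ⟨b, hb0, hbA, hb⟩ := exists_unit_value N A u hu P a ha hP
    have hsm' : Centre.GaussSmall A ((Centre.evJinv A N u * g : modularFunctionFieldBar N) :
        LaurentSeries Qb) :=
      gaussSmall_mul A hsm ((gaussIntProp N A hℓ hℓN hA).2 _ (Centre.isCuspInt_evJinv u))
    obtain ⟨c, hc, hv⟩ := isValueAt_of_small_inv N A hℓ hℓN hA _ hsm' hg P a haA hP
    have hu0 : Centre.evJinv A N u ≠ 0 := by
      intro h0
      rw [h0] at hb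
      have h1 : IsValueAt P (0 : modularFunctionFieldBar N) (0 : Qb) := by
        simpa using isValueAt_algebraMap P (0 : Qb)
      exact hb0 (h1.unique hb).symm
    refine ⟨b⁻¹ * c, ?_, ?_⟩
    · rw [map_mul]
      have h1 : A.valuation b⁻¹ ≤ 1 := (A.valuation_le_one_iff _).mpr hbA
      have h2 : A.valuation c < 1 := A.mem_nonunits_iff.mp hc
      calc A.valuation b⁻¹ * A.valuation c ≤ 1 * A.valuation c := by gcongr
        _ = A.valuation c := one_mul _
        _ < 1 := h2
    · have e : g = (Centre.evJinv A N u)⁻¹ * (Centre.evJinv A N u * g) := by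
        rw [inv_mul_cancel_left₀ hu0]
      rw [e]
      exact (isValueAt_inv hb hb0).mul hv

end Props

end Fermat.Agent.S37.GaussSmall
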