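import Mathlib
import Fermat.Prelude.Def_ModularCurve_HeckeModule
import Fermat.Agent.S24.Defs
import Fermat.Agent.S24.Places
import Fermat.Agent.S18.Witness
import Fermat.Agent.S37.Centre

/-!
# S37 (K-a): inertia moves a place inside its centre class

For `σ` in the inertia group of `A` and every place `P` of `F = modularFunctionFieldBar N`,
`σ P ~ P`, hence `σ P - P ∈ centreSubgroup A N` — assuming the three Props of `Centre.lean`
(`ValueProp`, `GaussIntProp`, `GaussSmallProp`).
-/

set_option autoImplicit false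
set_option linter.unusedSectionVars false

namespace Fermat.Agent.S37.Inertia

open ModularCurve AlgebraicCurve Fermat.Agent.S37.GaloisValue Fermat.Agent.S37.Centre

noncomputable section

local notation "Qb" => AlgebraicClosure ℚ

/-! ### Values: inverses and existence -/

section Values

variable {K F : Type*} [Field K] [Field F] [Algebra K F]

/-- The value of an inverse. -/
theorem isValueAt_inv {v : Place K F} {u : F} {a : K} (h : IsValueAt v u a) (ha : a ≠ 0) :
    IsValueAt v u⁻¹ a⁻¹ := by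
  have hu0 : u ≠ 0 := by
    rintro rfl
    have h0 : IsValueAt v (0 : F) 0 := by simpa using isValueAt_algebraMap v (0 : K)
    exact ha (h.unique h0)
  have huinv : u⁻¹ ∈ v.toValuationSubring := by
    by_contra hcon
    have h1 : u ∈ v.toValuationSubring.nonunits :=
      (mem_nonunits_iff_inv_notMem _ u).mpr (Or.inr hcon)
    have h0 : IsValueAt v u 0 := by
      unfold IsValueAt
      rwa [map_zero, sub_zero]
    exact ha (h.unique h0)
  have hval1 : v.toValuationSubring.valuation u⁻¹ ≤ 1 :=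
    (v.toValuationSubring.valuation_le_one_iff _).mpr huinv
  have hval2 : v.toValuationSubring.valuation (algebraMap K F a⁻¹) ≤ 1 :=
    (v.toValuationSubring.valuation_le_one_iff _).mpr (v.algebraMap_mem' _)
  have ha' : algebraMap K F a ≠ 0 := by
    simpa using ha
  rw [isValueAt_iff] at h ⊢
  have e : u⁻¹ - algebraMap K F a⁻¹ = -((u - algebraMap K F a) * (u⁻¹ * algebraMap K F a⁻¹)) := by
    rw [map_inv₀]
    field_simp
    ring
  rw [e, Valuation.map_neg, map_mul, map_mul]
  calc v.toValuationSubring.valuation (u - algebraMap K F a)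
        * (v.toValuationSubring.valuation u⁻¹ * v.toValuationSubring.valuation (algebraMap K F a⁻¹))
      ≤ v.toValuationSubring.valuation (u - algebraMap K F a) * (1 * 1) := by gcongr
    _ = v.toValuationSubring.valuation (u - algebraMap K F a) := by rw [mul_one, mul_one]
    _ < 1 := h

/-- At a place of degree one every element of the valuation ring has a value. -/
theorem exists_isValueAt_of_deg_eq_one {v : Place K F} (hdeg : v.deg = 1) {u : F}
    (hu : u ∈ v.toValuationSubring) : ∃ a : K, IsValueAt v u a := by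
  have hbij := (Algebra.finrank_eq_one_iff_bijective_algebraMap (F := K)
    (E := v.ResidueField)).mp hdeg
  obtain ⟨a, ha⟩ := hbij.2 (IsLocalRing.residue v.toValuationSubring ⟨u, hu⟩)
  refine ⟨a, ?_⟩
  unfold IsValueAt
  rw [ValuationSubring.mem_nonunits_iff_exists_mem_maximalIdeal]
  refine ⟨sub_mem hu (v.algebraMap_mem' a), ?_⟩
  rw [← IsLocalRing.residue_eq_zero_iff]
  have e : (⟨u - algebraMap K F a, sub_mem hu (v.algebraMap_mem' a)⟩ : v.toValuationSubring)
      = ⟨u, hu⟩ - algebraMap K v.toValuationSubring a := rfl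
  rw [e, map_sub, ← ha]
  exact sub_self _

end Values

variable (A : ValuationSubring Qb) (N : ℕ) [NeZero N]

/-- Every place is of finite type or of cusp type. -/
theorem isFinPlace_or_isCuspPlace (P : Place Qb ↥(modularFunctionFieldBar N)) :
    IsFinPlace A N P ∨ IsCuspPlace A N P := by
  have hdeg : P.deg = 1 := Fermat.Agent.S18.Witness.bar_deg_eq_one N P
  by_cases hj : Fermat.Agent.S24.jBC Qb N ∈ P.toValuationSubring
  · obtain ⟨a, ha⟩ := exists_isValueAt_of_deg_eq_one hdeg hj
    by_cases haA : a ∈ A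
    · exact Or.inl ⟨a, haA, ha⟩
    · right
      have ha0 : a ≠ 0 := fun h => haA (h ▸ A.zero_mem)
      refine ⟨a⁻¹, ?_, isValueAt_inv ha ha0⟩
      have h1 : a⁻¹ ∈ A.nonunits := by
        rw [mem_nonunits_iff_inv_notMem, inv_inv]
        exact Or.inr haA
      exact A.mem_nonunits_iff.mp h1
  · right
    refine ⟨0, by simp, ?_⟩
    unfold IsValueAt
    rw [map_zero, sub_zero, mem_nonunits_iff_inv_notMem, inv_inv]
    exact Or.inr hj

/-! ### Galois stability of the chart rings -/

/-- `j` has rational coefficients. -/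
theorem smul_jBC (σ : Qb ≃ₐ[ℚ] Qb) :
    arithmeticGalois (modularFunctionFieldFull N) σ • Fermat.Agent.S24.jBC Qb N
      = Fermat.Agent.S24.jBC Qb N := by
  apply Subtype.ext
  rw [coe_arithmeticGalois_smul, Fermat.Agent.S24.coe_jBC, coeffMap_coeffEmb]

theorem smul_jBC_inv (σ : Qb ≃ₐ[ℚ] Qb) :
    arithmeticGalois (modularFunctionFieldFull N) σ • (Fermat.Agent.S24.jBC Qb N)⁻¹
      = (Fermat.Agent.S24.jBC Qb N)⁻¹ := by
  rw [smul_inv'', smul_jBC]

theorem smul_const (σ : Qb ≃ₐ[ℚ] Qb) (a : Qb) :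
    arithmeticGalois (modularFunctionFieldFull N) σ •
        algebraMap Qb ↥(modularFunctionFieldBar N) a
      = algebraMap Qb ↥(modularFunctionFieldBar N) (σ a) := by
  rw [SemilinearAut.smul_algebraMap]
  rfl

/-- The restriction to `A` of an element of the decomposition group. -/
def restrictA {τ : Qb ≃ₐ[ℚ] Qb} (hτ : τ ∈ A.decompositionSubgroup ℚ) : ↥A →+* ↥A :=
  ((τ : Qb →+* Qb).comp A.subtype).codRestrict A
    (fun a => map_mem_of_mem_decompositionSubgroup A hτ a.2)

@[simp]
theorem coe_restrictA {τ : Qb ≃ₐ[ℚ] Qb} (hτ : τ ∈ A.decompositionSubgroup ℚ) (a : ↥A) :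
    ((restrictA A hτ a : ↥A) : Qb) = τ (a : Qb) := rfl

/-- The ring endomorphism of the function field given by an arithmetic Galois element. -/
def galHom (τ : Qb ≃ₐ[ℚ] Qb) : ↥(modularFunctionFieldBar N) →+* ↥(modularFunctionFieldBar N) :=
  MulSemiringAction.toRingHom _ _ (arithmeticGalois (modularFunctionFieldFull N) τ)

theorem galHom_apply (τ : Qb ≃ₐ[ℚ] Qb) (f : ↥(modularFunctionFieldBar N)) :
    galHom N τ f = arithmeticGalois (modularFunctionFieldFull N) τ • f := rfl

theorem galHom_comp_evJ {τ : Qb ≃ₐ[ℚ] Qb} (hτ : τ ∈ A.decompositionSubgroup ℚ) :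
    (galHom N τ).comp (evJ A N) = (evJ A N).comp (Polynomial.mapRingHom (restrictA A hτ)) := by
  apply Polynomial.ringHom_ext
  · intro a
    simp only [RingHom.comp_apply, Polynomial.coe_mapRingHom, Polynomial.map_C, evJ_C,
      galHom_apply, smul_const]
    rfl
  · simp only [RingHom.comp_apply, Polynomial.coe_mapRingHom, Polynomial.map_X, evJ_X,
      galHom_apply, smul_jBC]

theorem galHom_comp_evJinv {τ : Qb ≃ₐ[ℚ] Qb} (hτ : τ ∈ A.decompositionSubgroup ℚ) :
    (galHom N τ).comp (evJinv A N)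
      = (evJinv A N).comp (Polynomial.mapRingHom (restrictA A hτ)) := by
  apply Polynomial.ringHom_ext
  · intro a
    simp only [RingHom.comp_apply, Polynomial.coe_mapRingHom, Polynomial.map_C, evJinv_C,
      galHom_apply, smul_const]
    rfl
  · simp only [RingHom.comp_apply, Polynomial.coe_mapRingHom, Polynomial.map_X, evJinv_X,
      galHom_apply, smul_jBC_inv]

/-- Transport of integrality along a pair of compatible ring homomorphisms. -/
theorem isIntegralElem_map_of_comp {R S : Type*} [CommRing R] [CommRing S] (e : R →+* S)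
    (Θ : S →+* S) (ρ : R →+* R) (h : Θ.comp e = e.comp ρ) {f : S} (hf : e.IsIntegralElem f) :
    e.IsIntegralElem (Θ f) := by
  obtain ⟨p, hmonic, hp⟩ := hf
  refine ⟨p.map ρ, hmonic.map ρ, ?_⟩
  rw [Polynomial.eval₂_map, ← h, ← Polynomial.hom_eval₂, hp, map_zero]

theorem IsFinInt.smul {τ : Qb ≃ₐ[ℚ] Qb} (hτ : τ ∈ A.decompositionSubgroup ℚ)
    {f : ↥(modularFunctionFieldBar N)} (hf : IsFinInt A N f) :
    IsFinInt A N (arithmeticGalois (modularFunctionFieldFull N) τ • f) :=
  isIntegralElem_map_of_comp (evJ A N) (galHom N τ) _ (galHom_comp_evJ A N hτ) hf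

theorem IsCuspInt.smul {τ : Qb ≃ₐ[ℚ] Qb} (hτ : τ ∈ A.decompositionSubgroup ℚ)
    {f : ↥(modularFunctionFieldBar N)} (hf : IsCuspInt A N f) :
    IsCuspInt A N (arithmeticGalois (modularFunctionFieldFull N) τ • f) := by
  obtain ⟨u, hu, hf⟩ := hf
  refine ⟨u.map (restrictA A hτ), ?_, ?_⟩
  · rw [Polynomial.coeff_map]
    exact hu.map _
  · have h1 := isIntegralElem_map_of_comp (evJinv A N) (galHom N τ) _
      (galHom_comp_evJinv A N hτ) hf
    have h2 : galHom N τ (evJinv A N u * f)
        = evJinv A N (u.map (restrictA A hτ))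
          * (arithmeticGalois (modularFunctionFieldFull N) τ • f) := by
      rw [map_mul, galHom_apply (f := f)]
      congr 1
      exact congrArg (fun φ : Polynomial ↥A →+* ↥(modularFunctionFieldBar N) => φ u)
        (galHom_comp_evJinv A N hτ)
    rwa [h2] at h1

/-! ### Inertia acts trivially modulo Gauss-small functions -/

theorem residue_comp_restrictA {τ : Qb ≃ₐ[ℚ] Qb} (hτ : τ ∈ A.inertiaSubgroupIn ℚ) :
    (IsLocalRing.residue A).comp
        (restrictA A (mem_decompositionSubgroup_of_mem_inertia hτ))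
      = IsLocalRing.residue A := by
  ext a
  rw [RingHom.comp_apply, ← sub_eq_zero, ← map_sub, IsLocalRing.residue_eq_zero_iff,
    A.valuation_lt_one_iff]
  exact valuation_sub_lt_one_of_mem_inertia hτ a.2

theorem subtype_comp_restrictA {τ : Qb ≃ₐ[ℚ] Qb} (hτ : τ ∈ A.decompositionSubgroup ℚ) :
    (τ : Qb →+* Qb).comp A.subtype = A.subtype.comp (restrictA A hτ) := by
  ext a
  rfl

/-- For `τ` in inertia and a Gauss-integral series `f`, `τ f - f` is Gauss-small. -/
theorem gaussSmall_coeffMap_sub {τ : Qb ≃ₐ[ℚ] Qb} (hτ : τ ∈ A.inertiaSubgroupIn ℚ)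
    {f : LaurentSeries Qb} (hf : GaussInt A f) :
    GaussSmall A (coeffMap (τ : Qb →+* Qb) f - f) := by
  obtain ⟨x, y, hy, hxy⟩ := hf
  have hD := mem_decompositionSubgroup_of_mem_inertia hτ
  set T : LaurentSeries ↥A →+* LaurentSeries ↥A := coeffMap (restrictA A hD) with hT
  have hS : ∀ z : LaurentSeries ↥A,
      coeffMap (τ : Qb →+* Qb) (coeffMap A.subtype z) = coeffMap A.subtype (T z) := by
    intro z
    rw [hT, coeffMap_coeffMap, coeffMap_coeffMap, subtype_comp_restrictA A hD]
  have hR : ∀ z : LaurentSeries ↥A,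
      coeffMap (IsLocalRing.residue A) (T z) = coeffMap (IsLocalRing.residue A) z := by
    intro z
    rw [hT, coeffMap_coeffMap, residue_comp_restrictA A hτ]
  have h1 : coeffMap (τ : Qb →+* Qb) f * coeffMap A.subtype (T y) = coeffMap A.subtype (T x) := by
    rw [← hS, ← hS, ← map_mul, hxy]
  refine ⟨T x * y - x * T y, T y * y, ?_, ?_, ?_⟩
  · rw [map_sub, map_mul, map_mul, hR, hR, sub_self]
  · rw [map_mul, hR]
    exact mul_ne_zero hy hy
  · rw [map_mul, map_sub, map_mul, map_mul, ← h1, ← hxy]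
    ring

/-- The abstract inertia argument on one chart. -/
theorem valuation_sub_lt_one_of_chart
    (IsInt : ↥(modularFunctionFieldBar N) → Prop)
    (IsPl : Place Qb ↥(modularFunctionFieldBar N) → Prop)
    (hsub : ∀ f g, IsInt f → IsInt g → IsInt (f - g))
    (hstab : ∀ (τ : Qb ≃ₐ[ℚ] Qb), τ ∈ A.decompositionSubgroup ℚ → ∀ f, IsInt f →
      IsInt (arithmeticGalois (modularFunctionFieldFull N) τ • f))
    (hval : ∀ f, IsInt f → ∀ P, IsPl P → ∃ c : Qb, c ∈ A ∧ IsValueAt P f c)
    (hGI : ∀ f, IsInt f → GaussInt A (f : LaurentSeries Qb))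
    (hGS : ∀ g, IsInt g → GaussSmall A (g : LaurentSeries Qb) → ∀ P, IsPl P →
      ∃ c : Qb, A.valuation c < 1 ∧ IsValueAt P g c)
    {σ : Qb ≃ₐ[ℚ] Qb} (hσ : σ ∈ A.inertiaSubgroupIn ℚ)
    (P : Place Qb ↥(modularFunctionFieldBar N)) (hP : IsPl P)
    (f : ↥(modularFunctionFieldBar N)) (hf : IsInt f) (c c' : Qb)
    (hc : IsValueAt (arithmeticGalois (modularFunctionFieldFull N) σ • P) f c)
    (hc' : IsValueAt P f c') : A.valuation (c - c') < 1 := by
  have hσinv : σ⁻¹ ∈ A.inertiaSubgroupIn ℚ := inv_mem hσ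
  have hDinv := mem_decompositionSubgroup_of_mem_inertia hσinv
  set g := arithmeticGalois (modularFunctionFieldFull N) σ with hg
  -- f₁ = σ⁻¹ f
  set f₁ : ↥(modularFunctionFieldBar N) := g⁻¹ • f with hf₁
  have hginv : g⁻¹ = arithmeticGalois (modularFunctionFieldFull N) σ⁻¹ := by
    rw [hg, map_inv]
  have hf₁int : IsInt f₁ := by
    rw [hf₁, hginv]
    exact hstab σ⁻¹ hDinv f hf
  obtain ⟨c₁, hc₁A, hc₁⟩ := hval f₁ hf₁int P hP
  -- the value of f at σ P is σ c₁
  have hc2 : IsValueAt (g • P) f (σ c₁) := isValueAt_arithmeticGalois_of_inv _ σ hc₁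
  have hceq : c = σ c₁ := hc.unique hc2
  -- f₁ - f is Gauss-small
  have hsmall : GaussSmall A ((f₁ - f : ↥(modularFunctionFieldBar N)) : LaurentSeries Qb) := by
    have h1 : ((f₁ - f : ↥(modularFunctionFieldBar N)) : LaurentSeries Qb)
        = coeffMap ((σ⁻¹ : Qb ≃ₐ[ℚ] Qb) : Qb →+* Qb) (f : LaurentSeries Qb)
          - (f : LaurentSeries Qb) := by
      rw [hf₁, hginv]
      rfl
    rw [h1]
    exact gaussSmall_coeffMap_sub A hσinv (hGI f hf)
  obtain ⟨c₂, hc₂lt, hc₂⟩ := hGS (f₁ - f) (hsub f₁ f hf₁int hf) hsmall P hP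
  have hc₂eq : c₂ = c₁ - c' := hc₂.unique (hc₁.sub hc')
  have h3 : A.valuation (σ c₁ - c₁) < 1 := valuation_sub_lt_one_of_mem_inertia hσ hc₁A
  have h4 : c - c' = (σ c₁ - c₁) + (c₁ - c') := by rw [hceq]; ring
  rw [h4]
  exact lt_of_le_of_lt (Valuation.map_add _ _ _) (max_lt h3 (hc₂eq ▸ hc₂lt))

/-- **(K-a).**  Inertia moves every place inside its centre class. -/
theorem sameCentre_smul_of_mem_inertia (hV : ValueProp A N) (hGI : GaussIntProp A N)
    (hGS : GaussSmallProp A N) {σ : Qb ≃ₐ[ℚ] Qb} (hσ : σ ∈ A.inertiaSubgroupIn ℚ)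
    (P : Place Qb ↥(modularFunctionFieldBar N)) :
    SameCentre A N (arithmeticGalois (modularFunctionFieldFull N) σ • P) P := by
  have hD := mem_decompositionSubgroup_of_mem_inertia hσ
  rcases isFinPlace_or_isCuspPlace A N P with hP | hP
  · left
    refine ⟨?_, hP, fun f hf c c' hc hc' => ?_⟩
    · obtain ⟨a, haA, ha⟩ := hP
      refine ⟨σ a, map_mem_of_mem_decompositionSubgroup A hD haA, ?_⟩
      have h1 := isValueAt_arithmeticGalois (modularFunctionFieldFull N) ha σ
      rwa [smul_jBC] at h1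
    · exact valuation_sub_lt_one_of_chart A N (IsFinInt A N) (IsFinPlace A N)
        (fun f g hf hg => IsFinInt.sub hf hg) (fun τ hτ f hf => IsFinInt.smul A N hτ hf)
        hV.1 hGI.1 hGS.1 hσ P hP
        f hf c c' hc hc'
  · right
    refine ⟨?_, hP, fun f hf c c' hc hc' => ?_⟩
    · obtain ⟨a, haA, ha⟩ := hP
      refine ⟨σ a, ?_, ?_⟩
      · have h1 : A.valuation (σ a - a) < 1 := by
          have ha' : a ∈ A := by
            rw [← A.valuation_le_one_iff]
            exact haA.le
          exact valuation_sub_lt_one_of_mem_inertia hσ ha'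
        have h2 : σ a = (σ a - a) + a := by ring
        rw [h2]
        exact lt_of_le_of_lt (Valuation.map_add _ _ _) (max_lt h1 haA)
      · have h1 := isValueAt_arithmeticGalois (modularFunctionFieldFull N) ha σ
        rwa [smul_jBC_inv] at h1
    · exact valuation_sub_lt_one_of_chart A N (IsCuspInt A N) (IsCuspPlace A N)
        (fun f g hf hg => IsCuspInt.sub hf hg) (fun τ hτ f hf => IsCuspInt.smul A N hτ hf)
        hV.2 hGI.2 hGS.2 hσ P hP
        f hf c c' hc hc'

/-- **(K-a), divisor form** — hypothesis (a) of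
`DivisorForm.specializationExists_of_divisorSubgroup` for `R = centreSubgroup A N`. -/
theorem single_smul_sub_single_mem_centreSubgroup (hV : ValueProp A N)
    (hGI : GaussIntProp A N) (hGS : GaussSmallProp A N) {σ : Qb ≃ₐ[ℚ] Qb}
    (hσ : σ ∈ A.inertiaSubgroupIn ℚ) (P : Place Qb ↥(modularFunctionFieldBar N)) :
    (Finsupp.single (arithmeticGalois (modularFunctionFieldFull N) σ • P) 1
      - Finsupp.single P 1 : Divisor Qb ↥(modularFunctionFieldBar N)) ∈ centreSubgroup A N :=
  single_sub_single_mem_centreSubgroup A N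
    (sameCentre_smul_of_mem_inertia A N hV hGI hGS hσ P)

end

end Fermat.Agent.S37.Inertia
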