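import Mathlib
import Fermat.Agent.S37.Inertia
import Fermat.Agent.S37.GaussSmall
import Fermat.Agent.S37.Final

/-!
# S37, input (K-a): inertia acts trivially modulo the centre subgroup

`inertiaInput` is the hypothesis `hKa` of `Final.specializationExists_of_centre`, unconditionally:
for a prime `ℓ ∤ N`, a valuation subring `A` of `ℚ̄` over `ℓ`, `σ` in the inertia group of `A` and
a place `P` of the function field of `X₀(N)` over `ℚ̄`, the divisor `σ P - P` lies in
`Centre.centreSubgroup A N`.  It combines `Inertia.single_smul_sub_single_mem_centreSubgroup`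
with the three Props `GaussSmall.valueProp`, `GaussSmall.gaussIntProp`,
`GaussSmall.gaussSmallProp`.
-/

set_option autoImplicit false

noncomputable section

namespace Fermat.Agent.S37.KA

open ModularCurve AlgebraicCurve

local notation "Qb" => AlgebraicClosure ℚ

/-- **(K-a)**: `σ P ~ P` modulo the centre subgroup for `σ` in the inertia group. -/
theorem sameCentre_smul (N : ℕ) [NeZero N] {ℓ : ℕ} (hℓ : ℓ.Prime) (hℓN : ¬ ℓ ∣ N)
    (A : ValuationSubring Qb) (hA : A.LiesOverPrime ℓ) {σ : Qb ≃ₐ[ℚ] Qb}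
    (hσ : σ ∈ A.inertiaSubgroupIn ℚ) (P : Place Qb (modularFunctionFieldBar N)) :
    Fermat.Agent.S37.Centre.SameCentre A N
      (arithmeticGalois (modularFunctionFieldFull N) σ • P) P :=
  Fermat.Agent.S37.Inertia.sameCentre_smul_of_mem_inertia A N
    (Fermat.Agent.S37.GaussSmall.valueProp N A)
    (Fermat.Agent.S37.GaussSmall.gaussIntProp N A hℓ hℓN hA)
    (Fermat.Agent.S37.GaussSmall.gaussSmallProp N A hℓ hℓN hA) hσ P

/-- **(K-a)** in the shape of `Final.InertiaInput`. -/
theorem inertiaInput (N : ℕ) [NeZero N] {ℓ : ℕ} (hℓ : ℓ.Prime) (hℓN : ¬ ℓ ∣ N)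
    (A : ValuationSubring Qb) (hA : A.LiesOverPrime ℓ) :
    Fermat.Agent.S37.Final.InertiaInput A N :=
  fun _ hσ P =>
    Fermat.Agent.S37.Inertia.single_smul_sub_single_mem_centreSubgroup A N
      (Fermat.Agent.S37.GaussSmall.valueProp N A)
      (Fermat.Agent.S37.GaussSmall.gaussIntProp N A hℓ hℓN hA)
      (Fermat.Agent.S37.GaussSmall.gaussSmallProp N A hℓ hℓN hA) hσ P

end Fermat.Agent.S37.KA
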