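/-
S37 (helper2): integrality of the coefficients of a characteristic polynomial.

For a finite field extension `L / K` and `x : L`:
* `charpoly_mulLeft_eq_minpoly_pow` : the characteristic polynomial of multiplication by `x` is
  `(minpoly K x) ^ [L : K(x)]`;
* `isIntegral_charpoly_coeff` : if `x` is integral over a ring `R` mapping to `K`, every
  coefficient of that characteristic polynomial is integral over `R`
  (`isIntegralElem_charpoly_coeff`: ring-hom currency).
Mathlib only.
-/
import Mathlib

set_option autoImplicit false
set_option linter.style.haveILetI false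

namespace Fermat.Agent.S37.CharpolyInt

open Polynomial Matrix

section Block

variable {R : Type*} [CommRing R] {m o : Type*} [Fintype m] [DecidableEq m] [Fintype o]
  [DecidableEq o]

theorem charmatrix_blockDiagonal (M : o → Matrix m m R) :
    charmatrix (blockDiagonal M) = blockDiagonal fun k => charmatrix (M k) := by
  ext ⟨i, k⟩ ⟨j, k'⟩
  rw [charmatrix_apply, blockDiagonal_apply, blockDiagonal_apply]
  by_cases hk : k = k'
  · subst hk
    rw [if_pos rfl, if_pos rfl, charmatrix_apply]
    by_cases hij : i = j
    · subst hij
      rw [diagonal_apply_eq, diagonal_apply_eq]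
    · rw [diagonal_apply_ne _ hij, diagonal_apply_ne _ (fun h => hij (Prod.ext_iff.mp h).1)]
  · rw [if_neg hk, if_neg hk, diagonal_apply_ne _ (fun h => hk (Prod.ext_iff.mp h).2), map_zero,
      sub_zero]

theorem charpoly_blockDiagonal (M : o → Matrix m m R) :
    (blockDiagonal M).charpoly = ∏ k, (M k).charpoly := by
  unfold Matrix.charpoly
  rw [charmatrix_blockDiagonal, det_blockDiagonal]

end Block

section Field

variable {K L : Type*} [Field K] [Field L] [Algebra K L] [FiniteDimensional K L]

/-- The characteristic polynomial of multiplication by `x` on a finite extension `L / K` is a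
power of the minimal polynomial of `x`. -/
theorem charpoly_mulLeft_eq_minpoly_pow (x : L) :
    (LinearMap.mulLeft K x).charpoly =
      minpoly K x ^ Module.finrank (IntermediateField.adjoin K {x}) L := by
  classical
  have hx : IsIntegral K x := IsIntegral.of_finite K x
  let pb := IntermediateField.adjoin.powerBasis hx
  let c := Module.finBasis (IntermediateField.adjoin K {x}) L
  have hgen : algebraMap (IntermediateField.adjoin K {x}) L pb.gen = x := by
    rw [IntermediateField.adjoin.powerBasis_gen]
    exact IntermediateField.AdjoinSimple.algebraMap_gen K x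
  have h1 : (LinearMap.mulLeft K x) = Algebra.lmul K L x := LinearMap.ext fun y => rfl
  have h2 : Algebra.leftMulMatrix (pb.basis.smulTower c) x =
      blockDiagonal fun _ => Algebra.leftMulMatrix pb.basis pb.gen := by
    rw [← Algebra.smulTower_leftMulMatrix_algebraMap pb.basis c pb.gen, hgen]
  have h3 : minpoly K pb.gen = minpoly K x := by
    rw [IntermediateField.adjoin.powerBasis_gen, IntermediateField.minpoly_gen]
  rw [h1, ← LinearMap.charpoly_toMatrix _ (pb.basis.smulTower c), ← Algebra.leftMulMatrix_apply,
    h2, charpoly_blockDiagonal, Finset.prod_const, Finset.card_univ, charpoly_leftMulMatrix pb,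
    h3, Fintype.card_fin]

end Field

section Integral

variable {R K L : Type*} [CommRing R] [Field K] [Field L] [Algebra K L] [FiniteDimensional K L]

/-- If `x : L` is integral over `R` (mapping to `K`), the coefficients of the characteristic
polynomial of multiplication by `x` on `L / K` are integral over `R`. -/
theorem isIntegral_charpoly_coeff [Algebra R K] [Algebra R L] [IsScalarTower R K L] (x : L)
    (hx : IsIntegral R x) (i : ℕ) :
    IsIntegral R ((LinearMap.mulLeft K x).charpoly.coeff i) := by
  obtain ⟨p, hp, hpx⟩ := hx
  have hdvd : minpoly K x ∣ p.map (algebraMap R K) := by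
    refine minpoly.dvd K x ?_
    rw [aeval_map_algebraMap]
    exact hpx
  rw [charpoly_mulLeft_eq_minpoly_pow]
  refine Polynomial.isIntegral_coeff_of_dvd
    (p ^ Module.finrank (IntermediateField.adjoin K {x}) L) _ (hp.pow _)
    ((minpoly.monic (IsIntegral.of_finite K x)).pow _) ?_ i
  rw [Polynomial.map_pow]
  exact pow_dvd_pow_of_dvd hdvd _

/-- Ring-hom currency: `x` integral along `R → K → L` implies the coefficients of the
characteristic polynomial are integral along `R → K`. -/
theorem isIntegralElem_charpoly_coeff (φ : R →+* K) (x : L)
    (hx : ((algebraMap K L).comp φ).IsIntegralElem x) (i : ℕ) :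
    φ.IsIntegralElem ((LinearMap.mulLeft K x).charpoly.coeff i) := by
  letI : Algebra R K := φ.toAlgebra
  letI : Algebra R L := ((algebraMap K L).comp φ).toAlgebra
  haveI : IsScalarTower R K L := IsScalarTower.of_algebraMap_eq fun _ => rfl
  exact isIntegral_charpoly_coeff (R := R) (K := K) x hx i

/-- Subring form: `x` integral over (the image in `L` of) a subring `S` of `K`. -/
theorem isIntegralElem_subtype_charpoly_coeff (S : Subring K) (x : L)
    (hx : ((algebraMap K L).comp S.subtype).IsIntegralElem x) (i : ℕ) :
    S.subtype.IsIntegralElem ((LinearMap.mulLeft K x).charpoly.coeff i) :=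
  isIntegralElem_charpoly_coeff S.subtype x hx i

end Integral

end Fermat.Agent.S37.CharpolyInt
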