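/-
S37 (helper2), package KB-C(1): integrality of the coefficients of the Hecke characteristic
polynomial on the finite chart.

`α : F_N → F_{Nℓ}` is the inclusion, `β : F_N → F_{Nℓ}` the substitution `q ↦ q ^ ℓ`.
* `isIntegralElem_alpha_j` : `α j = j(q)` is integral over `A[β j] = A[j(q ^ ℓ)]`
  (the modular polynomial `Φ_ℓ` has coefficients in `A`);
* `isIntegralElem_alpha` : for `f` integral over `A[j]`, `α f` is integral over `A[β j]`;
* `isFinInt_charpoly_coeff` : the coefficients of the characteristic polynomial of `α f` over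
  `β(F_N)` are integral over `A[j]`.
-/
import Mathlib
import Fermat.Agent.S37.Centre
import Fermat.Agent.S37.CharpolyInt
import Fermat.Agent.S37.HeckeInputs
import Fermat.Agent.S37.GaussSmall
import Fermat.Agent.S28.ModPoly
import Fermat.Agent.S18.GaussDegree

set_option autoImplicit false
set_option linter.unusedSectionVars false
set_option linter.style.haveILetI false

namespace Fermat.Agent.S37.CharpolyChart

open Polynomial ModularCurve AlgebraicCurve
open Fermat.Agent.S28 Fermat.Agent.S37.Centre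

local notation "Qb" => AlgebraicClosure ℚ

section Generic

variable {R S T : Type*} [CommRing R] [CommRing S] [CommRing T]

/-- Transitivity of integrality along ring homomorphisms. -/
theorem isIntegralElem_trans (φ : R →+* T) (ψ : S →+* T) (hψ : ∀ s, φ.IsIntegralElem (ψ s))
    (x : T) (hx : ψ.IsIntegralElem x) : φ.IsIntegralElem x := by
  letI : Algebra R T := φ.toAlgebra
  obtain ⟨P, hP, hPx⟩ := hx
  let ψ' : S →+* integralClosure R T := ψ.codRestrict (integralClosure R T).toSubring fun s => hψ s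
  have hx' : IsIntegral (integralClosure R T) x := by
    refine ⟨P.map ψ', hP.map ψ', ?_⟩
    rw [eval₂_map]
    exact hPx
  exact isIntegral_trans x hx'

/-- Integrality is preserved by a ring homomorphism. -/
theorem isIntegralElem_map_comp {T' : Type*} [CommRing T'] (φ : R →+* T) (g : T →+* T') {x : T}
    (hx : φ.IsIntegralElem x) : (g.comp φ).IsIntegralElem (g x) := by
  obtain ⟨P, hP, hPx⟩ := hx
  exact ⟨P, hP, by rw [← hom_eval₂, hPx, map_zero]⟩

end Generic

section ModPoly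

variable (A : ValuationSubring Qb)

/-- roots of unity lie in a valuation subring -/
theorem mem_of_pow_eq_one {x : Qb} {n : ℕ} (hn : n ≠ 0) (hx : x ^ n = 1) : x ∈ A := by
  rw [← A.valuation_le_one_iff]
  by_contra h
  have h' := one_lt_pow₀ (not_le.mp h) hn
  rw [← map_pow, hx, map_one] at h'
  exact lt_irrefl _ h'

/-- **The modular polynomial over `A`.**  There is `ΦA ∈ A[Y][X]` with
`ΦA(X, j(q^ℓ)) = (X - j(q^(ℓ²))) ∏_c (X - j(ζ^c q))`. -/
theorem exists_modPoly (ℓ : ℕ) [NeZero ℓ] (hℓ : ℓ.Prime) :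
    ∃ (ΦA : Polynomial (Polynomial ↥A)) (ζ : Qbˣ),
      (ΦA.map (mapRingHom A.subtype)).map (evalAt (qExpand Qb ℓ (jS Qb))) =
        (X - C (qExpand Qb (ℓ * ℓ) (jS Qb))) *
          ∏ c ∈ Finset.range ℓ, (X - C (tw (ζ ^ c) (jS Qb))) := by
  haveI : NeZero ((ℓ : ℕ) : Qb) := ⟨Nat.cast_ne_zero.mpr hℓ.ne_zero⟩
  obtain ⟨ζ₀, hζ₀⟩ := HasEnoughRootsOfUnity.exists_primitiveRoot Qb ℓ
  have hmem : ζ₀ ∈ A := mem_of_pow_eq_one A hℓ.ne_zero hζ₀.pow_eq_one
  have hmem' : ζ₀⁻¹ ∈ A :=
    mem_of_pow_eq_one A hℓ.ne_zero (by rw [inv_pow, hζ₀.pow_eq_one, inv_one])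
  have hζ₀0 : ζ₀ ≠ 0 := hζ₀.ne_zero hℓ.ne_zero
  let u : (↥A)ˣ := ⟨⟨ζ₀, hmem⟩, ⟨ζ₀⁻¹, hmem'⟩, Subtype.ext (mul_inv_cancel₀ hζ₀0),
    Subtype.ext (inv_mul_cancel₀ hζ₀0)⟩
  let ι : ↥A →+* Qb := A.subtype
  have hu : ((Units.map (ι : ↥A →* Qb) u : Qbˣ) : Qb) = ζ₀ := rfl
  have hprim : IsPrimitiveRoot (Units.map (ι : ↥A →* Qb) u) ℓ := by
    rw [← IsPrimitiveRoot.coe_units_iff, hu]
    exact hζ₀
  obtain ⟨D⟩ := exists_modPolyData Qb ℓ hℓ (Units.map (ι : ↥A →* Qb) u) hprim
  set xA : LaurentSeries ↥A := qExpand ↥A ℓ (jS ↥A) with hxA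
  have hxK : coeffMap ι xA = qExpand Qb ℓ (jS Qb) := by rw [hxA, Fermat.Agent.S28.coeffMap_qExpand, coeffMap_jS]
  have hr : 0 < ℓ := hℓ.pos
  have h1 : (coeffMap ι xA).coeff (-(ℓ : ℤ)) = 1 := by
    rw [hxK, show (-(ℓ : ℤ)) = (ℓ : ℤ) * (-1) by ring, qExpand_coeff_mul, jS_coeff_neg_one]
  have h0 : ∀ n : ℤ, n < -(ℓ : ℤ) → (coeffMap ι xA).coeff n = 0 := by
    intro n hn
    rw [hxK]
    by_cases hdvd : (ℓ : ℤ) ∣ n
    · obtain ⟨m, rfl⟩ := hdvd
      rw [qExpand_coeff_mul]
      apply jS_coeff_of_lt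
      have hr' : (0 : ℤ) < ℓ := by exact_mod_cast hr
      nlinarith
    · exact qExpand_coeff_of_not_dvd ℓ _ hdvd
  have hΦ : D.Φ.map (evalAt (coeffMap ι xA)) = (Descent.rhsΦ ↥A ℓ u).map (coeffMap ι) := by
    rw [Descent.map_rhsΦ, hxK]; exact D.hΦ
  obtain ⟨ΦA, hΦA⟩ := Descent.exists_map_eq ι xA ℓ hr h1 h0 D.Φ _ hΦ
  refine ⟨ΦA, Units.map (ι : ↥A →* Qb) u, ?_⟩
  rw [hΦA]
  exact D.hΦ

end ModPoly

section Hecke

-- Over the concrete function fields the default instance search for `Module.Free` explores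
-- expensive branches once a `Module.Finite` instance is in scope; this makes it immediate.
attribute [local instance 10000] Module.Free.of_divisionRing

variable (A : ValuationSubring Qb) (N ℓ : ℕ) [NeZero N] [NeZero ℓ]

/-- the coercion of the function field to Laurent series, as a ring homomorphism -/
noncomputable def toSeries (M : ℕ) : ↥(modularFunctionFieldBar M) →+* LaurentSeries Qb :=
  (modularFunctionFieldBar M).val.toRingHom

theorem toSeries_apply (M : ℕ) (x : ↥(modularFunctionFieldBar M)) :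
    toSeries M x = (x : LaurentSeries Qb) := rfl

theorem toSeries_injective (M : ℕ) : Function.Injective (toSeries M) :=
  Subtype.val_injective

theorem toSeries_jBC : toSeries N (Fermat.Agent.S24.jBC Qb N) = jS Qb := by
  rw [toSeries_apply, Fermat.Agent.S24.coe_jBC, Fermat.Agent.S18.Gauss.coeffEmb_jq,
    jS_eq_jqModC]

theorem toSeries_comp_beta_evJ :
    (toSeries (N * ℓ)).comp ((heckeBetaBar Qb N ℓ).toRingHom.comp (evJ A N)) =
      (evalAt (qExpand Qb ℓ (jS Qb))).comp (mapRingHom A.subtype) := by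
  apply Polynomial.ringHom_ext
  · intro a
    rw [RingHom.comp_apply, RingHom.comp_apply, evJ_C, RingHom.comp_apply, coe_mapRingHom,
      map_C]
    show toSeries (N * ℓ) (heckeBetaBar Qb N ℓ (algebraMap Qb _ (a : Qb))) = _
    rw [AlgHom.commutes, toSeries_apply]
    show algebraMap Qb (LaurentSeries Qb) (a : Qb) = _
    rw [algebraMap_laurentSeries_eq_single]
    simp [evalAt]
  · rw [RingHom.comp_apply, RingHom.comp_apply, evJ_X, RingHom.comp_apply, coe_mapRingHom,
      map_X]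
    show toSeries (N * ℓ) (heckeBetaBar Qb N ℓ (Fermat.Agent.S24.jBC Qb N)) = _
    rw [toSeries_apply, coe_heckeBetaBar, ← toSeries_apply, toSeries_jBC]
    simp [evalAt]

/-- `α j = j(q)` is integral over `A[β j] = A[j(q^ℓ)]`. -/
theorem isIntegralElem_alpha_j (hℓ : ℓ.Prime) :
    ((heckeBetaBar Qb N ℓ).toRingHom.comp (evJ A N)).IsIntegralElem
      (heckeAlphaBar Qb N ℓ (Fermat.Agent.S24.jBC Qb N)) := by
  obtain ⟨ΦA, ζ, hΦ⟩ := exists_modPoly A ℓ hℓ
  set φ := (heckeBetaBar Qb N ℓ).toRingHom.comp (evJ A N) with hφ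
  have hG : (ΦA.map φ).map (toSeries (N * ℓ)) =
      (X - C (qExpand Qb (ℓ * ℓ) (jS Qb))) *
        ∏ c ∈ Finset.range ℓ, (X - C (tw (ζ ^ c) (jS Qb))) := by
    rw [Polynomial.map_map, hφ, toSeries_comp_beta_evJ, ← Polynomial.map_map]
    exact hΦ
  have hmon : (ΦA.map φ).Monic := by
    apply Polynomial.monic_of_injective (toSeries_injective (N * ℓ))
    rw [hG]
    exact (monic_X_sub_C _).mul (monic_prod_of_monic _ _ fun c _ => monic_X_sub_C _)
  have hroot : (ΦA.map φ).eval (heckeAlphaBar Qb N ℓ (Fermat.Agent.S24.jBC Qb N)) = 0 := by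
    apply toSeries_injective (N * ℓ)
    rw [map_zero, ← Polynomial.eval₂_at_apply, ← eval_map, hG, toSeries_apply, coe_heckeAlphaBar,
      ← toSeries_apply, toSeries_jBC, eval_mul, eval_prod]
    refine mul_eq_zero_of_right _ (Finset.prod_eq_zero (Finset.mem_range.mpr hℓ.pos) ?_)
    rw [pow_zero, tw_one, eval_sub, eval_X, eval_C, sub_self]
  obtain ⟨Φ', hΦ', -, hΦ'mon⟩ :=
    lifts_and_natDegree_eq_and_monic ((Polynomial.mem_lifts _).mpr ⟨ΦA, rfl⟩) hmon
  exact ⟨Φ', hΦ'mon, by rw [← eval_map, hΦ']; exact hroot⟩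

/-- For `f` integral over `A[j]`, `α f` is integral over `A[β j]`. -/
theorem isIntegralElem_alpha (hℓ : ℓ.Prime) {f : ↥(modularFunctionFieldBar N)}
    (hf : IsFinInt A N f) :
    ((heckeBetaBar Qb N ℓ).toRingHom.comp (evJ A N)).IsIntegralElem
      (heckeAlphaBar Qb N ℓ f) := by
  refine isIntegralElem_trans _ ((heckeAlphaBar Qb N ℓ).toRingHom.comp (evJ A N)) ?_ _
    (isIntegralElem_map_comp (evJ A N) (heckeAlphaBar Qb N ℓ).toRingHom hf)
  intro p
  induction p using Polynomial.induction_on with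
  | C a =>
    have e : ((heckeAlphaBar Qb N ℓ).toRingHom.comp (evJ A N)) (C a) =
        ((heckeBetaBar Qb N ℓ).toRingHom.comp (evJ A N)) (C a) := by
      rw [RingHom.comp_apply, RingHom.comp_apply, evJ_C]
      show heckeAlphaBar Qb N ℓ (algebraMap Qb _ (a : Qb)) =
        heckeBetaBar Qb N ℓ (algebraMap Qb _ (a : Qb))
      rw [AlgHom.commutes, AlgHom.commutes]
    rw [e]
    exact RingHom.isIntegralElem_map _
  | add p q hp hq =>
    rw [map_add]
    exact RingHom.IsIntegralElem.add _ hp hq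
  | monomial n a ih =>
    rw [pow_succ, ← mul_assoc, map_mul]
    refine RingHom.IsIntegralElem.mul _ ih ?_
    rw [RingHom.comp_apply, evJ_X]
    exact isIntegralElem_alpha_j A N ℓ hℓ

/-- the chart map `A[X] → F_{Nℓ}`, `X ↦ β j`, in `GaussSmall.evAt` form -/
theorem beta_comp_evJ :
    (heckeBetaBar Qb N ℓ).toRingHom.comp (evJ A N) =
      GaussSmall.evAt A (heckeBetaBar Qb N ℓ (Fermat.Agent.S24.jBC Qb N)) := by
  apply Polynomial.ringHom_ext
  · intro a
    rw [RingHom.comp_apply, evJ_C, GaussSmall.evAt_C]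
    exact AlgHom.commutes _ _
  · rw [RingHom.comp_apply, evJ_X, GaussSmall.evAt_X]
    rfl

/-- **(INT-fin)**: for `f` integral over `A[j]`, `α f` is integral over `A[β j]`
(`GaussSmall.evAt` form). -/
theorem isIntegralElem_evAt_alpha (hℓ : ℓ.Prime) {f : ↥(modularFunctionFieldBar N)}
    (hf : IsFinInt A N f) :
    (GaussSmall.evAt A (heckeBetaBar Qb N ℓ (Fermat.Agent.S24.jBC Qb N))).IsIntegralElem
      (heckeAlphaBar Qb N ℓ f) := by
  rw [← beta_comp_evJ]
  exact isIntegralElem_alpha A N ℓ hℓ hf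

/-- **KB-C(1), finite chart.**  If `x ∈ F_{Nℓ}` is integral over `A[β j]`, the coefficients of
its characteristic polynomial over `β(F_N)` are integral over `A[j]`. -/
theorem isFinInt_charpoly_coeff_of_isIntegralElem (x : ↥(modularFunctionFieldBar (N * ℓ)))
    (hx : ((heckeBetaBar Qb N ℓ).toRingHom.comp (evJ A N)).IsIntegralElem x) (i : ℕ) :
    letI := algebraAlong (heckeBetaBar Qb N ℓ)
    ∀ [Module.Finite ↥(modularFunctionFieldBar N) ↥(modularFunctionFieldBar (N * ℓ))],
    IsFinInt A N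
      ((LinearMap.mulLeft ↥(modularFunctionFieldBar N) x).charpoly.coeff i) := by
  letI := algebraAlong (heckeBetaBar Qb N ℓ)
  intro _
  exact CharpolyInt.isIntegralElem_charpoly_coeff (evJ A N) x hx i

/-- **KB-C(1), finite chart.**  For `f` integral over `A[j]`, every coefficient of the
characteristic polynomial `χ_f` of `α f` over `β(F_N)` is integral over `A[j]`. -/
theorem isFinInt_charpoly_coeff (hℓ : ℓ.Prime) {f : ↥(modularFunctionFieldBar N)}
    (hf : IsFinInt A N f) (i : ℕ) :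
    letI := algebraAlong (heckeBetaBar Qb N ℓ)
    ∀ [Module.Finite ↥(modularFunctionFieldBar N) ↥(modularFunctionFieldBar (N * ℓ))],
    IsFinInt A N
      ((LinearMap.mulLeft ↥(modularFunctionFieldBar N)
        (heckeAlphaBar Qb N ℓ f)).charpoly.coeff i) :=
  isFinInt_charpoly_coeff_of_isIntegralElem A N ℓ _ (isIntegralElem_alpha A N ℓ hℓ hf) i

end Hecke

end Fermat.Agent.S37.CharpolyChart
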