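/-
S37 (helper2), package KB-C(1), cusp chart: integrality of the coefficients of the Hecke
characteristic polynomial over the local cusp chart `A[t]_(𝔪_A, t)`, `t = 1/j`.

The argument is valuative: an element `x` of a field `K` is integral over the local ring
`A[X]_(𝔪_A, X)` (mapped to `K` by `ψ`) as soon as it lies in every valuation subring `V` of `K`
containing `ψ(A[X])` with `ψ(𝔪_A, X) ⊆ 𝔪_V`.
-/
import Mathlib
import Fermat.Agent.S37.CharpolyChart

set_option autoImplicit false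
set_option linter.unusedSectionVars false
set_option linter.style.haveILetI false

namespace Fermat.Agent.S37.CharpolyCusp

open Polynomial ModularCurve AlgebraicCurve
open Fermat.Agent.S28 Fermat.Agent.S37.Centre Fermat.Agent.S37.CharpolyChart

local notation "Qb" => AlgebraicClosure ℚ

section Generic

variable {R K : Type*} [CommRing R] [Field K]

/-- An element integral over a ring mapping into a valuation subring lies in it. -/
theorem mem_of_isIntegralElem (V : ValuationSubring K) (φ : R →+* K) (hφ : ∀ r, φ r ∈ V) {x : K}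
    (hx : φ.IsIntegralElem x) : x ∈ V := by
  obtain ⟨p, hp, hpx⟩ := hx
  let φ' : R →+* V := φ.codRestrict V.toSubring hφ
  have hcomp : (algebraMap V K).comp φ' = φ := RingHom.ext fun r => rfl
  have hint : IsIntegral V x := ⟨p.map φ', hp.map φ', by rw [eval₂_map, hcomp]; exact hpx⟩
  obtain ⟨y, hy⟩ := (IsIntegrallyClosed.isIntegral_iff (R := V) (K := K)).mp hint
  rw [← hy]
  exact y.2

/-- **Valuative criterion.**  If `x` lies in every valuation subring containing `ψ(R)` in which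
`ψ(I)` consists of non-units, then `x` is a root of a polynomial over `R` whose leading
coefficient is `≡ 1` modulo `I`. -/
theorem exists_poly_of_valuative (ψ : R →+* K) (I : Ideal R) (hI : I ≠ ⊤) (x : K)
    (h : ∀ V : ValuationSubring K, (∀ r, ψ r ∈ V) → (∀ r ∈ I, ψ r ∈ V.nonunits) → x ∈ V) :
    ∃ p : R[X], p.leadingCoeff - 1 ∈ I ∧ p.eval₂ ψ x = 0 := by
  by_cases hx : x = 0
  · exact ⟨X, by simp, by simp [hx]⟩
  letI : Algebra R K := ψ.toAlgebra
  letI : Invertible x⁻¹ := invertibleOfNonzero (inv_ne_zero hx)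
  have hinv : ⅟(x⁻¹) = x := by rw [invOf_eq_inv, inv_inv]
  suffices hJ : I.map (algebraMap R (Algebra.adjoin R {x⁻¹})) ⊔
      Ideal.span {⟨x⁻¹, Algebra.subset_adjoin rfl⟩} = ⊤ by
    obtain ⟨p, hp, hpx⟩ :=
      Algebra.exists_aeval_invOf_eq_zero_of_idealMap_adjoin_sup_span_eq_top x⁻¹ I hI hJ
    refine ⟨p, hp, ?_⟩
    rw [hinv] at hpx
    exact hpx
  by_contra hJ
  obtain ⟨V, hV1, hV2⟩ := Ideal.image_subset_nonunits_valuationSubring
    (A := (Algebra.adjoin R {x⁻¹}).toSubring) _ hJ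
  have hxV : x ∈ V := h V (fun r => hV1 (Subalgebra.algebraMap_mem _ r))
    (fun r hr => hV2 ⟨algebraMap R (Algebra.adjoin R {x⁻¹}) r,
      Ideal.mem_sup_left (Ideal.mem_map_of_mem _ hr), rfl⟩)
  have hxinv : x⁻¹ ∈ V.nonunits :=
    hV2 ⟨⟨x⁻¹, Algebra.subset_adjoin rfl⟩, Ideal.mem_sup_right (Ideal.subset_span rfl), rfl⟩
  rcases V.inv_mem_nonunits_iff.mp hxinv with h0 | h1
  · exact hx h0
  · exact h1 hxV

/-- non-units of a pulled-back valuation subring -/
theorem mem_nonunits_comap_iff {F : Type*} [Field F] (V : ValuationSubring K) (f : F →+* K)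
    (x : F) : x ∈ (V.comap f).nonunits ↔ f x ∈ V.nonunits := by
  rw [ValuationSubring.mem_nonunits_iff_or, ValuationSubring.mem_nonunits_iff_or,
    ValuationSubring.mem_comap, map_inv₀, map_eq_zero]

end Generic

section CuspIdeal

variable (A : ValuationSubring Qb)

/-- the maximal ideal `(𝔪_A, X)` of `A[X]` -/
noncomputable def cuspIdeal : Ideal (Polynomial ↥A) :=
  Ideal.comap (Polynomial.constantCoeff) (IsLocalRing.maximalIdeal ↥A)

theorem mem_cuspIdeal {p : Polynomial ↥A} :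
    p ∈ cuspIdeal A ↔ p.coeff 0 ∈ IsLocalRing.maximalIdeal ↥A := Iff.rfl

theorem cuspIdeal_ne_top : cuspIdeal A ≠ ⊤ := by
  intro h
  have h1 : (1 : Polynomial ↥A) ∈ cuspIdeal A := h ▸ Submodule.mem_top
  rw [mem_cuspIdeal, coeff_one_zero] at h1
  exact (IsLocalRing.maximalIdeal.isMaximal ↥A).ne_top ((Ideal.eq_top_iff_one _).mpr h1)

theorem isUnit_coeff_zero_of_sub_one_mem {p : Polynomial ↥A} (h : p - 1 ∈ cuspIdeal A) :
    IsUnit (p.coeff 0) := by
  rw [mem_cuspIdeal, coeff_sub, coeff_one_zero] at h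
  by_contra hu
  have h1 : p.coeff 0 ∈ IsLocalRing.maximalIdeal ↥A := (IsLocalRing.mem_maximalIdeal _).mpr hu
  have h2 := Ideal.sub_mem _ h1 h
  rw [sub_sub_cancel] at h2
  exact (IsLocalRing.maximalIdeal.isMaximal ↥A).ne_top ((Ideal.eq_top_iff_one _).mpr h2)

theorem exists_mul_sub_one_mem {w : Polynomial ↥A} (hw : IsUnit (w.coeff 0)) :
    ∃ a : ↥A, C a * w - 1 ∈ cuspIdeal A := by
  obtain ⟨a, ha⟩ := hw.exists_left_inv
  refine ⟨a, ?_⟩
  rw [mem_cuspIdeal, coeff_sub, coeff_C_mul, coeff_one_zero, ha, sub_self]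
  exact zero_mem _

variable {K : Type*} [Field K]

/-- `x` is integral over the local ring `A[X]_(𝔪_A, X)`, mapped to `K` by `ψ`. -/
def LocInt (ψ : Polynomial ↥A →+* K) (x : K) : Prop :=
  ∃ u : Polynomial ↥A, IsUnit (u.coeff 0) ∧ ψ.IsIntegralElem (ψ u * x)

/-- valuation subrings of `K` centred on the closed point of the chart `ψ`. -/
def Centred (ψ : Polynomial ↥A →+* K) (V : ValuationSubring K) : Prop :=
  (∀ r, ψ r ∈ V) ∧ ∀ r ∈ cuspIdeal A, ψ r ∈ V.nonunits

variable {A}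

theorem locInt_of_valuative (ψ : Polynomial ↥A →+* K) (x : K)
    (h : ∀ V : ValuationSubring K, Centred A ψ V → x ∈ V) : LocInt A ψ x := by
  obtain ⟨p, hp, hpx⟩ := exists_poly_of_valuative ψ (cuspIdeal A) (cuspIdeal_ne_top A) x
    (fun V h1 h2 => h V ⟨h1, h2⟩)
  exact ⟨p.leadingCoeff, isUnit_coeff_zero_of_sub_one_mem A hp,
    ψ.isIntegralElem_leadingCoeff_mul p x hpx⟩

theorem Centred.valuation_eq_one {ψ : Polynomial ↥A →+* K} {V : ValuationSubring K}
    (hV : Centred A ψ V) {u : Polynomial ↥A} (hu : IsUnit (u.coeff 0)) :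
    V.valuation (ψ u) = 1 := by
  obtain ⟨a, ha⟩ := exists_mul_sub_one_mem A hu
  have h1 : V.valuation (ψ (C a * u) - 1) < 1 := by
    have := V.mem_nonunits_iff.mp (hV.2 _ ha)
    rwa [map_sub, map_one] at this
  have h2 : V.valuation (ψ (C a)) ≤ 1 := (V.valuation_le_one_iff _).mpr (hV.1 _)
  have h3 : V.valuation (ψ u) ≤ 1 := (V.valuation_le_one_iff _).mpr (hV.1 _)
  refine le_antisymm h3 (not_lt.mp fun hlt => ?_)
  have h4 : V.valuation (ψ (C a * u)) < 1 := by
    rw [map_mul, map_mul]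
    exact lt_of_le_of_lt (mul_le_of_le_one_left' h2) hlt
  have h5 := Valuation.map_sub_lt _ h4 h1
  rw [sub_sub_cancel, map_one] at h5
  exact lt_irrefl _ h5

theorem LocInt.mem {ψ : Polynomial ↥A →+* K} {x : K} (hx : LocInt A ψ x)
    {V : ValuationSubring K} (hV : Centred A ψ V) : x ∈ V := by
  obtain ⟨u, hu, hint⟩ := hx
  have h1 : ψ u * x ∈ V := mem_of_isIntegralElem V ψ hV.1 hint
  rw [← V.valuation_le_one_iff] at h1 ⊢
  rwa [map_mul, hV.valuation_eq_one hu, one_mul] at h1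

end CuspIdeal

section ModPoly

variable (A : ValuationSubring Qb)

/-- The modular polynomial over `A`, with the root of unity recorded. -/
theorem exists_modPoly' (ℓ : ℕ) [NeZero ℓ] (hℓ : ℓ.Prime) :
    ∃ (ΦA : Polynomial (Polynomial ↥A)) (ζ : Qbˣ), ζ ^ ℓ = 1 ∧
      (ΦA.map (mapRingHom A.subtype)).map (evalAt (qExpand Qb ℓ (jS Qb))) =
        (X - C (qExpand Qb (ℓ * ℓ) (jS Qb))) *
          ∏ c ∈ Finset.range ℓ, (X - C (tw (ζ ^ c) (jS Qb))) := by
  haveI : NeZero ((ℓ : ℕ) : Qb) := ⟨Nat.cast_ne_zero.mpr hℓ.ne_zero⟩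
  obtain ⟨ζ₀, hζ₀⟩ := HasEnoughRootsOfUnity.exists_primitiveRoot Qb ℓ
  have hmem : ζ₀ ∈ A := mem_of_pow_eq_one A hℓ.ne_zero hζ₀.pow_eq_one
  have hmem' : ζ₀⁻¹ ∈ A :=
    mem_of_pow_eq_one A hℓ.ne_zero (by rw [inv_pow, hζ₀.pow_eq_one, inv_one])
  have hζ₀0 : ζ₀ ≠ 0 := hζ₀.ne_zero hℓ.ne_zero
  let u : (↥A)ˣ := ⟨⟨ζ₀, hmem⟩, ⟨ζ₀⁻¹, hmem'⟩, Subtype.ext (mul_inv_cancel₀ hζ₀0),
    Subtype.ext (inv_mul_cancel₀ hζ₀0)⟩
  let ι : ↥A →+* Qb := A.subtype
  have hu : ((Units.map (ι : ↥A →* Qb) u : Qbˣ) : Qb) = ζ₀ := rfl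
  have hprim : IsPrimitiveRoot (Units.map (ι : ↥A →* Qb) u) ℓ := by
    rw [← IsPrimitiveRoot.coe_units_iff, hu]
    exact hζ₀
  obtain ⟨D⟩ := exists_modPolyData Qb ℓ hℓ (Units.map (ι : ↥A →* Qb) u) hprim
  set xA : LaurentSeries ↥A := qExpand ↥A ℓ (jS ↥A) with hxA
  have hxK : coeffMap ι xA = qExpand Qb ℓ (jS Qb) := by
    rw [hxA, Fermat.Agent.S28.coeffMap_qExpand, coeffMap_jS]
  have hr : 0 < ℓ := hℓ.pos
  have h1 : (coeffMap ι xA).coeff (-(ℓ : ℤ)) = 1 := by
    rw [hxK, show (-(ℓ : ℤ)) = (ℓ : ℤ) * (-1) by ring, qExpand_coeff_mul, jS_coeff_neg_one]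
  have h0 : ∀ n : ℤ, n < -(ℓ : ℤ) → (coeffMap ι xA).coeff n = 0 := by
    intro n hn
    rw [hxK]
    by_cases hdvd : (ℓ : ℤ) ∣ n
    · obtain ⟨m, rfl⟩ := hdvd
      rw [qExpand_coeff_mul]
      apply jS_coeff_of_lt
      have hr' : (0 : ℤ) < ℓ := by exact_mod_cast hr
      nlinarith
    · exact qExpand_coeff_of_not_dvd ℓ _ hdvd
  have hΦ : D.Φ.map (evalAt (coeffMap ι xA)) = (Descent.rhsΦ ↥A ℓ u).map (coeffMap ι) := by
    rw [Descent.map_rhsΦ, hxK]; exact D.hΦ
  obtain ⟨ΦA, hΦA⟩ := Descent.exists_map_eq ι xA ℓ hr h1 h0 D.Φ _ hΦ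
  refine ⟨ΦA, Units.map (ι : ↥A →* Qb) u, hprim.pow_eq_one, ?_⟩
  rw [hΦA]
  exact D.hΦ

/-- coefficients of `p(x)` for a Laurent series `x` with leading term `q^(-e)` -/
theorem coeff_evalAt_of_leading {K : Type*} [Field K] (x : LaurentSeries K) (e : ℕ) (he : 0 < e)
    (h1 : x.coeff (-(e : ℤ)) = 1) (h0 : ∀ n : ℤ, n < -(e : ℤ) → x.coeff n = 0)
    (p : K[X]) (d : ℕ) (hd : p.natDegree ≤ d) :
    (evalAt x p).coeff (-((e : ℤ) * d)) = p.coeff d ∧
      ∀ n : ℤ, n < -((e : ℤ) * d) → (evalAt x p).coeff n = 0 := by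
  have hsum : evalAt x p = ∑ m ∈ Finset.range (d + 1), HahnSeries.C (p.coeff m) * x ^ m := by
    rw [evalAt, coe_eval₂RingHom, eval₂_eq_sum_range' _ (Nat.lt_succ_of_le hd)]
  have he' : (0 : ℤ) < e := by exact_mod_cast he
  constructor
  · rw [hsum, HahnSeries.coeff_sum, Finset.sum_eq_single d]
    · rw [HahnSeries.C_mul_eq_smul, HahnSeries.coeff_smul,
        (Descent.coeff_pow_of_leading x e h1 h0 d).1, smul_eq_mul, mul_one]
    · intro m hm hne
      have hm' : m < d := lt_of_le_of_ne (Nat.lt_succ_iff.mp (Finset.mem_range.mp hm)) hne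
      rw [HahnSeries.C_mul_eq_smul, HahnSeries.coeff_smul,
        (Descent.coeff_pow_of_leading x e h1 h0 m).2 _ (by
          have : (m : ℤ) < (d : ℤ) := by exact_mod_cast hm'
          nlinarith), smul_zero]
    · intro hnot
      exact absurd (Finset.mem_range.mpr (Nat.lt_succ_self _)) hnot
  · intro n hn
    rw [hsum, HahnSeries.coeff_sum]
    apply Finset.sum_eq_zero
    intro m hm
    have hm' : m ≤ d := Nat.lt_succ_iff.mp (Finset.mem_range.mp hm)
    rw [HahnSeries.C_mul_eq_smul, HahnSeries.coeff_smul,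
      (Descent.coeff_pow_of_leading x e h1 h0 m).2 _ (by
        have : (m : ℤ) ≤ (d : ℤ) := by exact_mod_cast hm'
        nlinarith), smul_zero]

section Orders

variable {K : Type*} [Field K]

/-- all coefficients of `x` below `e` vanish -/
def OrdGe (x : LaurentSeries K) (e : ℤ) : Prop := ∀ n < e, x.coeff n = 0

theorem OrdGe.mono {x : LaurentSeries K} {e e' : ℤ} (h : OrdGe x e) (he : e' ≤ e) :
    OrdGe x e' := fun n hn => h n (lt_of_lt_of_le hn he)

theorem ordGe_zero (e : ℤ) : OrdGe (0 : LaurentSeries K) e := fun _ _ => rfl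

theorem ordGe_one : OrdGe (1 : LaurentSeries K) 0 := fun n hn => by
  rw [HahnSeries.coeff_one]
  exact if_neg (ne_of_lt hn)

theorem OrdGe.add {x y : LaurentSeries K} {e : ℤ} (hx : OrdGe x e) (hy : OrdGe y e) :
    OrdGe (x + y) e := fun n hn => by
  rw [HahnSeries.coeff_add, hx n hn, hy n hn, add_zero]

theorem OrdGe.neg {x : LaurentSeries K} {e : ℤ} (hx : OrdGe x e) : OrdGe (-x) e := fun n hn => by
  rw [HahnSeries.coeff_neg, hx n hn, neg_zero]

theorem OrdGe.sub {x y : LaurentSeries K} {e : ℤ} (hx : OrdGe x e) (hy : OrdGe y e) :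
    OrdGe (x - y) e := by
  rw [sub_eq_add_neg]
  exact hx.add hy.neg

theorem OrdGe.mul {x y : LaurentSeries K} {e₁ e₂ : ℤ} (hx : OrdGe x e₁) (hy : OrdGe y e₂) :
    OrdGe (x * y) (e₁ + e₂) := by
  intro n hn
  rw [HahnSeries.coeff_mul]
  refine Finset.sum_eq_zero fun ij hij => ?_
  have hsum : ij.1 + ij.2 = n := (Finset.mem_antidiagonal.mp hij).2.2
  by_cases h : ij.1 < e₁
  · rw [hx _ h, zero_mul]
  · rw [hy _ (by omega), mul_zero]

theorem OrdGe.coeff_mul {x y : LaurentSeries K} {e₁ e₂ : ℤ} (hx : OrdGe x e₁) (hy : OrdGe y e₂) :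
    (x * y).coeff (e₁ + e₂) = x.coeff e₁ * y.coeff e₂ := by
  rw [HahnSeries.coeff_mul, Finset.sum_eq_single (e₁, e₂)]
  · intro ij hij hne
    have hsum : ij.1 + ij.2 = e₁ + e₂ := (Finset.mem_antidiagonal.mp hij).2.2
    rcases lt_trichotomy ij.1 e₁ with h | h | h
    · rw [hx _ h, zero_mul]
    · have h2 : ij.2 = e₂ := by omega
      exact absurd (Prod.ext h h2) hne
    · rw [hy _ (by omega), mul_zero]
  · intro hnot
    rw [Finset.mem_antidiagonal] at hnot
    by_cases h1 : x.coeff e₁ = 0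
    · rw [h1, zero_mul]
    · by_cases h2 : y.coeff e₂ = 0
      · rw [h2, mul_zero]
      · exact absurd ⟨h1, h2, rfl⟩ hnot

/-- pole orders of the coefficients of a product of linear factors with roots of pole order
at most one -/
theorem ordGe_coeff_prod {ι : Type*} (s : Finset ι) (r : ι → LaurentSeries K)
    (hr : ∀ c ∈ s, OrdGe (r c) (-1)) :
    ∀ k : ℕ, OrdGe ((∏ c ∈ s, (X - C (r c))).coeff k) ((k : ℤ) - s.card) := by
  classical
  induction s using Finset.induction_on with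
  | empty =>
    intro k
    rw [Finset.prod_empty, Finset.card_empty, coeff_one]
    split_ifs with h
    · subst h
      simpa using ordGe_one (K := K)
    · exact ordGe_zero _
  | insert c s hc ih =>
    intro k
    have ih' := ih (fun c' hc' => hr c' (Finset.mem_insert_of_mem hc'))
    have hrc := hr c (Finset.mem_insert_self c s)
    rw [Finset.prod_insert hc, Finset.card_insert_of_notMem hc, sub_mul]
    cases k with
    | zero =>
      rw [coeff_sub, coeff_X_mul_zero, coeff_C_mul, zero_sub]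
      refine ((hrc.mul (ih' 0)).neg).mono ?_
      push_cast
      omega
    | succ k =>
      rw [coeff_sub, coeff_X_mul, coeff_C_mul]
      refine OrdGe.sub ((ih' k).mono ?_) ((hrc.mul (ih' (k + 1))).mono ?_)
      · push_cast
        omega
      · push_cast
        omega

/-- the lowest coefficient of the constant term of a product of linear factors -/
theorem coeff_coeff_zero_prod {ι : Type*} (s : Finset ι) (r : ι → LaurentSeries K)
    (hr : ∀ c ∈ s, OrdGe (r c) (-1)) :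
    ((∏ c ∈ s, (X - C (r c))).coeff 0).coeff (-(s.card : ℤ)) =
      ∏ c ∈ s, (-(r c).coeff (-1)) := by
  classical
  induction s using Finset.induction_on with
  | empty => simp
  | insert c s hc ih =>
    have hr' : ∀ c' ∈ s, OrdGe (r c') (-1) := fun c' hc' => hr c' (Finset.mem_insert_of_mem hc')
    have ih' := ih hr'
    have hrc := hr c (Finset.mem_insert_self c s)
    have hord : OrdGe ((∏ c ∈ s, (X - C (r c))).coeff 0) (-(s.card : ℤ)) := by
      have := ordGe_coeff_prod s r hr' 0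
      simpa using this
    rw [Finset.prod_insert hc, Finset.prod_insert hc, Finset.card_insert_of_notMem hc,
      mul_coeff_zero, coeff_sub, coeff_X_zero, coeff_C_zero, zero_sub]
    have e : (-((s.card + 1 : ℕ) : ℤ)) = -1 + (-(s.card : ℤ)) := by push_cast; ring
    rw [e, (hrc.neg).coeff_mul hord, ih', HahnSeries.coeff_neg]

end Orders

/-- pole orders of the coefficients of `(X - j(q^(ℓ²))) ∏_c (X - j(ζ^c q))` -/
theorem rhs_bounds (ℓ : ℕ) [NeZero ℓ] (ζ : Qbˣ) (hζ : ζ ^ ℓ = 1) :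
    (∀ k, ∀ n : ℤ, n < -((ℓ : ℤ) * (ℓ + 1)) →
      ((((X - C (qExpand Qb (ℓ * ℓ) (jS Qb))) *
        ∏ c ∈ Finset.range ℓ, (X - C (tw (ζ ^ c) (jS Qb))) :
          Polynomial (LaurentSeries Qb)).coeff k).coeff n = 0)) ∧
    (∀ k, k ≠ 0 →
      ((((X - C (qExpand Qb (ℓ * ℓ) (jS Qb))) *
        ∏ c ∈ Finset.range ℓ, (X - C (tw (ζ ^ c) (jS Qb))) :
          Polynomial (LaurentSeries Qb)).coeff k).coeff (-((ℓ : ℤ) * (ℓ + 1))) = 0)) ∧
    ((((X - C (qExpand Qb (ℓ * ℓ) (jS Qb))) *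
        ∏ c ∈ Finset.range ℓ, (X - C (tw (ζ ^ c) (jS Qb))) :
          Polynomial (LaurentSeries Qb)).coeff 0).coeff (-((ℓ : ℤ) * (ℓ + 1)))) ^ (2 * ℓ) = 1 := by
  set rinf := qExpand Qb (ℓ * ℓ) (jS Qb) with hrinf
  set r : ℕ → LaurentSeries Qb := fun c => tw (ζ ^ c) (jS Qb) with hr
  have hP : (∏ c ∈ Finset.range ℓ, (X - C (tw (ζ ^ c) (jS Qb))) : Polynomial (LaurentSeries Qb)) =
      ∏ c ∈ Finset.range ℓ, (X - C (r c)) := rfl
  rw [hP]
  set P := ∏ c ∈ Finset.range ℓ, (X - C (r c)) with hPdef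
  have hℓ1 : (1 : ℤ) ≤ ℓ := by exact_mod_cast NeZero.one_le
  have hmoninf : IsMonicAt rinf (((ℓ * ℓ : ℕ) : ℤ) * (-1)) :=
    (isMonicAt_jS (R := Qb)).qExpand (ℓ * ℓ)
  have hordinf : OrdGe rinf (-((ℓ : ℤ) * ℓ)) := fun n hn => hmoninf.2 n (by push_cast; linarith)
  have hleadinf : rinf.coeff (-((ℓ : ℤ) * ℓ)) = 1 := by
    have := hmoninf.1
    rwa [show (((ℓ * ℓ : ℕ) : ℤ) * (-1)) = -((ℓ : ℤ) * ℓ) by push_cast; ring] at this
  have hrc : ∀ c ∈ Finset.range ℓ, OrdGe (r c) (-1) :=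
    fun c _ n hn => ((isMonicAt_jS (R := Qb)).tw_coeff (ζ ^ c)).2 n hn
  have hrlead : ∀ c, (r c).coeff (-1) = (((ζ ^ c) ^ (-1 : ℤ) : Qbˣ) : Qb) :=
    fun c => ((isMonicAt_jS (R := Qb)).tw_coeff (ζ ^ c)).1
  have hPord := ordGe_coeff_prod (Finset.range ℓ) r hrc
  have hPlead := coeff_coeff_zero_prod (Finset.range ℓ) r hrc
  rw [Finset.card_range] at hPord hPlead
  have hR0 : ((X - C rinf) * P).coeff 0 = -rinf * P.coeff 0 := by
    rw [mul_coeff_zero, coeff_sub, coeff_X_zero, coeff_C_zero, zero_sub]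
  have hRs : ∀ k, ((X - C rinf) * P).coeff (k + 1) = P.coeff k - rinf * P.coeff (k + 1) := by
    intro k
    rw [sub_mul, coeff_sub, coeff_X_mul, coeff_C_mul]
  have hP0 : OrdGe (P.coeff 0) (-(ℓ : ℤ)) := by
    have := hPord 0
    simpa using this
  have hord0 : OrdGe (((X - C rinf) * P).coeff 0) (-((ℓ : ℤ) * (ℓ + 1))) := by
    rw [hR0]
    exact (hordinf.neg.mul hP0).mono (by nlinarith)
  have hords : ∀ k, OrdGe (((X - C rinf) * P).coeff (k + 1)) (-((ℓ : ℤ) * (ℓ + 1)) + 1) := by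
    intro k
    rw [hRs]
    have hk : (0 : ℤ) ≤ k := Int.natCast_nonneg k
    refine OrdGe.sub ((hPord k).mono ?_) ((hordinf.mul (hPord (k + 1))).mono ?_)
    · nlinarith
    · push_cast
      nlinarith
  refine ⟨?_, ?_, ?_⟩
  · intro k n hn
    cases k with
    | zero => exact hord0 n hn
    | succ k => exact hords k n (by linarith)
  · intro k hk
    obtain ⟨k', rfl⟩ := Nat.exists_eq_succ_of_ne_zero hk
    exact hords k' _ (by linarith)
  · rw [hR0]
    have e : (-((ℓ : ℤ) * (ℓ + 1))) = -((ℓ : ℤ) * ℓ) + (-(ℓ : ℤ)) := by ring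
    rw [e, (hordinf.neg).coeff_mul hP0, HahnSeries.coeff_neg, hleadinf, hPlead, mul_pow,
      ← Finset.prod_pow]
    have h1 : ((-1 : Qb)) ^ (2 * ℓ) = 1 := by
      rw [pow_mul]
      norm_num
    rw [h1, one_mul]
    apply Finset.prod_eq_one
    intro c _
    have h2 : ((ζ ^ c) ^ (-1 : ℤ)) ^ (2 * ℓ) = 1 := by
      rw [zpow_neg_one, inv_pow, ← pow_mul, show c * (2 * ℓ) = ℓ * (2 * c) by ring, pow_mul, hζ,
        one_pow, inv_one]
    rw [hrlead, Even.neg_pow (even_two_mul ℓ), ← Units.val_pow_eq_pow_val, h2, Units.val_one]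

/-- `Φ_ℓ(X, Y)` is, up to a unit, monic of degree `ℓ + 1` in `Y`. -/
theorem modPoly_bounds (ℓ : ℕ) [NeZero ℓ] (hℓ : ℓ.Prime)
    (ΦA : Polynomial (Polynomial ↥A)) (ζ : Qbˣ) (hζ : ζ ^ ℓ = 1)
    (hΦ : (ΦA.map (mapRingHom A.subtype)).map (evalAt (qExpand Qb ℓ (jS Qb))) =
        (X - C (qExpand Qb (ℓ * ℓ) (jS Qb))) *
          ∏ c ∈ Finset.range ℓ, (X - C (tw (ζ ^ c) (jS Qb)))) :
    (∀ k, (ΦA.coeff k).natDegree ≤ ℓ + 1) ∧ IsUnit ((ΦA.coeff 0).coeff (ℓ + 1)) ∧
      (∀ k, k ≠ 0 → (ΦA.coeff k).coeff (ℓ + 1) = 0) := by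
  obtain ⟨hR1, hR2, hR3⟩ := rhs_bounds ℓ ζ hζ
  rw [← hΦ] at hR1 hR2 hR3
  set x := qExpand Qb ℓ (jS Qb) with hx
  have hpos : 0 < ℓ := hℓ.pos
  have hpos' : (0 : ℤ) < ℓ := by exact_mod_cast hpos
  have h1 : x.coeff (-(ℓ : ℤ)) = 1 := by
    rw [hx, show (-(ℓ : ℤ)) = (ℓ : ℤ) * (-1) by ring, qExpand_coeff_mul, jS_coeff_neg_one]
  have h0 : ∀ n : ℤ, n < -(ℓ : ℤ) → x.coeff n = 0 := by
    intro n hn
    rw [hx]
    by_cases hdvd : (ℓ : ℤ) ∣ n
    · obtain ⟨m, rfl⟩ := hdvd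
      rw [qExpand_coeff_mul]
      apply jS_coeff_of_lt
      nlinarith
    · exact qExpand_coeff_of_not_dvd ℓ _ hdvd
  have hco : ∀ k, ((ΦA.map (mapRingHom A.subtype)).map (evalAt x)).coeff k =
      evalAt x ((ΦA.coeff k).map A.subtype) := by
    intro k
    rw [coeff_map, coeff_map]
    rfl
  have hinj : Function.Injective A.subtype := Subtype.val_injective
  have hdeg : ∀ k, (ΦA.coeff k).natDegree ≤ ℓ + 1 := by
    intro k
    by_contra hgt'
    have hgt := not_le.mp hgt'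
    have hnd : ((ΦA.coeff k).map A.subtype).natDegree = (ΦA.coeff k).natDegree :=
      natDegree_map_eq_of_injective hinj _
    have hlead := (coeff_evalAt_of_leading x ℓ hpos h1 h0 ((ΦA.coeff k).map A.subtype)
      ((ΦA.coeff k).map A.subtype).natDegree le_rfl).1
    rw [← hco, hR1 k _ (by
      rw [hnd]
      have : ((ℓ + 1 : ℕ) : ℤ) < (((ΦA.coeff k).natDegree : ℕ) : ℤ) := by exact_mod_cast hgt
      push_cast at this
      nlinarith)] at hlead
    have hp0 : (ΦA.coeff k).map A.subtype ≠ 0 := by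
      intro h0'
      rw [h0', natDegree_zero] at hnd
      omega
    exact (leadingCoeff_ne_zero.mpr hp0) hlead.symm
  have hcast : (-((ℓ : ℤ) * ((ℓ + 1 : ℕ) : ℤ))) = -((ℓ : ℤ) * (ℓ + 1)) := by push_cast; ring
  have hcoeff : ∀ k, (((ΦA.map (mapRingHom A.subtype)).map (evalAt x)).coeff k).coeff
      (-((ℓ : ℤ) * (ℓ + 1))) = ((ΦA.coeff k).coeff (ℓ + 1) : Qb) := by
    intro k
    have hc := (coeff_evalAt_of_leading x ℓ hpos h1 h0 ((ΦA.coeff k).map A.subtype) (ℓ + 1)
      (natDegree_map_le.trans (hdeg k))).1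
    rw [hcast, ← hco] at hc
    rw [hc, coeff_map]
    rfl
  refine ⟨hdeg, ?_, ?_⟩
  · rw [hcoeff 0] at hR3
    have hne : 2 * ℓ ≠ 0 := by omega
    have hne0 : (((ΦA.coeff 0).coeff (ℓ + 1) : ↥A) : Qb) ≠ 0 := by
      intro h
      rw [h, zero_pow hne] at hR3
      exact zero_ne_one hR3
    have hmem' : (((ΦA.coeff 0).coeff (ℓ + 1) : ↥A) : Qb)⁻¹ ∈ A :=
      mem_of_pow_eq_one A hne (by rw [inv_pow, hR3, inv_one])
    exact isUnit_iff_exists_inv.mpr ⟨⟨_, hmem'⟩, Subtype.ext (mul_inv_cancel₀ hne0)⟩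
  · intro k hk
    have h := hR2 k hk
    rw [hcoeff k] at h
    exact hinj (by rw [map_zero]; exact h)

end ModPoly

section Hecke

-- Over the concrete function fields the default instance search for `Module.Free` explores
-- expensive branches once a `Module.Finite` instance is in scope; this makes it immediate.
attribute [local instance 10000] Module.Free.of_divisionRing

variable (A : ValuationSubring Qb) (N ℓ : ℕ) [NeZero N] [NeZero ℓ]

/-- `α j` is a root of `Φ_ℓ(X, β j)`. -/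
theorem modPoly_root (hℓ : ℓ.Prime) (ΦA : Polynomial (Polynomial ↥A)) (ζ : Qbˣ)
    (hΦ : (ΦA.map (mapRingHom A.subtype)).map (evalAt (qExpand Qb ℓ (jS Qb))) =
        (X - C (qExpand Qb (ℓ * ℓ) (jS Qb))) *
          ∏ c ∈ Finset.range ℓ, (X - C (tw (ζ ^ c) (jS Qb)))) :
    ΦA.eval₂ ((heckeBetaBar Qb N ℓ).toRingHom.comp (evJ A N))
      (heckeAlphaBar Qb N ℓ (Fermat.Agent.S24.jBC Qb N)) = 0 := by
  set φ := (heckeBetaBar Qb N ℓ).toRingHom.comp (evJ A N) with hφ
  have hG : (ΦA.map φ).map (toSeries (N * ℓ)) =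
      (X - C (qExpand Qb (ℓ * ℓ) (jS Qb))) *
        ∏ c ∈ Finset.range ℓ, (X - C (tw (ζ ^ c) (jS Qb))) := by
    rw [Polynomial.map_map, hφ, toSeries_comp_beta_evJ, ← Polynomial.map_map]
    exact hΦ
  rw [← eval_map]
  apply toSeries_injective (N * ℓ)
  rw [map_zero, ← Polynomial.eval₂_at_apply, ← eval_map, hG, toSeries_apply, coe_heckeAlphaBar,
    ← toSeries_apply, toSeries_jBC, eval_mul, eval_prod]
  refine mul_eq_zero_of_right _ (Finset.prod_eq_zero (Finset.mem_range.mpr hℓ.pos) ?_)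
  rw [pow_zero, tw_one, eval_sub, eval_X, eval_C, sub_self]

/-- Reflecting the coefficients of a relation for `α j` over `A[β j]` gives a relation over
`A[1/β j]`. -/
theorem eval₂_reflect_eq_zero (D : ℕ) (ΦA : Polynomial (Polynomial ↥A))
    (hroot : ΦA.eval₂ ((heckeBetaBar Qb N ℓ).toRingHom.comp (evJ A N))
      (heckeAlphaBar Qb N ℓ (Fermat.Agent.S24.jBC Qb N)) = 0)
    (hdeg : ∀ k, (ΦA.coeff k).natDegree ≤ D) :
    (∑ k ∈ ΦA.support, monomial k (reflect D (ΦA.coeff k))).eval₂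
      ((heckeBetaBar Qb N ℓ).toRingHom.comp (evJinv A N))
      (heckeAlphaBar Qb N ℓ (Fermat.Agent.S24.jBC Qb N)) = 0 := by
  set φ := (heckeBetaBar Qb N ℓ).toRingHom.comp (evJ A N) with hφ
  set ψ := (heckeBetaBar Qb N ℓ).toRingHom.comp (evJinv A N) with hψ
  set J := heckeAlphaBar Qb N ℓ (Fermat.Agent.S24.jBC Qb N) with hJ
  set Y := heckeBetaBar Qb N ℓ (Fermat.Agent.S24.jBC Qb N) with hY
  have hY0 : Y ≠ 0 := by
    rw [hY]
    exact (_root_.map_ne_zero _).mpr (GaussSmall.jBC_ne_zero (E := Qb) N)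
  let c₀ : ↥A →+* ↥(modularFunctionFieldBar (N * ℓ)) :=
    (heckeBetaBar Qb N ℓ).toRingHom.comp (constA A N)
  have e1 : ∀ p : Polynomial ↥A, φ p = p.eval₂ c₀ Y := by
    intro p
    rw [hφ, RingHom.comp_apply]
    show (heckeBetaBar Qb N ℓ).toRingHom (Polynomial.eval₂ (constA A N) _ p) = _
    rw [Polynomial.hom_eval₂]
    rfl
  have e2 : ∀ p : Polynomial ↥A, ψ p = p.eval₂ c₀ Y⁻¹ := by
    intro p
    rw [hψ, RingHom.comp_apply]
    show (heckeBetaBar Qb N ℓ).toRingHom (Polynomial.eval₂ (constA A N) _ p) = _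
    rw [Polynomial.hom_eval₂]
    congr 1
    exact map_inv₀ _ _
  have key : ∀ p : Polynomial ↥A, p.natDegree ≤ D → ψ (reflect D p) = Y⁻¹ ^ D * φ p := by
    intro p hp
    letI : Invertible Y := invertibleOfNonzero hY0
    have h := Polynomial.eval₂_reflect_mul_pow c₀ Y D p hp
    rw [invOf_eq_inv] at h
    rw [e1, e2, ← h, inv_pow]
    field_simp
  rw [eval₂_finsetSum]
  have hterm : ∀ k ∈ ΦA.support, (monomial k (reflect D (ΦA.coeff k))).eval₂ ψ J =
      Y⁻¹ ^ D * (φ (ΦA.coeff k) * J ^ k) := by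
    intro k _
    rw [eval₂_monomial, key _ (hdeg k), mul_assoc]
  rw [Finset.sum_congr rfl hterm, ← Finset.mul_sum]
  have hsum : ∑ k ∈ ΦA.support, φ (ΦA.coeff k) * J ^ k = ΦA.eval₂ φ J := by
    rw [eval₂_eq_sum, Polynomial.sum_def]
  rw [hsum, hroot, mul_zero]

/-- **The cusp equation**: `α j` is a root of a polynomial over `A[1/β j]` whose constant
coefficient is a unit at the cusp and whose other coefficients vanish at the cusp. -/
theorem exists_cusp_equation (hℓ : ℓ.Prime) :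
    ∃ G : Polynomial (Polynomial ↥A),
      G.eval₂ ((heckeBetaBar Qb N ℓ).toRingHom.comp (evJinv A N))
        (heckeAlphaBar Qb N ℓ (Fermat.Agent.S24.jBC Qb N)) = 0 ∧
      IsUnit ((G.coeff 0).coeff 0) ∧ ∀ k, k ≠ 0 → (G.coeff k).coeff 0 = 0 := by
  obtain ⟨ΦA, ζ, hζ, hΦ⟩ := exists_modPoly' A ℓ hℓ
  obtain ⟨hdeg, hunit, hzero⟩ := modPoly_bounds A ℓ hℓ ΦA ζ hζ hΦ
  have hroot := modPoly_root A N ℓ hℓ ΦA ζ hΦ
  have hcoeff : ∀ k, (∑ k' ∈ ΦA.support, monomial k' (reflect (ℓ + 1) (ΦA.coeff k'))).coeff k =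
      reflect (ℓ + 1) (ΦA.coeff k) := by
    intro k
    rw [finsetSum_coeff]
    simp only [coeff_monomial]
    rw [Finset.sum_ite_eq']
    split_ifs with h
    · rfl
    · rw [notMem_support_iff.mp h, reflect_zero]
  refine ⟨_, eval₂_reflect_eq_zero A N ℓ (ℓ + 1) ΦA hroot hdeg, ?_, ?_⟩
  · rw [hcoeff, coeff_reflect, revAt_zero]
    exact hunit
  · intro k hk
    rw [hcoeff, coeff_reflect, revAt_zero]
    exact hzero k hk

/-- At a valuation subring of `F_{Nℓ}` centred on the cusp of the `β`-chart, `1/α j` is a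
non-unit. -/
theorem inv_alpha_j_mem_nonunits (hℓ : ℓ.Prime)
    (V : ValuationSubring ↥(modularFunctionFieldBar (N * ℓ)))
    (hV : Centred A ((heckeBetaBar Qb N ℓ).toRingHom.comp (evJinv A N)) V) :
    (heckeAlphaBar Qb N ℓ (Fermat.Agent.S24.jBC Qb N))⁻¹ ∈ V.nonunits := by
  obtain ⟨G, hG, hu, hk⟩ := exists_cusp_equation A N ℓ hℓ
  set ψ := (heckeBetaBar Qb N ℓ).toRingHom.comp (evJinv A N) with hψ
  set J := heckeAlphaBar Qb N ℓ (Fermat.Agent.S24.jBC Qb N) with hJ
  rw [ValuationSubring.inv_mem_nonunits_iff]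
  right
  intro hJV
  have hval1 : V.valuation (ψ (G.coeff 0)) = 1 := hV.valuation_eq_one hu
  rw [eval₂_eq_sum_range, Finset.sum_range_succ', pow_zero, mul_one] at hG
  have hlt : V.valuation (∑ k ∈ Finset.range G.natDegree, ψ (G.coeff (k + 1)) * J ^ (k + 1)) < 1 := by
    apply Valuation.map_sum_lt _ one_ne_zero
    intro k _
    rw [map_mul]
    have h1 : V.valuation (ψ (G.coeff (k + 1))) < 1 :=
      V.mem_nonunits_iff.mp (hV.2 _ (by
        rw [mem_cuspIdeal, hk _ (Nat.succ_ne_zero k)]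
        exact zero_mem _))
    have h2 : V.valuation (J ^ (k + 1)) ≤ 1 := by
      rw [map_pow]
      exact pow_le_one₀ zero_le ((V.valuation_le_one_iff _).mpr hJV)
    exact lt_of_le_of_lt (mul_le_of_le_one_right' h2) h1
  have h3 : ψ (G.coeff 0) = -(∑ k ∈ Finset.range G.natDegree, ψ (G.coeff (k + 1)) * J ^ (k + 1)) :=
    eq_neg_of_add_eq_zero_right hG
  rw [h3, Valuation.map_neg] at hval1
  exact absurd hval1 (ne_of_lt hlt)

/-- **Valuative core**: for `f` integral on the cusp chart, `α f` lies in every valuation subring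
of `F_{Nℓ}` centred on the cusp of the `β`-chart. -/
theorem alpha_mem_of_centred (hℓ : ℓ.Prime)
    (V : ValuationSubring ↥(modularFunctionFieldBar (N * ℓ)))
    (hV : Centred A ((heckeBetaBar Qb N ℓ).toRingHom.comp (evJinv A N)) V)
    {f : ↥(modularFunctionFieldBar N)} (hf : IsCuspInt A N f) :
    heckeAlphaBar Qb N ℓ f ∈ V := by
  have hJ := inv_alpha_j_mem_nonunits A N ℓ hℓ V hV
  set ψ := (heckeBetaBar Qb N ℓ).toRingHom.comp (evJinv A N) with hψ
  have hconst : ∀ a : ↥A, heckeAlphaBar Qb N ℓ (evJinv A N (C a)) = ψ (C a) := by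
    intro a
    rw [hψ, RingHom.comp_apply, evJinv_C]
    show heckeAlphaBar Qb N ℓ (algebraMap Qb _ (a : Qb)) =
      heckeBetaBar Qb N ℓ (algebraMap Qb _ (a : Qb))
    rw [AlgHom.commutes, AlgHom.commutes]
  have hX : heckeAlphaBar Qb N ℓ (evJinv A N X) =
      (heckeAlphaBar Qb N ℓ (Fermat.Agent.S24.jBC Qb N))⁻¹ := by
    rw [evJinv_X]
    exact map_inv₀ _ _
  have hmem : ∀ r : Polynomial ↥A, heckeAlphaBar Qb N ℓ (evJinv A N r) ∈ V := by
    intro r
    induction r using Polynomial.induction_on with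
    | C a => rw [hconst]; exact hV.1 _
    | add p q hp hq => rw [map_add, map_add]; exact V.add_mem _ _ hp hq
    | monomial n a ih =>
      rw [pow_succ, ← mul_assoc, map_mul, map_mul, hX]
      exact V.mul_mem _ _ ih (V.nonunits_subset hJ)
  have hcomap : Centred A (evJinv A N) (V.comap (heckeAlphaBar Qb N ℓ).toRingHom) := by
    refine ⟨fun r => ValuationSubring.mem_comap.mpr (hmem r), fun r hr => ?_⟩
    rw [mem_nonunits_comap_iff, ValuationSubring.mem_nonunits_iff]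
    have hr' : r = X * divX r + C (r.coeff 0) := (X_mul_divX_add r).symm
    have h1 : V.valuation ((heckeAlphaBar Qb N ℓ).toRingHom (evJinv A N (X * divX r))) < 1 := by
      show V.valuation (heckeAlphaBar Qb N ℓ (evJinv A N (X * divX r))) < 1
      rw [map_mul, map_mul, hX, map_mul]
      exact lt_of_le_of_lt (mul_le_of_le_one_right' ((V.valuation_le_one_iff _).mpr (hmem _)))
        (V.mem_nonunits_iff.mp hJ)
    have h2 : V.valuation ((heckeAlphaBar Qb N ℓ).toRingHom (evJinv A N (C (r.coeff 0)))) < 1 := by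
      show V.valuation (heckeAlphaBar Qb N ℓ (evJinv A N (C (r.coeff 0)))) < 1
      rw [hconst]
      refine V.mem_nonunits_iff.mp (hV.2 _ ?_)
      rw [mem_cuspIdeal, coeff_C_zero]
      exact hr
    rw [hr', map_add, map_add]
    exact Valuation.map_add_lt _ h1 h2
  exact ValuationSubring.mem_comap.mp (LocInt.mem hf hcomap)

/-- **(INT-cusp)**: for `f` integral on the cusp chart, `α f` is integral over the local cusp
chart of the `β`-image. -/
theorem locInt_alpha (hℓ : ℓ.Prime) {f : ↥(modularFunctionFieldBar N)} (hf : IsCuspInt A N f) :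
    LocInt A ((heckeBetaBar Qb N ℓ).toRingHom.comp (evJinv A N)) (heckeAlphaBar Qb N ℓ f) :=
  locInt_of_valuative _ _ fun V hV => alpha_mem_of_centred A N ℓ hℓ V hV hf

/-- the cusp chart map `A[X] → F_{Nℓ}`, `X ↦ β (1/j)`, in `GaussSmall.evAt` form -/
theorem beta_comp_evJinv :
    (heckeBetaBar Qb N ℓ).toRingHom.comp (evJinv A N) =
      GaussSmall.evAt A (heckeBetaBar Qb N ℓ (Fermat.Agent.S24.jBC Qb N)⁻¹) := by
  apply Polynomial.ringHom_ext
  · intro a
    rw [RingHom.comp_apply, evJinv_C, GaussSmall.evAt_C]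
    exact AlgHom.commutes _ _
  · rw [RingHom.comp_apply, evJinv_X, GaussSmall.evAt_X]
    rfl

/-- **(INT-cusp)**, `GaussSmall.evAt` form. -/
theorem exists_isIntegralElem_evAt_alpha (hℓ : ℓ.Prime) {f : ↥(modularFunctionFieldBar N)}
    (hf : IsCuspInt A N f) :
    ∃ u : Polynomial ↥A, IsUnit (u.coeff 0) ∧
      (GaussSmall.evAt A (heckeBetaBar Qb N ℓ (Fermat.Agent.S24.jBC Qb N)⁻¹)).IsIntegralElem
        (GaussSmall.evAt A (heckeBetaBar Qb N ℓ (Fermat.Agent.S24.jBC Qb N)⁻¹) u *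
          heckeAlphaBar Qb N ℓ f) := by
  rw [← beta_comp_evJinv]
  exact locInt_alpha A N ℓ hℓ hf

/-- **KB-C(1), cusp chart, general element.**  If `x ∈ F_{Nℓ}` lies in every valuation subring
centred on the cusp of the `β`-chart, the coefficients of its characteristic polynomial over
`β(F_N)` are integral on the cusp chart. -/
theorem isCuspInt_charpoly_coeff_of_mem (x : ↥(modularFunctionFieldBar (N * ℓ)))
    (hx : ∀ V : ValuationSubring ↥(modularFunctionFieldBar (N * ℓ)),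
      Centred A ((heckeBetaBar Qb N ℓ).toRingHom.comp (evJinv A N)) V → x ∈ V) (i : ℕ) :
    letI := algebraAlong (heckeBetaBar Qb N ℓ)
    ∀ [Module.Finite ↥(modularFunctionFieldBar N) ↥(modularFunctionFieldBar (N * ℓ))],
    IsCuspInt A N
      ((LinearMap.mulLeft ↥(modularFunctionFieldBar N) x).charpoly.coeff i) := by
  letI := algebraAlong (heckeBetaBar Qb N ℓ)
  intro _
  apply locInt_of_valuative (evJinv A N)
  intro V₀ hV₀
  -- `x` is integral over `β(V₀)`
  have hA : ((heckeBetaBar Qb N ℓ).toRingHom.comp V₀.subtype).IsIntegralElem x := by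
    obtain ⟨p, hp, hpx⟩ := exists_poly_of_valuative
      ((heckeBetaBar Qb N ℓ).toRingHom.comp V₀.subtype) (IsLocalRing.maximalIdeal ↥V₀)
      (IsLocalRing.maximalIdeal.isMaximal _).ne_top x (by
        intro V h1 h2
        apply hx V ⟨?_, ?_⟩
        · intro r
          exact h1 ⟨evJinv A N r, hV₀.1 r⟩
        · intro r hr
          obtain ⟨hmem, hmax⟩ :=
            ValuationSubring.mem_nonunits_iff_exists_mem_maximalIdeal.mp (hV₀.2 r hr)
          exact h2 ⟨evJinv A N r, hmem⟩ hmax)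
    have hunit : IsUnit p.leadingCoeff := by
      by_contra hu
      have h1 : p.leadingCoeff ∈ IsLocalRing.maximalIdeal ↥V₀ :=
        (IsLocalRing.mem_maximalIdeal _).mpr hu
      have h2 := Ideal.sub_mem _ h1 hp
      rw [sub_sub_cancel] at h2
      exact (IsLocalRing.maximalIdeal.isMaximal ↥V₀).ne_top ((Ideal.eq_top_iff_one _).mpr h2)
    obtain ⟨b, hb⟩ := hunit.exists_left_inv
    have h2 := RingHom.isIntegralElem_leadingCoeff_mul _ p _ hpx
    have h3 := RingHom.IsIntegralElem.mul _ (RingHom.isIntegralElem_map _ (x := b)) h2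
    rwa [← mul_assoc, ← map_mul, hb, map_one, one_mul] at h3
  have hB := CharpolyInt.isIntegralElem_charpoly_coeff V₀.subtype x hA i
  exact mem_of_isIntegralElem V₀ V₀.subtype (fun r => r.2) hB

/-- **KB-C(1), cusp chart.**  For `f` integral on the cusp chart, every coefficient of the
characteristic polynomial `χ_f` of `α f` over `β(F_N)` is integral on the cusp chart. -/
theorem isCuspInt_charpoly_coeff (hℓ : ℓ.Prime) {f : ↥(modularFunctionFieldBar N)}
    (hf : IsCuspInt A N f) (i : ℕ) :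
    letI := algebraAlong (heckeBetaBar Qb N ℓ)
    ∀ [Module.Finite ↥(modularFunctionFieldBar N) ↥(modularFunctionFieldBar (N * ℓ))],
    IsCuspInt A N
      ((LinearMap.mulLeft ↥(modularFunctionFieldBar N)
        (heckeAlphaBar Qb N ℓ f)).charpoly.coeff i) :=
  isCuspInt_charpoly_coeff_of_mem A N ℓ _
    (fun V hV => alpha_mem_of_centred A N ℓ hℓ V hV hf) i

end Hecke

end Fermat.Agent.S37.CharpolyCusp
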