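import Mathlib

/-!
# S37: characteristic polynomials on quotients of a Dedekind `K`-algebra

`S` is a Dedekind domain and a `K`-algebra all of whose residue fields at nonzero primes are `K`
(residue degree one).  For `g : S` and a nonzero ideal `I`, the characteristic polynomial of
multiplication by `g` on the finite-dimensional `K`-space `S ⧸ I` is the product of the
`X - g(Q)` over the prime factors `Q` of `I` (with multiplicity), `g(Q) : K` being the value of
`g` at `Q`.  Also: the characteristic polynomial of multiplication on a finite free algebra is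
compatible with localisation of the base and with reduction modulo the maximal ideal of a local
base ring.
-/

set_option autoImplicit false
set_option linter.unusedSectionVars false
set_option linter.style.haveILetI false

namespace Fermat.Agent.S37

open Polynomial IsDedekindDomain UniqueFactorizationMonoid WithZero Module

namespace CharpolyQuot

section Quotient

variable {K S : Type*} [Field K] [CommRing S] [IsDedekindDomain S] [Algebra K S]

theorem algebraMap_notMem (Q : Ideal S) (hQ : Q.IsPrime) (c : K) (hc : c ≠ 0) :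
    algebraMap K S c ∉ Q := by
  intro h
  have hu : IsUnit (algebraMap K S c) := (IsUnit.mk0 c hc).map _
  exact hQ.ne_top (Ideal.eq_top_of_isUnit_mem _ h hu)

theorem intValuation_pow_uniformizer (v : HeightOneSpectrum S) (π : S)
    (hπ : v.intValuation π = exp (-1 : ℤ)) (i : ℕ) :
    v.intValuation (π ^ i) = exp (-(i : ℤ)) := by
  rw [map_pow, hπ, ← exp_nsmul]
  simp

theorem pow_uniformizer_mem (v : HeightOneSpectrum S) (π : S)
    (hπ : v.intValuation π = exp (-1 : ℤ)) (i : ℕ) : π ^ i ∈ v.asIdeal ^ i := by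
  rw [← v.intValuation_le_pow_iff_mem, intValuation_pow_uniformizer v π hπ]

theorem pow_uniformizer_notMem (v : HeightOneSpectrum S) (π : S)
    (hπ : v.intValuation π = exp (-1 : ℤ)) (i : ℕ) : π ^ i ∉ v.asIdeal ^ (i + 1) := by
  rw [← v.intValuation_le_pow_iff_mem, intValuation_pow_uniformizer v π hπ, exp_le_exp]
  push_cast
  omega

/-- every element is a polynomial of degree `< i` in a uniformizer modulo `Q ^ i` -/
theorem exists_sum_sub_mem_pow (v : HeightOneSpectrum S)
    (hres : ∀ x : S, ∃ c : K, x - algebraMap K S c ∈ v.asIdeal) (π : S)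
    (hπ : v.intValuation π = exp (-1 : ℤ)) (i : ℕ) (x : S) :
    ∃ c : ℕ → K, x - ∑ j ∈ Finset.range i, algebraMap K S (c j) * π ^ j ∈ v.asIdeal ^ i := by
  induction i with
  | zero => exact ⟨0, by simp⟩
  | succ i ih =>
    obtain ⟨c, hc⟩ := ih
    haveI := v.isPrime
    obtain ⟨d, e, he, hde⟩ := Ideal.exists_mul_add_mem_pow_succ v.ne_bot (π ^ i) _
      (pow_uniformizer_mem v π hπ i) (pow_uniformizer_notMem v π hπ i) hc
    obtain ⟨ci, hci⟩ := hres d
    refine ⟨Function.update c i ci, ?_⟩
    have hsum : ∑ j ∈ Finset.range i, algebraMap K S (Function.update c i ci j) * π ^ j =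
        ∑ j ∈ Finset.range i, algebraMap K S (c j) * π ^ j := by
      refine Finset.sum_congr rfl fun j hj => ?_
      rw [Function.update_of_ne (Finset.mem_range.mp hj).ne]
    rw [Finset.sum_range_succ, hsum, Function.update_self]
    have key : x - (∑ j ∈ Finset.range i, algebraMap K S (c j) * π ^ j +
        algebraMap K S ci * π ^ i) = π ^ i * (d - algebraMap K S ci) + e := by
      rw [← sub_sub, ← hde]
      ring
    rw [key, pow_succ]
    exact Ideal.add_mem _ (Ideal.mul_mem_mul (pow_uniformizer_mem v π hπ i) hci) he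

/-- the powers of a uniformizer of exponent `< i` are independent modulo `Q ^ i` -/
theorem eq_zero_of_sum_mem_pow (v : HeightOneSpectrum S) (π : S)
    (hπ : v.intValuation π = exp (-1 : ℤ)) :
    ∀ (i : ℕ) (c : Fin i → K),
      ∑ j : Fin i, algebraMap K S (c j) * π ^ (j : ℕ) ∈ v.asIdeal ^ i → c = 0 := by
  intro i
  induction i with
  | zero => intro c _; exact Subsingleton.elim _ _
  | succ i ih =>
    intro c hc
    have hπQ : π ∈ v.asIdeal := by
      rw [← v.intValuation_lt_one_iff_mem, hπ, ← exp_zero, exp_lt_exp]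
      norm_num
    rw [Fin.sum_univ_succ] at hc
    have hT : ∑ j : Fin i, algebraMap K S (c j.succ) * π ^ ((j.succ : Fin (i + 1)) : ℕ) =
        π * ∑ j : Fin i, algebraMap K S (c j.succ) * π ^ (j : ℕ) := by
      rw [Finset.mul_sum]
      refine Finset.sum_congr rfl fun j _ => ?_
      rw [Fin.val_succ, pow_succ]
      ring
    rw [hT] at hc
    have hc0 : c 0 = 0 := by
      by_contra h0
      apply algebraMap_notMem v.asIdeal v.isPrime (c 0) h0
      have h1 : algebraMap K S (c 0) * π ^ ((0 : Fin (i + 1)) : ℕ) +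
          π * ∑ j : Fin i, algebraMap K S (c j.succ) * π ^ (j : ℕ) ∈ v.asIdeal :=
        Ideal.pow_le_self (Nat.succ_ne_zero i) hc
      have h2 : π * ∑ j : Fin i, algebraMap K S (c j.succ) * π ^ (j : ℕ) ∈ v.asIdeal :=
        Ideal.mul_mem_right _ _ hπQ
      have h3 := (Ideal.add_mem_iff_left _ h2).mp h1
      simpa using h3
    rw [hc0, map_zero, zero_mul, zero_add] at hc
    have hval : v.intValuation (∑ j : Fin i, algebraMap K S (c j.succ) * π ^ (j : ℕ)) ≤
        exp (-(i : ℤ)) := by
      have h4 := (v.intValuation_le_pow_iff_mem _ _).mpr hc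
      rw [map_mul, hπ] at h4
      have h5 : exp (-((i + 1 : ℕ) : ℤ)) = exp (-1 : ℤ) * exp (-(i : ℤ)) := by
        rw [← exp_add]
        congr 1
        push_cast
        ring
      rw [h5] at h4
      exact (mul_le_mul_iff_right₀ exp_pos).mp h4
    have hmem := (v.intValuation_le_pow_iff_mem _ _).mp hval
    have hsucc := ih (fun j => c j.succ) hmem
    funext j
    refine Fin.cases hc0 (fun j => ?_) j
    exact congrFun hsucc j

/-- `S ⧸ Q ^ i` has dimension `i` over `K` when `Q` has residue degree one -/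
theorem finrank_quot_pow (Q : Ideal S) (hQ : Q.IsPrime) (hQ0 : Q ≠ ⊥)
    (hres : ∀ x : S, ∃ c : K, x - algebraMap K S c ∈ Q) (i : ℕ) :
    Module.Finite K (S ⧸ Q ^ i) ∧ Module.finrank K (S ⧸ Q ^ i) = i := by
  let v : HeightOneSpectrum S := ⟨Q, hQ, hQ0⟩
  obtain ⟨π, hπ⟩ := v.intValuation_exists_uniformizer
  let Φ : (Fin i → K) →ₗ[K] S ⧸ Q ^ i :=
    (Ideal.Quotient.mkₐ K (Q ^ i)).toLinearMap ∘ₗ
      Fintype.linearCombination K (fun j : Fin i => π ^ (j : ℕ))
  have hΦ : ∀ c : Fin i → K, Φ c =
      Ideal.Quotient.mk (Q ^ i) (∑ j : Fin i, algebraMap K S (c j) * π ^ (j : ℕ)) := by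
    intro c
    simp only [Φ, LinearMap.comp_apply, Fintype.linearCombination_apply, AlgHom.toLinearMap_apply,
      Ideal.Quotient.mkₐ_eq_mk, Algebra.smul_def]
  have hinj : Function.Injective Φ := by
    rw [injective_iff_map_eq_zero]
    intro c hc
    rw [hΦ, Ideal.Quotient.eq_zero_iff_mem] at hc
    exact eq_zero_of_sum_mem_pow v π hπ i c hc
  have hsurj : Function.Surjective Φ := by
    intro y
    obtain ⟨x, rfl⟩ := Ideal.Quotient.mk_surjective y
    obtain ⟨c, hc⟩ := exists_sum_sub_mem_pow v hres π hπ i x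
    refine ⟨fun j : Fin i => c j, ?_⟩
    rw [hΦ, Fin.sum_univ_eq_sum_range (fun j => algebraMap K S (c j) * π ^ j) i,
      Ideal.Quotient.eq, ← neg_sub]
    exact neg_mem hc
  let e : (Fin i → K) ≃ₗ[K] S ⧸ Q ^ i := LinearEquiv.ofBijective Φ ⟨hinj, hsurj⟩
  refine ⟨Module.Finite.equiv e, ?_⟩
  rw [← e.finrank_eq, Module.finrank_fin_fun]

/-- multiplication by `g` on `S ⧸ Q ^ i` has characteristic polynomial `(X - g(Q)) ^ i` -/
theorem charpoly_quot_pow (Q : Ideal S) (hQ : Q.IsPrime) (hQ0 : Q ≠ ⊥)
    (hres : ∀ x : S, ∃ c : K, x - algebraMap K S c ∈ Q) (g : S) (a : K)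
    (ha : g - algebraMap K S a ∈ Q) (i : ℕ) :
    ∃ _hfin : Module.Finite K (S ⧸ Q ^ i),
      (LinearMap.mulLeft K (Ideal.Quotient.mk (Q ^ i) g)).charpoly = (X - C a) ^ i := by
  obtain ⟨hfin, hrank⟩ := finrank_quot_pow Q hQ hQ0 hres i
  refine ⟨hfin, ?_⟩
  haveI := hfin
  set f : Module.End K (S ⧸ Q ^ i) := LinearMap.mulLeft K (Ideal.Quotient.mk (Q ^ i) g) with hf
  have hν : f - a • (1 : Module.End K (S ⧸ Q ^ i)) =
      Algebra.lmul K (S ⧸ Q ^ i) (Ideal.Quotient.mk (Q ^ i) (g - algebraMap K S a)) := by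
    refine LinearMap.ext fun y => ?_
    rw [LinearMap.sub_apply, LinearMap.smul_apply, Module.End.one_apply, hf,
      LinearMap.mulLeft_apply, Algebra.coe_lmul_eq_mul, LinearMap.mul_apply', map_sub, sub_mul,
      Algebra.smul_def]
    rfl
  have hnil : IsNilpotent (f - a • (1 : Module.End K (S ⧸ Q ^ i))) := by
    refine ⟨i, ?_⟩
    rw [hν, ← map_pow, ← map_pow,
      Ideal.Quotient.eq_zero_iff_mem.mpr (Ideal.pow_mem_pow ha i), map_zero]
  have h1 := hnil.charpoly_eq_X_pow_finrank
  rw [LinearMap.charpoly_sub_smul, hrank] at h1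
  have h2 := congrArg (fun p : K[X] => p.comp (X - C a)) h1
  simp only [Polynomial.comp_assoc, add_comp, X_comp, C_comp, sub_add_cancel, comp_X, pow_comp]
    at h2
  exact h2

/-- the Chinese remainder isomorphism is `K`-linear -/
noncomputable def crtLinearEquiv (I J : Ideal S) (h : IsCoprime I J) :
    (S ⧸ I * J) ≃ₗ[K] (S ⧸ I) × (S ⧸ J) :=
  { Ideal.quotientMulEquivQuotientProd I J h with
    map_smul' := by
      intro c z
      obtain ⟨s, rfl⟩ := Ideal.Quotient.mk_surjective z
      have h1 : c • (Ideal.Quotient.mk (I * J) s) = Ideal.Quotient.mk (I * J) (c • s) := rfl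
      have h2 : ∀ t : S, (Ideal.quotientMulEquivQuotientProd I J h) (Ideal.Quotient.mk (I * J) t) =
          (Ideal.Quotient.mk I t, Ideal.Quotient.mk J t) := by
        intro t
        refine Prod.ext ?_ ?_
        · exact Ideal.quotientMulEquivQuotientProd_fst I J h _
        · exact Ideal.quotientMulEquivQuotientProd_snd I J h _
      change (Ideal.quotientMulEquivQuotientProd I J h) (c • (Ideal.Quotient.mk (I * J) s)) =
        c • (Ideal.quotientMulEquivQuotientProd I J h) (Ideal.Quotient.mk (I * J) s)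
      rw [h1, h2, h2]
      rfl }

theorem crtLinearEquiv_mk (I J : Ideal S) (h : IsCoprime I J) (s : S) :
    crtLinearEquiv (K := K) I J h (Ideal.Quotient.mk (I * J) s) =
      (Ideal.Quotient.mk I s, Ideal.Quotient.mk J s) := by
  refine Prod.ext ?_ ?_
  · exact Ideal.quotientMulEquivQuotientProd_fst I J h _
  · exact Ideal.quotientMulEquivQuotientProd_snd I J h _

theorem crtLinearEquiv_mul (I J : Ideal S) (h : IsCoprime I J) (z w : S ⧸ I * J) :
    crtLinearEquiv (K := K) I J h (z * w) =
      crtLinearEquiv (K := K) I J h z * crtLinearEquiv (K := K) I J h w :=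
  map_mul (Ideal.quotientMulEquivQuotientProd I J h) z w

/-- **characteristic polynomial on a quotient**: for a nonzero ideal `I` of the Dedekind
`K`-algebra `S` all of whose nonzero primes have residue field `K`, multiplication by `g` on
`S ⧸ I` has characteristic polynomial `∏ (X - g(Q))` over the prime factors of `I`. -/
theorem charpoly_quot
    (hres : ∀ Q : Ideal S, Q.IsPrime → Q ≠ ⊥ → ∀ x : S, ∃ c : K, x - algebraMap K S c ∈ Q)
    (g : S) (a : Ideal S → K)
    (ha : ∀ Q : Ideal S, Q.IsPrime → Q ≠ ⊥ → g - algebraMap K S (a Q) ∈ Q)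
    (I : Ideal S) (hI : I ≠ ⊥) :
    ∃ _hfin : Module.Finite K (S ⧸ I),
      (LinearMap.mulLeft K (Ideal.Quotient.mk I g)).charpoly =
        ((normalizedFactors I).map (fun Q => X - C (a Q))).prod := by
  revert hI
  refine UniqueFactorizationMonoid.induction_on_coprime
    (P := fun I : Ideal S => I ≠ ⊥ → ∃ _hfin : Module.Finite K (S ⧸ I),
      (LinearMap.mulLeft K (Ideal.Quotient.mk I g)).charpoly =
        ((normalizedFactors I).map (fun Q => X - C (a Q))).prod) I ?_ ?_ ?_ ?_
  · intro h
    exact absurd rfl h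
  · intro x hx _
    have hx1 : x = ⊤ := Ideal.isUnit_iff.mp hx
    subst hx1
    haveI : Subsingleton (S ⧸ (⊤ : Ideal S)) := Ideal.Quotient.subsingleton_iff.mpr rfl
    haveI hfin : Module.Finite K (S ⧸ (⊤ : Ideal S)) := inferInstance
    refine ⟨hfin, ?_⟩
    have h0 : normalizedFactors (⊤ : Ideal S) = 0 := by
      rw [← Ideal.one_eq_top]
      exact normalizedFactors_one
    rw [h0, Multiset.map_zero, Multiset.prod_zero]
    have hdeg := LinearMap.charpoly_natDegree
      (LinearMap.mulLeft K (Ideal.Quotient.mk (⊤ : Ideal S) g))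
    rw [Module.finrank_zero_of_subsingleton] at hdeg
    have hmonic := LinearMap.charpoly_monic
      (LinearMap.mulLeft K (Ideal.Quotient.mk (⊤ : Ideal S) g))
    exact (Polynomial.Monic.natDegree_eq_zero hmonic).mp hdeg
  · intro p i hp _
    have hp0 : p ≠ ⊥ := hp.ne_zero
    have hpP : p.IsPrime := Ideal.isPrime_of_prime hp
    obtain ⟨hfin, hchar⟩ := charpoly_quot_pow p hpP hp0 (hres p hpP hp0) g (a p) (ha p hpP hp0) i
    refine ⟨hfin, ?_⟩
    rw [hchar, normalizedFactors_pow, normalizedFactors_irreducible hp.irreducible,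
      normalize_eq, Multiset.nsmul_singleton, Multiset.map_replicate, Multiset.prod_replicate]
  · intro x y hxy hx hy hxy0
    have hx0 : x ≠ ⊥ := fun h => hxy0 (by rw [h]; exact zero_mul y)
    have hy0 : y ≠ ⊥ := fun h => hxy0 (by rw [h]; exact mul_zero x)
    obtain ⟨hfx, hcx⟩ := hx hx0
    obtain ⟨hfy, hcy⟩ := hy hy0
    have hcop : IsCoprime x y := by
      rw [Ideal.isCoprime_iff_sup_eq]
      have hu : IsUnit (x ⊔ y) :=
        hxy (Ideal.dvd_iff_le.mpr le_sup_left) (Ideal.dvd_iff_le.mpr le_sup_right)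
      exact Ideal.isUnit_iff.mp hu
    haveI := hfx
    haveI := hfy
    let e := crtLinearEquiv (K := K) x y hcop
    haveI hfin : Module.Finite K (S ⧸ x * y) := Module.Finite.equiv e.symm
    refine ⟨hfin, ?_⟩
    have hconj : e.conj (LinearMap.mulLeft K (Ideal.Quotient.mk (x * y) g)) =
        (LinearMap.mulLeft K (Ideal.Quotient.mk x g)).prodMap
          (LinearMap.mulLeft K (Ideal.Quotient.mk y g)) := by
      refine LinearMap.ext fun z => ?_
      obtain ⟨w, rfl⟩ := e.surjective z
      rw [LinearEquiv.conj_apply_apply, LinearEquiv.symm_apply_apply, LinearMap.mulLeft_apply,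
        crtLinearEquiv_mul, crtLinearEquiv_mk]
      rfl
    rw [← LinearEquiv.charpoly_conj e, hconj, LinearMap.charpoly_prodMap, hcx, hcy,
      normalizedFactors_mul hx0 hy0, Multiset.map_add, Multiset.prod_add]

end Quotient

section Localization

variable (R : Type*) {S : Type*} [CommRing R] [CommRing S] [Algebra R S]
variable {Rₘ Sₘ : Type*} [CommRing Rₘ] [Algebra R Rₘ] [CommRing Sₘ] [Algebra S Sₘ]
variable (M : Submonoid R)
variable [IsLocalization M Rₘ] [IsLocalization (Algebra.algebraMapSubmonoid S M) Sₘ]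
variable [Algebra Rₘ Sₘ] [Algebra R Sₘ] [IsScalarTower R Rₘ Sₘ] [IsScalarTower R S Sₘ]

include M in
/-- the characteristic polynomial of multiplication by an element of `S` does not change under
localisation of the base -/
theorem charpoly_mulLeft_localization [Module.Free R S] [Module.Finite R S]
    [Module.Free Rₘ Sₘ] [Module.Finite Rₘ Sₘ] (a : S) :
    (LinearMap.mulLeft Rₘ (algebraMap S Sₘ a)).charpoly =
      ((LinearMap.mulLeft R a).charpoly).map (algebraMap R Rₘ) := by
  classical
  let b := Module.Free.chooseBasis R S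
  have h1 : (LinearMap.mulLeft R a).charpoly = (Algebra.leftMulMatrix b a).charpoly :=
    (LinearMap.charpoly_toMatrix (LinearMap.mulLeft R a) b).symm
  have h2 : (LinearMap.mulLeft Rₘ (algebraMap S Sₘ a)).charpoly =
      (Algebra.leftMulMatrix (b.localizationLocalization Rₘ M Sₘ) (algebraMap S Sₘ a)).charpoly :=
    (LinearMap.charpoly_toMatrix (LinearMap.mulLeft Rₘ (algebraMap S Sₘ a))
      (b.localizationLocalization Rₘ M Sₘ)).symm
  rw [h1, h2, ← Algebra.map_leftMulMatrix_localization R M b a, RingHom.mapMatrix_apply,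
    Matrix.charpoly_map]

end Localization

section Residue

variable {K R S : Type*} [Field K] [CommRing R] [IsLocalRing R] [Algebra K R] [CommRing S]
  [Algebra R S] [Algebra K S] [IsScalarTower K R S] [Module.Finite R S] [Module.Free R S]

/-- for a finite free algebra `S` over a local `K`-algebra `R` with residue field `K`, the
characteristic polynomial over `R` of multiplication by `a` reduces modulo the maximal ideal to
the characteristic polynomial over `K` of multiplication by `a` on `S ⧸ 𝔪 S`. -/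
theorem charpoly_mulLeft_residue
    (hres : ∀ r : R, ∃ c : K, r - algebraMap K R c ∈ IsLocalRing.maximalIdeal R) (a : S) :
    ∃ _hfin : Module.Finite K (S ⧸ (IsLocalRing.maximalIdeal R).map (algebraMap R S)),
      ∀ i : ℕ, ((LinearMap.mulLeft R a).charpoly).coeff i -
        algebraMap K R ((LinearMap.mulLeft K (Ideal.Quotient.mk
          ((IsLocalRing.maximalIdeal R).map (algebraMap R S)) a)).charpoly.coeff i) ∈
          IsLocalRing.maximalIdeal R := by
  classical
  set p := IsLocalRing.maximalIdeal R with hp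
  set pS := p.map (algebraMap R S) with hpS
  let b := Module.Free.chooseBasis R S
  let bq : Basis _ (R ⧸ p) (S ⧸ pS) := IsLocalRing.basisQuotient b
  have hbij : Function.Bijective (algebraMap K (R ⧸ p)) := by
    refine ⟨(algebraMap K (R ⧸ p)).injective, fun y => ?_⟩
    obtain ⟨r, rfl⟩ := Ideal.Quotient.mk_surjective y
    obtain ⟨c, hc⟩ := hres r
    refine ⟨c, ?_⟩
    exact (Ideal.Quotient.eq.mpr hc).symm
  let e : (R ⧸ p) ≃+* K := (RingEquiv.ofBijective (algebraMap K (R ⧸ p)) hbij).symm
  have he : ∀ c : R ⧸ p, algebraMap K (R ⧸ p) (e c) = c := fun c =>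
    (RingEquiv.ofBijective (algebraMap K (R ⧸ p)) hbij).apply_symm_apply c
  have hcompat : ∀ (c : R ⧸ p) (x : S ⧸ pS), e c • x = c • x := by
    intro c x
    obtain ⟨s, rfl⟩ := Ideal.Quotient.mk_surjective x
    conv_rhs => rw [← he c]
    have h1 : algebraMap K (R ⧸ p) (e c) = Ideal.Quotient.mk p (algebraMap K R (e c)) := rfl
    rw [h1, Ideal.Quotient.mk_smul_mk_quotient_map_quotient, ← Algebra.smul_def,
      algebraMap_smul]
    rfl
  let bK : Basis _ K (S ⧸ pS) := bq.mapCoeffs e hcompat
  have hfin : Module.Finite K (S ⧸ pS) := Module.Finite.of_basis bK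
  refine ⟨hfin, fun i => ?_⟩
  have hrepr : ∀ (x : S ⧸ pS) j, bK.repr x j = e (bq.repr x j) := by
    intro x j
    simp [bK, Basis.mapCoeffs_repr]
  have hmat : LinearMap.toMatrix bK bK (LinearMap.mulLeft K (Ideal.Quotient.mk pS a)) =
      (Algebra.leftMulMatrix b a).map ((e : (R ⧸ p) →+* K).comp (Ideal.Quotient.mk p)) := by
    ext j k
    rw [LinearMap.toMatrix_apply, Matrix.map_apply, Algebra.leftMulMatrix_eq_repr_mul, hrepr,
      LinearMap.mulLeft_apply, Basis.mapCoeffs_apply, IsLocalRing.basisQuotient_apply, ← map_mul,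
      IsLocalRing.basisQuotient_repr]
    rfl
  have hchar : (LinearMap.mulLeft K (Ideal.Quotient.mk pS a)).charpoly =
      ((LinearMap.mulLeft R a).charpoly).map
        ((e : (R ⧸ p) →+* K).comp (Ideal.Quotient.mk p)) := by
    rw [← LinearMap.charpoly_toMatrix (LinearMap.mulLeft K (Ideal.Quotient.mk pS a)) bK, hmat,
      Matrix.charpoly_map]
    exact congrArg (Polynomial.map _) (LinearMap.charpoly_toMatrix (LinearMap.mulLeft R a) b)
  rw [hchar, Polynomial.coeff_map, ← Ideal.Quotient.eq]
  have h2 := he (Ideal.Quotient.mk p ((LinearMap.mulLeft R a).charpoly.coeff i))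
  exact h2.symm

end Residue

end CharpolyQuot

end Fermat.Agent.S37
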