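import Mathlib
import Fermat.Prelude.Def_AlgebraicCurve_Correspondence
import Fermat.Agent.S37.NormFormula
import Fermat.Agent.S37.FunctionFieldMaps
import Fermat.Agent.S37.CharpolyQuot

/-!
# S37: the value of a characteristic polynomial at a place

For a finite extension `F'/F` of function fields over an algebraically closed field `K` of
characteristic zero, a place `v` of `F` and a function `g` of `F'` that is regular at every
place `w` over `v` with value `a w`, the characteristic polynomial of `g` over `F` has
coefficients regular at `v`, and its value at `v` is `∏_{w ∣ v} (X - a w) ^ e(w ∣ v)`.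
-/

set_option autoImplicit false
set_option linter.unusedSectionVars false
set_option linter.style.haveILetI false

namespace Fermat.Agent.S37

open AlgebraicCurve IsDedekindDomain UniqueFactorizationMonoid Polynomial

namespace CharpolyValue

open Fermat.Agent.S24 NormFormula

section Center

variable {K F : Type*} [Field K] [Field F] [Algebra K F]
variable {B : Type*} [CommRing B] [IsDedekindDomain B] [Algebra B F] [IsFractionRing B F]

/-- membership in the center of a place, in terms of the non-units of its valuation ring -/
theorem mem_toPrime_iff (v : Place K F) (hB : ∀ b : B, algebraMap B F b ∈ v.toValuationSubring)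
    (b : B) :
    b ∈ (PrimeBridge.toPrime v hB).asIdeal ↔ algebraMap B F b ∈ v.toValuationSubring.nonunits := by
  show PrimeBridge.incl v hB b ∈ IsLocalRing.maximalIdeal _ ↔ _
  rw [← ValuationSubring.coe_mem_nonunits_iff, PrimeBridge.coe_incl]

variable [Algebra K B] [IsScalarTower K B F]

theorem const_mem (a : K) : algebraMap K F a ∈ (algebraMap B F).range :=
  ⟨algebraMap K B a, (IsScalarTower.algebraMap_apply K B F a).symm⟩

/-- at a place of degree one every element of `B` has a value in `K` -/
theorem exists_const_sub_mem (v : Place K F) (hvdeg : v.deg = 1)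
    (hB : ∀ b : B, algebraMap B F b ∈ v.toValuationSubring) (b : B) :
    ∃ c : K, b - algebraMap K B c ∈ (PrimeBridge.toPrime v hB).asIdeal := by
  have hbij := (Algebra.finrank_eq_one_iff_bijective_algebraMap (F := K)
    (E := v.ResidueField)).mp hvdeg
  obtain ⟨c, hc⟩ := hbij.2 (IsLocalRing.residue v.toValuationSubring ⟨algebraMap B F b, hB b⟩)
  refine ⟨c, ?_⟩
  show PrimeBridge.incl v hB (b - algebraMap K B c) ∈ IsLocalRing.maximalIdeal _
  have h1 : PrimeBridge.incl v hB (b - algebraMap K B c) =
      (⟨algebraMap B F b, hB b⟩ : v.toValuationSubring) -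
        algebraMap K v.toValuationSubring c := by
    apply Subtype.ext
    rw [PrimeBridge.coe_incl, map_sub, ← IsScalarTower.algebraMap_apply K B F]
    rfl
  rw [h1, ← IsLocalRing.residue_eq_zero_iff, map_sub, sub_eq_zero]
  exact hc.symm

end Center

section Main

variable {K F F' : Type*} [Field K] [Field F] [Field F'] [Algebra K F] [Algebra K F']
  [Algebra F F'] [IsScalarTower K F F'] [FiniteDimensional F F']
variable (B : Type*) [CommRing B] [IsDomain B] [IsDiscreteValuationRing B] [Algebra B F]
  [IsFractionRing B F] [Algebra K B] [IsScalarTower K B F]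
variable (B' : Type*) [CommRing B'] [IsDedekindDomain B'] [Algebra B' F'] [IsFractionRing B' F']
  [Algebra B B'] [Algebra B F'] [IsScalarTower B B' F'] [IsScalarTower B F F']
  [IsIntegralClosure B' B F'] [Algebra K B'] [IsScalarTower K B' F']

variable {B}

omit [FiniteDimensional F F'] [Algebra K F'] [Algebra F F'] [IsScalarTower K F F'] in
/-- the center of a place on a discrete valuation ring is the maximal ideal -/
theorem toPrime_eq_maximalIdeal (v : Place K F)
    (hB : ∀ b : B, algebraMap B F b ∈ v.toValuationSubring) :
    (PrimeBridge.toPrime v hB).asIdeal = IsLocalRing.maximalIdeal B :=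
  IsLocalRing.eq_maximalIdeal (PrimeBridge.toPrime v hB).isMaximal

variable {B'}

include F' in
/-- every prime of `B'` lies over the maximal ideal of `B` -/
theorem comap_eq_maximalIdeal (Q : HeightOneSpectrum B') :
    Q.asIdeal.comap (algebraMap B B') = IsLocalRing.maximalIdeal B := by
  have : Algebra.IsIntegral B B' := IsIntegralClosure.isIntegral_algebra B F'
  have hQm : Q.asIdeal.IsMaximal := Q.isMaximal
  have hpm : (Q.asIdeal.under B).IsMaximal := Ideal.IsMaximal.under B Q.asIdeal
  exact IsLocalRing.eq_maximalIdeal hpm

variable [HasPrincipalDivisors K F']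

/-- the place of every prime of `B'` lies over `v` -/
theorem placeOfPrime_mem_fiber (v : Place K F)
    (hB : ∀ b : B, algebraMap B F b ∈ v.toValuationSubring)
    (hK' : ∀ a : K, algebraMap K F' a ∈ (algebraMap B' F').range) (Q : HeightOneSpectrum B') :
    PrimeBridge.placeOfPrime B' hK' Q ∈ v.fiber F' := by
  rw [Place.mem_fiber]
  refine restrict_placeOfPrime (fun a => const_mem a) hK' v hB Q ?_
  rw [comap_eq_maximalIdeal (F' := F') Q, toPrime_eq_maximalIdeal v hB]

/-- `B'` lies in the valuation ring of every place over `v` -/
theorem mem_of_mem_fiber (v : Place K F)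
    (hB : ∀ b : B, algebraMap B F b ∈ v.toValuationSubring) (w : Place K F')
    (hw : w ∈ v.fiber F') (b' : B') : algebraMap B' F' b' ∈ w.toValuationSubring := by
  have hwv : w.restrict F = v := Place.mem_fiber.mp hw
  exact mem_of_restrict B' w (by rw [hwv]; exact hB) b'

/-- a function regular at all places over `v` lies in `B'` -/
theorem exists_algebraMap_eq (v : Place K F)
    (hB : ∀ b : B, algebraMap B F b ∈ v.toValuationSubring) (g : F')
    (hg : ∀ w ∈ v.fiber F', g ∈ w.toValuationSubring) : ∃ gS : B', algebraMap B' F' gS = g := by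
  have hK' : ∀ a : K, algebraMap K F' a ∈ (algebraMap B' F').range := fun a => const_mem a
  refine HeightOneSpectrum.mem_integers_of_valuation_le_one F' g fun Q => ?_
  have h1 := hg _ (placeOfPrime_mem_fiber v hB hK' Q)
  rw [PrimeBridge.placeOfPrime_toValuationSubring, Valuation.mem_valuationSubring_iff] at h1
  exact h1

/-- the multiplicity of the center of `w` in `𝔪_v B'` is the ramification index -/
theorem cnt_map_maximalIdeal (v : Place K F)
    (hB : ∀ b : B, algebraMap B F b ∈ v.toValuationSubring) (w : Place K F')
    (hw : w ∈ v.fiber F') :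
    cnt (PrimeBridge.toPrime w (mem_of_mem_fiber v hB w hw)).asIdeal
        ((IsLocalRing.maximalIdeal B).map (algebraMap B B')) = w.ramificationIndex F := by
  have hwv : w.restrict F = v := Place.mem_fiber.mp hw
  obtain ⟨π, hπ⟩ := IsDiscreteValuationRing.exists_irreducible B
  have hπ0 : π ≠ 0 := hπ.ne_zero
  have hπ' : algebraMap B B' π ≠ 0 := by
    intro h0
    have h2 := congrArg (algebraMap B' F') h0
    rw [algebraMap_eq (F := F), map_zero, map_eq_zero_iff _ (algebraMap F F').injective,
      map_eq_zero_iff _ (IsFractionRing.injective B F)] at h2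
    exact hπ0 h2
  have hv1 : v.ord (algebraMap B F π) = 1 := by
    rw [PrimeBridge.ord_eq_toPrime v hB, neg_log_valuation_eq_cnt _ _ hπ0,
      ← hπ.maximalIdeal_eq, ← toPrime_eq_maximalIdeal v hB,
      cnt_prime _ _ (PrimeBridge.toPrime v hB).isPrime (PrimeBridge.toPrime v hB).ne_bot,
      if_pos rfl]
  rw [hπ.maximalIdeal_eq, Ideal.map_span, Set.image_singleton,
    ← neg_log_valuation_eq_cnt (F := F') _ _ hπ', ← PrimeBridge.ord_eq_toPrime,
    algebraMap_eq (F := F), w.ord_restrict, hwv, hv1, mul_one]

variable (B B') in
include B' in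
/-- **Value of the characteristic polynomial** (discrete valuation ring form): `B` a discrete
valuation ring of `F` contained in the place `v`, `B'` its integral closure in `F'` (finite and
free over `B`), all places of degree one.  If `g` has the value `a w` at every place `w` over
`v`, then every coefficient of the characteristic polynomial of `g` over `F` has as value at `v`
the corresponding coefficient of `∏_{w ∣ v} (X - a w) ^ e(w ∣ v)`. -/
theorem charpoly_coeff_sub_mem_nonunits [Module.Finite B B'] [Module.Free B B']
    (hdeg : ∀ w : Place K F', w.deg = 1) (v : Place K F) (hvdeg : v.deg = 1)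
    (hB : ∀ b : B, algebraMap B F b ∈ v.toValuationSubring) (g : F') (a : Place K F' → K)
    (ha : ∀ w ∈ v.fiber F', g - algebraMap K F' (a w) ∈ w.toValuationSubring.nonunits) (i : ℕ) :
    (LinearMap.mulLeft F g).charpoly.coeff i -
      algebraMap K F ((∏ w ∈ v.fiber F', (X - C (a w)) ^ w.ramificationIndex F).coeff i) ∈
        v.toValuationSubring.nonunits := by
  classical
  have hK' : ∀ a : K, algebraMap K F' a ∈ (algebraMap B' F').range := fun a => const_mem a
  have hgmem : ∀ w ∈ v.fiber F', g ∈ w.toValuationSubring := by
    intro w hw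
    have h1 := w.toValuationSubring.nonunits_le (ha w hw)
    have h2 := add_mem h1 (w.algebraMap_mem' (a w))
    rwa [sub_add_cancel] at h2
  obtain ⟨gS, rfl⟩ := exists_algebraMap_eq (B' := B') v hB g hgmem
  haveI : IsScalarTower K B B' := IsScalarTower.of_algebraMap_eq (fun c => by
    apply IsFractionRing.injective B' F'
    rw [algebraMap_eq (F := F) B B', ← IsScalarTower.algebraMap_apply K B' F',
      ← IsScalarTower.algebraMap_apply K B F, ← IsScalarTower.algebraMap_apply K F F'])
  -- localisation
  haveI : IsLocalization (Algebra.algebraMapSubmonoid B' (nonZeroDivisors B)) F' :=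
    IsIntegralClosure.isLocalization B F F' B'
  have hloc := CharpolyQuot.charpoly_mulLeft_localization B (Rₘ := F) (Sₘ := F')
    (nonZeroDivisors B) gS
  -- residue
  have hresB : ∀ r : B, ∃ c : K, r - algebraMap K B c ∈ IsLocalRing.maximalIdeal B := by
    intro r
    obtain ⟨c, hc⟩ := exists_const_sub_mem v hvdeg hB r
    exact ⟨c, by rwa [toPrime_eq_maximalIdeal v hB] at hc⟩
  obtain ⟨hfin, hred⟩ := CharpolyQuot.charpoly_mulLeft_residue (K := K) hresB gS
  -- the quotient
  set I : Ideal B' := (IsLocalRing.maximalIdeal B).map (algebraMap B B') with hI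
  have hinj : Function.Injective (algebraMap B B') := by
    intro x y hxy
    have h2 := congrArg (algebraMap B' F') hxy
    rw [algebraMap_eq (F := F) B B', algebraMap_eq (F := F) B B'] at h2
    exact IsFractionRing.injective B F ((algebraMap F F').injective h2)
  have hI0 : I ≠ ⊥ := by
    rw [hI, Ne, Ideal.map_eq_bot_iff_of_injective hinj]
    exact IsDiscreteValuationRing.not_a_field B
  let a' : Ideal B' → K := fun Q =>
    if h : Q.IsPrime ∧ Q ≠ ⊥ then a (PrimeBridge.placeOfPrime B' hK' ⟨Q, h.1, h.2⟩) else 0
  have hres' : ∀ Q : Ideal B', Q.IsPrime → Q ≠ ⊥ →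
      ∀ x : B', ∃ c : K, x - algebraMap K B' c ∈ Q := by
    intro Q hQ hQ0 x
    let Qh : HeightOneSpectrum B' := ⟨Q, hQ, hQ0⟩
    have hmemQ := PrimeBridge.algebraMap_mem_placeOfPrime B' hK' Qh
    obtain ⟨c, hc⟩ := exists_const_sub_mem (PrimeBridge.placeOfPrime B' hK' Qh) (hdeg _) hmemQ x
    rw [PrimeBridge.toPrime_placeOfPrime hK' Qh hmemQ] at hc
    exact ⟨c, hc⟩
  have ha' : ∀ Q : Ideal B', Q.IsPrime → Q ≠ ⊥ → gS - algebraMap K B' (a' Q) ∈ Q := by
    intro Q hQ hQ0
    let Qh : HeightOneSpectrum B' := ⟨Q, hQ, hQ0⟩
    have hmemQ := PrimeBridge.algebraMap_mem_placeOfPrime B' hK' Qh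
    have hfib := placeOfPrime_mem_fiber v hB hK' Qh
    have h1 := ha _ hfib
    have h2 : a' Q = a (PrimeBridge.placeOfPrime B' hK' Qh) := dif_pos ⟨hQ, hQ0⟩
    rw [h2]
    have h3 := (mem_toPrime_iff (PrimeBridge.placeOfPrime B' hK' Qh) hmemQ
      (gS - algebraMap K B' (a (PrimeBridge.placeOfPrime B' hK' Qh)))).mpr
        (by rw [map_sub, ← IsScalarTower.algebraMap_apply K B' F']; exact h1)
    rw [PrimeBridge.toPrime_placeOfPrime hK' Qh hmemQ] at h3
    exact h3
  obtain ⟨hfin', hquot⟩ := CharpolyQuot.charpoly_quot hres' gS a' ha' I hI0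
  -- from prime factors to places
  have hprod : ((normalizedFactors I).map (fun Q => X - C (a' Q))).prod =
      ∏ w ∈ v.fiber F', (X - C (a w)) ^ w.ramificationIndex F := by
    let q' : {w // w ∈ v.fiber F'} → Ideal B' := fun w =>
      (PrimeBridge.toPrime w.1 (mem_of_mem_fiber v hB w.1 w.2)).asIdeal
    have hq'inj : Function.Injective q' := by
      intro w w' h
      apply Subtype.ext
      rw [← PrimeBridge.placeOfPrime_toPrime hK' w.1 (mem_of_mem_fiber v hB w.1 w.2),
        ← PrimeBridge.placeOfPrime_toPrime hK' w'.1 (mem_of_mem_fiber v hB w'.1 w'.2)]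
      exact congrArg (PrimeBridge.placeOfPrime B' hK') (HeightOneSpectrum.ext h)
    have hcount : ∀ w : {w // w ∈ v.fiber F'},
        Multiset.count (q' w) (normalizedFactors I) = w.1.ramificationIndex F := by
      intro w
      have h1 := cnt_map_maximalIdeal (B' := B') v hB w.1 w.2
      unfold cnt at h1
      exact_mod_cast h1
    have hset : (normalizedFactors I).toFinset = (v.fiber F').attach.image q' := by
      ext Q
      rw [Multiset.mem_toFinset, Finset.mem_image]
      constructor
      · intro hQ
        have hQp : Prime Q := prime_of_normalized_factor Q hQ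
        let Qh : HeightOneSpectrum B' := ⟨Q, Ideal.isPrime_of_prime hQp, hQp.ne_zero⟩
        refine ⟨⟨PrimeBridge.placeOfPrime B' hK' Qh, placeOfPrime_mem_fiber v hB hK' Qh⟩,
          Finset.mem_attach _ _, ?_⟩
        exact congrArg HeightOneSpectrum.asIdeal (PrimeBridge.toPrime_placeOfPrime hK' Qh _)
      · rintro ⟨w, -, rfl⟩
        have h1 := hcount w
        have h2 : 0 < w.1.ramificationIndex F := w.1.ramificationIndex_pos
        exact Multiset.count_pos.mp (by omega)
    rw [Finset.prod_multiset_map_count, hset, Finset.prod_image (fun x _ y _ h => hq'inj h),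
      ← Finset.prod_attach (v.fiber F')]
    refine Finset.prod_congr rfl fun w _ => ?_
    rw [hcount w]
    have h3 : a' (q' w) = a w.1 := by
      have h4 : a' (q' w) = a (PrimeBridge.placeOfPrime B' hK'
          (PrimeBridge.toPrime w.1 (mem_of_mem_fiber v hB w.1 w.2))) :=
        dif_pos ⟨(PrimeBridge.toPrime w.1 (mem_of_mem_fiber v hB w.1 w.2)).isPrime,
          (PrimeBridge.toPrime w.1 (mem_of_mem_fiber v hB w.1 w.2)).ne_bot⟩
      rw [h4, PrimeBridge.placeOfPrime_toPrime hK' w.1 _]
    rw [h3]
  -- conclusion
  have hcoef : (LinearMap.mulLeft F (algebraMap B' F' gS)).charpoly.coeff i =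
      algebraMap B F ((LinearMap.mulLeft B gS).charpoly.coeff i) := by
    rw [hloc, Polynomial.coeff_map]
  rw [hcoef, ← hprod, ← hquot]
  have h1 : (LinearMap.mulLeft B gS).charpoly.coeff i -
      algebraMap K B ((LinearMap.mulLeft K (Ideal.Quotient.mk I gS)).charpoly.coeff i) ∈
        (PrimeBridge.toPrime v hB).asIdeal := by
    rw [toPrime_eq_maximalIdeal v hB]
    exact hred i
  rw [mem_toPrime_iff, map_sub, ← IsScalarTower.algebraMap_apply K B F] at h1
  exact h1

end Main

section PlaceForm

variable {K F F' : Type*} [Field K] [Field F] [Field F'] [Algebra K F] [Algebra K F']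
  [Algebra F F'] [IsScalarTower K F F'] [FiniteDimensional F F'] [CharZero F]
  [HasPrincipalDivisors K F']

/-- **Value of the characteristic polynomial at a place**: `F'/F` a finite extension of fields
over `K` of characteristic zero, all places of degree one.  If `g : F'` has the value `a w` at
every place `w` over `v`, then the `i`-th coefficient of the characteristic polynomial of `g`
over `F` has at `v` the value of the `i`-th coefficient of `∏_{w ∣ v} (X - a w) ^ e(w ∣ v)`. -/
theorem charpoly_coeff_sub_mem_nonunits_of_deg (hdeg : ∀ w : Place K F', w.deg = 1)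
    (v : Place K F) (hvdeg : v.deg = 1) (g : F') (a : Place K F' → K)
    (ha : ∀ w ∈ v.fiber F', g - algebraMap K F' (a w) ∈ w.toValuationSubring.nonunits) (i : ℕ) :
    (LinearMap.mulLeft F g).charpoly.coeff i -
      algebraMap K F ((∏ w ∈ v.fiber F', (X - C (a w)) ^ w.ramificationIndex F).coeff i) ∈
        v.toValuationSubring.nonunits := by
  let B := ↥v.toValuationSubring
  letI : Algebra B F' := ((algebraMap F F').comp (algebraMap B F)).toAlgebra
  haveI : IsScalarTower B F F' := IsScalarTower.of_algebraMap_eq (fun _ => rfl)
  haveI : IsScalarTower K B F' := IsScalarTower.of_algebraMap_eq (fun k => by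
    rw [IsScalarTower.algebraMap_apply K F F', IsScalarTower.algebraMap_apply B F F',
      ← IsScalarTower.algebraMap_apply K B F])
  haveI : IsDedekindDomain (integralClosure B F') := integralClosure.isDedekindDomain B F F'
  haveI : IsFractionRing (integralClosure B F') F' :=
    integralClosure.isFractionRing_of_finite_extension F F'
  haveI : Module.Finite B (integralClosure B F') :=
    IsIntegralClosure.finite B F F' (integralClosure B F')
  haveI : Module.IsTorsionFree B (integralClosure B F') := by
    rw [Module.isTorsionFree_iff_algebraMap_injective]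
    intro x y hxy
    have h2 := congrArg (algebraMap (integralClosure B F') F') hxy
    rw [← IsScalarTower.algebraMap_apply, ← IsScalarTower.algebraMap_apply,
      IsScalarTower.algebraMap_apply B F F', IsScalarTower.algebraMap_apply B F F'] at h2
    exact IsFractionRing.injective B F ((algebraMap F F').injective h2)
  haveI : Module.Free B (integralClosure B F') := inferInstance
  haveI : IsScalarTower K (integralClosure B F') F' := inferInstance
  exact charpoly_coeff_sub_mem_nonunits B (integralClosure B F') hdeg v hvdeg (fun b => b.2)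
    g a ha i

end PlaceForm

/-! ### Function fields over an algebraically closed field of characteristic zero -/

section FunctionField

open IntermediateField

variable {K F F' : Type*} [Field K] [IsAlgClosed K] [CharZero K]
  [Field F] [Field F'] [Algebra K F] [Algebra K F']

/-- **Value of the characteristic polynomial at a place**, for function fields of one variable
over an algebraically closed field of characteristic zero. -/
theorem charpoly_coeff_value [Algebra F F'] [IsScalarTower K F F']
    (x : F) (hx : Transcendental K x) [FiniteDimensional K⟮x⟯ F]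
    (x' : F') (hx' : Transcendental K x') [FiniteDimensional K⟮x'⟯ F']
    [FiniteDimensional F F'] [HasPrincipalDivisors K F']
    (v : Place K F) (g : F') (a : Place K F' → K)
    (ha : ∀ w ∈ v.fiber F', g - algebraMap K F' (a w) ∈ w.toValuationSubring.nonunits) (i : ℕ) :
    (LinearMap.mulLeft F g).charpoly.coeff i -
      algebraMap K F ((∏ w ∈ v.fiber F', (X - C (a w)) ^ w.ramificationIndex F).coeff i) ∈
        v.toValuationSubring.nonunits := by
  haveI : CharZero F := charZero_of_injective_algebraMap (algebraMap K F).injective
  exact charpoly_coeff_sub_mem_nonunits_of_deg (fun w => place_deg_eq_one x' hx' w) v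
    (place_deg_eq_one x hx v) g a ha i

/-- **Value of the characteristic polynomial at a place, along `φ`**: `φ : F →ₐ[K] F'` a map of
function fields, `v` a place of `F`, `g : F'` with value `a w` at every place `w` over `v`
along `φ`.  Then the `i`-th coefficient of the characteristic polynomial of `g` over `F`
(for the algebra structure `algebraAlong φ`) has at `v` the value of the `i`-th coefficient of
`∏_{w ∣ v} (X - a w) ^ e_φ(w)`.  (Both memberships are `GaloisValue.IsValueAt`.) -/
theorem charpoly_coeff_value_along (φ : F →ₐ[K] F')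
    (x : F) (hx : Transcendental K x) [FiniteDimensional K⟮x⟯ F]
    (x' : F') (hx' : Transcendental K x') [FiniteDimensional K⟮x'⟯ F']
    [HasPrincipalDivisors K F'] (hφ : φ.toRingHom.IsIntegral) (hfin : FiniteAlong K φ)
    (v : Place K F) (g : F') (a : Place K F' → K)
    (ha : ∀ w ∈ Place.fiberAlong φ hφ v,
      g - algebraMap K F' (a w) ∈ w.toValuationSubring.nonunits) (i : ℕ) :
    (letI := algebraAlong φ
     haveI : Module.Finite F F' := hfin
     (LinearMap.mulLeft F g).charpoly).coeff i -
      algebraMap K F ((∏ w ∈ Place.fiberAlong φ hφ v,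
        (X - C (a w)) ^ w.ramificationIndexAlong φ).coeff i) ∈
        v.toValuationSubring.nonunits := by
  letI := algebraAlong φ
  haveI := isScalarTower_along φ
  haveI := AlgebraicCurve.isIntegral_along φ hφ
  haveI : Module.Finite F F' := hfin
  exact charpoly_coeff_value x hx x' hx' v g a ha i

end FunctionField

end CharpolyValue

end Fermat.Agent.S37
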