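import Mathlib
import Fermat.Prelude.Def_ModularCurve_HeckeModule
import Fermat.Agent.S37.HeckeInputs
import Fermat.Agent.S37.CharpolyValue
import Fermat.Agent.S37.GaloisValue

/-!
# S37: values of the Hecke characteristic polynomial

* values of functions are compatible with restriction of places along a map of function fields;
* the Hecke multiset `T_ℓ(P)` of a place `P` of `F_N` over `ℚ̄`: the places `W|α` for the places
  `W` of `F_{Nℓ}` over `P` along `β`, with multiplicity `e_β(W)`; the Prelude's `heckeDivBar`
  of `[P]` is the sum of this multiset;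
* for `f : F_N` with value `a Q` at every `Q` of `T_ℓ(P)`, every coefficient of the
  characteristic polynomial of `α f` over `β(F_N)` has at `P` the value of the corresponding
  coefficient of `∏_{Q ∈ T_ℓ(P)} (X - a Q)`.
-/

set_option autoImplicit false
set_option linter.unusedSectionVars false
set_option linter.style.haveILetI false

namespace Fermat.Agent.S37

open AlgebraicCurve ModularCurve IntermediateField Polynomial

namespace HeckeValue

open GaloisValue

section Generic

variable {K F F' : Type*} [Field K] [Field F] [Field F'] [Algebra K F] [Algebra K F']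

/-- the non-units of the preimage of a valuation subring -/
theorem mem_nonunits_comap_iff (A : ValuationSubring F') (f : F →+* F') (x : F) :
    x ∈ (A.comap f).nonunits ↔ f x ∈ A.nonunits := by
  rw [ValuationSubring.mem_nonunits_iff_or, ValuationSubring.mem_nonunits_iff_or,
    ValuationSubring.mem_comap, map_inv₀, map_eq_zero]

/-- values are compatible with restriction of places: `(φ f)(W) = f(W|φ)` -/
theorem isValueAt_restrictAlong_iff (φ : F →ₐ[K] F') (hφ : φ.toRingHom.IsIntegral)
    (W : Place K F') (f : F) (c : K) :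
    IsValueAt (W.restrictAlong φ hφ) f c ↔ IsValueAt W (φ f) c := by
  letI := algebraAlong φ
  haveI := isScalarTower_along φ
  haveI := AlgebraicCurve.isIntegral_along φ hφ
  show f - algebraMap K F c ∈ (W.toValuationSubring.comap (algebraMap F F')).nonunits ↔
    φ f - algebraMap K F' c ∈ W.toValuationSubring.nonunits
  rw [mem_nonunits_comap_iff]
  have h : algebraMap F F' (f - algebraMap K F c) = φ f - algebraMap K F' c := by
    show φ (f - algebraMap K F c) = _
    rw [map_sub, AlgHom.commutes]
  rw [h]

/-- a function regular at a place of degree one has a value there -/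
theorem exists_isValueAt (v : Place K F) (hdeg : v.deg = 1) (u : F)
    (hu : u ∈ v.toValuationSubring) : ∃ a : K, IsValueAt v u a := by
  have hbij := (Algebra.finrank_eq_one_iff_bijective_algebraMap (F := K)
    (E := v.ResidueField)).mp hdeg
  obtain ⟨c, hc⟩ := hbij.2 (IsLocalRing.residue v.toValuationSubring ⟨u, hu⟩)
  refine ⟨c, ?_⟩
  show u - algebraMap K F c ∈ v.toValuationSubring.nonunits
  have h1 : u - algebraMap K F c =
      (((⟨u, hu⟩ : v.toValuationSubring) - algebraMap K v.toValuationSubring c :
        v.toValuationSubring) : F) := rfl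
  rw [h1, ValuationSubring.coe_mem_nonunits_iff, ← IsLocalRing.residue_eq_zero_iff, map_sub,
    sub_eq_zero]
  exact hc.symm

end Generic

section Modular

local notation "L" => AlgebraicClosure ℚ

variable (N ℓ : ℕ) [NeZero N] [NeZero ℓ]

-- over the concrete function fields the default search for `Module.Free` is slow
attribute [local instance 10000] Module.Free.of_divisionRing

/-- **Value of the characteristic polynomial over `β(F_N)`**: if `g : F_{Nℓ}` has the value
`a W` at every place `W` over `P` along `β`, then the `i`-th coefficient of the characteristic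
polynomial of `g` over `F_N` (structure along `β`) has at `P` the value of the `i`-th
coefficient of `∏_{W ∣ P} (X - a W) ^ e_β(W)`. -/
theorem charpoly_beta_coeff_isValueAt (hβ : HeckeBetaBarIntegral L N ℓ)
    (hfin : FiniteAlong L (heckeBetaBar L N ℓ))
    (P : Place L (modularFunctionFieldBar N)) (g : modularFunctionFieldBar (N * ℓ))
    (a : Place L (modularFunctionFieldBar (N * ℓ)) → L)
    (ha : ∀ W ∈ Place.fiberAlong (heckeBetaBar L N ℓ) hβ P, IsValueAt W g (a W)) (i : ℕ) :
    IsValueAt P
      ((letI := algebraAlong (heckeBetaBar L N ℓ)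
        haveI : Module.Finite (modularFunctionFieldBar N) (modularFunctionFieldBar (N * ℓ)) :=
          hfin
        (LinearMap.mulLeft (modularFunctionFieldBar N) g).charpoly).coeff i)
      ((∏ W ∈ Place.fiberAlong (heckeBetaBar L N ℓ) hβ P,
        (X - C (a W)) ^ W.ramificationIndexAlong (heckeBetaBar L N ℓ)).coeff i) := by
  obtain ⟨hx, hfd⟩ := S18.Witness.bar_transcendental_finite N
  obtain ⟨hx', hfd'⟩ := S18.Witness.bar_transcendental_finite (N * ℓ)
  exact CharpolyValue.charpoly_coeff_value_along (heckeBetaBar L N ℓ) _ hx _ hx' hβ hfin P g a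
    ha i

/-- the Hecke multiset `T_ℓ(P)` of a place `P`: the places `W|α`, for `W` over `P` along `β`,
with multiplicity `e_β(W)` -/
noncomputable def heckeMultiset (hα : HeckeAlphaBarIntegral L N ℓ)
    (hβ : HeckeBetaBarIntegral L N ℓ) (P : Place L (modularFunctionFieldBar N)) :
    Multiset (Place L (modularFunctionFieldBar N)) :=
  ∑ W ∈ Place.fiberAlong (heckeBetaBar L N ℓ) hβ P,
    Multiset.replicate (W.ramificationIndexAlong (heckeBetaBar L N ℓ))
      (W.restrictAlong (heckeAlphaBar L N ℓ) hα)

theorem ramificationIndexAlong_beta_pos (hβ : HeckeBetaBarIntegral L N ℓ)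
    (W : Place L (modularFunctionFieldBar (N * ℓ))) :
    0 < W.ramificationIndexAlong (heckeBetaBar L N ℓ) := by
  letI := algebraAlong (heckeBetaBar L N ℓ)
  haveI := isScalarTower_along (heckeBetaBar L N ℓ)
  haveI := AlgebraicCurve.isIntegral_along (heckeBetaBar L N ℓ) hβ
  exact W.ramificationIndex_pos

theorem mem_heckeMultiset (hα : HeckeAlphaBarIntegral L N ℓ) (hβ : HeckeBetaBarIntegral L N ℓ)
    (P Q : Place L (modularFunctionFieldBar N)) :
    Q ∈ heckeMultiset N ℓ hα hβ P ↔
      ∃ W ∈ Place.fiberAlong (heckeBetaBar L N ℓ) hβ P,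
        W.restrictAlong (heckeAlphaBar L N ℓ) hα = Q := by
  classical
  rw [heckeMultiset, Multiset.mem_sum]
  constructor
  · rintro ⟨W, hW, hQ⟩
    exact ⟨W, hW, (Multiset.eq_of_mem_replicate hQ).symm⟩
  · rintro ⟨W, hW, rfl⟩
    refine ⟨W, hW, ?_⟩
    rw [Multiset.mem_replicate]
    exact ⟨(ramificationIndexAlong_beta_pos N ℓ hβ W).ne', rfl⟩

/-- `T_ℓ [P]` (the Prelude's `heckeDivBar`) is the sum of the Hecke multiset -/
theorem heckeDivBar_single_eq_sum (hα : HeckeAlphaBarIntegral L N ℓ)
    (hβ : HeckeBetaBarIntegral L N ℓ) (P : Place L (modularFunctionFieldBar N)) :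
    heckeDivBar hα hβ (Finsupp.single P 1) =
      ((heckeMultiset N ℓ hα hβ P).map (fun Q => Finsupp.single Q (1 : ℤ))).sum := by
  rw [HeckeInputs.heckeDivBar_single, heckeMultiset,
    ← Multiset.coe_mapAddMonoidHom, map_sum, Multiset.sum_sum]
  refine Finset.sum_congr rfl fun W _ => ?_
  rw [Multiset.coe_mapAddMonoidHom, Multiset.map_replicate, Multiset.sum_replicate,
    Finsupp.smul_single, one_mul, nsmul_eq_mul, mul_one]

theorem card_sum_replicate {ι α : Type*} (s : Finset ι) (e : ι → ℕ) (q : ι → α) :
    (∑ W ∈ s, Multiset.replicate (e W) (q W)).card = ∑ W ∈ s, e W := by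
  rw [Multiset.card_sum]
  simp

/-- the Hecke multiset has `[F_{Nℓ} : β(F_N)]` elements -/
theorem card_heckeMultiset (hα : HeckeAlphaBarIntegral L N ℓ) (hβ : HeckeBetaBarIntegral L N ℓ)
    (P : Place L (modularFunctionFieldBar N)) :
    (heckeMultiset N ℓ hα hβ P).card = finrankAlong L (heckeBetaBar L N ℓ) := by
  have hFI : FundamentalIdentityAlong L (heckeBetaBar L N ℓ) hβ :=
    HeckeInputs.betaFundamentalIdentity N ℓ
  have hsum : (∑ W ∈ Place.fiberAlong (heckeBetaBar L N ℓ) hβ P,
      W.ramificationIndexAlong (heckeBetaBar L N ℓ) : ℕ) =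
        finrankAlong L (heckeBetaBar L N ℓ) := by
    letI := algebraAlong (heckeBetaBar L N ℓ)
    haveI := isScalarTower_along (heckeBetaBar L N ℓ)
    haveI := AlgebraicCurve.isIntegral_along (heckeBetaBar L N ℓ) hβ
    have h := FundamentalIdentity.sum_ramificationIndex_mul_deg (self := hFI) P
    have h1 : ∀ w : Place L (modularFunctionFieldBar (N * ℓ)), (w.deg : ℤ) = 1 := fun w => by
      rw [S18.Witness.bar_deg_eq_one (N * ℓ) w]; rfl
    have h0 : (P.deg : ℤ) = 1 := by rw [S18.Witness.bar_deg_eq_one N P]; rfl
    simp only [h1, h0, mul_one] at h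
    exact_mod_cast h
  exact (card_sum_replicate _ _ _).trans hsum

/-- **Value of the Hecke characteristic polynomial**: if `f : F_N` has the value `a Q` at every
place `Q` of the Hecke multiset `T_ℓ(P)`, then the `i`-th coefficient of the characteristic
polynomial of `α f` over `β(F_N)` has at `P` the value of the `i`-th coefficient of
`∏_{Q ∈ T_ℓ(P)} (X - a Q)`. -/
theorem charpoly_alpha_coeff_isValueAt (hα : HeckeAlphaBarIntegral L N ℓ)
    (hβ : HeckeBetaBarIntegral L N ℓ) (hfin : FiniteAlong L (heckeBetaBar L N ℓ))
    (P : Place L (modularFunctionFieldBar N)) (f : modularFunctionFieldBar N)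
    (a : Place L (modularFunctionFieldBar N) → L)
    (ha : ∀ Q ∈ heckeMultiset N ℓ hα hβ P, IsValueAt Q f (a Q)) (i : ℕ) :
    IsValueAt P
      ((letI := algebraAlong (heckeBetaBar L N ℓ)
        haveI : Module.Finite (modularFunctionFieldBar N) (modularFunctionFieldBar (N * ℓ)) :=
          hfin
        (LinearMap.mulLeft (modularFunctionFieldBar N)
          (heckeAlphaBar L N ℓ f)).charpoly).coeff i)
      ((((heckeMultiset N ℓ hα hβ P).map (fun Q => X - C (a Q))).prod).coeff i) := by
  have key := charpoly_beta_coeff_isValueAt N ℓ hβ hfin P (heckeAlphaBar L N ℓ f)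
    (fun W => a (W.restrictAlong (heckeAlphaBar L N ℓ) hα)) (fun W hW => by
      rw [← isValueAt_restrictAlong_iff (heckeAlphaBar L N ℓ) hα]
      exact ha _ ((mem_heckeMultiset N ℓ hα hβ P _).mpr ⟨W, hW, rfl⟩)) i
  have hprod : ((heckeMultiset N ℓ hα hβ P).map (fun Q => X - C (a Q))).prod =
      ∏ W ∈ Place.fiberAlong (heckeBetaBar L N ℓ) hβ P,
        (X - C (a (W.restrictAlong (heckeAlphaBar L N ℓ) hα))) ^
          W.ramificationIndexAlong (heckeBetaBar L N ℓ) := by
    rw [heckeMultiset, ← Multiset.coe_mapAddMonoidHom, map_sum, Multiset.prod_sum]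
    refine Finset.prod_congr rfl fun W _ => ?_
    rw [Multiset.coe_mapAddMonoidHom, Multiset.map_replicate, Multiset.prod_replicate]
  rw [hprod]
  exact key

end Modular

end HeckeValue

end Fermat.Agent.S37
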