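import Mathlib

/-!
# S37, package W1 (b): separation of finite multisets of ring homomorphisms by their values

Two finite multisets of ring homomorphisms `B → k` into a field which give the same multiset of
values on every element of `B` coincide, provided the constants of `k` can be hit uniformly
(e.g. homomorphisms of `A`-algebras with `A → k` surjective).
-/

set_option autoImplicit false

namespace Fermat.Agent.S37.Separation

variable {B k : Type*} [CommRing B] [Field k]

/-- **Separation lemma, ring-hom form.** -/
theorem multiset_eq_of_map_eq (s t : Multiset (B →+* k))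
    (hconst : ∀ c : k, ∃ a : B, (∀ χ ∈ s, χ a = c) ∧ (∀ χ ∈ t, χ a = c))
    (h : ∀ f : B, s.map (fun χ => χ f) = t.map (fun χ => χ f)) : s = t := by
  classical
  ext χ
  by_cases hχ : χ ∈ s + t
  swap
  · rw [Multiset.mem_add, not_or] at hχ
    rw [Multiset.count_eq_zero_of_notMem hχ.1, Multiset.count_eq_zero_of_notMem hχ.2]
  -- the other homomorphisms
  set U : Finset (B →+* k) := (s + t).toFinset.erase χ with hU
  have hsep : ∀ χ' : B →+* k, χ' ≠ χ → ∃ f : B, χ f ≠ χ' f := by
    intro χ' hne
    by_contra hall
    push Not at hall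
    exact hne (RingHom.ext fun f => (hall f).symm)
  -- for each other homomorphism choose a separating element and a constant
  have hchoice : ∀ χ' : B →+* k, ∃ g : B, χ' ∈ U → (χ' g = 0 ∧ χ g ≠ 0) := by
    intro χ'
    by_cases hmem : χ' ∈ U
    · have hne : χ' ≠ χ := (Finset.mem_erase.mp hmem).1
      have hmem' : χ' ∈ s + t := Multiset.mem_toFinset.mp (Finset.mem_erase.mp hmem).2
      obtain ⟨f, hf⟩ := hsep χ' hne
      obtain ⟨a, has, hat⟩ := hconst (χ' f)
      have hall : ∀ ψ ∈ s + t, ψ a = χ' f := by
        intro ψ hψ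
        rcases Multiset.mem_add.mp hψ with h1 | h1
        · exact has ψ h1
        · exact hat ψ h1
      refine ⟨f - a, fun _ => ⟨?_, ?_⟩⟩
      · rw [map_sub, hall χ' hmem', sub_self]
      · rw [map_sub, hall χ hχ]
        exact sub_ne_zero.mpr hf
    · exact ⟨0, fun h => absurd h hmem⟩
  choose g hg using hchoice
  set e : B := ∏ χ' ∈ U, g χ' with he
  have he0 : ∀ χ' ∈ U, χ' e = 0 := by
    intro χ' hχ'
    rw [he, map_prod]
    exact Finset.prod_eq_zero hχ' (hg χ' hχ').1
  have heχ : χ e ≠ 0 := by
    rw [he, map_prod]
    exact Finset.prod_ne_zero_iff.mpr fun χ' hχ' => (hg χ' hχ').2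
  -- count the value `χ e`
  have hcount : ∀ m : Multiset (B →+* k), m ≤ s + t →
      Multiset.count (χ e) (m.map (fun ψ => ψ e)) = Multiset.count χ m := by
    intro m hm
    rw [Multiset.count_map, Multiset.count_eq_card_filter_eq]
    congr 1
    apply Multiset.filter_congr
    intro ψ hψ
    constructor
    · intro h1
      by_contra hne
      have hψU : ψ ∈ U := by
        rw [hU, Finset.mem_erase]
        exact ⟨fun h2 => hne h2.symm, Multiset.mem_toFinset.mpr (Multiset.mem_of_le hm hψ)⟩
      rw [he0 ψ hψU] at h1
      exact heχ h1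
    · intro h1
      rw [h1]
  rw [← hcount s (Multiset.le_add_right s t), ← hcount t (Multiset.le_add_left t s), h e]

/-- **Separation lemma, algebra-hom form**: `A → k` surjective, homomorphisms of `A`-algebras. -/
theorem multiset_algHom_eq_of_map_eq {A : Type*} [CommRing A] [Algebra A B] [Algebra A k]
    (hA : Function.Surjective (algebraMap A k)) (s t : Multiset (B →ₐ[A] k))
    (h : ∀ f : B, s.map (fun χ => χ f) = t.map (fun χ => χ f)) : s = t := by
  classical
  have hinj : Function.Injective (fun χ : B →ₐ[A] k => (χ : B →+* k)) := by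
    intro χ ψ hχψ
    apply AlgHom.ext
    intro f
    exact congrArg (fun φ : B →+* k => φ f) hχψ
  apply Multiset.map_injective hinj
  apply multiset_eq_of_map_eq
  · intro c
    obtain ⟨a, rfl⟩ := hA c
    refine ⟨algebraMap A B a, ?_, ?_⟩ <;>
    · intro χ hχ
      obtain ⟨ψ, -, rfl⟩ := Multiset.mem_map.mp hχ
      exact ψ.commutes a
  · intro f
    rw [Multiset.map_map, Multiset.map_map]
    exact h f

end Fermat.Agent.S37.Separation
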