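import Mathlib
import Fermat.Prelude.Def_ModularCurve_HeckeModule
import Fermat.Agent.S37.GaloisValue
import Fermat.Agent.S37.Separation

/-!
# S37, (K-b): the multiset centre lemma

`A` a valuation subring of the constant field `K`, `B` a ring of functions of `F` containing the
constants of `A`, `Pl` a class of places at which every element of `B` has a value in `A`.
Two places of the class have the *same centre* if the values of every `f ∈ B` at them are
congruent modulo the maximal ideal of `A`.

`sum_single_sub_mem`: if two finite multisets `M₁`, `M₂` of such places satisfy, for every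
`f ∈ B`, the congruence `∏_{Q ∈ M₁} (X - f(Q)) ≡ ∏_{Q ∈ M₂} (X - f(Q))` modulo the maximal ideal
of `A`, then `∑_{Q ∈ M₁} [Q] - ∑_{Q ∈ M₂} [Q]` lies in the subgroup of divisors generated by the
differences `[Q] - [Q']` of places with the same centre.
-/

set_option autoImplicit false

namespace Fermat.Agent.S37.KB

open AlgebraicCurve Polynomial Fermat.Agent.S37.GaloisValue

noncomputable section

variable {K F : Type*} [Field K] [Field F] [Algebra K F]

/-- Same centre with respect to a ring `B` of functions and a class `Pl` of places. -/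
def SameCentreGen (A : ValuationSubring K) (B : Subring F) (Pl : Place K F → Prop)
    (Q Q' : Place K F) : Prop :=
  Pl Q ∧ Pl Q' ∧ ∀ f ∈ B, ∀ c c' : K, IsValueAt Q f c → IsValueAt Q' f c' →
    A.valuation (c - c') < 1

/-- The subgroup of divisors generated by the differences of places with the same centre. -/
def centreGen (A : ValuationSubring K) (B : Subring F) (Pl : Place K F → Prop) :
    AddSubgroup (Divisor K F) :=
  AddSubgroup.closure {D | ∃ Q Q' : Place K F, SameCentreGen A B Pl Q Q' ∧
    D = Finsupp.single Q 1 - Finsupp.single Q' 1}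

theorem single_sub_single_mem_centreGen {A : ValuationSubring K} {B : Subring F}
    {Pl : Place K F → Prop} {Q Q' : Place K F} (h : SameCentreGen A B Pl Q Q') :
    (Finsupp.single Q 1 - Finsupp.single Q' 1 : Divisor K F) ∈ centreGen A B Pl :=
  AddSubgroup.subset_closure ⟨Q, Q', h, rfl⟩

/-- The value of `f ∈ B` at a place of the class, as an element of `A`. -/
def valA (A : ValuationSubring K) (B : Subring F) (Pl : Place K F → Prop)
    (hval : ∀ f ∈ B, ∀ Q, Pl Q → ∃ c : K, c ∈ A ∧ IsValueAt Q f c)
    (f : B) (Q : Place K F) (hQ : Pl Q) : A :=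
  ⟨Classical.choose (hval f.1 f.2 Q hQ), (Classical.choose_spec (hval f.1 f.2 Q hQ)).1⟩

theorem valA_spec (A : ValuationSubring K) (B : Subring F) (Pl : Place K F → Prop)
    (hval : ∀ f ∈ B, ∀ Q, Pl Q → ∃ c : K, c ∈ A ∧ IsValueAt Q f c)
    (f : B) (Q : Place K F) (hQ : Pl Q) :
    IsValueAt Q (f : F) (valA A B Pl hval f Q hQ : K) :=
  (Classical.choose_spec (hval f.1 f.2 Q hQ)).2

theorem valA_eq (A : ValuationSubring K) (B : Subring F) (Pl : Place K F → Prop)
    (hval : ∀ f ∈ B, ∀ Q, Pl Q → ∃ c : K, c ∈ A ∧ IsValueAt Q f c)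
    (f : B) (Q : Place K F) (hQ : Pl Q) {c : K} (hc : IsValueAt Q (f : F) c) :
    (valA A B Pl hval f Q hQ : K) = c :=
  (valA_spec A B Pl hval f Q hQ).unique hc

/-- The character `B → A/𝔪_A` of a place of the class: `f ↦ f(Q) mod 𝔪_A`. -/
def chi (A : ValuationSubring K) (B : Subring F) (Pl : Place K F → Prop)
    (hval : ∀ f ∈ B, ∀ Q, Pl Q → ∃ c : K, c ∈ A ∧ IsValueAt Q f c)
    (Q : Place K F) (hQ : Pl Q) : B →+* IsLocalRing.ResidueField A where
  toFun f := IsLocalRing.residue A (valA A B Pl hval f Q hQ)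
  map_one' := by
    have h : valA A B Pl hval 1 Q hQ = 1 := by
      apply Subtype.ext
      apply valA_eq
      have := isValueAt_algebraMap Q (1 : K)
      simpa using this
    rw [h, map_one]
  map_mul' f g := by
    have h : valA A B Pl hval (f * g) Q hQ
        = valA A B Pl hval f Q hQ * valA A B Pl hval g Q hQ := by
      apply Subtype.ext
      apply valA_eq
      exact (valA_spec A B Pl hval f Q hQ).mul (valA_spec A B Pl hval g Q hQ)
    rw [h, map_mul]
  map_zero' := by
    have h : valA A B Pl hval 0 Q hQ = 0 := by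
      apply Subtype.ext
      apply valA_eq
      have := isValueAt_algebraMap Q (0 : K)
      simpa using this
    rw [h, map_zero]
  map_add' f g := by
    have h : valA A B Pl hval (f + g) Q hQ
        = valA A B Pl hval f Q hQ + valA A B Pl hval g Q hQ := by
      apply Subtype.ext
      apply valA_eq
      exact (valA_spec A B Pl hval f Q hQ).add (valA_spec A B Pl hval g Q hQ)
    rw [h, map_add]

theorem chi_apply (A : ValuationSubring K) (B : Subring F) (Pl : Place K F → Prop)
    (hval : ∀ f ∈ B, ∀ Q, Pl Q → ∃ c : K, c ∈ A ∧ IsValueAt Q f c)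
    (Q : Place K F) (hQ : Pl Q) (f : B) :
    chi A B Pl hval Q hQ f = IsLocalRing.residue A (valA A B Pl hval f Q hQ) := rfl

/-- Equal characters: same centre. -/
theorem sameCentreGen_of_chi_eq (A : ValuationSubring K) (B : Subring F) (Pl : Place K F → Prop)
    (hval : ∀ f ∈ B, ∀ Q, Pl Q → ∃ c : K, c ∈ A ∧ IsValueAt Q f c)
    {Q Q' : Place K F} (hQ : Pl Q) (hQ' : Pl Q')
    (h : chi A B Pl hval Q hQ = chi A B Pl hval Q' hQ') : SameCentreGen A B Pl Q Q' := by
  refine ⟨hQ, hQ', fun f hf c c' hc hc' => ?_⟩
  have h1 := congrArg (fun χ : B →+* IsLocalRing.ResidueField A => χ ⟨f, hf⟩) h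
  simp only [chi_apply] at h1
  rw [← sub_eq_zero, ← map_sub, IsLocalRing.residue_eq_zero_iff,
    ValuationSubring.valuation_lt_one_iff] at h1
  have e1 := valA_eq A B Pl hval ⟨f, hf⟩ Q hQ hc
  have e2 := valA_eq A B Pl hval ⟨f, hf⟩ Q' hQ' hc'
  rw [AddSubgroupClass.coe_sub, e1, e2] at h1
  exact h1

/-- The sum of the point divisors of a multiset of places. -/
def divOf (M : Multiset (Place K F)) : Divisor K F :=
  (M.map fun Q => (Finsupp.single Q 1 : Divisor K F)).sum

@[simp] theorem divOf_zero : divOf (0 : Multiset (Place K F)) = 0 := by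
  simp [divOf]

@[simp] theorem divOf_cons (Q : Place K F) (M : Multiset (Place K F)) :
    divOf (Q ::ₘ M) = Finsupp.single Q 1 + divOf M := by
  simp [divOf]

theorem divOf_add (M M' : Multiset (Place K F)) : divOf (M + M') = divOf M + divOf M' := by
  simp [divOf]

theorem divOf_nsmul (n : ℕ) (M : Multiset (Place K F)) : divOf (n • M) = n • divOf M := by
  induction n with
  | zero => simp
  | succ n ih => rw [succ_nsmul, divOf_add, ih, succ_nsmul]

theorem divOf_singleton (Q : Place K F) : divOf ({Q} : Multiset (Place K F)) = Finsupp.single Q 1 := by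
  simp [divOf]

/-- **The multiset centre lemma.** -/
theorem sum_single_sub_mem (A : ValuationSubring K) (B : Subring F)
    (hconst : ∀ a : K, a ∈ A → algebraMap K F a ∈ B)
    (Pl : Place K F → Prop)
    (hval : ∀ f ∈ B, ∀ Q, Pl Q → ∃ c : K, c ∈ A ∧ IsValueAt Q f c)
    (M₁ M₂ : Multiset (Place K F)) (h1 : ∀ Q ∈ M₁, Pl Q) (h2 : ∀ Q ∈ M₂, Pl Q)
    (hpoly : ∀ f ∈ B, ∀ a : Place K F → K, (∀ Q, Pl Q → a Q ∈ A ∧ IsValueAt Q f (a Q)) →
      ∀ i : ℕ, A.valuation (((M₁.map fun Q => X - C (a Q)).prod).coeff i
          - ((M₂.map fun Q => X - C (a Q)).prod).coeff i) < 1) :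
    divOf M₁ - divOf M₂ ∈ centreGen A B Pl := by
  classical
  -- a default place of the class
  by_cases hne : ∃ Q₀, Pl Q₀
  swap
  · have e1 : M₁ = 0 := Multiset.eq_zero_of_forall_notMem fun Q hQ => hne ⟨Q, h1 Q hQ⟩
    have e2 : M₂ = 0 := Multiset.eq_zero_of_forall_notMem fun Q hQ => hne ⟨Q, h2 Q hQ⟩
    rw [e1, e2, divOf_zero, sub_zero]
    exact (centreGen A B Pl).zero_mem
  obtain ⟨Q₀, hQ₀⟩ := hne
  -- total characters
  set Xc : Place K F → (B →+* IsLocalRing.ResidueField A) := fun Q =>
    if h : Pl Q then chi A B Pl hval Q h else chi A B Pl hval Q₀ hQ₀ with hXc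
  have hXc_pl : ∀ Q (h : Pl Q), Xc Q = chi A B Pl hval Q h := fun Q h => by
    rw [hXc]; exact dif_pos h
  -- equality of the value multisets
  have hmaps : ∀ f : B, (M₁.map Xc).map (fun χ => χ f) = (M₂.map Xc).map (fun χ => χ f) := by
    intro f
    set aA : Place K F → A := fun Q => if h : Pl Q then valA A B Pl hval f Q h else 0 with haA
    have haA_pl : ∀ Q (h : Pl Q), aA Q = valA A B Pl hval f Q h := fun Q h => by
      rw [haA]; exact dif_pos h
    have hspec : ∀ Q, Pl Q → (aA Q : K) ∈ A ∧ IsValueAt Q (f : F) (aA Q : K) := fun Q h =>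
      ⟨(aA Q).2, by rw [haA_pl Q h]; exact valA_spec A B Pl hval f Q h⟩
    have hp := hpoly f.1 f.2 (fun Q => (aA Q : K)) hspec
    -- polynomials over `A`
    set p₁ : Polynomial A := (M₁.map fun Q => X - C (aA Q)).prod with hp₁
    set p₂ : Polynomial A := (M₂.map fun Q => X - C (aA Q)).prod with hp₂
    have hmapK : ∀ M : Multiset (Place K F),
        ((M.map fun Q => X - C (aA Q)).prod : Polynomial A).map A.subtype
          = (M.map fun Q => X - C ((aA Q : K))).prod := by
      intro M
      rw [Polynomial.map_multiset_prod, Multiset.map_map]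
      congr 1
      apply Multiset.map_congr rfl
      intro Q _
      simp
    have hmapk : ∀ M : Multiset (Place K F),
        ((M.map fun Q => X - C (aA Q)).prod : Polynomial A).map (IsLocalRing.residue A)
          = ((M.map fun Q => IsLocalRing.residue A (aA Q)).map fun c => X - C c).prod := by
      intro M
      rw [Polynomial.map_multiset_prod, Multiset.map_map, Multiset.map_map]
      congr 1
      apply Multiset.map_congr rfl
      intro Q _
      simp
    have hres : p₁.map (IsLocalRing.residue A) = p₂.map (IsLocalRing.residue A) := by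
      ext i
      rw [coeff_map, coeff_map, ← sub_eq_zero, ← map_sub, IsLocalRing.residue_eq_zero_iff,
        ValuationSubring.valuation_lt_one_iff]
      have h3 := hp i
      rw [← hmapK M₁, ← hmapK M₂, coeff_map, coeff_map] at h3
      exact h3
    have hroots : M₁.map (fun Q => IsLocalRing.residue A (aA Q))
        = M₂.map (fun Q => IsLocalRing.residue A (aA Q)) := by
      have e1 := hmapk M₁
      have e2 := hmapk M₂
      rw [← hp₁] at e1
      rw [← hp₂] at e2
      have := congrArg Polynomial.roots (e1.symm.trans (hres.trans e2))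
      rwa [roots_multiset_prod_X_sub_C, roots_multiset_prod_X_sub_C] at this
    rw [Multiset.map_map, Multiset.map_map]
    have e : ∀ M : Multiset (Place K F), (∀ Q ∈ M, Pl Q) →
        M.map ((fun χ : B →+* IsLocalRing.ResidueField A => χ f) ∘ Xc)
          = M.map (fun Q => IsLocalRing.residue A (aA Q)) := by
      intro M hM
      apply Multiset.map_congr rfl
      intro Q hQ
      simp only [Function.comp_apply]
      rw [hXc_pl Q (hM Q hQ), chi_apply, haA_pl Q (hM Q hQ)]
    rw [e M₁ h1, e M₂ h2, hroots]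
  -- separation
  have hsep : M₁.map Xc = M₂.map Xc := by
    apply Fermat.Agent.S37.Separation.multiset_eq_of_map_eq _ _ _ hmaps
    intro c
    obtain ⟨a, rfl⟩ := IsLocalRing.residue_surjective c
    have key : ∀ Q (h : Pl Q), chi A B Pl hval Q h ⟨algebraMap K F (a : K), hconst _ a.2⟩
        = IsLocalRing.residue A a := by
      intro Q h
      rw [chi_apply]
      congr 1
      apply Subtype.ext
      exact valA_eq A B Pl hval _ Q h (isValueAt_algebraMap Q (a : K))
    refine ⟨⟨algebraMap K F (a : K), hconst _ a.2⟩, ?_, ?_⟩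
    · intro χ hχ
      obtain ⟨Q, hQ, rfl⟩ := Multiset.mem_map.mp hχ
      rw [hXc_pl Q (h1 Q hQ)]
      exact key Q _
    · intro χ hχ
      obtain ⟨Q, hQ, rfl⟩ := Multiset.mem_map.mp hχ
      rw [hXc_pl Q (h2 Q hQ)]
      exact key Q _
  -- induction
  clear hmaps hpoly
  induction M₁ using Multiset.induction_on generalizing M₂ with
  | empty =>
    have e2 : M₂ = 0 := by
      rw [Multiset.map_zero] at hsep
      exact Multiset.map_eq_zero.mp hsep.symm
    rw [e2, divOf_zero, sub_zero]
    exact (centreGen A B Pl).zero_mem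
  | cons Q M ih =>
    have hQmem : Xc Q ∈ M₂.map Xc := by
      rw [← hsep, Multiset.map_cons]
      exact Multiset.mem_cons_self _ _
    obtain ⟨Q', hQ', hQQ'⟩ := Multiset.mem_map.mp hQmem
    have hM₂ : Q' ::ₘ M₂.erase Q' = M₂ := Multiset.cons_erase hQ'
    have hPlQ : Pl Q := h1 Q (Multiset.mem_cons_self _ _)
    have hPlQ' : Pl Q' := h2 Q' hQ'
    have hsep' : M.map Xc = (M₂.erase Q').map Xc := by
      rw [← hM₂, Multiset.map_cons, Multiset.map_cons, hQQ'] at hsep
      exact (Multiset.cons_inj_right _).mp hsep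
    have ih' := ih (M₂.erase Q') (fun P hP => h1 P (Multiset.mem_cons_of_mem hP))
      (fun P hP => h2 P (Multiset.mem_of_mem_erase hP)) hsep'
    have hsame : SameCentreGen A B Pl Q Q' := by
      apply sameCentreGen_of_chi_eq A B Pl hval hPlQ hPlQ'
      rw [← hXc_pl Q hPlQ, ← hXc_pl Q' hPlQ', hQQ']
    have e : divOf (Q ::ₘ M) - divOf M₂
        = (Finsupp.single Q 1 - Finsupp.single Q' 1) + (divOf M - divOf (M₂.erase Q')) := by
      rw [← hM₂, divOf_cons, divOf_cons, hM₂]
      abel
    rw [e]
    exact (centreGen A B Pl).add_mem (single_sub_single_mem_centreGen hsame) ih'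

end

end Fermat.Agent.S37.KB
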