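import Mathlib
import Fermat.Prelude.Def_ModularCurve_HeckeModule
import Fermat.Agent.S37.GaloisValue
import Fermat.Agent.S37.KBCore

/-!
# S37, (K-b): the abstract Eichler–Shimura divisor congruence

Abstract setting: function fields `F`, `F'` over `K`, two maps `α β : F →ₐ[K] F'`, a semilinear
automorphism `g` of `F` inducing a Frobenius lift on the valuation ring `A` of `K`, a chart
`(B, Pl)` (ring of functions with values in `A` at the places of the class `Pl`), and a family
`chi f ∈ F[X]` ("the characteristic polynomial of `α f` over `β F`") such that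

* (CV) the value polynomial of `chi f` at a place `v` is `∏_{W | v} (X - (α f)(W))^e(W)`;
* (KC) the coefficients of `chi f - (X - (g⁻¹ f)^ℓ) (X^ℓ - g f)` have values in `𝔪_A` at the
  places of the class.

Then for `P` in the class, `g² P - ∑_{W | g P} e(W) [W|α] + ℓ P` lies in the subgroup generated
by the differences of places with the same centre.
-/

set_option autoImplicit false
set_option linter.style.haveILetI false

namespace Fermat.Agent.S37.KB

open AlgebraicCurve Polynomial Fermat.Agent.S37.GaloisValue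

noncomputable section

/-! ### Values along a restriction -/

section Restrict

variable {K F F' : Type*} [Field K] [Field F] [Field F'] [Algebra K F] [Algebra K F']

theorem isValueAt_restrictAlong_iff (φ : F →ₐ[K] F') (hφ : φ.toRingHom.IsIntegral)
    (W : Place K F') (f : F) (c : K) :
    IsValueAt (W.restrictAlong φ hφ) f c ↔ IsValueAt W (φ f) c := by
  unfold IsValueAt
  have e : (W.restrictAlong φ hφ).toValuationSubring
      = W.toValuationSubring.comap φ.toRingHom := rfl
  rw [mem_nonunits_iff_inv_notMem, mem_nonunits_iff_inv_notMem, e, ValuationSubring.mem_comap]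
  have h1 : φ.toRingHom (f - algebraMap K F c)⁻¹ = (φ f - algebraMap K F' c)⁻¹ := by
    rw [map_inv₀, map_sub]
    congr 2
    exact φ.commutes c
  have h2 : f - algebraMap K F c = 0 ↔ φ f - algebraMap K F' c = 0 := by
    rw [← φ.commutes c, ← map_sub]
    exact (map_eq_zero_iff φ φ.toRingHom.injective).symm
  rw [h1, h2]

end Restrict

/-! ### Value polynomials -/

section ValuePoly

variable {K F : Type*} [Field K] [Field F] [Algebra K F]

theorem isValueAt_zero (v : Place K F) : IsValueAt v (0 : F) 0 := by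
  simpa using isValueAt_algebraMap v (0 : K)

theorem isValueAt_one (v : Place K F) : IsValueAt v (1 : F) 1 := by
  simpa using isValueAt_algebraMap v (1 : K)

theorem isValueAt_sum {ι : Type*} (s : Finset ι) (v : Place K F) (u : ι → F) (a : ι → K)
    (h : ∀ i ∈ s, IsValueAt v (u i) (a i)) : IsValueAt v (∑ i ∈ s, u i) (∑ i ∈ s, a i) := by
  classical
  induction s using Finset.induction_on with
  | empty => simpa using isValueAt_zero v
  | insert i s hi ih =>
    rw [Finset.sum_insert hi, Finset.sum_insert hi]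
    exact (h i (Finset.mem_insert_self i s)).add
      (ih fun j hj => h j (Finset.mem_insert_of_mem hj))

/-- `p ∈ F[X]` has the value polynomial `p' ∈ K[X]` at the place `v`. -/
def IsValuePoly (v : Place K F) (p : F[X]) (p' : K[X]) : Prop :=
  ∀ i : ℕ, IsValueAt v (p.coeff i) (p'.coeff i)

theorem IsValuePoly.C {v : Place K F} {u : F} {a : K} (h : IsValueAt v u a) :
    IsValuePoly v (C u) (C a) := by
  intro i
  rw [coeff_C, coeff_C]
  split_ifs
  · exact h
  · exact isValueAt_zero v

theorem IsValuePoly.X (v : Place K F) : IsValuePoly v (X : F[X]) (X : K[X]) := by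
  intro i
  rw [coeff_X, coeff_X]
  split_ifs
  · exact isValueAt_one v
  · exact isValueAt_zero v

theorem IsValuePoly.add {v : Place K F} {p q : F[X]} {p' q' : K[X]} (hp : IsValuePoly v p p')
    (hq : IsValuePoly v q q') : IsValuePoly v (p + q) (p' + q') := by
  intro i
  rw [coeff_add, coeff_add]
  exact (hp i).add (hq i)

theorem IsValuePoly.sub {v : Place K F} {p q : F[X]} {p' q' : K[X]} (hp : IsValuePoly v p p')
    (hq : IsValuePoly v q q') : IsValuePoly v (p - q) (p' - q') := by
  intro i
  rw [coeff_sub, coeff_sub]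
  exact (hp i).sub (hq i)

theorem IsValuePoly.mul {v : Place K F} {p q : F[X]} {p' q' : K[X]} (hp : IsValuePoly v p p')
    (hq : IsValuePoly v q q') : IsValuePoly v (p * q) (p' * q') := by
  intro i
  rw [coeff_mul, coeff_mul]
  exact isValueAt_sum _ v _ _ fun x _ => (hp x.1).mul (hq x.2)

theorem IsValuePoly.one (v : Place K F) : IsValuePoly v (1 : F[X]) (1 : K[X]) := by
  have := IsValuePoly.C (isValueAt_one v)
  simpa using this

theorem IsValuePoly.pow {v : Place K F} {p : F[X]} {p' : K[X]} (hp : IsValuePoly v p p')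
    (n : ℕ) : IsValuePoly v (p ^ n) (p' ^ n) := by
  induction n with
  | zero =>
    rw [pow_zero, pow_zero]
    exact IsValuePoly.one v
  | succ n ih =>
    rw [pow_succ, pow_succ]
    exact ih.mul hp

end ValuePoly

/-! ### Congruences of polynomials modulo the maximal ideal -/

section Cong

variable {K : Type*} [Field K] (A : ValuationSubring K)

/-- Coefficientwise congruence modulo the maximal ideal of `A`. -/
def CongMod (p q : K[X]) : Prop := ∀ i : ℕ, A.valuation (p.coeff i - q.coeff i) < 1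

theorem CongMod.symm {p q : K[X]} (h : CongMod A p q) : CongMod A q p := by
  intro i
  have := h i
  rwa [← Valuation.map_neg, neg_sub] at this

theorem CongMod.trans {p q r : K[X]} (h : CongMod A p q) (h' : CongMod A q r) :
    CongMod A p r := by
  intro i
  have e : p.coeff i - r.coeff i = (p.coeff i - q.coeff i) + (q.coeff i - r.coeff i) := by ring
  rw [e]
  exact lt_of_le_of_lt (Valuation.map_add _ _ _) (max_lt (h i) (h' i))

theorem congMod_map_iff (p q : Polynomial A) :
    CongMod A (p.map A.subtype) (q.map A.subtype) ↔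
      p.map (IsLocalRing.residue A) = q.map (IsLocalRing.residue A) := by
  constructor
  · intro h
    ext i
    rw [coeff_map, coeff_map, ← sub_eq_zero, ← map_sub, IsLocalRing.residue_eq_zero_iff,
      ValuationSubring.valuation_lt_one_iff]
    have := h i
    rwa [coeff_map, coeff_map] at this
  · intro h i
    have h1 := congrArg (fun r => r.coeff i) h
    simp only [coeff_map] at h1
    rw [← sub_eq_zero, ← map_sub, IsLocalRing.residue_eq_zero_iff,
      ValuationSubring.valuation_lt_one_iff] at h1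
    rw [coeff_map, coeff_map]
    exact h1

end Cong

/-! ### Fibre multisets -/

section Fibre

variable {K F : Type*} [Field K] [Field F] [Algebra K F]

theorem divOf_finset_sum {ι : Type*} (s : Finset ι) (e : ι → ℕ) (Q : ι → Place K F) :
    divOf (∑ W ∈ s, e W • ({Q W} : Multiset (Place K F)))
      = ∑ W ∈ s, e W • (Finsupp.single (Q W) 1 : Divisor K F) := by
  classical
  induction s using Finset.induction_on with
  | empty => simp
  | insert i s hi ih =>
    rw [Finset.sum_insert hi, Finset.sum_insert hi, divOf_add, divOf_nsmul, divOf_singleton, ih]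

theorem prod_map_finset_sum {ι R : Type*} [CommMonoid R] (s : Finset ι) (e : ι → ℕ)
    (Q : ι → Place K F) (h : Place K F → R) :
    ((∑ W ∈ s, e W • ({Q W} : Multiset (Place K F))).map h).prod = ∏ W ∈ s, h (Q W) ^ e W := by
  classical
  induction s using Finset.induction_on with
  | empty => simp
  | insert i s hi ih =>
    rw [Finset.sum_insert hi, Finset.prod_insert hi, Multiset.map_add, Multiset.prod_add, ih,
      Multiset.map_nsmul, Multiset.prod_nsmul, Multiset.map_singleton, Multiset.prod_singleton]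

theorem mem_finset_sum {ι : Type*} (s : Finset ι) (e : ι → ℕ) (Q : ι → Place K F)
    {P : Place K F} (hP : P ∈ ∑ W ∈ s, e W • ({Q W} : Multiset (Place K F))) :
    ∃ W ∈ s, P = Q W := by
  classical
  induction s using Finset.induction_on with
  | empty => simp at hP
  | insert i s hi ih =>
    rw [Finset.sum_insert hi, Multiset.mem_add] at hP
    rcases hP with hP | hP
    · refine ⟨i, Finset.mem_insert_self i s, ?_⟩
      have := Multiset.mem_of_mem_nsmul hP
      exact Multiset.mem_singleton.mp this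
    · obtain ⟨W, hW, rfl⟩ := ih hP
      exact ⟨W, Finset.mem_insert_of_mem hW, rfl⟩

end Fibre

/-! ### The abstract congruence and the divisor statement -/

section Main

variable {K F F' : Type*} [Field K] [Field F] [Field F'] [Algebra K F] [Algebra K F']
  [HasPrincipalDivisors K F']

/-- **The Kronecker congruence of the value polynomials over a fibre.** -/
theorem congMod_fibre (A : ValuationSubring K) (ℓ : ℕ) [Fact ℓ.Prime]
    [CharP (IsLocalRing.ResidueField A) ℓ]
    (α β : F →ₐ[K] F') (hβ : β.toRingHom.IsIntegral) (g : SemilinearAut K F)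
    (hgFrob : ∀ x : K, x ∈ A → A.valuation (SemilinearAut.baseAut g x - x ^ ℓ) < 1)
    (B : Subring F) (Pl : Place K F → Prop)
    (hval : ∀ f ∈ B, ∀ Q, Pl Q → ∃ c : K, c ∈ A ∧ IsValueAt Q f c)
    (hgB' : ∀ f ∈ B, g⁻¹ • f ∈ B) (hgPl : ∀ Q, Pl Q → Pl (g • Q))
    (chi : F → F[X])
    (hCV : ∀ (v : Place K F) (f : F) (a : Place K F' → K),
      (∀ W ∈ Place.fiberAlong β hβ v, IsValueAt W (α f) (a W)) →
      ∀ i : ℕ, IsValueAt v ((chi f).coeff i)
        ((∏ W ∈ Place.fiberAlong β hβ v, (X - C (a W)) ^ W.ramificationIndexAlong β).coeff i))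
    (hKC : ∀ f ∈ B, ∀ (i : ℕ) (Q : Place K F), Pl Q → ∃ c : K, A.valuation c < 1 ∧
      IsValueAt Q ((chi f).coeff i
        - ((X - C ((g⁻¹ • f) ^ ℓ)) * (X ^ ℓ - C (g • f)) : F[X]).coeff i) c)
    (P : Place K F) (hP : Pl P) (f : F) (hf : f ∈ B) (a : Place K F' → K)
    (ha : ∀ W ∈ Place.fiberAlong β hβ (g • P), IsValueAt W (α f) (a W))
    (c₀ c₁ : K) (hc₀ : IsValueAt (g • g • P) f c₀) (hc₁ : IsValueAt P f c₁) :
    CongMod A
      (∏ W ∈ Place.fiberAlong β hβ (g • P), (X - C (a W)) ^ W.ramificationIndexAlong β)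
      ((X - C c₀) * (X - C c₁) ^ ℓ) := by
  have hv : Pl (g • P) := hgPl P hP
  -- the values of `g⁻¹ f` and `g f` at `g P`
  obtain ⟨b₀, hb₀A, hb₀⟩ := hval (g⁻¹ • f) (hgB' f hf) (g • P) hv
  have hc₀' : IsValueAt (g • g • P) f (SemilinearAut.baseAut g b₀) := hb₀.of_inv_smul g
  have hc₀eq : c₀ = SemilinearAut.baseAut g b₀ := hc₀.unique hc₀'
  obtain ⟨c₁', hc₁A, hc₁'⟩ := hval f hf P hP
  have hc₁A : c₁ ∈ A := by rw [hc₁.unique hc₁']; exact hc₁A
  have hb₁ : IsValueAt (g • P) (g • f) (SemilinearAut.baseAut g c₁) := hc₁.smul g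
  set b₁ : K := SemilinearAut.baseAut g c₁ with hb₁def
  -- the model polynomial
  set δ : K[X] := (X - C (b₀ ^ ℓ)) * (X ^ ℓ - C b₁) with hδ
  have hδval : IsValuePoly (g • P) ((X - C ((g⁻¹ • f) ^ ℓ)) * (X ^ ℓ - C (g • f)) : F[X]) δ :=
    ((IsValuePoly.X _).sub (IsValuePoly.C (hb₀.pow ℓ))).mul
      (((IsValuePoly.X _).pow ℓ).sub (IsValuePoly.C hb₁))
  -- step 1: fibre polynomial ≡ model polynomial
  have h1 : CongMod A
      (∏ W ∈ Place.fiberAlong β hβ (g • P), (X - C (a W)) ^ W.ramificationIndexAlong β) δ := by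
    intro i
    obtain ⟨c, hc, hcval⟩ := hKC f hf i (g • P) hv
    have h2 := (hCV (g • P) f a ha i).sub (hδval i)
    rw [← hcval.unique h2]
    exact hc
  -- step 2: model polynomial ≡ (X - c₀) (X - c₁)^ℓ
  have hc₀A : c₀ ∈ A := by
    have h3 := hgFrob b₀ hb₀A
    have h4 : A.valuation (SemilinearAut.baseAut g b₀ - b₀ ^ ℓ) ≤ 1 := h3.le
    rw [A.valuation_le_one_iff] at h4
    have h5 := A.add_mem _ _ h4 (pow_mem hb₀A ℓ)
    rw [sub_add_cancel] at h5
    rw [hc₀eq]
    exact h5
  have hb₁A : b₁ ∈ A := by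
    have h3 := hgFrob c₁ hc₁A
    have h4 : A.valuation (SemilinearAut.baseAut g c₁ - c₁ ^ ℓ) ≤ 1 := h3.le
    rw [A.valuation_le_one_iff] at h4
    have h5 := A.add_mem _ _ h4 (pow_mem hc₁A ℓ)
    rw [sub_add_cancel] at h5
    exact h5
  have h2 : CongMod A δ ((X - C c₀) * (X - C c₁) ^ ℓ) := by
    set δA : Polynomial A := (X - C (⟨b₀, hb₀A⟩ ^ ℓ)) * (X ^ ℓ - C ⟨b₁, hb₁A⟩) with hδA
    set τA : Polynomial A := (X - C ⟨c₀, hc₀A⟩) * (X - C ⟨c₁, hc₁A⟩) ^ ℓ with hτA
    have e1 : δA.map A.subtype = δ := by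
      rw [hδA, hδ]
      simp [Polynomial.map_mul, Polynomial.map_sub, Polynomial.map_pow]
    have e2 : τA.map A.subtype = (X - C c₀) * (X - C c₁) ^ ℓ := by
      rw [hτA]
      simp [Polynomial.map_mul, Polynomial.map_sub, Polynomial.map_pow]
    rw [← e1, ← e2, congMod_map_iff]
    have r0 : IsLocalRing.residue A (⟨b₀, hb₀A⟩ ^ ℓ) = IsLocalRing.residue A ⟨c₀, hc₀A⟩ := by
      rw [eq_comm, ← sub_eq_zero, ← map_sub, IsLocalRing.residue_eq_zero_iff,
        ValuationSubring.valuation_lt_one_iff]
      have h3 := hgFrob b₀ hb₀A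
      rw [← hc₀eq] at h3
      exact h3
    have r1 : IsLocalRing.residue A ⟨b₁, hb₁A⟩ = IsLocalRing.residue A (⟨c₁, hc₁A⟩ ^ ℓ) := by
      rw [← sub_eq_zero, ← map_sub, IsLocalRing.residue_eq_zero_iff,
        ValuationSubring.valuation_lt_one_iff]
      exact hgFrob c₁ hc₁A
    rw [hδA, hτA]
    simp only [Polynomial.map_mul, Polynomial.map_sub, Polynomial.map_pow, Polynomial.map_X,
      Polynomial.map_C]
    rw [r0, r1, sub_pow_char, map_pow (IsLocalRing.residue A), Polynomial.C_pow]
  exact h1.trans A h2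

/-- **The abstract (K-b).** -/
theorem hecke_mem_centreGen (A : ValuationSubring K) (ℓ : ℕ) [Fact ℓ.Prime]
    [CharP (IsLocalRing.ResidueField A) ℓ]
    (α β : F →ₐ[K] F') (hα : α.toRingHom.IsIntegral) (hβ : β.toRingHom.IsIntegral)
    (g : SemilinearAut K F)
    (hgFrob : ∀ x : K, x ∈ A → A.valuation (SemilinearAut.baseAut g x - x ^ ℓ) < 1)
    (B : Subring F) (hconst : ∀ a : K, a ∈ A → algebraMap K F a ∈ B) (Pl : Place K F → Prop)
    (hval : ∀ f ∈ B, ∀ Q, Pl Q → ∃ c : K, c ∈ A ∧ IsValueAt Q f c)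
    (hgB' : ∀ f ∈ B, g⁻¹ • f ∈ B) (hgPl : ∀ Q, Pl Q → Pl (g • Q))
    (chi : F → F[X])
    (hCV : ∀ (v : Place K F) (f : F) (a : Place K F' → K),
      (∀ W ∈ Place.fiberAlong β hβ v, IsValueAt W (α f) (a W)) →
      ∀ i : ℕ, IsValueAt v ((chi f).coeff i)
        ((∏ W ∈ Place.fiberAlong β hβ v, (X - C (a W)) ^ W.ramificationIndexAlong β).coeff i))
    (hKC : ∀ f ∈ B, ∀ (i : ℕ) (Q : Place K F), Pl Q → ∃ c : K, A.valuation c < 1 ∧
      IsValueAt Q ((chi f).coeff i
        - ((X - C ((g⁻¹ • f) ^ ℓ)) * (X ^ ℓ - C (g • f)) : F[X]).coeff i) c)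
    (P : Place K F) (hP : Pl P)
    (hPlW : ∀ W ∈ Place.fiberAlong β hβ (g • P), Pl (W.restrictAlong α hα)) :
    (Finsupp.single (g • g • P) 1
      - ∑ W ∈ Place.fiberAlong β hβ (g • P),
          W.ramificationIndexAlong β • (Finsupp.single (W.restrictAlong α hα) 1 : Divisor K F)
      + ℓ • Finsupp.single P 1 : Divisor K F) ∈ centreGen A B Pl := by
  classical
  set M₁ : Multiset (Place K F) := ∑ W ∈ Place.fiberAlong β hβ (g • P),
    W.ramificationIndexAlong β • ({W.restrictAlong α hα} : Multiset (Place K F)) with hM₁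
  set M₂ : Multiset (Place K F) := {g • g • P} + ℓ • ({P} : Multiset (Place K F)) with hM₂
  have hdiv1 : divOf M₁ = ∑ W ∈ Place.fiberAlong β hβ (g • P),
      W.ramificationIndexAlong β • (Finsupp.single (W.restrictAlong α hα) 1 : Divisor K F) :=
    divOf_finset_sum _ _ _
  have hdiv2 : divOf M₂ = Finsupp.single (g • g • P) 1 + ℓ • Finsupp.single P 1 := by
    rw [hM₂, divOf_add, divOf_nsmul, divOf_singleton, divOf_singleton]
  have hPl1 : ∀ Q ∈ M₁, Pl Q := by
    intro Q hQ
    obtain ⟨W, hW, rfl⟩ := mem_finset_sum _ _ _ hQ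
    exact hPlW W hW
  have hPl2 : ∀ Q ∈ M₂, Pl Q := by
    intro Q hQ
    rw [hM₂, Multiset.mem_add] at hQ
    rcases hQ with hQ | hQ
    · rw [Multiset.mem_singleton.mp hQ]
      exact hgPl _ (hgPl P hP)
    · rw [Multiset.mem_singleton.mp (Multiset.mem_of_mem_nsmul hQ)]
      exact hP
  have key := sum_single_sub_mem A B hconst Pl hval M₂ M₁ hPl2 hPl1 (by
    intro f hf a ha i
    have hprod1 : (M₁.map fun Q => X - C (a Q)).prod
        = ∏ W ∈ Place.fiberAlong β hβ (g • P),
            (X - C (a (W.restrictAlong α hα))) ^ W.ramificationIndexAlong β :=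
      prod_map_finset_sum _ _ _ _
    have hprod2 : (M₂.map fun Q => X - C (a Q)).prod
        = (X - C (a (g • g • P))) * (X - C (a P)) ^ ℓ := by
      rw [hM₂, Multiset.map_add, Multiset.prod_add, Multiset.map_nsmul, Multiset.prod_nsmul,
        Multiset.map_singleton, Multiset.prod_singleton, Multiset.map_singleton,
        Multiset.prod_singleton]
    rw [hprod1, hprod2]
    have hcong := congMod_fibre A ℓ α β hβ g hgFrob B Pl hval hgB' hgPl chi hCV hKC P hP f hf
      (fun W => a (W.restrictAlong α hα))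
      (fun W hW => (isValueAt_restrictAlong_iff α hα W f _).mp (ha _ (hPlW W hW)).2)
      (a (g • g • P)) (a P) (ha _ (hgPl _ (hgPl P hP))).2 (ha P hP).2
    exact hcong.symm A i)
  rw [hdiv1, hdiv2] at key
  have e : (Finsupp.single (g • g • P) 1
      - ∑ W ∈ Place.fiberAlong β hβ (g • P),
          W.ramificationIndexAlong β • (Finsupp.single (W.restrictAlong α hα) 1 : Divisor K F)
      + ℓ • Finsupp.single P 1 : Divisor K F)
      = Finsupp.single (g • g • P) 1 + ℓ • Finsupp.single P 1
        - ∑ W ∈ Place.fiberAlong β hβ (g • P),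
          W.ramificationIndexAlong β • (Finsupp.single (W.restrictAlong α hα) 1 : Divisor K F) := by
    abel
  rw [e]
  exact key

/-- If the two reference values are small, so are all the fibre values (used to show that the
places of the Hecke fibre over a cusp-type place are of cusp type). -/
theorem fibre_value_small (A : ValuationSubring K) (ℓ : ℕ) [Fact ℓ.Prime]
    [CharP (IsLocalRing.ResidueField A) ℓ]
    (β : F →ₐ[K] F') (hβ : β.toRingHom.IsIntegral) (v : Place K F)
    (a : Place K F' → K) (haA : ∀ W ∈ Place.fiberAlong β hβ v, a W ∈ A)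
    (c₀ c₁ : K) (hc₀ : A.valuation c₀ < 1) (hc₁ : A.valuation c₁ < 1)
    (hcong : CongMod A
      (∏ W ∈ Place.fiberAlong β hβ v, (X - C (a W)) ^ W.ramificationIndexAlong β)
      ((X - C c₀) * (X - C c₁) ^ ℓ))
    (W₀ : Place K F') (hW₀ : W₀ ∈ Place.fiberAlong β hβ v) : A.valuation (a W₀) < 1 := by
  classical
  have hc₀A : c₀ ∈ A := (A.valuation_le_one_iff _).mp hc₀.le
  have hc₁A : c₁ ∈ A := (A.valuation_le_one_iff _).mp hc₁.le
  set aA : Place K F' → A := fun W =>
    if h : W ∈ Place.fiberAlong β hβ v then ⟨a W, haA W h⟩ else 0 with haAdef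
  have haA_coe : ∀ W ∈ Place.fiberAlong β hβ v, (aA W : K) = a W := by
    intro W hW
    rw [haAdef]
    simp only [dif_pos hW]
  set ψA : Polynomial A := ∏ W ∈ Place.fiberAlong β hβ v,
    (X - C (aA W)) ^ W.ramificationIndexAlong β with hψA
  set τA : Polynomial A := (X - C ⟨c₀, hc₀A⟩) * (X - C ⟨c₁, hc₁A⟩) ^ ℓ with hτA
  have e1 : ψA.map A.subtype
      = ∏ W ∈ Place.fiberAlong β hβ v, (X - C (a W)) ^ W.ramificationIndexAlong β := by
    rw [hψA, Polynomial.map_prod]
    apply Finset.prod_congr rfl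
    intro W hW
    rw [Polynomial.map_pow, Polynomial.map_sub, Polynomial.map_X, Polynomial.map_C]
    congr 3
    exact haA_coe W hW
  have e2 : τA.map A.subtype = (X - C c₀) * (X - C c₁) ^ ℓ := by
    rw [hτA]
    simp [Polynomial.map_mul, Polynomial.map_sub, Polynomial.map_pow]
  rw [← e1, ← e2, congMod_map_iff] at hcong
  have r0 : IsLocalRing.residue A ⟨c₀, hc₀A⟩ = 0 := by
    rw [IsLocalRing.residue_eq_zero_iff, ValuationSubring.valuation_lt_one_iff]
    exact hc₀
  have r1 : IsLocalRing.residue A ⟨c₁, hc₁A⟩ = 0 := by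
    rw [IsLocalRing.residue_eq_zero_iff, ValuationSubring.valuation_lt_one_iff]
    exact hc₁
  have hτ : τA.map (IsLocalRing.residue A) = X ^ (ℓ + 1) := by
    rw [hτA, Polynomial.map_mul, Polynomial.map_pow, Polynomial.map_sub, Polynomial.map_sub,
      Polynomial.map_X, Polynomial.map_C, Polynomial.map_C, r0, r1, map_zero, sub_zero,
      pow_succ, mul_comm]
  have hψ : (ψA.map (IsLocalRing.residue A)).eval (IsLocalRing.residue A (aA W₀)) = 0 := by
    rw [hψA, Polynomial.map_prod, Polynomial.eval_prod]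
    apply Finset.prod_eq_zero hW₀
    rw [Polynomial.map_pow, Polynomial.map_sub, Polynomial.map_X, Polynomial.map_C,
      Polynomial.eval_pow, Polynomial.eval_sub, Polynomial.eval_X, Polynomial.eval_C, sub_self]
    have hpos : 0 < W₀.ramificationIndexAlong β := by
      letI := algebraAlong β
      haveI := isScalarTower_along β
      haveI := isIntegral_along β hβ
      exact W₀.ramificationIndex_pos (F := F)
    exact zero_pow hpos.ne'
  rw [hcong, hτ, Polynomial.eval_pow, Polynomial.eval_X] at hψ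
  have h0 : IsLocalRing.residue A (aA W₀) = 0 := by
    exact pow_eq_zero_iff (Nat.succ_ne_zero ℓ) |>.mp hψ
  rw [IsLocalRing.residue_eq_zero_iff, ValuationSubring.valuation_lt_one_iff,
    haA_coe W₀ hW₀] at h0
  exact h0

end Main

end

end Fermat.Agent.S37.KB
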