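import Mathlib
import Fermat.Prelude.Def_ModularCurve_HeckeModule
import Fermat.Agent.S37.Centre
import Fermat.Agent.S37.KBCore

/-!
# S37, (K-b): the multiset centre lemma for the two charts of `X₀(N)`

Instances of `KB.sum_single_sub_mem` for `B = {f | IsFinInt A N f}`, `Pl = IsFinPlace A N` and for
`B = {f | IsCuspInt A N f}`, `Pl = IsCuspPlace A N`, with conclusion in
`Centre.centreSubgroup A N`.
-/

set_option autoImplicit false

namespace Fermat.Agent.S37.KB

open ModularCurve AlgebraicCurve Polynomial Fermat.Agent.S37.GaloisValue Fermat.Agent.S37.Centre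

noncomputable section

local notation "Qb" => AlgebraicClosure ℚ

variable (A : ValuationSubring Qb) (N : ℕ) [NeZero N]

/-- The ring of functions integral over `A[j]`. -/
def finSubring : Subring ↥(modularFunctionFieldBar N) where
  carrier := {f | IsFinInt A N f}
  mul_mem' hf hg := IsFinInt.mul hf hg
  one_mem' := by
    have := isFinInt_const (A := A) (N := N) (a := 1) A.one_mem
    simpa using this
  add_mem' hf hg := IsFinInt.add hf hg
  zero_mem' := by
    have := isFinInt_const (A := A) (N := N) (a := 0) A.zero_mem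
    simpa using this
  neg_mem' hf := IsFinInt.neg hf

theorem mem_finSubring {f : ↥(modularFunctionFieldBar N)} :
    f ∈ finSubring A N ↔ IsFinInt A N f := Iff.rfl

/-- The ring of functions integral over the local cusp chart. -/
def cuspSubring : Subring ↥(modularFunctionFieldBar N) where
  carrier := {f | IsCuspInt A N f}
  mul_mem' hf hg := IsCuspInt.mul hf hg
  one_mem' := by
    have := isCuspInt_const (A := A) (N := N) (a := 1) A.one_mem
    simpa using this
  add_mem' hf hg := IsCuspInt.add hf hg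
  zero_mem' := by
    have := isCuspInt_const (A := A) (N := N) (a := 0) A.zero_mem
    simpa using this
  neg_mem' hf := IsCuspInt.neg hf

theorem mem_cuspSubring {f : ↥(modularFunctionFieldBar N)} :
    f ∈ cuspSubring A N ↔ IsCuspInt A N f := Iff.rfl

theorem centreGen_fin_le :
    centreGen A (finSubring A N) (IsFinPlace A N) ≤ centreSubgroup A N := by
  apply (AddSubgroup.closure_le _).mpr
  rintro D ⟨Q, Q', ⟨h1, h2, h3⟩, rfl⟩
  exact single_sub_single_mem_centreSubgroup A N (Or.inl ⟨h1, h2, fun f hf => h3 f hf⟩)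

theorem centreGen_cusp_le :
    centreGen A (cuspSubring A N) (IsCuspPlace A N) ≤ centreSubgroup A N := by
  apply (AddSubgroup.closure_le _).mpr
  rintro D ⟨Q, Q', ⟨h1, h2, h3⟩, rfl⟩
  exact single_sub_single_mem_centreSubgroup A N (Or.inr ⟨h1, h2, fun f hf => h3 f hf⟩)

/-- **Multiset centre lemma, finite chart.** -/
theorem divOf_sub_mem_fin (hV : ValueProp A N)
    (M₁ M₂ : Multiset (Place Qb ↥(modularFunctionFieldBar N)))
    (h1 : ∀ Q ∈ M₁, IsFinPlace A N Q) (h2 : ∀ Q ∈ M₂, IsFinPlace A N Q)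
    (hpoly : ∀ f : ↥(modularFunctionFieldBar N), IsFinInt A N f →
      ∀ a : Place Qb ↥(modularFunctionFieldBar N) → Qb,
        (∀ Q, IsFinPlace A N Q → a Q ∈ A ∧ IsValueAt Q f (a Q)) →
        ∀ i : ℕ, A.valuation (((M₁.map fun Q => X - C (a Q)).prod).coeff i
          - ((M₂.map fun Q => X - C (a Q)).prod).coeff i) < 1) :
    divOf M₁ - divOf M₂ ∈ centreSubgroup A N :=
  centreGen_fin_le A N (sum_single_sub_mem A (finSubring A N)
    (fun _ ha => isFinInt_const ha) (IsFinPlace A N) (fun f hf Q hQ => hV.1 f hf Q hQ)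
    M₁ M₂ h1 h2 hpoly)

/-- **Multiset centre lemma, cusp chart.** -/
theorem divOf_sub_mem_cusp (hV : ValueProp A N)
    (M₁ M₂ : Multiset (Place Qb ↥(modularFunctionFieldBar N)))
    (h1 : ∀ Q ∈ M₁, IsCuspPlace A N Q) (h2 : ∀ Q ∈ M₂, IsCuspPlace A N Q)
    (hpoly : ∀ f : ↥(modularFunctionFieldBar N), IsCuspInt A N f →
      ∀ a : Place Qb ↥(modularFunctionFieldBar N) → Qb,
        (∀ Q, IsCuspPlace A N Q → a Q ∈ A ∧ IsValueAt Q f (a Q)) →
        ∀ i : ℕ, A.valuation (((M₁.map fun Q => X - C (a Q)).prod).coeff i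
          - ((M₂.map fun Q => X - C (a Q)).prod).coeff i) < 1) :
    divOf M₁ - divOf M₂ ∈ centreSubgroup A N :=
  centreGen_cusp_le A N (sum_single_sub_mem A (cuspSubring A N)
    (fun _ ha => isCuspInt_const ha) (IsCuspPlace A N) (fun f hf Q hQ => hV.2 f hf Q hQ)
    M₁ M₂ h1 h2 hpoly)

end

end Fermat.Agent.S37.KB
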