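import Mathlib
import Fermat.Prelude.Def_ModularCurve_HeckeModule
import Fermat.Agent.S18.BaseDVR
import Fermat.Agent.S18.Witness
import Fermat.Agent.S37.Centre
import Fermat.Agent.S37.Inertia
import Fermat.Agent.S37.GaussSmall
import Fermat.Agent.S37.HeckeInputs
import Fermat.Agent.S37.Final
import Fermat.Agent.S37.KBCentre
import Fermat.Agent.S37.KBAssembly

/-!
# S37, (K-b): the Eichler–Shimura divisor congruence for `X₀(N)`

`heckeInput`: the input `Final.HeckeInput A N ℓ s` of the final assembly of S37, from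

* `χ f ∈ F_N[X]`, a family of polynomials (the characteristic polynomial of `α f` over `β F_N`),
* (CV) the value polynomial of `χ f` at a place `v` is `∏_{W | v} (X - (α f)(W))^e(W)`,
* (INT) `α j` is integral over `A[β j]`, and `u(β(1/j)) · α(1/j)` is integral over `A[β(1/j)]`
  for some `u ∈ A[X]` with unit constant coefficient,
* (KC) for `f` integral on a chart, the coefficients of `χ f - (X - (s⁻¹ f)^ℓ) (X^ℓ - s f)` are
  integral on that chart and Gauss-small,

together with the three Props of `Centre.lean` (`ValueProp`, `GaussSmallProp`).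
-/

set_option autoImplicit false
set_option linter.style.haveILetI false

namespace Fermat.Agent.S37.KB

open ModularCurve AlgebraicCurve Polynomial
open Fermat.Agent.S37.GaloisValue Fermat.Agent.S37.Centre

noncomputable section

local notation "Qb" => AlgebraicClosure ℚ

/-! ### Generic value lemmas -/

section Generic

variable {K F : Type*} [Field K] [Field F] [Algebra K F]

/-- A polynomial over a local ring with unit constant coefficient takes unit values on the
maximal ideal. -/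
theorem isUnit_eval_of_mem_maximalIdeal {R : Type*} [CommRing R] [IsLocalRing R]
    (u : Polynomial R) (hu : IsUnit (u.coeff 0)) (a : R)
    (ha : a ∈ IsLocalRing.maximalIdeal R) : IsUnit (u.eval a) := by
  rw [← IsLocalRing.residue_ne_zero_iff_isUnit]
  have e : u.eval a = u.divX.eval a * a + u.coeff 0 := by
    conv_lhs => rw [← Polynomial.divX_mul_X_add u]
    simp
  rw [e, map_add, map_mul, (IsLocalRing.residue_eq_zero_iff _).mpr ha, mul_zero, zero_add,
    IsLocalRing.residue_ne_zero_iff_isUnit]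
  exact hu

/-- If `u(x) y` is integral over `A[x]`, `u(0)` is a unit of `A` and `x` has a value in `𝔪_A`
at a place of degree one, then `y` has a value in `A` at that place. -/
theorem exists_value_of_isIntegralElem_mul (A : ValuationSubring K) (W : Place K F)
    (hdeg : W.deg = 1) (x : F) (a₀ : K) (ha₀ : A.valuation a₀ < 1) (hx : IsValueAt W x a₀)
    (y : F) (u : Polynomial A) (hu : IsUnit (u.coeff 0))
    (hy : (GaussSmall.evAt A x).IsIntegralElem (GaussSmall.evAt A x u * y)) :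
    ∃ c : K, c ∈ A ∧ IsValueAt W y c := by
  have ha₀A : a₀ ∈ A := (A.valuation_le_one_iff a₀).mp ha₀.le
  obtain ⟨c', hc'A, hc'⟩ :=
    GaussSmall.exists_value_of_isIntegralElem A W hdeg x a₀ ha₀A hx _ hy
  have hval := GaussSmall.isValueAt_evAt A W x ⟨a₀, ha₀A⟩ hx u
  have hmem : (⟨a₀, ha₀A⟩ : A) ∈ IsLocalRing.maximalIdeal A := by
    rw [A.valuation_lt_one_iff]
    exact ha₀
  have hunit : IsUnit (u.eval (⟨a₀, ha₀A⟩ : A)) :=
    isUnit_eval_of_mem_maximalIdeal u hu _ hmem
  obtain ⟨w, hw⟩ := hunit.exists_right_inv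
  have hw' : ((u.eval (⟨a₀, ha₀A⟩ : A) : A) : K) * (w : K) = 1 := congrArg Subtype.val hw
  have hb0 : ((u.eval (⟨a₀, ha₀A⟩ : A) : A) : K) ≠ 0 := left_ne_zero_of_mul_eq_one hw'
  have hinv := Inertia.isValueAt_inv hval hb0
  have hu0 : GaussSmall.evAt A x u ≠ 0 := by
    intro h0
    rw [h0] at hval
    have hz : IsValueAt W (0 : F) (0 : K) := by simpa using isValueAt_algebraMap W (0 : K)
    exact hb0 (hval.unique hz)
  have hprod := hinv.mul hc'
  rw [← mul_assoc, inv_mul_cancel₀ hu0, one_mul] at hprod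
  refine ⟨_, ?_, hprod⟩
  rw [inv_eq_of_mul_eq_one_right hw']
  exact A.mul_mem _ _ w.2 hc'A

/-- Elements of the decomposition group preserve the maximal ideal. -/
theorem valuation_map_lt_one {K₀ L : Type*} [Field K₀] [Field L] [Algebra K₀ L]
    (A : ValuationSubring L) {σ : L ≃ₐ[K₀] L} (hσ : σ ∈ A.decompositionSubgroup K₀) {a : L}
    (ha : A.valuation a < 1) : A.valuation (σ a) < 1 := by
  rw [← A.mem_nonunits_iff, mem_nonunits_iff_inv_notMem] at ha ⊢
  rcases ha with ha | ha
  · left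
    rw [ha, map_zero]
  · right
    rw [← map_inv₀]
    intro h
    exact ha (((mem_decompositionSubgroup_iff A σ).mp hσ a⁻¹).mpr h)

/-- Coefficients of the Kronecker model polynomial lie in any subring containing the data. -/
theorem kron_coeff_mem (B : Subring F) {a b : F} (ha : a ∈ B) (hb : b ∈ B) (n i : ℕ) :
    ((X - C a) * (X ^ n - C b) : F[X]).coeff i ∈ B := by
  have e : ((X - C a) * (X ^ n - C b) : F[X])
      = ((X - C (⟨a, ha⟩ : B)) * (X ^ n - C (⟨b, hb⟩ : B)) : Polynomial B).map B.subtype := by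
    simp [Polynomial.map_mul, Polynomial.map_sub, Polynomial.map_pow]
  rw [e, coeff_map]
  exact (Subtype.prop _)

end Generic

/-! ### The modular case -/

variable (A : ValuationSubring Qb) (N ℓ : ℕ) [NeZero N] [NeZero ℓ]

/-- The Kronecker model polynomial `(X - (s⁻¹ f)^ℓ) (X^ℓ - s f)`. -/
def kronPoly (s : Qb ≃ₐ[ℚ] Qb) (f : ↥(modularFunctionFieldBar N)) :
    Polynomial ↥(modularFunctionFieldBar N) :=
  (X - C (((arithmeticGalois (modularFunctionFieldFull N) s)⁻¹ • f) ^ ℓ))
    * (X ^ ℓ - C (arithmeticGalois (modularFunctionFieldFull N) s • f))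

omit [NeZero ℓ] in
theorem kronPoly_coeff_isFinInt {s : Qb ≃ₐ[ℚ] Qb} (hs : s ∈ A.decompositionSubgroup ℚ)
    {f : ↥(modularFunctionFieldBar N)} (hf : IsFinInt A N f) (i : ℕ) :
    IsFinInt A N ((kronPoly N ℓ s f).coeff i) := by
  have hginv : (arithmeticGalois (modularFunctionFieldFull N) s)⁻¹
      = arithmeticGalois (modularFunctionFieldFull N) s⁻¹ := by rw [map_inv]
  have h1 : ((arithmeticGalois (modularFunctionFieldFull N) s)⁻¹ • f) ^ ℓ ∈ finSubring A N := by
    rw [hginv]
    exact pow_mem (Inertia.IsFinInt.smul A N (inv_mem hs) hf) ℓ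
  have h2 : arithmeticGalois (modularFunctionFieldFull N) s • f ∈ finSubring A N :=
    Inertia.IsFinInt.smul A N hs hf
  exact kron_coeff_mem (finSubring A N) h1 h2 ℓ i

omit [NeZero ℓ] in
theorem kronPoly_coeff_isCuspInt {s : Qb ≃ₐ[ℚ] Qb} (hs : s ∈ A.decompositionSubgroup ℚ)
    {f : ↥(modularFunctionFieldBar N)} (hf : IsCuspInt A N f) (i : ℕ) :
    IsCuspInt A N ((kronPoly N ℓ s f).coeff i) := by
  have hginv : (arithmeticGalois (modularFunctionFieldFull N) s)⁻¹
      = arithmeticGalois (modularFunctionFieldFull N) s⁻¹ := by rw [map_inv]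
  have h1 : ((arithmeticGalois (modularFunctionFieldFull N) s)⁻¹ • f) ^ ℓ ∈ cuspSubring A N := by
    rw [hginv]
    exact pow_mem (Inertia.IsCuspInt.smul A N (inv_mem hs) hf) ℓ
  have h2 : arithmeticGalois (modularFunctionFieldFull N) s • f ∈ cuspSubring A N :=
    Inertia.IsCuspInt.smul A N hs hf
  exact kron_coeff_mem (cuspSubring A N) h1 h2 ℓ i

/-- Rewriting of the Hecke correspondence on a point divisor. -/
theorem heckeDivBar_single_one (hα : HeckeAlphaBarIntegral Qb N ℓ)
    (hβ : HeckeBetaBarIntegral Qb N ℓ)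
    [HasPrincipalDivisors Qb ↥(modularFunctionFieldBar (N * ℓ))]
    (v : Place Qb ↥(modularFunctionFieldBar N)) :
    heckeDivBar hα hβ (Finsupp.single v 1)
      = ∑ W ∈ Place.fiberAlong (heckeBetaBar Qb N ℓ) hβ v,
          W.ramificationIndexAlong (heckeBetaBar Qb N ℓ) •
            (Finsupp.single (W.restrictAlong (heckeAlphaBar Qb N ℓ) hα) 1 :
              Divisor Qb ↥(modularFunctionFieldBar N)) := by
  rw [HeckeInputs.heckeDivBar_single]
  refine Finset.sum_congr rfl fun W _ => ?_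
  rw [one_mul, Finsupp.smul_single, nsmul_eq_mul, mul_one]

section Charts

variable {A N ℓ}
variable (hℓ : ℓ.Prime) (hA : A.LiesOverPrime ℓ) {s : Qb ≃ₐ[ℚ] Qb} (hs : A.IsFrobeniusAt s ℓ)
  (hV : ValueProp A N) (hGS : GaussSmallProp A N)
  (χ : ↥(modularFunctionFieldBar N) → Polynomial ↥(modularFunctionFieldBar N))
  (hα : HeckeAlphaBarIntegral Qb N ℓ) (hβ : HeckeBetaBarIntegral Qb N ℓ)
  [HasPrincipalDivisors Qb ↥(modularFunctionFieldBar (N * ℓ))]
  (hCV : ∀ (v : Place Qb ↥(modularFunctionFieldBar N)) (f : ↥(modularFunctionFieldBar N))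
    (a : Place Qb ↥(modularFunctionFieldBar (N * ℓ)) → Qb),
    (∀ W ∈ Place.fiberAlong (heckeBetaBar Qb N ℓ) hβ v,
      IsValueAt W (heckeAlphaBar Qb N ℓ f) (a W)) →
    ∀ i : ℕ, IsValueAt v ((χ f).coeff i)
      ((∏ W ∈ Place.fiberAlong (heckeBetaBar Qb N ℓ) hβ v,
        (X - C (a W)) ^ W.ramificationIndexAlong (heckeBetaBar Qb N ℓ)).coeff i))

include hℓ hA hs hV hGS hCV

set_option maxHeartbeats 4000000 in
/-- **(K-b) at a place of finite type.** -/
theorem hecke_mem_fin
    (hINT : (GaussSmall.evAt A (heckeBetaBar Qb N ℓ (Fermat.Agent.S24.jBC Qb N))).IsIntegralElem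
      (heckeAlphaBar Qb N ℓ (Fermat.Agent.S24.jBC Qb N)))
    (hKC : ∀ f : ↥(modularFunctionFieldBar N), IsFinInt A N f → ∀ i : ℕ,
      IsFinInt A N ((χ f).coeff i - (kronPoly N ℓ s f).coeff i) ∧
      GaussSmall A (((χ f).coeff i - (kronPoly N ℓ s f).coeff i :
        ↥(modularFunctionFieldBar N)) : LaurentSeries Qb))
    (P : Place Qb ↥(modularFunctionFieldBar N)) (hP : IsFinPlace A N P) :
    (Finsupp.single (arithmeticGalois (modularFunctionFieldFull N) s •
        arithmeticGalois (modularFunctionFieldFull N) s • P) 1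
      - heckeDivBar hα hβ
          (Finsupp.single (arithmeticGalois (modularFunctionFieldFull N) s • P) 1)
      + ℓ • Finsupp.single P 1 : Divisor Qb ↥(modularFunctionFieldBar N))
      ∈ centreSubgroup A N := by
  haveI : Fact ℓ.Prime := ⟨hℓ⟩
  haveI : CharP (IsLocalRing.ResidueField A) ℓ :=
    Fermat.Agent.S18.BaseDVR.charP_residueField A hℓ hA
  have hD : s ∈ A.decompositionSubgroup ℚ := hs.mem_decompositionSubgroup
  have hginv : (arithmeticGalois (modularFunctionFieldFull N) s)⁻¹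
      = arithmeticGalois (modularFunctionFieldFull N) s⁻¹ := by rw [map_inv]
  have hgPl : ∀ Q, IsFinPlace A N Q →
      IsFinPlace A N (arithmeticGalois (modularFunctionFieldFull N) s • Q) := by
    rintro Q ⟨a, haA, ha⟩
    refine ⟨s a, map_mem_of_mem_decompositionSubgroup A hD haA, ?_⟩
    have h1 := isValueAt_arithmeticGalois (modularFunctionFieldFull N) ha s
    rwa [Inertia.smul_jBC] at h1
  have hPlW : ∀ W ∈ Place.fiberAlong (heckeBetaBar Qb N ℓ) hβ
      (arithmeticGalois (modularFunctionFieldFull N) s • P),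
      IsFinPlace A N (W.restrictAlong (heckeAlphaBar Qb N ℓ) hα) := by
    intro W hW
    have hWr : W.restrictAlong (heckeBetaBar Qb N ℓ) hβ
        = arithmeticGalois (modularFunctionFieldFull N) s • P := Place.mem_fiberAlong.mp hW
    obtain ⟨a₀, ha₀A, ha₀⟩ := hgPl P hP
    rw [← hWr] at ha₀
    obtain ⟨c, hcA, hc⟩ := GaussSmall.exists_value_of_isIntegralElem A W
      (Fermat.Agent.S18.Witness.bar_deg_eq_one (N * ℓ) W) _ a₀ ha₀A
      ((isValueAt_restrictAlong_iff (heckeBetaBar Qb N ℓ) hβ W _ _).mp ha₀) _ hINT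
    exact ⟨c, hcA, (isValueAt_restrictAlong_iff (heckeAlphaBar Qb N ℓ) hα W _ _).mpr hc⟩
  have hgFrob : ∀ x : Qb, x ∈ A → A.valuation
      (SemilinearAut.baseAut (arithmeticGalois (modularFunctionFieldFull N) s) x - x ^ ℓ) < 1 :=
    fun x hx => IsFrobeniusAt.valuation_sub_pow_lt_one hs hx
  have hval : ∀ f ∈ finSubring A N, ∀ Q, IsFinPlace A N Q → ∃ c : Qb, c ∈ A ∧ IsValueAt Q f c :=
    fun f hf Q hQ => hV.1 f hf Q hQ
  have hgB' : ∀ f ∈ finSubring A N,
      (arithmeticGalois (modularFunctionFieldFull N) s)⁻¹ • f ∈ finSubring A N :=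
    fun f hf => by rw [hginv]; exact Inertia.IsFinInt.smul A N (inv_mem hD) hf
  have hKC' : ∀ f ∈ finSubring A N, ∀ (i : ℕ) (Q : Place Qb ↥(modularFunctionFieldBar N)),
      IsFinPlace A N Q → ∃ c : Qb, A.valuation c < 1 ∧
        IsValueAt Q ((χ f).coeff i
          - ((X - C (((arithmeticGalois (modularFunctionFieldFull N) s)⁻¹ • f) ^ ℓ))
              * (X ^ ℓ - C (arithmeticGalois (modularFunctionFieldFull N) s • f)) :
              Polynomial ↥(modularFunctionFieldBar N)).coeff i) c :=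
    fun f hf i Q hQ => hGS.1 _ (hKC f hf i).1 (hKC f hf i).2 Q hQ
  have hconst : ∀ a : Qb, a ∈ A →
      algebraMap Qb ↥(modularFunctionFieldBar N) a ∈ finSubring A N :=
    fun _ ha => isFinInt_const ha
  have key := hecke_mem_centreGen (K := Qb) (F := ↥(modularFunctionFieldBar N))
    (F' := ↥(modularFunctionFieldBar (N * ℓ))) A ℓ (heckeAlphaBar Qb N ℓ)
    (heckeBetaBar Qb N ℓ) hα hβ
    (arithmeticGalois (modularFunctionFieldFull N) s) hgFrob
    (finSubring A N) hconst (IsFinPlace A N) hval hgB' hgPl χ hCV hKC' P hP hPlW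
  have e := heckeDivBar_single_one N ℓ hα hβ
    (arithmeticGalois (modularFunctionFieldFull N) s • P)
  rw [e]
  exact centreGen_fin_le A N key

set_option maxHeartbeats 4000000 in
/-- **(K-b) at a place of cusp type.** -/
theorem hecke_mem_cusp
    (hINT : ∃ u : Polynomial A, IsUnit (u.coeff 0) ∧
      (GaussSmall.evAt A (heckeBetaBar Qb N ℓ (Fermat.Agent.S24.jBC Qb N)⁻¹)).IsIntegralElem
        (GaussSmall.evAt A (heckeBetaBar Qb N ℓ (Fermat.Agent.S24.jBC Qb N)⁻¹) u
          * heckeAlphaBar Qb N ℓ (Fermat.Agent.S24.jBC Qb N)⁻¹))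
    (hKC : ∀ f : ↥(modularFunctionFieldBar N), IsCuspInt A N f → ∀ i : ℕ,
      IsCuspInt A N ((χ f).coeff i - (kronPoly N ℓ s f).coeff i) ∧
      GaussSmall A (((χ f).coeff i - (kronPoly N ℓ s f).coeff i :
        ↥(modularFunctionFieldBar N)) : LaurentSeries Qb))
    (P : Place Qb ↥(modularFunctionFieldBar N)) (hP : IsCuspPlace A N P) :
    (Finsupp.single (arithmeticGalois (modularFunctionFieldFull N) s •
        arithmeticGalois (modularFunctionFieldFull N) s • P) 1
      - heckeDivBar hα hβ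
          (Finsupp.single (arithmeticGalois (modularFunctionFieldFull N) s • P) 1)
      + ℓ • Finsupp.single P 1 : Divisor Qb ↥(modularFunctionFieldBar N))
      ∈ centreSubgroup A N := by
  haveI : Fact ℓ.Prime := ⟨hℓ⟩
  haveI : CharP (IsLocalRing.ResidueField A) ℓ :=
    Fermat.Agent.S18.BaseDVR.charP_residueField A hℓ hA
  have hD : s ∈ A.decompositionSubgroup ℚ := hs.mem_decompositionSubgroup
  have hginv : (arithmeticGalois (modularFunctionFieldFull N) s)⁻¹
      = arithmeticGalois (modularFunctionFieldFull N) s⁻¹ := by rw [map_inv]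
  have hgPl : ∀ Q, IsCuspPlace A N Q →
      IsCuspPlace A N (arithmeticGalois (modularFunctionFieldFull N) s • Q) := by
    rintro Q ⟨a, haA, ha⟩
    refine ⟨s a, valuation_map_lt_one A hD haA, ?_⟩
    have h1 := isValueAt_arithmeticGalois (modularFunctionFieldFull N) ha s
    rwa [Inertia.smul_jBC_inv] at h1
  have hgFrob : ∀ x : Qb, x ∈ A → A.valuation
      (SemilinearAut.baseAut (arithmeticGalois (modularFunctionFieldFull N) s) x - x ^ ℓ) < 1 :=
    fun x hx => IsFrobeniusAt.valuation_sub_pow_lt_one hs hx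
  have hval : ∀ f ∈ cuspSubring A N, ∀ Q, IsCuspPlace A N Q → ∃ c : Qb, c ∈ A ∧ IsValueAt Q f c :=
    fun f hf Q hQ => hV.2 f hf Q hQ
  have hgB' : ∀ f ∈ cuspSubring A N,
      (arithmeticGalois (modularFunctionFieldFull N) s)⁻¹ • f ∈ cuspSubring A N :=
    fun f hf => by rw [hginv]; exact Inertia.IsCuspInt.smul A N (inv_mem hD) hf
  have hKC' : ∀ f ∈ cuspSubring A N, ∀ (i : ℕ) (Q : Place Qb ↥(modularFunctionFieldBar N)),
      IsCuspPlace A N Q → ∃ c : Qb, A.valuation c < 1 ∧
        IsValueAt Q ((χ f).coeff i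
          - ((X - C (((arithmeticGalois (modularFunctionFieldFull N) s)⁻¹ • f) ^ ℓ))
              * (X ^ ℓ - C (arithmeticGalois (modularFunctionFieldFull N) s • f)) :
              Polynomial ↥(modularFunctionFieldBar N)).coeff i) c :=
    fun f hf i Q hQ => hGS.2 _ (hKC f hf i).1 (hKC f hf i).2 Q hQ
  have hPlW : ∀ W ∈ Place.fiberAlong (heckeBetaBar Qb N ℓ) hβ
      (arithmeticGalois (modularFunctionFieldFull N) s • P),
      IsCuspPlace A N (W.restrictAlong (heckeAlphaBar Qb N ℓ) hα) := by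
    -- the values of `α (1/j)` on the fibre
    have hvalW : ∀ W ∈ Place.fiberAlong (heckeBetaBar Qb N ℓ) hβ
        (arithmeticGalois (modularFunctionFieldFull N) s • P),
        ∃ c : Qb, c ∈ A ∧
          IsValueAt W (heckeAlphaBar Qb N ℓ (Fermat.Agent.S24.jBC Qb N)⁻¹) c := by
      intro W hW
      have hWr : W.restrictAlong (heckeBetaBar Qb N ℓ) hβ
          = arithmeticGalois (modularFunctionFieldFull N) s • P := Place.mem_fiberAlong.mp hW
      obtain ⟨a₀, ha₀lt, ha₀⟩ := hgPl P hP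
      rw [← hWr] at ha₀
      obtain ⟨u, hu, hint⟩ := hINT
      exact exists_value_of_isIntegralElem_mul A W
        (Fermat.Agent.S18.Witness.bar_deg_eq_one (N * ℓ) W) _ a₀ ha₀lt
        ((isValueAt_restrictAlong_iff (heckeBetaBar Qb N ℓ) hβ W _ _).mp ha₀) _ u hu hint
    choose! a ha using hvalW
    obtain ⟨c₀, hc₀lt, hc₀⟩ := hgPl _ (hgPl P hP)
    obtain ⟨c₁, hc₁lt, hc₁⟩ := hP
    have hcong := congMod_fibre A ℓ (heckeAlphaBar Qb N ℓ) (heckeBetaBar Qb N ℓ) hβ
      (arithmeticGalois (modularFunctionFieldFull N) s) hgFrob (cuspSubring A N)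
      (IsCuspPlace A N) hval hgB' hgPl χ hCV hKC' P ⟨c₁, hc₁lt, hc₁⟩
      (Fermat.Agent.S24.jBC Qb N)⁻¹ isCuspInt_jinv a (fun W hW => (ha W hW).2) c₀ c₁ hc₀ hc₁
    intro W hW
    exact ⟨a W, fibre_value_small A ℓ (heckeBetaBar Qb N ℓ) hβ _ a (fun W hW => (ha W hW).1)
      c₀ c₁ hc₀lt hc₁lt hcong W hW,
      (isValueAt_restrictAlong_iff (heckeAlphaBar Qb N ℓ) hα W _ _).mpr (ha W hW).2⟩
  have hconst : ∀ a : Qb, a ∈ A →
      algebraMap Qb ↥(modularFunctionFieldBar N) a ∈ cuspSubring A N :=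
    fun _ ha => isCuspInt_const ha
  have key := hecke_mem_centreGen (K := Qb) (F := ↥(modularFunctionFieldBar N))
    (F' := ↥(modularFunctionFieldBar (N * ℓ))) A ℓ (heckeAlphaBar Qb N ℓ)
    (heckeBetaBar Qb N ℓ) hα hβ
    (arithmeticGalois (modularFunctionFieldFull N) s) hgFrob
    (cuspSubring A N) hconst (IsCuspPlace A N) hval hgB' hgPl χ hCV hKC' P hP hPlW
  have e := heckeDivBar_single_one N ℓ hα hβ
    (arithmeticGalois (modularFunctionFieldFull N) s • P)
  rw [e]
  exact centreGen_cusp_le A N key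

end Charts

/-- **(K-b)**: the input `Final.HeckeInput A N ℓ s` of the final assembly, from the charpoly
family `χ` with (CV), (INT) and (KC). -/
theorem heckeInput {A : ValuationSubring Qb} {N ℓ : ℕ} [NeZero N] [NeZero ℓ]
    (hℓ : ℓ.Prime) (hA : A.LiesOverPrime ℓ) {s : Qb ≃ₐ[ℚ] Qb} (hs : A.IsFrobeniusAt s ℓ)
    (hV : ValueProp A N) (hGS : GaussSmallProp A N)
    (χ : ↥(modularFunctionFieldBar N) → Polynomial ↥(modularFunctionFieldBar N))
    (hCV : ∀ (hβ : HeckeBetaBarIntegral Qb N ℓ)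
      (_ : HasPrincipalDivisors Qb ↥(modularFunctionFieldBar (N * ℓ)))
      (v : Place Qb ↥(modularFunctionFieldBar N)) (f : ↥(modularFunctionFieldBar N))
      (a : Place Qb ↥(modularFunctionFieldBar (N * ℓ)) → Qb),
      (∀ W ∈ Place.fiberAlong (heckeBetaBar Qb N ℓ) hβ v,
        IsValueAt W (heckeAlphaBar Qb N ℓ f) (a W)) →
      ∀ i : ℕ, IsValueAt v ((χ f).coeff i)
        ((∏ W ∈ Place.fiberAlong (heckeBetaBar Qb N ℓ) hβ v,
          (X - C (a W)) ^ W.ramificationIndexAlong (heckeBetaBar Qb N ℓ)).coeff i))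
    (hINTfin :
      (GaussSmall.evAt A (heckeBetaBar Qb N ℓ (Fermat.Agent.S24.jBC Qb N))).IsIntegralElem
        (heckeAlphaBar Qb N ℓ (Fermat.Agent.S24.jBC Qb N)))
    (hINTcusp : ∃ u : Polynomial A, IsUnit (u.coeff 0) ∧
      (GaussSmall.evAt A (heckeBetaBar Qb N ℓ (Fermat.Agent.S24.jBC Qb N)⁻¹)).IsIntegralElem
        (GaussSmall.evAt A (heckeBetaBar Qb N ℓ (Fermat.Agent.S24.jBC Qb N)⁻¹) u
          * heckeAlphaBar Qb N ℓ (Fermat.Agent.S24.jBC Qb N)⁻¹))
    (hKCfin : ∀ f : ↥(modularFunctionFieldBar N), IsFinInt A N f → ∀ i : ℕ,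
      IsFinInt A N ((χ f).coeff i - (kronPoly N ℓ s f).coeff i) ∧
      GaussSmall A (((χ f).coeff i - (kronPoly N ℓ s f).coeff i :
        ↥(modularFunctionFieldBar N)) : LaurentSeries Qb))
    (hKCcusp : ∀ f : ↥(modularFunctionFieldBar N), IsCuspInt A N f → ∀ i : ℕ,
      IsCuspInt A N ((χ f).coeff i - (kronPoly N ℓ s f).coeff i) ∧
      GaussSmall A (((χ f).coeff i - (kronPoly N ℓ s f).coeff i :
        ↥(modularFunctionFieldBar N)) : LaurentSeries Qb)) :
    Final.HeckeInput A N ℓ s := by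
  intro hα hβ inst P
  rcases Inertia.isFinPlace_or_isCuspPlace A N P with hP | hP
  · exact hecke_mem_fin hℓ hA hs hV hGS χ hα hβ (hCV hβ inst) hINTfin hKCfin P hP
  · exact hecke_mem_cusp hℓ hA hs hV hGS χ hα hβ (hCV hβ inst) hINTcusp hKCcusp P hP

end

end Fermat.Agent.S37.KB
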