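import Mathlib
import Fermat.Agent.S37.KBHecke
import Fermat.Agent.S37.HeckeValue
import Fermat.Agent.S37.CharpolyChart

/-!
# S37, (K-b): plugging the landed inputs into `KB.heckeInput`

`chiPoly N ℓ f` is the characteristic polynomial of `α f` over `β F_N`.
`heckeInput_of_cusp`: `Final.HeckeInput A N ℓ s` from

* (Kron) the coefficients of `chiPoly f - kronPoly f` are Gauss-small (for Gauss-integral `f`),
* (INT-cusp) `u(β(1/j)) α(1/j)` is integral over `A[β(1/j)]` for some `u` with unit constant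
  coefficient,
* (KC1-cusp) the coefficients of `chiPoly f` are cusp-integral for cusp-integral `f`.
-/

set_option autoImplicit false
set_option linter.style.haveILetI false

namespace Fermat.Agent.S37.KB

open ModularCurve AlgebraicCurve Polynomial
open Fermat.Agent.S37.GaloisValue Fermat.Agent.S37.Centre

noncomputable section

local notation "Qb" => AlgebraicClosure ℚ

attribute [local instance 10000] Module.Free.of_divisionRing

variable (N ℓ : ℕ) [NeZero N] [NeZero ℓ]

/-- The characteristic polynomial of `α f` over `β F_N`. -/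
def chiPoly (f : ↥(modularFunctionFieldBar N)) : Polynomial ↥(modularFunctionFieldBar N) :=
  letI := algebraAlong (heckeBetaBar Qb N ℓ)
  haveI : Module.Finite ↥(modularFunctionFieldBar N) ↥(modularFunctionFieldBar (N * ℓ)) :=
    HeckeInputs.betaFinite N ℓ
  (LinearMap.mulLeft ↥(modularFunctionFieldBar N) (heckeAlphaBar Qb N ℓ f)).charpoly

/-- Transport of an instance-generic statement about the characteristic polynomial to
`chiPoly`. -/
theorem chiPoly_coeff_of_forall (p : ↥(modularFunctionFieldBar N) → Prop)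
    (f : ↥(modularFunctionFieldBar N)) (i : ℕ)
    (h : letI := algebraAlong (heckeBetaBar Qb N ℓ)
      ∀ [Module.Finite ↥(modularFunctionFieldBar N) ↥(modularFunctionFieldBar (N * ℓ))],
        p ((LinearMap.mulLeft ↥(modularFunctionFieldBar N)
          (heckeAlphaBar Qb N ℓ f)).charpoly.coeff i)) :
    p ((chiPoly N ℓ f).coeff i) :=
  @h (HeckeInputs.betaFinite N ℓ)

variable {N ℓ}

/-- **(K-b)** from the Kronecker congruence and the cusp-chart integrality inputs. -/
theorem heckeInput_of_cusp {A : ValuationSubring Qb} (hℓ : ℓ.Prime) (hℓN : ¬ ℓ ∣ N)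
    (hA : A.LiesOverPrime ℓ) {s : Qb ≃ₐ[ℚ] Qb} (hs : A.IsFrobeniusAt s ℓ)
    (hKron : ∀ f : ↥(modularFunctionFieldBar N), GaussInt A (f : LaurentSeries Qb) → ∀ i : ℕ,
      GaussSmall A (((chiPoly N ℓ f).coeff i - (kronPoly N ℓ s f).coeff i :
        ↥(modularFunctionFieldBar N)) : LaurentSeries Qb))
    (hINTcusp : ∃ u : Polynomial A, IsUnit (u.coeff 0) ∧
      (GaussSmall.evAt A (heckeBetaBar Qb N ℓ (Fermat.Agent.S24.jBC Qb N)⁻¹)).IsIntegralElem
        (GaussSmall.evAt A (heckeBetaBar Qb N ℓ (Fermat.Agent.S24.jBC Qb N)⁻¹) u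
          * heckeAlphaBar Qb N ℓ (Fermat.Agent.S24.jBC Qb N)⁻¹))
    (hKC1cusp : ∀ f : ↥(modularFunctionFieldBar N), IsCuspInt A N f → ∀ i : ℕ,
      IsCuspInt A N ((chiPoly N ℓ f).coeff i)) :
    Final.HeckeInput A N ℓ s := by
  have hD : s ∈ A.decompositionSubgroup ℚ := hs.mem_decompositionSubgroup
  have hGI := GaussSmall.gaussIntProp N A hℓ hℓN hA
  have hKC1fin : ∀ f : ↥(modularFunctionFieldBar N), IsFinInt A N f → ∀ i : ℕ,
      IsFinInt A N ((chiPoly N ℓ f).coeff i) := fun f hf i =>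
    chiPoly_coeff_of_forall N ℓ (IsFinInt A N) f i
      (CharpolyChart.isFinInt_charpoly_coeff A N ℓ hℓ hf i)
  refine heckeInput hℓ hA hs (GaussSmall.valueProp N A) (GaussSmall.gaussSmallProp N A hℓ hℓN hA)
    (chiPoly N ℓ) ?_ ?_ hINTcusp ?_ ?_
  · intro hβ _ v f a ha i
    exact HeckeValue.charpoly_beta_coeff_isValueAt N ℓ hβ (HeckeInputs.betaFinite N ℓ) v _ a ha i
  · exact CharpolyChart.isIntegralElem_evAt_alpha A N ℓ hℓ isFinInt_j
  · intro f hf i
    exact ⟨(finSubring A N).sub_mem (hKC1fin f hf i) (kronPoly_coeff_isFinInt A N ℓ hD hf i),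
      hKron f (hGI.1 f hf) i⟩
  · intro f hf i
    exact ⟨(cuspSubring A N).sub_mem (hKC1cusp f hf i) (kronPoly_coeff_isCuspInt A N ℓ hD hf i),
      hKron f (hGI.2 f hf) i⟩

end

end Fermat.Agent.S37.KB
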