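import Mathlib
import Fermat.Prelude.Def_ModularCurve_HeckeOperator
import Fermat.Prelude.Thm_ModularCurve_coeffMap_qExpand
import Fermat.Agent.S24.Defs
import Fermat.Agent.S24.QLaurent

/-!
# S37, package R4.0: the Atkin–Lehner involution `w_ℓ` of the function field of `X₀(N ℓ)`

For `ℓ` coprime to `N` the polynomial relations among the `q`-expansions `j(q^e)`, `e ∣ N ℓ`, are
stable under the exchange `d ↔ d ℓ` (`d ∣ N`).  This is proved analytically: the relations hold
pointwise on the upper half plane, and the substitution `τ ↦ γ₀ (ℓ τ)` with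
`γ₀ = [[u, -v], [N, ℓ]]`, `u ℓ + v N = 1`, exchanges `j(d τ)` and `j(d ℓ τ)` up to `SL(2, ℤ)`.
Consequently there is an automorphism `w` of the function field exchanging the two degeneracy
embeddings `α` (inclusion) and `β` (`q ↦ q^ℓ`).
-/

set_option autoImplicit false
set_option linter.style.haveILetI false

open UpperHalfPlane hiding I
open Complex
open scoped MatrixGroups

namespace Fermat.Agent.S37.AtkinLehner

open ModularCurve Fermat.Agent.S24 Fermat.Agent.S20

/-! ### The analytic core -/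

/-- the dilation `z ↦ d z` of the upper half plane -/
noncomputable def dilH (d : ℕ) (hd : 0 < d) (z : ℍ) : ℍ :=
  ⟨(d : ℂ) * z, by
    have h1 : (0 : ℝ) < d := by exact_mod_cast hd
    simpa using mul_pos h1 z.im_pos⟩

theorem coe_dilH (d : ℕ) (hd : 0 < d) (z : ℍ) : ((dilH d hd z : ℍ) : ℂ) = d * z := rfl

/-- the element `[[a, b], [c, d]]` of `SL(2, ℤ)` -/
def mkSL (a b c d : ℤ) (h : a * d - b * c = 1) : SL(2, ℤ) :=
  ⟨!![a, b; c, d], by rw [Matrix.det_fin_two_of]; exact h⟩

theorem coe_mkSL_smul (a b c d : ℤ) (h : a * d - b * c = 1) (z : ℍ) :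
    ((mkSL a b c d h • z : ℍ) : ℂ) = ((a : ℂ) * z + b) / ((c : ℂ) * z + d) := by
  rw [UpperHalfPlane.coe_specialLinearGroup_apply]
  simp [mkSL]

theorem mkSL_denom_ne_zero (a b c d : ℤ) (h : a * d - b * c = 1) (z : ℍ) :
    ((c : ℂ) * z + d) ≠ 0 := by
  have h0 : ![(c : ℝ), (d : ℝ)] ≠ 0 := by
    intro h0
    have hc : (c : ℝ) = 0 := by simpa using congrFun h0 0
    have hd : (d : ℝ) = 0 := by simpa using congrFun h0 1
    have hc' : c = 0 := by exact_mod_cast hc
    have hd' : d = 0 := by exact_mod_cast hd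
    rw [hc', hd'] at h
    simp at h
  have := UpperHalfPlane.linear_ne_zero z h0
  simpa using this

/-- the Atkin–Lehner substitution `τ ↦ γ₀ (ℓ τ)` -/
noncomputable def atk (N l : ℕ) (hl : 0 < l) (u v : ℤ) (huv : u * l + v * N = 1) (z : ℍ) : ℍ :=
  mkSL u (-v) N l (by linarith) • dilH l hl z

theorem jFun_dilH_atk (N l : ℕ) (hl : 0 < l) (u v : ℤ) (huv : u * l + v * N = 1)
    (d : ℕ) (hd : 0 < d) (hdN : d ∣ N) (z : ℍ) :
    jFun (dilH d hd (atk N l hl u v huv z)) = jFun (dilH (d * l) (Nat.mul_pos hd hl) z) := by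
  obtain ⟨c, rfl⟩ := hdN
  have key : dilH d hd (atk (d * c) l hl u v huv z) =
      mkSL u (-(d * v)) c l (by push_cast at huv; linarith) • dilH (d * l) (Nat.mul_pos hd hl) z := by
    apply UpperHalfPlane.ext
    rw [coe_dilH, atk, coe_mkSL_smul, coe_mkSL_smul, coe_dilH, coe_dilH]
    have h1 := mkSL_denom_ne_zero u (-v) ((d * c : ℕ) : ℤ) l (by linarith) (dilH l hl z)
    have h2 := mkSL_denom_ne_zero u (-(d * v)) c l (by push_cast at huv; linarith)
      (dilH (d * l) (Nat.mul_pos hd hl) z)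
    rw [coe_dilH] at h1 h2
    rw [← mul_div_assoc, div_eq_div_iff h1 h2]
    push_cast
    ring
  rw [key, jFun_smul]

theorem jFun_dilH_mul_atk (N l : ℕ) (hl : 0 < l) (u v : ℤ) (huv : u * l + v * N = 1)
    (d : ℕ) (hd : 0 < d) (hdN : d ∣ N) (z : ℍ) :
    jFun (dilH (d * l) (Nat.mul_pos hd hl) (atk N l hl u v huv z)) = jFun (dilH d hd z) := by
  obtain ⟨c, rfl⟩ := hdN
  have key : dilH (d * l) (Nat.mul_pos hd hl) (atk (d * c) l hl u v huv z) =
      mkSL (l * u) (-(d * v)) c 1 (by push_cast at huv; linarith) • dilH d hd z := by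
    apply UpperHalfPlane.ext
    rw [coe_dilH, atk, coe_mkSL_smul, coe_mkSL_smul, coe_dilH, coe_dilH]
    have h1 := mkSL_denom_ne_zero u (-v) ((d * c : ℕ) : ℤ) l (by linarith) (dilH l hl z)
    have h2 := mkSL_denom_ne_zero (l * u) (-(d * v)) c 1 (by push_cast at huv; linarith)
      (dilH d hd z)
    rw [coe_dilH] at h1 h2
    rw [← mul_div_assoc, div_eq_div_iff h1 h2]
    push_cast
    ring
  rw [key, jFun_smul]

theorem dilH_congr {d d' : ℕ} (h : d = d') (hd : 0 < d) (hd' : 0 < d') (z : ℍ) :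
    dilH d hd z = dilH d' hd' z := by
  subst h; rfl

/-! ### The series `j(q^d)` with arbitrary coefficients -/

/-- the series `j(q^d)` over `L` (junk value `0` for `d = 0`) -/
noncomputable def jser (L : Type*) [Field L] [Algebra ℚ L] (d : ℕ) : LaurentSeries L :=
  if h : d = 0 then 0 else haveI : NeZero d := ⟨h⟩; coeffEmb L (qExpand ℚ d jq)

theorem jser_eq (L : Type*) [Field L] [Algebra ℚ L] (d : ℕ) [hd : NeZero d] :
    jser L d = coeffEmb L (qExpand ℚ d jq) := by
  rw [jser, dif_neg hd.out]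

/-- `τ ↦ j(d τ)` as a periodic function meromorphic at infinity -/
noncomputable def jPM (d : ℕ) (hd : 0 < d) : PM :=
  ⟨fun z => jFun (dilH d hd z),
    have : NeZero d := ⟨hd.ne'⟩
    (qLaurentFun_jd d (dilH d hd) (coe_dilH d hd)).1⟩

theorem jPM_apply (d : ℕ) (hd : 0 < d) (z : ℍ) : (jPM d hd : ℍ → ℂ) z = jFun (dilH d hd z) := rfl

theorem qLaurent_jPM (d : ℕ) (hd : 0 < d) : qLaurent (jPM d hd) = jser ℂ d := by
  haveI : NeZero d := ⟨hd.ne'⟩
  rw [jser_eq, qLaurent_apply]
  exact (qLaurentFun_jd d (dilH d hd) (coe_dilH d hd)).2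

/-- evaluation at a point as an algebra homomorphism on `PM` -/
noncomputable def evalPM (z : ℍ) : PM →ₐ[ℂ] ℂ :=
  (Pi.evalAlgHom ℂ (fun _ : ℍ => ℂ) z).comp PM.val

theorem evalPM_apply (z : ℍ) (f : PM) : evalPM z f = (f : ℍ → ℂ) z := rfl

/-- **Analytic swap.**  A polynomial relation among the series `j(q^(e i))` over `ℂ` remains
valid after exchanging `d ↔ d ℓ` for the divisors `d` of `N` (`ℓ` coprime to `N`). -/
theorem swap_rel_complex (N l : ℕ) (hl : 0 < l) (hcop : Nat.Coprime l N)
    {ι : Type*} (e e' : ι → ℕ) (he : ∀ i, 0 < e i) (he' : ∀ i, 0 < e' i)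
    (H : ∀ i, (e i ∣ N ∧ e' i = e i * l) ∨ (e' i ∣ N ∧ e i = e' i * l))
    (p : MvPolynomial ι ℂ)
    (hp : MvPolynomial.aeval (fun i => jser ℂ (e i)) p = 0) :
    MvPolynomial.aeval (fun i => jser ℂ (e' i)) p = 0 := by
  obtain ⟨u, v, huv⟩ := (Nat.isCoprime_iff_coprime.mpr hcop)
  -- the relation holds in `PM`
  have h1 : MvPolynomial.aeval (fun i => jPM (e i) (he i)) p = 0 := by
    apply qLaurent_injective
    rw [MvPolynomial.comp_aeval_apply, map_zero]
    simp only [qLaurent_jPM]
    exact hp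
  -- pointwise
  have h2 : ∀ z : ℍ, MvPolynomial.aeval (fun i => jFun (dilH (e i) (he i) z)) p = 0 := by
    intro z
    have := congrArg (evalPM z) h1
    rw [MvPolynomial.comp_aeval_apply, map_zero] at this
    exact this
  -- substitute the Atkin–Lehner map
  have h3 : ∀ z : ℍ, MvPolynomial.aeval (fun i => jFun (dilH (e' i) (he' i) z)) p = 0 := by
    intro z
    have h := h2 (atk N l hl u v huv z)
    have hfun : (fun i => jFun (dilH (e i) (he i) (atk N l hl u v huv z))) =
        fun i => jFun (dilH (e' i) (he' i) z) := by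
      funext i
      rcases H i with ⟨hdvd, heq⟩ | ⟨hdvd, heq⟩
      · rw [jFun_dilH_atk N l hl u v huv (e i) (he i) hdvd z]
        exact congrArg jFun (dilH_congr heq.symm _ _ z)
      · rw [dilH_congr heq (he i) (Nat.mul_pos (he' i) hl),
          jFun_dilH_mul_atk N l hl u v huv (e' i) (he' i) hdvd z]
    rw [hfun] at h
    exact h
  have h4 : MvPolynomial.aeval (fun i => jPM (e' i) (he' i)) p = 0 := by
    apply Subtype.ext
    funext z
    have := h3 z
    rw [← evalPM_apply, MvPolynomial.comp_aeval_apply]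
    exact this
  have h5 := congrArg qLaurent h4
  rw [MvPolynomial.comp_aeval_apply, map_zero] at h5
  simp only [qLaurent_jPM] at h5
  exact h5

/-! ### Transfer to an arbitrary coefficient field embedded in `ℂ` -/

theorem coeffMap_injective' {R S : Type*} [CommRing R] [CommRing S] (f : R →+* S)
    (hf : Function.Injective f) : Function.Injective (coeffMap f) := by
  intro x y hxy
  ext k
  apply hf
  rw [← coeffMap_coeff, ← coeffMap_coeff, hxy]

theorem coeffMap_jser {L : Type*} [Field L] [Algebra ℚ L] (ι₀ : L →+* ℂ) (d : ℕ) :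
    coeffMap ι₀ (jser L d) = jser ℂ d := by
  by_cases hd : d = 0
  · rw [jser, jser, dif_pos hd, dif_pos hd, map_zero]
  · haveI : NeZero d := ⟨hd⟩
    rw [jser_eq, jser_eq, coeffEmb, coeffEmb, coeffMap_coeffMap]
    exact coeffMap_congr (RingHom.ext fun c => by simp) _

theorem coeffMap_aeval {L : Type*} [Field L] (ι₀ : L →+* ℂ) {ι : Type*}
    (G : ι → LaurentSeries L) (p : MvPolynomial ι L) :
    coeffMap ι₀ (MvPolynomial.aeval G p) =
      MvPolynomial.aeval (fun i => coeffMap ι₀ (G i)) (MvPolynomial.map ι₀ p) := by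
  rw [MvPolynomial.map_aeval, MvPolynomial.aeval_def, MvPolynomial.eval₂_map,
    MvPolynomial.coe_eval₂Hom]
  congr 1
  refine RingHom.ext fun a => ?_
  simp only [RingHom.comp_apply]
  rw [algebraMap_laurentSeries_eq_single, algebraMap_laurentSeries_eq_single, coeffMap_single]

/-- **Swap of relations** over any field `L ⊆ ℂ`. -/
theorem swap_rel {L : Type*} [Field L] [Algebra ℚ L] (ι₀ : L →+* ℂ)
    (N l : ℕ) (hl : 0 < l) (hcop : Nat.Coprime l N)
    {ι : Type*} (e e' : ι → ℕ) (he : ∀ i, 0 < e i) (he' : ∀ i, 0 < e' i)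
    (H : ∀ i, (e i ∣ N ∧ e' i = e i * l) ∨ (e' i ∣ N ∧ e i = e' i * l))
    (p : MvPolynomial ι L)
    (hp : MvPolynomial.aeval (fun i => jser L (e i)) p = 0) :
    MvPolynomial.aeval (fun i => jser L (e' i)) p = 0 := by
  apply coeffMap_injective' ι₀ ι₀.injective
  rw [coeffMap_aeval, map_zero]
  simp only [coeffMap_jser]
  apply swap_rel_complex N l hl hcop e e' he he' H
  have := congrArg (coeffMap ι₀) hp
  rw [coeffMap_aeval, map_zero] at this
  simpa only [coeffMap_jser] using this

/-! ### The abstract construction -/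

/-- **Abstract swap.**  If the ideal of relations among a generating family `g` of a field
extension `K / L` is stable under an involution `s` of the index set, then `s` is induced by an
automorphism of `K`. -/
theorem exists_algEquiv_of_swap {L K : Type*} [Field L] [Field K] [Algebra L K]
    {ι : Type*} (g : ι → K) (hgen : IntermediateField.adjoin L (Set.range g) = ⊤)
    (s : ι → ι) (hs : ∀ i, s (s i) = i)
    (hker : ∀ p : MvPolynomial ι L, MvPolynomial.aeval g p = 0 →
      MvPolynomial.aeval (fun i => g (s i)) p = 0) :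
    ∃ w : K ≃ₐ[L] K, ∀ i, w (g i) = g (s i) := by
  classical
  let f : MvPolynomial ι L →ₐ[L] K := MvPolynomial.aeval g
  let f' : MvPolynomial ι L →ₐ[L] K := MvPolynomial.aeval (fun i => g (s i))
  let I : Ideal (MvPolynomial ι L) := RingHom.ker f.toRingHom
  have hI : ∀ a, a ∈ I ↔ f a = 0 := fun a => RingHom.mem_ker
  -- the converse of `hker`
  have hker' : ∀ p : MvPolynomial ι L, f' p = 0 → f p = 0 := by
    intro p hp
    have h1 : f (MvPolynomial.rename s p) = 0 := by
      show MvPolynomial.aeval g (MvPolynomial.rename s p) = 0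
      rw [MvPolynomial.aeval_rename]
      exact hp
    have h2 := hker _ h1
    rw [MvPolynomial.aeval_rename] at h2
    have h3 : ((fun i => g (s i)) ∘ s) = g := by
      funext i
      simp [hs]
    rw [h3] at h2
    exact h2
  let fbar : (MvPolynomial ι L ⧸ I) →ₐ[L] K :=
    Ideal.Quotient.liftₐ I f (fun a ha => (hI a).mp ha)
  have hfbar : ∀ p, fbar (Ideal.Quotient.mk I p) = f p := fun p => rfl
  have hfbar_inj : Function.Injective fbar := by
    rw [injective_iff_map_eq_zero]
    intro x hx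
    obtain ⟨p, rfl⟩ := Ideal.Quotient.mk_surjective x
    rw [hfbar] at hx
    exact Ideal.Quotient.eq_zero_iff_mem.mpr ((hI p).mpr hx)
  let w₀ : (MvPolynomial ι L ⧸ I) →ₐ[L] K :=
    Ideal.Quotient.liftₐ I f' (fun a ha => hker a ((hI a).mp ha))
  have hw₀ : ∀ p, w₀ (Ideal.Quotient.mk I p) = f' p := fun p => rfl
  have hw₀_inj : Function.Injective w₀ := by
    rw [injective_iff_map_eq_zero]
    intro x hx
    obtain ⟨p, rfl⟩ := Ideal.Quotient.mk_surjective x
    rw [hw₀] at hx
    exact Ideal.Quotient.eq_zero_iff_mem.mpr ((hI p).mpr (hker' p hx))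
  letI : Algebra (MvPolynomial ι L ⧸ I) K := fbar.toRingHom.toAlgebra
  have halg : ∀ x, algebraMap (MvPolynomial ι L ⧸ I) K x = fbar x := fun x => rfl
  haveI : IsScalarTower L (MvPolynomial ι L ⧸ I) K :=
    IsScalarTower.of_algebraMap_eq fun a => (fbar.commutes a).symm
  haveI : FaithfulSMul (MvPolynomial ι L ⧸ I) K :=
    (faithfulSMul_iff_algebraMap_injective _ _).mpr hfbar_inj
  have hrange : ∀ r ∈ Algebra.adjoin L (Set.range g), ∃ p, f p = r := by
    intro r hr
    rw [← MvPolynomial.aeval_range] at hr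
    exact hr
  haveI : IsFractionRing (MvPolynomial ι L ⧸ I) K := by
    refine IsFractionRing.of_field _ _ fun z => ?_
    have hz : z ∈ IntermediateField.adjoin L (Set.range g) := by
      rw [hgen]; exact IntermediateField.mem_top
    obtain ⟨r, hr, t, ht, rfl⟩ := IntermediateField.mem_adjoin_iff_div.mp hz
    obtain ⟨p, rfl⟩ := hrange r hr
    obtain ⟨q, rfl⟩ := hrange t ht
    exact ⟨Ideal.Quotient.mk I p, Ideal.Quotient.mk I q, rfl⟩
  let w : K →ₐ[L] K := IsFractionRing.liftAlgHom (K := K) hw₀_inj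
  have hw : ∀ x, w (fbar x) = w₀ x := by
    intro x
    rw [← halg]
    exact IsFractionRing.lift_algebraMap hw₀_inj x
  have hwg : ∀ i, w (g i) = g (s i) := by
    intro i
    have h1 : g i = fbar (Ideal.Quotient.mk I (MvPolynomial.X i)) := by
      rw [hfbar]
      exact (MvPolynomial.aeval_X g i).symm
    rw [h1, hw, hw₀]
    exact MvPolynomial.aeval_X _ i
  have hww : w.comp w = AlgHom.id L K := by
    have h1 : ((w.comp w).comp fbar) = ((AlgHom.id L K).comp fbar) := by
      apply Ideal.Quotient.algHom_ext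
      apply MvPolynomial.algHom_ext
      intro i
      simp only [AlgHom.comp_apply, Ideal.Quotient.mkₐ_eq_mk, AlgHom.id_apply]
      rw [hfbar]
      show w (w (MvPolynomial.aeval g (MvPolynomial.X i))) = MvPolynomial.aeval g (MvPolynomial.X i)
      rw [MvPolynomial.aeval_X, hwg, hwg, hs]
    apply AlgHom.coe_ringHom_injective
    refine IsLocalization.ringHom_ext (nonZeroDivisors (MvPolynomial ι L ⧸ I))
      (RingHom.ext fun x => ?_)
    have := AlgHom.congr_fun h1 x
    simpa [halg] using this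
  exact ⟨AlgEquiv.ofAlgHom w w hww hww, hwg⟩

/-! ### Generators of the function field -/

theorem jser_mem (L : Type*) [Field L] [Algebra ℚ L] (M d : ℕ) (hM : M ≠ 0) (hd : d ∣ M) :
    jser L d ∈ laurentBaseChange L (modularFunctionFieldFull M) := by
  have hd0 : d ≠ 0 := fun h => hM (by rw [h] at hd; exact Nat.eq_zero_of_zero_dvd hd)
  haveI : NeZero d := ⟨hd0⟩
  rw [jser_eq]
  exact coeffEmb_mem_laurentBaseChange L (jqd_mem_full M hd)

/-- an intermediate field of `FF L M` containing all the `j(q^d)`, `d ∣ M`, is everything -/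
theorem eq_top_of_jser_mem {L : Type*} [Field L] [Algebra ℚ L] (M : ℕ)
    (E : IntermediateField L (FF L M))
    (h : ∀ (d : ℕ), d ∣ M → ∀ x : FF L M, (x : LaurentSeries L) = jser L d → x ∈ E) :
    E = ⊤ := by
  rw [eq_top_iff]
  intro y _
  have hle : laurentBaseChange L (modularFunctionFieldFull M) ≤ IntermediateField.lift E := by
    change IntermediateField.adjoin L
      (⇑(coeffEmb L) '' ((modularFunctionFieldFull M : IntermediateField ℚ (LaurentSeries ℚ)) :
        Set (LaurentSeries ℚ))) ≤ _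
    rw [IntermediateField.adjoin_le_iff]
    rintro _ ⟨x, hx, rfl⟩
    have hx' : x ∈ Subfield.closure
        (Set.range (algebraMap ℚ (LaurentSeries ℚ)) ∪ divisorExpansions M) := hx
    have hle2 : Subfield.closure
        (Set.range (algebraMap ℚ (LaurentSeries ℚ)) ∪ divisorExpansions M)
          ≤ (IntermediateField.lift E).toSubfield.comap (coeffEmb L) := by
      rw [Subfield.closure_le]
      rintro z (⟨a, rfl⟩ | ⟨d, hne, hd, rfl⟩)
      · show coeffEmb L (algebraMap ℚ (LaurentSeries ℚ) a) ∈ IntermediateField.lift E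
        have : coeffEmb L (algebraMap ℚ (LaurentSeries ℚ) a)
            = algebraMap L (LaurentSeries L) (algebraMap ℚ L a) := by
          rw [algebraMap_apply_eq_single, algebraMap_laurentSeries_eq_single, coeffEmb,
            coeffMap_single]
        rw [this]
        exact (IntermediateField.lift E).algebraMap_mem _
      · show coeffEmb L (qExpand ℚ d jq) ∈ IntermediateField.lift E
        have hmem : coeffEmb L (qExpand ℚ d jq) ∈ laurentBaseChange L (modularFunctionFieldFull M) :=
          coeffEmb_mem_laurentBaseChange L (jqd_mem_full M hd)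
        have h1 : (⟨coeffEmb L (qExpand ℚ d jq), hmem⟩ : FF L M) ∈ E :=
          h d hd _ (jser_eq L d).symm
        exact (IntermediateField.mem_lift (⟨coeffEmb L (qExpand ℚ d jq), hmem⟩ : FF L M)).mpr h1
    exact hle2 hx'
  exact (IntermediateField.mem_lift y).mp (hle y.2)

/-- two `L`-algebra homomorphisms out of `FF L M` agreeing on the `j(q^d)`, `d ∣ M`, are equal -/
theorem algHom_ext_FF {L : Type*} [Field L] [Algebra ℚ L] (M : ℕ)
    {K' : Type*} [Field K'] [Algebra L K'] (φ₁ φ₂ : FF L M →ₐ[L] K')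
    (h : ∀ (d : ℕ), d ∣ M → ∀ x : FF L M, (x : LaurentSeries L) = jser L d → φ₁ x = φ₂ x) :
    φ₁ = φ₂ := by
  let E : IntermediateField L (FF L M) :=
    (AlgHom.equalizer φ₁ φ₂).toIntermediateField (fun x hx => by
      have hx' : φ₁ x = φ₂ x := hx
      show φ₁ x⁻¹ = φ₂ x⁻¹
      rw [map_inv₀, map_inv₀, hx'])
  have hE : E = ⊤ := eq_top_of_jser_mem M E (fun d hd x hx => h d hd x hx)
  refine AlgHom.ext fun x => ?_
  have hx : x ∈ E := by rw [hE]; exact IntermediateField.mem_top
  exact hx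

/-! ### The Atkin–Lehner involution -/

/-- the index set: two copies of the divisors of `N` -/
abbrev Idx (N : ℕ) : Type := {d : ℕ // d ∣ N} ⊕ {d : ℕ // d ∣ N}

/-- the level of a generator -/
def lev (N l : ℕ) : Idx N → ℕ := Sum.elim (fun d => d.1) (fun d => d.1 * l)

theorem lev_dvd (N l : ℕ) (i : Idx N) : lev N l i ∣ N * l := by
  rcases i with d | d
  · exact d.2.trans (dvd_mul_right N l)
  · exact Nat.mul_dvd_mul d.2 dvd_rfl

theorem lev_pos (N l : ℕ) (hN : N ≠ 0) (hl : 0 < l) (i : Idx N) : 0 < lev N l i := by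
  have h : ∀ d : {d : ℕ // d ∣ N}, 0 < d.1 := fun d => Nat.pos_of_dvd_of_pos d.2 (Nat.pos_of_ne_zero hN)
  rcases i with d | d
  · exact h d
  · exact Nat.mul_pos (h d) hl

/-- the generators `j(q^d)`, `j(q^(d ℓ))`, `d ∣ N`, of the function field of `X₀(N ℓ)` -/
noncomputable def gen (L : Type*) [Field L] [Algebra ℚ L] (N l : ℕ) (hN : N ≠ 0) (hl : l ≠ 0)
    (i : Idx N) : FF L (N * l) :=
  ⟨jser L (lev N l i), jser_mem L (N * l) _ (Nat.mul_ne_zero hN hl) (lev_dvd N l i)⟩

theorem coe_gen (L : Type*) [Field L] [Algebra ℚ L] (N l : ℕ) (hN : N ≠ 0) (hl : l ≠ 0)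
    (i : Idx N) : ((gen L N l hN hl i : FF L (N * l)) : LaurentSeries L) = jser L (lev N l i) := rfl

theorem adjoin_gen (L : Type*) [Field L] [Algebra ℚ L] (N l : ℕ) (hN : N ≠ 0) (hl : l.Prime) :
    IntermediateField.adjoin L (Set.range (gen L N l hN hl.ne_zero)) = ⊤ := by
  apply eq_top_of_jser_mem
  intro d hd x hx
  by_cases hld : l ∣ d
  · obtain ⟨c, rfl⟩ := hld
    have hc : c ∣ N := by
      rw [mul_comm N l] at hd
      exact Nat.dvd_of_mul_dvd_mul_left hl.pos hd
    have : x = gen L N l hN hl.ne_zero (Sum.inr ⟨c, hc⟩) := by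
      apply Subtype.ext
      rw [hx, coe_gen]
      show jser L (l * c) = jser L (c * l)
      rw [mul_comm]
    rw [this]
    exact IntermediateField.subset_adjoin L _ ⟨_, rfl⟩
  · have hc : d ∣ N := (Nat.Coprime.dvd_of_dvd_mul_right
      ((Nat.Prime.coprime_iff_not_dvd hl).mpr hld).symm hd)
    have : x = gen L N l hN hl.ne_zero (Sum.inl ⟨d, hc⟩) := by
      apply Subtype.ext
      rw [hx, coe_gen]
      rfl
    rw [this]
    exact IntermediateField.subset_adjoin L _ ⟨_, rfl⟩

/-- **The Atkin–Lehner involution**, generator form. -/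
theorem exists_atkinLehner_gen {L : Type*} [Field L] [Algebra ℚ L] (ι₀ : L →+* ℂ)
    (N l : ℕ) (hN : N ≠ 0) (hl : l.Prime) (hNl : ¬ l ∣ N) :
    ∃ w : FF L (N * l) ≃ₐ[L] FF L (N * l),
      ∀ i : Idx N, w (gen L N l hN hl.ne_zero i) = gen L N l hN hl.ne_zero i.swap := by
  refine exists_algEquiv_of_swap (gen L N l hN hl.ne_zero) (adjoin_gen L N l hN hl) Sum.swap
    (fun i => Sum.swap_swap i) ?_
  intro p hp
  have hval : ∀ G : Idx N → FF L (N * l),
      ((MvPolynomial.aeval G p : FF L (N * l)) : LaurentSeries L) =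
        MvPolynomial.aeval (fun i => ((G i : FF L (N * l)) : LaurentSeries L)) p := by
    intro G
    exact MvPolynomial.comp_aeval_apply G
      (IntermediateField.val (laurentBaseChange L (modularFunctionFieldFull (N * l)))) p
  apply Subtype.ext
  rw [hval]
  have h0 := congrArg (fun x : FF L (N * l) => (x : LaurentSeries L)) hp
  simp only [hval] at h0
  have hcop : Nat.Coprime l N := (Nat.Prime.coprime_iff_not_dvd hl).mpr hNl
  have key := swap_rel ι₀ N l hl.pos hcop (lev N l) (fun i => lev N l i.swap)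
    (lev_pos N l hN hl.pos) (fun i => lev_pos N l hN hl.pos i.swap) (fun i => by
      rcases i with d | d
      · exact Or.inl ⟨d.2, rfl⟩
      · exact Or.inr ⟨d.2, rfl⟩) p h0
  exact key

/-- **The Atkin–Lehner involution** of the function field of `X₀(N ℓ)`, `ℓ ∤ N` prime:
an automorphism exchanging the two degeneracy embeddings `α` (inclusion) and `β` (`q ↦ q^ℓ`). -/
theorem exists_atkinLehner_of_emb {L : Type*} [Field L] [Algebra ℚ L] (ι₀ : L →+* ℂ)
    (N l : ℕ) [NeZero N] [NeZero l] (hl : l.Prime) (hNl : ¬ l ∣ N) :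
    ∃ w : FF L (N * l) ≃ₐ[L] FF L (N * l),
      (w : FF L (N * l) →ₐ[L] FF L (N * l)).comp (heckeAlphaBar L N l) = heckeBetaBar L N l ∧
      (w : FF L (N * l) →ₐ[L] FF L (N * l)).comp (heckeBetaBar L N l) = heckeAlphaBar L N l := by
  have hN : N ≠ 0 := NeZero.ne N
  obtain ⟨w, hw⟩ := exists_atkinLehner_gen ι₀ N l hN hl hNl
  have hα : ∀ (d : ℕ) (hd : d ∣ N) (x : FF L N), (x : LaurentSeries L) = jser L d →
      heckeAlphaBar L N l x = gen L N l hN hl.ne_zero (Sum.inl ⟨d, hd⟩) := by
    intro d hd x hx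
    apply Subtype.ext
    rw [coe_heckeAlphaBar, hx, coe_gen]
    rfl
  have hβ : ∀ (d : ℕ) (hd : d ∣ N) (x : FF L N), (x : LaurentSeries L) = jser L d →
      heckeBetaBar L N l x = gen L N l hN hl.ne_zero (Sum.inr ⟨d, hd⟩) := by
    intro d hd x hx
    have hd0 : d ≠ 0 := fun h => hN (by rw [h] at hd; exact Nat.eq_zero_of_zero_dvd hd)
    haveI : NeZero d := ⟨hd0⟩
    apply Subtype.ext
    rw [coe_heckeBetaBar, hx, coe_gen]
    show qExpand L l (jser L d) = jser L (d * l)
    rw [jser_eq, jser_eq, coeffEmb, ← coeffMap_qExpand, qExpand_qExpand]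
    exact congrArg _ (qExpand_congr (mul_comm l d) _)
  refine ⟨w, ?_, ?_⟩
  · apply algHom_ext_FF
    intro d hd x hx
    rw [AlgHom.comp_apply, hα d hd x hx, hβ d hd x hx]
    exact hw _
  · apply algHom_ext_FF
    intro d hd x hx
    rw [AlgHom.comp_apply, hα d hd x hx, hβ d hd x hx]
    exact hw _

/-- the Atkin–Lehner involution over `ℚ̄` -/
theorem exists_atkinLehner (N l : ℕ) [NeZero N] [NeZero l] (hl : l.Prime) (hNl : ¬ l ∣ N) :
    ∃ w : ↥(modularFunctionFieldBar (N * l)) ≃ₐ[AlgebraicClosure ℚ]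
        ↥(modularFunctionFieldBar (N * l)),
      (w : ↥(modularFunctionFieldBar (N * l)) →ₐ[AlgebraicClosure ℚ]
          ↥(modularFunctionFieldBar (N * l))).comp (heckeAlphaBar (AlgebraicClosure ℚ) N l)
        = heckeBetaBar (AlgebraicClosure ℚ) N l ∧
      (w : ↥(modularFunctionFieldBar (N * l)) →ₐ[AlgebraicClosure ℚ]
          ↥(modularFunctionFieldBar (N * l))).comp (heckeBetaBar (AlgebraicClosure ℚ) N l)
        = heckeAlphaBar (AlgebraicClosure ℚ) N l := by
  obtain ⟨ι₀⟩ : Nonempty (AlgebraicClosure ℚ →+* ℂ) := by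
    letI : Algebra ℚ (AlgebraicClosure ℚ) :=
      @AlgebraicClosure.instAlgebra ℚ _ ℚ _ (Algebra.id ℚ)
    exact ⟨(IsAlgClosed.lift : AlgebraicClosure ℚ →ₐ[ℚ] ℂ).toRingHom⟩
  exact exists_atkinLehner_of_emb ι₀ N l hl hNl

end Fermat.Agent.S37.AtkinLehner
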