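import Mathlib
import Fermat.Prelude.Def_ModularCurve_HeckeOperator
import Fermat.Agent.S24.Defs
import Fermat.Agent.S24.CoeffBC
import Fermat.Agent.S24.ComplexPlaces
import Fermat.Agent.S24.BaseChange
import Fermat.Agent.S24.Hurwitz
import Fermat.Agent.S20.Comb
import Fermat.Agent.S28.SeriesBasic
import Fermat.Agent.S37.AtkinLehner

/-!
# S37, package R4a: the conjugates of the function field of `X₀(N ℓ)` over `β(F_N)`

For a prime `ℓ ∤ N` the function field `F' = F_{N ℓ}` has degree `ℓ + 1` over both degeneracy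
images `α(F_N)` (inclusion) and `β(F_N)` (`q ↦ q^ℓ`).  The `ℓ + 1` embeddings of `F'` over
`β(F_N)` into `Qbar((q))` are the twists `q ↦ ζ^b q` (`b < ℓ`) and the map
`σ_∞ = (q ↦ q^ℓ) ∘ w`, where `w` is the Atkin–Lehner involution.  Consequently the
characteristic polynomial over `β(F_N)` of any `x ∈ F'` factors over `Qbar((q))` as
`(X - σ_∞ x) ∏_b (X - x(ζ^b q))`.
-/

set_option autoImplicit false
set_option linter.style.haveILetI false

open scoped MatrixGroups

namespace Fermat.Agent.S37.Conjugates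

open ModularCurve AlgebraicCurve IntermediateField Polynomial Fermat.Agent.S24

/-! ### Degrees -/

/-- the degree of the function field of `X₀(N)` over `Qbar(j)` -/
theorem finrank_jBC (N : ℕ) [NeZero N] :
    Transcendental (AlgebraicClosure ℚ) (jBC (AlgebraicClosure ℚ) N) ∧
    FiniteDimensional (AlgebraicClosure ℚ)⟮jBC (AlgebraicClosure ℚ) N⟯
      (FF (AlgebraicClosure ℚ) N) ∧
    Module.finrank (AlgebraicClosure ℚ)⟮jBC (AlgebraicClosure ℚ) N⟯
      (FF (AlgebraicClosure ℚ) N) = dedekindPsi N := by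
  obtain ⟨ι, φ, hφ, hLD, hgen, hφj⟩ := exists_barToComplex N
  obtain ⟨hxC, hfdC, hdegC, -⟩ := complex_places N
  have hxC' : Transcendental ℂ (φ (jBC (AlgebraicClosure ℚ) N)) := by rw [hφj]; exact hxC
  have hfdC' : FiniteDimensional ℂ⟮φ (jBC (AlgebraicClosure ℚ) N)⟯ (FF ℂ N) := by
    rw [hφj]; exact hfdC
  obtain ⟨hx, hfd, hdeg⟩ := baseChange_finrank ι φ hφ hLD hgen (jBC (AlgebraicClosure ℚ) N) hxC'
  refine ⟨hx, hfd, ?_⟩
  rw [hdeg, ← Fermat.Agent.S20.index_Gamma0 N, Subgroup.index, ← hdegC]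
  exact Hurwitz.finrank_congr (congrArg (fun t => ℂ⟮t⟯) hφj)

/-- tower law along an algebra homomorphism, over a simple subextension -/
theorem finrank_mul_finrankAlong {K F F' : Type*} [Field K] [Field F] [Field F'] [Algebra K F]
    [Algebra K F'] (φ : F →ₐ[K] F') (x : F) :
    Module.finrank K⟮x⟯ F * finrankAlong K φ = Module.finrank K⟮φ x⟯ F' := by
  letI := algebraAlong φ
  letI : Algebra K⟮x⟯ F' := ((algebraMap F F').comp (algebraMap K⟮x⟯ F)).toAlgebra
  haveI : IsScalarTower K⟮x⟯ F F' := IsScalarTower.of_algebraMap_eq (fun _ => rfl)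
  have h1 : Module.finrank K⟮x⟯ F * finrankAlong K φ = Module.finrank K⟮x⟯ F' :=
    Module.finrank_mul_finrank K⟮x⟯ F F'
  rw [h1]
  have hmap : (K⟮x⟯ : IntermediateField K F).map φ = K⟮φ x⟯ := by
    rw [IntermediateField.adjoin_map]
    simp
  let i : K⟮x⟯ ≃+* K⟮φ x⟯ :=
    ((IntermediateField.equivMap K⟮x⟯ φ).trans (IntermediateField.equivOfEq hmap)).toRingEquiv
  refine Algebra.finrank_eq_of_equiv_equiv i (RingEquiv.refl F') ?_
  ext a
  rfl

/-- transport of the degree along an automorphism of the target -/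
theorem finrankAlong_eq_of_comp {K F F' : Type*} [Field K] [Field F] [Field F'] [Algebra K F]
    [Algebra K F'] (φ ψ : F →ₐ[K] F') (w : F' ≃ₐ[K] F')
    (h : (w : F' →ₐ[K] F').comp φ = ψ) : finrankAlong K ψ = finrankAlong K φ := by
  unfold finrankAlong
  refine (@Algebra.finrank_eq_of_equiv_equiv F F' _ _ (algebraAlong φ) F F' _ _ (algebraAlong ψ)
    (RingEquiv.refl F) w.toRingEquiv ?_).symm
  ext a
  exact (congrArg (fun χ : F →ₐ[K] F' => χ a) h).symm

theorem heckeAlphaBar_jBC (N l : ℕ) [NeZero N] [NeZero l] :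
    heckeAlphaBar (AlgebraicClosure ℚ) N l (jBC (AlgebraicClosure ℚ) N) =
      jBC (AlgebraicClosure ℚ) (N * l) :=
  Subtype.ext (by rw [coe_heckeAlphaBar, coe_jBC, coe_jBC])

/-- **(D1)** `[F_{N ℓ} : α(F_N)] = ℓ + 1`. -/
theorem finrankAlong_alpha (N l : ℕ) [NeZero N] [NeZero l] (hl : l.Prime) (hNl : ¬ l ∣ N) :
    finrankAlong (AlgebraicClosure ℚ) (heckeAlphaBar (AlgebraicClosure ℚ) N l) = l + 1 := by
  have h1 := finrank_mul_finrankAlong (heckeAlphaBar (AlgebraicClosure ℚ) N l)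
    (jBC (AlgebraicClosure ℚ) N)
  have h2 : dedekindPsi (N * l) = (l + 1) * dedekindPsi N := by
    rw [mul_comm N l]
    exact Fermat.Agent.S20.Comb.dedekindPsi_mul_of_not_dvd (NeZero.ne N) hl hNl
  rw [heckeAlphaBar_jBC, (finrank_jBC N).2.2, (finrank_jBC (N * l)).2.2, h2, mul_comm] at h1
  have h0 : dedekindPsi N ≠ 0 := by
    rw [← (finrank_jBC N).2.2]
    haveI := (finrank_jBC N).2.1
    exact Module.finrank_pos.ne'
  exact mul_right_cancel₀ h0 h1

/-- **(D2)** `[F_{N ℓ} : β(F_N)] = ℓ + 1`. -/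
theorem finrankAlong_beta (N l : ℕ) [NeZero N] [NeZero l] (hl : l.Prime) (hNl : ¬ l ∣ N) :
    finrankAlong (AlgebraicClosure ℚ) (heckeBetaBar (AlgebraicClosure ℚ) N l) = l + 1 := by
  obtain ⟨w, hwα, -⟩ := Fermat.Agent.S37.AtkinLehner.exists_atkinLehner N l hl hNl
  rw [finrankAlong_eq_of_comp _ _ w hwα]
  exact finrankAlong_alpha N l hl hNl

/-! ### Abstract conjugates lemmas -/

/-- **Abstract conjugates lemma, norm form.**  If `F'/F` is finite separable of degree `n` and
`σ_1, …, σ_n : F' → E` are pairwise distinct ring homomorphisms into a field restricting to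
`ι` on `F`, then `ι (N_{F'/F} x) = ∏ σ_i x`. -/
theorem norm_map_eq_prod {F F' E : Type*} [Field F] [Field F'] [Field E] [Algebra F F']
    [FiniteDimensional F F'] [Algebra.IsSeparable F F'] (ι : F →+* E)
    {n : Type*} [Fintype n] (σ : n → (F' →+* E))
    (hσ : ∀ i g, σ i (algebraMap F F' g) = ι g) (hinj : Function.Injective σ)
    (hcard : Fintype.card n = Module.finrank F F') (x : F') :
    ι (Algebra.norm F x) = ∏ i, σ i x := by
  classical
  letI : Algebra F (AlgebraicClosure E) := ((algebraMap E (AlgebraicClosure E)).comp ι).toAlgebra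
  let emb : n → (F' →ₐ[F] AlgebraicClosure E) := fun i =>
    { toRingHom := (algebraMap E (AlgebraicClosure E)).comp (σ i)
      commutes' := fun g => by
        show algebraMap E (AlgebraicClosure E) (σ i (algebraMap F F' g)) =
          algebraMap E (AlgebraicClosure E) (ι g)
        rw [hσ] }
  have hemb : ∀ i y, emb i y = algebraMap E (AlgebraicClosure E) (σ i y) := fun i y => rfl
  have hinj' : Function.Injective emb := by
    intro i j hij
    apply hinj
    ext y
    apply (algebraMap E (AlgebraicClosure E)).injective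
    rw [← hemb, ← hemb, hij]
  have hbij : Function.Bijective emb := by
    rw [Fintype.bijective_iff_injective_and_card]
    exact ⟨hinj', by rw [hcard, AlgHom.card]⟩
  apply (algebraMap E (AlgebraicClosure E)).injective
  have h1 := Algebra.norm_eq_prod_embeddings F (AlgebraicClosure E) x
  have h2 : algebraMap F (AlgebraicClosure E) (Algebra.norm F x) =
      algebraMap E (AlgebraicClosure E) (ι (Algebra.norm F x)) := rfl
  rw [← h2, h1, map_prod]
  exact (Fintype.prod_bijective emb hbij _ _ (fun i => hemb i x)).symm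

/-- **Abstract conjugates lemma, characteristic polynomial form.** -/
theorem charpoly_map_eq_prod {F F' E : Type*} [Field F] [Infinite F] [Field F'] [Field E]
    [Algebra F F'] [FiniteDimensional F F'] [Algebra.IsSeparable F F'] (ι : F →+* E)
    {n : Type*} [Fintype n] (σ : n → (F' →+* E))
    (hσ : ∀ i g, σ i (algebraMap F F' g) = ι g) (hinj : Function.Injective σ)
    (hcard : Fintype.card n = Module.finrank F F') (x : F') :
    ((LinearMap.mulLeft F x).charpoly).map ι = ∏ i, (X - C (σ i x)) := by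
  classical
  apply Polynomial.eq_of_infinite_eval_eq
  refine Set.Infinite.mono ?_ (Set.infinite_range_of_injective ι.injective)
  rintro _ ⟨t, rfl⟩
  rw [Set.mem_ofPred_eq, Polynomial.eval_map, Polynomial.eval₂_at_apply, LinearMap.eval_charpoly,
    Polynomial.eval_prod]
  have h3 : algebraMap F (Module.End F F') t - LinearMap.mulLeft F x =
      Algebra.lmul F F' (algebraMap F F' t - x) := by
    ext v
    simp [Algebra.smul_def]
  rw [h3, ← Algebra.norm_apply, norm_map_eq_prod ι σ hσ hinj hcard]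
  refine Finset.prod_congr rfl fun i _ => ?_
  rw [map_sub, hσ]
  simp

/-- **Abstract conjugates lemma, trace form.** -/
theorem trace_map_eq_sum {F F' E : Type*} [Field F] [Field F'] [Field E] [Algebra F F']
    [FiniteDimensional F F'] [Algebra.IsSeparable F F'] (ι : F →+* E)
    {n : Type*} [Fintype n] (σ : n → (F' →+* E))
    (hσ : ∀ i g, σ i (algebraMap F F' g) = ι g) (hinj : Function.Injective σ)
    (hcard : Fintype.card n = Module.finrank F F') (x : F') :
    ι (Algebra.trace F F' x) = ∑ i, σ i x := by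
  classical
  letI : Algebra F (AlgebraicClosure E) := ((algebraMap E (AlgebraicClosure E)).comp ι).toAlgebra
  let emb : n → (F' →ₐ[F] AlgebraicClosure E) := fun i =>
    { toRingHom := (algebraMap E (AlgebraicClosure E)).comp (σ i)
      commutes' := fun g => by
        show algebraMap E (AlgebraicClosure E) (σ i (algebraMap F F' g)) =
          algebraMap E (AlgebraicClosure E) (ι g)
        rw [hσ] }
  have hemb : ∀ i y, emb i y = algebraMap E (AlgebraicClosure E) (σ i y) := fun i y => rfl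
  have hinj' : Function.Injective emb := by
    intro i j hij
    apply hinj
    ext y
    apply (algebraMap E (AlgebraicClosure E)).injective
    rw [← hemb, ← hemb, hij]
  have hbij : Function.Bijective emb := by
    rw [Fintype.bijective_iff_injective_and_card]
    exact ⟨hinj', by rw [hcard, AlgHom.card]⟩
  apply (algebraMap E (AlgebraicClosure E)).injective
  have h1 := trace_eq_sum_embeddings (K := F) (L := F') (AlgebraicClosure E) (x := x)
  have h2 : algebraMap F (AlgebraicClosure E) (Algebra.trace F F' x) =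
      algebraMap E (AlgebraicClosure E) (ι (Algebra.trace F F' x)) := rfl
  rw [← h2, h1, map_sum]
  exact (Fintype.sum_bijective emb hbij _ _ (fun i => hemb i x)).symm


/-! ### The conjugates -/

/-- the inclusion of the function field into the field of Laurent series -/
noncomputable def coeHom (M : ℕ) :
    FF (AlgebraicClosure ℚ) M →+* LaurentSeries (AlgebraicClosure ℚ) :=
  algebraMap (FF (AlgebraicClosure ℚ) M) (LaurentSeries (AlgebraicClosure ℚ))

theorem coeHom_apply (M : ℕ) (x : FF (AlgebraicClosure ℚ) M) :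
    coeHom M x = (x : LaurentSeries (AlgebraicClosure ℚ)) := rfl

theorem coeHom_injective (M : ℕ) : Function.Injective (coeHom M) := (coeHom M).injective

/-- the base embedding `F_N → Qbar((q))`, `g ↦ g(q^ℓ)` (the inclusion of `β(F_N)`) -/
noncomputable def baseHom (N l : ℕ) [NeZero N] [NeZero l] :
    FF (AlgebraicClosure ℚ) N →+* LaurentSeries (AlgebraicClosure ℚ) :=
  (coeHom (N * l)).comp (heckeBetaBar (AlgebraicClosure ℚ) N l).toRingHom

theorem baseHom_apply (N l : ℕ) [NeZero N] [NeZero l] (g : FF (AlgebraicClosure ℚ) N) :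
    baseHom N l g = qExpand (AlgebraicClosure ℚ) l (g : LaurentSeries (AlgebraicClosure ℚ)) :=
  rfl

theorem baseHom_eq_coeHom_beta (N l : ℕ) [NeZero N] [NeZero l] (g : FF (AlgebraicClosure ℚ) N) :
    baseHom N l g = coeHom (N * l) (heckeBetaBar (AlgebraicClosure ℚ) N l g) := rfl

/-- the twisted embeddings `x(q) ↦ x(ζ^b q)` -/
noncomputable def rot (N l : ℕ) (ζ : (AlgebraicClosure ℚ)ˣ) (b : ℕ) :
    FF (AlgebraicClosure ℚ) (N * l) →+* LaurentSeries (AlgebraicClosure ℚ) :=
  (Fermat.Agent.S28.tw (ζ ^ b)).comp (coeHom (N * l))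

theorem rot_apply (N l : ℕ) (ζ : (AlgebraicClosure ℚ)ˣ) (b : ℕ)
    (x : FF (AlgebraicClosure ℚ) (N * l)) :
    rot N l ζ b x = Fermat.Agent.S28.tw (ζ ^ b) (x : LaurentSeries (AlgebraicClosure ℚ)) := rfl

theorem rot_beta (N l : ℕ) [NeZero N] [NeZero l] (ζ : (AlgebraicClosure ℚ)ˣ) (hζ : ζ ^ l = 1)
    (b : ℕ) (g : FF (AlgebraicClosure ℚ) N) :
    rot N l ζ b (heckeBetaBar (AlgebraicClosure ℚ) N l g) = baseHom N l g := by
  rw [rot_apply, coe_heckeBetaBar, baseHom_apply]
  exact Fermat.Agent.S28.tw_qExpand_of_pow_eq_one (ζ ^ b) l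
    (by rw [← pow_mul, mul_comm, pow_mul, hζ, one_pow]) _

theorem rot_alpha (N l : ℕ) [NeZero N] [NeZero l] (ζ : (AlgebraicClosure ℚ)ˣ) (b : ℕ)
    (f : FF (AlgebraicClosure ℚ) N) :
    rot N l ζ b (heckeAlphaBar (AlgebraicClosure ℚ) N l f) =
      Fermat.Agent.S28.tw (ζ ^ b) (f : LaurentSeries (AlgebraicClosure ℚ)) := by
  rw [rot_apply, coe_heckeAlphaBar]

/-- the extra embedding `σ_∞ = (q ↦ q^ℓ) ∘ w` -/
noncomputable def sigmaInf (N l : ℕ) [NeZero l]
    (w : FF (AlgebraicClosure ℚ) (N * l) ≃ₐ[AlgebraicClosure ℚ] FF (AlgebraicClosure ℚ) (N * l)) :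
    FF (AlgebraicClosure ℚ) (N * l) →+* LaurentSeries (AlgebraicClosure ℚ) :=
  (qExpand (AlgebraicClosure ℚ) l).comp ((coeHom (N * l)).comp
    (w : FF (AlgebraicClosure ℚ) (N * l) →+* FF (AlgebraicClosure ℚ) (N * l)))

theorem sigmaInf_apply (N l : ℕ) [NeZero l]
    (w : FF (AlgebraicClosure ℚ) (N * l) ≃ₐ[AlgebraicClosure ℚ] FF (AlgebraicClosure ℚ) (N * l))
    (x : FF (AlgebraicClosure ℚ) (N * l)) :
    sigmaInf N l w x = qExpand (AlgebraicClosure ℚ) l
      ((w x : FF (AlgebraicClosure ℚ) (N * l)) : LaurentSeries (AlgebraicClosure ℚ)) := rfl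

theorem sigmaInf_beta (N l : ℕ) [NeZero N] [NeZero l]
    (w : FF (AlgebraicClosure ℚ) (N * l) ≃ₐ[AlgebraicClosure ℚ] FF (AlgebraicClosure ℚ) (N * l))
    (hwβ : (w : FF (AlgebraicClosure ℚ) (N * l) →ₐ[AlgebraicClosure ℚ]
      FF (AlgebraicClosure ℚ) (N * l)).comp (heckeBetaBar (AlgebraicClosure ℚ) N l) =
        heckeAlphaBar (AlgebraicClosure ℚ) N l)
    (g : FF (AlgebraicClosure ℚ) N) :
    sigmaInf N l w (heckeBetaBar (AlgebraicClosure ℚ) N l g) = baseHom N l g := by
  have h : w (heckeBetaBar (AlgebraicClosure ℚ) N l g) = heckeAlphaBar (AlgebraicClosure ℚ) N l g :=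
    congrArg (fun χ : FF (AlgebraicClosure ℚ) N →ₐ[AlgebraicClosure ℚ]
      FF (AlgebraicClosure ℚ) (N * l) => χ g) hwβ
  rw [sigmaInf_apply, h, coe_heckeAlphaBar, baseHom_apply]

theorem sigmaInf_alpha (N l : ℕ) [NeZero N] [NeZero l]
    (w : FF (AlgebraicClosure ℚ) (N * l) ≃ₐ[AlgebraicClosure ℚ] FF (AlgebraicClosure ℚ) (N * l))
    (hwα : (w : FF (AlgebraicClosure ℚ) (N * l) →ₐ[AlgebraicClosure ℚ]
      FF (AlgebraicClosure ℚ) (N * l)).comp (heckeAlphaBar (AlgebraicClosure ℚ) N l) =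
        heckeBetaBar (AlgebraicClosure ℚ) N l)
    (f : FF (AlgebraicClosure ℚ) N) :
    sigmaInf N l w (heckeAlphaBar (AlgebraicClosure ℚ) N l f) =
      qExpand (AlgebraicClosure ℚ) l (qExpand (AlgebraicClosure ℚ) l
        (f : LaurentSeries (AlgebraicClosure ℚ))) := by
  have h : w (heckeAlphaBar (AlgebraicClosure ℚ) N l f) = heckeBetaBar (AlgebraicClosure ℚ) N l f :=
    congrArg (fun χ : FF (AlgebraicClosure ℚ) N →ₐ[AlgebraicClosure ℚ]
      FF (AlgebraicClosure ℚ) (N * l) => χ f) hwα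
  rw [sigmaInf_apply, h, coe_heckeBetaBar]

/-- the family of the `ℓ + 1` conjugate embeddings -/
noncomputable def conjEmb (N l : ℕ) [NeZero l]
    (w : FF (AlgebraicClosure ℚ) (N * l) ≃ₐ[AlgebraicClosure ℚ] FF (AlgebraicClosure ℚ) (N * l))
    (ζ : (AlgebraicClosure ℚ)ˣ) :
    Option (Fin l) → (FF (AlgebraicClosure ℚ) (N * l) →+* LaurentSeries (AlgebraicClosure ℚ))
  | none => sigmaInf N l w
  | some b => rot N l ζ b

/-- the coefficient of `q⁻¹` of a twisted conjugate of `j` -/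
theorem rot_jBC_coeff (N l : ℕ) [NeZero N] [NeZero l] (ζ : (AlgebraicClosure ℚ)ˣ) (b : ℕ) :
    (rot N l ζ b (jBC (AlgebraicClosure ℚ) (N * l))).coeff (-1) =
      (((ζ ^ b)⁻¹ : (AlgebraicClosure ℚ)ˣ) : AlgebraicClosure ℚ) := by
  rw [rot_apply, coe_jBC, Fermat.Agent.S28.tw_coeff, coeffEmb, coeffMap_coeff, coeff_jq_neg_one,
    map_one, mul_one, zpow_neg_one]

theorem sigmaInf_jBC_coeff (N l : ℕ) [NeZero N] [NeZero l] (hl : l.Prime)
    (w : FF (AlgebraicClosure ℚ) (N * l) ≃ₐ[AlgebraicClosure ℚ] FF (AlgebraicClosure ℚ) (N * l))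
    (hwα : (w : FF (AlgebraicClosure ℚ) (N * l) →ₐ[AlgebraicClosure ℚ]
      FF (AlgebraicClosure ℚ) (N * l)).comp (heckeAlphaBar (AlgebraicClosure ℚ) N l) =
        heckeBetaBar (AlgebraicClosure ℚ) N l) :
    (sigmaInf N l w (jBC (AlgebraicClosure ℚ) (N * l))).coeff (-1) = 0 := by
  rw [← heckeAlphaBar_jBC, sigmaInf_alpha N l w hwα]
  apply qExpand_coeff_of_not_dvd
  intro h
  have h1 : ((l : ℤ)) ∣ 1 := (dvd_neg.mp h)
  have h2 : (l : ℤ) = 1 := Int.eq_one_of_dvd_one (by positivity) h1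
  have h3 : l = 1 := by exact_mod_cast h2
  exact hl.one_lt.ne' h3

theorem conjEmb_injective (N l : ℕ) [NeZero N] [NeZero l] (hl : l.Prime)
    (w : FF (AlgebraicClosure ℚ) (N * l) ≃ₐ[AlgebraicClosure ℚ] FF (AlgebraicClosure ℚ) (N * l))
    (hwα : (w : FF (AlgebraicClosure ℚ) (N * l) →ₐ[AlgebraicClosure ℚ]
      FF (AlgebraicClosure ℚ) (N * l)).comp (heckeAlphaBar (AlgebraicClosure ℚ) N l) =
        heckeBetaBar (AlgebraicClosure ℚ) N l)
    (ζ : (AlgebraicClosure ℚ)ˣ) (hζ : IsPrimitiveRoot ζ l) :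
    Function.Injective (conjEmb N l w ζ) := by
  have key : ∀ (b : Fin l), conjEmb N l w ζ none ≠ conjEmb N l w ζ (some b) := by
    intro b h
    have h1 := congrArg (fun χ : FF (AlgebraicClosure ℚ) (N * l) →+*
      LaurentSeries (AlgebraicClosure ℚ) => (χ (jBC (AlgebraicClosure ℚ) (N * l))).coeff (-1)) h
    simp only [conjEmb] at h1
    rw [sigmaInf_jBC_coeff N l hl w hwα, rot_jBC_coeff] at h1
    exact Units.ne_zero _ h1.symm
  intro i j hij
  rcases i with _ | b <;> rcases j with _ | b'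
  · rfl
  · exact absurd hij (key b')
  · exact absurd hij.symm (key b)
  · have h1 := congrArg (fun χ : FF (AlgebraicClosure ℚ) (N * l) →+*
      LaurentSeries (AlgebraicClosure ℚ) => (χ (jBC (AlgebraicClosure ℚ) (N * l))).coeff (-1)) hij
    simp only [conjEmb] at h1
    rw [rot_jBC_coeff, rot_jBC_coeff] at h1
    have h2 : ζ ^ (b : ℕ) = ζ ^ (b' : ℕ) := by
      have := Units.ext h1
      exact inv_injective this
    have h3 := hζ.pow_inj b.2 b'.2 h2
    exact congrArg some (Fin.ext h3)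

theorem conjEmb_beta (N l : ℕ) [NeZero N] [NeZero l]
    (w : FF (AlgebraicClosure ℚ) (N * l) ≃ₐ[AlgebraicClosure ℚ] FF (AlgebraicClosure ℚ) (N * l))
    (hwβ : (w : FF (AlgebraicClosure ℚ) (N * l) →ₐ[AlgebraicClosure ℚ]
      FF (AlgebraicClosure ℚ) (N * l)).comp (heckeBetaBar (AlgebraicClosure ℚ) N l) =
        heckeAlphaBar (AlgebraicClosure ℚ) N l)
    (ζ : (AlgebraicClosure ℚ)ˣ) (hζ : ζ ^ l = 1) (i : Option (Fin l))
    (g : FF (AlgebraicClosure ℚ) N) :
    conjEmb N l w ζ i (heckeBetaBar (AlgebraicClosure ℚ) N l g) = baseHom N l g := by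
  rcases i with _ | b
  · exact sigmaInf_beta N l w hwβ g
  · exact rot_beta N l ζ hζ b g

/-! ### The characteristic polynomial over `β(F_N)` -/

theorem finiteDimensional_beta (N l : ℕ) [NeZero N] [NeZero l] (hl : l.Prime) (hNl : ¬ l ∣ N) :
    letI := algebraAlong (heckeBetaBar (AlgebraicClosure ℚ) N l)
    FiniteDimensional (FF (AlgebraicClosure ℚ) N) (FF (AlgebraicClosure ℚ) (N * l)) := by
  letI := algebraAlong (heckeBetaBar (AlgebraicClosure ℚ) N l)
  apply Module.finite_of_finrank_pos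
  have h := finrankAlong_beta N l hl hNl
  unfold finrankAlong at h
  rw [h]
  exact Nat.succ_pos l

theorem finiteAlong_beta (N l : ℕ) [NeZero N] [NeZero l] (hl : l.Prime) (hNl : ¬ l ∣ N) :
    FiniteAlong (AlgebraicClosure ℚ) (heckeBetaBar (AlgebraicClosure ℚ) N l) :=
  finiteDimensional_beta N l hl hNl

theorem finiteAlong_alpha (N l : ℕ) [NeZero N] [NeZero l] (hl : l.Prime) (hNl : ¬ l ∣ N) :
    FiniteAlong (AlgebraicClosure ℚ) (heckeAlphaBar (AlgebraicClosure ℚ) N l) := by
  unfold FiniteAlong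
  letI := algebraAlong (heckeAlphaBar (AlgebraicClosure ℚ) N l)
  apply Module.finite_of_finrank_pos
  have h := finrankAlong_alpha N l hl hNl
  unfold finrankAlong at h
  rw [h]
  exact Nat.succ_pos l

-- Over the concrete function fields the default instance search for `Module.Free` explores
-- expensive branches once a `Module.Finite` instance is in scope; this makes it immediate.
attribute [local instance 10000] Module.Free.of_divisionRing

/-- **(D4)** the characteristic polynomial over `β(F_N)` of an element `x` of `F_{N ℓ}`,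
with coefficients expanded as `q`-series (in `q^ℓ`), is `(X - σ_∞ x) ∏_{b < ℓ} (X - x(ζ^b q))`. -/
theorem charpoly_beta (N l : ℕ) [NeZero N] [NeZero l] (hl : l.Prime) (hNl : ¬ l ∣ N)
    (w : FF (AlgebraicClosure ℚ) (N * l) ≃ₐ[AlgebraicClosure ℚ] FF (AlgebraicClosure ℚ) (N * l))
    (hwα : (w : FF (AlgebraicClosure ℚ) (N * l) →ₐ[AlgebraicClosure ℚ]
      FF (AlgebraicClosure ℚ) (N * l)).comp (heckeAlphaBar (AlgebraicClosure ℚ) N l) =
        heckeBetaBar (AlgebraicClosure ℚ) N l)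
    (hwβ : (w : FF (AlgebraicClosure ℚ) (N * l) →ₐ[AlgebraicClosure ℚ]
      FF (AlgebraicClosure ℚ) (N * l)).comp (heckeBetaBar (AlgebraicClosure ℚ) N l) =
        heckeAlphaBar (AlgebraicClosure ℚ) N l)
    (ζ : (AlgebraicClosure ℚ)ˣ) (hζ : IsPrimitiveRoot ζ l)
    (x : FF (AlgebraicClosure ℚ) (N * l)) :
    letI := algebraAlong (heckeBetaBar (AlgebraicClosure ℚ) N l)
    ∀ [Module.Finite (FF (AlgebraicClosure ℚ) N) (FF (AlgebraicClosure ℚ) (N * l))],
    ((LinearMap.mulLeft (FF (AlgebraicClosure ℚ) N) x).charpoly).map (baseHom N l) =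
      (X - C (sigmaInf N l w x)) * ∏ b ∈ Finset.range l, (X - C (rot N l ζ b x)) := by
  letI := algebraAlong (heckeBetaBar (AlgebraicClosure ℚ) N l)
  intro _
  have hcard : Fintype.card (Option (Fin l)) =
      Module.finrank (FF (AlgebraicClosure ℚ) N) (FF (AlgebraicClosure ℚ) (N * l)) := by
    rw [Fintype.card_option, Fintype.card_fin]
    exact (finrankAlong_beta N l hl hNl).symm
  have hσ : ∀ (i : Option (Fin l)) (g : FF (AlgebraicClosure ℚ) N),
      conjEmb N l w ζ i (algebraMap (FF (AlgebraicClosure ℚ) N) (FF (AlgebraicClosure ℚ) (N * l)) g) =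
        baseHom N l g := fun i g => conjEmb_beta N l w hwβ ζ hζ.pow_eq_one i g
  have key := charpoly_map_eq_prod (baseHom N l) (conjEmb N l w ζ) hσ
    (conjEmb_injective N l hl w hwα ζ hζ) hcard x
  rw [Fintype.prod_option] at key
  rw [← Fin.prod_univ_eq_prod_range (fun b => X - C (rot N l ζ b x)) l]
  exact key

/-- **(D4), norm form.** -/
theorem norm_beta (N l : ℕ) [NeZero N] [NeZero l] (hl : l.Prime) (hNl : ¬ l ∣ N)
    (w : FF (AlgebraicClosure ℚ) (N * l) ≃ₐ[AlgebraicClosure ℚ] FF (AlgebraicClosure ℚ) (N * l))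
    (hwα : (w : FF (AlgebraicClosure ℚ) (N * l) →ₐ[AlgebraicClosure ℚ]
      FF (AlgebraicClosure ℚ) (N * l)).comp (heckeAlphaBar (AlgebraicClosure ℚ) N l) =
        heckeBetaBar (AlgebraicClosure ℚ) N l)
    (hwβ : (w : FF (AlgebraicClosure ℚ) (N * l) →ₐ[AlgebraicClosure ℚ]
      FF (AlgebraicClosure ℚ) (N * l)).comp (heckeBetaBar (AlgebraicClosure ℚ) N l) =
        heckeAlphaBar (AlgebraicClosure ℚ) N l)
    (ζ : (AlgebraicClosure ℚ)ˣ) (hζ : IsPrimitiveRoot ζ l)
    (x : FF (AlgebraicClosure ℚ) (N * l)) :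
    letI := algebraAlong (heckeBetaBar (AlgebraicClosure ℚ) N l)
    baseHom N l (Algebra.norm (FF (AlgebraicClosure ℚ) N) x) =
      sigmaInf N l w x * ∏ b ∈ Finset.range l, rot N l ζ b x := by
  letI := algebraAlong (heckeBetaBar (AlgebraicClosure ℚ) N l)
  haveI : FiniteDimensional (FF (AlgebraicClosure ℚ) N) (FF (AlgebraicClosure ℚ) (N * l)) :=
    finiteDimensional_beta N l hl hNl
  have hcard : Fintype.card (Option (Fin l)) =
      Module.finrank (FF (AlgebraicClosure ℚ) N) (FF (AlgebraicClosure ℚ) (N * l)) := by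
    rw [Fintype.card_option, Fintype.card_fin]
    exact (finrankAlong_beta N l hl hNl).symm
  have hσ : ∀ (i : Option (Fin l)) (g : FF (AlgebraicClosure ℚ) N),
      conjEmb N l w ζ i (algebraMap (FF (AlgebraicClosure ℚ) N) (FF (AlgebraicClosure ℚ) (N * l)) g) =
        baseHom N l g := fun i g => conjEmb_beta N l w hwβ ζ hζ.pow_eq_one i g
  have key := norm_map_eq_prod (baseHom N l) (conjEmb N l w ζ) hσ
    (conjEmb_injective N l hl w hwα ζ hζ) hcard x
  rw [Fintype.prod_option] at key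
  rw [← Fin.prod_univ_eq_prod_range (fun b => rot N l ζ b x) l]
  exact key

/-- **(D4), trace form.** -/
theorem trace_beta (N l : ℕ) [NeZero N] [NeZero l] (hl : l.Prime) (hNl : ¬ l ∣ N)
    (w : FF (AlgebraicClosure ℚ) (N * l) ≃ₐ[AlgebraicClosure ℚ] FF (AlgebraicClosure ℚ) (N * l))
    (hwα : (w : FF (AlgebraicClosure ℚ) (N * l) →ₐ[AlgebraicClosure ℚ]
      FF (AlgebraicClosure ℚ) (N * l)).comp (heckeAlphaBar (AlgebraicClosure ℚ) N l) =
        heckeBetaBar (AlgebraicClosure ℚ) N l)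
    (hwβ : (w : FF (AlgebraicClosure ℚ) (N * l) →ₐ[AlgebraicClosure ℚ]
      FF (AlgebraicClosure ℚ) (N * l)).comp (heckeBetaBar (AlgebraicClosure ℚ) N l) =
        heckeAlphaBar (AlgebraicClosure ℚ) N l)
    (ζ : (AlgebraicClosure ℚ)ˣ) (hζ : IsPrimitiveRoot ζ l)
    (x : FF (AlgebraicClosure ℚ) (N * l)) :
    letI := algebraAlong (heckeBetaBar (AlgebraicClosure ℚ) N l)
    baseHom N l (Algebra.trace (FF (AlgebraicClosure ℚ) N) (FF (AlgebraicClosure ℚ) (N * l)) x) =
      sigmaInf N l w x + ∑ b ∈ Finset.range l, rot N l ζ b x := by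
  letI := algebraAlong (heckeBetaBar (AlgebraicClosure ℚ) N l)
  haveI : FiniteDimensional (FF (AlgebraicClosure ℚ) N) (FF (AlgebraicClosure ℚ) (N * l)) :=
    finiteDimensional_beta N l hl hNl
  have hcard : Fintype.card (Option (Fin l)) =
      Module.finrank (FF (AlgebraicClosure ℚ) N) (FF (AlgebraicClosure ℚ) (N * l)) := by
    rw [Fintype.card_option, Fintype.card_fin]
    exact (finrankAlong_beta N l hl hNl).symm
  have hσ : ∀ (i : Option (Fin l)) (g : FF (AlgebraicClosure ℚ) N),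
      conjEmb N l w ζ i (algebraMap (FF (AlgebraicClosure ℚ) N) (FF (AlgebraicClosure ℚ) (N * l)) g) =
        baseHom N l g := fun i g => conjEmb_beta N l w hwβ ζ hζ.pow_eq_one i g
  have key := trace_map_eq_sum (baseHom N l) (conjEmb N l w ζ) hσ
    (conjEmb_injective N l hl w hwα ζ hζ) hcard x
  rw [Fintype.sum_option] at key
  rw [← Fin.sum_univ_eq_sum_range (fun b => rot N l ζ b x) l]
  exact key

/-- **(D4) for `x = α f`**: the characteristic polynomial of `α f` over `β(F_N)` is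
`(X - f(q^(ℓ²))) ∏_{b < ℓ} (X - f(ζ^b q))` (coefficients as series in `q^ℓ`). -/
theorem charpoly_beta_alpha (N l : ℕ) [NeZero N] [NeZero l] (hl : l.Prime) (hNl : ¬ l ∣ N)
    (ζ : (AlgebraicClosure ℚ)ˣ) (hζ : IsPrimitiveRoot ζ l) (f : FF (AlgebraicClosure ℚ) N) :
    letI := algebraAlong (heckeBetaBar (AlgebraicClosure ℚ) N l)
    ∀ [Module.Finite (FF (AlgebraicClosure ℚ) N) (FF (AlgebraicClosure ℚ) (N * l))],
    ((LinearMap.mulLeft (FF (AlgebraicClosure ℚ) N)
        (heckeAlphaBar (AlgebraicClosure ℚ) N l f)).charpoly).map (baseHom N l) =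
      (X - C (qExpand (AlgebraicClosure ℚ) l (qExpand (AlgebraicClosure ℚ) l
        (f : LaurentSeries (AlgebraicClosure ℚ))))) *
        ∏ b ∈ Finset.range l,
          (X - C (Fermat.Agent.S28.tw (ζ ^ b) (f : LaurentSeries (AlgebraicClosure ℚ)))) := by
  letI := algebraAlong (heckeBetaBar (AlgebraicClosure ℚ) N l)
  intro _
  obtain ⟨w, hwα, hwβ⟩ := Fermat.Agent.S37.AtkinLehner.exists_atkinLehner N l hl hNl
  have h := charpoly_beta N l hl hNl w hwα hwβ ζ hζ (heckeAlphaBar (AlgebraicClosure ℚ) N l f)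
  have h2 : ∀ b ∈ Finset.range l,
      (X - C (rot N l ζ b (heckeAlphaBar (AlgebraicClosure ℚ) N l f)) :
        (LaurentSeries (AlgebraicClosure ℚ))[X]) =
      X - C (Fermat.Agent.S28.tw (ζ ^ b) (f : LaurentSeries (AlgebraicClosure ℚ))) :=
    fun b _ => by rw [rot_alpha]
  rw [h, sigmaInf_alpha N l w hwα, Finset.prod_congr rfl h2]

end Fermat.Agent.S37.Conjugates
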