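import Mathlib
import Fermat.Prelude.Def_ModularCurve_X0ModL
import Fermat.Prelude.Thm_ModularCurve_coeffMap_qExpand

/-!
# S37: the Kronecker congruence on `q`-series

* `pow_char_eq` : in characteristic `ℓ`, `x ^ ℓ = V_ℓ (Frob x)` for a Laurent series `x`
  (`V_ℓ = qExpand ℓ`, `Frob` the coefficientwise Frobenius).
* `coeffMap_pow_eq`, `coeffMap_qExpand_eq` : the same congruences modulo a ring homomorphism
  `π : R → k` (`k` of characteristic `ℓ`) for a lift `s` of the Frobenius.
* `map_prod_X_sub_C` : the congruence `∏_b (X - y_b) ≡ X ^ ℓ - V_ℓ (s y)` for `ℓ` series `y_b`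
  all congruent to `y`.
-/

set_option autoImplicit false
set_option linter.style.haveILetI false

open Polynomial

namespace Fermat.Agent.S37.Kronecker

open ModularCurve

variable {k : Type*} [CommRing k] (ℓ : ℕ) [hℓ : Fact ℓ.Prime] [CharP k ℓ]

/-- coefficients of the `ℓ`-th power of a power series in characteristic `ℓ` -/
theorem coeff_pow_char (p : PowerSeries k) (n : ℕ) :
    PowerSeries.coeff n (p ^ ℓ) = if ℓ ∣ n then (PowerSeries.coeff (n / ℓ) p) ^ ℓ else 0 := by
  have h1 : PowerSeries.coeff n (p ^ ℓ) =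
      PowerSeries.coeff n ((PowerSeries.trunc (n + 1) p : PowerSeries k) ^ ℓ) := by
    rw [← PowerSeries.coeff_coe_trunc_of_lt (Nat.lt_succ_self n) (f := p ^ ℓ),
      ← PowerSeries.trunc_trunc_pow, PowerSeries.coeff_coe_trunc_of_lt (Nat.lt_succ_self n)]
  rw [h1, ← Polynomial.coe_pow, Polynomial.coeff_coe, ← Polynomial.map_frobenius_expand,
    Polynomial.coeff_map, Polynomial.coeff_expand hℓ.out.pos]
  split_ifs with h
  · rw [PowerSeries.coeff_trunc, if_pos (lt_of_le_of_lt (Nat.div_le_self n ℓ) (Nat.lt_succ_self n))]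
    rfl
  · exact map_zero _

/-- **Frobenius on Laurent series**: in characteristic `ℓ`, `x ^ ℓ = (Frob x)(q ^ ℓ)`. -/
theorem pow_char_eq [NeZero ℓ] (x : LaurentSeries k) :
    x ^ ℓ = qExpand k ℓ (coeffMap (frobenius k ℓ) x) := by
  have key : ∀ p : PowerSeries k, HahnSeries.ofPowerSeries ℤ k (p ^ ℓ) =
      qExpand k ℓ (HahnSeries.ofPowerSeries ℤ k (p.map (frobenius k ℓ))) := by
    intro p
    ext m
    by_cases hm : (ℓ : ℤ) ∣ m
    · obtain ⟨c, rfl⟩ := hm
      rw [qExpand_coeff_mul]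
      rcases lt_or_ge c 0 with hc | hc
      · rw [ofPowerSeries_coeff_of_neg _ hc, ofPowerSeries_coeff_of_neg]
        exact mul_neg_of_pos_of_neg (by exact_mod_cast hℓ.out.pos) hc
      · lift c to ℕ using hc
        rw [HahnSeries.ofPowerSeries_apply_coeff, show (ℓ : ℤ) * (c : ℤ) = ((ℓ * c : ℕ) : ℤ) by
          push_cast; ring, HahnSeries.ofPowerSeries_apply_coeff, coeff_pow_char,
          if_pos (dvd_mul_right ℓ c), Nat.mul_div_cancel_left c hℓ.out.pos, PowerSeries.coeff_map]
        rfl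
    · rw [qExpand_coeff_of_not_dvd ℓ _ hm]
      rcases lt_or_ge m 0 with hc | hc
      · exact ofPowerSeries_coeff_of_neg _ hc
      · lift m to ℕ using hc
        rw [HahnSeries.ofPowerSeries_apply_coeff, coeff_pow_char, if_neg]
        intro h
        exact hm (Int.natCast_dvd_natCast.mpr h)
  conv_lhs => rw [← x.single_order_mul_powerSeriesPart]
  conv_rhs => rw [← x.single_order_mul_powerSeriesPart]
  rw [mul_pow, map_mul, map_mul, coeffMap_single, coeffMap_ofPowerSeries, qExpand_single, ← key,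
    HahnSeries.single_pow, map_one, one_pow, ← map_pow]
  congr 2

/-! ### Congruences modulo a ring homomorphism to characteristic `ℓ` -/

variable {R : Type*} [CommRing R] (π : R →+* k)

/-- `y ^ ℓ ≡ V_ℓ (s y)` for a lift `s` of the Frobenius -/
theorem coeffMap_pow_eq [NeZero ℓ] (s : R →+* R) (hs : ∀ a : R, π (s a) = π a ^ ℓ)
    (y : LaurentSeries R) :
    coeffMap π (y ^ ℓ) = coeffMap π (qExpand R ℓ (coeffMap s y)) := by
  rw [map_pow, pow_char_eq ℓ, coeffMap_qExpand, coeffMap_coeffMap, coeffMap_coeffMap]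
  congr 1
  exact coeffMap_congr (RingHom.ext fun a => (hs a).symm) y

/-- `V_ℓ y ≡ (s⁻¹ y) ^ ℓ` for a bijective lift `s` of the Frobenius -/
theorem coeffMap_qExpand_eq [NeZero ℓ] (s : R ≃+* R) (hs : ∀ a : R, π (s a) = π a ^ ℓ)
    (y : LaurentSeries R) :
    coeffMap π (qExpand R ℓ y) =
      coeffMap π ((coeffMap (s.symm : R →+* R) y) ^ ℓ) := by
  rw [coeffMap_pow_eq ℓ π (s : R →+* R) hs, coeffMap_coeffMap]
  congr 2
  conv_lhs => rw [← coeffMap_id y]
  exact coeffMap_congr (RingHom.ext fun a => (s.apply_symm_apply a).symm) y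

/-- **Kronecker congruence**: if the `ℓ` series `y b` are all congruent to `y`, then
`∏_b (X - y_b) ≡ X ^ ℓ - V_ℓ (s y)`. -/
theorem map_prod_X_sub_C [NeZero ℓ] (s : R →+* R) (hs : ∀ a : R, π (s a) = π a ^ ℓ)
    (y : LaurentSeries R) (yb : ℕ → LaurentSeries R)
    (hyb : ∀ b < ℓ, coeffMap π (yb b) = coeffMap π y) :
    (∏ b ∈ Finset.range ℓ, (X - C (yb b))).map (coeffMap π) =
      X ^ ℓ - C (coeffMap π (qExpand R ℓ (coeffMap s y))) := by
  have hch : CharP (LaurentSeries k) ℓ :=
    charP_of_injective_ringHom (f := (HahnSeries.C : k →+* LaurentSeries k))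
      HahnSeries.C_injective ℓ
  have hch' : CharP (LaurentSeries k)[X] ℓ := inferInstance
  rw [Polynomial.map_prod]
  have h1 : ∀ b ∈ Finset.range ℓ, (X - C (yb b)).map (coeffMap π) = X - C (coeffMap π y) := by
    intro b hb
    rw [Polynomial.map_sub, Polynomial.map_X, Polynomial.map_C, hyb b (Finset.mem_range.mp hb)]
  rw [Finset.prod_congr rfl h1, Finset.prod_const, Finset.card_range, sub_pow_char,
    ← C_pow, ← map_pow, coeffMap_pow_eq ℓ π s hs]

end Fermat.Agent.S37.Kronecker
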