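import Mathlib
import Fermat.Prelude.Def_ModularCurve_X0ModL
import Fermat.Prelude.Thm_ModularCurve_coeffMap_qExpand
import Fermat.Agent.S37.Kronecker
import Fermat.Agent.S37.Centre
import Fermat.Agent.S37.Inertia
import Fermat.Agent.S37.Conjugates

/-!
# S37: the Kronecker congruence for quotients of integral `q`-series

* `sect ℓ r y` : the `r`-th section of a Laurent series (coefficients at the exponents
  `ℓ n + r`), with the projection formula `sect ℓ r (V_ℓ h * y) = h * sect ℓ r y`.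
* `exists_small_of_qExpand` : if `V_ℓ h * y = x` with `x` of zero reduction and `y` of nonzero
  reduction, then `h * y' = x'` with `x'` of zero reduction and `y'` of nonzero reduction.
* `kronecker_quotient` : the Kronecker congruence in quotient currency.
-/

set_option autoImplicit false
set_option linter.style.haveILetI false

open Polynomial

namespace Fermat.Agent.S37.KronCoeff

open ModularCurve

section Sect

variable {R : Type*} [CommRing R] (ℓ : ℕ) [NeZero ℓ]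

/-- the `r`-th section of a Laurent series: the coefficients at the exponents `ℓ n + r` -/
def sect (r : ℤ) (y : LaurentSeries R) : LaurentSeries R :=
  HahnSeries.ofSuppBddBelow (fun n : ℤ => y.coeff ((ℓ : ℤ) * n + r))
    ⟨(y.order - r) / (ℓ : ℤ), fun n hn => by
      have hℓ : (0 : ℤ) < (ℓ : ℤ) := by exact_mod_cast Nat.pos_of_ne_zero (NeZero.ne ℓ)
      have h1 : y.order ≤ (ℓ : ℤ) * n + r := by
        by_contra hlt
        exact hn (HahnSeries.coeff_eq_zero_of_lt_order (not_le.mp hlt))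
      exact Int.ediv_le_of_le_mul hℓ (by linarith)⟩

@[simp]
theorem sect_coeff (r : ℤ) (y : LaurentSeries R) (n : ℤ) :
    (sect ℓ r y).coeff n = y.coeff ((ℓ : ℤ) * n + r) := rfl

theorem coeffMap_sect {S : Type*} [CommRing S] (f : R →+* S) (r : ℤ) (y : LaurentSeries R) :
    coeffMap f (sect ℓ r y) = sect ℓ r (coeffMap f y) := by
  ext n
  simp [coeffMap_coeff]

/-- **Projection formula** for the sections. -/
theorem sect_qExpand_mul (r : ℤ) (h y : LaurentSeries R) :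
    sect ℓ r (qExpand R ℓ h * y) = h * sect ℓ r y := by
  have hℓ : (ℓ : ℤ) ≠ 0 := by exact_mod_cast NeZero.ne ℓ
  ext n
  rw [sect_coeff, HahnSeries.coeff_mul, HahnSeries.coeff_mul]
  symm
  refine Finset.sum_of_injOn (fun p : ℤ × ℤ => ((ℓ : ℤ) * p.1, (ℓ : ℤ) * p.2 + r)) ?_ ?_ ?_ ?_
  · intro p _ p' _ hpp
    simp only [Prod.mk.injEq] at hpp
    ext
    · exact mul_left_cancel₀ hℓ hpp.1
    · exact mul_left_cancel₀ hℓ (by linarith [hpp.2])
  · intro p hp
    simp only [Finset.mem_coe, Finset.mem_antidiagonal, HahnSeries.mem_support, ne_eq,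
      sect_coeff] at hp ⊢
    refine ⟨?_, hp.2.1, ?_⟩
    · rw [qExpand_coeff_mul]
      exact hp.1
    · rw [← hp.2.2]
      ring
  · intro p hp hnot
    exfalso
    simp only [Finset.mem_antidiagonal, HahnSeries.mem_support, ne_eq] at hp
    have hdvd : (ℓ : ℤ) ∣ p.1 := by
      by_contra hnd
      exact hp.1 (qExpand_coeff_of_not_dvd ℓ h hnd)
    obtain ⟨a, ha⟩ := hdvd
    apply hnot
    refine ⟨(a, n - a), ?_, ?_⟩
    · simp only [Finset.mem_coe, Finset.mem_antidiagonal, HahnSeries.mem_support, ne_eq,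
        sect_coeff]
      refine ⟨?_, ?_, by ring⟩
      · have := hp.1
        rwa [ha, qExpand_coeff_mul] at this
      · have h2 : (ℓ : ℤ) * (n - a) + r = p.2 := by
          have := hp.2.2
          rw [ha] at this
          linarith
        rw [h2]
        exact hp.2.1
    · ext
      · exact ha.symm
      · show (ℓ : ℤ) * (n - a) + r = p.2
        have := hp.2.2
        rw [ha] at this
        linarith
  · intro p _
    simp only [sect_coeff, qExpand_coeff_mul]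

/-- a Laurent series with a nonzero image under `coeffMap f` has a section with a nonzero
image -/
theorem exists_sect_ne_zero {S : Type*} [CommRing S] (f : R →+* S) (y : LaurentSeries R)
    (hy : coeffMap f y ≠ 0) : ∃ r : ℤ, coeffMap f (sect ℓ r y) ≠ 0 := by
  obtain ⟨n, hn⟩ : ∃ n : ℤ, (coeffMap f y).coeff n ≠ 0 := by
    by_contra hall
    simp only [not_exists, not_not] at hall
    exact hy (HahnSeries.ext (funext hall))
  refine ⟨n % (ℓ : ℤ), fun h0 => hn ?_⟩
  have h1 := congrArg (fun z : LaurentSeries S => z.coeff (n / (ℓ : ℤ))) h0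
  simp only [coeffMap_coeff, sect_coeff, HahnSeries.coeff_zero] at h1
  rw [coeffMap_coeff]
  rwa [Int.mul_ediv_add_emod] at h1

/-- if `V_ℓ h * y = x` then `h * sect ℓ r y = sect ℓ r x` -/
theorem mul_sect_eq_of_qExpand_mul_eq (r : ℤ) {h y x : LaurentSeries R}
    (hxy : qExpand R ℓ h * y = x) : h * sect ℓ r y = sect ℓ r x := by
  rw [← hxy, sect_qExpand_mul]

end Sect

section Quotient

variable {R K k : Type*} [CommRing R] [Field K] [Field k] (ℓ : ℕ) [hℓ : Fact ℓ.Prime]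
  [CharP k ℓ] [NeZero ℓ] (ι : R →+* K) (π : R →+* k)

omit hℓ [CharP k ℓ] in
/-- **Undoing `V_ℓ`.**  If `V_ℓ h * y = x` with `x` of zero reduction and `y` of nonzero
reduction, the same holds for `h` with suitable sections of `x` and `y`. -/
theorem exists_small_of_qExpand (h : LaurentSeries K) (x y : LaurentSeries R)
    (hx : coeffMap π x = 0) (hy : coeffMap π y ≠ 0)
    (hxy : qExpand K ℓ h * coeffMap ι y = coeffMap ι x) :
    ∃ x' y' : LaurentSeries R, coeffMap π x' = 0 ∧ coeffMap π y' ≠ 0 ∧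
      h * coeffMap ι y' = coeffMap ι x' := by
  obtain ⟨r, hr⟩ := exists_sect_ne_zero ℓ π y hy
  refine ⟨sect ℓ r x, sect ℓ r y, ?_, hr, ?_⟩
  · rw [coeffMap_sect, hx]
    ext n
    simp
  · rw [coeffMap_sect, coeffMap_sect]
    exact mul_sect_eq_of_qExpand_mul_eq ℓ r hxy

theorem map_C_mul_sub {A B : Type*} [CommRing A] [CommRing B] (φ : A →+* B) (a b : A)
    (P Q : A[X]) :
    (C a * P - C b * Q).map φ = C (φ a) * P.map φ - C (φ b) * Q.map φ := by
  rw [Polynomial.map_sub, Polynomial.map_mul, Polynomial.map_mul, Polynomial.map_C,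
    Polynomial.map_C]

theorem map_C_mul_X_sub_C {A B : Type*} [CommRing A] [CommRing B] (φ : A →+* B) (a b : A)
    (n : ℕ) :
    (C a * X ^ n - C b : A[X]).map φ = C (φ a) * X ^ n - C (φ b) := by
  rw [Polynomial.map_sub, Polynomial.map_mul, Polynomial.map_C, Polynomial.map_C,
    Polynomial.map_pow, Polynomial.map_X]

theorem C_mul_X_sub_C_eq {B : Type*} [CommRing B] (a b c : B) (n : ℕ) (h : c * a = b) :
    (C a * X ^ n - C b : B[X]) = C a * (X ^ n - C c) := by
  rw [mul_sub, ← C_mul, mul_comm a c, h]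

/-- **The Kronecker congruence in quotient currency.**  `f = x0 / y0` with `x0, y0` integral
series, `y0` of nonzero reduction; `fs`, `fsi` are the images of `f` under a lift `s` of the
Frobenius and its inverse; `rb b` (`b < ℓ`) are `ℓ` series congruent to `f`; `χ` is a polynomial
with `V_ℓ χ = (X - V_ℓ² f) ∏_b (X - rb b)`.  Then every coefficient of
`χ - (X - fsi ^ ℓ) (X ^ ℓ - fs)` is a quotient `x / y` with `x` of zero reduction and `y` of
nonzero reduction. -/
theorem kronecker_quotient (s : R ≃+* R) (hs : ∀ a : R, π (s a) = π a ^ ℓ)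
    (x0 y0 : LaurentSeries R) (hy0 : coeffMap π y0 ≠ 0)
    (f fs fsi : LaurentSeries K)
    (hf : f * coeffMap ι y0 = coeffMap ι x0)
    (hfs : fs * coeffMap ι (coeffMap (s : R →+* R) y0) = coeffMap ι (coeffMap (s : R →+* R) x0))
    (hfsi : fsi * coeffMap ι (coeffMap (s.symm : R →+* R) y0)
      = coeffMap ι (coeffMap (s.symm : R →+* R) x0))
    (rb : ℕ → LaurentSeries K) (xb yb : ℕ → LaurentSeries R)
    (hxb : ∀ b < ℓ, coeffMap π (xb b) = coeffMap π x0)
    (hyb : ∀ b < ℓ, coeffMap π (yb b) = coeffMap π y0)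
    (hrb : ∀ b < ℓ, rb b * coeffMap ι (yb b) = coeffMap ι (xb b))
    (χ : (LaurentSeries K)[X])
    (hχ : χ.map (qExpand K ℓ) = (X - C (qExpand K ℓ (qExpand K ℓ f))) *
      ∏ b ∈ Finset.range ℓ, (X - C (rb b)))
    (i : ℕ) :
    ∃ x y : LaurentSeries R, coeffMap π x = 0 ∧ coeffMap π y ≠ 0 ∧
      (χ.coeff i - ((X - C (fsi ^ ℓ)) * (X ^ ℓ - C fs)).coeff i) * coeffMap ι y
        = coeffMap ι x := by
  have hch : CharP (LaurentSeries k) ℓ :=
    charP_of_injective_ringHom (f := (HahnSeries.C : k →+* LaurentSeries k))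
      HahnSeries.C_injective ℓ
  have hch' : CharP (LaurentSeries k)[X] ℓ := inferInstance
  have cι : ∀ z : LaurentSeries R,
      coeffMap ι (qExpand R ℓ z) = qExpand K ℓ (coeffMap ι z) := fun z => coeffMap_qExpand ι ℓ z
  have cρ : ∀ z : LaurentSeries R,
      coeffMap π (qExpand R ℓ z) = qExpand k ℓ (coeffMap π z) := fun z => coeffMap_qExpand π ℓ z
  -- names for the series involved
  obtain ⟨y2, hy2⟩ : ∃ y2, y2 = qExpand R ℓ (qExpand R ℓ y0) := ⟨_, rfl⟩
  obtain ⟨x2, hx2⟩ : ∃ x2, x2 = qExpand R ℓ (qExpand R ℓ x0) := ⟨_, rfl⟩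
  obtain ⟨yi, hyi⟩ : ∃ yi, yi = qExpand R ℓ ((coeffMap (s.symm : R →+* R) y0) ^ ℓ) := ⟨_, rfl⟩
  obtain ⟨xi, hxi⟩ : ∃ xi, xi = qExpand R ℓ ((coeffMap (s.symm : R →+* R) x0) ^ ℓ) := ⟨_, rfl⟩
  obtain ⟨ys, hys⟩ : ∃ ys, ys = qExpand R ℓ (coeffMap (s : R →+* R) y0) := ⟨_, rfl⟩
  obtain ⟨xs, hxs⟩ : ∃ xs, xs = qExpand R ℓ (coeffMap (s : R →+* R) x0) := ⟨_, rfl⟩
  -- identities over K
  have k2 : qExpand K ℓ (qExpand K ℓ f) * coeffMap ι y2 = coeffMap ι x2 := by
    rw [hy2, hx2, cι, cι, cι, cι, ← map_mul, ← map_mul, hf]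
  have ki : fsi ^ ℓ * coeffMap ι ((coeffMap (s.symm : R →+* R) y0) ^ ℓ)
      = coeffMap ι ((coeffMap (s.symm : R →+* R) x0) ^ ℓ) := by
    rw [map_pow, map_pow, ← mul_pow, hfsi]
  have ki' : qExpand K ℓ (fsi ^ ℓ) * coeffMap ι yi = coeffMap ι xi := by
    rw [hyi, hxi, cι, cι, ← map_mul, ki]
  have ks : qExpand K ℓ fs * coeffMap ι ys = coeffMap ι xs := by
    rw [hys, hxs, cι, cι, ← map_mul, hfs]
  -- reductions
  have r2y : coeffMap π y2 = qExpand k ℓ (qExpand k ℓ (coeffMap π y0)) := by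
    rw [hy2, cρ, cρ]
  have r2x : coeffMap π x2 = qExpand k ℓ (qExpand k ℓ (coeffMap π x0)) := by
    rw [hx2, cρ, cρ]
  have riy : coeffMap π yi = qExpand k ℓ (qExpand k ℓ (coeffMap π y0)) := by
    rw [hyi, cρ, ← Kronecker.coeffMap_qExpand_eq ℓ π s hs y0, cρ]
  have rix : coeffMap π xi = qExpand k ℓ (qExpand k ℓ (coeffMap π x0)) := by
    rw [hxi, cρ, ← Kronecker.coeffMap_qExpand_eq ℓ π s hs x0, cρ]
  have rsy : coeffMap π ys = coeffMap π y0 ^ ℓ := by
    rw [hys, ← Kronecker.coeffMap_pow_eq ℓ π (s : R →+* R) hs y0, map_pow]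
  have rsx : coeffMap π xs = coeffMap π x0 ^ ℓ := by
    rw [hxs, ← Kronecker.coeffMap_pow_eq ℓ π (s : R →+* R) hs x0, map_pow]
  -- the integral models of the two polynomials
  obtain ⟨G1, hG1⟩ : ∃ G1 : (LaurentSeries R)[X], G1 = C y2 * X ^ 1 - C x2 := ⟨_, rfl⟩
  obtain ⟨G2, hG2⟩ : ∃ G2 : (LaurentSeries R)[X],
      G2 = ∏ b ∈ Finset.range ℓ, (C (yb b) * X ^ 1 - C (xb b)) := ⟨_, rfl⟩
  obtain ⟨Yb, hYb⟩ : ∃ Yb : LaurentSeries R, Yb = ∏ b ∈ Finset.range ℓ, yb b := ⟨_, rfl⟩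
  obtain ⟨H1, hH1⟩ : ∃ H1 : (LaurentSeries R)[X], H1 = C yi * X ^ 1 - C xi := ⟨_, rfl⟩
  obtain ⟨H2, hH2⟩ : ∃ H2 : (LaurentSeries R)[X], H2 = C ys * X ^ ℓ - C xs := ⟨_, rfl⟩
  -- over K
  have hG1ι : G1.map (coeffMap ι) = C (coeffMap ι y2) * (X - C (qExpand K ℓ (qExpand K ℓ f))) := by
    rw [hG1, map_C_mul_X_sub_C, C_mul_X_sub_C_eq _ _ _ 1 k2, pow_one]
  have hG2ι : G2.map (coeffMap ι) = C (coeffMap ι Yb) * ∏ b ∈ Finset.range ℓ, (X - C (rb b)) := by
    rw [hG2, hYb, Polynomial.map_prod, map_prod, map_prod, ← Finset.prod_mul_distrib]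
    refine Finset.prod_congr rfl fun b hb => ?_
    rw [map_C_mul_X_sub_C, C_mul_X_sub_C_eq _ _ _ 1 (hrb b (Finset.mem_range.mp hb)), pow_one]
  have hH1ι : H1.map (coeffMap ι) = C (coeffMap ι yi) * (X - C (qExpand K ℓ (fsi ^ ℓ))) := by
    rw [hH1, map_C_mul_X_sub_C, C_mul_X_sub_C_eq _ _ _ 1 ki', pow_one]
  have hH2ι : H2.map (coeffMap ι) = C (coeffMap ι ys) * (X ^ ℓ - C (qExpand K ℓ fs)) := by
    rw [hH2, map_C_mul_X_sub_C, C_mul_X_sub_C_eq _ _ _ ℓ ks]
  -- over k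
  have hG1ρ : G1.map (coeffMap π) = C (qExpand k ℓ (qExpand k ℓ (coeffMap π y0))) * X ^ 1
      - C (qExpand k ℓ (qExpand k ℓ (coeffMap π x0))) := by
    rw [hG1, map_C_mul_X_sub_C, r2y, r2x]
  have hH1ρ : H1.map (coeffMap π) = C (qExpand k ℓ (qExpand k ℓ (coeffMap π y0))) * X ^ 1
      - C (qExpand k ℓ (qExpand k ℓ (coeffMap π x0))) := by
    rw [hH1, map_C_mul_X_sub_C, riy, rix]
  have hH2ρ : H2.map (coeffMap π) = C (coeffMap π y0 ^ ℓ) * X ^ ℓ - C (coeffMap π x0 ^ ℓ) := by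
    rw [hH2, map_C_mul_X_sub_C, rsy, rsx]
  have hG2ρ : G2.map (coeffMap π) = C (coeffMap π y0 ^ ℓ) * X ^ ℓ - C (coeffMap π x0 ^ ℓ) := by
    rw [hG2, Polynomial.map_prod]
    have h1 : ∀ b ∈ Finset.range ℓ, (C (yb b) * X ^ 1 - C (xb b)).map (coeffMap π)
        = C (coeffMap π y0) * X - C (coeffMap π x0) := by
      intro b hb
      rw [map_C_mul_X_sub_C, hxb b (Finset.mem_range.mp hb), hyb b (Finset.mem_range.mp hb),
        pow_one]
    rw [Finset.prod_congr rfl h1, Finset.prod_const, Finset.card_range, sub_pow_char, mul_pow,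
      ← C_pow, ← C_pow]
  have hYbρ : coeffMap π Yb = coeffMap π y0 ^ ℓ := by
    rw [hYb, map_prod, Finset.prod_congr rfl (fun b hb => hyb b (Finset.mem_range.mp hb)),
      Finset.prod_const, Finset.card_range]
  have hne2 : qExpand k ℓ (qExpand k ℓ (coeffMap π y0)) ≠ 0 := by
    intro h0
    apply hy0
    have h1 : qExpand k ℓ (coeffMap π y0) = 0 := qExpand_injective ℓ (by rw [h0, map_zero])
    exact qExpand_injective ℓ (by rw [h1, map_zero])
  have hneℓ : coeffMap π y0 ^ ℓ ≠ 0 := pow_ne_zero _ hy0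
  -- the difference
  obtain ⟨Z, hZ⟩ : ∃ Z : (LaurentSeries R)[X],
      Z = C (yi * ys) * (G1 * G2) - C (y2 * Yb) * (H1 * H2) := ⟨_, rfl⟩
  have hY1 : coeffMap π (yi * ys)
      = qExpand k ℓ (qExpand k ℓ (coeffMap π y0)) * coeffMap π y0 ^ ℓ := by
    rw [map_mul, riy, rsy]
  have hY2 : coeffMap π (y2 * Yb)
      = qExpand k ℓ (qExpand k ℓ (coeffMap π y0)) * coeffMap π y0 ^ ℓ := by
    rw [map_mul, r2y, hYbρ]
  have hZρ : Z.map (coeffMap π) = 0 := by
    rw [hZ, map_C_mul_sub, Polynomial.map_mul, Polynomial.map_mul, hG1ρ, hG2ρ, hH1ρ, hH2ρ,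
      hY1, hY2, sub_self]
  have hZι : Z.map (coeffMap ι) = C (coeffMap ι (yi * ys * (y2 * Yb))) *
      (χ - (X - C (fsi ^ ℓ)) * (X ^ ℓ - C fs)).map (qExpand K ℓ) := by
    rw [hZ, map_C_mul_sub, Polynomial.map_mul, Polynomial.map_mul, hG1ι, hG2ι, hH1ι, hH2ι,
      Polynomial.map_sub, hχ]
    simp only [Polynomial.map_mul, Polynomial.map_sub, Polynomial.map_X, Polynomial.map_C,
      Polynomial.map_pow, map_mul]
    ring
  have hcoeff : qExpand K ℓ (χ.coeff i - ((X - C (fsi ^ ℓ)) * (X ^ ℓ - C fs)).coeff i)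
      * coeffMap ι (yi * ys * (y2 * Yb)) = coeffMap ι (Z.coeff i) := by
    have h1 := congrArg (fun p : (LaurentSeries K)[X] => p.coeff i) hZι
    simp only [Polynomial.coeff_map, Polynomial.coeff_C_mul, Polynomial.coeff_sub] at h1
    rw [h1, map_sub]
    ring
  have hzρ : coeffMap π (Z.coeff i) = 0 := by
    have h1 := congrArg (fun p : (LaurentSeries k)[X] => p.coeff i) hZρ
    simpa only [Polynomial.coeff_map, Polynomial.coeff_zero] using h1
  have hYYne : coeffMap π (yi * ys * (y2 * Yb)) ≠ 0 := by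
    rw [map_mul, map_mul, map_mul, riy, rsy, r2y, hYbρ]
    exact mul_ne_zero (mul_ne_zero hne2 hneℓ) (mul_ne_zero hne2 hneℓ)
  exact exists_small_of_qExpand ℓ ι π _ _ _ hzρ hYYne hcoeff

end Quotient

/-! ### The instance at the centre currency -/

section Centre

open Fermat.Agent.S24 Fermat.Agent.S37.Centre Fermat.Agent.S37.GaloisValue AlgebraicCurve
  Fermat.Agent.S37.Inertia Fermat.Agent.S37.Conjugates

local notation "Qb" => AlgebraicClosure ℚ

variable (A : ValuationSubring Qb)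

/-- the restriction to `A` of an element of the decomposition group, as a ring equivalence -/
noncomputable def restrictEquiv {τ : Qb ≃ₐ[ℚ] Qb} (hτ : τ ∈ A.decompositionSubgroup ℚ) :
    ↥A ≃+* ↥A :=
  RingEquiv.ofRingHom (restrictA A hτ) (restrictA A (inv_mem hτ))
    (by
      ext a
      show τ (τ⁻¹ (a : Qb)) = (a : Qb)
      exact τ.apply_symm_apply _)
    (by
      ext a
      show τ⁻¹ (τ (a : Qb)) = (a : Qb)
      exact τ.symm_apply_apply _)

theorem coe_restrictEquiv {τ : Qb ≃ₐ[ℚ] Qb} (hτ : τ ∈ A.decompositionSubgroup ℚ) (a : ↥A) :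
    ((restrictEquiv A hτ a : ↥A) : Qb) = τ (a : Qb) := rfl

theorem coe_restrictEquiv_symm {τ : Qb ≃ₐ[ℚ] Qb} (hτ : τ ∈ A.decompositionSubgroup ℚ) (a : ↥A) :
    (((restrictEquiv A hτ).symm a : ↥A) : Qb) = τ.symm (a : Qb) := rfl

theorem coeffMap_subtype_restrictEquiv {τ : Qb ≃ₐ[ℚ] Qb} (hτ : τ ∈ A.decompositionSubgroup ℚ)
    (z : LaurentSeries ↥A) :
    coeffMap A.subtype (coeffMap ((restrictEquiv A hτ : ↥A ≃+* ↥A) : ↥A →+* ↥A) z)
      = coeffMap (τ : Qb →+* Qb) (coeffMap A.subtype z) := by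
  rw [coeffMap_coeffMap, coeffMap_coeffMap]
  exact coeffMap_congr (RingHom.ext fun a => rfl) z

theorem coeffMap_subtype_restrictEquiv_symm {τ : Qb ≃ₐ[ℚ] Qb}
    (hτ : τ ∈ A.decompositionSubgroup ℚ) (z : LaurentSeries ↥A) :
    coeffMap A.subtype (coeffMap (((restrictEquiv A hτ).symm : ↥A ≃+* ↥A) : ↥A →+* ↥A) z)
      = coeffMap (τ.symm : Qb →+* Qb) (coeffMap A.subtype z) := by
  rw [coeffMap_coeffMap, coeffMap_coeffMap]
  exact coeffMap_congr (RingHom.ext fun a => rfl) z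

/-- a Frobenius lift induces the `ℓ`-th power map on the residue field -/
theorem residue_restrictEquiv_of_isFrobeniusAt {s : Qb ≃ₐ[ℚ] Qb} {ℓ : ℕ}
    (hs : A.IsFrobeniusAt s ℓ) (a : ↥A) :
    IsLocalRing.residue A (restrictEquiv A hs.mem_decompositionSubgroup a)
      = IsLocalRing.residue A a ^ ℓ := by
  rw [← map_pow, ← sub_eq_zero, ← map_sub, IsLocalRing.residue_eq_zero_iff,
    A.valuation_lt_one_iff]
  exact IsFrobeniusAt.valuation_sub_pow_lt_one hs a.2

/-- a root of unity of `Qb`, as a unit of `A` -/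
theorem exists_unit_of_pow_eq_one (ζ : Qbˣ) {n : ℕ} (hn : n ≠ 0) (hζ : ζ ^ n = 1) :
    ∃ u : (↥A)ˣ, Units.map (A.subtype : ↥A →* Qb) u = ζ := by
  have h1 : A.valuation (ζ : Qb) = 1 := by
    have h2 : A.valuation (ζ : Qb) ^ n = 1 := by
      rw [← map_pow, ← Units.val_pow_eq_pow_val, hζ, Units.val_one, map_one]
    exact (pow_eq_one_iff_left hn).mp h2
  have hmem : ζ ∈ A.unitGroup := (A.mem_unitGroup_iff ζ).mpr h1
  refine ⟨A.unitGroupMulEquiv ⟨ζ, hmem⟩, ?_⟩
  ext
  exact A.coe_unitGroupMulEquiv_apply ⟨ζ, hmem⟩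

theorem residue_unit_eq_one {ℓ : ℕ} [Fact ℓ.Prime] [CharP (IsLocalRing.ResidueField A) ℓ]
    (u : (↥A)ˣ) (hu : u ^ ℓ = 1) :
    Units.map (IsLocalRing.residue A : ↥A →* IsLocalRing.ResidueField A) u = 1 := by
  ext
  have h1 : (IsLocalRing.residue A (u : ↥A)) ^ ℓ = 1 := by
    rw [← map_pow, ← Units.val_pow_eq_pow_val, hu, Units.val_one, map_one]
  have h2 : (IsLocalRing.residue A (u : ↥A) - 1) ^ ℓ = 0 := by
    rw [sub_pow_char, h1, one_pow, sub_self]
  have h3 := pow_eq_zero_iff (Nat.Prime.ne_zero Fact.out) |>.mp h2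
  exact sub_eq_zero.mp h3

attribute [local instance 10000] Module.Free.of_divisionRing

set_option maxHeartbeats 1600000 in
/-- **KB-C(2): the Kronecker congruence for the Hecke characteristic polynomial.**
For a Frobenius lift `s` at `A` (over `ℓ ∤ N`) and a Gauss-integral function `f` of level `N`,
every coefficient of `χ_f - (X - (s⁻¹ f)^ℓ) (X^ℓ - s f)` is Gauss-small, where `χ_f` is the
characteristic polynomial of `α f` over `β(F_N)`. -/
theorem gaussSmall_charpoly_coeff_sub (N ℓ : ℕ) [NeZero N] [NeZero ℓ] (hℓ : ℓ.Prime)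
    (hℓN : ¬ ℓ ∣ N) (hA : A.LiesOverPrime ℓ) {s : Qb ≃ₐ[ℚ] Qb} (hs : A.IsFrobeniusAt s ℓ)
    (f : FF Qb N) (hf : GaussInt A (f : LaurentSeries Qb)) (i : ℕ) :
    GaussSmall A
      ((((letI := algebraAlong (heckeBetaBar Qb N ℓ)
          haveI : Module.Finite (FF Qb N) (FF Qb (N * ℓ)) := finiteAlong_beta N ℓ hℓ hℓN
          (LinearMap.mulLeft (FF Qb N) (heckeAlphaBar Qb N ℓ f)).charpoly).coeff i
        - ((X - C (((arithmeticGalois (modularFunctionFieldFull N) s)⁻¹ • f : FF Qb N) ^ ℓ))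
            * (X ^ ℓ - C (arithmeticGalois (modularFunctionFieldFull N) s • f : FF Qb N))
            : (FF Qb N)[X]).coeff i
        : FF Qb N)) : LaurentSeries Qb) := by
  haveI : Fact ℓ.Prime := ⟨hℓ⟩
  haveI : CharP (IsLocalRing.ResidueField A) ℓ := by
    rw [CharP.charP_iff_prime_eq_zero hℓ]
    have h1 : ((ℓ : ℕ) : A) ∈ IsLocalRing.maximalIdeal A := by
      have h2 : (ℓ : Qb) ∈ A.nonunits := hA
      obtain ⟨hmem, h3⟩ := A.mem_nonunits_iff_exists_mem_maximalIdeal.mp h2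
      exact h3
    have := (IsLocalRing.residue_eq_zero_iff _).mpr h1
    rwa [map_natCast] at this
  obtain ⟨x0, y0, hy0, hxy⟩ := hf
  -- the root of unity
  obtain ⟨ζ0, hζ0⟩ := HasEnoughRootsOfUnity.exists_primitiveRoot Qb ℓ
  obtain ⟨ζ, rfl⟩ := hζ0.isUnit (NeZero.ne ℓ)
  have hζ : IsPrimitiveRoot ζ ℓ := IsPrimitiveRoot.coe_units_iff.mp hζ0
  obtain ⟨u, hu⟩ := exists_unit_of_pow_eq_one A ζ (NeZero.ne ℓ) hζ.pow_eq_one
  have huℓ : u ^ ℓ = 1 := by
    apply Units.map_injective (f := (A.subtype : ↥A →* Qb)) A.subtype_injective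
    rw [map_pow, hu, hζ.pow_eq_one, map_one]
  have hured := residue_unit_eq_one A u huℓ
  -- the Frobenius
  have hD := hs.mem_decompositionSubgroup
  have hχ := @charpoly_beta_alpha N ℓ _ _ hℓ hℓN ζ hζ f (finiteAlong_beta N ℓ hℓ hℓN)
  have hbase : (qExpand Qb ℓ).comp (coeHom N) = baseHom N ℓ := RingHom.ext fun g => rfl
  have key := kronecker_quotient ℓ A.subtype (IsLocalRing.residue A) (restrictEquiv A hD)
    (residue_restrictEquiv_of_isFrobeniusAt A hs) x0 y0 hy0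
    (f : LaurentSeries Qb)
    (coeffMap (s : Qb →+* Qb) (f : LaurentSeries Qb))
    (coeffMap (s.symm : Qb →+* Qb) (f : LaurentSeries Qb))
    hxy
    (by
      rw [coeffMap_subtype_restrictEquiv, coeffMap_subtype_restrictEquiv, ← map_mul, hxy])
    (by
      rw [coeffMap_subtype_restrictEquiv_symm, coeffMap_subtype_restrictEquiv_symm, ← map_mul,
        hxy])
    (fun b => Fermat.Agent.S28.tw (ζ ^ b) (f : LaurentSeries Qb))
    (fun b => Fermat.Agent.S28.tw (u ^ b) x0) (fun b => Fermat.Agent.S28.tw (u ^ b) y0)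
    (fun b _ => by
      rw [Fermat.Agent.S28.coeffMap_tw, map_pow, hured, one_pow, Fermat.Agent.S28.tw_one])
    (fun b _ => by
      rw [Fermat.Agent.S28.coeffMap_tw, map_pow, hured, one_pow, Fermat.Agent.S28.tw_one])
    (fun b _ => by
      rw [Fermat.Agent.S28.coeffMap_tw, Fermat.Agent.S28.coeffMap_tw, map_pow, hu, ← map_mul,
        hxy])
    ((letI := algebraAlong (heckeBetaBar Qb N ℓ)
      haveI : Module.Finite (FF Qb N) (FF Qb (N * ℓ)) := finiteAlong_beta N ℓ hℓ hℓN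
      (LinearMap.mulLeft (FF Qb N) (heckeAlphaBar Qb N ℓ f)).charpoly).map (coeHom N))
    (by rw [Polynomial.map_map, hbase]; exact hχ)
    i
  obtain ⟨x, y, hx, hy, hxy'⟩ := key
  refine ⟨x, y, hx, hy, ?_⟩
  rw [← hxy']
  congr 1
  have e1 : coeHom N (arithmeticGalois (modularFunctionFieldFull N) s • f)
      = coeffMap (s : Qb →+* Qb) (f : LaurentSeries Qb) :=
    coe_arithmeticGalois_smul (modularFunctionFieldFull N) s f
  have e2 : coeHom N ((arithmeticGalois (modularFunctionFieldFull N) s)⁻¹ • f)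
      = coeffMap (s.symm : Qb →+* Qb) (f : LaurentSeries Qb) :=
    coe_arithmeticGalois_inv_smul (modularFunctionFieldFull N) s f
  have h1 : ((X - C (((arithmeticGalois (modularFunctionFieldFull N) s)⁻¹ • f : FF Qb N) ^ ℓ))
      * (X ^ ℓ - C (arithmeticGalois (modularFunctionFieldFull N) s • f : FF Qb N))
        : (FF Qb N)[X]).map (coeHom N)
      = (X - C (coeffMap (s.symm : Qb →+* Qb) (f : LaurentSeries Qb) ^ ℓ))
        * (X ^ ℓ - C (coeffMap (s : Qb →+* Qb) (f : LaurentSeries Qb))) := by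
    rw [Polynomial.map_mul, Polynomial.map_sub, Polynomial.map_sub, Polynomial.map_X,
      Polynomial.map_pow, Polynomial.map_X, Polynomial.map_C, Polynomial.map_C, map_pow, e1, e2]
  rw [← h1, Polynomial.coeff_map, Polynomial.coeff_map, ← map_sub]
  rfl

end Centre


end Fermat.Agent.S37.KronCoeff
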