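import Mathlib
import Fermat.Agent.S37.KBFinal
import Fermat.Agent.S37.KronCoeff

/-!
# S37, (K-b): the Kronecker congruence plugged in

`heckeInput_of_cuspInt`: `Final.HeckeInput A N ℓ s` from the two cusp-chart integrality inputs
(INT-cusp) and (KC1-cusp) alone.
-/

set_option autoImplicit false
set_option linter.style.haveILetI false

namespace Fermat.Agent.S37.KB

open ModularCurve AlgebraicCurve Polynomial
open Fermat.Agent.S37.GaloisValue Fermat.Agent.S37.Centre

noncomputable section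

local notation "Qb" => AlgebraicClosure ℚ

attribute [local instance 10000] Module.Free.of_divisionRing

variable {N ℓ : ℕ} [NeZero N] [NeZero ℓ]

set_option maxHeartbeats 1600000 in
/-- The Kronecker congruence for `chiPoly`. -/
theorem gaussSmall_chiPoly_sub_kronPoly {A : ValuationSubring Qb} (hℓ : ℓ.Prime) (hℓN : ¬ ℓ ∣ N)
    (hA : A.LiesOverPrime ℓ) {s : Qb ≃ₐ[ℚ] Qb} (hs : A.IsFrobeniusAt s ℓ)
    (f : ↥(modularFunctionFieldBar N)) (hf : GaussInt A (f : LaurentSeries Qb)) (i : ℕ) :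
    GaussSmall A (((chiPoly N ℓ f).coeff i - (kronPoly N ℓ s f).coeff i :
      ↥(modularFunctionFieldBar N)) : LaurentSeries Qb) :=
  KronCoeff.gaussSmall_charpoly_coeff_sub A N ℓ hℓ hℓN hA hs f hf i

/-- **(K-b)** from the cusp-chart integrality inputs. -/
theorem heckeInput_of_cuspInt {A : ValuationSubring Qb} (hℓ : ℓ.Prime) (hℓN : ¬ ℓ ∣ N)
    (hA : A.LiesOverPrime ℓ) {s : Qb ≃ₐ[ℚ] Qb} (hs : A.IsFrobeniusAt s ℓ)
    (hINTcusp : ∃ u : Polynomial A, IsUnit (u.coeff 0) ∧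
      (GaussSmall.evAt A (heckeBetaBar Qb N ℓ (Fermat.Agent.S24.jBC Qb N)⁻¹)).IsIntegralElem
        (GaussSmall.evAt A (heckeBetaBar Qb N ℓ (Fermat.Agent.S24.jBC Qb N)⁻¹) u
          * heckeAlphaBar Qb N ℓ (Fermat.Agent.S24.jBC Qb N)⁻¹))
    (hKC1cusp : ∀ f : ↥(modularFunctionFieldBar N), IsCuspInt A N f → ∀ i : ℕ,
      letI := algebraAlong (heckeBetaBar Qb N ℓ)
      ∀ [Module.Finite ↥(modularFunctionFieldBar N) ↥(modularFunctionFieldBar (N * ℓ))],
        IsCuspInt A N ((LinearMap.mulLeft ↥(modularFunctionFieldBar N)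
          (heckeAlphaBar Qb N ℓ f)).charpoly.coeff i)) :
    Final.HeckeInput A N ℓ s :=
  heckeInput_of_cusp hℓ hℓN hA hs
    (fun f hf i => gaussSmall_chiPoly_sub_kronPoly hℓ hℓN hA hs f hf i) hINTcusp
    (fun f hf i => chiPoly_coeff_of_forall N ℓ (IsCuspInt A N) f i (hKC1cusp f hf i))

end

end Fermat.Agent.S37.KB
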