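import Mathlib
import Fermat.Agent.S37.KBKron
import Fermat.Agent.S37.CharpolyCusp

/-!
# S37, (K-b): closed form

`KB.heckeInput_all N` is literally the `hKb` input of `Final.specializationExists_of_centre`:
the Eichler–Shimura divisor congruence
`s²·P − T_ℓ(s·P) + ℓ·P ∈ centreSubgroup A N` for every place `P` of `X₀(N)` over `ℚ̄`, every
prime `ℓ ∤ N`, every valuation ring `A` of `ℚ̄` over `ℓ` and every Frobenius lift `s` at `A`.
-/

set_option autoImplicit false
set_option linter.style.haveILetI false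

namespace Fermat.Agent.S37.KB

open ModularCurve AlgebraicCurve Polynomial
open Fermat.Agent.S37.GaloisValue Fermat.Agent.S37.Centre

noncomputable section

local notation "Qb" => AlgebraicClosure ℚ

attribute [local instance 10000] Module.Free.of_divisionRing

/-- **(K-b)**, closed form: the `hKb` input of `Final.specializationExists_of_centre`. -/
theorem heckeInput_all (N : ℕ) [NeZero N] :
    ∀ ℓ : ℕ, (hℓ : ℓ.Prime) → ¬ ℓ ∣ N → ∀ A : ValuationSubring Qb, A.LiesOverPrime ℓ →
      ∀ s : Qb ≃ₐ[ℚ] Qb, A.IsFrobeniusAt s ℓ →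
        haveI : NeZero ℓ := ⟨hℓ.ne_zero⟩
        Final.HeckeInput A N ℓ s := by
  intro ℓ hℓ hℓN A hA s hs
  haveI : NeZero ℓ := ⟨hℓ.ne_zero⟩
  exact heckeInput_of_cuspInt hℓ hℓN hA hs
    (CharpolyCusp.exists_isIntegralElem_evAt_alpha A N ℓ hℓ isCuspInt_jinv)
    (fun f hf i => CharpolyCusp.isCuspInt_charpoly_coeff A N ℓ hℓ hf i)

end

end Fermat.Agent.S37.KB
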