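/-
S37 (chart normality, hypothesis `hinert`): no inertia at the Gauss prime, from the derivative
of the defining polynomial of the auxiliary cover.

If `Y = F(x0)`, `x0` an integral root of `P ∈ D[T]`, and `P'(x0) · r0 = g` with `r0` integral and
`g ∈ D`, then for every `σ ≠ 1` in `Aut(Y/F)` the difference `σ x0 - x0` divides `g` in the
integral closure of `D` in `Y`.  (No list of conjugates is needed.)
-/
import Mathlib

set_option autoImplicit false

namespace Fermat.Agent.S37.InertDeriv

open Polynomial

/-- An automorphism of `Y = F(x0)` over `F` fixing `x0` is the identity. -/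
theorem eq_one_of_apply_eq {F Y : Type*} [Field F] [Field Y] [Algebra F Y] (x0 : Y)
    (hgen : IntermediateField.adjoin F {x0} = ⊤) (σ : Y ≃ₐ[F] Y) (hσ : σ x0 = x0) : σ = 1 := by
  apply AlgEquiv.ext
  intro y
  have hy : y ∈ IntermediateField.adjoin F {x0} := by rw [hgen]; trivial
  show σ y = y
  induction hy using IntermediateField.adjoin_induction with
  | mem x hx =>
    rw [Set.mem_singleton_iff] at hx
    rw [hx, hσ]
  | algebraMap x => exact σ.commutes x
  | add x y _ _ hx hy => rw [map_add, hx, hy]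
  | inv x _ hx => rw [map_inv₀, hx]
  | mul x y _ _ hx hy => rw [map_mul, hx, hy]

/-- **Two distinct integral roots.**  If `a ≠ b` are roots of `P ∈ D[T]` in a field `Y`, both
integral over `D`, then `P'(a) = (a - b) · c` with `c` integral over `D`. -/
theorem exists_derivative_eq_mul {D Y : Type*} [CommRing D] [Field Y] [Algebra D Y]
    (P : D[X]) (a b : Y) (ha : IsIntegral D a) (hb : IsIntegral D b)
    (hPa : aeval a P = 0) (hPb : aeval b P = 0) (hab : a ≠ b) :
    ∃ c : Y, IsIntegral D c ∧ aeval a (derivative P) = (a - b) * c := by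
  let B : Subalgebra D Y := integralClosure D Y
  let a' : B := ⟨a, ha⟩
  let b' : B := ⟨b, hb⟩
  let PB : B[X] := P.map (algebraMap D B)
  have hinj : Function.Injective (algebraMap B Y) := Subtype.val_injective
  have hevalY : ∀ (Q : B[X]) (z : B), ((Q.eval z : B) : Y) = (Q.map (algebraMap B Y)).eval (z : Y) := by
    intro Q z
    rw [Polynomial.eval_map]
    exact (Polynomial.hom_eval₂ Q (RingHom.id B) (algebraMap B Y) z).trans (by simp)
  have hPBY : PB.map (algebraMap B Y) = P.map (algebraMap D Y) := by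
    rw [Polynomial.map_map, ← IsScalarTower.algebraMap_eq]
  have hrootA : PB.IsRoot a' := by
    show PB.eval a' = 0
    apply hinj
    rw [map_zero]
    show ((PB.eval a' : B) : Y) = 0
    rw [hevalY, hPBY, Polynomial.eval_map, ← Polynomial.aeval_def]
    exact hPa
  have hrootB : PB.IsRoot b' := by
    show PB.eval b' = 0
    apply hinj
    rw [map_zero]
    show ((PB.eval b' : B) : Y) = 0
    rw [hevalY, hPBY, Polynomial.eval_map, ← Polynomial.aeval_def]
    exact hPb
  -- first division
  set Q1 : B[X] := PB /ₘ (X - C a') with hQ1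
  have h1 : (X - C a') * Q1 = PB := Polynomial.mul_divByMonic_eq_iff_isRoot.mpr hrootA
  have hab' : b' - a' ≠ 0 := by
    intro h
    apply hab
    have := congrArg (Subtype.val) (sub_eq_zero.mp h)
    exact this.symm
  have hrootB1 : Q1.IsRoot b' := by
    have h2 : PB.eval b' = 0 := hrootB
    rw [← h1, Polynomial.eval_mul, Polynomial.eval_sub, Polynomial.eval_X, Polynomial.eval_C] at h2
    exact (mul_eq_zero.mp h2).resolve_left hab'
  -- second division
  set Q2 : B[X] := Q1 /ₘ (X - C b') with hQ2
  have h3 : (X - C b') * Q2 = Q1 := Polynomial.mul_divByMonic_eq_iff_isRoot.mpr hrootB1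
  -- the derivative
  have hder : (derivative PB).eval a' = (a' - b') * Q2.eval a' := by
    rw [← h1, derivative_mul, derivative_sub, derivative_X, derivative_C, sub_zero, one_mul,
      Polynomial.eval_add, Polynomial.eval_mul, Polynomial.eval_sub, Polynomial.eval_X,
      Polynomial.eval_C, sub_self, zero_mul, add_zero, ← h3, Polynomial.eval_mul,
      Polynomial.eval_sub, Polynomial.eval_X, Polynomial.eval_C]
  refine ⟨((Q2.eval a' : B) : Y), (Q2.eval a').2, ?_⟩
  have h4 : ((((derivative PB).eval a' : B)) : Y) = aeval a (derivative P) := by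
    rw [hevalY, ← Polynomial.derivative_map, hPBY, Polynomial.derivative_map, Polynomial.eval_map,
      ← Polynomial.aeval_def]
  rw [← h4, hder]
  rfl

/-- **No inertia from the derivative.**  `Y = F(x0)`, `x0` an integral root of `P ∈ D[T]`
(`D` acting on `Y` through `F`), `P'(x0) · r0 = g` with `r0` integral over `D`.  Then for every
`σ ≠ 1` in `Aut(Y/F)` there are `y, r` integral over `D` with `(σ y - y) · r = g`. -/
theorem exists_inert_of_derivative {D F Y : Type*} [CommRing D] [Field F] [Field Y]
    [Algebra D F] [Algebra D Y] [Algebra F Y] [IsScalarTower D F Y]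
    (P : D[X]) (x0 : Y) (hx0 : IsIntegral D x0) (hroot : aeval x0 P = 0)
    (hgen : IntermediateField.adjoin F {x0} = ⊤)
    (r0 : Y) (hr0 : IsIntegral D r0) (g : D)
    (hg : aeval x0 (derivative P) * r0 = algebraMap D Y g)
    (σ : Y ≃ₐ[F] Y) (hσ : σ ≠ 1) :
    ∃ y r : Y, IsIntegral D y ∧ IsIntegral D r ∧ (σ y - y) * r = algebraMap D Y g := by
  have hne : x0 ≠ σ x0 := fun h => hσ (eq_one_of_apply_eq x0 hgen σ h.symm)
  -- `σ` as a `D`-algebra map
  let σD : Y →ₐ[D] Y := (σ : Y →ₐ[F] Y).restrictScalars D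
  have hσD : ∀ y, σD y = σ y := fun _ => rfl
  have hint : IsIntegral D (σ x0) := by
    rw [← hσD]
    exact hx0.map σD
  have hroot' : aeval (σ x0) P = 0 := by
    rw [← hσD, Polynomial.aeval_algHom_apply, hroot, map_zero]
  obtain ⟨c, hc, hder⟩ := exists_derivative_eq_mul P x0 (σ x0) hx0 hint hroot hroot' hne
  refine ⟨x0, -(c * r0), hx0, (hc.mul hr0).neg, ?_⟩
  rw [← hg, hder]
  ring

/-- The same, with the multiplier condition `¬ π ∣ g` carried along: the exact shape of the
hypothesis `hinert` of the chart-normality theorem. -/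
theorem hinert_of_derivative {D F Y : Type*} [CommRing D] [Field F] [Field Y]
    [Algebra D F] [Algebra D Y] [Algebra F Y] [IsScalarTower D F Y]
    (π : D) (P : D[X]) (x0 : Y) (hx0 : IsIntegral D x0) (hroot : aeval x0 P = 0)
    (hgen : IntermediateField.adjoin F {x0} = ⊤)
    (r0 : Y) (hr0 : IsIntegral D r0) (g : D) (hπg : ¬ π ∣ g)
    (hg : aeval x0 (derivative P) * r0 = algebraMap D Y g) :
    ∀ σ : Y ≃ₐ[F] Y, σ ≠ 1 → ∃ y r : Y, IsIntegral D y ∧ IsIntegral D r ∧
      ∃ g : D, ¬ π ∣ g ∧ (σ y - y) * r = algebraMap D Y g := by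
  intro σ hσ
  obtain ⟨y, r, hy, hr, h⟩ := exists_inert_of_derivative P x0 hx0 hroot hgen r0 hr0 g hg σ hσ
  exact ⟨y, r, hy, hr, g, hπg, h⟩

end Fermat.Agent.S37.InertDeriv
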