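import Mathlib
import Fermat.Agent.S18.CuspInstL
import Fermat.Agent.S18.CuspVertBase
import Fermat.Agent.S18.GaussVal
import Fermat.Agent.S18.PGOut
import Fermat.Agent.S37.InertDeriv

/-!
# S37, chart normality: the cusp chart instance for the function field `F = FF L N` itself

The unramifiedness hypothesis `hU` (in `TowerUnram.TraceNondeg` form) of the generic chart
theorems, for the cusp chart `R₀ = Cusp.CuspRing W N` (`τ^N = 1/j`) and the field `Y' = F(x0)`,
`x0 ^ N = 1/j`, with NO Kummer layer: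

* `cusp_horizontal_F` : at the primes of `R₀` not containing `π`;
* `cusp_vertical_F` : at the prime `(π)`;
* `cusp_hU_F` : both.

`K' = Frac R₀`, `Y'`, `B'` are abstract, with instance arguments and three compatibility
equations (`hX`, `hC`, `hgen`).
-/

set_option autoImplicit false
set_option linter.style.haveILetI false
set_option linter.unusedSectionVars false

namespace Fermat.Agent.S37.ChartInstCusp

open Polynomial AlgebraicCurve ModularCurve
open Fermat.Agent.S24 Fermat.Agent.S18 Fermat.Agent.S18.Cusp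

/-- **Cusp chart for `F`, horizontal primes.** -/
theorem cusp_horizontal_F
    {L : Type*} [Field L] [Algebra ℚ L] (ι : L →+* AlgebraicClosure ℚ) (N : ℕ) [NeZero N]
    {W : Type*} [CommRing W] [IsDomain W] [Algebra W L] (π : W) [IsLocalization.Away π L]
    {ζ : L} (hζ : IsPrimitiveRoot ζ N)
    {K' Y' B' : Type*} [Field Y'] [Algebra (FF L N) Y'] [Field K'] [Algebra (CuspRing W N) K']
    [IsFractionRing (CuspRing W N) K'] [Algebra K' Y'] [Algebra (CuspRing W N) Y']
    [IsScalarTower (CuspRing W N) K' Y']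
    (hX : algebraMap (CuspRing W N) Y' (chartX W N) ^ N * algebraMap (FF L N) Y' (jBC L N) = 1)
    (hC : ∀ a : W, algebraMap (CuspRing W N) Y' (algebraMap W (CuspRing W N) a) =
      algebraMap (FF L N) Y' (algebraMap L (FF L N) (algebraMap W L a)))
    (hgen : IntermediateField.adjoin (FF L N) {algebraMap (CuspRing W N) Y' (chartX W N)} = ⊤)
    [CommRing B'] [Algebra (CuspRing W N) B'] [Algebra B' Y'] [IsScalarTower (CuspRing W N) B' Y']
    [IsIntegralClosure B' (CuspRing W N) Y']
    (𝔭 : Ideal (CuspRing W N)) [𝔭.IsPrime] (h𝔭 : algebraMap W (CuspRing W N) π ∉ 𝔭) :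
    TowerUnram.TraceNondeg (CuspRing W N) K' Y' B' 𝔭 :=
  CuspInstL.cusp_horizontal_FF ι N π hζ (F2 := FF L N) 1 one_pos 1 1 (by simp)
    (by rw [pow_one]; exact irreducible_X_sub_C 1) (Module.finrank_self _) one_ne_zero
    (fun v => by simp) hX hC hgen 𝔭 h𝔭

section Inert

/-- `t = baseT` is not divisible by a prime of `W` in the base chart. -/
theorem not_dvd_baseT {W : Type*} [CommRing W] [IsDomain W] {ϖ : W} (hϖ : Prime ϖ) :
    ¬ algebraMap W (CuspBase W) ϖ ∣ baseT W := by
  intro h
  have h1 : (C ϖ : W[X]) ∣ X := (cuspBase_dvd_iff W hϖ X).mp h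
  have h2 := (Polynomial.C_dvd_iff_dvd_coeff ϖ X).mp h1 1
  rw [coeff_X_one] at h2
  exact hϖ.not_isUnit (isUnit_of_dvd_one h2)

/-- **No inertia at the Gauss prime, cusp chart** (the hypothesis `hinert` of the chart-normality
theorem): `Y' = F(x0)`, `x0 ^ N = t` the image of the coordinate of the base chart
`D = CuspBase W`, `N` a unit of `W`.  For `σ ≠ 1` in `Aut(Y'/F)`, `σ x0 - x0` divides `t` in the
integral closure of `D`, and `t ∉ ϖ D`. -/
theorem cusp_hinert {W : Type*} [CommRing W] [IsDomain W] {N : ℕ}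
    (hNu : IsUnit ((N : ℕ) : W)) {ϖ : W} (hϖ : Prime ϖ)
    {F Y' : Type*} [Field F] [Field Y'] [Algebra F Y']
    [Algebra (CuspBase W) F] [Algebra (CuspBase W) Y'] [IsScalarTower (CuspBase W) F Y']
    (x0 : Y') (hx0 : x0 ^ N = algebraMap (CuspBase W) Y' (baseT W))
    (hgen : IntermediateField.adjoin F {x0} = ⊤) :
    ∀ σ : Y' ≃ₐ[F] Y', σ ≠ 1 → ∃ y r : Y', IsIntegral (CuspBase W) y ∧
      IsIntegral (CuspBase W) r ∧ ∃ g : CuspBase W, ¬ algebraMap W (CuspBase W) ϖ ∣ g ∧
        (σ y - y) * r = algebraMap (CuspBase W) Y' g := by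
  obtain ⟨c, hc⟩ := hNu.exists_right_inv
  have hN : N ≠ 0 := by
    rintro rfl
    rw [Nat.cast_zero, zero_mul] at hc
    exact zero_ne_one hc
  have hroot : aeval x0 (X ^ N - C (baseT W) : (CuspBase W)[X]) = 0 := by
    rw [map_sub, map_pow, aeval_X, aeval_C, hx0, sub_self]
  have hint : IsIntegral (CuspBase W) x0 :=
    ⟨X ^ N - C (baseT W), monic_X_pow_sub_C _ hN, hroot⟩
  refine InertDeriv.hinert_of_derivative (algebraMap W (CuspBase W) ϖ)
    (X ^ N - C (baseT W)) x0 hint hroot hgen
    (x0 * algebraMap (CuspBase W) Y' (algebraMap W (CuspBase W) c))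
    (hint.mul isIntegral_algebraMap) (baseT W) (not_dvd_baseT hϖ) ?_
  have hc' : ((N : ℕ) : Y') * algebraMap (CuspBase W) Y' (algebraMap W (CuspBase W) c) = 1 := by
    have h := congrArg (fun z => algebraMap (CuspBase W) Y' (algebraMap W (CuspBase W) z)) hc
    simpa only [map_mul, map_natCast, map_one] using h
  rw [derivative_sub, derivative_C, sub_zero, derivative_X_pow, map_mul, map_pow, aeval_X,
    aeval_C, map_natCast, ← hx0]
  have h2 : x0 ^ N = x0 ^ (N - 1) * x0 := by
    rw [← pow_succ, Nat.sub_add_cancel (Nat.one_le_iff_ne_zero.mpr hN)]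
  rw [h2]
  linear_combination (x0 ^ (N - 1) * x0) * hc'

end Inert

section DVR

variable {L : Type} [Field L] [Algebra ℚ L] (W : ValuationSubring L) (N : ℕ) [NeZero N]
  (ℓ : ℕ) [Fact ℓ.Prime] [CharP (IsLocalRing.ResidueField W) ℓ]
  [IsAlgClosed (IsLocalRing.ResidueField W)] [IsDiscreteValuationRing W]
  {K' Y' B' : Type*} [Field Y'] [Algebra (FF L N) Y'] [Field K'] [Algebra (CuspRing W N) K']
  [IsFractionRing (CuspRing W N) K'] [Algebra K' Y'] [Algebra (CuspRing W N) Y']
  [IsScalarTower (CuspRing W N) K' Y']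
  [CommRing B'] [Algebra (CuspRing W N) B'] [Algebra B' Y'] [IsScalarTower (CuspRing W N) B' Y']
  [IsIntegralClosure B' (CuspRing W N) Y']

omit [Fact ℓ.Prime] [CharP (IsLocalRing.ResidueField W) ℓ]
  [IsAlgClosed (IsLocalRing.ResidueField W)] [IsDiscreteValuationRing W]
  [CommRing B'] [Algebra (CuspRing W N) B'] [Algebra B' Y'] [IsScalarTower (CuspRing W N) B' Y']
  [IsIntegralClosure B' (CuspRing W N) Y'] in
/-- If `θ` generates `F` over `L(j)`, its image generates `Y' = F(x0)` over `K' = Frac R₀`. -/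
theorem adjoin_theta_eq_top
    (hX : algebraMap (CuspRing W N) Y' (chartX W N) ^ N * algebraMap (FF L N) Y' (jBC L N) = 1)
    (hC : ∀ a : W, algebraMap (CuspRing W N) Y' (algebraMap W (CuspRing W N) a) =
      algebraMap (FF L N) Y' (algebraMap L (FF L N) (a : L)))
    (hgen : IntermediateField.adjoin (FF L N) {algebraMap (CuspRing W N) Y' (chartX W N)} = ⊤)
    (θ : FF L N) (hθ : IntermediateField.adjoin L {jBC L N, θ} = ⊤) :
    IntermediateField.adjoin K' {algebraMap (FF L N) Y' θ} = ⊤ := by
  set S : IntermediateField K' Y' := IntermediateField.adjoin K' {algebraMap (FF L N) Y' θ}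
    with hS
  have hR0 : ∀ r : CuspRing W N, algebraMap (CuspRing W N) Y' r ∈ S := by
    intro r
    rw [IsScalarTower.algebraMap_apply (CuspRing W N) K' Y']
    exact S.algebraMap_mem _
  have hL : ∀ a : L, algebraMap (FF L N) Y' (algebraMap L (FF L N) a) ∈ S.toSubfield := by
    intro a
    obtain ⟨w1, w2, -, rfl⟩ := IsFractionRing.div_surjective (A := W) a
    rw [map_div₀, map_div₀]
    refine S.div_mem ?_ ?_
    · have h := hC w1
      rw [show ((w1 : W) : L) = algebraMap W L w1 from rfl] at h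
      rw [← h]; exact hR0 _
    · have h := hC w2
      rw [show ((w2 : W) : L) = algebraMap W L w2 from rfl] at h
      rw [← h]; exact hR0 _
  have hj : algebraMap (FF L N) Y' (jBC L N) ∈ S.toSubfield := by
    rw [eq_inv_of_mul_eq_one_right hX]
    exact S.inv_mem (pow_mem (hR0 _) N)
  have hF : ∀ x : FF L N, algebraMap (FF L N) Y' x ∈ S.toSubfield := by
    refine PGOut.map_mem_subfield_of_adjoin_eq_top (algebraMap (FF L N) Y') S.toSubfield _ hθ hL
      ?_
    intro t ht
    rcases ht with rfl | rfl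
    · exact hj
    · exact IntermediateField.subset_adjoin K' _ rfl
  have hle : IntermediateField.adjoin (FF L N) {algebraMap (CuspRing W N) Y' (chartX W N)} ≤
      S.toSubfield.toIntermediateField hF := by
    rw [IntermediateField.adjoin_le_iff]
    rintro _ rfl
    exact hR0 _
  rw [hgen] at hle
  rw [eq_top_iff]
  intro y _
  exact hle (IntermediateField.mem_top (F := FF L N) (E := Y') (x := y))

/-- **Cusp chart for `F`, vertical prime.**  `W` a discrete valuation ring of `L` with
algebraically closed residue field of characteristic `ℓ ∤ N`. -/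
theorem cusp_vertical_F (hℓN : ¬ ℓ ∣ N) (π : W) (hπ : Irreducible π)
    (hX : algebraMap (CuspRing W N) Y' (chartX W N) ^ N * algebraMap (FF L N) Y' (jBC L N) = 1)
    (hC : ∀ a : W, algebraMap (CuspRing W N) Y' (algebraMap W (CuspRing W N) a) =
      algebraMap (FF L N) Y' (algebraMap L (FF L N) (a : L)))
    (hgen : IntermediateField.adjoin (FF L N) {algebraMap (CuspRing W N) Y' (chartX W N)} = ⊤) :
    TowerUnram.TraceNondeg (CuspRing W N) K' Y' B'
      (Ideal.span {algebraMap W (CuspRing W N) π}) := by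
  have hN : 0 < N := NeZero.pos N
  haveI : CharZero L := algebraRat.charZero L
  haveI : CharZero (FF L N) := charZero_of_injective_algebraMap (algebraMap L (FF L N)).injective
  haveI : CharZero Y' := charZero_of_injective_algebraMap (algebraMap (FF L N) Y').injective
  haveI : CharZero K' := RingHom.charZero (algebraMap K' Y')
  obtain ⟨θ, P, y, -, -, hP, -, hroot, -, hspan, -, hsep⟩ := Gauss.exists_monogenic W N ℓ hℓN
  have hadj : IntermediateField.adjoin L {jBC L N, θ} = ⊤ := PGOut.adjoin_eq_top_of_span θ hspan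
  have hsep' := Gauss.separable_fractionRing_of_redK W P hsep
    (FractionRing (IsLocalRing.ResidueField W)[X])
  set φ : (↥W)[X] →+* Y' := (algebraMap (FF L N) Y').comp (Gauss.evF W N) with hφ
  have hφC : ∀ a : W, φ (C a) =
      algebraMap (CuspRing W N) Y' (algebraMap W (CuspRing W N) a) := by
    intro a
    rw [hφ, RingHom.comp_apply, Gauss.evF_C]
    exact (hC a).symm
  have hφX : φ X * algebraMap (CuspRing W N) Y' (chartX W N) ^ N = 1 := by
    rw [hφ, RingHom.comp_apply, Gauss.evF_X, mul_comm]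
    exact hX
  have hPθ : eval₂ φ (algebraMap (FF L N) Y' θ) P = 0 := by
    rw [hφ, ← Polynomial.hom_eval₂, hroot, map_zero]
  have hgen' : IntermediateField.adjoin K' {algebraMap (FF L N) Y' θ} = ⊤ :=
    adjoin_theta_eq_top W N hX hC hgen θ hadj
  -- `Y'` is finite over `K'`
  have hint : IsIntegral K' (algebraMap (FF L N) Y' θ) := by
    set ψ : (↥W)[X] →+* K' := eval₂RingHom
      ((algebraMap (CuspRing W N) K').comp (algebraMap W (CuspRing W N)))
      (algebraMap (CuspRing W N) K' (chartX W N ^ N))⁻¹ with hψ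
    have hψφ : (algebraMap K' Y').comp ψ = φ := by
      refine Polynomial.ringHom_ext (fun a => ?_) ?_
      · rw [RingHom.comp_apply, hψ, coe_eval₂RingHom, eval₂_C, RingHom.comp_apply,
          ← IsScalarTower.algebraMap_apply (CuspRing W N) K' Y', hφC]
      · rw [RingHom.comp_apply, hψ, coe_eval₂RingHom, eval₂_X, map_inv₀,
          ← IsScalarTower.algebraMap_apply (CuspRing W N) K' Y', map_pow]
        exact (eq_inv_of_mul_eq_one_left hφX).symm
    refine ⟨P.map ψ, hP.map ψ, ?_⟩
    rw [eval₂_map, hψφ]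
    exact hPθ
  haveI : FiniteDimensional K' Y' := by
    have h1 : FiniteDimensional K'
        (IntermediateField.adjoin K' {algebraMap (FF L N) Y' θ}) :=
      IntermediateField.adjoin.finiteDimensional hint
    rw [hgen'] at h1
    exact Module.Finite.equiv (IntermediateField.topEquiv (F := K') (E := Y')).toLinearEquiv
  have hker : ∀ a : W, IsLocalRing.residue W a = 0 ↔ π ∣ a := by
    intro a
    rw [IsLocalRing.residue_eq_zero_iff, hπ.maximalIdeal_eq, Ideal.mem_span_singleton]
  exact CuspVertBase.cusp_hU_vertical_base N hN (FractionRing (IsLocalRing.ResidueField W)[X])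
    (IsLocalRing.residue W) IsLocalRing.residue_surjective π hπ.prime hker φ hφC hφX
    (algebraMap (FF L N) Y' θ) P hP hPθ hsep' hgen'

/-- **Cusp chart for `F`: the hypothesis `hU` of the generic chart theorems**, at `(π)` and at
every prime of `R₀ = CuspRing W N` not containing `π`. -/
theorem cusp_hU_F (ι : L →+* AlgebraicClosure ℚ) (hℓN : ¬ ℓ ∣ N) (π : W) (hπ : Irreducible π)
    {ζ : L} (hζ : IsPrimitiveRoot ζ N)
    (hX : algebraMap (CuspRing W N) Y' (chartX W N) ^ N * algebraMap (FF L N) Y' (jBC L N) = 1)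
    (hC : ∀ a : W, algebraMap (CuspRing W N) Y' (algebraMap W (CuspRing W N) a) =
      algebraMap (FF L N) Y' (algebraMap L (FF L N) (a : L)))
    (hgen : IntermediateField.adjoin (FF L N) {algebraMap (CuspRing W N) Y' (chartX W N)} = ⊤)
    (𝔭 : Ideal (CuspRing W N)) (h𝔭p : 𝔭.IsPrime)
    (h𝔭 : 𝔭 = Ideal.span {algebraMap W (CuspRing W N) π} ∨ algebraMap W (CuspRing W N) π ∉ 𝔭) :
    TowerUnram.TraceNondeg (CuspRing W N) K' Y' B' 𝔭 := by
  rcases h𝔭 with rfl | h
  · exact cusp_vertical_F W N ℓ hℓN π hπ hX hC hgen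
  · haveI : IsLocalization.Away π L := ChartBasics.isLocalization_away_of_irreducible π hπ
    exact cusp_horizontal_F ι N π hζ hX hC hgen 𝔭 h

end DVR

/-- Integers prime to the residue characteristic are units of a local ring. -/
theorem isUnit_natCast_of_not_dvd {W : Type*} [CommRing W] [IsLocalRing W] (ℓ : ℕ)
    [CharP (IsLocalRing.ResidueField W) ℓ] (n : ℕ) (hn : ¬ ℓ ∣ n) : IsUnit ((n : ℕ) : W) := by
  rw [← IsLocalRing.notMem_maximalIdeal, ← IsLocalRing.residue_eq_zero_iff, map_natCast,
    CharP.cast_eq_zero_iff (IsLocalRing.ResidueField W) ℓ]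
  exact hn

end Fermat.Agent.S37.ChartInstCusp
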