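import Mathlib
import Fermat.Agent.S18.CuspCore
import Fermat.Agent.S18.ChartNormal
import Fermat.Agent.S18.FunctionFieldKitCusp
import Fermat.Agent.S37.ChartInstCusp

set_option autoImplicit false
set_option linter.style.haveILetI false
set_option linter.unusedSectionVars false

namespace Fermat.Agent.S37.ChartInstCuspCore

open Polynomial AlgebraicCurve ModularCurve
open Fermat.Agent.S24 Fermat.Agent.S18 Fermat.Agent.S18.Cusp

local notation "Qb" => AlgebraicClosure ℚ

universe u v

/-- A `CuspBase W`-structure on a field which is `t ↦ t0` on polynomials is the lift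
`baseLift W t0`. -/
theorem algebraMap_eq_baseLift {W F : Type*} [CommRing W] [IsDomain W] [Field F] [Algebra W F]
    (t0 : F) (h1 : 1 - 1728 * t0 ≠ 0) [Algebra (CuspBase W) F]
    (hD : ∀ P : W[X], algebraMap (CuspBase W) F (algebraMap W[X] (CuspBase W) P) = aeval t0 P)
    (a : CuspBase W) : algebraMap (CuspBase W) F a = baseLift W t0 h1 a := by
  have key : algebraMap (CuspBase W) F = (baseLift W t0 h1 : CuspBase W →+* F) := by
    apply IsLocalization.ringHom_ext (Submonoid.powers (cuspG W))
    refine RingHom.ext fun P => ?_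
    simp only [RingHom.coe_comp, RingHom.coe_coe, Function.comp_apply]
    rw [hD, baseLift_algebraMap]
  exact congrArg (fun φ : CuspBase W →+* F => φ a) key

/-- **Cusp chart normality, abstract function field.**  `F` a field over `L = Frac W` with
`t0 = 1/j` transcendental; the Kummer cover `Y' = F(x0)`, `x0 ^ N = t0`, and
`K' = Frac (CuspRing W N)` are constructed inside; the trace-form hypothesis `hU` (and the
finiteness of `Y'` over `K'`) is asked for every cover of this shape. -/
theorem cusp_chart_dedekind_core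
    {W : Type u} {L : Type*} {F : Type v} {k : Type*}
    [CommRing W] [IsDomain W] [IsDiscreteValuationRing W]
    [Field L] [Algebra ℚ L] [Algebra W L] [IsFractionRing W L]
    [Field F] [Algebra L F] [Algebra W F] [IsScalarTower W L F]
    {N : ℕ} (hN : 0 < N) (hNu : IsUnit ((N : ℕ) : W)) (ζN : L) (hζN : IsPrimitiveRoot ζN N)
    (ϖ : W) (hϖ : Irreducible ϖ)
    (t0 : F) (ht0 : Transcendental L t0) (h1 : 1 - 1728 * t0 ≠ 0)
    [Algebra (CuspBase W) F] (hD : ∀ a, algebraMap (CuspBase W) F a = baseLift W t0 h1 a)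
    [Field k] [IsAlgClosed k] (res : W →+* k) (hres : Function.Surjective res)
    (hker : ∀ a : W, res a = 0 → ϖ ∣ a)
    (hU : ∀ (K' : Type u) (Y' : Type v) [Field Y'] [Algebra F Y'] [Field K']
      [Algebra (CuspRing W N) K'] [IsFractionRing (CuspRing W N) K'] [Algebra K' Y']
      [Algebra (CuspRing W N) Y'] [IsScalarTower (CuspRing W N) K' Y'],
      algebraMap (CuspRing W N) Y' (chartX W N) ^ N = algebraMap F Y' t0 →
      (∀ a : W, algebraMap (CuspRing W N) Y' (algebraMap W (CuspRing W N) a) =
        algebraMap F Y' (algebraMap W F a)) →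
      IntermediateField.adjoin F {algebraMap (CuspRing W N) Y' (chartX W N)} = ⊤ →
      FiniteDimensional K' Y' ∧ ∀ 𝔭 : Ideal (CuspRing W N), 𝔭.IsPrime →
        (𝔭 = Ideal.span {algebraMap W (CuspRing W N) ϖ} ∨ algebraMap W (CuspRing W N) ϖ ∉ 𝔭) →
        TowerUnram.TraceNondeg (CuspRing W N) K' Y' (integralClosure (CuspRing W N) Y') 𝔭)
    (hπF : Prime (algebraMap (CuspBase W) (integralClosure (CuspBase W) F)
      (algebraMap W (CuspBase W) ϖ))) :
    IsDedekindDomain (integralClosure (CuspBase W) F ⧸
      Ideal.span {algebraMap (CuspBase W) (integralClosure (CuspBase W) F)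
        (algebraMap W (CuspBase W) ϖ)}) := by
  classical
  have hϖp : Prime ϖ := hϖ.prime
  have hmax : (Ideal.span {ϖ}).IsMaximal := by
    rw [← hϖ.maximalIdeal_eq]; exact IsLocalRing.maximalIdeal.isMaximal W
  haveI : CharZero L := algebraRat.charZero L
  haveI : CharZero F := charZero_of_injective_algebraMap (algebraMap L F).injective
  -- the Kummer cover `x0 ^ N = t0`
  obtain ⟨g, hg, hgdvd⟩ := Polynomial.exists_irreducible_of_degree_pos
    (f := (X ^ N - C t0 : F[X])) (by rw [degree_X_pow_sub_C hN]; exact_mod_cast hN)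
  haveI : Fact (Irreducible g) := ⟨hg⟩
  have hx0 : (AdjoinRoot.root g) ^ N = algebraMap F (AdjoinRoot g) t0 := by
    have h := (AdjoinRoot.aeval_eq (f := g) (X ^ N - C t0)).trans (AdjoinRoot.mk_eq_zero.mpr hgdvd)
    rw [map_sub, map_pow, aeval_X, aeval_C] at h
    exact sub_eq_zero.mp h
  have hgen : IntermediateField.adjoin F {AdjoinRoot.root g} = ⊤ :=
    IntermediateField.adjoin_eq_top_of_algebra F _ AdjoinRoot.adjoinRoot_eq_top
  haveI : IsScalarTower W L (AdjoinRoot g) := IsScalarTower.of_algebraMap_eq fun a => by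
    rw [AdjoinRoot.algebraMap_eq' W g, AdjoinRoot.algebraMap_eq' L g, RingHom.comp_apply,
      RingHom.comp_apply, IsScalarTower.algebraMap_apply W L F]
  have h2 : 1 - 1728 * (AdjoinRoot.root g) ^ N ≠ 0 := by
    rw [hx0]
    intro h0
    apply h1
    apply (algebraMap F (AdjoinRoot g)).injective
    rw [map_sub, map_one, map_mul, map_ofNat, h0, map_zero]
  have htrL : Transcendental L (AdjoinRoot.root g) := by
    intro halg
    have h3 : Transcendental L (algebraMap F (AdjoinRoot g) t0) :=
      FFKit.transcendental_algebraMap ht0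
    rw [← hx0] at h3
    exact h3 (halg.pow N)
  have htrW : Transcendental W (AdjoinRoot.root g) :=
    htrL.restrictScalars (IsFractionRing.injective W L)
  -- the chart and its fraction field
  haveI : IsDomain (CuspRing W N) := cuspRing_isDomain W hN
  haveI : IsNoetherianRing (CuspRing W N) := cuspRing_isNoetherianRing W N
  haveI : IsIntegrallyClosed (CuspRing W N) := cuspRing_isIntegrallyClosed W hN
  haveI : IsNoetherianRing (CuspBase W) := cuspBase_isNoetherianRing W
  letI : Algebra (CuspRing W N) (AdjoinRoot g) :=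
    (chartLift W N (AdjoinRoot.root g) h2).toRingHom.toAlgebra
  have hinj : Function.Injective (chartLift W N (AdjoinRoot.root g) h2).toRingHom :=
    chartLift_injective N (AdjoinRoot.root g) h2 htrW
  letI : Algebra (FractionRing (CuspRing W N)) (AdjoinRoot g) :=
    FFKit.fracAlgebra (FractionRing (CuspRing W N))
      (chartLift W N (AdjoinRoot.root g) h2).toRingHom hinj
  haveI : IsScalarTower (CuspRing W N) (FractionRing (CuspRing W N)) (AdjoinRoot g) :=
    FFKit.fracAlgebra_isScalarTower (FractionRing (CuspRing W N)) _ hinj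
  -- the base chart
  letI : Algebra (CuspBase W) (CuspRing W N) := cuspAlgebra W N
  haveI : Module.Finite (CuspBase W) (CuspRing W N) := cuspAlgebra_finite W hN
  haveI : IsScalarTower (CuspBase W) F (AdjoinRoot g) := inferInstance
  haveI : IsScalarTower (CuspBase W) (CuspRing W N) (AdjoinRoot g) :=
    IsScalarTower.of_algebraMap_eq fun a => by
      rw [IsScalarTower.algebraMap_apply (CuspBase W) F (AdjoinRoot g)]
      show algebraMap F (AdjoinRoot g) (algebraMap (CuspBase W) F a) =
        chartLift W N (AdjoinRoot.root g) h2 (cuspMap W N a)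
      rw [chartLift_cuspMap, hD]
      exact (CuspCore.baseLift_map t0 h1 ((AdjoinRoot.root g) ^ N) hx0 h2 a).symm
  -- the compatibility equations of the cover
  have hX' : algebraMap (CuspRing W N) (AdjoinRoot g) (chartX W N) ^ N =
      algebraMap F (AdjoinRoot g) t0 := by
    show (chartLift W N (AdjoinRoot.root g) h2 (chartX W N)) ^ N = _
    rw [chartLift_chartX, hx0]
  have hC' : ∀ a : W, algebraMap (CuspRing W N) (AdjoinRoot g) (algebraMap W (CuspRing W N) a) =
      algebraMap F (AdjoinRoot g) (algebraMap W F a) := by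
    intro a
    show chartLift W N (AdjoinRoot.root g) h2 (algebraMap W (CuspRing W N) a) = _
    rw [AlgHom.commutes, ← IsScalarTower.algebraMap_apply]
  have hgen' : IntermediateField.adjoin F
      {algebraMap (CuspRing W N) (AdjoinRoot g) (chartX W N)} = ⊤ := by
    have h3 : algebraMap (CuspRing W N) (AdjoinRoot g) (chartX W N) = AdjoinRoot.root g :=
      chartLift_chartX N _ h2
    rw [h3]; exact hgen
  obtain ⟨hfin, hU'⟩ := hU (FractionRing (CuspRing W N)) (AdjoinRoot g) hX' hC' hgen'
  haveI := hfin
  haveI : CharZero (AdjoinRoot g) :=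
    charZero_of_injective_algebraMap (algebraMap F (AdjoinRoot g)).injective
  haveI : CharZero (FractionRing (CuspRing W N)) :=
    (RingHom.charZero_iff (algebraMap (FractionRing (CuspRing W N)) (AdjoinRoot g)).injective).mpr
      inferInstance
  haveI : Algebra.IsSeparable (FractionRing (CuspRing W N)) (AdjoinRoot g) :=
    Algebra.IsAlgebraic.isSeparable_of_perfectField
  -- `Y'` is Galois over `F`
  have hNF : ((N : ℕ) : F) ≠ 0 := by exact_mod_cast hN.ne'
  have hζF : IsPrimitiveRoot (algebraMap L F ζN) N :=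
    hζN.map_of_injective (algebraMap L F).injective
  have ht00 : t0 ≠ 0 := fun h0 => ht0 (h0 ▸ isAlgebraic_zero)
  haveI : IsGalois F (AdjoinRoot g) :=
    Cusp.isGalois_of_root hNF hζF t0 ht00 (AdjoinRoot.root g) hx0 hgen
  haveI : FiniteDimensional F (AdjoinRoot g) :=
    (AdjoinRoot.powerBasis hg.ne_zero).finite
  -- the uniformiser in the charts
  have e0 : algebraMap (CuspBase W) (CuspRing W N) (algebraMap W (CuspBase W) ϖ) =
      algebraMap W (CuspRing W N) ϖ := (cuspMap W N).commutes ϖ
  have hx0D : (AdjoinRoot.root g) ^ N = algebraMap (CuspBase W) (AdjoinRoot g) (baseT W) := by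
    rw [IsScalarTower.algebraMap_apply (CuspBase W) F (AdjoinRoot g), hD, baseLift_baseT, hx0]
  exact ChartNormal.chart_normal (W := W) (k := k) (D := CuspBase W) (R0 := CuspRing W N)
    (K' := FractionRing (CuspRing W N)) (F := F) (Y' := AdjoinRoot g) res hres
    (algebraMap W (CuspBase W) ϖ) (fun a ha => map_dvd _ (hker a ha))
    (cuspMap_injective W hN)
    (by rw [e0]; exact cuspRing_prime W hN hϖp)
    (by rw [e0]; exact cuspRing_quotient_isDedekindDomain W hN hϖp hmax)
    (fun a ha => cusp_dvd W hN hϖp a (by rw [← e0]; exact ha))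
    (fun 𝔭 h𝔭p h𝔭 => hU' 𝔭 h𝔭p (by rw [← e0]; exact h𝔭))
    hπF (ChartInstCusp.cusp_hinert hNu hϖp (AdjoinRoot.root g) hx0D hgen)

end Fermat.Agent.S37.ChartInstCuspCore
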