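import Mathlib
import Fermat.Agent.S18.GaussChart
import Fermat.Agent.S18.EtaleGauss
import Fermat.Agent.S18.Cusp


/-!
# S37, Stage 3: the uniformiser is a prime element of both charts (Gauss saturation)

For a discrete valuation ring `W` of the coefficient field `L` (uniformiser `ϖ`, residue field
algebraically closed of characteristic `ℓ ∤ N`) and `F = FF L N`:

* the integral closure `B₁` of `W[j]` in `F`, and
* the integral closure `B₂` of `W[1/j, 1/(j - 1728)]` in `F`

satisfy `ϖ B = B ∩ ϖ O` (`O` the Gauss valuation ring, i.e. integral `q`-expansions), the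
reduction `B → κ((q))` has kernel `ϖ B`, and `ϖ` is a prime element of `B`.
-/

set_option autoImplicit false
set_option linter.unusedSectionVars false
set_option linter.style.haveILetI false

noncomputable section

namespace Fermat.Agent.S37.GaussPrime

open Polynomial ModularCurve Fermat.Agent.S18 Fermat.Agent.S18.Gauss

variable {L : Type*} [Field L] [Algebra ℚ L] (W : ValuationSubring L)
  (N : ℕ) [NeZero N]

/-! ### Generic saturated predicates -/

section Sat

variable [IsDiscreteValuationRing W]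

/-- A predicate `I` on `FF L N` ("integral on a chart") is *Gauss-saturated* if its elements
have integral `q`-expansion and `I (ϖ x)`, `x` with integral `q`-expansion, implies `I x`. -/
structure IsSat (ϖ : W) (I : Fermat.Agent.S24.FF L N → Prop) : Prop where
  mem : ∀ x : Fermat.Agent.S24.FF L N, I x → (x : LaurentSeries L) ∈ contentRing W
  sat : ∀ x : Fermat.Agent.S24.FF L N, (x : LaurentSeries L) ∈ contentRing W →
    I (algebraMap L (Fermat.Agent.S24.FF L N) ((ϖ : W) : L) * x) → I x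

variable {W N} {ϖ : W} {I : Fermat.Agent.S24.FF L N → Prop}

theorem coe_unif (ϖ : W) :
    ((algebraMap L (Fermat.Agent.S24.FF L N) ((ϖ : W) : L) : Fermat.Agent.S24.FF L N) :
      LaurentSeries L) = HahnSeries.C ((ϖ : W) : L) := by
  rw [← Fermat.Agent.S28.Content.algebraMap_eq_C_of_field]
  rfl

theorem unif_ne_zero (hϖ : Irreducible ϖ) :
    algebraMap L (Fermat.Agent.S24.FF L N) ((ϖ : W) : L) ≠ 0 := by
  intro h0
  have h1 := congrArg (Subtype.val) h0
  rw [coe_unif] at h1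
  exact C_unif_ne_zero W hϖ h1

/-- An element with integral `q`-expansion and zero reduction is `ϖ` times an element of `F`
with integral `q`-expansion. -/
theorem exists_eq_unif_mul_of_red (hϖ : Irreducible ϖ) (x : Fermat.Agent.S24.FF L N)
    (hx : (x : LaurentSeries L) ∈ contentRing W) (hred : red W ⟨x, hx⟩ = 0) :
    ∃ x₁ : Fermat.Agent.S24.FF L N, (x₁ : LaurentSeries L) ∈ contentRing W ∧
      x = algebraMap L (Fermat.Agent.S24.FF L N) ((ϖ : W) : L) * x₁ := by
  obtain ⟨g, hg⟩ := (red_eq_zero_iff W hϖ ⟨x, hx⟩).mp hred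
  have h0 := unif_ne_zero (N := N) hϖ
  refine ⟨(algebraMap L (Fermat.Agent.S24.FF L N) ((ϖ : W) : L))⁻¹ * x, ?_, ?_⟩
  · have hC0 : HahnSeries.C ((ϖ : W) : L) ≠ (0 : LaurentSeries L) := C_unif_ne_zero W hϖ
    have e : (((algebraMap L (Fermat.Agent.S24.FF L N) ((ϖ : W) : L))⁻¹ * x :
        Fermat.Agent.S24.FF L N) : LaurentSeries L) = (g : LaurentSeries L) := by
      show ((algebraMap L (Fermat.Agent.S24.FF L N) ((ϖ : W) : L) :
        Fermat.Agent.S24.FF L N) : LaurentSeries L)⁻¹ * (x : LaurentSeries L) = _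
      rw [coe_unif]
      have hg' : (x : LaurentSeries L) = HahnSeries.C ((ϖ : W) : L) * (g : LaurentSeries L) := hg
      rw [hg', inv_mul_cancel_left₀ hC0]
    rw [e]
    exact g.2
  · rw [mul_inv_cancel_left₀ h0]

/-- **`ϖ` is prime on a Gauss-saturated chart.** -/
theorem IsSat.prime_core (hI : IsSat W N ϖ I) (hϖ : Irreducible ϖ)
    (x y z : Fermat.Agent.S24.FF L N) (hx : I x) (hy : I y) (hz : I z)
    (h : x * y = algebraMap L (Fermat.Agent.S24.FF L N) ((ϖ : W) : L) * z) :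
    (∃ x₁, I x₁ ∧ x = algebraMap L (Fermat.Agent.S24.FF L N) ((ϖ : W) : L) * x₁) ∨
      (∃ y₁, I y₁ ∧ y = algebraMap L (Fermat.Agent.S24.FF L N) ((ϖ : W) : L) * y₁) := by
  have hxm := hI.mem x hx
  have hym := hI.mem y hy
  have hzm := hI.mem z hz
  have hprod : (⟨x, hxm⟩ : contentRing W) * ⟨y, hym⟩ =
      ⟨HahnSeries.C ((ϖ : W) : L), C_mem_contentRing W ϖ⟩ * ⟨z, hzm⟩ := by
    apply Subtype.ext
    show (x : LaurentSeries L) * (y : LaurentSeries L) =
      HahnSeries.C ((ϖ : W) : L) * (z : LaurentSeries L)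
    rw [← coe_unif (N := N) ϖ]
    exact congrArg Subtype.val h
  have hred : red W ⟨x, hxm⟩ * red W ⟨y, hym⟩ = 0 := by
    rw [← map_mul, hprod, map_mul, red_C_unif W hϖ, zero_mul]
  rcases mul_eq_zero.mp hred with h0 | h0
  · left
    obtain ⟨x₁, hx₁, e⟩ := exists_eq_unif_mul_of_red hϖ x hxm h0
    exact ⟨x₁, hI.sat x₁ hx₁ (e ▸ hx), e⟩
  · right
    obtain ⟨y₁, hy₁, e⟩ := exists_eq_unif_mul_of_red hϖ y hym h0
    exact ⟨y₁, hI.sat y₁ hy₁ (e ▸ hy), e⟩

/-- `ϖ` is not a unit of a Gauss-saturated chart. -/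
theorem IsSat.not_inv (hI : IsSat W N ϖ I) (hϖ : Irreducible ϖ) :
    ¬ I (algebraMap L (Fermat.Agent.S24.FF L N) ((ϖ : W) : L))⁻¹ := by
  intro h
  have hm := hI.mem _ h
  have h0 := unif_ne_zero (N := N) hϖ
  have hprod : (⟨HahnSeries.C ((ϖ : W) : L), C_mem_contentRing W ϖ⟩ : contentRing W) *
      ⟨_, hm⟩ = 1 := by
    apply Subtype.ext
    show HahnSeries.C ((ϖ : W) : L) *
      (((algebraMap L (Fermat.Agent.S24.FF L N) ((ϖ : W) : L))⁻¹ :
        Fermat.Agent.S24.FF L N) : LaurentSeries L) = 1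
    rw [← coe_unif (N := N) ϖ]
    exact congrArg Subtype.val (mul_inv_cancel₀ h0)
  have h1 := congrArg (red W) hprod
  rw [map_mul, red_C_unif W hϖ, zero_mul, map_one] at h1
  exact zero_ne_one h1

/-- The kernel of the reduction on a Gauss-saturated chart is generated by `ϖ`. -/
theorem IsSat.red_eq_zero_iff (hI : IsSat W N ϖ I) (hϖ : Irreducible ϖ)
    (x : Fermat.Agent.S24.FF L N) (hx : I x) :
    red W ⟨x, hI.mem x hx⟩ = 0 ↔
      ∃ x₁, I x₁ ∧ x = algebraMap L (Fermat.Agent.S24.FF L N) ((ϖ : W) : L) * x₁ := by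
  constructor
  · intro h0
    obtain ⟨x₁, hx₁, e⟩ := exists_eq_unif_mul_of_red hϖ x (hI.mem x hx) h0
    exact ⟨x₁, hI.sat x₁ hx₁ (e ▸ hx), e⟩
  · rintro ⟨x₁, hx₁, e⟩
    have hprod : (⟨x, hI.mem x hx⟩ : contentRing W) =
        ⟨HahnSeries.C ((ϖ : W) : L), C_mem_contentRing W ϖ⟩ * ⟨x₁, hI.mem x₁ hx₁⟩ := by
      apply Subtype.ext
      show (x : LaurentSeries L) = HahnSeries.C ((ϖ : W) : L) * (x₁ : LaurentSeries L)
      rw [← coe_unif (N := N) ϖ]
      exact congrArg Subtype.val e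
    rw [hprod, map_mul, red_C_unif W hϖ, zero_mul]

end Sat

/-! ### Chart evaluations -/

section Chart

variable [IsDiscreteValuationRing W]

/-- A chart evaluation `ev : W[X] → FF L N` for which "Gauss-integral" means "integral
`q`-expansion". -/
structure IsChartEv (ev : (↥W)[X] →+* Fermat.Agent.S24.FF L N) : Prop where
  map_C : ∀ a : W, ev (C a) = algebraMap L (Fermat.Agent.S24.FF L N) ((a : W) : L)
  injective : Function.Injective ev
  mem_of_int : ∀ x : Fermat.Agent.S24.FF L N, ev.IsIntegralElem x →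
    (x : LaurentSeries L) ∈ contentRing W
  gauss_of_mem : ∀ x : Fermat.Agent.S24.FF L N, (x : LaurentSeries L) ∈ contentRing W →
    ∃ S : (↥W)[X], S.map (IsLocalRing.residue W) ≠ 0 ∧ ev.IsIntegralElem (ev S * x)

variable {W N} {ev : (↥W)[X] →+* Fermat.Agent.S24.FF L N} {ϖ : W}

/-- **(III) on a chart**: `ϖ x` integral over the chart and `x` with integral `q`-expansion
imply `x` integral over the chart. -/
theorem IsChartEv.isIntegralElem_of_unif_mul (hev : IsChartEv W N ev) (hϖ : Irreducible ϖ)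
    (x : Fermat.Agent.S24.FF L N) (hx : (x : LaurentSeries L) ∈ contentRing W)
    (h : ev.IsIntegralElem (algebraMap L (Fermat.Agent.S24.FF L N) ((ϖ : W) : L) * x)) :
    ev.IsIntegralElem x := by
  obtain ⟨S, hS, hSx⟩ := hev.gauss_of_mem x hx
  have hSϖ : ¬ C ϖ ∣ S := fun hd => hS ((map_residue_eq_zero_iff_C_dvd W hϖ S).mpr hd)
  letI : Algebra (↥W)[X] (Fermat.Agent.S24.FF L N) := ev.toAlgebra
  haveI : FaithfulSMul (↥W)[X] (Fermat.Agent.S24.FF L N) :=
    (faithfulSMul_iff_algebraMap_injective _ _).mpr hev.injective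
  letI := FractionRing.liftAlgebra (↥W)[X] (Fermat.Agent.S24.FF L N)
  haveI := FractionRing.isScalarTower_liftAlgebra (↥W)[X] (Fermat.Agent.S24.FF L N)
  have hCϖ : Prime (C ϖ : (↥W)[X]) := prime_C_iff.mpr hϖ.prime
  have h1 : IsIntegral (↥W)[X] ((C ϖ : (↥W)[X]) • x) := by
    rw [Algebra.smul_def]
    change ev.IsIntegralElem (ev (C ϖ) * x)
    rw [hev.map_C]
    exact h
  have h2 : IsIntegral (↥W)[X] (S • x) := by
    rw [Algebra.smul_def]
    exact hSx
  exact EtaleGauss.isIntegral_of_smul_isIntegral (FractionRing (↥W)[X]) (C ϖ) S hCϖ hSϖ x h1 h2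

/-- The integral elements of a chart form a Gauss-saturated predicate. -/
theorem IsChartEv.isSat (hev : IsChartEv W N ev) (hϖ : Irreducible ϖ) :
    IsSat W N ϖ (fun x => ev.IsIntegralElem x) :=
  ⟨hev.mem_of_int, fun x hx h => hev.isIntegralElem_of_unif_mul hϖ x hx h⟩

end Chart

/-! ### The two charts -/

section Charts

variable [IsDiscreteValuationRing W] (ℓ : ℕ) [Fact ℓ.Prime]
  [CharP (IsLocalRing.ResidueField W) ℓ] [IsAlgClosed (IsLocalRing.ResidueField W)]

theorem map_residue_one_ne_zero :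
    (1 : (↥W)[X]).map (IsLocalRing.residue W) ≠ 0 := by
  rw [Polynomial.map_one]
  exact one_ne_zero

/-- The finite chart `W[j]`. -/
theorem isChartEv_fin (hℓN : ¬ ℓ ∣ N) : IsChartEv W N (evF W N) where
  map_C := evF_C W N
  injective := evF_injective W N
  mem_of_int := fun x hx => mem_of_isGaussInt W N ℓ hℓN x 1 (map_residue_one_ne_zero W)
    (by rw [map_one, one_mul]; exact hx)
  gauss_of_mem := isGaussInt_of_mem W N ℓ hℓN

theorem evFinf_injective : Function.Injective (evFinf W N) := by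
  rw [injective_iff_map_eq_zero]
  intro P hP
  have h0 : evG W (jqModC L)⁻¹ P = 0 := by
    have h1 := congrArg (Subtype.val) hP
    exact h1
  have h1 : (P.map W.subtype).eval₂ (HahnSeries.C (Γ := ℤ) (R := L)) (jqModC L)⁻¹ = 0 := by
    rw [Polynomial.eval₂_map]
    exact h0
  have h2 := eval₂_jInv_eq_zero h1
  exact Polynomial.map_injective W.subtype Subtype.val_injective (by rw [h2, Polynomial.map_zero])

/-- The chart `W[1/j]` at infinity. -/
theorem isChartEv_inf (hℓN : ¬ ℓ ∣ N) : IsChartEv W N (evFinf W N) where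
  map_C := evFinf_C W N
  injective := evFinf_injective W N
  mem_of_int := fun x hx => (isGaussInt_inf_iff W N ℓ hℓN x).mp
    ⟨1, map_residue_one_ne_zero W, by rw [map_one, one_mul]; exact hx⟩
  gauss_of_mem := fun x hx => (isGaussInt_inf_iff W N ℓ hℓN x).mpr hx

end Charts

/-! ### The cusp chart `W[1/j, 1/(j - 1728)]` in multiplier form -/

section Cusp

variable [IsDiscreteValuationRing W]

/-- `1 - 1728 X`, the element inverted on the cusp chart. -/
def cuspPoly : (↥W)[X] := 1 - C 1728 * X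

/-- Integrality over the cusp chart `W[1/j, 1/(j - 1728)]`: some power of `1 - 1728/j` carries
`x` into the integral closure of `W[1/j]`. -/
def IntCusp (x : Fermat.Agent.S24.FF L N) : Prop :=
  ∃ m : ℕ, (evFinf W N).IsIntegralElem ((1 - 1728 * (Fermat.Agent.S24.jBC L N)⁻¹) ^ m * x)

theorem evFinf_cuspPoly :
    evFinf W N (cuspPoly W) = 1 - 1728 * (Fermat.Agent.S24.jBC L N)⁻¹ := by
  have h1728 : evFinf W N (C (1728 : W)) = 1728 := by
    rw [evFinf_C]
    have : (((1728 : W) : W) : L) = (1728 : L) := rfl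
    rw [this, map_ofNat]
  rw [cuspPoly, map_sub, map_one, map_mul, h1728, evFinf_X]

theorem cuspPoly_map_ne_zero : (cuspPoly W).map (IsLocalRing.residue W) ≠ 0 := by
  intro h
  have h1 := congrArg (fun p => p.coeff 0) h
  simp [cuspPoly] at h1

theorem cuspU_mem :
    ((1 - 1728 * (Fermat.Agent.S24.jBC L N)⁻¹ : Fermat.Agent.S24.FF L N) : LaurentSeries L) ∈
      contentRing W := by
  rw [← evFinf_cuspPoly W N]
  exact evG_mem_contentRing W (jInv_mem_contentRing W) (cuspPoly W)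

theorem cuspU_inv_mem :
    ((1 - 1728 * (Fermat.Agent.S24.jBC L N)⁻¹ : Fermat.Agent.S24.FF L N) : LaurentSeries L)⁻¹ ∈
      contentRing W := by
  have hmem := evG_mem_contentRing W (jInv_mem_contentRing W) (cuspPoly W)
  have hred : red W ⟨evG W (jqModC L)⁻¹ (cuspPoly W), hmem⟩ ≠ 0 := fun h0 =>
    cuspPoly_map_ne_zero W (gJ_eq_zero W (jInv_mem_contentRing W) (htr_inf W) h0)
  have h := inv_mem_contentRing W hmem hred
  have e : ((1 - 1728 * (Fermat.Agent.S24.jBC L N)⁻¹ : Fermat.Agent.S24.FF L N) :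
      LaurentSeries L) = evG W (jqModC L)⁻¹ (cuspPoly W) := by
    rw [← evFinf_cuspPoly W N]
    rfl
  rw [e]
  exact h

include W in
theorem cuspU_ne_zero :
    ((1 - 1728 * (Fermat.Agent.S24.jBC L N)⁻¹ : Fermat.Agent.S24.FF L N) : LaurentSeries L) ≠
      0 := by
  intro h0
  have hmem := evG_mem_contentRing W (jInv_mem_contentRing W) (cuspPoly W)
  have e : ((1 - 1728 * (Fermat.Agent.S24.jBC L N)⁻¹ : Fermat.Agent.S24.FF L N) :
      LaurentSeries L) = evG W (jqModC L)⁻¹ (cuspPoly W) := by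
    rw [← evFinf_cuspPoly W N]
    rfl
  have hred : red W ⟨evG W (jqModC L)⁻¹ (cuspPoly W), hmem⟩ ≠ 0 := fun h1 =>
    cuspPoly_map_ne_zero W (gJ_eq_zero W (jInv_mem_contentRing W) (htr_inf W) h1)
  apply hred
  have h2 : (⟨evG W (jqModC L)⁻¹ (cuspPoly W), hmem⟩ : contentRing W) = 0 :=
    Subtype.ext (e.symm.trans h0)
  rw [h2, map_zero]

variable (ℓ : ℕ) [Fact ℓ.Prime] [CharP (IsLocalRing.ResidueField W) ℓ]
  [IsAlgClosed (IsLocalRing.ResidueField W)]

/-- The cusp chart is Gauss-saturated. -/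
theorem isSat_cusp (hℓN : ¬ ℓ ∣ N) {ϖ : W} (hϖ : Irreducible ϖ) :
    IsSat W N ϖ (IntCusp W N) where
  mem := by
    rintro x ⟨m, hm⟩
    have h1 := (isChartEv_inf W N ℓ hℓN).mem_of_int _ hm
    have hu0 := cuspU_ne_zero W N
    have e : (x : LaurentSeries L) =
        (((1 - 1728 * (Fermat.Agent.S24.jBC L N)⁻¹ : Fermat.Agent.S24.FF L N) :
          LaurentSeries L)⁻¹) ^ m *
        (((1 - 1728 * (Fermat.Agent.S24.jBC L N)⁻¹) ^ m * x : Fermat.Agent.S24.FF L N) :
          LaurentSeries L) := by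
      show (x : LaurentSeries L) = _ ^ m *
        (((1 - 1728 * (Fermat.Agent.S24.jBC L N)⁻¹ : Fermat.Agent.S24.FF L N) :
          LaurentSeries L) ^ m * (x : LaurentSeries L))
      rw [← mul_assoc, ← mul_pow, inv_mul_cancel₀ hu0, one_pow, one_mul]
    rw [e]
    exact mul_mem (pow_mem (cuspU_inv_mem W N) m) h1
  sat := by
    rintro x hx ⟨m, hm⟩
    refine ⟨m, (isChartEv_inf W N ℓ hℓN).isIntegralElem_of_unif_mul hϖ _ ?_ ?_⟩
    · show ((1 - 1728 * (Fermat.Agent.S24.jBC L N)⁻¹ : Fermat.Agent.S24.FF L N) :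
        LaurentSeries L) ^ m * (x : LaurentSeries L) ∈ contentRing W
      exact mul_mem (pow_mem (cuspU_mem W N) m) hx
    · have e : algebraMap L (Fermat.Agent.S24.FF L N) ((ϖ : W) : L) *
          ((1 - 1728 * (Fermat.Agent.S24.jBC L N)⁻¹) ^ m * x) =
          (1 - 1728 * (Fermat.Agent.S24.jBC L N)⁻¹) ^ m *
            (algebraMap L (Fermat.Agent.S24.FF L N) ((ϖ : W) : L) * x) := by ring
      rw [e]
      exact hm

end Cusp


/-! ### Wrappers: `ϖ` is a prime element of the integral closure -/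

section Wrap

variable [IsDiscreteValuationRing W]

variable {W N} in
/-- **Generic wrapper.**  If "integral over `D`" is a Gauss-saturated predicate on `FF L N` and
`π : D` maps to the uniformiser `ϖ`, then `π` is a prime element of any integral closure `B` of
`D` in `FF L N`. -/
theorem prime_algebraMap_of_isSat {D B : Type*} [CommRing D] [CommRing B] [Algebra D B]
    [Algebra D (Fermat.Agent.S24.FF L N)] [Algebra B (Fermat.Agent.S24.FF L N)]
    [IsScalarTower D B (Fermat.Agent.S24.FF L N)]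
    [IsIntegralClosure B D (Fermat.Agent.S24.FF L N)] {ϖ : W}
    (hI : IsSat W N ϖ (fun x : Fermat.Agent.S24.FF L N => IsIntegral D x))
    (hϖ : Irreducible ϖ) (π : D)
    (hπ : algebraMap D (Fermat.Agent.S24.FF L N) π =
      algebraMap L (Fermat.Agent.S24.FF L N) ((ϖ : W) : L)) :
    Prime (algebraMap D B π) := by
  have hinj : Function.Injective (algebraMap B (Fermat.Agent.S24.FF L N)) :=
    IsIntegralClosure.algebraMap_injective B D (Fermat.Agent.S24.FF L N)
  have hmap : algebraMap B (Fermat.Agent.S24.FF L N) (algebraMap D B π) =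
      algebraMap L (Fermat.Agent.S24.FF L N) ((ϖ : W) : L) := by
    rw [← IsScalarTower.algebraMap_apply, hπ]
  have hint : ∀ b : B, IsIntegral D (algebraMap B (Fermat.Agent.S24.FF L N) b) := fun b =>
    IsIntegralClosure.isIntegral_iff (A := B) |>.mpr ⟨b, rfl⟩
  have h0 := unif_ne_zero (N := N) hϖ
  refine ⟨?_, ?_, ?_⟩
  · intro h
    apply h0
    rw [← hmap, h, map_zero]
  · intro hu
    obtain ⟨b, hb⟩ := hu.exists_right_inv
    apply hI.not_inv hϖ
    have e : algebraMap B (Fermat.Agent.S24.FF L N) b =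
        (algebraMap L (Fermat.Agent.S24.FF L N) ((ϖ : W) : L))⁻¹ := by
      apply eq_inv_of_mul_eq_one_right
      rw [← hmap, ← map_mul, hb, map_one]
    rw [← e]
    exact hint b
  · intro x y hxy
    obtain ⟨z, hz⟩ := hxy
    have h : algebraMap B (Fermat.Agent.S24.FF L N) x * algebraMap B (Fermat.Agent.S24.FF L N) y
        = algebraMap L (Fermat.Agent.S24.FF L N) ((ϖ : W) : L) *
          algebraMap B (Fermat.Agent.S24.FF L N) z := by
      rw [← map_mul, hz, map_mul, hmap]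
    rcases hI.prime_core hϖ _ _ _ (hint x) (hint y) (hint z) h with ⟨x₁, hx₁, e⟩ | ⟨y₁, hy₁, e⟩
    · left
      obtain ⟨b, rfl⟩ := IsIntegralClosure.isIntegral_iff (A := B) |>.mp hx₁
      refine ⟨b, hinj ?_⟩
      rw [map_mul, hmap, e]
    · right
      obtain ⟨b, rfl⟩ := IsIntegralClosure.isIntegral_iff (A := B) |>.mp hy₁
      refine ⟨b, hinj ?_⟩
      rw [map_mul, hmap, e]

variable {W N} in
/-- Companion of `prime_algebraMap_of_isSat`: divisibility by `π` in `B` is detected by the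
reduction of `q`-expansions (`π B = B ∩ ϖ O`). -/
theorem dvd_of_isSat {D B : Type*} [CommRing D] [CommRing B] [Algebra D B]
    [Algebra D (Fermat.Agent.S24.FF L N)] [Algebra B (Fermat.Agent.S24.FF L N)]
    [IsScalarTower D B (Fermat.Agent.S24.FF L N)]
    [IsIntegralClosure B D (Fermat.Agent.S24.FF L N)] {ϖ : W}
    (hI : IsSat W N ϖ (fun x : Fermat.Agent.S24.FF L N => IsIntegral D x)) (π : D)
    (hπ : algebraMap D (Fermat.Agent.S24.FF L N) π =
      algebraMap L (Fermat.Agent.S24.FF L N) ((ϖ : W) : L)) (b : B)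
    (x₁ : Fermat.Agent.S24.FF L N) (hx₁ : (x₁ : LaurentSeries L) ∈ contentRing W)
    (e : algebraMap B (Fermat.Agent.S24.FF L N) b =
      algebraMap L (Fermat.Agent.S24.FF L N) ((ϖ : W) : L) * x₁) :
    algebraMap D B π ∣ b := by
  have hinj : Function.Injective (algebraMap B (Fermat.Agent.S24.FF L N)) :=
    IsIntegralClosure.algebraMap_injective B D (Fermat.Agent.S24.FF L N)
  have hb : IsIntegral D (algebraMap B (Fermat.Agent.S24.FF L N) b) :=
    IsIntegralClosure.isIntegral_iff (A := B) |>.mpr ⟨b, rfl⟩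
  have hx : IsIntegral D x₁ := hI.sat x₁ hx₁ (e ▸ hb)
  obtain ⟨b₁, rfl⟩ := IsIntegralClosure.isIntegral_iff (A := B) |>.mp hx
  refine ⟨b₁, hinj ?_⟩
  rw [map_mul, ← IsScalarTower.algebraMap_apply, hπ, e]

variable (ℓ : ℕ) [Fact ℓ.Prime] [CharP (IsLocalRing.ResidueField W) ℓ]
  [IsAlgClosed (IsLocalRing.ResidueField W)]

/-- The finite chart, for an arbitrary algebra structure `W[X] → FF L N` equal to `X ↦ j`:
"integral over `W[j]`" is Gauss-saturated. -/
theorem isSat_fin (hℓN : ¬ ℓ ∣ N) {ϖ : W} (hϖ : Irreducible ϖ)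
    [Algebra (↥W)[X] (Fermat.Agent.S24.FF L N)]
    (halg : algebraMap (↥W)[X] (Fermat.Agent.S24.FF L N) = evF W N) :
    IsSat W N ϖ (fun x : Fermat.Agent.S24.FF L N => IsIntegral (↥W)[X] x) := by
  have h := (isChartEv_fin W N ℓ hℓN).isSat hϖ
  have e : (fun x : Fermat.Agent.S24.FF L N => IsIntegral (↥W)[X] x) =
      fun x => (evF W N).IsIntegralElem x := by
    funext x
    show (algebraMap (↥W)[X] (Fermat.Agent.S24.FF L N)).IsIntegralElem x = _
    rw [halg]
  rw [e]
  exact h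

/-- **`hπF` of `chart_normal` for the finite chart `D = W[X]`, `X ↦ j`**: `C ϖ` is a prime
element of any integral closure `B` of `W[X]` in `FF L N`. -/
theorem prime_C_fin (hℓN : ¬ ℓ ∣ N) {ϖ : W} (hϖ : Irreducible ϖ)
    [Algebra (↥W)[X] (Fermat.Agent.S24.FF L N)]
    (halg : algebraMap (↥W)[X] (Fermat.Agent.S24.FF L N) = evF W N)
    (B : Type*) [CommRing B] [Algebra (↥W)[X] B] [Algebra B (Fermat.Agent.S24.FF L N)]
    [IsScalarTower (↥W)[X] B (Fermat.Agent.S24.FF L N)]
    [IsIntegralClosure B (↥W)[X] (Fermat.Agent.S24.FF L N)] :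
    Prime (algebraMap (↥W)[X] B (C ϖ)) :=
  prime_algebraMap_of_isSat (isSat_fin W N ℓ hℓN hϖ halg) hϖ (C ϖ)
    (by rw [halg]; exact evF_C W N ϖ)

/-- **`hπF` of `chart_normal` for the finite chart**, literal shape: `W[X]` acts on `FF L N`
through `Gauss.evF W N` (`X ↦ j`). -/
theorem prime_C_fin_integralClosure (hℓN : ¬ ℓ ∣ N) {ϖ : W} (hϖ : Irreducible ϖ) :
    letI := (evF W N).toAlgebra
    Prime (algebraMap (↥W)[X] (integralClosure (↥W)[X] (Fermat.Agent.S24.FF L N)) (C ϖ)) := by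
  letI := (evF W N).toAlgebra
  exact prime_C_fin W N ℓ hℓN hϖ rfl (integralClosure (↥W)[X] (Fermat.Agent.S24.FF L N))

end Wrap


/-! ### The cusp chart as the ring `CuspBase W = W[t, 1/(1 - 1728 t)]`, `t ↦ 1/j` -/

section CuspWrap

open Fermat.Agent.S18.Cusp

variable [IsDiscreteValuationRing W]

theorem cuspG_eq_cuspPoly : cuspG ↥W = cuspPoly W := rfl

/-- The structure map of the cusp chart is determined by constants and `t ↦ 1/j`. -/
theorem cusp_halg [Algebra (CuspBase ↥W) (Fermat.Agent.S24.FF L N)]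
    (hC : ∀ a : W, algebraMap (CuspBase ↥W) (Fermat.Agent.S24.FF L N)
      (algebraMap ↥W (CuspBase ↥W) a) = algebraMap L (Fermat.Agent.S24.FF L N) ((a : W) : L))
    (hT : algebraMap (CuspBase ↥W) (Fermat.Agent.S24.FF L N) (baseT ↥W) =
      (Fermat.Agent.S24.jBC L N)⁻¹) (p : (↥W)[X]) :
    algebraMap (CuspBase ↥W) (Fermat.Agent.S24.FF L N) (algebraMap (↥W)[X] (CuspBase ↥W) p) =
      evFinf W N p := by
  have h : (algebraMap (CuspBase ↥W) (Fermat.Agent.S24.FF L N)).comp
      (algebraMap (↥W)[X] (CuspBase ↥W)) = evFinf W N := by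
    apply Polynomial.ringHom_ext
    · intro a
      rw [RingHom.comp_apply, evFinf_C, ← hC a]
      rfl
    · rw [RingHom.comp_apply, evFinf_X, ← hT]
      rfl
  exact congrArg (fun f : (↥W)[X] →+* Fermat.Agent.S24.FF L N => f p) h

/-- **Integral over `CuspBase W` = the multiplier form `IntCusp`.** -/
theorem isIntegral_cuspBase_iff [Algebra (CuspBase ↥W) (Fermat.Agent.S24.FF L N)]
    (halg : ∀ p : (↥W)[X], algebraMap (CuspBase ↥W) (Fermat.Agent.S24.FF L N)
      (algebraMap (↥W)[X] (CuspBase ↥W) p) = evFinf W N p)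
    (x : Fermat.Agent.S24.FF L N) :
    IsIntegral (CuspBase ↥W) x ↔ IntCusp W N x := by
  letI : Algebra (↥W)[X] (Fermat.Agent.S24.FF L N) := (evFinf W N).toAlgebra
  haveI : IsScalarTower (↥W)[X] (CuspBase ↥W) (Fermat.Agent.S24.FF L N) :=
    IsScalarTower.of_algebraMap_eq (fun p => (halg p).symm)
  constructor
  · intro hx
    obtain ⟨⟨_, m, rfl⟩, hm⟩ :=
      IsIntegral.exists_multiple_integral_of_isLocalization (Submonoid.powers (cuspG ↥W)) x hx
    refine ⟨m, ?_⟩
    have h1 : IsIntegral (↥W)[X] ((cuspG ↥W ^ m) • x) := hm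
    rw [Algebra.smul_def] at h1
    have h2 : (evFinf W N).IsIntegralElem (evFinf W N (cuspG ↥W ^ m) * x) := h1
    rw [map_pow, cuspG_eq_cuspPoly, evFinf_cuspPoly] at h2
    exact h2
  · rintro ⟨m, hm⟩
    have h1 : IsIntegral (↥W)[X] ((1 - 1728 * (Fermat.Agent.S24.jBC L N)⁻¹) ^ m * x) := hm
    have h2 : IsIntegral (CuspBase ↥W) ((1 - 1728 * (Fermat.Agent.S24.jBC L N)⁻¹) ^ m * x) :=
      h1.tower_top
    have hu : algebraMap (CuspBase ↥W) (Fermat.Agent.S24.FF L N) (baseInv ↥W) *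
        (1 - 1728 * (Fermat.Agent.S24.jBC L N)⁻¹) = 1 := by
      rw [← evFinf_cuspPoly W N, ← cuspG_eq_cuspPoly, ← halg, ← map_mul, mul_comm,
        algebraMap_cuspG_mul_baseInv, map_one]
    have e : x = algebraMap (CuspBase ↥W) (Fermat.Agent.S24.FF L N) (baseInv ↥W ^ m) *
        ((1 - 1728 * (Fermat.Agent.S24.jBC L N)⁻¹) ^ m * x) := by
      rw [map_pow, ← mul_assoc, ← mul_pow, hu, one_pow, one_mul]
    rw [e]
    exact IsIntegral.mul isIntegral_algebraMap h2

variable (ℓ : ℕ) [Fact ℓ.Prime] [CharP (IsLocalRing.ResidueField W) ℓ]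
  [IsAlgClosed (IsLocalRing.ResidueField W)]

/-- "Integral over `CuspBase W`" is Gauss-saturated. -/
theorem isSat_cuspBase (hℓN : ¬ ℓ ∣ N) {ϖ : W} (hϖ : Irreducible ϖ)
    [Algebra (CuspBase ↥W) (Fermat.Agent.S24.FF L N)]
    (halg : ∀ p : (↥W)[X], algebraMap (CuspBase ↥W) (Fermat.Agent.S24.FF L N)
      (algebraMap (↥W)[X] (CuspBase ↥W) p) = evFinf W N p) :
    IsSat W N ϖ (fun x : Fermat.Agent.S24.FF L N => IsIntegral (CuspBase ↥W) x) := by
  have h := isSat_cusp W N ℓ hℓN hϖ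
  have e : (fun x : Fermat.Agent.S24.FF L N => IsIntegral (CuspBase ↥W) x) = IntCusp W N := by
    funext x
    exact propext (isIntegral_cuspBase_iff W N halg x)
  rw [e]
  exact h

/-- **`hπF` of `chart_normal` for the cusp chart `D = CuspBase W`, `t ↦ 1/j`**: the uniformiser
is a prime element of any integral closure `B` of `CuspBase W` in `FF L N`. -/
theorem prime_unif_cusp (hℓN : ¬ ℓ ∣ N) {ϖ : W} (hϖ : Irreducible ϖ)
    [Algebra (CuspBase ↥W) (Fermat.Agent.S24.FF L N)]
    (halg : ∀ p : (↥W)[X], algebraMap (CuspBase ↥W) (Fermat.Agent.S24.FF L N)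
      (algebraMap (↥W)[X] (CuspBase ↥W) p) = evFinf W N p)
    (B : Type*) [CommRing B] [Algebra (CuspBase ↥W) B] [Algebra B (Fermat.Agent.S24.FF L N)]
    [IsScalarTower (CuspBase ↥W) B (Fermat.Agent.S24.FF L N)]
    [IsIntegralClosure B (CuspBase ↥W) (Fermat.Agent.S24.FF L N)] :
    Prime (algebraMap (CuspBase ↥W) B (algebraMap ↥W (CuspBase ↥W) ϖ)) :=
  prime_algebraMap_of_isSat (isSat_cuspBase W N ℓ hℓN hϖ halg) hϖ
    (algebraMap ↥W (CuspBase ↥W) ϖ)
    (by
      have h := halg (C ϖ)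
      rw [evFinf_C] at h
      rw [← h]
      rfl)

/-- The same with the uniformiser written as the image of `C ϖ ∈ W[X]`. -/
theorem prime_C_cusp (hℓN : ¬ ℓ ∣ N) {ϖ : W} (hϖ : Irreducible ϖ)
    [Algebra (CuspBase ↥W) (Fermat.Agent.S24.FF L N)]
    (halg : ∀ p : (↥W)[X], algebraMap (CuspBase ↥W) (Fermat.Agent.S24.FF L N)
      (algebraMap (↥W)[X] (CuspBase ↥W) p) = evFinf W N p)
    (B : Type*) [CommRing B] [Algebra (CuspBase ↥W) B] [Algebra B (Fermat.Agent.S24.FF L N)]
    [IsScalarTower (CuspBase ↥W) B (Fermat.Agent.S24.FF L N)]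
    [IsIntegralClosure B (CuspBase ↥W) (Fermat.Agent.S24.FF L N)] :
    Prime (algebraMap (CuspBase ↥W) B (algebraMap (↥W)[X] (CuspBase ↥W) (C ϖ))) :=
  prime_unif_cusp W N ℓ hℓN hϖ halg B

end CuspWrap

end Fermat.Agent.S37.GaussPrime
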