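import Mathlib
import Fermat.Agent.S37.GaussPrime
import Fermat.Agent.S18.FunctionFieldKit
import Fermat.Agent.S18.GaussDegree


/-!
# S37, Stage 3: both charts are noetherian (finite over their base)

The integral closure of `W[j]` (resp. of `CuspBase W = W[1/j, 1/(1 - 1728/j)]`) in `FF L N` is a
finite module over the base, hence a noetherian ring.
-/

set_option autoImplicit false
set_option linter.unusedSectionVars false
set_option linter.style.haveILetI false

noncomputable section

namespace Fermat.Agent.S37.GaussNoeth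

open Polynomial ModularCurve Fermat.Agent.S18 Fermat.Agent.S18.Gauss Fermat.Agent.S37.GaussPrime

/-! ### Generic -/

section Generic

/-- The integral closure `B` of a noetherian normal domain `D` in a field `E` of characteristic
zero that is finite over (a subfield consisting of) fractions of `D` is finite over `D`, hence
noetherian. -/
theorem closure_noeth {D : Type*} [CommRing D] [IsDomain D] [IsNoetherianRing D]
    [IsIntegrallyClosed D] {E : Type*} [Field E] [CharZero E] [Algebra D E]
    (hinj : Function.Injective (algebraMap D E)) (S : Subfield E) [Module.Finite S E]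
    (hS : ∀ s ∈ S, ∃ a b : D, algebraMap D E b ≠ 0 ∧ s = algebraMap D E a / algebraMap D E b)
    (B : Type*) [CommRing B] [Algebra D B] [Algebra B E] [IsScalarTower D B E]
    [IsIntegralClosure B D E] : IsNoetherianRing B ∧ Module.Finite D B := by
  letI : Algebra (FractionRing D) E := FFKit.fracAlgebra (FractionRing D) (algebraMap D E) hinj
  haveI : IsScalarTower D (FractionRing D) E := IsScalarTower.of_algebraMap_eq
    (fun a => (FFKit.fracAlgebra_algebraMap (FractionRing D) _ hinj a).symm)
  haveI : FiniteDimensional (FractionRing D) E :=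
    FFKit.fracAlgebra_finite (FractionRing D) (algebraMap D E) hinj S hS
  haveI : CharZero (FractionRing D) := RingHom.charZero (algebraMap (FractionRing D) E)
  haveI : Algebra.IsSeparable (FractionRing D) E := inferInstance
  exact ⟨IsIntegralClosure.isNoetherianRing D (FractionRing D) E B,
    IsIntegralClosure.finite D (FractionRing D) E B⟩

/-- Elements of `L(x)` are quotients of polynomials in `x` with coefficients in a subring `W`
with fraction field `L`. -/
theorem exists_div_of_mem_adjoin {W L E : Type*} [CommRing W] [IsDomain W] [Field L]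
    [Algebra W L] [IsFractionRing W L] [Field E] [Algebra L E] (x : E) (s : E)
    (hs : s ∈ IntermediateField.adjoin L {x}) :
    ∃ a b : W[X], aeval x (b.map (algebraMap W L)) ≠ 0 ∧
      s = aeval x (a.map (algebraMap W L)) / aeval x (b.map (algebraMap W L)) := by
  obtain ⟨r, q, rfl⟩ := (IntermediateField.mem_adjoin_simple_iff L s).mp hs
  by_cases hq : aeval x q = 0
  · refine ⟨0, 1, ?_, ?_⟩
    · rw [Polynomial.map_one, map_one]
      exact one_ne_zero
    · rw [hq, div_zero, Polynomial.map_zero, map_zero, zero_div]
  · obtain ⟨cr, hcrM, hcr⟩ := IsLocalization.integerNormalization_spec (nonZeroDivisors W) r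
    obtain ⟨cq, hcqM, hcq⟩ := IsLocalization.integerNormalization_spec (nonZeroDivisors W) q
    set a := IsLocalization.integerNormalization (nonZeroDivisors W) r
    set b := IsLocalization.integerNormalization (nonZeroDivisors W) q
    have hcr0 : algebraMap L E (algebraMap W L cr) ≠ 0 := by
      rw [Ne, map_eq_zero]
      exact IsFractionRing.to_map_ne_zero_of_mem_nonZeroDivisors hcrM
    have hcq0 : algebraMap L E (algebraMap W L cq) ≠ 0 := by
      rw [Ne, map_eq_zero]
      exact IsFractionRing.to_map_ne_zero_of_mem_nonZeroDivisors hcqM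
    have ha : aeval x (a.map (algebraMap W L)) =
        algebraMap L E (algebraMap W L cr) * aeval x r := by
      rw [hcr, ← algebraMap_smul L cr r, map_smul, Algebra.smul_def]
    have hb : aeval x (b.map (algebraMap W L)) =
        algebraMap L E (algebraMap W L cq) * aeval x q := by
      rw [hcq, ← algebraMap_smul L cq q, map_smul, Algebra.smul_def]
    have ha' : aeval x ((C cq * a).map (algebraMap W L)) =
        algebraMap L E (algebraMap W L cq) * (algebraMap L E (algebraMap W L cr) * aeval x r) := by
      rw [Polynomial.map_mul, Polynomial.map_C, map_mul, aeval_C, ha]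
    have hb' : aeval x ((C cr * b).map (algebraMap W L)) =
        algebraMap L E (algebraMap W L cr) * (algebraMap L E (algebraMap W L cq) * aeval x q) := by
      rw [Polynomial.map_mul, Polynomial.map_C, map_mul, aeval_C, hb]
    refine ⟨C cq * a, C cr * b, ?_, ?_⟩
    · rw [hb']
      exact mul_ne_zero hcr0 (mul_ne_zero hcq0 hq)
    · rw [ha', hb']
      field_simp

end Generic

variable {L : Type*} [Field L] [Algebra ℚ L] (W : ValuationSubring L)
  (N : ℕ) [NeZero N]

/-! ### The two evaluations as `aeval` -/

section Aeval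

theorem evF_eq_aeval (a : (↥W)[X]) :
    evF W N a = aeval (Fermat.Agent.S24.jBC L N) (a.map (algebraMap ↥W L)) := by
  have h : evF W N = ((aeval (Fermat.Agent.S24.jBC L N) :
      L[X] →ₐ[L] Fermat.Agent.S24.FF L N).toRingHom).comp (mapRingHom (algebraMap ↥W L)) := by
    apply Polynomial.ringHom_ext
    · intro c
      rw [evF_C]
      simp
    · rw [evF_X]
      simp
  exact congrArg (fun f : (↥W)[X] →+* Fermat.Agent.S24.FF L N => f a) h

theorem evFinf_eq_aeval (a : (↥W)[X]) :
    evFinf W N a = aeval (Fermat.Agent.S24.jBC L N)⁻¹ (a.map (algebraMap ↥W L)) := by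
  have h : evFinf W N = ((aeval (Fermat.Agent.S24.jBC L N)⁻¹ :
      L[X] →ₐ[L] Fermat.Agent.S24.FF L N).toRingHom).comp (mapRingHom (algebraMap ↥W L)) := by
    apply Polynomial.ringHom_ext
    · intro c
      rw [evFinf_C]
      simp
    · rw [evFinf_X]
      simp
  exact congrArg (fun f : (↥W)[X] →+* Fermat.Agent.S24.FF L N => f a) h

end Aeval

/-! ### The finite chart -/

section Fin

variable [IsDiscreteValuationRing W]

/-- **(NOE), finite chart**: any integral closure `B` of `W[X]` (`X ↦ j`) in `FF L N` is a
noetherian ring, finite over `W[X]`. -/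
theorem noeth_fin [Algebra (↥W)[X] (Fermat.Agent.S24.FF L N)]
    (halg : algebraMap (↥W)[X] (Fermat.Agent.S24.FF L N) = evF W N)
    (B : Type*) [CommRing B] [Algebra (↥W)[X] B] [Algebra B (Fermat.Agent.S24.FF L N)]
    [IsScalarTower (↥W)[X] B (Fermat.Agent.S24.FF L N)]
    [IsIntegralClosure B (↥W)[X] (Fermat.Agent.S24.FF L N)] :
    IsNoetherianRing B ∧ Module.Finite (↥W)[X] B := by
  haveI : CharZero L := algebraRat.charZero L
  haveI : CharZero (Fermat.Agent.S24.FF L N) :=
    charZero_of_injective_algebraMap (algebraMap L (Fermat.Agent.S24.FF L N)).injective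
  haveI h := (Gauss.finrank_FF_le L N).1
  haveI hfin : Module.Finite (IntermediateField.adjoin L {Fermat.Agent.S24.jBC L N}).toSubfield
      (Fermat.Agent.S24.FF L N) := h
  refine closure_noeth (by rw [halg]; exact evF_injective W N)
    (IntermediateField.adjoin L {Fermat.Agent.S24.jBC L N}).toSubfield ?_ B
  intro s hs
  obtain ⟨a, b, hb, e⟩ := exists_div_of_mem_adjoin (W := ↥W) (Fermat.Agent.S24.jBC L N) s hs
  refine ⟨a, b, ?_, ?_⟩
  · rw [halg, evF_eq_aeval]
    exact hb
  · rw [halg, evF_eq_aeval, evF_eq_aeval]
    exact e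

/-- (NOE) for the finite chart in the literal shape `integralClosure W[X] (FF L N)` under
`(Gauss.evF W N).toAlgebra`. -/
theorem noeth_fin_integralClosure :
    letI := (evF W N).toAlgebra
    IsNoetherianRing (integralClosure (↥W)[X] (Fermat.Agent.S24.FF L N)) ∧
      Module.Finite (↥W)[X] (integralClosure (↥W)[X] (Fermat.Agent.S24.FF L N)) := by
  letI := (evF W N).toAlgebra
  exact noeth_fin W N rfl (integralClosure (↥W)[X] (Fermat.Agent.S24.FF L N))

end Fin

/-! ### The cusp chart -/

section CuspChart

open Fermat.Agent.S18.Cusp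

variable [IsDiscreteValuationRing W]

theorem evFinf_injective' : Function.Injective (evFinf W N) := by
  rw [injective_iff_map_eq_zero]
  intro P hP
  have h0 : evG W (jqModC L)⁻¹ P = 0 := by
    have h1 := congrArg (Subtype.val) hP
    exact h1
  have h1 : (P.map W.subtype).eval₂ (HahnSeries.C (Γ := ℤ) (R := L)) (jqModC L)⁻¹ = 0 := by
    rw [Polynomial.eval₂_map]
    exact h0
  have h2 := eval₂_jInv_eq_zero h1
  exact Polynomial.map_injective W.subtype Subtype.val_injective (by rw [h2, Polynomial.map_zero])

/-- The structure map of the cusp chart is injective. -/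
theorem cusp_algebraMap_injective [Algebra (CuspBase ↥W) (Fermat.Agent.S24.FF L N)]
    (halg : ∀ p : (↥W)[X], algebraMap (CuspBase ↥W) (Fermat.Agent.S24.FF L N)
      (algebraMap (↥W)[X] (CuspBase ↥W) p) = evFinf W N p) :
    Function.Injective (algebraMap (CuspBase ↥W) (Fermat.Agent.S24.FF L N)) := by
  rw [injective_iff_map_eq_zero]
  intro s hs
  obtain ⟨a, n, rfl⟩ := exists_eq_mul_baseInv_pow ↥W s
  have hu : algebraMap (CuspBase ↥W) (Fermat.Agent.S24.FF L N) (baseInv ↥W) ≠ 0 := by
    intro h0
    have h1 := congrArg (algebraMap (CuspBase ↥W) (Fermat.Agent.S24.FF L N))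
      (algebraMap_cuspG_mul_baseInv ↥W)
    rw [map_mul, h0, mul_zero, map_one] at h1
    exact zero_ne_one h1
  rw [map_mul, map_pow, halg] at hs
  have ha : evFinf W N a = 0 := by
    rcases mul_eq_zero.mp hs with h | h
    · exact h
    · exact absurd h (pow_ne_zero n hu)
  have ha0 : a = 0 := evFinf_injective' W N (by rw [ha, map_zero])
  rw [ha0, map_zero, zero_mul]

/-- **(NOE), cusp chart**: any integral closure `B` of `CuspBase W` (`t ↦ 1/j`) in `FF L N` is a
noetherian ring, finite over `CuspBase W`. -/
theorem noeth_cusp [Algebra (CuspBase ↥W) (Fermat.Agent.S24.FF L N)]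
    (halg : ∀ p : (↥W)[X], algebraMap (CuspBase ↥W) (Fermat.Agent.S24.FF L N)
      (algebraMap (↥W)[X] (CuspBase ↥W) p) = evFinf W N p)
    (B : Type*) [CommRing B] [Algebra (CuspBase ↥W) B] [Algebra B (Fermat.Agent.S24.FF L N)]
    [IsScalarTower (CuspBase ↥W) B (Fermat.Agent.S24.FF L N)]
    [IsIntegralClosure B (CuspBase ↥W) (Fermat.Agent.S24.FF L N)] :
    IsNoetherianRing B ∧ Module.Finite (CuspBase ↥W) B := by
  haveI : CharZero L := algebraRat.charZero L
  haveI : CharZero (Fermat.Agent.S24.FF L N) :=
    charZero_of_injective_algebraMap (algebraMap L (Fermat.Agent.S24.FF L N)).injective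
  haveI h := (Gauss.finrank_FF_le L N).1
  haveI hfin : Module.Finite (IntermediateField.adjoin L {Fermat.Agent.S24.jBC L N}).toSubfield
      (Fermat.Agent.S24.FF L N) := h
  haveI := cuspBase_isDomain ↥W
  haveI := cuspBase_isNoetherianRing ↥W
  haveI := cuspBase_isIntegrallyClosed ↥W
  refine closure_noeth (cusp_algebraMap_injective W N halg)
    (IntermediateField.adjoin L {Fermat.Agent.S24.jBC L N}).toSubfield ?_ B
  intro s hs
  have hs' : s ∈ IntermediateField.adjoin L {(Fermat.Agent.S24.jBC L N)⁻¹} := by
    have hle : IntermediateField.adjoin L {Fermat.Agent.S24.jBC L N} ≤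
        IntermediateField.adjoin L {(Fermat.Agent.S24.jBC L N)⁻¹} := by
      rw [IntermediateField.adjoin_le_iff, Set.singleton_subset_iff]
      have h1 := inv_mem (IntermediateField.mem_adjoin_simple_self L
        (Fermat.Agent.S24.jBC L N)⁻¹)
      rwa [inv_inv] at h1
    exact hle hs
  obtain ⟨a, b, hb, e⟩ := exists_div_of_mem_adjoin (W := ↥W) (Fermat.Agent.S24.jBC L N)⁻¹ s hs'
  refine ⟨algebraMap (↥W)[X] (CuspBase ↥W) a, algebraMap (↥W)[X] (CuspBase ↥W) b, ?_, ?_⟩
  · rw [halg, evFinf_eq_aeval]
    exact hb
  · rw [halg, halg, evFinf_eq_aeval, evFinf_eq_aeval]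
    exact e

end CuspChart

end Fermat.Agent.S37.GaussNoeth
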