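import Mathlib
import Fermat.Agent.S18.TopReduction
import Fermat.Agent.S37.ChartInstCuspCore
import Fermat.Agent.S37.GaussPrime
import Fermat.Agent.S37.GaussNoeth

set_option autoImplicit false
set_option linter.style.haveILetI false
set_option linter.unusedSectionVars false

namespace Fermat.Agent.S37.ChartInstCuspFinal

open Polynomial AlgebraicCurve ModularCurve
open Fermat.Agent.S24 Fermat.Agent.S18 Fermat.Agent.S18.Cusp

local notation "Qb" => AlgebraicClosure ℚ

section Cover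

variable {L : Type} [Field L] [Algebra ℚ L] (W : ValuationSubring L) (N : ℕ) [NeZero N]
  (ℓ : ℕ) [Fact ℓ.Prime] [CharP (IsLocalRing.ResidueField W) ℓ]
  [IsAlgClosed (IsLocalRing.ResidueField W)] [IsDiscreteValuationRing W]
  {K' Y' : Type*} [Field Y'] [Algebra (FF L N) Y'] [Field K'] [Algebra (CuspRing W N) K']
  [IsFractionRing (CuspRing W N) K'] [Algebra K' Y'] [Algebra (CuspRing W N) Y']
  [IsScalarTower (CuspRing W N) K' Y']

/-- The Kummer cover `Y' = F(x0)`, `x0 ^ N = 1/j`, of `F = FF L N` is finite over the fraction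
field `K'` of the cusp chart `CuspRing W N`. -/
theorem cusp_finiteDimensional_F (hℓN : ¬ ℓ ∣ N)
    (hX : algebraMap (CuspRing W N) Y' (chartX W N) ^ N * algebraMap (FF L N) Y' (jBC L N) = 1)
    (hC : ∀ a : W, algebraMap (CuspRing W N) Y' (algebraMap W (CuspRing W N) a) =
      algebraMap (FF L N) Y' (algebraMap L (FF L N) (a : L)))
    (hgen : IntermediateField.adjoin (FF L N) {algebraMap (CuspRing W N) Y' (chartX W N)} = ⊤) :
    FiniteDimensional K' Y' := by
  obtain ⟨θ, P, y, -, -, hP, -, hroot, -, hspan, -, hsep⟩ := Gauss.exists_monogenic W N ℓ hℓN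
  have hadj : IntermediateField.adjoin L {jBC L N, θ} = ⊤ := PGOut.adjoin_eq_top_of_span θ hspan
  set φ : (↥W)[X] →+* Y' := (algebraMap (FF L N) Y').comp (Gauss.evF W N) with hφ
  have hφC : ∀ a : W, φ (C a) =
      algebraMap (CuspRing W N) Y' (algebraMap W (CuspRing W N) a) := by
    intro a
    rw [hφ, RingHom.comp_apply, Gauss.evF_C]
    exact (hC a).symm
  have hφX : φ X * algebraMap (CuspRing W N) Y' (chartX W N) ^ N = 1 := by
    rw [hφ, RingHom.comp_apply, Gauss.evF_X, mul_comm]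
    exact hX
  have hPθ : eval₂ φ (algebraMap (FF L N) Y' θ) P = 0 := by
    rw [hφ, ← Polynomial.hom_eval₂, hroot, map_zero]
  have hgen' : IntermediateField.adjoin K' {algebraMap (FF L N) Y' θ} = ⊤ :=
    ChartInstCusp.adjoin_theta_eq_top W N hX hC hgen θ hadj
  have hint : IsIntegral K' (algebraMap (FF L N) Y' θ) := by
    set ψ : (↥W)[X] →+* K' := eval₂RingHom
      ((algebraMap (CuspRing W N) K').comp (algebraMap W (CuspRing W N)))
      (algebraMap (CuspRing W N) K' (chartX W N ^ N))⁻¹ with hψ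
    have hψφ : (algebraMap K' Y').comp ψ = φ := by
      refine Polynomial.ringHom_ext (fun a => ?_) ?_
      · rw [RingHom.comp_apply, hψ, coe_eval₂RingHom, eval₂_C, RingHom.comp_apply,
          ← IsScalarTower.algebraMap_apply (CuspRing W N) K' Y', hφC]
      · rw [RingHom.comp_apply, hψ, coe_eval₂RingHom, eval₂_X, map_inv₀,
          ← IsScalarTower.algebraMap_apply (CuspRing W N) K' Y', map_pow]
        exact (eq_inv_of_mul_eq_one_left hφX).symm
    refine ⟨P.map ψ, hP.map ψ, ?_⟩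
    rw [eval₂_map, hψφ]
    exact hPθ
  have h1 : FiniteDimensional K'
      (IntermediateField.adjoin K' {algebraMap (FF L N) Y' θ}) :=
    IntermediateField.adjoin.finiteDimensional hint
  rw [hgen'] at h1
  exact Module.Finite.equiv (IntermediateField.topEquiv (F := K') (E := Y')).toLinearEquiv

end Cover

/-- **Cusp chart, DVR level: the special fibre of the integral closure of the cusp chart
`CuspBase W = W[t, 1/(1 - 1728 t)]`, `t = 1/j`, in `F = FF L N` is a Dedekind domain.**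
The `CuspBase W`-structure on `F` is any instance which is `Gauss.evFinf W N` on polynomials. -/
theorem cusp_chart_dedekind (N : ℕ) [NeZero N] {ℓ : ℕ} (hℓ : ℓ.Prime) (hℓN : ¬ ℓ ∣ N)
    {L : Type} [Field L] [Algebra ℚ L] (ι : L →+* Qb) (W : ValuationSubring L)
    [IsDiscreteValuationRing ↥W] [IsAlgClosed (IsLocalRing.ResidueField ↥W)]
    [CharP (IsLocalRing.ResidueField ↥W) ℓ]
    (hroots : ∀ x : Qb, (∃ n : ℕ, ¬ ℓ ∣ n ∧ x ^ n = 1) → ∃ b : L, ι b = x)
    (π : ↥W) (hπ : Irreducible π)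
    [Algebra (CuspBase ↥W) (FF L N)]
    (halg : ∀ p : (↥W)[X], algebraMap (CuspBase ↥W) (FF L N)
      (algebraMap (↥W)[X] (CuspBase ↥W) p) = Gauss.evFinf W N p) :
    IsDedekindDomain (integralClosure (CuspBase ↥W) (FF L N) ⧸
      Ideal.span {algebraMap (CuspBase ↥W) (integralClosure (CuspBase ↥W) (FF L N))
        (algebraMap ↥W (CuspBase ↥W) π)}) := by
  classical
  haveI : Fact ℓ.Prime := ⟨hℓ⟩
  have hN : 0 < N := NeZero.pos N
  obtain ⟨ζ, hζ⟩ := TopReduction.exists_isPrimitiveRoot ι hroots N (NeZero.ne N) hℓN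
  haveI : IsScalarTower ↥W L (FF L N) := IsScalarTower.of_algebraMap_eq fun _ => rfl
  have h1 : (1 : FF L N) - 1728 * (jBC L N)⁻¹ ≠ 0 := FFKit.one_sub_jBC_inv_ne_zero ι N
  have ht0 : Transcendental L (jBC L N)⁻¹ := FFKit.transcendental_jBC_inv ι N
  have hj0 : jBC L N ≠ 0 := by
    intro h0
    apply ht0
    rw [h0, inv_zero]
    exact isAlgebraic_zero
  have hD : ∀ a, algebraMap (CuspBase ↥W) (FF L N) a = baseLift ↥W (jBC L N)⁻¹ h1 a :=
    ChartInstCuspCore.algebraMap_eq_baseLift (jBC L N)⁻¹ h1 (fun P => by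
      rw [halg, GaussNoeth.evFinf_eq_aeval, aeval_map_algebraMap])
  have hker : ∀ a : ↥W, IsLocalRing.residue ↥W a = 0 → π ∣ a := by
    intro a ha
    rwa [IsLocalRing.residue_eq_zero_iff, hπ.maximalIdeal_eq, Ideal.mem_span_singleton] at ha
  exact ChartInstCuspCore.cusp_chart_dedekind_core (W := ↥W) (L := L) (F := FF L N)
    (k := IsLocalRing.ResidueField ↥W) hN (ChartInstCusp.isUnit_natCast_of_not_dvd ℓ N hℓN)
    ζ hζ π hπ (jBC L N)⁻¹ ht0 h1 hD (IsLocalRing.residue ↥W) IsLocalRing.residue_surjective hker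
    (fun K' Y' _ _ _ _ _ _ _ _ hX hC hgen => by
      have hX' : algebraMap (CuspRing ↥W N) Y' (chartX ↥W N) ^ N *
          algebraMap (FF L N) Y' (jBC L N) = 1 := by
        rw [hX, ← map_mul, inv_mul_cancel₀ hj0, map_one]
      exact ⟨cusp_finiteDimensional_F W N ℓ hℓN hX' hC hgen, fun 𝔭 h𝔭p h𝔭 =>
        ChartInstCusp.cusp_hU_F W N ℓ ι hℓN π hπ hζ hX' hC hgen 𝔭 h𝔭p h𝔭⟩)
    (GaussPrime.prime_unif_cusp W N ℓ hℓN hπ halg (integralClosure (CuspBase ↥W) (FF L N)))

end Fermat.Agent.S37.ChartInstCuspFinal
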