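import Mathlib

/-!
# S37: transport of "Dedekind special fibre" between carriers

* `isDedekindDomain_of_ringEquiv` : `IsDedekindDomain` is invariant under ring isomorphisms.
* `isDedekindDomain_quotient_of_isIntegralClosure` : if `B` and `B'` are two integral closures
  of `D` in `E` and `B / d` is a Dedekind domain, so is `B' / d`.
-/

set_option autoImplicit false

namespace Fermat.Agent.S37.DedekindTransport

/-- `IsDedekindDomain` is invariant under ring isomorphisms. -/
theorem isDedekindDomain_of_ringEquiv {R S : Type*} [CommRing R] [CommRing S] (e : R ≃+* S)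
    [h : IsDedekindDomain R] : IsDedekindDomain S := by
  haveI : IsDomain S := e.symm.toMulEquiv.isDomain R
  haveI : IsNoetherianRing S := isNoetherianRing_of_ringEquiv R e
  haveI : IsIntegrallyClosed S := IsIntegrallyClosed.of_equiv e
  haveI : Ring.DimensionLEOne S := by
    refine ⟨fun {p} hp0 hp => ?_⟩
    have hq : (p.comap (e : R →+* S)).IsPrime := Ideal.comap_isPrime _ p
    have hq0 : p.comap (e : R →+* S) ≠ ⊥ := by
      intro h0
      apply hp0
      rw [eq_bot_iff]
      intro x hx
      have hx' : e.symm x ∈ p.comap (e : R →+* S) := by
        rw [Ideal.mem_comap]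
        simpa using hx
      rw [h0, Ideal.mem_bot] at hx'
      have := congrArg e hx'
      simpa using this
    have hmax : (p.comap (e : R →+* S)).IsMaximal := Ring.DimensionLEOne.maximalOfPrime hq0 hq
    have hmap : (p.comap (e : R →+* S)).map (e : R →+* S) = p :=
      Ideal.map_comap_of_surjective _ e.surjective p
    rw [← hmap]
    exact Ideal.map_isMaximal_of_equiv e
  exact { }

/-- Two integral closures of `D` in `E` have isomorphic quotients by the image of `d : D`; in
particular one is a Dedekind domain iff the other is. -/
theorem isDedekindDomain_quotient_of_isIntegralClosure {D E : Type*} [CommRing D] [CommRing E]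
    [Algebra D E] (B B' : Type*) [CommRing B] [CommRing B'] [Algebra D B] [Algebra D B']
    [Algebra B E] [Algebra B' E] [IsScalarTower D B E] [IsScalarTower D B' E]
    [IsIntegralClosure B D E] [IsIntegralClosure B' D E] (d : D)
    (h : IsDedekindDomain (B ⧸ Ideal.span {algebraMap D B d})) :
    IsDedekindDomain (B' ⧸ Ideal.span {algebraMap D B' d}) := by
  let e : B ≃ₐ[D] B' := IsIntegralClosure.equiv D B E B'
  have hmap : Ideal.span {algebraMap D B' d} =
      (Ideal.span {algebraMap D B d}).map (e : B ≃+* B') := by
    rw [Ideal.map_span, Set.image_singleton]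
    congr 2
    exact (e.commutes d).symm
  exact isDedekindDomain_of_ringEquiv
    (Ideal.quotientEquiv (Ideal.span {algebraMap D B d}) (Ideal.span {algebraMap D B' d})
      (e : B ≃+* B') hmap)

end Fermat.Agent.S37.DedekindTransport
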