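import Mathlib
import Fermat.Agent.S37.ChartInstCuspFinal
import Fermat.Agent.S37.DedekindTransport

/-!
# S37, cusp chart: the Dedekind special fibre for an arbitrary model of the integral closure

`cusp_chart_dedekind_of_closure` is `ChartInstCuspFinal.cusp_chart_dedekind` transported to any
`B` with `[IsIntegralClosure B (CuspBase W) (FF L N)]` (the binder convention of
`GaussPrime.prime_unif_cusp`, `GaussNoeth.noeth_cusp`, `ChartFrac.frac_cusp`).
-/

set_option autoImplicit false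
set_option linter.style.haveILetI false

namespace Fermat.Agent.S37.ChartInstCuspClosure

open Polynomial AlgebraicCurve ModularCurve
open Fermat.Agent.S24 Fermat.Agent.S18 Fermat.Agent.S18.Cusp

local notation "Qb" => AlgebraicClosure ℚ

/-- **Cusp chart, DVR level, any carrier**: for every integral closure `B` of the cusp chart
`CuspBase W = W[t, 1/(1 - 1728 t)]`, `t = 1/j`, in `F = FF L N`, the special fibre `B / π B` is a
Dedekind domain. -/
theorem cusp_chart_dedekind_of_closure (N : ℕ) [NeZero N] {ℓ : ℕ} (hℓ : ℓ.Prime) (hℓN : ¬ ℓ ∣ N)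
    {L : Type} [Field L] [Algebra ℚ L] (ι : L →+* Qb) (W : ValuationSubring L)
    [IsDiscreteValuationRing ↥W] [IsAlgClosed (IsLocalRing.ResidueField ↥W)]
    [CharP (IsLocalRing.ResidueField ↥W) ℓ]
    (hroots : ∀ x : Qb, (∃ n : ℕ, ¬ ℓ ∣ n ∧ x ^ n = 1) → ∃ b : L, ι b = x)
    (π : ↥W) (hπ : Irreducible π)
    [Algebra (CuspBase ↥W) (FF L N)]
    (halg : ∀ p : (↥W)[X], algebraMap (CuspBase ↥W) (FF L N)
      (algebraMap (↥W)[X] (CuspBase ↥W) p) = Gauss.evFinf W N p)
    (B : Type*) [CommRing B] [Algebra (CuspBase ↥W) B] [Algebra B (FF L N)]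
    [IsScalarTower (CuspBase ↥W) B (FF L N)] [IsIntegralClosure B (CuspBase ↥W) (FF L N)] :
    IsDedekindDomain
      (B ⧸ Ideal.span {algebraMap (CuspBase ↥W) B (algebraMap ↥W (CuspBase ↥W) π)}) :=
  DedekindTransport.isDedekindDomain_quotient_of_isIntegralClosure (E := FF L N)
    (integralClosure (CuspBase ↥W) (FF L N)) B (algebraMap ↥W (CuspBase ↥W) π)
    (ChartInstCuspFinal.cusp_chart_dedekind N hℓ hℓN ι W hroots π hπ halg)

/-- The canonical `CuspBase W`-structure on `FF L N` (`t ↦ 1/j`, constants to constants) satisfies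
the pin `halg` used by all cusp-chart statements. -/
theorem baseLift_halg (N : ℕ) [NeZero N] {L : Type} [Field L] [Algebra ℚ L] (ι : L →+* Qb)
    (W : ValuationSubring L) (p : (↥W)[X]) :
    Cusp.baseLift ↥W (jBC L N)⁻¹ (FFKit.one_sub_jBC_inv_ne_zero ι N)
      (algebraMap (↥W)[X] (CuspBase ↥W) p) = Gauss.evFinf W N p := by
  haveI : IsScalarTower ↥W L (FF L N) := IsScalarTower.of_algebraMap_eq fun _ => rfl
  rw [GaussNoeth.evFinf_eq_aeval, aeval_map_algebraMap]
  exact Cusp.baseLift_algebraMap _ _ p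

/-- The cusp chart statement for the canonical structure `baseLift W (1/j)`. -/
theorem cusp_chart_dedekind_baseLift (N : ℕ) [NeZero N] {ℓ : ℕ} (hℓ : ℓ.Prime) (hℓN : ¬ ℓ ∣ N)
    {L : Type} [Field L] [Algebra ℚ L] (ι : L →+* Qb) (W : ValuationSubring L)
    [IsDiscreteValuationRing ↥W] [IsAlgClosed (IsLocalRing.ResidueField ↥W)]
    [CharP (IsLocalRing.ResidueField ↥W) ℓ]
    (hroots : ∀ x : Qb, (∃ n : ℕ, ¬ ℓ ∣ n ∧ x ^ n = 1) → ∃ b : L, ι b = x)
    (π : ↥W) (hπ : Irreducible π) :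
    letI : Algebra (CuspBase ↥W) (FF L N) :=
      (Cusp.baseLift ↥W (jBC L N)⁻¹ (FFKit.one_sub_jBC_inv_ne_zero ι N)).toRingHom.toAlgebra
    IsDedekindDomain (integralClosure (CuspBase ↥W) (FF L N) ⧸
      Ideal.span {algebraMap (CuspBase ↥W) (integralClosure (CuspBase ↥W) (FF L N))
        (algebraMap ↥W (CuspBase ↥W) π)}) := by
  letI : Algebra (CuspBase ↥W) (FF L N) :=
    (Cusp.baseLift ↥W (jBC L N)⁻¹ (FFKit.one_sub_jBC_inv_ne_zero ι N)).toRingHom.toAlgebra
  exact ChartInstCuspFinal.cusp_chart_dedekind N hℓ hℓN ι W hroots π hπ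
    (fun p => baseLift_halg N ι W p)

end Fermat.Agent.S37.ChartInstCuspClosure
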