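import Mathlib
import Fermat.Agent.S18.GaussChart
import Fermat.Agent.S37.GaussSmall

/-!
# S37 (W): values of chart-integral functions at chart places  ((VAL))

Level data: `A` a valuation subring of `ℚ̄`, `(L, ι : L →+* ℚ̄)`, `W := A.comap ι`,
`bc : F_L → F_ℚ̄` the coefficient extension.

* chart 1 (`W[j]`): an element of `F_L` integral over `W[j]` becomes `Centre.IsFinInt` over `ℚ̄`
  (`isFinInt_bc`); its values at places with `j(P) ∈ A` lie in `A`, and are congruent modulo
  `𝔪_A` at two such places with the same centre (`valuation_sub_lt_one_of_sameCentre_fin`).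
* chart 2 (`W[t, 1/(1 - 1728 t)]`, `t = 1/j`, in the multiplier form
  `∃ m, (1 - 1728 t)^m x` integral over `W[t]`): `IsInfInt`, `IsInfPlace`
  (`t(P) ∈ A`, `1 - 1728 t(P) ∈ Aˣ`), values in `A` (`exists_value_of_isInfInt`) and the
  congruence at two chart places with the same centre
  (`valuation_sub_lt_one_of_sameCentre_inf`).
-/

set_option autoImplicit false

namespace Fermat.Agent.S37.ChartVal

open Polynomial AlgebraicCurve ModularCurve Fermat.Agent.S37.GaloisValue Fermat.Agent.S37.Centre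
  Fermat.Agent.S18

noncomputable section

local notation "Qb" => AlgebraicClosure ℚ

section Generic

/-- Integrality transfers along a commutative square of ring homomorphisms. -/
theorem isIntegralElem_of_square {R S R' S' : Type*} [CommRing R] [CommRing S] [CommRing R']
    [CommRing S'] (f : R →+* S) (f' : R' →+* S') (g : R →+* R') (h : S →+* S')
    (hsq : h.comp f = f'.comp g) {x : S} (hx : f.IsIntegralElem x) : f'.IsIntegralElem (h x) := by
  obtain ⟨p, hp, hpx⟩ := hx
  refine ⟨p.map g, hp.map g, ?_⟩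
  rw [Polynomial.eval₂_map, ← hsq, ← Polynomial.hom_eval₂, hpx, map_zero]

variable {K F : Type*} [Field K] [Field F] [Algebra K F]

theorem isValueAt_one (v : Place K F) : IsValueAt v (1 : F) 1 := by
  simpa using isValueAt_algebraMap v (1 : K)

theorem isValueAt_zero (v : Place K F) : IsValueAt v (0 : F) 0 := by
  simpa using isValueAt_algebraMap v (0 : K)

/-- Dividing by a function with a nonzero value. -/
theorem isValueAt_of_mul {v : Place K F} {e g : F} {ε c : K} (he : IsValueAt v e ε)
    (hε : ε ≠ 0) (hg : IsValueAt v (e * g) c) : IsValueAt v g (ε⁻¹ * c) := by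
  have he0 : e ≠ 0 := by
    rintro rfl
    exact hε ((isValueAt_zero v).unique he).symm
  have h := (GaussSmall.isValueAt_inv he hε).mul hg
  rwa [inv_mul_cancel_left₀ he0] at h

/-- The values of `x` and `x⁻¹` are inverse to each other. -/
theorem mul_eq_one_of_isValueAt {v : Place K F} {x : F} (hx : x ≠ 0) {b a : K}
    (hb : IsValueAt v x b) (ha : IsValueAt v x⁻¹ a) : b * a = 1 := by
  have h := hb.mul ha
  rw [mul_inv_cancel₀ hx] at h
  exact h.unique (isValueAt_one v)

end Generic

/-! ### Transfer from the level `(L, ι)` to `ℚ̄` -/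

section Transfer

variable (N : ℕ) [NeZero N] (A : ValuationSubring Qb) {L : Type} [Field L] [Algebra ℚ L]
  (ι : L →+* Qb)

theorem bc_comp_evF :
    (Fermat.Agent.S24.CoeffBC.bc ι (modularFunctionFieldFull N)).comp (Gauss.evF (A.comap ι) N)
      = (Centre.evJ A N).comp (Polynomial.mapRingHom (Descent.inclComap ι A)) := by
  apply Polynomial.ringHom_ext
  · intro a
    simp only [RingHom.comp_apply, Polynomial.coe_mapRingHom, Polynomial.map_C]
    rw [Gauss.evF_C, Fermat.Agent.S24.CoeffBC.bc_algebraMap, Centre.evJ_C]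
    rfl
  · simp only [RingHom.comp_apply, Polynomial.coe_mapRingHom, Polynomial.map_X]
    rw [Gauss.evF_X, GaussSmall.bc_jBC, Centre.evJ_X]

theorem bc_comp_evFinf :
    (Fermat.Agent.S24.CoeffBC.bc ι (modularFunctionFieldFull N)).comp
        (Gauss.evFinf (A.comap ι) N)
      = (Centre.evJinv A N).comp (Polynomial.mapRingHom (Descent.inclComap ι A)) := by
  apply Polynomial.ringHom_ext
  · intro a
    simp only [RingHom.comp_apply, Polynomial.coe_mapRingHom, Polynomial.map_C]
    rw [Gauss.evFinf_C, Fermat.Agent.S24.CoeffBC.bc_algebraMap, Centre.evJinv_C]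
    rfl
  · simp only [RingHom.comp_apply, Polynomial.coe_mapRingHom, Polynomial.map_X]
    rw [Gauss.evFinf_X, map_inv₀, GaussSmall.bc_jBC, Centre.evJinv_X]

/-- **(VAL₁), transfer.** Integral over `W[j]` at the level `(L, ι)` implies integral over
`A[j]` over `ℚ̄`. -/
theorem isFinInt_bc {x : Fermat.Agent.S24.FF L N}
    (hx : (Gauss.evF (A.comap ι) N).IsIntegralElem x) :
    Centre.IsFinInt A N (Fermat.Agent.S24.CoeffBC.bc ι (modularFunctionFieldFull N) x) :=
  isIntegralElem_of_square _ _ _ _ (bc_comp_evF N A ι) hx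

/-- Integral over `W[1/j]` at the level `(L, ι)` implies integral over `A[1/j]` over `ℚ̄`. -/
theorem isIntegralElem_evJinv_bc {x : Fermat.Agent.S24.FF L N}
    (hx : (Gauss.evFinf (A.comap ι) N).IsIntegralElem x) :
    (Centre.evJinv A N).IsIntegralElem
      (Fermat.Agent.S24.CoeffBC.bc ι (modularFunctionFieldFull N) x) :=
  isIntegralElem_of_square _ _ _ _ (bc_comp_evFinf N A ι) hx

end Transfer

/-! ### The second chart over `ℚ̄` -/

section Inf

variable (A : ValuationSubring Qb) (N : ℕ) [NeZero N]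

/-- Integral over `A[t, 1/(1 - 1728 t)]`, `t = 1/j` (multiplier form). -/
def IsInfInt (f : ↥(modularFunctionFieldBar N)) : Prop :=
  ∃ m : ℕ, (Centre.evJinv A N).IsIntegralElem
    ((1 - 1728 * (Fermat.Agent.S24.jBC Qb N)⁻¹) ^ m * f)

/-- The places of the second chart: `t(P) ∈ A` and `1 - 1728 t(P) ∈ Aˣ`. -/
def IsInfPlace (P : Place Qb ↥(modularFunctionFieldBar N)) : Prop :=
  ∃ a : Qb, a ∈ A ∧ A.valuation (1 - 1728 * a) = 1 ∧
    IsValueAt P (Fermat.Agent.S24.jBC Qb N)⁻¹ a

variable {A N}

theorem evJinv_multiplier (m : ℕ) :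
    Centre.evJinv A N ((1 - Polynomial.C (1728 : ↥A) * Polynomial.X) ^ m)
      = (1 - 1728 * (Fermat.Agent.S24.jBC Qb N)⁻¹) ^ m := by
  rw [map_pow, map_sub, map_one, map_mul, Centre.evJinv_C, Centre.evJinv_X]
  have h : algebraMap Qb ↥(modularFunctionFieldBar N) (((1728 : ↥A)) : Qb) = 1728 := by
    have h0 : (((1728 : ↥A)) : Qb) = 1728 := rfl
    rw [h0, map_ofNat]
  rw [h]

/-- Chart-2 integral functions are integral on the local cusp chart. -/
theorem IsInfInt.isCuspInt {f : ↥(modularFunctionFieldBar N)} (hf : IsInfInt A N f) :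
    Centre.IsCuspInt A N f := by
  obtain ⟨m, hm⟩ := hf
  refine ⟨(1 - Polynomial.C (1728 : ↥A) * Polynomial.X) ^ m, ?_, ?_⟩
  · rw [Polynomial.coeff_zero_eq_eval_zero]
    simp
  · rw [evJinv_multiplier]
    exact hm

theorem isValueAt_multiplier {P : Place Qb ↥(modularFunctionFieldBar N)} {a : Qb}
    (hPa : IsValueAt P (Fermat.Agent.S24.jBC Qb N)⁻¹ a) (m : ℕ) :
    IsValueAt P ((1 - 1728 * (Fermat.Agent.S24.jBC Qb N)⁻¹) ^ m) ((1 - 1728 * a) ^ m) := by
  have h1728 : IsValueAt P (1728 : ↥(modularFunctionFieldBar N)) (1728 : Qb) := by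
    have h := isValueAt_algebraMap P (1728 : Qb)
    rwa [map_ofNat] at h
  exact ((isValueAt_one P).sub (h1728.mul hPa)).pow m

/-- **(VAL₂), values.** A chart-2 integral function has a value in `A` at every chart-2 place. -/
theorem exists_value_of_isInfInt {f : ↥(modularFunctionFieldBar N)} (hf : IsInfInt A N f)
    {P : Place Qb ↥(modularFunctionFieldBar N)} (hP : IsInfPlace A N P) :
    ∃ c : Qb, c ∈ A ∧ IsValueAt P f c := by
  obtain ⟨m, hm⟩ := hf
  obtain ⟨a, ha, hunit, hPa⟩ := hP
  obtain ⟨c', hc', hval'⟩ := GaussSmall.exists_value_of_integral N A _ P a ha hPa _ hm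
  have h1 := isValueAt_multiplier hPa m
  have hv : A.valuation ((1 - 1728 * a) ^ m) = 1 := by rw [map_pow, hunit, one_pow]
  have hne : (1 - 1728 * a) ^ m ≠ 0 := by
    intro h0
    rw [h0, map_zero] at hv
    exact zero_ne_one hv
  refine ⟨_, A.mul_mem _ _ ?_ hc', isValueAt_of_mul h1 hne hval'⟩
  rw [← A.valuation_le_one_iff, map_inv₀, hv, inv_one]

/-- A place cannot be of finite type and of cusp type. -/
theorem not_isCuspPlace_of_isFinPlace {P : Place Qb ↥(modularFunctionFieldBar N)}
    (hF : Centre.IsFinPlace A N P) : ¬ Centre.IsCuspPlace A N P := by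
  rintro ⟨a, ha, hPa⟩
  obtain ⟨b, hb, hPb⟩ := hF
  have hj := GaussSmall.jBC_ne_zero (E := Qb) N
  have h1 := mul_eq_one_of_isValueAt hj hPb hPa
  have h2 := congrArg A.valuation h1
  rw [map_mul, map_one] at h2
  have hb' : A.valuation b ≤ 1 := (A.valuation_le_one_iff b).mpr hb
  have h3 : A.valuation b * A.valuation a < 1 :=
    mul_lt_one_of_nonneg_of_lt_one_right hb' zero_le ha
  rw [h2] at h3
  exact lt_irrefl _ h3

/-- **(VAL₁), congruence.** Values of a function integral over `A[j]` at two finite places with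
the same centre are congruent modulo `𝔪_A`. -/
theorem valuation_sub_lt_one_of_sameCentre_fin {f : ↥(modularFunctionFieldBar N)}
    (hf : Centre.IsFinInt A N f) {P P' : Place Qb ↥(modularFunctionFieldBar N)}
    (hP : Centre.IsFinPlace A N P) (hPP' : Centre.SameCentre A N P P') {c c' : Qb}
    (hc : IsValueAt P f c) (hc' : IsValueAt P' f c') : A.valuation (c - c') < 1 := by
  rcases hPP' with ⟨-, -, hcongr⟩ | ⟨hC, -, -⟩
  · exact hcongr f hf c c' hc hc'
  · exact absurd hC (not_isCuspPlace_of_isFinPlace hP)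

/-- **(VAL₂), congruence.** Values of a chart-2 integral function at two chart-2 places with the
same centre are congruent modulo `𝔪_A`. -/
theorem valuation_sub_lt_one_of_sameCentre_inf {f : ↥(modularFunctionFieldBar N)}
    (hf : IsInfInt A N f) {P P' : Place Qb ↥(modularFunctionFieldBar N)}
    (hP : IsInfPlace A N P) (hP' : IsInfPlace A N P') (hPP' : Centre.SameCentre A N P P')
    {c c' : Qb} (hc : IsValueAt P f c) (hc' : IsValueAt P' f c') : A.valuation (c - c') < 1 := by
  rcases hPP' with ⟨hF, hF', hcongr⟩ | ⟨-, -, hcongr⟩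
  swap
  · exact hcongr f hf.isCuspInt c c' hc hc'
  -- both places are finite: clear the pole of `t = 1/j` by a power of `j`
  obtain ⟨c₁, hc₁A, hc₁⟩ := exists_value_of_isInfInt hf hP'
  have hc'A : c' ∈ A := by rw [hc'.unique hc₁]; exact hc₁A
  obtain ⟨m, hm⟩ := hf
  have hj := GaussSmall.jBC_ne_zero (E := Qb) N
  let _ := GaussSmall.algW A N
  have hm' : (aeval (Fermat.Agent.S24.jBC Qb N)⁻¹ :
      (↥A)[X] →ₐ[A] Fermat.Agent.S24.FF Qb N).toRingHom.IsIntegralElem
      ((1 - 1728 * (Fermat.Agent.S24.jBC Qb N)⁻¹) ^ m * f) := by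
    rw [GaussSmall.aeval_eq_evAt A N]
    exact hm
  obtain ⟨k₀, hk₀⟩ := CuspGauss.isIntegralElem_inv (W := A) (Fermat.Agent.S24.jBC Qb N)⁻¹
    (Fermat.Agent.S24.jBC Qb N) (inv_mul_cancel₀ hj) _ hm'
  set k := max k₀ m with hk
  have h1 := hk₀ k (le_max_left _ _)
  rw [GaussSmall.aeval_eq_evAt A N] at h1
  -- the multiplier `E = j^k (1 - 1728/j)^m = j^(k-m) (j - 1728)^m`
  set E : ↥(modularFunctionFieldBar N) :=
    Fermat.Agent.S24.jBC Qb N ^ k * (1 - 1728 * (Fermat.Agent.S24.jBC Qb N)⁻¹) ^ m with hE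
  have hEf : Centre.IsFinInt A N (E * f) := by
    have e : E * f = Fermat.Agent.S24.jBC Qb N ^ k *
        ((1 - 1728 * (Fermat.Agent.S24.jBC Qb N)⁻¹) ^ m * f) := by rw [hE]; ring
    rw [e]
    exact h1
  have hEint : Centre.IsFinInt A N E := by
    have e : E = Fermat.Agent.S24.jBC Qb N ^ (k - m) *
        (Fermat.Agent.S24.jBC Qb N - 1728) ^ m := by
      have h2 : Fermat.Agent.S24.jBC Qb N - 1728
          = Fermat.Agent.S24.jBC Qb N * (1 - 1728 * (Fermat.Agent.S24.jBC Qb N)⁻¹) := by
        field_simp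
      have h3 : k = (k - m) + m := (Nat.sub_add_cancel (le_max_right _ _)).symm
      rw [hE, h2, mul_pow]
      conv_lhs => rw [h3, pow_add]
      ring
    rw [e]
    have h1728 : Centre.IsFinInt A N (1728 : ↥(modularFunctionFieldBar N)) := by
      have h := isFinInt_const (A := A) (N := N) (a := (1728 : Qb)) (ofNat_mem A 1728)
      rwa [map_ofNat] at h
    have hpow : ∀ (g : ↥(modularFunctionFieldBar N)) (n : ℕ), Centre.IsFinInt A N g →
        Centre.IsFinInt A N (g ^ n) := by
      intro g n hg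
      induction n with
      | zero =>
        rw [pow_zero]
        have := isFinInt_const (A := A) (N := N) (a := (1 : Qb)) A.one_mem
        simpa using this
      | succ n ih => rw [pow_succ]; exact ih.mul hg
    exact (hpow _ _ isFinInt_j).mul (hpow _ _ (isFinInt_j.sub h1728))
  obtain ⟨b, hb, hPb⟩ := hF
  obtain ⟨b', hb', hPb'⟩ := hF'
  obtain ⟨a, ha, hua, hPa⟩ := hP
  obtain ⟨a', ha', hua', hPa'⟩ := hP'
  have hval : IsValueAt P E (b ^ k * (1 - 1728 * a) ^ m) :=
    (hPb.pow k).mul (isValueAt_multiplier hPa m)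
  have hval' : IsValueAt P' E (b' ^ k * (1 - 1728 * a') ^ m) :=
    (hPb'.pow k).mul (isValueAt_multiplier hPa' m)
  set e := b ^ k * (1 - 1728 * a) ^ m with he
  set e' := b' ^ k * (1 - 1728 * a') ^ m with he'
  -- `e` is a unit of `A`
  have hbunit : A.valuation b = 1 := by
    have h2 := congrArg A.valuation (mul_eq_one_of_isValueAt hj hPb hPa)
    rw [map_mul, map_one] at h2
    have hb1 : A.valuation b ≤ 1 := (A.valuation_le_one_iff b).mpr hb
    have ha1 : A.valuation a ≤ 1 := (A.valuation_le_one_iff a).mpr ha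
    by_contra hne
    have hlt : A.valuation b < 1 := lt_of_le_of_ne hb1 hne
    have h3 : A.valuation b * A.valuation a < 1 :=
      mul_lt_one_of_nonneg_of_lt_one_left zero_le hlt ha1
    rw [h2] at h3
    exact lt_irrefl _ h3
  have heunit : A.valuation e = 1 := by
    rw [he, map_mul, map_pow, map_pow, hbunit, hua, one_pow, one_pow, one_mul]
  have h4 : A.valuation (e - e') < 1 := hcongr E hEint e e' hval hval'
  have h5 : A.valuation (e * c - e' * c') < 1 :=
    hcongr (E * f) hEf (e * c) (e' * c') (hval.mul hc) (hval'.mul hc')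
  have h6 : e * (c - c') = (e * c - e' * c') - (e - e') * c' := by ring
  have h7 : A.valuation (e * (c - c')) < 1 := by
    rw [h6]
    refine lt_of_le_of_lt (Valuation.map_sub _ _ _) (max_lt h5 ?_)
    rw [map_mul]
    exact mul_lt_one_of_nonneg_of_lt_one_left zero_le h4 ((A.valuation_le_one_iff c').mpr hc'A)
  rwa [map_mul, heunit, one_mul] at h7

end Inf

/-! ### Level forms -/

section Level

variable (N : ℕ) [NeZero N] (A : ValuationSubring Qb) {L : Type} [Field L] [Algebra ℚ L]
  (ι : L →+* Qb)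

/-- **(VAL₂), transfer.** The multiplier form of chart-2 integrality at the level `(L, ι)`
implies `IsInfInt` over `ℚ̄`. -/
theorem isInfInt_bc {x : Fermat.Agent.S24.FF L N}
    (hx : ∃ m : ℕ, (Gauss.evFinf (A.comap ι) N).IsIntegralElem
      ((1 - 1728 * (Fermat.Agent.S24.jBC L N)⁻¹) ^ m * x)) :
    IsInfInt A N (Fermat.Agent.S24.CoeffBC.bc ι (modularFunctionFieldFull N) x) := by
  obtain ⟨m, hm⟩ := hx
  refine ⟨m, ?_⟩
  have h := isIntegralElem_evJinv_bc N A ι hm
  rwa [map_mul, map_pow, map_sub, map_one, map_mul, map_ofNat, map_inv₀, GaussSmall.bc_jBC] at h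

/-- Values in `A` on the first chart, level form. -/
theorem exists_value_fin {x : Fermat.Agent.S24.FF L N}
    (hx : (Gauss.evF (A.comap ι) N).IsIntegralElem x)
    {P : Place Qb ↥(modularFunctionFieldBar N)} (hP : Centre.IsFinPlace A N P) :
    ∃ c : Qb, c ∈ A ∧
      IsValueAt P (Fermat.Agent.S24.CoeffBC.bc ι (modularFunctionFieldFull N) x) c :=
  (GaussSmall.valueProp N A).1 _ (isFinInt_bc N A ι hx) P hP

/-- Values in `A` on the second chart, level form. -/
theorem exists_value_inf {x : Fermat.Agent.S24.FF L N}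
    (hx : ∃ m : ℕ, (Gauss.evFinf (A.comap ι) N).IsIntegralElem
      ((1 - 1728 * (Fermat.Agent.S24.jBC L N)⁻¹) ^ m * x))
    {P : Place Qb ↥(modularFunctionFieldBar N)} (hP : IsInfPlace A N P) :
    ∃ c : Qb, c ∈ A ∧
      IsValueAt P (Fermat.Agent.S24.CoeffBC.bc ι (modularFunctionFieldFull N) x) c :=
  exists_value_of_isInfInt (isInfInt_bc N A ι hx) hP

end Level

end

end Fermat.Agent.S37.ChartVal
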