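/-
S37, slice F3 (helper12): the rational level of a place of `F_ℚ̄ = modularFunctionFieldBar N`.

`exists_rational_level`: for a place `P` of `F_ℚ̄` there is a finite `S ⊂ ℚ̄` such that over every
subfield `ι : L → ℚ̄` containing `S` (with `bc := S24.CoeffBC.bc ι (modularFunctionFieldFull N)`
the coefficient extension `F_L → F_ℚ̄`):
* `P` is `L`-rational: every `g ∈ F_L` regular at `P` has its value at `P` in `ι L`;
* `P` is unramified over `F_L`: some `t ∈ F_L` is a uniformiser at `P`;
* `P` is the unique place of `F_ℚ̄` with its restriction to `F_L`.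
`exists_rational_level_finset`: the same for finitely many places at once.

Proof: `S24.exists_localization_model` gives a finitely generated `ℚ̄`-algebra `B₀ = ℚ̄[T]` with
`O_P = (B₀)_{P₀}`; the generators, their values `θ_b`, a uniformiser `t ∈ B₀` and the relations
`s_b (b - θ_b) = t d_b` (`s_b ∉ P₀`) descend to every sufficiently large `L`
(`eventually_mem_adjoin`), and so do numerators and denominators of the finitely many field
generators.  Over such an `L`, with `C = L[bc⁻¹ T]`: every `H ∈ C` has a value `c ∈ L` and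
`s (H - c) ∈ t C` for some `s ∈ C` which is a unit at `P` (`good_of_mem_adjoin`), whence the
normal form `g = t ^ k U / U'` of every `g ∈ F_L^×` (`normal_form`).
-/
import Mathlib
import Fermat.Agent.S37.Inertia
import Fermat.Agent.S18.Descent

set_option autoImplicit false
set_option linter.unusedSectionVars false

namespace Fermat.Agent.S37.RatPlace

open ModularCurve AlgebraicCurve Fermat.Agent.S37.GaloisValue

noncomputable section

/-! ### Units at a place -/

section Units

variable {K F : Type*} [Field K] [Field F] [Algebra K F]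

/-- `x` is a unit of the valuation ring of the place `P`. -/
def UnitAt (P : Place K F) (x : F) : Prop := P.toValuationSubring.valuation x = 1

theorem UnitAt.mul {P : Place K F} {x y : F} (hx : UnitAt P x) (hy : UnitAt P y) :
    UnitAt P (x * y) := by
  unfold UnitAt at *
  rw [map_mul, hx, hy, one_mul]

theorem unitAt_one (P : Place K F) : UnitAt P 1 := by
  unfold UnitAt
  exact map_one _

theorem UnitAt.ne_zero {P : Place K F} {x : F} (hx : UnitAt P x) : x ≠ 0 := by
  rintro rfl
  unfold UnitAt at hx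
  rw [map_zero] at hx
  exact zero_ne_one hx

theorem UnitAt.mem {P : Place K F} {x : F} (hx : UnitAt P x) : x ∈ P.toValuationSubring :=
  (P.toValuationSubring.valuation_le_one_iff x).mp (le_of_eq hx)

theorem UnitAt.inv {P : Place K F} {x : F} (hx : UnitAt P x) : UnitAt P x⁻¹ := by
  unfold UnitAt at *
  rw [map_inv₀, hx, inv_one]

theorem UnitAt.not_isValueAt_zero {P : Place K F} {x : F} (hx : UnitAt P x) :
    ¬ IsValueAt P x 0 := by
  intro h
  rw [isValueAt_iff, map_zero, sub_zero] at h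
  unfold UnitAt at hx
  rw [hx] at h
  exact lt_irrefl _ h

theorem UnitAt.ord_eq_zero {P : Place K F} {x : F} (hx : UnitAt P x) : P.ord x = 0 := by
  have h1 := S18.Witness.ord_nonneg_of_mem P hx.mem
  have h2 := S18.Witness.ord_nonneg_of_mem P hx.inv.mem
  rw [P.ord_inv] at h2
  omega

theorem unitAt_of_ord_eq_zero {P : Place K F} {x : F} (hx0 : x ≠ 0) (h : P.ord x = 0) :
    UnitAt P x := by
  have h1 : x ∈ P.toValuationSubring := S18.Witness.mem_of_ord_nonneg P h.ge
  have h2 : x⁻¹ ∈ P.toValuationSubring :=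
    S18.Witness.mem_of_ord_nonneg P (by rw [P.ord_inv, h]; simp)
  have h1' := (P.toValuationSubring.valuation_le_one_iff x).mpr h1
  have h2' := (P.toValuationSubring.valuation_le_one_iff x⁻¹).mpr h2
  rw [map_inv₀] at h2'
  have hv0 : P.toValuationSubring.valuation x ≠ 0 := (Valuation.ne_zero_iff _).mpr hx0
  exact le_antisymm h1' ((inv_le_one₀ (zero_lt_iff.mpr hv0)).mp h2')

/-- an element with a nonzero value is a unit -/
theorem unitAt_of_isValueAt {P : Place K F} {x : F} {c : K} (h : IsValueAt P x c) (hc : c ≠ 0) :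
    UnitAt P x := by
  have h1 : x ∈ P.toValuationSubring := h.mem
  have h2 : x⁻¹ ∈ P.toValuationSubring := (Inertia.isValueAt_inv h hc).mem
  have h1' := (P.toValuationSubring.valuation_le_one_iff x).mpr h1
  have h2' := (P.toValuationSubring.valuation_le_one_iff x⁻¹).mpr h2
  rw [map_inv₀] at h2'
  have hx0 : x ≠ 0 := by
    rintro rfl
    have h0 : IsValueAt P (0 : F) 0 := by simpa using isValueAt_algebraMap P (0 : K)
    exact hc (h.unique h0)
  have hv0 : P.toValuationSubring.valuation x ≠ 0 := (Valuation.ne_zero_iff _).mpr hx0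
  exact le_antisymm h1' ((inv_le_one₀ (zero_lt_iff.mpr hv0)).mp h2')

theorem UnitAt.value_ne_zero {P : Place K F} {x : F} {c : K} (hx : UnitAt P x)
    (h : IsValueAt P x c) : c ≠ 0 := by
  rintro rfl
  exact hx.not_isValueAt_zero h

theorem isValueAt_zero_iff (P : Place K F) (x : F) :
    IsValueAt P x 0 ↔ x ∈ P.toValuationSubring.nonunits := by
  unfold IsValueAt
  rw [map_zero, sub_zero]

theorem isValueAt_zero_of_ord_pos {P : Place K F} {x : F} (h : 0 < P.ord x) :
    IsValueAt P x 0 := by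
  rw [isValueAt_zero_iff, mem_nonunits_iff_inv_notMem]
  right
  intro hmem
  have := S18.Witness.ord_nonneg_of_mem P hmem
  rw [P.ord_inv] at this
  omega

end Units

/-! ### The algebra core -/

section Core

variable {K F : Type*} [Field K] [Field F] [Algebra K F]
variable {L FL : Type*} [Field L] [Field FL] [Algebra L FL]
  (ι : L →+* K) (φ : FL →+* F) (hφ : ∀ a : L, φ (algebraMap L FL a) = algebraMap K F (ι a))
  (P : Place K F)

/-- `H` has a value `c ∈ L` at `P` and `H - c` is divisible by `t` up to a unit `s ∈ C`. -/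
def Good (C : Subalgebra L FL) (t : FL) (H : FL) : Prop :=
  ∃ c : L, IsValueAt P (φ H) (ι c) ∧ ∃ s ∈ C, ∃ d ∈ C, UnitAt P (φ s) ∧
    s * (H - algebraMap L FL c) = t * d

include hφ in
theorem good_of_mem_adjoin (T : Set FL) (t : FL)
    (hT : ∀ b ∈ T, Good ι φ P (Algebra.adjoin L T) t b) :
    ∀ H ∈ Algebra.adjoin L T, Good ι φ P (Algebra.adjoin L T) t H := by
  intro H hH
  induction hH using Algebra.adjoin_induction with
  | mem b hb => exact hT b hb
  | algebraMap a =>
      refine ⟨a, ?_, 1, one_mem _, 0, zero_mem _, ?_, by simp⟩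
      · rw [hφ]; exact isValueAt_algebraMap P _
      · rw [map_one]; exact unitAt_one P
  | add x y hx hy ihx ihy =>
      obtain ⟨c₁, hc₁, s₁, hs₁, d₁, hd₁, hu₁, e₁⟩ := ihx
      obtain ⟨c₂, hc₂, s₂, hs₂, d₂, hd₂, hu₂, e₂⟩ := ihy
      refine ⟨c₁ + c₂, ?_, s₁ * s₂, mul_mem hs₁ hs₂, s₂ * d₁ + s₁ * d₂,
        add_mem (mul_mem hs₂ hd₁) (mul_mem hs₁ hd₂), ?_, ?_⟩
      · rw [map_add, map_add]; exact hc₁.add hc₂
      · rw [map_mul]; exact hu₁.mul hu₂
      · rw [map_add]; linear_combination s₂ * e₁ + s₁ * e₂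
  | mul x y hx hy ihx ihy =>
      obtain ⟨c₁, hc₁, s₁, hs₁, d₁, hd₁, hu₁, e₁⟩ := ihx
      obtain ⟨c₂, hc₂, s₂, hs₂, d₂, hd₂, hu₂, e₂⟩ := ihy
      refine ⟨c₁ * c₂, ?_, s₁ * s₂, mul_mem hs₁ hs₂,
        s₂ * d₁ * y + s₁ * algebraMap L FL c₁ * d₂, ?_, ?_, ?_⟩
      · rw [map_mul, map_mul]; exact hc₁.mul hc₂
      · exact add_mem (mul_mem (mul_mem hs₂ hd₁) hy)
          (mul_mem (mul_mem hs₁ (Subalgebra.algebraMap_mem _ _)) hd₂)
      · rw [map_mul]; exact hu₁.mul hu₂
      · rw [map_mul]; linear_combination s₂ * y * e₁ + s₁ * algebraMap L FL c₁ * e₂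

include hφ in
theorem normal_form_aux (T : Set FL) (t : FL) (ht : P.ord (φ t) = 1)
    (hT : ∀ b ∈ T, Good ι φ P (Algebra.adjoin L T) t b) :
    ∀ n : ℕ, ∀ H ∈ Algebra.adjoin L T, H ≠ 0 → P.ord (φ H) = n →
      ∃ s ∈ Algebra.adjoin L T, ∃ U ∈ Algebra.adjoin L T,
        UnitAt P (φ s) ∧ UnitAt P (φ U) ∧ s * H = t ^ n * U := by
  have ht0 : t ≠ 0 := by
    rintro rfl
    rw [map_zero, Place.ord_zero] at ht
    exact zero_ne_one ht
  intro n
  induction n with
  | zero =>
      intro H hH hH0 hord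
      refine ⟨1, one_mem _, H, hH, by rw [map_one]; exact unitAt_one P,
        unitAt_of_ord_eq_zero ((map_ne_zero φ).mpr hH0) (by simpa using hord), by simp⟩
  | succ n ih =>
      intro H hH hH0 hord
      obtain ⟨c, hc, s, hs, d, hd, hu, e⟩ := good_of_mem_adjoin ι φ hφ P T t hT H hH
      have hv0 : IsValueAt P (φ H) 0 := isValueAt_zero_of_ord_pos (by rw [hord]; positivity)
      have hc0 : c = 0 := by
        have h1 : ι c = 0 := hc.unique hv0
        exact (map_eq_zero ι).mp h1
      rw [hc0, map_zero, sub_zero] at e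
      have hs0 : s ≠ 0 := fun h => hu.ne_zero (by rw [h, map_zero])
      have hd0 : d ≠ 0 := by
        rintro rfl
        rw [mul_zero] at e
        exact mul_ne_zero hs0 hH0 e
      have hordd : P.ord (φ d) = n := by
        have h1 := congrArg (fun z => P.ord (φ z)) e
        simp only [map_mul] at h1
        rw [P.ord_mul ((map_ne_zero φ).mpr hs0) ((map_ne_zero φ).mpr hH0),
          P.ord_mul ((map_ne_zero φ).mpr ht0) ((map_ne_zero φ).mpr hd0),
          hu.ord_eq_zero, hord, ht] at h1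
        push_cast at h1
        omega
      obtain ⟨s', hs', U, hU, hu', hU', e'⟩ := ih d hd hd0 hordd
      refine ⟨s' * s, mul_mem hs' hs, U, hU, by rw [map_mul]; exact hu'.mul hu, hU', ?_⟩
      rw [pow_succ]; linear_combination s' * e + t * e'

include hφ in
/-- **Normal form**: every nonzero element of `FL` is `t ^ k` times a quotient of two elements
of `C` which are units at `P`. -/
theorem normal_form (T : Set FL) (t : FL) (ht : P.ord (φ t) = 1)
    (hT : ∀ b ∈ T, Good ι φ P (Algebra.adjoin L T) t b)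
    (hgen : IntermediateField.adjoin L T = ⊤) (g : FL) (hg : g ≠ 0) :
    ∃ k : ℤ, ∃ U ∈ Algebra.adjoin L T, ∃ U' ∈ Algebra.adjoin L T,
      UnitAt P (φ U) ∧ UnitAt P (φ U') ∧ g * U' = t ^ k * U := by
  have ht0 : t ≠ 0 := by
    rintro rfl
    rw [map_zero, Place.ord_zero] at ht
    exact zero_ne_one ht
  have hgm : g ∈ IntermediateField.adjoin L T := by rw [hgen]; trivial
  obtain ⟨r, hr, s', hs', hgrs⟩ := IntermediateField.mem_adjoin_iff_div.mp hgm
  have hs'0 : s' ≠ 0 := by
    rintro rfl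
    rw [div_zero] at hgrs
    exact hg hgrs
  have hr0 : r ≠ 0 := by
    rintro rfl
    rw [zero_div] at hgrs
    exact hg hgrs
  have hgs : g * s' = r := by rw [hgrs, div_mul_cancel₀ _ hs'0]
  have hnonneg : ∀ H ∈ Algebra.adjoin L T, 0 ≤ P.ord (φ H) := by
    intro H hH
    obtain ⟨c, hc, -⟩ := good_of_mem_adjoin ι φ hφ P T t hT H hH
    exact S18.Witness.ord_nonneg_of_mem P hc.mem
  obtain ⟨n, hn⟩ := Int.eq_ofNat_of_zero_le (hnonneg r hr)
  obtain ⟨m, hm⟩ := Int.eq_ofNat_of_zero_le (hnonneg s' hs')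
  obtain ⟨s₁, hs₁, U₁, hU₁, hu₁, hUu₁, e₁⟩ := normal_form_aux ι φ hφ P T t ht hT n r hr hr0 hn
  obtain ⟨s₂, hs₂, U₂, hU₂, hu₂, hUu₂, e₂⟩ := normal_form_aux ι φ hφ P T t ht hT m s' hs' hs'0 hm
  refine ⟨(n : ℤ) - m, U₁ * s₂, mul_mem hU₁ hs₂, U₂ * s₁, mul_mem hU₂ hs₁,
    by rw [map_mul]; exact hUu₁.mul hu₂, by rw [map_mul]; exact hUu₂.mul hu₁, ?_⟩
  rw [zpow_sub₀ ht0, zpow_natCast, zpow_natCast, div_mul_eq_mul_div,
    eq_div_iff (pow_ne_zero _ ht0)]
  linear_combination (s₂ * s₁) * hgs + s₂ * e₁ - g * s₁ * e₂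

include hφ in
/-- **Rationality**: every element of `FL` regular at `P` has its value in `L`. -/
theorem exists_value (T : Set FL) (t : FL) (ht : P.ord (φ t) = 1)
    (hT : ∀ b ∈ T, Good ι φ P (Algebra.adjoin L T) t b)
    (hgen : IntermediateField.adjoin L T = ⊤) (g : FL) (hg : φ g ∈ P.toValuationSubring) :
    ∃ c : L, IsValueAt P (φ g) (ι c) := by
  have ht0 : t ≠ 0 := by
    rintro rfl
    rw [map_zero, Place.ord_zero] at ht
    exact zero_ne_one ht
  by_cases hg0 : g = 0
  · refine ⟨0, ?_⟩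
    rw [hg0, map_zero, map_zero]
    simpa using isValueAt_algebraMap P (0 : K)
  obtain ⟨k, U, hU, U', hU', hu, hu', e⟩ := normal_form ι φ hφ P T t ht hT hgen g hg0
  have hordg : P.ord (φ g) = k := by
    have h1 := congrArg (fun z => P.ord (φ z)) e
    simp only [map_mul, map_zpow₀] at h1
    rw [P.ord_mul ((map_ne_zero φ).mpr hg0) hu'.ne_zero,
      P.ord_mul (zpow_ne_zero _ ((map_ne_zero φ).mpr ht0)) hu.ne_zero,
      hu.ord_eq_zero, hu'.ord_eq_zero, P.ord_zpow, ht] at h1
    omega
  have hk : 0 ≤ k := by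
    rw [← hordg]
    exact S18.Witness.ord_nonneg_of_mem P hg
  rcases hk.lt_or_eq with hk | hk
  · refine ⟨0, ?_⟩
    rw [map_zero]
    exact isValueAt_zero_of_ord_pos (by rw [hordg]; exact hk)
  · rw [← hk, zpow_zero, one_mul] at e
    obtain ⟨c, hc, -⟩ := good_of_mem_adjoin ι φ hφ P T t hT U hU
    obtain ⟨c', hc', -⟩ := good_of_mem_adjoin ι φ hφ P T t hT U' hU'
    have hc'0 : ι c' ≠ 0 := hu'.value_ne_zero hc'
    refine ⟨c * c'⁻¹, ?_⟩
    have hU'0 : φ U' ≠ 0 := hu'.ne_zero
    have e' : φ g = φ U * (φ U')⁻¹ := by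
      rw [eq_mul_inv_iff_mul_eq₀ hU'0, ← map_mul, e]
    rw [e', map_mul, map_inv₀]
    exact hc.mul (Inertia.isValueAt_inv hc' hc'0)

end Core

/-! ### Uniqueness of the extension -/

section Unique

variable {K F : Type*} [Field K] [Field F] [Algebra K F]
variable {L FL : Type*} [Field L] [Field FL] [Algebra L FL]
  (ι : L →+* K) (φ : FL →+* F) (hφ : ∀ a : L, φ (algebraMap L FL a) = algebraMap K F (ι a))
  (P : Place K F)

/-- the valuation ring of a place is a maximal proper valuation subring -/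
theorem place_eq_of_le {P P' : Place K F} (h : P.toValuationSubring ≤ P'.toValuationSubring) :
    P' = P := by
  apply Place.ext
  refine le_antisymm ?_ h
  intro x hx
  by_contra hxP
  apply P'.ne_top'
  rw [eq_top_iff]
  intro y _
  have hx0 : x ≠ 0 := fun h0 => hxP (h0 ▸ zero_mem _)
  have hxi : x⁻¹ ∈ P.toValuationSubring :=
    (P.toValuationSubring.mem_or_inv_mem x).resolve_left hxP
  have hordx : 0 < P.ord x⁻¹ := by
    have h1 := S18.Witness.ord_nonneg_of_mem P hxi
    rcases h1.lt_or_eq with h1 | h1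
    · exact h1
    · exfalso
      apply hxP
      refine S18.Witness.mem_of_ord_nonneg P (f := x) ?_
      rw [P.ord_inv] at h1
      omega
  by_cases hy0 : y = 0
  · rw [hy0]; exact zero_mem _
  set m : ℕ := (-P.ord y).toNat with hm
  have hmem : y * (x⁻¹) ^ m ∈ P.toValuationSubring := by
    apply S18.Witness.mem_of_ord_nonneg
    rw [P.ord_mul hy0 (pow_ne_zero _ (inv_ne_zero hx0)), ← zpow_natCast, P.ord_zpow]
    have h2 : (-P.ord y) ≤ m := Int.self_le_toNat _
    nlinarith
  have e : y = (y * (x⁻¹) ^ m) * x ^ m := by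
    rw [inv_pow, mul_assoc, inv_mul_cancel₀ (pow_ne_zero _ hx0), mul_one]
  rw [e]
  exact mul_mem (h hmem) (pow_mem hx m)

include hφ in
/-- **Uniqueness**: a place with the same restriction to `FL` as `P` is `P`, provided the
generators of a model of `P` and their values are defined over `L`. -/
theorem unique_place (T₀ : Set F)
    (hmodel : ∀ u ∈ P.toValuationSubring, ∃ b ∈ Algebra.adjoin K T₀,
      ∃ s ∈ Algebra.adjoin K T₀, UnitAt P s ∧ u * s = b)
    (hT₀ : ∀ b ∈ T₀, ∃ b' : FL, φ b' = b ∧ ∃ c : L, IsValueAt P b (ι c))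
    (P' : Place K F)
    (h : ∀ g : FL, φ g ∈ P'.toValuationSubring ↔ φ g ∈ P.toValuationSubring) : P' = P := by
  have hnon : ∀ g : FL, φ g ∈ P.toValuationSubring.nonunits →
      φ g ∈ P'.toValuationSubring.nonunits := by
    intro g hg
    rw [mem_nonunits_iff_inv_notMem] at hg ⊢
    rcases hg with hg | hg
    · exact Or.inl hg
    · right
      rw [← map_inv₀] at hg ⊢
      exact fun h' => hg ((h g⁻¹).mp h')
  have hval : ∀ x ∈ Algebra.adjoin K T₀, ∃ c : K, IsValueAt P x c ∧ IsValueAt P' x c := by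
    intro x hx
    induction hx using Algebra.adjoin_induction with
    | mem b hb =>
        obtain ⟨b', rfl, c, hc⟩ := hT₀ b hb
        refine ⟨ι c, hc, ?_⟩
        unfold IsValueAt at hc ⊢
        rw [← hφ, ← map_sub] at hc ⊢
        exact hnon _ hc
    | algebraMap a => exact ⟨a, isValueAt_algebraMap P a, isValueAt_algebraMap P' a⟩
    | add x y hx hy ihx ihy =>
        obtain ⟨c₁, h₁, h₁'⟩ := ihx
        obtain ⟨c₂, h₂, h₂'⟩ := ihy
        exact ⟨c₁ + c₂, h₁.add h₂, h₁'.add h₂'⟩
    | mul x y hx hy ihx ihy =>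
        obtain ⟨c₁, h₁, h₁'⟩ := ihx
        obtain ⟨c₂, h₂, h₂'⟩ := ihy
        exact ⟨c₁ * c₂, h₁.mul h₂, h₁'.mul h₂'⟩
  apply place_eq_of_le
  intro u hu
  obtain ⟨b, hb, s, hs, hsu, e⟩ := hmodel u hu
  obtain ⟨c, hc, hc'⟩ := hval s hs
  obtain ⟨cb, -, hcb'⟩ := hval b hb
  have hc0 : c ≠ 0 := hsu.value_ne_zero hc
  have hs' : UnitAt P' s := unitAt_of_isValueAt hc' hc0
  have e' : u = b * s⁻¹ := by rw [← e, mul_assoc, mul_inv_cancel₀ hsu.ne_zero, mul_one]
  rw [e']
  exact mul_mem hcb'.mem hs'.inv.mem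

end Unique

/-! ### A finitely generated model of a place over an algebraically closed field -/

section Model

open IntermediateField

variable {K F : Type*} [Field K] [IsAlgClosed K] [CharZero K] [Field F] [Algebra K F]

theorem exists_model (x : F) (hx : Transcendental K x) [FiniteDimensional K⟮x⟯ F]
    (P : Place K F) :
    ∃ T : Finset F,
      (∀ y ∈ Algebra.adjoin K (T : Set F), y ∈ P.toValuationSubring) ∧
      (∀ u ∈ P.toValuationSubring, ∃ b ∈ Algebra.adjoin K (T : Set F),
        ∃ s ∈ Algebra.adjoin K (T : Set F), UnitAt P s ∧ u * s = b) := by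
  classical
  obtain ⟨B, P₀, hfin, hmax, hO, hP⟩ := S24.exists_localization_model x hx P
  obtain ⟨s, hs⟩ := hfin.out
  have hB : Algebra.adjoin K ((s.image (Subtype.val : B → F) : Finset F) : Set F) = B := by
    rw [Finset.coe_image]
    have h1 : (Subtype.val : B → F) = B.val := rfl
    rw [h1, Algebra.adjoin_image, hs, Algebra.map_top, Subalgebra.range_val]
  have hBO : ∀ y ∈ B, y ∈ P.toValuationSubring := by
    intro y hy
    exact (hO y).mpr ⟨⟨y, hy⟩, 1, (Ideal.ne_top_iff_one _).mp hmax.ne_top, by simp⟩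
  refine ⟨s.image Subtype.val, ?_, ?_⟩
  · rw [hB]; exact hBO
  · intro u hu
    obtain ⟨b, s', hs', e⟩ := (hO u).mp hu
    rw [hB]
    refine ⟨b, b.2, s', s'.2, ?_, e⟩
    have h1 : ¬ (0 < P.ord (s' : F) ∨ s' = 0) := fun h => hs' ((hP s').mpr h)
    push Not at h1
    have h2 := S18.Witness.ord_nonneg_of_mem P (hBO _ s'.2)
    exact unitAt_of_ord_eq_zero (fun h0 => h1.2 (Subtype.ext h0)) (le_antisymm h1.1 h2)

omit [IsAlgClosed K] [CharZero K] in
theorem ord_pos_of_isValueAt_zero {P : Place K F} {x : F} (h : IsValueAt P x 0) (hx0 : x ≠ 0) :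
    0 < P.ord x := by
  rw [isValueAt_zero_iff, ValuationSubring.mem_nonunits_iff_exists_mem_maximalIdeal] at h
  obtain ⟨hx, hm⟩ := h
  exact (S24.Places.ord_pos_iff_mem_maximalIdeal P ⟨x, hx⟩
    (fun h0 => hx0 (congrArg Subtype.val h0))).mpr hm

/-- the data attached to a place of degree one: generators `T` of a model, a uniformiser `t`
in the model, the values of the generators and the relations `s (b - θ) = t d`. -/
theorem exists_data (x : F) (hx : Transcendental K x) [FiniteDimensional K⟮x⟯ F]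
    (P : Place K F) (hdeg : P.deg = 1) :
    ∃ (T : Finset F) (t : F),
      (∀ u ∈ P.toValuationSubring, ∃ b ∈ Algebra.adjoin K (T : Set F),
        ∃ s ∈ Algebra.adjoin K (T : Set F), UnitAt P s ∧ u * s = b) ∧
      t ∈ Algebra.adjoin K (T : Set F) ∧ P.ord t = 1 ∧
      (∀ b ∈ T, ∃ θ : K, IsValueAt P b θ ∧ ∃ s ∈ Algebra.adjoin K (T : Set F),
        ∃ d ∈ Algebra.adjoin K (T : Set F), UnitAt P s ∧ s * (b - algebraMap K F θ) = t * d) ∧
      (∀ g : F, ∃ U ∈ Algebra.adjoin K (T : Set F), ∃ U' ∈ Algebra.adjoin K (T : Set F),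
        U' ≠ 0 ∧ g * U' = U) := by
  obtain ⟨T, hTO, hmodel⟩ := exists_model x hx P
  obtain ⟨π, hπ⟩ := IsDiscreteValuationRing.exists_irreducible P.toValuationSubring
  have hπ1 : P.ord (π : F) = 1 := P.ord_coe_irreducible hπ
  have hπ0 : (π : F) ≠ 0 := fun h0 => hπ.ne_zero (Subtype.ext h0)
  obtain ⟨t, ht, s₀, hs₀, hs₀u, e₀⟩ := hmodel π π.2
  have htord : P.ord t = 1 := by
    rw [← e₀, P.ord_mul hπ0 hs₀u.ne_zero, hπ1, hs₀u.ord_eq_zero, add_zero]
  have ht0 : t ≠ 0 := by
    rintro rfl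
    rw [Place.ord_zero] at htord
    exact zero_ne_one htord
  refine ⟨T, t, hmodel, ht, htord, ?_, ?_⟩
  · intro b hb
    have hbO : b ∈ P.toValuationSubring := hTO b (Algebra.subset_adjoin hb)
    obtain ⟨θ, hθ⟩ := Inertia.exists_isValueAt_of_deg_eq_one hdeg hbO
    refine ⟨θ, hθ, ?_⟩
    have hu : (b - algebraMap K F θ) * t⁻¹ ∈ P.toValuationSubring := by
      by_cases h0 : b - algebraMap K F θ = 0
      · rw [h0, zero_mul]; exact zero_mem _
      · apply S18.Witness.mem_of_ord_nonneg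
        have h1 : 0 < P.ord (b - algebraMap K F θ) := by
          apply ord_pos_of_isValueAt_zero _ h0
          rw [isValueAt_zero_iff]
          exact hθ
        rw [P.ord_mul h0 (inv_ne_zero ht0), P.ord_inv, htord]
        omega
    obtain ⟨d, hd, s, hs, hsu, e⟩ := hmodel _ hu
    refine ⟨s, hs, d, hd, hsu, ?_⟩
    rw [← e]
    field_simp
  · intro g
    rcases P.toValuationSubring.mem_or_inv_mem g with hg | hg
    · obtain ⟨b, hb, s, hs, hsu, e⟩ := hmodel g hg
      exact ⟨b, hb, s, hs, hsu.ne_zero, e⟩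
    · by_cases hg0 : g = 0
      · exact ⟨0, zero_mem _, 1, one_mem _, one_ne_zero, by rw [hg0, zero_mul]⟩
      obtain ⟨b, hb, s, hs, hsu, e⟩ := hmodel g⁻¹ hg
      have hb0 : b ≠ 0 := by
        rw [← e]
        exact mul_ne_zero (inv_ne_zero hg0) hsu.ne_zero
      refine ⟨s, hs, b, hb, hb0, ?_⟩
      rw [← e, ← mul_assoc, mul_inv_cancel₀ hg0, one_mul]

end Model

/-! ### Properties holding over all sufficiently large subfields of `ℚ̄` -/

section Descent

local notation "Qb" => AlgebraicClosure ℚ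

/-- the property `p` holds for every subfield `ι : L → ℚ̄` containing a suitable finite set -/
def Eventually (p : ∀ (L : Type) [Field L] [Algebra ℚ L], (L →+* Qb) → Prop) : Prop :=
  ∃ S : Finset Qb, ∀ (L : Type) [Field L] [Algebra ℚ L] (ι : L →+* Qb),
    (∀ a ∈ S, ∃ b : L, ι b = a) → p L ι

theorem Eventually.mono {p q : ∀ (L : Type) [Field L] [Algebra ℚ L], (L →+* Qb) → Prop}
    (h : Eventually p)
    (hpq : ∀ (L : Type) [Field L] [Algebra ℚ L] (ι : L →+* Qb), p L ι → q L ι) :
    Eventually q := by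
  obtain ⟨S, hS⟩ := h
  exact ⟨S, fun L _ _ ι hι => hpq L ι (hS L ι hι)⟩

theorem Eventually.and {p q : ∀ (L : Type) [Field L] [Algebra ℚ L], (L →+* Qb) → Prop}
    (hp : Eventually p) (hq : Eventually q) :
    Eventually (fun (L : Type) [Field L] [Algebra ℚ L] (ι : L →+* Qb) => p L ι ∧ q L ι) := by
  classical
  obtain ⟨S1, h1⟩ := hp
  obtain ⟨S2, h2⟩ := hq
  exact ⟨S1 ∪ S2, fun L _ _ ι hι =>
    ⟨h1 L ι (fun a ha => hι a (Finset.mem_union_left _ ha)),
      h2 L ι (fun a ha => hι a (Finset.mem_union_right _ ha))⟩⟩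

theorem eventually_finset {α : Type*} (s : Finset α)
    (p : α → ∀ (L : Type) [Field L] [Algebra ℚ L], (L →+* Qb) → Prop)
    (h : ∀ i ∈ s, Eventually (p i)) :
    Eventually (fun (L : Type) [Field L] [Algebra ℚ L] (ι : L →+* Qb) => ∀ i ∈ s, p i L ι) := by
  classical
  induction s using Finset.induction_on with
  | empty => exact ⟨∅, fun _ _ _ _ _ i hi => absurd hi (Finset.notMem_empty i)⟩
  | insert a s ha ih =>
      have h1 := h a (Finset.mem_insert_self a s)
      have h2 := ih (fun i hi => h i (Finset.mem_insert_of_mem hi))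
      refine (h1.and h2).mono ?_
      intro L _ _ ι hh i hi
      rcases Finset.mem_insert.mp hi with rfl | hi
      · exact hh.1
      · exact hh.2 i hi

theorem eventually_mem (a : Qb) :
    Eventually (fun (L : Type) [Field L] [Algebra ℚ L] (ι : L →+* Qb) => ∃ b : L, ι b = a) :=
  ⟨{a}, fun _ _ _ _ hι => hι a (Finset.mem_singleton_self a)⟩

variable (F₀ : IntermediateField ℚ (LaurentSeries ℚ))

/-- **Descent inside a finitely generated algebra**: an element of `ℚ̄[T]` lies, over every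
sufficiently large `L`, in the image of `L[bc⁻¹ T]`. -/
theorem eventually_mem_adjoin (T : Set ↥(laurentBaseChange Qb F₀))
    {x : ↥(laurentBaseChange Qb F₀)} (hx : x ∈ Algebra.adjoin Qb T) :
    Eventually (fun (L : Type) [Field L] [Algebra ℚ L] (ι : L →+* Qb) =>
      ∃ y ∈ Algebra.adjoin L ((S24.CoeffBC.bc ι F₀) ⁻¹' T), S24.CoeffBC.bc ι F₀ y = x) := by
  induction hx using Algebra.adjoin_induction with
  | mem b hb =>
      obtain ⟨S, hS⟩ := S18.Descent.exists_finset_descent F₀ b.2
      refine ⟨S, fun L _ _ ι hι => ?_⟩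
      obtain ⟨y, hy, e⟩ := hS L ι hι
      have e' : S24.CoeffBC.bc ι F₀ ⟨y, hy⟩ = b := Subtype.ext e
      exact ⟨⟨y, hy⟩, Algebra.subset_adjoin (by rw [Set.mem_preimage, e']; exact hb), e'⟩
  | algebraMap a =>
      refine (eventually_mem a).mono ?_
      intro L _ _ ι hb
      obtain ⟨b, hb⟩ := hb
      exact ⟨algebraMap L _ b, Subalgebra.algebraMap_mem _ _,
        by rw [S24.CoeffBC.bc_algebraMap, hb]⟩
  | add x y hx hy ihx ihy =>
      refine (ihx.and ihy).mono ?_
      intro L _ _ ι hh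
      obtain ⟨⟨x', hx', ex⟩, ⟨y', hy', ey⟩⟩ := hh
      exact ⟨x' + y', add_mem hx' hy', by rw [map_add, ex, ey]⟩
  | mul x y hx hy ihx ihy =>
      refine (ihx.and ihy).mono ?_
      intro L _ _ ι hh
      obtain ⟨⟨x', hx', ex⟩, ⟨y', hy', ey⟩⟩ := hh
      exact ⟨x' * y', mul_mem hx' hy', by rw [map_mul, ex, ey]⟩

/-- The set of generators of the function field is finite. -/
theorem finite_divisorExpansions (N : ℕ) [NeZero N] : (divisorExpansions N).Finite := by
  classical
  let f : ℕ → LaurentSeries ℚ := fun d =>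
    if h : d = 0 then 0 else @qExpand ℚ _ d ⟨h⟩ jq
  refine Set.Finite.subset ((N.divisors : Set ℕ).toFinite.image f) ?_
  rintro x ⟨d, hd, hdN, rfl⟩
  refine ⟨d, ?_, ?_⟩
  · exact Finset.mem_coe.mpr (Nat.mem_divisors.mpr ⟨hdN, NeZero.ne N⟩)
  · simp only [f, dif_neg (NeZero.ne d)]

/-- A subfield of `L((q))` containing the constants and the generators contains the function
field. -/
theorem mem_of_subfield (L : Type*) [Field L] [Algebra ℚ L] (N : ℕ) [NeZero N]
    (R : Subfield (LaurentSeries L))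
    (hC : ∀ a : L, algebraMap L (LaurentSeries L) a ∈ R)
    (hj : ∀ x ∈ divisorExpansions N, coeffEmb L x ∈ R) :
    ∀ y ∈ laurentBaseChange L (modularFunctionFieldFull N), y ∈ R := by
  intro y hy
  rw [mem_laurentBaseChange_iff] at hy
  refine (Subfield.closure_le (t := R)).mpr ?_ hy
  rintro z (⟨a, rfl⟩ | ⟨z, hz, rfl⟩)
  · exact hC a
  · have hz' : z ∈ Subfield.closure
        (Set.range (algebraMap ℚ (LaurentSeries ℚ)) ∪ divisorExpansions N) := hz
    have hle : Subfield.closure
        (Set.range (algebraMap ℚ (LaurentSeries ℚ)) ∪ divisorExpansions N)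
          ≤ R.comap (coeffEmb L) := by
      rw [Subfield.closure_le]
      rintro w (⟨a, rfl⟩ | hw)
      · show coeffEmb L (algebraMap ℚ (LaurentSeries ℚ) a) ∈ R
        have h1 : coeffEmb L (algebraMap ℚ (LaurentSeries ℚ) a)
            = algebraMap L (LaurentSeries L) (algebraMap ℚ L a) :=
          S24.CoeffBC.coeffMap_algebraMap' (algebraMap ℚ L) a
        rw [h1]
        exact hC _
      · exact hj w hw
    exact hle hz'

end Descent

/-! ### The theorem -/

section Main

local notation "Qb" => AlgebraicClosure ℚ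

variable (N : ℕ) [NeZero N]

/-- the relations `s (b - θ) = t d` descend -/
theorem eventually_rel (P : Place Qb (S24.FF Qb N)) (T : Finset (S24.FF Qb N))
    (t : S24.FF Qb N)
    (hrel : ∀ b ∈ T, ∃ θ : Qb, IsValueAt P b θ ∧
      ∃ s ∈ Algebra.adjoin Qb (T : Set (S24.FF Qb N)),
      ∃ d ∈ Algebra.adjoin Qb (T : Set (S24.FF Qb N)),
        UnitAt P s ∧ s * (b - algebraMap Qb (S24.FF Qb N) θ) = t * d) :
    Eventually (fun (L : Type) [Field L] [Algebra ℚ L] (ι : L →+* Qb) => ∀ b ∈ T,
      ∃ c : L, IsValueAt P b (ι c) ∧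
        ∃ sL ∈ Algebra.adjoin L
            ((S24.CoeffBC.bc ι (modularFunctionFieldFull N)) ⁻¹' (T : Set (S24.FF Qb N))),
        ∃ dL ∈ Algebra.adjoin L
            ((S24.CoeffBC.bc ι (modularFunctionFieldFull N)) ⁻¹' (T : Set (S24.FF Qb N))),
          UnitAt P (S24.CoeffBC.bc ι (modularFunctionFieldFull N) sL) ∧
          S24.CoeffBC.bc ι (modularFunctionFieldFull N) sL *
              (b - algebraMap Qb (S24.FF Qb N) (ι c)) =
            t * S24.CoeffBC.bc ι (modularFunctionFieldFull N) dL) := by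
  refine eventually_finset T _ (fun b hb => ?_)
  obtain ⟨θ, hθ, s, hs, d, hd, hsu, e⟩ := hrel b hb
  refine ((eventually_mem θ).and
    ((eventually_mem_adjoin (modularFunctionFieldFull N) (T : Set (S24.FF Qb N)) hs).and
      (eventually_mem_adjoin (modularFunctionFieldFull N) (T : Set (S24.FF Qb N)) hd))).mono ?_
  intro L _ _ ι hh
  obtain ⟨⟨c, hc⟩, ⟨sL, hsL, esL⟩, ⟨dL, hdL, edL⟩⟩ := hh
  refine ⟨c, by rw [hc]; exact hθ, sL, hsL, dL, hdL, by rw [esL]; exact hsu, ?_⟩
  rw [esL, edL, hc]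
  exact e

/-- the generators descend -/
theorem eventually_range (T : Finset (S24.FF Qb N)) :
    Eventually (fun (L : Type) [Field L] [Algebra ℚ L] (ι : L →+* Qb) => ∀ b ∈ T,
      ∃ b' : S24.FF L N, S24.CoeffBC.bc ι (modularFunctionFieldFull N) b' = b) := by
  refine eventually_finset T _ (fun b hb => ?_)
  refine (eventually_mem_adjoin (modularFunctionFieldFull N) (T : Set (S24.FF Qb N))
    (Algebra.subset_adjoin hb)).mono ?_
  intro L _ _ ι hh
  obtain ⟨y, -, e⟩ := hh
  exact ⟨y, e⟩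

/-- each generator of the function field is eventually a quotient of descended elements -/
theorem eventually_gen_mem (T : Finset (S24.FF Qb N))
    (hfrac : ∀ g : S24.FF Qb N, ∃ U ∈ Algebra.adjoin Qb (T : Set (S24.FF Qb N)),
      ∃ U' ∈ Algebra.adjoin Qb (T : Set (S24.FF Qb N)), U' ≠ 0 ∧ g * U' = U)
    (x : LaurentSeries ℚ) (hxF₀ : x ∈ modularFunctionFieldFull N) :
    Eventually (fun (L : Type) [Field L] [Algebra ℚ L] (ι : L →+* Qb) =>
      (⟨coeffEmb L x, coeffEmb_mem_laurentBaseChange L hxF₀⟩ : S24.FF L N) ∈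
        IntermediateField.adjoin L
          ((S24.CoeffBC.bc ι (modularFunctionFieldFull N)) ⁻¹' (T : Set (S24.FF Qb N)))) := by
  obtain ⟨U, hU, U', hU', hU'0, e⟩ :=
    hfrac ⟨coeffEmb Qb x, coeffEmb_mem_laurentBaseChange Qb hxF₀⟩
  refine ((eventually_mem_adjoin (modularFunctionFieldFull N) (T : Set (S24.FF Qb N)) hU).and
    (eventually_mem_adjoin (modularFunctionFieldFull N) (T : Set (S24.FF Qb N)) hU')).mono ?_
  intro L _ _ ι hh
  obtain ⟨⟨UL, hUL, eU⟩, ⟨UL', hUL', eU'⟩⟩ := hh
  have hbc : S24.CoeffBC.bc ι (modularFunctionFieldFull N)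
      ⟨coeffEmb L x, coeffEmb_mem_laurentBaseChange L hxF₀⟩ =
      ⟨coeffEmb Qb x, coeffEmb_mem_laurentBaseChange Qb hxF₀⟩ :=
    Subtype.ext (S24.CoeffBC.coeffMap_coeffEmb' ι x)
  have hUL'0 : UL' ≠ 0 := by
    rintro rfl
    rw [map_zero] at eU'
    exact hU'0 eU'.symm
  have e2 : (⟨coeffEmb L x, coeffEmb_mem_laurentBaseChange L hxF₀⟩ : S24.FF L N) * UL'
      = UL := by
    apply (S24.CoeffBC.bc ι (modularFunctionFieldFull N)).injective
    rw [map_mul, hbc, eU, eU']
    exact e
  have e3 : (⟨coeffEmb L x, coeffEmb_mem_laurentBaseChange L hxF₀⟩ : S24.FF L N)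
      = UL / UL' := by
    rw [eq_div_iff hUL'0]
    exact e2
  rw [e3]
  exact div_mem (IntermediateField.algebra_adjoin_le_adjoin L _ hUL)
    (IntermediateField.algebra_adjoin_le_adjoin L _ hUL')

/-- the descended generators of the model generate the function field -/
theorem eventually_gen (T : Finset (S24.FF Qb N))
    (hfrac : ∀ g : S24.FF Qb N, ∃ U ∈ Algebra.adjoin Qb (T : Set (S24.FF Qb N)),
      ∃ U' ∈ Algebra.adjoin Qb (T : Set (S24.FF Qb N)), U' ≠ 0 ∧ g * U' = U) :
    Eventually (fun (L : Type) [Field L] [Algebra ℚ L] (ι : L →+* Qb) =>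
      IntermediateField.adjoin L
        ((S24.CoeffBC.bc ι (modularFunctionFieldFull N)) ⁻¹' (T : Set (S24.FF Qb N))) = ⊤) := by
  classical
  have hfinD : (divisorExpansions N).Finite := finite_divisorExpansions N
  have h := eventually_finset hfinD.toFinset
    (fun x (L : Type) [Field L] [Algebra ℚ L] (ι : L →+* Qb) =>
      ∃ hx : coeffEmb L x ∈ laurentBaseChange L (modularFunctionFieldFull N),
        (⟨coeffEmb L x, hx⟩ : S24.FF L N) ∈ IntermediateField.adjoin L
          ((S24.CoeffBC.bc ι (modularFunctionFieldFull N)) ⁻¹' (T : Set (S24.FF Qb N)))) ?_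
  · refine h.mono ?_
    intro L _ _ ι hL
    rw [eq_top_iff]
    intro y _
    have key := mem_of_subfield L N
      ((IntermediateField.adjoin L
        ((S24.CoeffBC.bc ι (modularFunctionFieldFull N)) ⁻¹'
          (T : Set (S24.FF Qb N)))).toSubfield.map
          (laurentBaseChange L (modularFunctionFieldFull N)).val.toRingHom) ?_ ?_ y.1 y.2
    · obtain ⟨z, hz, e⟩ := key
      have hzy : z = y := Subtype.ext e
      rw [← hzy]
      exact hz
    · intro a
      exact ⟨algebraMap L _ a, IntermediateField.algebraMap_mem _ a, rfl⟩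
    · intro x hx
      obtain ⟨hx', hmem⟩ := hL x (hfinD.mem_toFinset.mpr hx)
      exact ⟨_, hmem, rfl⟩
  · intro x hx
    have hxD : x ∈ divisorExpansions N := hfinD.mem_toFinset.mp hx
    have hxF₀ : x ∈ modularFunctionFieldFull N := IntermediateField.subset_adjoin ℚ _ hxD
    refine (eventually_gen_mem N T hfrac x hxF₀).mono ?_
    intro L _ _ ι hh
    exact ⟨coeffEmb_mem_laurentBaseChange L hxF₀, hh⟩

/-- **Rational level of a place.**  For a place `P` of `F_ℚ̄` there is a finite subset `S` of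
`ℚ̄` such that over every subfield `ι : L → ℚ̄` containing `S`: `P` is `L`-rational (values of
functions of `F_L` regular at `P` lie in `L`), unramified over `F_L` (there is a uniformiser in
`F_L`), and is the unique place of `F_ℚ̄` with its restriction to `F_L`. -/
theorem exists_rational_level (P : Place Qb (modularFunctionFieldBar N)) :
    ∃ S : Finset Qb, ∀ (L : Type) [Field L] [Algebra ℚ L] (ι : L →+* Qb),
      (∀ a ∈ S, ∃ b : L, ι b = a) →
      (∀ g : S24.FF L N,
          S24.CoeffBC.bc ι (modularFunctionFieldFull N) g ∈ P.toValuationSubring →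
          ∃ c : L, IsValueAt P (S24.CoeffBC.bc ι (modularFunctionFieldFull N) g) (ι c)) ∧
      (∃ t : S24.FF L N, P.ord (S24.CoeffBC.bc ι (modularFunctionFieldFull N) t) = 1) ∧
      (∀ P' : Place Qb (modularFunctionFieldBar N),
          (∀ g : S24.FF L N,
            S24.CoeffBC.bc ι (modularFunctionFieldFull N) g ∈ P'.toValuationSubring ↔
            S24.CoeffBC.bc ι (modularFunctionFieldFull N) g ∈ P.toValuationSubring) →
          P' = P) := by
  obtain ⟨htr, hfd⟩ := S18.Descent.bar_transcendental N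
  have hdeg : P.deg = 1 := S18.Witness.bar_deg_eq_one N P
  obtain ⟨T, t, hmodel, htT, ht, hrel, hfrac⟩ := exists_data (S24.jBC Qb N) htr P hdeg
  have E1 := eventually_mem_adjoin (modularFunctionFieldFull N) (T : Set (S24.FF Qb N)) htT
  have E2 := eventually_rel N P T t hrel
  have E0 := eventually_range N T
  have E3 := eventually_gen N T hfrac
  obtain ⟨S, hS⟩ := E1.and (E2.and (E0.and E3))
  refine ⟨S, fun L _ _ ι hι => ?_⟩
  obtain ⟨⟨tL, htL, etL⟩, h2, h0, h3⟩ := hS L ι hι
  have hφ : ∀ a : L, S24.CoeffBC.bc ι (modularFunctionFieldFull N)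
      (algebraMap L (S24.FF L N) a) = algebraMap Qb (S24.FF Qb N) (ι a) :=
    S24.CoeffBC.bc_algebraMap ι (modularFunctionFieldFull N)
  have hT : ∀ b' ∈ ((S24.CoeffBC.bc ι (modularFunctionFieldFull N)) ⁻¹'
        (T : Set (S24.FF Qb N))),
      Good ι (S24.CoeffBC.bc ι (modularFunctionFieldFull N)) P
        (Algebra.adjoin L ((S24.CoeffBC.bc ι (modularFunctionFieldFull N)) ⁻¹'
          (T : Set (S24.FF Qb N)))) tL b' := by
    intro b' hb'
    obtain ⟨c, hc, sL, hsL, dL, hdL, hu, e⟩ :=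
      h2 (S24.CoeffBC.bc ι (modularFunctionFieldFull N) b') hb'
    refine ⟨c, hc, sL, hsL, dL, hdL, hu, ?_⟩
    apply (S24.CoeffBC.bc ι (modularFunctionFieldFull N)).injective
    rw [map_mul, map_sub, hφ, map_mul, etL]
    exact e
  have ht' : P.ord (S24.CoeffBC.bc ι (modularFunctionFieldFull N) tL) = 1 := by
    rw [etL]
    exact ht
  refine ⟨fun g hg => exists_value ι (S24.CoeffBC.bc ι (modularFunctionFieldFull N)) hφ P _ tL
    ht' hT h3 g hg, ⟨tL, ht'⟩, fun P' hP' => ?_⟩
  refine unique_place ι (S24.CoeffBC.bc ι (modularFunctionFieldFull N)) hφ P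
    (T : Set (S24.FF Qb N)) hmodel ?_ P' hP'
  intro b hb
  obtain ⟨b', hb'⟩ := h0 b hb
  obtain ⟨c, hc, -⟩ := h2 b hb
  exact ⟨b', hb', c, hc⟩


/-- **Rational level of finitely many places.** -/
theorem exists_rational_level_finset (s : Finset (Place Qb (modularFunctionFieldBar N))) :
    ∃ S : Finset Qb, ∀ (L : Type) [Field L] [Algebra ℚ L] (ι : L →+* Qb),
      (∀ a ∈ S, ∃ b : L, ι b = a) → ∀ P ∈ s,
      (∀ g : S24.FF L N,
          S24.CoeffBC.bc ι (modularFunctionFieldFull N) g ∈ P.toValuationSubring →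
          ∃ c : L, IsValueAt P (S24.CoeffBC.bc ι (modularFunctionFieldFull N) g) (ι c)) ∧
      (∃ t : S24.FF L N, P.ord (S24.CoeffBC.bc ι (modularFunctionFieldFull N) t) = 1) ∧
      (∀ P' : Place Qb (modularFunctionFieldBar N),
          (∀ g : S24.FF L N,
            S24.CoeffBC.bc ι (modularFunctionFieldFull N) g ∈ P'.toValuationSubring ↔
            S24.CoeffBC.bc ι (modularFunctionFieldFull N) g ∈ P.toValuationSubring) →
          P' = P) :=
  eventually_finset s
    (fun P (L : Type) [Field L] [Algebra ℚ L] (ι : L →+* Qb) =>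
      (∀ g : S24.FF L N,
          S24.CoeffBC.bc ι (modularFunctionFieldFull N) g ∈ P.toValuationSubring →
          ∃ c : L, IsValueAt P (S24.CoeffBC.bc ι (modularFunctionFieldFull N) g) (ι c)) ∧
      (∃ t : S24.FF L N, P.ord (S24.CoeffBC.bc ι (modularFunctionFieldFull N) t) = 1) ∧
      (∀ P' : Place Qb (modularFunctionFieldBar N),
          (∀ g : S24.FF L N,
            S24.CoeffBC.bc ι (modularFunctionFieldFull N) g ∈ P'.toValuationSubring ↔
            S24.CoeffBC.bc ι (modularFunctionFieldFull N) g ∈ P.toValuationSubring) →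
          P' = P))
    (fun P _ => exists_rational_level N P)

end Main

end

end Fermat.Agent.S37.RatPlace
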