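/-
S37, package (W), level selection (helper12).

The chart elements `a, b` of `(W)` must be defined, and the `ℚ̄`-zeros of `a * b` rational, at
ONE discrete level `(L, ι)`.  Since levels are only produced as "some `L` containing a given
finite set" (`S18.BaseDVRGeneric.exists_base`), every requirement is phrased as a property
holding over all sufficiently large levels (`RatPlace.Eventually`):

* `eventually_exists_bc` : an element of `F_ℚ̄` is defined over every large level;
* `eventually_lifts` : a polynomial over `A[X]` has coefficients in `W[X]`, `W = A ∩ L`;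
* `eventually_isIntegralElem_fin` / `_inf` : an element of `F_ℚ̄` integral over `A[j]`
  (resp. over `A[t, 1/(1 - 1728 t)]`, `t = 1/j`, multiplier form) descends to an element of
  `F_L` integral over `W[j]` (resp. `W[t, 1/(1 - 1728 t)]`);
* `exists_finset_ord_ne_zero`, `eventually_rational_of_ord_ne_zero` : the zeros and poles of a
  nonzero function are rational, unramified and uniquely determined over every large level;
* `exists_level` : a property holding over all large levels holds at some level with all the
  conclusions of `exists_base` (discrete valuation ring, algebraically closed residue field, …).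
-/
import Mathlib
import Fermat.Agent.S37.RatPlace
import Fermat.Agent.S37.ChartVal
import Fermat.Agent.S37.FunctionFieldMaps
import Fermat.Agent.S18.BaseDVRGeneric

set_option autoImplicit false
set_option linter.unusedSectionVars false

namespace Fermat.Agent.S37.LevelDesc

open ModularCurve AlgebraicCurve Polynomial
open Fermat.Agent.S37.GaloisValue Fermat.Agent.S37.RatPlace Fermat.Agent.S18

noncomputable section

local notation "Qb" => AlgebraicClosure ℚ

section Generic

/-- Descent of integrality along a commutative square with injective right edge, when the monic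
equation lifts. -/
theorem isIntegralElem_of_square_lifts {R S R' S' : Type*} [CommRing R] [CommRing S]
    [CommRing R'] [Nontrivial R'] [CommRing S'] (f : R →+* S) (f' : R' →+* S') (g : R →+* R') (h : S →+* S')
    (hsq : h.comp f = f'.comp g) (hh : Function.Injective h) {x : S} (p : R'[X]) (hp : p.Monic)
    (hpx : p.eval₂ f' (h x) = 0) (hlift : p ∈ Polynomial.lifts g) : f.IsIntegralElem x := by
  obtain ⟨q, hq, -, hqm⟩ := Polynomial.lifts_and_degree_eq_and_monic hlift hp
  refine ⟨q, hqm, hh ?_⟩
  rw [Polynomial.hom_eval₂, hsq, ← Polynomial.eval₂_map, hq, hpx, map_zero]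

end Generic

section Descent

variable (N : ℕ) [NeZero N] (A : ValuationSubring Qb)

/-- an element of `F_ℚ̄` is defined over every sufficiently large level -/
theorem eventually_exists_bc (a : S24.FF Qb N) :
    Eventually (fun (L : Type) [Field L] [Algebra ℚ L] (ι : L →+* Qb) =>
      ∃ aL : S24.FF L N, S24.CoeffBC.bc ι (modularFunctionFieldFull N) aL = a) := by
  obtain ⟨S, hS⟩ := Descent.exists_finset_descent (modularFunctionFieldFull N) a.2
  refine ⟨S, fun L _ _ ι hι => ?_⟩
  obtain ⟨y, hy, e⟩ := hS L ι hι
  exact ⟨⟨y, hy⟩, Subtype.ext e⟩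

/-- an element of `A` lies in `W = A ∩ L` as soon as it lies in `L` -/
theorem mem_range_inclComap {L : Type*} [Field L] (ι : L →+* Qb) (c : ↥A)
    (h : ∃ b : L, ι b = (c : Qb)) : c ∈ Set.range (Descent.inclComap ι A) := by
  obtain ⟨b, hb⟩ := h
  have hbA : b ∈ A.comap ι := by
    show ι b ∈ A
    rw [hb]
    exact c.2
  exact ⟨⟨b, hbA⟩, Subtype.ext hb⟩

/-- a polynomial over `A[X]` lifts to `W[X]` over every sufficiently large level -/
theorem eventually_lifts (p : (Polynomial ↥A)[X]) :
    Eventually (fun (L : Type) [Field L] [Algebra ℚ L] (ι : L →+* Qb) =>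
      p ∈ Polynomial.lifts (Polynomial.mapRingHom (Descent.inclComap ι A))) := by
  classical
  refine ⟨p.support.biUnion (fun n => (p.coeff n).support.image
    (fun k => (((p.coeff n).coeff k : ↥A) : Qb))), fun L _ _ ι hι => ?_⟩
  show p ∈ Polynomial.lifts (Polynomial.mapRingHom (Descent.inclComap ι A))
  rw [Polynomial.lifts_iff_coeff_lifts]
  intro n
  have h1 : p.coeff n ∈ Polynomial.lifts (Descent.inclComap ι A) := by
    rw [Polynomial.lifts_iff_coeff_lifts]
    intro k
    by_cases h0 : (p.coeff n).coeff k = 0
    · exact ⟨0, by rw [h0, map_zero]⟩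
    · have hn : n ∈ p.support := by
        rw [Polynomial.mem_support_iff]
        intro h
        exact h0 (by rw [h, Polynomial.coeff_zero])
      have hk : k ∈ (p.coeff n).support := Polynomial.mem_support_iff.mpr h0
      exact mem_range_inclComap A ι _
        (hι _ (Finset.mem_biUnion.mpr ⟨n, hn, Finset.mem_image.mpr ⟨k, hk, rfl⟩⟩))
  obtain ⟨q, hq⟩ := (Polynomial.mem_lifts _).mp h1
  exact ⟨q, hq⟩

/-- **(LD1)** An element of `F_ℚ̄` integral over `A[j]` descends, over every sufficiently large
level `(L, ι)`, to an element of `F_L` integral over `W[j]`, `W = A ∩ L`. -/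
theorem eventually_isIntegralElem_fin {a : S24.FF Qb N} (ha : Centre.IsFinInt A N a) :
    Eventually (fun (L : Type) [Field L] [Algebra ℚ L] (ι : L →+* Qb) =>
      ∃ aL : S24.FF L N, S24.CoeffBC.bc ι (modularFunctionFieldFull N) aL = a ∧
        (Gauss.evF (A.comap ι) N).IsIntegralElem aL) := by
  obtain ⟨p, hp, hpa⟩ := ha
  refine ((eventually_exists_bc N a).and (eventually_lifts A p)).mono ?_
  intro L _ _ ι hh
  obtain ⟨⟨aL, haL⟩, hlift⟩ := hh
  refine ⟨aL, haL, ?_⟩
  refine isIntegralElem_of_square_lifts _ _ _ _ (ChartVal.bc_comp_evF N A ι)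
    (RingHom.injective _) p hp ?_ hlift
  rw [haL]
  exact hpa

/-- **(LD2)** The same on the second chart `A[t, 1/(1 - 1728 t)]`, `t = 1/j` (multiplier
form). -/
theorem eventually_isIntegralElem_inf {a : S24.FF Qb N} (ha : ChartVal.IsInfInt A N a) :
    Eventually (fun (L : Type) [Field L] [Algebra ℚ L] (ι : L →+* Qb) =>
      ∃ aL : S24.FF L N, S24.CoeffBC.bc ι (modularFunctionFieldFull N) aL = a ∧
        ∃ m : ℕ, (Gauss.evFinf (A.comap ι) N).IsIntegralElem
          ((1 - 1728 * (S24.jBC L N)⁻¹) ^ m * aL)) := by
  obtain ⟨m, p, hp, hpa⟩ := ha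
  refine ((eventually_exists_bc N a).and (eventually_lifts A p)).mono ?_
  intro L _ _ ι hh
  obtain ⟨⟨aL, haL⟩, hlift⟩ := hh
  refine ⟨aL, haL, m, ?_⟩
  refine isIntegralElem_of_square_lifts _ _ _ _ (ChartVal.bc_comp_evFinf N A ι)
    (RingHom.injective _) p hp ?_ hlift
  rw [map_mul, map_pow, map_sub, map_one, map_mul, map_ofNat, map_inv₀, GaussSmall.bc_jBC, haL]
  exact hpa

end Descent

section Zeros

variable (N : ℕ) [NeZero N]

/-- the zeros and poles of a nonzero function form a finite set -/
theorem exists_finset_ord_ne_zero (g : S24.FF Qb N) (hg : g ≠ 0) :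
    ∃ Z : Finset (Place Qb (modularFunctionFieldBar N)),
      ∀ P : Place Qb (modularFunctionFieldBar N), P.ord g ≠ 0 → P ∈ Z := by
  obtain ⟨htr, hfd⟩ := Descent.bar_transcendental N
  have hpd := FunctionFieldMaps.hasPrincipalDivisors (S24.jBC Qb N) htr
  obtain ⟨D, hD, -⟩ := hpd.exists_divisor g hg
  refine ⟨D.support, fun P hP => ?_⟩
  rw [Finsupp.mem_support_iff, hD P]
  exact hP

/-- **(LD4)** Over every sufficiently large level all zeros and poles of `g` are rational,
unramified and uniquely determined by their restriction (the three clauses of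
`RatPlace.exists_rational_level`). -/
theorem eventually_rational_of_ord_ne_zero (g : S24.FF Qb N) (hg : g ≠ 0) :
    Eventually (fun (L : Type) [Field L] [Algebra ℚ L] (ι : L →+* Qb) =>
      ∀ P : Place Qb (modularFunctionFieldBar N), P.ord g ≠ 0 →
      (∀ h : S24.FF L N,
          S24.CoeffBC.bc ι (modularFunctionFieldFull N) h ∈ P.toValuationSubring →
          ∃ c : L, IsValueAt P (S24.CoeffBC.bc ι (modularFunctionFieldFull N) h) (ι c)) ∧
      (∃ t : S24.FF L N, P.ord (S24.CoeffBC.bc ι (modularFunctionFieldFull N) t) = 1) ∧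
      (∀ P' : Place Qb (modularFunctionFieldBar N),
          (∀ h : S24.FF L N,
            S24.CoeffBC.bc ι (modularFunctionFieldFull N) h ∈ P'.toValuationSubring ↔
            S24.CoeffBC.bc ι (modularFunctionFieldFull N) h ∈ P.toValuationSubring) →
          P' = P)) := by
  obtain ⟨Z, hZ⟩ := exists_finset_ord_ne_zero N g hg
  obtain ⟨S, hS⟩ := exists_rational_level_finset N Z
  exact ⟨S, fun L _ _ ι hι P hP => hS L ι hι P (hZ P hP)⟩

end Zeros

section Level

/-- **(LD3)** A property holding over all sufficiently large levels holds at some level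
`(L, ι)` for which `W = A ∩ L` is a discrete valuation ring with algebraically closed residue
field of characteristic `ℓ`, containing the roots of unity of order prime to `ℓ` and
representatives of all residue classes of `A` (the conclusions of
`S18.BaseDVRGeneric.exists_base`). -/
theorem exists_level (A : ValuationSubring Qb) {ℓ : ℕ} (hℓ : ℓ.Prime) (hA : A.LiesOverPrime ℓ)
    {p : ∀ (L : Type) [Field L] [Algebra ℚ L], (L →+* Qb) → Prop} (hp : Eventually p) :
    ∃ (L : Type) (_ : Field L) (_ : Algebra ℚ L) (ι : L →+* Qb),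
      p L ι ∧
      (∀ x : Qb, (∃ n : ℕ, ¬ ℓ ∣ n ∧ x ^ n = 1) → ∃ b : L, ι b = x) ∧
      IsDiscreteValuationRing (A.comap ι) ∧
      IsAlgClosed (IsLocalRing.ResidueField (A.comap ι)) ∧
      PerfectField (IsLocalRing.ResidueField (A.comap ι)) ∧
      CharP (IsLocalRing.ResidueField (A.comap ι)) ℓ ∧
      ((ℓ : L) ∈ (A.comap ι).nonunits) ∧
      ∀ a ∈ A, ∃ b : L, ι b ∈ A ∧ a - ι b ∈ A.nonunits := by
  obtain ⟨S, hS⟩ := hp
  obtain ⟨L, i1, i2, ι, h1, h2, h3, h4, h5, h6, h7, h8⟩ :=
    BaseDVRGeneric.exists_base A hℓ hA S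
  exact ⟨L, i1, i2, ι, hS L ι h1, h2, h3, h4, h5, h6, h7, h8⟩

end Level

end

end Fermat.Agent.S37.LevelDesc
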