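/-
S37, package C4-end (helper1): from "the Gauss-unit part of a function is congruent, modulo the
maximal ideal of the Gauss valuation ring, to chart-integral functions on both charts of the
`j`-line" to the conclusion of `TorsionFree.ConstReduction` (statement (W)).

* (A) `exists_const_of_charts`: over an algebraically closed field `κ`, an element of a field
  `E ⊇ κ(j)` integral over `κ[j]` and over a ring of functions regular at `j = ∞` is a constant.
* (B) `red_isIntegralElem`: an element of `F_L` integral along a ring homomorphism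
  `φ : D → contentRing W` lies in the content ring and its reduction is integral along
  `red ∘ φ`; `red_const_of_charts`: the two-chart statement for the reduction.
* (C) `exists_witness_of_red_const`: a Gauss unit of `F_L` with constant reduction gives the
  `(c, Y₁, Y₂)` of `ConstReduction` over `A ⊇ W = A ∩ L`.
* (M) `constReduction_of_charts`: the composition.
-/
import Mathlib
import Fermat.Agent.S18.GaussVal
import Fermat.Agent.S18.GaussChart
import Fermat.Agent.S18.ChartConst
import Fermat.Agent.S18.Descent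
import Fermat.Agent.S18.Witness
import Fermat.Agent.S18.Finish
import Fermat.Agent.S24.CoeffBC

set_option autoImplicit false

noncomputable section

namespace Fermat.Agent.S37.ConstRed

open ModularCurve Polynomial Fermat.Agent.S18 Fermat.Agent.S18.Gauss

/-! ### (A) constants -/

/-- Over an algebraically closed field, a function integral over `κ[j]` and over a ring of
functions regular at `j = ∞` is a constant. -/
theorem exists_const_of_charts {κ E : Type*} [Field κ] [IsAlgClosed κ] [Field E] [Algebra κ E]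
    {j : E} (hj : Transcendental κ j) {D₁ D₂ : Type*} [CommRing D₁] [CommRing D₂]
    (φ₁ : D₁ →+* E) (φ₂ : D₂ →+* E) (h₁ : ∀ a, ∃ p : κ[X], φ₁ a = aeval j p)
    (h₂ : ∀ a, ChartConst.RegInf (W := κ) j (φ₂ a)) (g : E)
    (hg₁ : φ₁.IsIntegralElem g) (hg₂ : φ₂.IsIntegralElem g) :
    ∃ c : κ, g = algebraMap κ E c := by
  have hint : IsIntegral κ g :=
    ChartConst.isIntegral_of_isIntegralElem_regInf hj φ₁ φ₂ h₁ h₂ g hg₁ hg₂
  obtain ⟨c, hc⟩ := Finish.mem_range_of_isAlgebraic hint.isAlgebraic
  exact ⟨c, hc.symm⟩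

/-! ### (B) reduction of chart-integral elements -/

section Red

variable {L : Type*} [Field L] [Algebra ℚ L] (W : ValuationSubring L) (N : ℕ) [NeZero N]
  (ℓ : ℕ) [Fact ℓ.Prime] [CharP (IsLocalRing.ResidueField W) ℓ]

/-- `u ≡ v` modulo the maximal ideal of the Gauss valuation ring. -/
def RedEq (u v : LaurentSeries L) : Prop :=
  ∃ h : u - v ∈ contentRing W, red W ⟨u - v, h⟩ = 0

omit [Algebra ℚ L] in
theorem RedEq.red_eq {u v : LaurentSeries L} (h : RedEq W u v) (hu : u ∈ contentRing W)
    (hv : v ∈ contentRing W) : red W ⟨u, hu⟩ = red W ⟨v, hv⟩ := by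
  obtain ⟨h1, h2⟩ := h
  have h3 : (⟨u - v, h1⟩ : contentRing W) = ⟨u, hu⟩ - ⟨v, hv⟩ := rfl
  rw [h3, map_sub, sub_eq_zero] at h2
  exact h2

omit [Algebra ℚ L] in
theorem RedEq.mem_left {u v : LaurentSeries L} (h : RedEq W u v) (hv : v ∈ contentRing W) :
    u ∈ contentRing W := by
  obtain ⟨h1, -⟩ := h
  have : u = (u - v) + v := by ring
  rw [this]
  exact add_mem h1 hv

omit [Algebra ℚ L] in
/-- `u - v = m · d` with `m` in the maximal ideal of `W` and `d` Gauss-integral. -/
theorem redEq_of_mul {u v d : LaurentSeries L} (m : W) (hm : IsLocalRing.residue W m = 0)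
    (hd : d ∈ contentRing W) (h : u - v = HahnSeries.C (m : L) * d) : RedEq W u v := by
  have h1 : u - v ∈ contentRing W := by rw [h]; exact mul_mem (C_mem_contentRing W m) hd
  refine ⟨h1, ?_⟩
  have h2 : (⟨u - v, h1⟩ : contentRing W) =
      ⟨HahnSeries.C (m : L), C_mem_contentRing W m⟩ * ⟨d, hd⟩ := Subtype.ext h
  rw [h2, map_mul, red_C, hm, map_zero, zero_mul]

omit [Algebra ℚ L] in
/-- `b ≡ e · a` modulo `m` with `a` a Gauss unit gives `b / a ≡ e`. -/
theorem redEq_div {a b e b' : LaurentSeries L} (m : W) (hm : IsLocalRing.residue W m = 0)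
    (ha : a ∈ contentRing W) (hared : red W ⟨a, ha⟩ ≠ 0) (hb' : b' ∈ contentRing W)
    (h : b - e * a = HahnSeries.C (m : L) * b') : RedEq W (b / a) e := by
  have ha0 : a ≠ 0 := by
    rintro rfl
    apply hared
    have h1 : (⟨0, ha⟩ : contentRing W) = 0 := rfl
    rw [h1, map_zero]
  have hinv : a⁻¹ ∈ contentRing W := inv_mem_contentRing W ha hared
  refine redEq_of_mul W m hm (mul_mem hb' hinv) ?_
  have h1 : b / a - e = (b - e * a) * a⁻¹ := by field_simp
  rw [h1, h]; ring

/-- An element of `F_L` integral along `φ : D → contentRing W` lies in the content ring, and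
its reduction is integral along `red ∘ φ`. -/
theorem red_isIntegralElem (hℓN : ¬ ℓ ∣ N) {D : Type*} [CommRing D] (φ : D →+* contentRing W)
    {e : LaurentSeries L} (he : e ∈ laurentBaseChange L (modularFunctionFieldFull N))
    (h : ((contentRing W).subtype.comp φ).IsIntegralElem e) :
    ∃ he' : e ∈ contentRing W, ((red W).comp φ).IsIntegralElem (red W ⟨e, he'⟩) := by
  obtain ⟨P, hP, hroot⟩ := h
  have he' : e ∈ contentRing W := by
    refine mem_contentRing_of_monic_root' W
      (fun hnot => inv_mem_of_notMem_full W N ℓ hℓN he hnot) (P.map φ) (hP.map _) ?_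
    rw [Polynomial.eval₂_map]
    exact hroot
  refine ⟨he', P, hP, ?_⟩
  have h1 : P.eval₂ φ (⟨e, he'⟩ : contentRing W) = 0 := by
    apply Subtype.ext
    have h2 := Polynomial.hom_eval₂ P φ (contentRing W).subtype ⟨e, he'⟩
    rw [ZeroMemClass.coe_zero]
    exact h2.trans hroot
  rw [← Polynomial.hom_eval₂, h1, map_zero]

/-- **Two charts, reduction.** If `g` is congruent modulo the maximal ideal of the Gauss
valuation ring to an element of `F_L` integral over a chart ring reducing into `κ[j̄]` and to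
one integral over a chart ring reducing to functions regular at `j̄ = ∞`, then the reduction
of `g` is a constant. -/
theorem red_const_of_charts [IsAlgClosed (IsLocalRing.ResidueField W)] (hℓN : ¬ ℓ ∣ N)
    {D₁ D₂ : Type*} [CommRing D₁] [CommRing D₂] (φ₁ : D₁ →+* contentRing W)
    (φ₂ : D₂ →+* contentRing W)
    (h₁ : ∀ a, ∃ p : (IsLocalRing.ResidueField W)[X],
      red W (φ₁ a) = aeval (jqModC (IsLocalRing.ResidueField W)) p)
    (h₂ : ∀ a, ChartConst.RegInf (W := IsLocalRing.ResidueField W)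
      (jqModC (IsLocalRing.ResidueField W)) (red W (φ₂ a)))
    {g e₁ e₂ : LaurentSeries L} (hg : g ∈ contentRing W)
    (he₁ : e₁ ∈ laurentBaseChange L (modularFunctionFieldFull N))
    (he₂ : e₂ ∈ laurentBaseChange L (modularFunctionFieldFull N))
    (hi₁ : ((contentRing W).subtype.comp φ₁).IsIntegralElem e₁)
    (hi₂ : ((contentRing W).subtype.comp φ₂).IsIntegralElem e₂)
    (hc₁ : RedEq W g e₁) (hc₂ : RedEq W g e₂) :
    ∃ c : IsLocalRing.ResidueField W, red W ⟨g, hg⟩ = HahnSeries.C c := by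
  obtain ⟨he₁', hint₁⟩ := red_isIntegralElem W N ℓ hℓN φ₁ he₁ hi₁
  obtain ⟨he₂', hint₂⟩ := red_isIntegralElem W N ℓ hℓN φ₂ he₂ hi₂
  rw [← hc₁.red_eq W hg he₁'] at hint₁
  rw [← hc₂.red_eq W hg he₂'] at hint₂
  obtain ⟨c, hc⟩ := exists_const_of_charts
    (Fermat.Agent.S28.Content.transcendental_jqModC (IsLocalRing.ResidueField W))
    ((red W).comp φ₁) ((red W).comp φ₂) h₁ h₂ _ hint₁ hint₂
  exact ⟨c, by rw [hc, Fermat.Agent.S28.Content.algebraMap_eq_C_of_field]⟩

end Red

/-! ### (D) the two charts of the `j`-line -/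

section Charts

variable {L : Type*} [Field L] [Algebra ℚ L] (W : ValuationSubring L) (N : ℕ) [NeZero N]
  (ℓ : ℕ) [Fact ℓ.Prime] [CharP (IsLocalRing.ResidueField W) ℓ]

omit [Algebra ℚ L] in
/-- The finite chart `W[j]` reduces into `κ[j̄]`. -/
theorem red_evC_eq_aeval (a : (↥W)[X]) :
    red W (evC W a) = aeval (jqModC (IsLocalRing.ResidueField W))
      (a.map (IsLocalRing.residue W)) := by
  have h : red W (evC W a) = redJ W a := rfl
  rw [h, redJ_apply, toK_evJ, aeval_def, Fermat.Agent.S28.Content.algebraMap_eq_C_of_field]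

/-- **Finite chart.** A function integral over `W[j]` is Gauss-integral and its reduction is
integral along `W[X] → κ((q))`, `X ↦ j̄`. -/
theorem red_isIntegralElem_fin (hℓN : ¬ ℓ ∣ N) {e : Fermat.Agent.S24.FF L N}
    (h : (evF W N).IsIntegralElem e) :
    ∃ he' : (e : LaurentSeries L) ∈ contentRing W,
      ((red W).comp (evC W)).IsIntegralElem (red W ⟨e, he'⟩) := by
  refine red_isIntegralElem W N ℓ hℓN (evC W) e.2 ?_
  obtain ⟨P, hP, hroot⟩ := h
  refine ⟨P, hP, ?_⟩
  rw [subtype_comp_evC, ← coe_eval₂_evF, hroot]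
  rfl

omit [Algebra ℚ L] in
/-- The chart at infinity `W[1/j]` reduces to functions regular at `j̄ = ∞`. -/
theorem regInf_gJ (a : (↥W)[X]) :
    ChartConst.RegInf (W := IsLocalRing.ResidueField W) (jqModC (IsLocalRing.ResidueField W))
      (gJ W (jInv_mem_contentRing W) a) := by
  rw [gJ_apply, red_jInv]
  refine ChartConst.regInf_of_away
    (Fermat.Agent.S28.Content.transcendental_jqModC (IsLocalRing.ResidueField W)) 1 ?_ _
    (a.map (IsLocalRing.residue W)) 0 ?_
  · rw [coeff_one_zero]; exact one_ne_zero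
  · rw [pow_zero, mul_one, aeval_def, Fermat.Agent.S28.Content.algebraMap_eq_C_of_field]

omit [Algebra ℚ L] in
/-- A polynomial in `1/j` with unit constant term reduces to a function which is nonzero and
whose inverse is regular at `j̄ = ∞`. -/
theorem regInf_inv_gJ {u : (↥W)[X]} (hu : IsUnit (u.coeff 0)) :
    gJ W (jInv_mem_contentRing W) u ≠ 0 ∧
      ChartConst.RegInf (W := IsLocalRing.ResidueField W)
        (jqModC (IsLocalRing.ResidueField W)) (gJ W (jInv_mem_contentRing W) u)⁻¹ := by
  have hu0 : (u.map (IsLocalRing.residue W)).coeff 0 ≠ 0 := by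
    rw [coeff_map]
    exact (hu.map (IsLocalRing.residue W)).ne_zero
  have hne : gJ W (jInv_mem_contentRing W) u ≠ 0 := by
    intro h0
    have h1 := gJ_eq_zero W (jInv_mem_contentRing W) (htr_inf W) h0
    rw [h1, coeff_zero] at hu0
    exact hu0 rfl
  refine ⟨hne, ?_⟩
  refine ChartConst.regInf_of_away
    (Fermat.Agent.S28.Content.transcendental_jqModC (IsLocalRing.ResidueField W))
    (u.map (IsLocalRing.residue W)) hu0 _ 1 1 ?_
  rw [pow_one, map_one, aeval_def, Fermat.Agent.S28.Content.algebraMap_eq_C_of_field,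
    ← red_jInv W, ← gJ_apply]
  exact inv_mul_cancel₀ hne

/-- **Chart at infinity.** If `u(1/j) · e` is integral over `W[1/j]` for a polynomial `u` with
unit constant term (e.g. `u = (1 - 1728 X)^m`), then `e` is Gauss-integral and its reduction
is integral over the ring of functions of `κ(j̄)` regular at `j̄ = ∞`. -/
theorem red_isIntegral_inf (hℓN : ¬ ℓ ∣ N) {e : Fermat.Agent.S24.FF L N} {u : (↥W)[X]}
    (hu : IsUnit (u.coeff 0))
    (h : (evFinf W N).IsIntegralElem (evFinf W N u * e)) :
    ∃ he' : (e : LaurentSeries L) ∈ contentRing W,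
      IsIntegral (ChartConst.regInfSubalgebra (IsLocalRing.ResidueField W)
        (jqModC (IsLocalRing.ResidueField W))) (red W ⟨e, he'⟩) := by
  obtain ⟨hune, hureg⟩ := regInf_inv_gJ W hu
  have huS : u.map (IsLocalRing.residue W) ≠ 0 := by
    intro h0
    apply hune
    rw [gJ_apply, h0, Polynomial.eval₂_zero]
  have he' : (e : LaurentSeries L) ∈ contentRing W :=
    mem_of_isGaussInt_chart W N ℓ (jInv_mem_contentRing W) jInv_mem_adjoin hℓN (htr_inf W)
      e u huS h
  refine ⟨he', ?_⟩
  -- the product is integral along `gC`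
  have hy' : ((contentRing W).subtype.comp (gC W (jInv_mem_contentRing W))).IsIntegralElem
      ((evFinf W N u * e : Fermat.Agent.S24.FF L N) : LaurentSeries L) := by
    obtain ⟨P, hP, hroot⟩ := h
    refine ⟨P, hP, ?_⟩
    rw [subtype_comp_gC, ← coe_eval₂_evGF W N jInv_mem_adjoin]
    have h1 : P.eval₂ (evGF W N jInv_mem_adjoin) (evFinf W N u * e) = 0 := hroot
    rw [h1]
    rfl
  obtain ⟨hy, P, hP, hroot⟩ := red_isIntegralElem W N ℓ hℓN (gC W (jInv_mem_contentRing W))
    (Subtype.property _) hy'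
  -- integrality over the regular functions
  let S := ChartConst.regInfSubalgebra (IsLocalRing.ResidueField W)
    (jqModC (IsLocalRing.ResidueField W))
  let ψ : (↥W)[X] →+* S := (gJ W (jInv_mem_contentRing W)).codRestrict S (regInf_gJ W)
  have hint : IsIntegral S (red W ⟨_, hy⟩) := by
    refine ⟨P.map ψ, hP.map ψ, ?_⟩
    rw [Polynomial.eval₂_map]
    exact hroot
  have hprod : red W ⟨_, hy⟩ = gJ W (jInv_mem_contentRing W) u * red W ⟨e, he'⟩ := by
    have h1 : (⟨((evFinf W N u * e : Fermat.Agent.S24.FF L N) : LaurentSeries L), hy⟩ :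
        contentRing W) = gC W (jInv_mem_contentRing W) u * ⟨e, he'⟩ := Subtype.ext rfl
    rw [h1, map_mul]
    rfl
  have hsolve : red W ⟨e, he'⟩ =
      algebraMap S (LaurentSeries (IsLocalRing.ResidueField W))
        ⟨(gJ W (jInv_mem_contentRing W) u)⁻¹, hureg⟩ * red W ⟨_, hy⟩ := by
    rw [hprod]
    show _ = (gJ W (jInv_mem_contentRing W) u)⁻¹ * _
    rw [← mul_assoc, inv_mul_cancel₀ hune, one_mul]
  rw [hsolve]
  exact IsIntegral.mul isIntegral_algebraMap hint

/-- **Two charts of the `j`-line, reduction.** If the Gauss-integral series `g` is congruent,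
modulo the maximal ideal of the Gauss valuation ring, to a function `e₁` integral over `W[j]`
and to a function `e₂` with `u(1/j) · e₂` integral over `W[1/j]` (`u(0)` a unit), then the
reduction of `g` is a constant. -/
theorem red_const_of_int [IsAlgClosed (IsLocalRing.ResidueField W)] (hℓN : ¬ ℓ ∣ N)
    {g : LaurentSeries L} (hg : g ∈ contentRing W) {e₁ e₂ : Fermat.Agent.S24.FF L N}
    (he₁ : (evF W N).IsIntegralElem e₁) {u : (↥W)[X]} (hu : IsUnit (u.coeff 0))
    (he₂ : (evFinf W N).IsIntegralElem (evFinf W N u * e₂))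
    (hc₁ : RedEq W g e₁) (hc₂ : RedEq W g e₂) :
    ∃ c : IsLocalRing.ResidueField W, red W ⟨g, hg⟩ = HahnSeries.C c := by
  obtain ⟨h1, hint₁⟩ := red_isIntegralElem_fin W N ℓ hℓN he₁
  obtain ⟨h2, hint₂⟩ := red_isIntegral_inf W N ℓ hℓN hu he₂
  rw [← hc₁.red_eq W hg h1] at hint₁
  rw [← hc₂.red_eq W hg h2] at hint₂
  obtain ⟨c, hc⟩ := exists_const_of_charts
    (Fermat.Agent.S28.Content.transcendental_jqModC (IsLocalRing.ResidueField W))
    ((red W).comp (evC W))
    (algebraMap (ChartConst.regInfSubalgebra (IsLocalRing.ResidueField W)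
      (jqModC (IsLocalRing.ResidueField W))) (LaurentSeries (IsLocalRing.ResidueField W)))
    (fun a => ⟨_, red_evC_eq_aeval W a⟩) (fun a => a.2) _ hint₁ hint₂
  exact ⟨c, by rw [hc, Fermat.Agent.S28.Content.algebraMap_eq_C_of_field]⟩

/-- The multiplier `(1 - 1728/j)^m` of the cusp chart `W[1/j, 1/(j - 1728)]`. -/
theorem evFinf_cuspMul (m : ℕ) :
    evFinf W N ((1 - 1728 * X) ^ m) = (1 - 1728 * (Fermat.Agent.S24.jBC L N)⁻¹) ^ m := by
  rw [map_pow, map_sub, map_one, map_mul, map_ofNat, evFinf_X]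

omit [Algebra ℚ L] in
theorem isUnit_coeff_cuspMul (m : ℕ) :
    IsUnit (((1 - 1728 * X : (↥W)[X]) ^ m).coeff 0) := by
  rw [coeff_zero_eq_eval_zero, eval_pow, eval_sub, eval_one, eval_mul, eval_X, mul_zero,
    sub_zero, one_pow]
  exact isUnit_one

omit [NeZero N] in
/-- `b ≡ e · a` modulo `m` with `a` a Gauss unit gives `b / a ≡ e`, function-field form. -/
theorem redEq_div_FF (m : W) (hm : IsLocalRing.residue W m = 0)
    {a b e d : Fermat.Agent.S24.FF L N} (ha : (a : LaurentSeries L) ∈ contentRing W)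
    (hared : red W ⟨a, ha⟩ ≠ 0) (hd : (d : LaurentSeries L) ∈ contentRing W)
    (h : b - e * a = algebraMap L (Fermat.Agent.S24.FF L N) (m : L) * d) :
    RedEq W ((b / a : Fermat.Agent.S24.FF L N) : LaurentSeries L) e := by
  refine redEq_div W m hm ha hared hd ?_
  have h1 := congrArg (fun z : Fermat.Agent.S24.FF L N => (z : LaurentSeries L)) h
  have h2 : ((algebraMap L (Fermat.Agent.S24.FF L N) (m : L) : Fermat.Agent.S24.FF L N) :
      LaurentSeries L) = HahnSeries.C (m : L) := by
    rw [← Fermat.Agent.S28.Content.algebraMap_eq_C_of_field]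
    rfl
  rw [← h2]
  exact h1

end Charts

/-! ### (C) from the DVR level to `A` -/

/-- Coefficient extension along a field homomorphism maps `F_κ` into `F_κ'`. -/
theorem coeffMap_mem_fullC {k k' : Type*} [Field k] [Field k'] (σ : k →+* k') (N : ℕ)
    [NeZero N] {x : LaurentSeries k} (hx : x ∈ modularFunctionFieldFullC k N) :
    coeffMap σ x ∈ modularFunctionFieldFullC k' N := by
  let S : Subfield (LaurentSeries k) :=
    (modularFunctionFieldFullC k' N).toSubfield.comap (coeffMap σ)
  have hle : modularFunctionFieldFullC k N ≤ S.toIntermediateField (fun c => by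
      show coeffMap σ (algebraMap k (LaurentSeries k) c) ∈ modularFunctionFieldFullC k' N
      rw [Fermat.Agent.S24.CoeffBC.coeffMap_algebraMap']
      exact IntermediateField.algebraMap_mem _ _) := by
    rw [modularFunctionFieldFullC, IntermediateField.adjoin_le_iff]
    rintro y ⟨d, hd, hdN, rfl⟩
    show coeffMap σ (qExpand k d (jqModC k)) ∈ modularFunctionFieldFullC k' N
    rw [ModularCurve.coeffMap_qExpand, coeffMap_jqModC]
    exact jqModCd_mem_full k' N hdN
  exact hle hx

section Lift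

local notation "Qb" => AlgebraicClosure ℚ

variable (A : ValuationSubring Qb) (N : ℕ) [NeZero N] (ℓ : ℕ) [Fact ℓ.Prime]
  {L : Type} [Field L] [Algebra ℚ L] (ι : L →+* Qb)
  [CharP (IsLocalRing.ResidueField ↥(A.comap ι)) ℓ]

omit [Fact ℓ.Prime] [CharP (IsLocalRing.ResidueField ↥(A.comap ι)) ℓ] in
/-- An integral series of `F_L` over `W = A ∩ L`, viewed over `A`, is a member series. -/
theorem isMem_incl {Z : LaurentSeries ↥(A.comap ι)} (hZ : Z ∈ intFull (A.comap ι) N) :
    Witness.IsMem A (IsLocalRing.residue A) N (coeffMap (Descent.inclComap ι A) Z) := by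
  constructor
  · rw [coeffMap_coeffMap, Descent.subtype_comp_inclComap, ← coeffMap_coeffMap]
    exact Fermat.Agent.S24.CoeffBC.coeffMap_mem ι _ hZ.1
  · rw [← Descent.coeffMap_resComap]
    exact coeffMap_mem_fullC _ N hZ.2

/-- **Lift.** A function `x ∈ F_L` which is a nonzero constant times a Gauss unit with
constant reduction gives the data of `TorsionFree.ConstReduction` for its image in `F_ℚ̄`. -/
theorem exists_witness_of_red_const (hℓN : ¬ ℓ ∣ N) (x : Fermat.Agent.S24.FF L N) (a : L)
    (ha : a ≠ 0) (g : LaurentSeries L) (hg : g ∈ contentRing (A.comap ι))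
    (hxg : (x : LaurentSeries L) = HahnSeries.C a * g)
    (c' : IsLocalRing.ResidueField ↥(A.comap ι)) (hc' : c' ≠ 0)
    (hred : red (A.comap ι) ⟨g, hg⟩ = HahnSeries.C c') :
    ∃ (c : Qb) (Y₁ Y₂ : LaurentSeries A)
      (h₁ : Witness.IsMem A (IsLocalRing.residue A) N Y₁)
      (h₂ : Witness.IsMem A (IsLocalRing.residue A) N Y₂),
      c ≠ 0 ∧ coeffMap (IsLocalRing.residue A) Y₁ = coeffMap (IsLocalRing.residue A) Y₂ ∧
      coeffMap (IsLocalRing.residue A) Y₁ ≠ 0 ∧
      Fermat.Agent.S24.CoeffBC.bc ι (modularFunctionFieldFull N) x =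
        algebraMap Qb (modularFunctionFieldBar N) c *
          (Witness.toBar Y₁ h₁ / Witness.toBar Y₂ h₂) := by
  have hCa : (HahnSeries.C a : LaurentSeries L) ≠ 0 := HahnSeries.C_ne_zero ha
  have hgF : g ∈ laurentBaseChange L (modularFunctionFieldFull N) := by
    have h1 : g = (HahnSeries.C a)⁻¹ * (x : LaurentSeries L) := by
      rw [hxg, ← mul_assoc, inv_mul_cancel₀ hCa, one_mul]
    rw [h1]
    refine mul_mem (inv_mem ?_) x.2
    rw [← Fermat.Agent.S28.Content.algebraMap_eq_C_of_field]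
    exact IntermediateField.algebraMap_mem _ _
  obtain ⟨X, Y, hX, hY, hY0, h⟩ := mem_goodRing_of_mem (A.comap ι) N ℓ hℓN hgF hg
  have hredXY : toK (A.comap ι) X = HahnSeries.C c' * toK (A.comap ι) Y := by
    rw [red_mk_eq (A.comap ι) hg hY0 h] at hred
    rw [← hred, div_mul_cancel₀ _ hY0]
  obtain ⟨c₀, hc₀⟩ := IsLocalRing.residue_surjective c'
  have hc₀0 : (c₀ : L) ≠ 0 := by
    intro h0
    apply hc'
    have : c₀ = 0 := Subtype.ext h0
    rw [← hc₀, this, map_zero]
  have hZ2 : HahnSeries.C c₀ * Y ∈ intFull (A.comap ι) N :=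
    mul_mem (C_mem_intFull (A.comap ι) N c₀) hY
  have htoK : toK (A.comap ι) X = toK (A.comap ι) (HahnSeries.C c₀ * Y) := by
    rw [map_mul, toK_C, hc₀, hredXY]
  have hX0 : toK (A.comap ι) X ≠ 0 := by
    rw [hredXY]
    exact mul_ne_zero (HahnSeries.C_ne_zero hc') hY0
  have hLY0 : toL (A.comap ι) Y ≠ 0 := fun h0 =>
    hY0 (by rw [(toL_eq_zero_iff (A.comap ι) Y).mp h0, map_zero])
  refine ⟨ι (a * c₀), coeffMap (Descent.inclComap ι A) X,
    coeffMap (Descent.inclComap ι A) (HahnSeries.C c₀ * Y), isMem_incl A N ι hX,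
    isMem_incl A N ι hZ2, ?_, ?_, ?_, ?_⟩
  · rw [Ne, map_eq_zero]
    exact mul_ne_zero ha hc₀0
  · rw [← Descent.coeffMap_resComap, ← Descent.coeffMap_resComap]
    exact congrArg _ htoK
  · rw [← Descent.coeffMap_resComap]
    intro h0
    apply hX0
    apply Fermat.Agent.S28.Tower.coeffMap_injective (Descent.resComap ι A)
    rw [map_zero]
    exact h0
  · apply Subtype.ext
    have e1 : coeffMap A.subtype (coeffMap (Descent.inclComap ι A) X) =
        coeffMap ι (toL (A.comap ι) X) := by
      rw [coeffMap_coeffMap, Descent.subtype_comp_inclComap, ← coeffMap_coeffMap]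
      rfl
    have e2 : coeffMap A.subtype (coeffMap (Descent.inclComap ι A) (HahnSeries.C c₀ * Y)) =
        coeffMap ι (HahnSeries.C (c₀ : L) * toL (A.comap ι) Y) := by
      rw [coeffMap_coeffMap, Descent.subtype_comp_inclComap, ← coeffMap_coeffMap]
      show coeffMap ι (toL (A.comap ι) (HahnSeries.C c₀ * Y)) = _
      rw [map_mul, toL_C]
    have e3 : (x : LaurentSeries L) = HahnSeries.C (a * (c₀ : L)) *
        (toL (A.comap ι) X / (HahnSeries.C (c₀ : L) * toL (A.comap ι) Y)) := by
      have hC0 : (HahnSeries.C (c₀ : L) : LaurentSeries L) ≠ 0 := HahnSeries.C_ne_zero hc₀0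
      rw [hxg, ← h, map_mul]
      field_simp
    rw [Fermat.Agent.S24.CoeffBC.coe_bc, e3, map_mul, map_div₀]
    rw [MulMemClass.coe_mul, IntermediateField.coe_div, IntermediateField.coe_algebraMap_apply]
    show _ = _ * (coeffMap A.subtype _ / coeffMap A.subtype _)
    rw [e1, e2, ← Fermat.Agent.S28.Content.algebraMap_eq_C_of_field,
      Fermat.Agent.S24.CoeffBC.coeffMap_algebraMap']

/-- **(W), final step.** `x ∈ F_L` is a nonzero constant times a Gauss unit `g`; `g` is
congruent modulo the maximal ideal of the Gauss valuation ring to a function integral over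
`W[j]` and to a function integral over the cusp chart (multiplier form).  Then the image of
`x` in `F_ℚ̄` satisfies the conclusion of `TorsionFree.ConstReduction`. -/
theorem constReduction_of_charts
    [IsAlgClosed (IsLocalRing.ResidueField ↥(A.comap ι))] (hℓN : ¬ ℓ ∣ N)
    (x : Fermat.Agent.S24.FF L N) (a : L) (ha : a ≠ 0) (g : LaurentSeries L)
    (hg : g ∈ contentRing (A.comap ι)) (hgu : red (A.comap ι) ⟨g, hg⟩ ≠ 0)
    (hxg : (x : LaurentSeries L) = HahnSeries.C a * g)
    (e₁ e₂ : Fermat.Agent.S24.FF L N) (he₁ : (evF (A.comap ι) N).IsIntegralElem e₁)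
    (u : (↥(A.comap ι))[X]) (hu : IsUnit (u.coeff 0))
    (he₂ : (evFinf (A.comap ι) N).IsIntegralElem (evFinf (A.comap ι) N u * e₂))
    (hc₁ : RedEq (A.comap ι) g e₁) (hc₂ : RedEq (A.comap ι) g e₂) :
    ∃ (c : Qb) (Y₁ Y₂ : LaurentSeries A)
      (h₁ : Witness.IsMem A (IsLocalRing.residue A) N Y₁)
      (h₂ : Witness.IsMem A (IsLocalRing.residue A) N Y₂),
      c ≠ 0 ∧ coeffMap (IsLocalRing.residue A) Y₁ = coeffMap (IsLocalRing.residue A) Y₂ ∧
      coeffMap (IsLocalRing.residue A) Y₁ ≠ 0 ∧
      Fermat.Agent.S24.CoeffBC.bc ι (modularFunctionFieldFull N) x =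
        algebraMap Qb (modularFunctionFieldBar N) c *
          (Witness.toBar Y₁ h₁ / Witness.toBar Y₂ h₂) := by
  obtain ⟨c', hc'⟩ := red_const_of_int (A.comap ι) N ℓ hℓN hg he₁ hu he₂ hc₁ hc₂
  refine exists_witness_of_red_const A N ℓ ι hℓN x a ha g hg hxg c' ?_ hc'
  rintro rfl
  exact hgu (by rw [hc', map_zero])

/-- **(W), final step, cusp-chart form**: the second chart is given as
`(1 - 1728/j)^m · e₂` integral over `W[1/j]`. -/
theorem constReduction_of_charts'
    [IsAlgClosed (IsLocalRing.ResidueField ↥(A.comap ι))] (hℓN : ¬ ℓ ∣ N)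
    (x : Fermat.Agent.S24.FF L N) (a : L) (ha : a ≠ 0) (g : LaurentSeries L)
    (hg : g ∈ contentRing (A.comap ι)) (hgu : red (A.comap ι) ⟨g, hg⟩ ≠ 0)
    (hxg : (x : LaurentSeries L) = HahnSeries.C a * g)
    (e₁ e₂ : Fermat.Agent.S24.FF L N) (he₁ : (evF (A.comap ι) N).IsIntegralElem e₁)
    (m : ℕ) (he₂ : (evFinf (A.comap ι) N).IsIntegralElem
      ((1 - 1728 * (Fermat.Agent.S24.jBC L N)⁻¹) ^ m * e₂))
    (hc₁ : RedEq (A.comap ι) g e₁) (hc₂ : RedEq (A.comap ι) g e₂) :
    ∃ (c : Qb) (Y₁ Y₂ : LaurentSeries A)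
      (h₁ : Witness.IsMem A (IsLocalRing.residue A) N Y₁)
      (h₂ : Witness.IsMem A (IsLocalRing.residue A) N Y₂),
      c ≠ 0 ∧ coeffMap (IsLocalRing.residue A) Y₁ = coeffMap (IsLocalRing.residue A) Y₂ ∧
      coeffMap (IsLocalRing.residue A) Y₁ ≠ 0 ∧
      Fermat.Agent.S24.CoeffBC.bc ι (modularFunctionFieldFull N) x =
        algebraMap Qb (modularFunctionFieldBar N) c *
          (Witness.toBar Y₁ h₁ / Witness.toBar Y₂ h₂) := by
  refine constReduction_of_charts A N ℓ ι hℓN x a ha g hg hgu hxg e₁ e₂ he₁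
    ((1 - 1728 * X) ^ m) (isUnit_coeff_cuspMul (A.comap ι) m) ?_ hc₁ hc₂
  rw [evFinf_cuspMul]
  exact he₂

end Lift

end Fermat.Agent.S37.ConstRed
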