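import Mathlib
import Fermat.Agent.S37.GaussPrime
import Fermat.Agent.S18.GaussFull


/-!
# S37, Stage 3: normal form `f = c · g`, `g = b / a` on both charts

Every nonzero `x ∈ FF L N` is a nonzero constant times a Gauss unit `g`, and on each of the two
charts `g = b / a` with `a, b` chart-integral and not divisible by the uniformiser.
-/

set_option autoImplicit false
set_option linter.unusedSectionVars false
set_option linter.style.haveILetI false

noncomputable section

namespace Fermat.Agent.S37.GaussNormal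

open Polynomial ModularCurve Fermat.Agent.S18 Fermat.Agent.S18.Gauss Fermat.Agent.S37.GaussPrime

variable {L : Type*} [Field L] [Algebra ℚ L] (W : ValuationSubring L)
  (N : ℕ) [NeZero N]

section Red

theorem coe_evF_mem (S : (↥W)[X]) :
    ((evF W N S : Fermat.Agent.S24.FF L N) : LaurentSeries L) ∈ contentRing W :=
  evL_mem_contentRing W S

theorem red_evF_ne_zero (S : (↥W)[X]) (hS : S.map (IsLocalRing.residue W) ≠ 0) :
    red W ⟨((evF W N S : Fermat.Agent.S24.FF L N) : LaurentSeries L), coe_evF_mem W N S⟩ ≠ 0 := by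
  intro h0
  apply hS
  rw [← redJ_eq_zero_iff]
  exact h0

theorem coe_evFinf_mem (S : (↥W)[X]) :
    ((evFinf W N S : Fermat.Agent.S24.FF L N) : LaurentSeries L) ∈ contentRing W :=
  evG_mem_contentRing W (jInv_mem_contentRing W) S

theorem red_evFinf_ne_zero (S : (↥W)[X]) (hS : S.map (IsLocalRing.residue W) ≠ 0) :
    red W ⟨((evFinf W N S : Fermat.Agent.S24.FF L N) : LaurentSeries L),
      coe_evFinf_mem W N S⟩ ≠ 0 := by
  intro h0
  exact hS (gJ_eq_zero W (jInv_mem_contentRing W) (htr_inf W) h0)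

/-- The reduction is multiplicative on elements of `FF L N` with integral expansion. -/
theorem red_mul_FF (a g : Fermat.Agent.S24.FF L N) (ha : (a : LaurentSeries L) ∈ contentRing W)
    (hg : (g : LaurentSeries L) ∈ contentRing W) :
    ∃ h : ((a * g : Fermat.Agent.S24.FF L N) : LaurentSeries L) ∈ contentRing W,
      red W ⟨_, h⟩ = red W ⟨a, ha⟩ * red W ⟨g, hg⟩ := by
  refine ⟨mul_mem ha hg, ?_⟩
  rw [← map_mul]
  rfl

end Red

section Main

variable [IsDiscreteValuationRing W] (ℓ : ℕ) [Fact ℓ.Prime]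
  [CharP (IsLocalRing.ResidueField W) ℓ] [IsAlgClosed (IsLocalRing.ResidueField W)]

/-- **(N0)** Every nonzero element of `FF L N` is a nonzero constant times a Gauss unit. -/
theorem exists_normal_form (hℓN : ¬ ℓ ∣ N) (x : Fermat.Agent.S24.FF L N) (hx : x ≠ 0) :
    ∃ (c : L) (g : Fermat.Agent.S24.FF L N) (hg : (g : LaurentSeries L) ∈ contentRing W),
      c ≠ 0 ∧ red W ⟨g, hg⟩ ≠ 0 ∧ x = algebraMap L (Fermat.Agent.S24.FF L N) c * g := by
  have hx0 : (x : LaurentSeries L) ≠ 0 := fun h => hx (Subtype.ext h)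
  obtain ⟨a, y, hy, ha, hred, hxy⟩ := exists_const_mul_unit_full W N ℓ hℓN x.2 hx0
  have hc0 : algebraMap L (Fermat.Agent.S24.FF L N) a ≠ 0 := by
    rw [Ne, map_eq_zero]
    exact ha
  have hcoe : ((algebraMap L (Fermat.Agent.S24.FF L N) a : Fermat.Agent.S24.FF L N) :
      LaurentSeries L) = HahnSeries.C a := by
    rw [← Fermat.Agent.S28.Content.algebraMap_eq_C_of_field]
    rfl
  have hCa : (HahnSeries.C a : LaurentSeries L) ≠ 0 := by
    rw [← hcoe]
    exact fun h => hc0 (Subtype.ext h)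
  have e : (((algebraMap L (Fermat.Agent.S24.FF L N) a)⁻¹ * x : Fermat.Agent.S24.FF L N) :
      LaurentSeries L) = y := by
    show ((algebraMap L (Fermat.Agent.S24.FF L N) a : Fermat.Agent.S24.FF L N) :
      LaurentSeries L)⁻¹ * (x : LaurentSeries L) = y
    rw [hcoe, hxy, inv_mul_cancel_left₀ hCa]
  have hyW := goodRing_le_contentRing W N hy
  refine ⟨a, (algebraMap L (Fermat.Agent.S24.FF L N) a)⁻¹ * x, by rw [e]; exact hyW, ha, ?_, ?_⟩
  · have h2 : (⟨(((algebraMap L (Fermat.Agent.S24.FF L N) a)⁻¹ * x :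
        Fermat.Agent.S24.FF L N) : LaurentSeries L), by rw [e]; exact hyW⟩ : contentRing W) =
        ⟨y, hyW⟩ := Subtype.ext e
    rw [h2]
    exact hred
  · rw [mul_inv_cancel_left₀ hc0]

/-- **(N1)** On the finite chart, an element with integral expansion is `b / a` with `a, b`
integral over `W[j]` and `a` a Gauss unit. -/
theorem exists_fraction_fin (hℓN : ¬ ℓ ∣ N) (g : Fermat.Agent.S24.FF L N)
    (hg : (g : LaurentSeries L) ∈ contentRing W) :
    ∃ a b : Fermat.Agent.S24.FF L N, (evF W N).IsIntegralElem a ∧ (evF W N).IsIntegralElem b ∧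
      b = a * g ∧ ∃ ha : (a : LaurentSeries L) ∈ contentRing W, red W ⟨a, ha⟩ ≠ 0 := by
  obtain ⟨S, hS, hSg⟩ := isGaussInt_of_mem W N ℓ hℓN g hg
  exact ⟨evF W N S, evF W N S * g, (evF W N).isIntegralElem_map, hSg, rfl, coe_evF_mem W N S,
    red_evF_ne_zero W N S hS⟩

/-- **(N2)** On the chart at infinity, an element with integral expansion is `b / a` with
`a, b` integral over `W[1/j]` and `a` a Gauss unit. -/
theorem exists_fraction_inf (hℓN : ¬ ℓ ∣ N) (g : Fermat.Agent.S24.FF L N)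
    (hg : (g : LaurentSeries L) ∈ contentRing W) :
    ∃ a b : Fermat.Agent.S24.FF L N, (evFinf W N).IsIntegralElem a ∧
      (evFinf W N).IsIntegralElem b ∧
      b = a * g ∧ ∃ ha : (a : LaurentSeries L) ∈ contentRing W, red W ⟨a, ha⟩ ≠ 0 := by
  obtain ⟨S, hS, hSg⟩ := (isGaussInt_inf_iff W N ℓ hℓN g).mpr hg
  exact ⟨evFinf W N S, evFinf W N S * g, (evFinf W N).isIntegralElem_map, hSg, rfl,
    coe_evFinf_mem W N S, red_evFinf_ne_zero W N S hS⟩

end Main

/-! ### Forms on an integral closure -/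

section Closure

variable [IsDiscreteValuationRing W]

variable {W N} in
/-- Divisibility by the uniformiser in the chart ring is detected by the reduction. -/
theorem dvd_iff_red_eq_zero {D B : Type*} [CommRing D] [CommRing B] [Algebra D B]
    [Algebra D (Fermat.Agent.S24.FF L N)] [Algebra B (Fermat.Agent.S24.FF L N)]
    [IsScalarTower D B (Fermat.Agent.S24.FF L N)]
    [IsIntegralClosure B D (Fermat.Agent.S24.FF L N)] {ϖ : W}
    (hI : IsSat W N ϖ (fun x : Fermat.Agent.S24.FF L N => IsIntegral D x))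
    (hϖ : Irreducible ϖ) (π : D)
    (hπ : algebraMap D (Fermat.Agent.S24.FF L N) π =
      algebraMap L (Fermat.Agent.S24.FF L N) ((ϖ : W) : L)) (b : B)
    (hb : ((algebraMap B (Fermat.Agent.S24.FF L N) b : Fermat.Agent.S24.FF L N) :
      LaurentSeries L) ∈ contentRing W) :
    algebraMap D B π ∣ b ↔ red W ⟨_, hb⟩ = 0 := by
  have hbI : IsIntegral D (algebraMap B (Fermat.Agent.S24.FF L N) b) :=
    IsIntegralClosure.isIntegral_iff (A := B) |>.mpr ⟨b, rfl⟩
  constructor
  · rintro ⟨b₁, rfl⟩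
    have hb₁I : IsIntegral D (algebraMap B (Fermat.Agent.S24.FF L N) b₁) :=
      IsIntegralClosure.isIntegral_iff (A := B) |>.mpr ⟨b₁, rfl⟩
    have h := (hI.red_eq_zero_iff hϖ _ hbI).mpr ⟨_, hb₁I, by
      rw [map_mul, ← IsScalarTower.algebraMap_apply, hπ]⟩
    exact h
  · intro h0
    obtain ⟨x₁, hx₁, e⟩ := exists_eq_unif_mul_of_red hϖ _ hb h0
    exact dvd_of_isSat hI π hπ b x₁ hx₁ e

variable {W N} in
/-- Lifting `b = a * g` to an integral closure: the generic step of (N3). -/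
theorem exists_fraction_closure {D B : Type*} [CommRing D] [CommRing B] [Algebra D B]
    [Algebra D (Fermat.Agent.S24.FF L N)] [Algebra B (Fermat.Agent.S24.FF L N)]
    [IsScalarTower D B (Fermat.Agent.S24.FF L N)]
    [IsIntegralClosure B D (Fermat.Agent.S24.FF L N)] {ϖ : W}
    (hI : IsSat W N ϖ (fun x : Fermat.Agent.S24.FF L N => IsIntegral D x))
    (hϖ : Irreducible ϖ) (π : D)
    (hπ : algebraMap D (Fermat.Agent.S24.FF L N) π =
      algebraMap L (Fermat.Agent.S24.FF L N) ((ϖ : W) : L))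
    (g : Fermat.Agent.S24.FF L N) (hg : (g : LaurentSeries L) ∈ contentRing W)
    (hgu : red W ⟨g, hg⟩ ≠ 0)
    (a b : Fermat.Agent.S24.FF L N) (haI : IsIntegral D a) (hbI : IsIntegral D b)
    (hab : b = a * g) (ha : (a : LaurentSeries L) ∈ contentRing W)
    (hau : red W ⟨a, ha⟩ ≠ 0) :
    ∃ a' b' : B, ¬ algebraMap D B π ∣ a' ∧ ¬ algebraMap D B π ∣ b' ∧
      algebraMap B (Fermat.Agent.S24.FF L N) a' = a ∧
      algebraMap B (Fermat.Agent.S24.FF L N) b' = b ∧
      algebraMap B (Fermat.Agent.S24.FF L N) b' = algebraMap B (Fermat.Agent.S24.FF L N) a' * g := by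
  obtain ⟨a', rfl⟩ := IsIntegralClosure.isIntegral_iff (A := B) |>.mp haI
  obtain ⟨b', rfl⟩ := IsIntegralClosure.isIntegral_iff (A := B) |>.mp hbI
  refine ⟨a', b', ?_, ?_, rfl, rfl, hab⟩
  · rw [dvd_iff_red_eq_zero hI hϖ π hπ a' ha]
    exact hau
  · obtain ⟨hm, hr⟩ := red_mul_FF W N _ g ha hg
    have hb : ((algebraMap B (Fermat.Agent.S24.FF L N) b' : Fermat.Agent.S24.FF L N) :
        LaurentSeries L) ∈ contentRing W := by
      rw [hab]
      exact hm
    rw [dvd_iff_red_eq_zero hI hϖ π hπ b' hb]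
    have e0 : ((algebraMap B (Fermat.Agent.S24.FF L N) b' : Fermat.Agent.S24.FF L N) :
        LaurentSeries L) = ((algebraMap B (Fermat.Agent.S24.FF L N) a' * g :
          Fermat.Agent.S24.FF L N) : LaurentSeries L) := congrArg Subtype.val hab
    have e : (⟨_, hb⟩ : contentRing W) = ⟨_, hm⟩ := Subtype.ext e0
    rw [e, hr]
    exact mul_ne_zero hau hgu

variable (ℓ : ℕ) [Fact ℓ.Prime] [CharP (IsLocalRing.ResidueField W) ℓ]
  [IsAlgClosed (IsLocalRing.ResidueField W)]

/-- **(N3), finite chart**: a Gauss unit is `b / a` with `a, b` in the integral closure `B` of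
`W[X]` (`X ↦ j`), neither divisible by `C ϖ`. -/
theorem exists_fraction_closure_fin (hℓN : ¬ ℓ ∣ N) {ϖ : W} (hϖ : Irreducible ϖ)
    [Algebra (↥W)[X] (Fermat.Agent.S24.FF L N)]
    (halg : algebraMap (↥W)[X] (Fermat.Agent.S24.FF L N) = evF W N)
    (B : Type*) [CommRing B] [Algebra (↥W)[X] B] [Algebra B (Fermat.Agent.S24.FF L N)]
    [IsScalarTower (↥W)[X] B (Fermat.Agent.S24.FF L N)]
    [IsIntegralClosure B (↥W)[X] (Fermat.Agent.S24.FF L N)]
    (g : Fermat.Agent.S24.FF L N) (hg : (g : LaurentSeries L) ∈ contentRing W)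
    (hgu : red W ⟨g, hg⟩ ≠ 0) :
    ∃ a b : B, ¬ algebraMap (↥W)[X] B (C ϖ) ∣ a ∧ ¬ algebraMap (↥W)[X] B (C ϖ) ∣ b ∧
      algebraMap B (Fermat.Agent.S24.FF L N) b = algebraMap B (Fermat.Agent.S24.FF L N) a * g := by
  obtain ⟨a, b, haI, hbI, hab, ha, hau⟩ := exists_fraction_fin W N ℓ hℓN g hg
  have haI' : IsIntegral (↥W)[X] a := by
    show (algebraMap (↥W)[X] (Fermat.Agent.S24.FF L N)).IsIntegralElem a
    rw [halg]
    exact haI
  have hbI' : IsIntegral (↥W)[X] b := by
    show (algebraMap (↥W)[X] (Fermat.Agent.S24.FF L N)).IsIntegralElem b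
    rw [halg]
    exact hbI
  obtain ⟨a', b', h1, h2, -, -, h3⟩ := exists_fraction_closure (B := B)
    (isSat_fin W N ℓ hℓN hϖ halg) hϖ (C ϖ) (by rw [halg]; exact evF_C W N ϖ) g hg hgu a b
    haI' hbI' hab ha hau
  exact ⟨a', b', h1, h2, h3⟩

open Fermat.Agent.S18.Cusp in
/-- **(N3), cusp chart**: a Gauss unit is `b / a` with `a, b` in the integral closure `B` of
`CuspBase W` (`t ↦ 1/j`), neither divisible by the uniformiser. -/
theorem exists_fraction_closure_cusp (hℓN : ¬ ℓ ∣ N) {ϖ : W} (hϖ : Irreducible ϖ)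
    [Algebra (CuspBase ↥W) (Fermat.Agent.S24.FF L N)]
    (halg : ∀ p : (↥W)[X], algebraMap (CuspBase ↥W) (Fermat.Agent.S24.FF L N)
      (algebraMap (↥W)[X] (CuspBase ↥W) p) = evFinf W N p)
    (B : Type*) [CommRing B] [Algebra (CuspBase ↥W) B] [Algebra B (Fermat.Agent.S24.FF L N)]
    [IsScalarTower (CuspBase ↥W) B (Fermat.Agent.S24.FF L N)]
    [IsIntegralClosure B (CuspBase ↥W) (Fermat.Agent.S24.FF L N)]
    (g : Fermat.Agent.S24.FF L N) (hg : (g : LaurentSeries L) ∈ contentRing W)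
    (hgu : red W ⟨g, hg⟩ ≠ 0) :
    ∃ a b : B, ¬ algebraMap (CuspBase ↥W) B (algebraMap ↥W (CuspBase ↥W) ϖ) ∣ a ∧
      ¬ algebraMap (CuspBase ↥W) B (algebraMap ↥W (CuspBase ↥W) ϖ) ∣ b ∧
      algebraMap B (Fermat.Agent.S24.FF L N) b = algebraMap B (Fermat.Agent.S24.FF L N) a * g := by
  obtain ⟨a, b, haI, hbI, hab, ha, hau⟩ := exists_fraction_inf W N ℓ hℓN g hg
  have haI' : IsIntegral (CuspBase ↥W) a :=
    (isIntegral_cuspBase_iff W N halg a).mpr ⟨0, by rw [pow_zero, one_mul]; exact haI⟩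
  have hbI' : IsIntegral (CuspBase ↥W) b :=
    (isIntegral_cuspBase_iff W N halg b).mpr ⟨0, by rw [pow_zero, one_mul]; exact hbI⟩
  obtain ⟨a', b', h1, h2, -, -, h3⟩ := exists_fraction_closure (B := B)
    (isSat_cuspBase W N ℓ hℓN hϖ halg) hϖ (algebraMap ↥W (CuspBase ↥W) ϖ)
    (by
      have h := halg (C ϖ)
      rw [evFinf_C] at h
      rw [← h]
      rfl) g hg hgu a b haI' hbI' hab ha hau
  exact ⟨a', b', h1, h2, h3⟩

end Closure

end Fermat.Agent.S37.GaussNormal
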