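import Mathlib
import Fermat.Agent.S37.GaussNormal


/-!
# S37, Stage 3: (P3) and (RED) for the two chart rings, in the shapes consumed by `WChart`

* (RED): elements of the chart ring have integral `q`-expansion, and an element not divisible by
  the uniformiser has nonzero reduction;
* (P3): a nonzero `x ∈ FF L N` is `c · g` with `g` a Gauss unit which is a quotient `b / a` of
  elements not divisible by the uniformiser on each chart (same `c`, `g` for both charts).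
-/

set_option autoImplicit false
set_option linter.unusedSectionVars false
set_option linter.style.haveILetI false

noncomputable section

namespace Fermat.Agent.S37.GaussRed

open Polynomial ModularCurve Fermat.Agent.S18 Fermat.Agent.S18.Gauss Fermat.Agent.S37.GaussPrime
  Fermat.Agent.S37.GaussNormal Fermat.Agent.S18.Cusp

variable {L : Type*} [Field L] [Algebra ℚ L] (W : ValuationSubring L)
  (N : ℕ) [NeZero N] [IsDiscreteValuationRing W] (ℓ : ℕ) [Fact ℓ.Prime]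
  [CharP (IsLocalRing.ResidueField W) ℓ] [IsAlgClosed (IsLocalRing.ResidueField W)]

section Fin

variable [Algebra (↥W)[X] (Fermat.Agent.S24.FF L N)]
  (B : Type*) [CommRing B] [Algebra (↥W)[X] B] [Algebra B (Fermat.Agent.S24.FF L N)]
  [IsScalarTower (↥W)[X] B (Fermat.Agent.S24.FF L N)]
  [IsIntegralClosure B (↥W)[X] (Fermat.Agent.S24.FF L N)]

/-- (RED), finite chart: elements of the chart ring have integral `q`-expansion. -/
theorem mem_contentRing_fin (hℓN : ¬ ℓ ∣ N)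
    (halg : algebraMap (↥W)[X] (Fermat.Agent.S24.FF L N) = evF W N) (a : B) :
    ((algebraMap B (Fermat.Agent.S24.FF L N) a : Fermat.Agent.S24.FF L N) : LaurentSeries L) ∈
      contentRing W := by
  have ha : (evF W N).IsIntegralElem (algebraMap B (Fermat.Agent.S24.FF L N) a) := by
    have h : IsIntegral (↥W)[X] (algebraMap B (Fermat.Agent.S24.FF L N) a) :=
      IsIntegralClosure.isIntegral_iff (A := B) |>.mpr ⟨a, rfl⟩
    have h' : (algebraMap (↥W)[X] (Fermat.Agent.S24.FF L N)).IsIntegralElem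
        (algebraMap B (Fermat.Agent.S24.FF L N) a) := h
    rwa [halg] at h'
  exact (isChartEv_fin W N ℓ hℓN).mem_of_int _ ha

/-- (RED), finite chart: divisibility by `C ϖ` is the vanishing of the reduction. -/
theorem dvd_iff_red_fin (hℓN : ¬ ℓ ∣ N) {ϖ : W} (hϖ : Irreducible ϖ)
    (halg : algebraMap (↥W)[X] (Fermat.Agent.S24.FF L N) = evF W N) (a : B) :
    algebraMap (↥W)[X] B (C ϖ) ∣ a ↔
      red W ⟨_, mem_contentRing_fin W N ℓ B hℓN halg a⟩ = 0 :=
  dvd_iff_red_eq_zero (isSat_fin W N ℓ hℓN hϖ halg) hϖ (C ϖ)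
    (by rw [halg]; exact evF_C W N ϖ) a _

/-- (RED), finite chart: an element not divisible by `C ϖ` is a Gauss unit. -/
theorem red_ne_zero_fin (hℓN : ¬ ℓ ∣ N) {ϖ : W} (hϖ : Irreducible ϖ)
    (halg : algebraMap (↥W)[X] (Fermat.Agent.S24.FF L N) = evF W N) (a : B)
    (ha : ¬ algebraMap (↥W)[X] B (C ϖ) ∣ a) :
    red W ⟨_, mem_contentRing_fin W N ℓ B hℓN halg a⟩ ≠ 0 :=
  fun h => ha ((dvd_iff_red_fin W N ℓ B hℓN hϖ halg a).mpr h)

end Fin

section CuspChart

variable [Algebra (CuspBase ↥W) (Fermat.Agent.S24.FF L N)]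
  (B : Type*) [CommRing B] [Algebra (CuspBase ↥W) B] [Algebra B (Fermat.Agent.S24.FF L N)]
  [IsScalarTower (CuspBase ↥W) B (Fermat.Agent.S24.FF L N)]
  [IsIntegralClosure B (CuspBase ↥W) (Fermat.Agent.S24.FF L N)]

/-- (RED), cusp chart: elements of the chart ring have integral `q`-expansion. -/
theorem mem_contentRing_cusp (hℓN : ¬ ℓ ∣ N)
    (halg : ∀ p : (↥W)[X], algebraMap (CuspBase ↥W) (Fermat.Agent.S24.FF L N)
      (algebraMap (↥W)[X] (CuspBase ↥W) p) = evFinf W N p) (a : B) :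
    ((algebraMap B (Fermat.Agent.S24.FF L N) a : Fermat.Agent.S24.FF L N) : LaurentSeries L) ∈
      contentRing W := by
  obtain ⟨ϖ, hϖ⟩ := IsDiscreteValuationRing.exists_irreducible ↥W
  have h : IsIntegral (CuspBase ↥W) (algebraMap B (Fermat.Agent.S24.FF L N) a) :=
    IsIntegralClosure.isIntegral_iff (A := B) |>.mpr ⟨a, rfl⟩
  exact (isSat_cuspBase W N ℓ hℓN hϖ halg).mem _ h

/-- (RED), cusp chart: divisibility by the uniformiser is the vanishing of the reduction. -/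
theorem dvd_iff_red_cusp (hℓN : ¬ ℓ ∣ N) {ϖ : W} (hϖ : Irreducible ϖ)
    (halg : ∀ p : (↥W)[X], algebraMap (CuspBase ↥W) (Fermat.Agent.S24.FF L N)
      (algebraMap (↥W)[X] (CuspBase ↥W) p) = evFinf W N p) (a : B) :
    algebraMap (CuspBase ↥W) B (algebraMap ↥W (CuspBase ↥W) ϖ) ∣ a ↔
      red W ⟨_, mem_contentRing_cusp W N ℓ B hℓN halg a⟩ = 0 :=
  dvd_iff_red_eq_zero (isSat_cuspBase W N ℓ hℓN hϖ halg) hϖ (algebraMap ↥W (CuspBase ↥W) ϖ)
    (by
      have h := halg (C ϖ)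
      rw [evFinf_C] at h
      rw [← h]
      rfl) a _

/-- (RED), cusp chart: an element not divisible by the uniformiser is a Gauss unit. -/
theorem red_ne_zero_cusp (hℓN : ¬ ℓ ∣ N) {ϖ : W} (hϖ : Irreducible ϖ)
    (halg : ∀ p : (↥W)[X], algebraMap (CuspBase ↥W) (Fermat.Agent.S24.FF L N)
      (algebraMap (↥W)[X] (CuspBase ↥W) p) = evFinf W N p) (a : B)
    (ha : ¬ algebraMap (CuspBase ↥W) B (algebraMap ↥W (CuspBase ↥W) ϖ) ∣ a) :
    red W ⟨_, mem_contentRing_cusp W N ℓ B hℓN halg a⟩ ≠ 0 :=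
  fun h => ha ((dvd_iff_red_cusp W N ℓ B hℓN hϖ halg a).mpr h)

end CuspChart

/-- **(P3), both charts at once**: a nonzero `x ∈ FF L N` is `c · g`, `c ∈ Lˣ`, `g` a Gauss unit,
and on each chart `g = b / a` with `a, b` in the chart ring, not divisible by the uniformiser. -/
theorem exists_fractions (hℓN : ¬ ℓ ∣ N) {ϖ : W} (hϖ : Irreducible ϖ)
    [Algebra (↥W)[X] (Fermat.Agent.S24.FF L N)]
    (halg₁ : algebraMap (↥W)[X] (Fermat.Agent.S24.FF L N) = evF W N)
    (B₁ : Type*) [CommRing B₁] [Algebra (↥W)[X] B₁] [Algebra B₁ (Fermat.Agent.S24.FF L N)]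
    [IsScalarTower (↥W)[X] B₁ (Fermat.Agent.S24.FF L N)]
    [IsIntegralClosure B₁ (↥W)[X] (Fermat.Agent.S24.FF L N)]
    [Algebra (CuspBase ↥W) (Fermat.Agent.S24.FF L N)]
    (halg₂ : ∀ p : (↥W)[X], algebraMap (CuspBase ↥W) (Fermat.Agent.S24.FF L N)
      (algebraMap (↥W)[X] (CuspBase ↥W) p) = evFinf W N p)
    (B₂ : Type*) [CommRing B₂] [Algebra (CuspBase ↥W) B₂] [Algebra B₂ (Fermat.Agent.S24.FF L N)]
    [IsScalarTower (CuspBase ↥W) B₂ (Fermat.Agent.S24.FF L N)]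
    [IsIntegralClosure B₂ (CuspBase ↥W) (Fermat.Agent.S24.FF L N)]
    (x : Fermat.Agent.S24.FF L N) (hx : x ≠ 0) :
    ∃ (c : L) (g : Fermat.Agent.S24.FF L N) (hg : (g : LaurentSeries L) ∈ contentRing W),
      c ≠ 0 ∧ red W ⟨g, hg⟩ ≠ 0 ∧ x = algebraMap L (Fermat.Agent.S24.FF L N) c * g ∧
      (∃ a b : B₁, ¬ algebraMap (↥W)[X] B₁ (C ϖ) ∣ a ∧ ¬ algebraMap (↥W)[X] B₁ (C ϖ) ∣ b ∧
        algebraMap B₁ (Fermat.Agent.S24.FF L N) b =
          algebraMap B₁ (Fermat.Agent.S24.FF L N) a * g ∧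
        x * algebraMap B₁ (Fermat.Agent.S24.FF L N) a =
          algebraMap L (Fermat.Agent.S24.FF L N) c * algebraMap B₁ (Fermat.Agent.S24.FF L N) b) ∧
      (∃ a b : B₂, ¬ algebraMap (CuspBase ↥W) B₂ (algebraMap ↥W (CuspBase ↥W) ϖ) ∣ a ∧
        ¬ algebraMap (CuspBase ↥W) B₂ (algebraMap ↥W (CuspBase ↥W) ϖ) ∣ b ∧
        algebraMap B₂ (Fermat.Agent.S24.FF L N) b =
          algebraMap B₂ (Fermat.Agent.S24.FF L N) a * g ∧
        x * algebraMap B₂ (Fermat.Agent.S24.FF L N) a =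
          algebraMap L (Fermat.Agent.S24.FF L N) c * algebraMap B₂ (Fermat.Agent.S24.FF L N) b) := by
  obtain ⟨c, g, hg, hc, hgu, hxg⟩ := exists_normal_form W N ℓ hℓN x hx
  obtain ⟨a₁, b₁, h1, h2, h3⟩ := exists_fraction_closure_fin W N ℓ hℓN hϖ halg₁ B₁ g hg hgu
  obtain ⟨a₂, b₂, h4, h5, h6⟩ := exists_fraction_closure_cusp W N ℓ hℓN hϖ halg₂ B₂ g hg hgu
  refine ⟨c, g, hg, hc, hgu, hxg, ⟨a₁, b₁, h1, h2, h3, ?_⟩, ⟨a₂, b₂, h4, h5, h6, ?_⟩⟩
  · rw [h3, hxg]; ring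
  · rw [h6, hxg]; ring

end Fermat.Agent.S37.GaussRed
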