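/-
S37, (W) tail adapter (helper1): from the output of `WChart` on the two chart rings (abstract
integral closures `B₁` of `W[j]` and `B₂` of `W[1/j, 1/(1 - 1728/j)]` in `FF L N`) to the
conclusion of `TorsionFree.ConstReduction`.

Input per chart: `a, b, e ∈ B` with `π ∤ a`, `b = a · g` in `FF L N` and `π ∣ b - e · a`, where
`g` is the common Gauss-unit part of `x = c · g`.
-/
import Mathlib
import Fermat.Agent.S37.ConstRed
import Fermat.Agent.S37.GaussRed

set_option autoImplicit false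

noncomputable section

namespace Fermat.Agent.S37.ConstRedB

open ModularCurve Polynomial Fermat.Agent.S18 Fermat.Agent.S18.Gauss Fermat.Agent.S18.Cusp

local notation "Qb" => AlgebraicClosure ℚ

section Level

variable {L : Type*} [Field L] [Algebra ℚ L] (W : ValuationSubring L) (N : ℕ) [NeZero N]
  [IsDiscreteValuationRing W] (ℓ : ℕ) [Fact ℓ.Prime] [CharP (IsLocalRing.ResidueField W) ℓ]
  [IsAlgClosed (IsLocalRing.ResidueField W)]

/-- **Finite chart.** `π ∤ a`, `b = a · g`, `π ∣ b - e · a` in the chart ring give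
`g ≡ e` modulo the maximal ideal of the Gauss valuation ring, and `e` is integral over `W[j]`. -/
theorem redEq_fin (hℓN : ¬ ℓ ∣ N) {ϖ : W} (hϖ : Irreducible ϖ)
    [Algebra (↥W)[X] (Fermat.Agent.S24.FF L N)]
    (halg : algebraMap (↥W)[X] (Fermat.Agent.S24.FF L N) = evF W N)
    (B : Type*) [CommRing B] [Algebra (↥W)[X] B] [Algebra B (Fermat.Agent.S24.FF L N)]
    [IsScalarTower (↥W)[X] B (Fermat.Agent.S24.FF L N)]
    [IsIntegralClosure B (↥W)[X] (Fermat.Agent.S24.FF L N)]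
    (g : Fermat.Agent.S24.FF L N) (a b e : B) (ha : ¬ algebraMap (↥W)[X] B (C ϖ) ∣ a)
    (hab : algebraMap B (Fermat.Agent.S24.FF L N) b =
      algebraMap B (Fermat.Agent.S24.FF L N) a * g)
    (he : algebraMap (↥W)[X] B (C ϖ) ∣ b - e * a) :
    Fermat.Agent.S37.ConstRed.RedEq W (g : LaurentSeries L)
        ((algebraMap B (Fermat.Agent.S24.FF L N) e : Fermat.Agent.S24.FF L N) :
          LaurentSeries L) ∧
      (evF W N).IsIntegralElem (algebraMap B (Fermat.Agent.S24.FF L N) e) := by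
  constructor
  · obtain ⟨d, hd⟩ := he
    have hared := Fermat.Agent.S37.GaussRed.red_ne_zero_fin W N ℓ B hℓN hϖ halg a ha
    have ha0 : algebraMap B (Fermat.Agent.S24.FF L N) a ≠ 0 := by
      intro h0
      apply hared
      have h1 : (⟨((algebraMap B (Fermat.Agent.S24.FF L N) a : Fermat.Agent.S24.FF L N) :
          LaurentSeries L), Fermat.Agent.S37.GaussRed.mem_contentRing_fin W N ℓ B hℓN halg a⟩ :
          contentRing W) = 0 :=
        Subtype.ext (congrArg (fun z : Fermat.Agent.S24.FF L N => (z : LaurentSeries L)) h0)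
      rw [h1, map_zero]
    have hπ : algebraMap B (Fermat.Agent.S24.FF L N) (algebraMap (↥W)[X] B (C ϖ)) =
        algebraMap L (Fermat.Agent.S24.FF L N) ((ϖ : W) : L) := by
      rw [← IsScalarTower.algebraMap_apply, halg, evF_C]
    have h : algebraMap B (Fermat.Agent.S24.FF L N) b -
        algebraMap B (Fermat.Agent.S24.FF L N) e * algebraMap B (Fermat.Agent.S24.FF L N) a =
        algebraMap L (Fermat.Agent.S24.FF L N) ((ϖ : W) : L) *
          algebraMap B (Fermat.Agent.S24.FF L N) d := by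
      rw [← hπ, ← map_mul, ← map_mul, ← map_sub, hd]
    have hg : g = algebraMap B (Fermat.Agent.S24.FF L N) b /
        algebraMap B (Fermat.Agent.S24.FF L N) a := by
      rw [hab, mul_div_cancel_left₀ _ ha0]
    rw [hg]
    exact Fermat.Agent.S37.ConstRed.redEq_div_FF W N ϖ (residue_unif W hϖ)
      (Fermat.Agent.S37.GaussRed.mem_contentRing_fin W N ℓ B hℓN halg a) hared
      (Fermat.Agent.S37.GaussRed.mem_contentRing_fin W N ℓ B hℓN halg d) h
  · have h : IsIntegral (↥W)[X] (algebraMap B (Fermat.Agent.S24.FF L N) e) :=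
      IsIntegralClosure.isIntegral_iff (A := B) |>.mpr ⟨e, rfl⟩
    have h' : (algebraMap (↥W)[X] (Fermat.Agent.S24.FF L N)).IsIntegralElem
        (algebraMap B (Fermat.Agent.S24.FF L N) e) := h
    rwa [halg] at h'

/-- **Cusp chart.** The same over `CuspBase W`; integrality in multiplier form. -/
theorem redEq_cusp (hℓN : ¬ ℓ ∣ N) {ϖ : W} (hϖ : Irreducible ϖ)
    [Algebra (CuspBase ↥W) (Fermat.Agent.S24.FF L N)]
    (halg : ∀ p : (↥W)[X], algebraMap (CuspBase ↥W) (Fermat.Agent.S24.FF L N)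
      (algebraMap (↥W)[X] (CuspBase ↥W) p) = evFinf W N p)
    (B : Type*) [CommRing B] [Algebra (CuspBase ↥W) B] [Algebra B (Fermat.Agent.S24.FF L N)]
    [IsScalarTower (CuspBase ↥W) B (Fermat.Agent.S24.FF L N)]
    [IsIntegralClosure B (CuspBase ↥W) (Fermat.Agent.S24.FF L N)]
    (g : Fermat.Agent.S24.FF L N) (a b e : B)
    (ha : ¬ algebraMap (CuspBase ↥W) B (algebraMap ↥W (CuspBase ↥W) ϖ) ∣ a)
    (hab : algebraMap B (Fermat.Agent.S24.FF L N) b =
      algebraMap B (Fermat.Agent.S24.FF L N) a * g)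
    (he : algebraMap (CuspBase ↥W) B (algebraMap ↥W (CuspBase ↥W) ϖ) ∣ b - e * a) :
    Fermat.Agent.S37.ConstRed.RedEq W (g : LaurentSeries L)
        ((algebraMap B (Fermat.Agent.S24.FF L N) e : Fermat.Agent.S24.FF L N) :
          LaurentSeries L) ∧
      ∃ m : ℕ, (evFinf W N).IsIntegralElem
        ((1 - 1728 * (Fermat.Agent.S24.jBC L N)⁻¹) ^ m *
          algebraMap B (Fermat.Agent.S24.FF L N) e) := by
  constructor
  · obtain ⟨d, hd⟩ := he
    have hared := Fermat.Agent.S37.GaussRed.red_ne_zero_cusp W N ℓ B hℓN hϖ halg a ha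
    have ha0 : algebraMap B (Fermat.Agent.S24.FF L N) a ≠ 0 := by
      intro h0
      apply hared
      have h1 : (⟨((algebraMap B (Fermat.Agent.S24.FF L N) a : Fermat.Agent.S24.FF L N) :
          LaurentSeries L), Fermat.Agent.S37.GaussRed.mem_contentRing_cusp W N ℓ B hℓN halg a⟩ :
          contentRing W) = 0 :=
        Subtype.ext (congrArg (fun z : Fermat.Agent.S24.FF L N => (z : LaurentSeries L)) h0)
      rw [h1, map_zero]
    have hπ : algebraMap B (Fermat.Agent.S24.FF L N)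
        (algebraMap (CuspBase ↥W) B (algebraMap ↥W (CuspBase ↥W) ϖ)) =
        algebraMap L (Fermat.Agent.S24.FF L N) ((ϖ : W) : L) := by
      rw [← IsScalarTower.algebraMap_apply]
      have h := halg (C ϖ)
      rw [evFinf_C] at h
      rw [← h]
      rfl
    have h : algebraMap B (Fermat.Agent.S24.FF L N) b -
        algebraMap B (Fermat.Agent.S24.FF L N) e * algebraMap B (Fermat.Agent.S24.FF L N) a =
        algebraMap L (Fermat.Agent.S24.FF L N) ((ϖ : W) : L) *
          algebraMap B (Fermat.Agent.S24.FF L N) d := by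
      rw [← hπ, ← map_mul, ← map_mul, ← map_sub, hd]
    have hg : g = algebraMap B (Fermat.Agent.S24.FF L N) b /
        algebraMap B (Fermat.Agent.S24.FF L N) a := by
      rw [hab, mul_div_cancel_left₀ _ ha0]
    rw [hg]
    exact Fermat.Agent.S37.ConstRed.redEq_div_FF W N ϖ (residue_unif W hϖ)
      (Fermat.Agent.S37.GaussRed.mem_contentRing_cusp W N ℓ B hℓN halg a) hared
      (Fermat.Agent.S37.GaussRed.mem_contentRing_cusp W N ℓ B hℓN halg d) h
  · have h : IsIntegral (CuspBase ↥W) (algebraMap B (Fermat.Agent.S24.FF L N) e) :=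
      IsIntegralClosure.isIntegral_iff (A := B) |>.mpr ⟨e, rfl⟩
    exact (Fermat.Agent.S37.GaussPrime.isIntegral_cuspBase_iff W N halg _).mp h

end Level

section Top

variable (A : ValuationSubring Qb) (N : ℕ) [NeZero N] (ℓ : ℕ) [Fact ℓ.Prime]
  {L : Type} [Field L] [Algebra ℚ L] (ι : L →+* Qb)
  [IsDiscreteValuationRing ↥(A.comap ι)]
  [CharP (IsLocalRing.ResidueField ↥(A.comap ι)) ℓ]
  [IsAlgClosed (IsLocalRing.ResidueField ↥(A.comap ι))]

/-- **(W), tail.** `x = c · g` with `g` a Gauss unit of `FF L N`; on each of the two chart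
rings `g = b / a` with `π ∤ a` and `b ≡ e · a` modulo `π`.  Then the image of `x` in `F_ℚ̄`
satisfies the conclusion of `TorsionFree.ConstReduction`. -/
theorem constReduction_of_closure (hℓN : ¬ ℓ ∣ N) {ϖ : ↥(A.comap ι)} (hϖ : Irreducible ϖ)
    [Algebra (↥(A.comap ι))[X] (Fermat.Agent.S24.FF L N)]
    (halg₁ : algebraMap (↥(A.comap ι))[X] (Fermat.Agent.S24.FF L N) = evF (A.comap ι) N)
    (B₁ : Type*) [CommRing B₁] [Algebra (↥(A.comap ι))[X] B₁]
    [Algebra B₁ (Fermat.Agent.S24.FF L N)]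
    [IsScalarTower (↥(A.comap ι))[X] B₁ (Fermat.Agent.S24.FF L N)]
    [IsIntegralClosure B₁ (↥(A.comap ι))[X] (Fermat.Agent.S24.FF L N)]
    [Algebra (CuspBase ↥(A.comap ι)) (Fermat.Agent.S24.FF L N)]
    (halg₂ : ∀ p : (↥(A.comap ι))[X], algebraMap (CuspBase ↥(A.comap ι))
      (Fermat.Agent.S24.FF L N) (algebraMap (↥(A.comap ι))[X] (CuspBase ↥(A.comap ι)) p) =
        evFinf (A.comap ι) N p)
    (B₂ : Type*) [CommRing B₂] [Algebra (CuspBase ↥(A.comap ι)) B₂]
    [Algebra B₂ (Fermat.Agent.S24.FF L N)]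
    [IsScalarTower (CuspBase ↥(A.comap ι)) B₂ (Fermat.Agent.S24.FF L N)]
    [IsIntegralClosure B₂ (CuspBase ↥(A.comap ι)) (Fermat.Agent.S24.FF L N)]
    (x : Fermat.Agent.S24.FF L N) (c : L) (hc : c ≠ 0) (g : Fermat.Agent.S24.FF L N)
    (hg : (g : LaurentSeries L) ∈ contentRing (A.comap ι))
    (hgu : red (A.comap ι) ⟨g, hg⟩ ≠ 0)
    (hxg : x = algebraMap L (Fermat.Agent.S24.FF L N) c * g)
    (a₁ b₁ e₁ : B₁) (ha₁ : ¬ algebraMap (↥(A.comap ι))[X] B₁ (C ϖ) ∣ a₁)
    (hab₁ : algebraMap B₁ (Fermat.Agent.S24.FF L N) b₁ =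
      algebraMap B₁ (Fermat.Agent.S24.FF L N) a₁ * g)
    (he₁ : algebraMap (↥(A.comap ι))[X] B₁ (C ϖ) ∣ b₁ - e₁ * a₁)
    (a₂ b₂ e₂ : B₂)
    (ha₂ : ¬ algebraMap (CuspBase ↥(A.comap ι)) B₂
      (algebraMap ↥(A.comap ι) (CuspBase ↥(A.comap ι)) ϖ) ∣ a₂)
    (hab₂ : algebraMap B₂ (Fermat.Agent.S24.FF L N) b₂ =
      algebraMap B₂ (Fermat.Agent.S24.FF L N) a₂ * g)
    (he₂ : algebraMap (CuspBase ↥(A.comap ι)) B₂
      (algebraMap ↥(A.comap ι) (CuspBase ↥(A.comap ι)) ϖ) ∣ b₂ - e₂ * a₂) :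
    ∃ (c' : Qb) (Y₁ Y₂ : LaurentSeries A)
      (h₁ : Witness.IsMem A (IsLocalRing.residue A) N Y₁)
      (h₂ : Witness.IsMem A (IsLocalRing.residue A) N Y₂),
      c' ≠ 0 ∧ coeffMap (IsLocalRing.residue A) Y₁ = coeffMap (IsLocalRing.residue A) Y₂ ∧
      coeffMap (IsLocalRing.residue A) Y₁ ≠ 0 ∧
      Fermat.Agent.S24.CoeffBC.bc ι (modularFunctionFieldFull N) x =
        algebraMap Qb (modularFunctionFieldBar N) c' *
          (Witness.toBar Y₁ h₁ / Witness.toBar Y₂ h₂) := by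
  obtain ⟨hc₁, hi₁⟩ := redEq_fin (A.comap ι) N ℓ hℓN hϖ halg₁ B₁ g a₁ b₁ e₁ ha₁ hab₁ he₁
  obtain ⟨hc₂, m, hi₂⟩ := redEq_cusp (A.comap ι) N ℓ hℓN hϖ halg₂ B₂ g a₂ b₂ e₂ ha₂ hab₂ he₂
  have hxg' : (x : LaurentSeries L) = HahnSeries.C c * (g : LaurentSeries L) := by
    rw [hxg, ← Fermat.Agent.S28.Content.algebraMap_eq_C_of_field]
    rfl
  exact Fermat.Agent.S37.ConstRed.constReduction_of_charts' A N ℓ ι hℓN x c hc g hg hgu hxg'
    _ _ hi₁ m hi₂ hc₁ hc₂

end Top

end Fermat.Agent.S37.ConstRedB
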