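/-
S37, slice T1 (helper1): change of the DVR level `(L₀, ι₀) → (L, ι)` inside `ℚ̄`.

* (a) `exists_base_pair`: a first level `L₀ ⊇ S₀` with all the properties of
  `BaseDVRGeneric.exists_base`, and for every further finite set `S` a second level `L ⊇ S`
  with the same properties together with `τ : L₀ →+* L` over `ℚ̄`.
* (b) the transport `tr := S24.CoeffBC.bc τ (modularFunctionFieldFull N) : FF L₀ N →+* FF L N`:
  compatibility with `bc` to `ℚ̄`, with constants, with `j`; preservation of integrality over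
  the two charts of the `j`-line; preservation of Gauss-integrality, and the reduction.
-/
import Mathlib
import Fermat.Agent.S18.GaussVal
import Fermat.Agent.S18.GaussChart
import Fermat.Agent.S18.BaseDVR
import Fermat.Agent.S18.BaseDVRGeneric
import Fermat.Agent.S24.CoeffBC
import Fermat.Agent.S28.Tower

set_option autoImplicit false

noncomputable section

namespace Fermat.Agent.S37.LevelChange

open ModularCurve Polynomial Fermat.Agent.S18 Fermat.Agent.S18.Gauss

local notation "Qb" => AlgebraicClosure ℚ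

/-! ### A commutative square of ring homomorphisms preserves integrality -/

theorem isIntegralElem_of_comm {R S R' S' : Type*} [CommRing R] [CommRing S] [CommRing R']
    [CommRing S'] (f : R →+* S) (g : R' →+* S') (φ : R →+* R') (ψ : S →+* S')
    (h : g.comp φ = ψ.comp f) {x : S} (hx : f.IsIntegralElem x) : g.IsIntegralElem (ψ x) := by
  obtain ⟨P, hP, hroot⟩ := hx
  refine ⟨P.map φ, hP.map φ, ?_⟩
  rw [Polynomial.eval₂_map, h, ← Polynomial.hom_eval₂, hroot, map_zero]

/-! ### Valuation rings: `W₀ = W ∩ L₀` -/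

section Val

variable {L₀ L : Type*} [Field L₀] [Field L] (τ : L₀ →+* L) (W₀ : ValuationSubring L₀)
  (W : ValuationSubring L) (hW : ∀ c : L₀, c ∈ W₀ ↔ τ c ∈ W)

include hW

/-- The inclusion `W₀ → W`. -/
def incl : ↥W₀ →+* ↥W :=
  (τ.comp W₀.subtype).codRestrict W (fun c => (hW c).mp c.2)

theorem coe_incl (c : W₀) : ((incl τ W₀ W hW c : W) : L) = τ (c : L₀) := rfl

theorem subtype_comp_incl : W.subtype.comp (incl τ W₀ W hW) = τ.comp W₀.subtype := rfl

theorem incl_injective : Function.Injective (incl τ W₀ W hW) := by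
  intro x y h
  apply Subtype.ext
  apply τ.injective
  exact congrArg Subtype.val h

instance isLocalHom_incl : IsLocalHom (incl τ W₀ W hW) := by
  constructor
  intro c hc
  obtain ⟨d, hd⟩ := hc.exists_right_inv
  have hd' : τ (c : L₀) * (d : L) = 1 := congrArg Subtype.val hd
  have hc0 : (c : L₀) ≠ 0 := by
    intro h0
    rw [h0, map_zero, zero_mul] at hd'
    exact zero_ne_one hd'
  have hinv : (c : L₀)⁻¹ ∈ W₀ := by
    rw [hW, map_inv₀, inv_eq_of_mul_eq_one_right hd']
    exact d.2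
  exact IsUnit.of_mul_eq_one (⟨(c : L₀)⁻¹, hinv⟩ : W₀) (Subtype.ext (mul_inv_cancel₀ hc0))

/-- The induced map of residue fields. -/
def resMap : IsLocalRing.ResidueField W₀ →+* IsLocalRing.ResidueField W :=
  IsLocalRing.ResidueField.map (incl τ W₀ W hW)

theorem resMap_residue (c : W₀) :
    resMap τ W₀ W hW (IsLocalRing.residue W₀ c) = IsLocalRing.residue W (incl τ W₀ W hW c) :=
  IsLocalRing.ResidueField.map_residue _ _

theorem toL_coeffMap_incl (x : LaurentSeries W₀) :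
    toL W (coeffMap (incl τ W₀ W hW) x) = coeffMap τ (toL W₀ x) := by
  rw [toL, toL, coeffMap_coeffMap, coeffMap_coeffMap, subtype_comp_incl]

theorem toK_coeffMap_incl (x : LaurentSeries W₀) :
    toK W (coeffMap (incl τ W₀ W hW) x) = coeffMap (resMap τ W₀ W hW) (toK W₀ x) := by
  rw [toK, toK, coeffMap_coeffMap, coeffMap_coeffMap]
  exact coeffMap_congr (RingHom.ext fun c => (resMap_residue τ W₀ W hW c).symm) x

/-- Coefficient extension maps the Gauss valuation ring of `W₀` into that of `W`. -/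
theorem coeffMap_mem_contentRing {f : LaurentSeries L₀} (hf : f ∈ contentRing W₀) :
    coeffMap τ f ∈ contentRing W := by
  obtain ⟨x, y, hy, h⟩ := hf
  refine ⟨coeffMap (incl τ W₀ W hW) x, coeffMap (incl τ W₀ W hW) y, ?_, ?_⟩
  · rw [toK_coeffMap_incl]
    intro h0
    apply hy
    apply Fermat.Agent.S28.Tower.coeffMap_injective (resMap τ W₀ W hW)
    rw [map_zero]
    exact h0
  · rw [toL_coeffMap_incl, toL_coeffMap_incl, ← h, map_mul]

/-- Reduction commutes with coefficient extension. -/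
theorem red_coeffMap {f : LaurentSeries L₀} (hf : f ∈ contentRing W₀) :
    red W ⟨coeffMap τ f, coeffMap_mem_contentRing τ W₀ W hW hf⟩ =
      coeffMap (resMap τ W₀ W hW) (red W₀ ⟨f, hf⟩) := by
  obtain ⟨x, y, hy, h⟩ := id hf
  have hy' : toK W (coeffMap (incl τ W₀ W hW) y) ≠ 0 := by
    rw [toK_coeffMap_incl]
    intro h0
    apply hy
    apply Fermat.Agent.S28.Tower.coeffMap_injective (resMap τ W₀ W hW)
    rw [map_zero]
    exact h0
  have h' : coeffMap τ f * toL W (coeffMap (incl τ W₀ W hW) y) =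
      toL W (coeffMap (incl τ W₀ W hW) x) := by
    rw [toL_coeffMap_incl, toL_coeffMap_incl, ← h, map_mul]
  rw [red_mk_eq W _ hy' h', red_mk_eq W₀ hf hy h, toK_coeffMap_incl, toK_coeffMap_incl,
    map_div₀]

/-- Nonvanishing of the reduction is preserved. -/
theorem red_coeffMap_ne_zero {f : LaurentSeries L₀} (hf : f ∈ contentRing W₀)
    (h : red W₀ ⟨f, hf⟩ ≠ 0) :
    red W ⟨coeffMap τ f, coeffMap_mem_contentRing τ W₀ W hW hf⟩ ≠ 0 := by
  rw [red_coeffMap τ W₀ W hW hf]
  intro h0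
  apply h
  apply Fermat.Agent.S28.Tower.coeffMap_injective (resMap τ W₀ W hW)
  rw [map_zero]
  exact h0

/-- Vanishing of the reduction is preserved. -/
theorem red_coeffMap_eq_zero {f : LaurentSeries L₀} (hf : f ∈ contentRing W₀)
    (h : red W₀ ⟨f, hf⟩ = 0) :
    red W ⟨coeffMap τ f, coeffMap_mem_contentRing τ W₀ W hW hf⟩ = 0 := by
  rw [red_coeffMap τ W₀ W hW hf, h, map_zero]

end Val

/-! ### The transport on function fields -/

section Transport

variable {L₀ L : Type*} [Field L₀] [Field L] [Algebra ℚ L₀] [Algebra ℚ L] (τ : L₀ →+* L)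
  (N : ℕ) [NeZero N]

/-- The transport fixes `j`. -/
theorem bc_jBC : Fermat.Agent.S24.CoeffBC.bc τ (modularFunctionFieldFull N)
    (Fermat.Agent.S24.jBC L₀ N) = Fermat.Agent.S24.jBC L N := by
  apply Subtype.ext
  rw [Fermat.Agent.S24.CoeffBC.coe_bc, Fermat.Agent.S24.coe_jBC, Fermat.Agent.S24.coe_jBC]
  exact Fermat.Agent.S24.CoeffBC.coeffMap_coeffEmb' τ _

omit [NeZero N] in
/-- Transitivity of the coefficient extension. -/
theorem bc_bc {C : Type*} [Field C] [Algebra ℚ C] (ι₀ : L₀ →+* C) (ι : L →+* C)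
    (hτ : ∀ c, ι (τ c) = ι₀ c) (x : Fermat.Agent.S24.FF L₀ N) :
    Fermat.Agent.S24.CoeffBC.bc ι (modularFunctionFieldFull N)
      (Fermat.Agent.S24.CoeffBC.bc τ (modularFunctionFieldFull N) x) =
    Fermat.Agent.S24.CoeffBC.bc ι₀ (modularFunctionFieldFull N) x := by
  apply Subtype.ext
  rw [Fermat.Agent.S24.CoeffBC.coe_bc, Fermat.Agent.S24.CoeffBC.coe_bc,
    Fermat.Agent.S24.CoeffBC.coe_bc, coeffMap_coeffMap]
  exact coeffMap_congr (RingHom.ext fun c => hτ c) _

variable (W₀ : ValuationSubring L₀) (W : ValuationSubring L) (hW : ∀ c : L₀, c ∈ W₀ ↔ τ c ∈ W)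

include hW

/-- The square `W₀[X] → FF L₀ N → FF L N` = `W₀[X] → W[X] → FF L N`, finite chart. -/
theorem bc_comp_evF :
    (evF W N).comp (Polynomial.mapRingHom (incl τ W₀ W hW)) =
      (Fermat.Agent.S24.CoeffBC.bc τ (modularFunctionFieldFull N)).comp (evF W₀ N) := by
  apply Polynomial.ringHom_ext
  · intro a
    rw [RingHom.comp_apply, RingHom.comp_apply, Polynomial.coe_mapRingHom, Polynomial.map_C,
      evF_C, evF_C, Fermat.Agent.S24.CoeffBC.bc_algebraMap]
    rfl
  · rw [RingHom.comp_apply, RingHom.comp_apply, Polynomial.coe_mapRingHom, Polynomial.map_X,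
      evF_X, evF_X, bc_jBC]

/-- The same square for the chart at infinity. -/
theorem bc_comp_evFinf :
    (evFinf W N).comp (Polynomial.mapRingHom (incl τ W₀ W hW)) =
      (Fermat.Agent.S24.CoeffBC.bc τ (modularFunctionFieldFull N)).comp (evFinf W₀ N) := by
  apply Polynomial.ringHom_ext
  · intro a
    rw [RingHom.comp_apply, RingHom.comp_apply, Polynomial.coe_mapRingHom, Polynomial.map_C,
      evFinf_C, evFinf_C, Fermat.Agent.S24.CoeffBC.bc_algebraMap]
    rfl
  · rw [RingHom.comp_apply, RingHom.comp_apply, Polynomial.coe_mapRingHom, Polynomial.map_X,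
      evFinf_X, evFinf_X, map_inv₀, bc_jBC]

/-- Integrality over `W₀[j]` is preserved. -/
theorem isIntegralElem_evF_bc {x : Fermat.Agent.S24.FF L₀ N}
    (hx : (evF W₀ N).IsIntegralElem x) :
    (evF W N).IsIntegralElem (Fermat.Agent.S24.CoeffBC.bc τ (modularFunctionFieldFull N) x) :=
  isIntegralElem_of_comm _ _ _ _ (bc_comp_evF τ N W₀ W hW) hx

/-- Integrality over `W₀[1/j]` is preserved. -/
theorem isIntegralElem_evFinf_bc {x : Fermat.Agent.S24.FF L₀ N}
    (hx : (evFinf W₀ N).IsIntegralElem x) :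
    (evFinf W N).IsIntegralElem
      (Fermat.Agent.S24.CoeffBC.bc τ (modularFunctionFieldFull N) x) :=
  isIntegralElem_of_comm _ _ _ _ (bc_comp_evFinf τ N W₀ W hW) hx

/-- Integrality over the cusp chart (multiplier form `(1 - 1728/j)^m`) is preserved. -/
theorem isIntegralElem_cusp_bc {x : Fermat.Agent.S24.FF L₀ N} {m : ℕ}
    (hx : (evFinf W₀ N).IsIntegralElem ((1 - 1728 * (Fermat.Agent.S24.jBC L₀ N)⁻¹) ^ m * x)) :
    (evFinf W N).IsIntegralElem ((1 - 1728 * (Fermat.Agent.S24.jBC L N)⁻¹) ^ m *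
      Fermat.Agent.S24.CoeffBC.bc τ (modularFunctionFieldFull N) x) := by
  have h := isIntegralElem_evFinf_bc τ N W₀ W hW hx
  rw [map_mul, map_pow, map_sub, map_one, map_mul, map_ofNat, map_inv₀, bc_jBC] at h
  exact h

/-- Integrality over the chart at infinity with a general multiplier `u(1/j)` is preserved
(the multiplier is mapped to `W[X]`). -/
theorem isIntegralElem_mul_bc {x : Fermat.Agent.S24.FF L₀ N} {u : (↥W₀)[X]}
    (hx : (evFinf W₀ N).IsIntegralElem (evFinf W₀ N u * x)) :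
    (evFinf W N).IsIntegralElem (evFinf W N (u.map (incl τ W₀ W hW)) *
      Fermat.Agent.S24.CoeffBC.bc τ (modularFunctionFieldFull N) x) := by
  have h := isIntegralElem_evFinf_bc τ N W₀ W hW hx
  rw [map_mul] at h
  have h1 : Fermat.Agent.S24.CoeffBC.bc τ (modularFunctionFieldFull N) (evFinf W₀ N u) =
      evFinf W N (u.map (incl τ W₀ W hW)) :=
    (RingHom.congr_fun (bc_comp_evFinf τ N W₀ W hW) u).symm
  rw [h1] at h
  exact h

omit [NeZero N] in
/-- Gauss-integrality is preserved. -/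
theorem mem_contentRing_bc {x : Fermat.Agent.S24.FF L₀ N}
    (hx : (x : LaurentSeries L₀) ∈ contentRing W₀) :
    ((Fermat.Agent.S24.CoeffBC.bc τ (modularFunctionFieldFull N) x : Fermat.Agent.S24.FF L N) :
      LaurentSeries L) ∈ contentRing W :=
  coeffMap_mem_contentRing τ W₀ W hW hx

omit [NeZero N] in
/-- The reduction commutes with the transport. -/
theorem red_bc {x : Fermat.Agent.S24.FF L₀ N} (hx : (x : LaurentSeries L₀) ∈ contentRing W₀) :
    red W ⟨_, mem_contentRing_bc τ N W₀ W hW hx⟩ =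
      coeffMap (resMap τ W₀ W hW) (red W₀ ⟨x, hx⟩) :=
  red_coeffMap τ W₀ W hW hx

omit [NeZero N] in
/-- Gauss units stay Gauss units. -/
theorem red_bc_ne_zero {x : Fermat.Agent.S24.FF L₀ N}
    (hx : (x : LaurentSeries L₀) ∈ contentRing W₀) (h : red W₀ ⟨x, hx⟩ ≠ 0) :
    red W ⟨_, mem_contentRing_bc τ N W₀ W hW hx⟩ ≠ 0 :=
  red_coeffMap_ne_zero τ W₀ W hW hx h

end Transport

/-! ### Two levels inside `ℚ̄` -/

section Comap

variable (A : ValuationSubring Qb) {L₀ L : Type*} [Field L₀] [Field L] (ι₀ : L₀ →+* Qb)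
  (ι : L →+* Qb) (τ : L₀ →+* L) (hτ : ∀ c, ι (τ c) = ι₀ c)

include hτ

/-- `A ∩ L₀ = (A ∩ L) ∩ L₀`. -/
theorem mem_comap_iff (c : L₀) : c ∈ A.comap ι₀ ↔ τ c ∈ A.comap ι := by
  rw [ValuationSubring.mem_comap, ValuationSubring.mem_comap, hτ]

variable [Algebra ℚ L₀] [Algebra ℚ L] (N : ℕ) [NeZero N]

/-- Integrality over `W₀[j]` is preserved (`W₀ = A ∩ L₀`, `W = A ∩ L`). -/
theorem isIntegralElem_evF_bc' {x : Fermat.Agent.S24.FF L₀ N}
    (hx : (evF (A.comap ι₀) N).IsIntegralElem x) :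
    (evF (A.comap ι) N).IsIntegralElem
      (Fermat.Agent.S24.CoeffBC.bc τ (modularFunctionFieldFull N) x) :=
  isIntegralElem_evF_bc τ N _ _ (mem_comap_iff A ι₀ ι τ hτ) hx

/-- Integrality over `W₀[1/j]` is preserved. -/
theorem isIntegralElem_evFinf_bc' {x : Fermat.Agent.S24.FF L₀ N}
    (hx : (evFinf (A.comap ι₀) N).IsIntegralElem x) :
    (evFinf (A.comap ι) N).IsIntegralElem
      (Fermat.Agent.S24.CoeffBC.bc τ (modularFunctionFieldFull N) x) :=
  isIntegralElem_evFinf_bc τ N _ _ (mem_comap_iff A ι₀ ι τ hτ) hx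

/-- Integrality over the cusp chart (multiplier form) is preserved. -/
theorem isIntegralElem_cusp_bc' {x : Fermat.Agent.S24.FF L₀ N} {m : ℕ}
    (hx : (evFinf (A.comap ι₀) N).IsIntegralElem
      ((1 - 1728 * (Fermat.Agent.S24.jBC L₀ N)⁻¹) ^ m * x)) :
    (evFinf (A.comap ι) N).IsIntegralElem ((1 - 1728 * (Fermat.Agent.S24.jBC L N)⁻¹) ^ m *
      Fermat.Agent.S24.CoeffBC.bc τ (modularFunctionFieldFull N) x) :=
  isIntegralElem_cusp_bc τ N _ _ (mem_comap_iff A ι₀ ι τ hτ) hx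

omit [NeZero N] in
/-- Gauss-integrality is preserved. -/
theorem mem_contentRing_bc' {x : Fermat.Agent.S24.FF L₀ N}
    (hx : (x : LaurentSeries L₀) ∈ contentRing (A.comap ι₀)) :
    ((Fermat.Agent.S24.CoeffBC.bc τ (modularFunctionFieldFull N) x : Fermat.Agent.S24.FF L N) :
      LaurentSeries L) ∈ contentRing (A.comap ι) :=
  mem_contentRing_bc τ N _ _ (mem_comap_iff A ι₀ ι τ hτ) hx

omit [NeZero N] in
/-- Gauss units stay Gauss units. -/
theorem red_bc_ne_zero' {x : Fermat.Agent.S24.FF L₀ N}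
    (hx : (x : LaurentSeries L₀) ∈ contentRing (A.comap ι₀))
    (h : red (A.comap ι₀) ⟨x, hx⟩ ≠ 0) :
    red (A.comap ι) ⟨_, mem_contentRing_bc' A ι₀ ι τ hτ N hx⟩ ≠ 0 :=
  red_bc_ne_zero τ N _ _ (mem_comap_iff A ι₀ ι τ hτ) hx h

omit [NeZero N] in
/-- Elements of the maximal ideal of the Gauss valuation ring stay there. -/
theorem red_bc_eq_zero' {x : Fermat.Agent.S24.FF L₀ N}
    (hx : (x : LaurentSeries L₀) ∈ contentRing (A.comap ι₀))
    (h : red (A.comap ι₀) ⟨x, hx⟩ = 0) :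
    red (A.comap ι) ⟨_, mem_contentRing_bc' A ι₀ ι τ hτ N hx⟩ = 0 :=
  red_coeffMap_eq_zero τ _ _ (mem_comap_iff A ι₀ ι τ hτ) hx h

end Comap

section Base

/-- The properties of a level `(L, ι)` provided by `BaseDVRGeneric.exists_base`: `L ⊇ S`
contains the roots of unity of order prime to `ℓ`, `W = A ∩ L` is a discrete valuation ring
with algebraically closed residue field of characteristic `ℓ`, `ℓ` is a non-unit of `W`, and
every residue class of `A` is represented in `L`. -/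
def IsLevel (A : ValuationSubring Qb) (ℓ : ℕ) (S : Finset Qb) {L : Type} [Field L]
    (ι : L →+* Qb) : Prop :=
  (∀ a ∈ S, ∃ b : L, ι b = a) ∧
  (∀ x : Qb, (∃ n : ℕ, ¬ ℓ ∣ n ∧ x ^ n = 1) → ∃ b : L, ι b = x) ∧
  IsDiscreteValuationRing (A.comap ι) ∧
  IsAlgClosed (IsLocalRing.ResidueField (A.comap ι)) ∧
  PerfectField (IsLocalRing.ResidueField (A.comap ι)) ∧
  CharP (IsLocalRing.ResidueField (A.comap ι)) ℓ ∧
  ((ℓ : L) ∈ (A.comap ι).nonunits) ∧
  ∀ a ∈ A, ∃ b : L, ι b ∈ A ∧ a - ι b ∈ A.nonunits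

variable (A : ValuationSubring Qb) {ℓ : ℕ}

/-- The concrete field `ℚ(μ_n (ℓ ∤ n), S)` is a level. -/
theorem isLevel_baseField (hℓ : ℓ.Prime) (hA : A.LiesOverPrime ℓ) (S : Finset Qb) :
    IsLevel A ℓ S (algebraMap ↥(BaseDVR.baseField ℓ (S : Set Qb)) Qb) := by
  refine ⟨fun a ha => ⟨⟨a, BaseDVR.subset_baseField ℓ _ (Finset.mem_coe.mpr ha)⟩, rfl⟩,
    fun x hx => ⟨⟨x, BaseDVR.cycloField_le_baseField ℓ _
      (IntermediateField.subset_adjoin ℚ _ hx)⟩, rfl⟩,
    BaseDVR.isDiscreteValuationRing_baseRing A hℓ hA S,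
    BaseDVR.isAlgClosed_residueField_baseRing A hℓ hA _, ?_,
    BaseDVR.charP_residueField_baseRing A hℓ hA _, ?_, fun a ha => ?_⟩
  · have := BaseDVR.isAlgClosed_residueField_baseRing A hℓ hA (S : Set Qb)
    infer_instance
  · have hA' : (ℓ : Qb) ∈ A.nonunits := hA
    rw [ValuationSubring.mem_nonunits_iff_or] at hA' ⊢
    have hℓ0 : (ℓ : Qb) ≠ 0 := Nat.cast_ne_zero.mpr hℓ.ne_zero
    refine Or.inr fun hmem => (hA'.resolve_left hℓ0) ?_
    have h := ValuationSubring.mem_comap.mp hmem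
    rwa [map_inv₀, map_natCast] at h
  · obtain ⟨b, hbL, hbA, hb⟩ := BaseDVR.exists_cyclo_congr A hℓ hA a ha
    exact ⟨⟨b, BaseDVR.cycloField_le_baseField ℓ _ hbL⟩, hbA, hb⟩

/-- **Two-stage descent.** There is a level `(L₀, ι₀)` containing `S₀` such that for every
further finite set `S` there is a level `(L, ι)` containing `S₀ ∪ S` and a homomorphism
`τ : L₀ →+* L` with `ι ∘ τ = ι₀`. -/
theorem exists_base_pair (hℓ : ℓ.Prime) (hA : A.LiesOverPrime ℓ) (S₀ : Finset Qb) :
    ∃ (L₀ : Type) (_ : Field L₀) (_ : Algebra ℚ L₀) (ι₀ : L₀ →+* Qb),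
      IsLevel A ℓ S₀ ι₀ ∧
      ∀ S : Finset Qb, ∃ (L : Type) (_ : Field L) (_ : Algebra ℚ L) (ι : L →+* Qb)
        (τ : L₀ →+* L), (∀ c, ι (τ c) = ι₀ c) ∧ IsLevel A ℓ (S₀ ∪ S) ι := by
  classical
  refine ⟨↥(BaseDVR.baseField ℓ (S₀ : Set Qb)), inferInstance, inferInstance,
    algebraMap _ Qb, isLevel_baseField A hℓ hA S₀, fun S => ?_⟩
  have hle : BaseDVR.baseField ℓ (S₀ : Set Qb) ≤
      BaseDVR.baseField ℓ ((S₀ ∪ S : Finset Qb) : Set Qb) :=
    BaseDVR.baseField_mono ℓ (by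
      intro a ha
      exact Finset.mem_coe.mpr (Finset.mem_union_left _ (Finset.mem_coe.mp ha)))
  exact ⟨↥(BaseDVR.baseField ℓ ((S₀ ∪ S : Finset Qb) : Set Qb)), inferInstance, inferInstance,
    algebraMap _ Qb, (IntermediateField.inclusion hle).toRingHom, fun c => rfl,
    isLevel_baseField A hℓ hA (S₀ ∪ S)⟩

end Base

end Fermat.Agent.S37.LevelChange
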