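/-
S37, two-stage level, carrier form (helper1): transport of elements of the chart rings (abstract
integral closures `B₀` at the level `(L₀, ι₀)`, `B` at the level `(L, ι)`) along
`τ : L₀ →+* L`, keeping "not divisible by the uniformiser".
-/
import Mathlib
import Fermat.Agent.S37.LevelChange
import Fermat.Agent.S37.GaussRed

set_option autoImplicit false

noncomputable section

namespace Fermat.Agent.S37.LevelChangeB

open ModularCurve Polynomial Fermat.Agent.S18 Fermat.Agent.S18.Gauss Fermat.Agent.S18.Cusp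
  Fermat.Agent.S37.LevelChange

local notation "Qb" => AlgebraicClosure ℚ

variable (A : ValuationSubring Qb) (N : ℕ) [NeZero N] (ℓ : ℕ) [Fact ℓ.Prime]
  {L₀ L : Type*} [Field L₀] [Field L] [Algebra ℚ L₀] [Algebra ℚ L]
  (ι₀ : L₀ →+* Qb) (ι : L →+* Qb) (τ : L₀ →+* L) (hτ : ∀ c, ι (τ c) = ι₀ c)
  [IsDiscreteValuationRing ↥(A.comap ι₀)]
  [CharP (IsLocalRing.ResidueField ↥(A.comap ι₀)) ℓ]
  [IsAlgClosed (IsLocalRing.ResidueField ↥(A.comap ι₀))]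
  [IsDiscreteValuationRing ↥(A.comap ι)]
  [CharP (IsLocalRing.ResidueField ↥(A.comap ι)) ℓ]
  [IsAlgClosed (IsLocalRing.ResidueField ↥(A.comap ι))]

include hτ

/-- **Finite chart.** An element of the chart ring at the level `L₀` has a transport in the
chart ring at the level `L`; if it is not divisible by the uniformiser of `A ∩ L₀`, the
transport is not divisible by the uniformiser of `A ∩ L`. -/
theorem exists_transport_fin (hℓN : ¬ ℓ ∣ N)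
    {ϖ₀ : ↥(A.comap ι₀)} (hϖ₀ : Irreducible ϖ₀) {ϖ : ↥(A.comap ι)} (hϖ : Irreducible ϖ)
    [Algebra (↥(A.comap ι₀))[X] (Fermat.Agent.S24.FF L₀ N)]
    (halg₀ : algebraMap (↥(A.comap ι₀))[X] (Fermat.Agent.S24.FF L₀ N) = evF (A.comap ι₀) N)
    (B₀ : Type*) [CommRing B₀] [Algebra (↥(A.comap ι₀))[X] B₀]
    [Algebra B₀ (Fermat.Agent.S24.FF L₀ N)]
    [IsScalarTower (↥(A.comap ι₀))[X] B₀ (Fermat.Agent.S24.FF L₀ N)]
    [IsIntegralClosure B₀ (↥(A.comap ι₀))[X] (Fermat.Agent.S24.FF L₀ N)]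
    [Algebra (↥(A.comap ι))[X] (Fermat.Agent.S24.FF L N)]
    (halg : algebraMap (↥(A.comap ι))[X] (Fermat.Agent.S24.FF L N) = evF (A.comap ι) N)
    (B : Type*) [CommRing B] [Algebra (↥(A.comap ι))[X] B]
    [Algebra B (Fermat.Agent.S24.FF L N)]
    [IsScalarTower (↥(A.comap ι))[X] B (Fermat.Agent.S24.FF L N)]
    [IsIntegralClosure B (↥(A.comap ι))[X] (Fermat.Agent.S24.FF L N)]
    (a₀ : B₀) :
    ∃ a : B, algebraMap B (Fermat.Agent.S24.FF L N) a =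
        Fermat.Agent.S24.CoeffBC.bc τ (modularFunctionFieldFull N)
          (algebraMap B₀ (Fermat.Agent.S24.FF L₀ N) a₀) ∧
      (¬ algebraMap (↥(A.comap ι₀))[X] B₀ (C ϖ₀) ∣ a₀ →
        ¬ algebraMap (↥(A.comap ι))[X] B (C ϖ) ∣ a) := by
  have h0 : (evF (A.comap ι₀) N).IsIntegralElem
      (algebraMap B₀ (Fermat.Agent.S24.FF L₀ N) a₀) := by
    have h : IsIntegral (↥(A.comap ι₀))[X] (algebraMap B₀ (Fermat.Agent.S24.FF L₀ N) a₀) :=
      IsIntegralClosure.isIntegral_iff (A := B₀) |>.mpr ⟨a₀, rfl⟩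
    have h' : (algebraMap (↥(A.comap ι₀))[X] (Fermat.Agent.S24.FF L₀ N)).IsIntegralElem
        (algebraMap B₀ (Fermat.Agent.S24.FF L₀ N) a₀) := h
    rwa [halg₀] at h'
  have h1 := isIntegralElem_evF_bc' A ι₀ ι τ hτ N h0
  have h2 : IsIntegral (↥(A.comap ι))[X]
      (Fermat.Agent.S24.CoeffBC.bc τ (modularFunctionFieldFull N)
        (algebraMap B₀ (Fermat.Agent.S24.FF L₀ N) a₀)) := by
    show (algebraMap (↥(A.comap ι))[X] (Fermat.Agent.S24.FF L N)).IsIntegralElem _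
    rw [halg]
    exact h1
  obtain ⟨a, ha⟩ := IsIntegralClosure.isIntegral_iff (A := B) |>.mp h2
  refine ⟨a, ha, fun hnd hdvd => ?_⟩
  have hr0 := Fermat.Agent.S37.GaussRed.red_ne_zero_fin (A.comap ι₀) N ℓ B₀ hℓN hϖ₀ halg₀ a₀ hnd
  have hr1 := red_bc_ne_zero' A ι₀ ι τ hτ N _ hr0
  have hr2 := (Fermat.Agent.S37.GaussRed.dvd_iff_red_fin (A.comap ι) N ℓ B hℓN hϖ halg a).mp hdvd
  apply hr1
  have e : (⟨_, mem_contentRing_bc' A ι₀ ι τ hτ N
      (Fermat.Agent.S37.GaussRed.mem_contentRing_fin (A.comap ι₀) N ℓ B₀ hℓN halg₀ a₀)⟩ :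
      contentRing (A.comap ι)) =
      ⟨_, Fermat.Agent.S37.GaussRed.mem_contentRing_fin (A.comap ι) N ℓ B hℓN halg a⟩ :=
    Subtype.ext (congrArg (fun z : Fermat.Agent.S24.FF L N => (z : LaurentSeries L)) ha.symm)
  rw [e]
  exact hr2

/-- **Cusp chart.** The same for the chart rings over `CuspBase`. -/
theorem exists_transport_cusp (hℓN : ¬ ℓ ∣ N)
    {ϖ₀ : ↥(A.comap ι₀)} (hϖ₀ : Irreducible ϖ₀) {ϖ : ↥(A.comap ι)} (hϖ : Irreducible ϖ)
    [Algebra (CuspBase ↥(A.comap ι₀)) (Fermat.Agent.S24.FF L₀ N)]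
    (halg₀ : ∀ p : (↥(A.comap ι₀))[X], algebraMap (CuspBase ↥(A.comap ι₀))
      (Fermat.Agent.S24.FF L₀ N) (algebraMap (↥(A.comap ι₀))[X] (CuspBase ↥(A.comap ι₀)) p) =
        evFinf (A.comap ι₀) N p)
    (B₀ : Type*) [CommRing B₀] [Algebra (CuspBase ↥(A.comap ι₀)) B₀]
    [Algebra B₀ (Fermat.Agent.S24.FF L₀ N)]
    [IsScalarTower (CuspBase ↥(A.comap ι₀)) B₀ (Fermat.Agent.S24.FF L₀ N)]
    [IsIntegralClosure B₀ (CuspBase ↥(A.comap ι₀)) (Fermat.Agent.S24.FF L₀ N)]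
    [Algebra (CuspBase ↥(A.comap ι)) (Fermat.Agent.S24.FF L N)]
    (halg : ∀ p : (↥(A.comap ι))[X], algebraMap (CuspBase ↥(A.comap ι))
      (Fermat.Agent.S24.FF L N) (algebraMap (↥(A.comap ι))[X] (CuspBase ↥(A.comap ι)) p) =
        evFinf (A.comap ι) N p)
    (B : Type*) [CommRing B] [Algebra (CuspBase ↥(A.comap ι)) B]
    [Algebra B (Fermat.Agent.S24.FF L N)]
    [IsScalarTower (CuspBase ↥(A.comap ι)) B (Fermat.Agent.S24.FF L N)]
    [IsIntegralClosure B (CuspBase ↥(A.comap ι)) (Fermat.Agent.S24.FF L N)]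
    (a₀ : B₀) :
    ∃ a : B, algebraMap B (Fermat.Agent.S24.FF L N) a =
        Fermat.Agent.S24.CoeffBC.bc τ (modularFunctionFieldFull N)
          (algebraMap B₀ (Fermat.Agent.S24.FF L₀ N) a₀) ∧
      (¬ algebraMap (CuspBase ↥(A.comap ι₀)) B₀
          (algebraMap ↥(A.comap ι₀) (CuspBase ↥(A.comap ι₀)) ϖ₀) ∣ a₀ →
        ¬ algebraMap (CuspBase ↥(A.comap ι)) B
          (algebraMap ↥(A.comap ι) (CuspBase ↥(A.comap ι)) ϖ) ∣ a) := by
  have h0 : IsIntegral (CuspBase ↥(A.comap ι₀))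
      (algebraMap B₀ (Fermat.Agent.S24.FF L₀ N) a₀) :=
    IsIntegralClosure.isIntegral_iff (A := B₀) |>.mpr ⟨a₀, rfl⟩
  obtain ⟨m, hm⟩ := (Fermat.Agent.S37.GaussPrime.isIntegral_cuspBase_iff (A.comap ι₀) N halg₀ _).mp h0
  have h1 := isIntegralElem_cusp_bc' A ι₀ ι τ hτ N hm
  have h2 : IsIntegral (CuspBase ↥(A.comap ι))
      (Fermat.Agent.S24.CoeffBC.bc τ (modularFunctionFieldFull N)
        (algebraMap B₀ (Fermat.Agent.S24.FF L₀ N) a₀)) :=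
    (Fermat.Agent.S37.GaussPrime.isIntegral_cuspBase_iff (A.comap ι) N halg _).mpr ⟨m, h1⟩
  obtain ⟨a, ha⟩ := IsIntegralClosure.isIntegral_iff (A := B) |>.mp h2
  refine ⟨a, ha, fun hnd hdvd => ?_⟩
  have hr0 := Fermat.Agent.S37.GaussRed.red_ne_zero_cusp (A.comap ι₀) N ℓ B₀ hℓN hϖ₀ halg₀ a₀ hnd
  have hr1 := red_bc_ne_zero' A ι₀ ι τ hτ N _ hr0
  have hr2 := (Fermat.Agent.S37.GaussRed.dvd_iff_red_cusp (A.comap ι) N ℓ B hℓN hϖ halg a).mp hdvd
  apply hr1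
  have e : (⟨_, mem_contentRing_bc' A ι₀ ι τ hτ N
      (Fermat.Agent.S37.GaussRed.mem_contentRing_cusp (A.comap ι₀) N ℓ B₀ hℓN halg₀ a₀)⟩ :
      contentRing (A.comap ι)) =
      ⟨_, Fermat.Agent.S37.GaussRed.mem_contentRing_cusp (A.comap ι) N ℓ B hℓN halg a⟩ :=
    Subtype.ext (congrArg (fun z : Fermat.Agent.S24.FF L N => (z : LaurentSeries L)) ha.symm)
  rw [e]
  exact hr2

end Fermat.Agent.S37.LevelChangeB
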