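/-
S37, (W): the two-stage level packaged (helper1).  Stage 1 at `(L₀, ι₀)`: `x₀ = c · g` with
fractions `g = b_i / a_i` on both chart rings (`GaussRed.exists_fractions`).  Stage 2 at any
level `(L, ι)` above it: the transported fractions `a_i', b_i'` have the same images in `F_ℚ̄`,
are still not divisible by the uniformiser, and chart congruences `π ∣ b_i' - e_i · a_i'` at
the level `L` give the conclusion of `TorsionFree.ConstReduction` for `bc ι₀ x₀`.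
-/
import Mathlib
import Fermat.Agent.S37.ConstRedB
import Fermat.Agent.S37.LevelChangeB

set_option autoImplicit false

noncomputable section

namespace Fermat.Agent.S37.TwoStage

open ModularCurve Polynomial Fermat.Agent.S18 Fermat.Agent.S18.Gauss Fermat.Agent.S18.Cusp
  Fermat.Agent.S37.LevelChange

local notation "Qb" => AlgebraicClosure ℚ

variable (A : ValuationSubring Qb) (N : ℕ) [NeZero N] (ℓ : ℕ) [Fact ℓ.Prime]
  {L₀ L : Type} [Field L₀] [Field L] [Algebra ℚ L₀] [Algebra ℚ L]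
  (ι₀ : L₀ →+* Qb) (ι : L →+* Qb) (τ : L₀ →+* L) (hτ : ∀ c, ι (τ c) = ι₀ c)
  [IsDiscreteValuationRing ↥(A.comap ι₀)]
  [CharP (IsLocalRing.ResidueField ↥(A.comap ι₀)) ℓ]
  [IsAlgClosed (IsLocalRing.ResidueField ↥(A.comap ι₀))]
  [IsDiscreteValuationRing ↥(A.comap ι)]
  [CharP (IsLocalRing.ResidueField ↥(A.comap ι)) ℓ]
  [IsAlgClosed (IsLocalRing.ResidueField ↥(A.comap ι))]

include hτ

/-- **Two-stage level.** -/
theorem exists_stage2 (hℓN : ¬ ℓ ∣ N)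
    {ϖ₀ : ↥(A.comap ι₀)} (hϖ₀ : Irreducible ϖ₀) {ϖ : ↥(A.comap ι)} (hϖ : Irreducible ϖ)
    -- chart 1, level `L₀`
    [Algebra (↥(A.comap ι₀))[X] (Fermat.Agent.S24.FF L₀ N)]
    (halg₁₀ : algebraMap (↥(A.comap ι₀))[X] (Fermat.Agent.S24.FF L₀ N) = evF (A.comap ι₀) N)
    (B₁₀ : Type*) [CommRing B₁₀] [Algebra (↥(A.comap ι₀))[X] B₁₀]
    [Algebra B₁₀ (Fermat.Agent.S24.FF L₀ N)]
    [IsScalarTower (↥(A.comap ι₀))[X] B₁₀ (Fermat.Agent.S24.FF L₀ N)]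
    [IsIntegralClosure B₁₀ (↥(A.comap ι₀))[X] (Fermat.Agent.S24.FF L₀ N)]
    -- chart 2, level `L₀`
    [Algebra (CuspBase ↥(A.comap ι₀)) (Fermat.Agent.S24.FF L₀ N)]
    (halg₂₀ : ∀ p : (↥(A.comap ι₀))[X], algebraMap (CuspBase ↥(A.comap ι₀))
      (Fermat.Agent.S24.FF L₀ N) (algebraMap (↥(A.comap ι₀))[X] (CuspBase ↥(A.comap ι₀)) p) =
        evFinf (A.comap ι₀) N p)
    (B₂₀ : Type*) [CommRing B₂₀] [Algebra (CuspBase ↥(A.comap ι₀)) B₂₀]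
    [Algebra B₂₀ (Fermat.Agent.S24.FF L₀ N)]
    [IsScalarTower (CuspBase ↥(A.comap ι₀)) B₂₀ (Fermat.Agent.S24.FF L₀ N)]
    [IsIntegralClosure B₂₀ (CuspBase ↥(A.comap ι₀)) (Fermat.Agent.S24.FF L₀ N)]
    -- chart 1, level `L`
    [Algebra (↥(A.comap ι))[X] (Fermat.Agent.S24.FF L N)]
    (halg₁ : algebraMap (↥(A.comap ι))[X] (Fermat.Agent.S24.FF L N) = evF (A.comap ι) N)
    (B₁ : Type*) [CommRing B₁] [Algebra (↥(A.comap ι))[X] B₁]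
    [Algebra B₁ (Fermat.Agent.S24.FF L N)]
    [IsScalarTower (↥(A.comap ι))[X] B₁ (Fermat.Agent.S24.FF L N)]
    [IsIntegralClosure B₁ (↥(A.comap ι))[X] (Fermat.Agent.S24.FF L N)]
    -- chart 2, level `L`
    [Algebra (CuspBase ↥(A.comap ι)) (Fermat.Agent.S24.FF L N)]
    (halg₂ : ∀ p : (↥(A.comap ι))[X], algebraMap (CuspBase ↥(A.comap ι))
      (Fermat.Agent.S24.FF L N) (algebraMap (↥(A.comap ι))[X] (CuspBase ↥(A.comap ι)) p) =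
        evFinf (A.comap ι) N p)
    (B₂ : Type*) [CommRing B₂] [Algebra (CuspBase ↥(A.comap ι)) B₂]
    [Algebra B₂ (Fermat.Agent.S24.FF L N)]
    [IsScalarTower (CuspBase ↥(A.comap ι)) B₂ (Fermat.Agent.S24.FF L N)]
    [IsIntegralClosure B₂ (CuspBase ↥(A.comap ι)) (Fermat.Agent.S24.FF L N)]
    -- stage-1 data
    (x₀ : Fermat.Agent.S24.FF L₀ N) (c : L₀) (hc : c ≠ 0) (g : Fermat.Agent.S24.FF L₀ N)
    (hg : (g : LaurentSeries L₀) ∈ contentRing (A.comap ι₀))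
    (hgu : red (A.comap ι₀) ⟨g, hg⟩ ≠ 0)
    (hxg : x₀ = algebraMap L₀ (Fermat.Agent.S24.FF L₀ N) c * g)
    (a₁ b₁ : B₁₀) (ha₁ : ¬ algebraMap (↥(A.comap ι₀))[X] B₁₀ (C ϖ₀) ∣ a₁)
    (hb₁ : ¬ algebraMap (↥(A.comap ι₀))[X] B₁₀ (C ϖ₀) ∣ b₁)
    (hab₁ : algebraMap B₁₀ (Fermat.Agent.S24.FF L₀ N) b₁ =
      algebraMap B₁₀ (Fermat.Agent.S24.FF L₀ N) a₁ * g)
    (a₂ b₂ : B₂₀)
    (ha₂ : ¬ algebraMap (CuspBase ↥(A.comap ι₀)) B₂₀
      (algebraMap ↥(A.comap ι₀) (CuspBase ↥(A.comap ι₀)) ϖ₀) ∣ a₂)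
    (hb₂ : ¬ algebraMap (CuspBase ↥(A.comap ι₀)) B₂₀
      (algebraMap ↥(A.comap ι₀) (CuspBase ↥(A.comap ι₀)) ϖ₀) ∣ b₂)
    (hab₂ : algebraMap B₂₀ (Fermat.Agent.S24.FF L₀ N) b₂ =
      algebraMap B₂₀ (Fermat.Agent.S24.FF L₀ N) a₂ * g) :
    ∃ (a₁' b₁' : B₁) (a₂' b₂' : B₂),
      (Fermat.Agent.S24.CoeffBC.bc ι (modularFunctionFieldFull N)
          (algebraMap B₁ (Fermat.Agent.S24.FF L N) a₁') =
        Fermat.Agent.S24.CoeffBC.bc ι₀ (modularFunctionFieldFull N)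
          (algebraMap B₁₀ (Fermat.Agent.S24.FF L₀ N) a₁) ∧
       Fermat.Agent.S24.CoeffBC.bc ι (modularFunctionFieldFull N)
          (algebraMap B₁ (Fermat.Agent.S24.FF L N) b₁') =
        Fermat.Agent.S24.CoeffBC.bc ι₀ (modularFunctionFieldFull N)
          (algebraMap B₁₀ (Fermat.Agent.S24.FF L₀ N) b₁) ∧
       ¬ algebraMap (↥(A.comap ι))[X] B₁ (C ϖ) ∣ a₁' ∧
       ¬ algebraMap (↥(A.comap ι))[X] B₁ (C ϖ) ∣ b₁') ∧
      (Fermat.Agent.S24.CoeffBC.bc ι (modularFunctionFieldFull N)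
          (algebraMap B₂ (Fermat.Agent.S24.FF L N) a₂') =
        Fermat.Agent.S24.CoeffBC.bc ι₀ (modularFunctionFieldFull N)
          (algebraMap B₂₀ (Fermat.Agent.S24.FF L₀ N) a₂) ∧
       Fermat.Agent.S24.CoeffBC.bc ι (modularFunctionFieldFull N)
          (algebraMap B₂ (Fermat.Agent.S24.FF L N) b₂') =
        Fermat.Agent.S24.CoeffBC.bc ι₀ (modularFunctionFieldFull N)
          (algebraMap B₂₀ (Fermat.Agent.S24.FF L₀ N) b₂) ∧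
       ¬ algebraMap (CuspBase ↥(A.comap ι)) B₂
          (algebraMap ↥(A.comap ι) (CuspBase ↥(A.comap ι)) ϖ) ∣ a₂' ∧
       ¬ algebraMap (CuspBase ↥(A.comap ι)) B₂
          (algebraMap ↥(A.comap ι) (CuspBase ↥(A.comap ι)) ϖ) ∣ b₂') ∧
      ∀ (e₁ : B₁) (e₂ : B₂),
        algebraMap (↥(A.comap ι))[X] B₁ (C ϖ) ∣ b₁' - e₁ * a₁' →
        algebraMap (CuspBase ↥(A.comap ι)) B₂
          (algebraMap ↥(A.comap ι) (CuspBase ↥(A.comap ι)) ϖ) ∣ b₂' - e₂ * a₂' →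
        ∃ (c' : Qb) (Y₁ Y₂ : LaurentSeries A)
          (h₁ : Witness.IsMem A (IsLocalRing.residue A) N Y₁)
          (h₂ : Witness.IsMem A (IsLocalRing.residue A) N Y₂),
          c' ≠ 0 ∧ coeffMap (IsLocalRing.residue A) Y₁ = coeffMap (IsLocalRing.residue A) Y₂ ∧
          coeffMap (IsLocalRing.residue A) Y₁ ≠ 0 ∧
          Fermat.Agent.S24.CoeffBC.bc ι₀ (modularFunctionFieldFull N) x₀ =
            algebraMap Qb (modularFunctionFieldBar N) c' *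
              (Witness.toBar Y₁ h₁ / Witness.toBar Y₂ h₂) := by
  obtain ⟨a₁', ha₁', hna₁⟩ := Fermat.Agent.S37.LevelChangeB.exists_transport_fin A N ℓ ι₀ ι τ hτ
    hℓN hϖ₀ hϖ halg₁₀ B₁₀ halg₁ B₁ a₁
  obtain ⟨b₁', hb₁', hnb₁⟩ := Fermat.Agent.S37.LevelChangeB.exists_transport_fin A N ℓ ι₀ ι τ hτ
    hℓN hϖ₀ hϖ halg₁₀ B₁₀ halg₁ B₁ b₁
  obtain ⟨a₂', ha₂', hna₂⟩ := Fermat.Agent.S37.LevelChangeB.exists_transport_cusp A N ℓ ι₀ ι τ hτ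
    hℓN hϖ₀ hϖ halg₂₀ B₂₀ halg₂ B₂ a₂
  obtain ⟨b₂', hb₂', hnb₂⟩ := Fermat.Agent.S37.LevelChangeB.exists_transport_cusp A N ℓ ι₀ ι τ hτ
    hℓN hϖ₀ hϖ halg₂₀ B₂₀ halg₂ B₂ b₂
  refine ⟨a₁', b₁', a₂', b₂', ⟨?_, ?_, hna₁ ha₁, hnb₁ hb₁⟩, ⟨?_, ?_, hna₂ ha₂, hnb₂ hb₂⟩, ?_⟩
  · rw [ha₁', bc_bc τ N ι₀ ι hτ]
  · rw [hb₁', bc_bc τ N ι₀ ι hτ]
  · rw [ha₂', bc_bc τ N ι₀ ι hτ]
  · rw [hb₂', bc_bc τ N ι₀ ι hτ]
  · intro e₁ e₂ he₁ he₂
    have hxg' : Fermat.Agent.S24.CoeffBC.bc τ (modularFunctionFieldFull N) x₀ =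
        algebraMap L (Fermat.Agent.S24.FF L N) (τ c) *
          Fermat.Agent.S24.CoeffBC.bc τ (modularFunctionFieldFull N) g := by
      rw [hxg, map_mul, Fermat.Agent.S24.CoeffBC.bc_algebraMap]
    have hab₁' : algebraMap B₁ (Fermat.Agent.S24.FF L N) b₁' =
        algebraMap B₁ (Fermat.Agent.S24.FF L N) a₁' *
          Fermat.Agent.S24.CoeffBC.bc τ (modularFunctionFieldFull N) g := by
      rw [hb₁', hab₁, map_mul, ← ha₁']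
    have hab₂' : algebraMap B₂ (Fermat.Agent.S24.FF L N) b₂' =
        algebraMap B₂ (Fermat.Agent.S24.FF L N) a₂' *
          Fermat.Agent.S24.CoeffBC.bc τ (modularFunctionFieldFull N) g := by
      rw [hb₂', hab₂, map_mul, ← ha₂']
    have hτc : τ c ≠ 0 := by
      rw [Ne, map_eq_zero]
      exact hc
    have key := Fermat.Agent.S37.ConstRedB.constReduction_of_closure A N ℓ ι hℓN hϖ halg₁ B₁
      halg₂ B₂ (Fermat.Agent.S24.CoeffBC.bc τ (modularFunctionFieldFull N) x₀) (τ c) hτc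
      (Fermat.Agent.S24.CoeffBC.bc τ (modularFunctionFieldFull N) g)
      (mem_contentRing_bc' A ι₀ ι τ hτ N hg) (red_bc_ne_zero' A ι₀ ι τ hτ N hg hgu) hxg'
      a₁' b₁' e₁ (hna₁ ha₁) hab₁' he₁ a₂' b₂' e₂ (hna₂ ha₂) hab₂' he₂
    rw [bc_bc τ N ι₀ ι hτ] at key
    exact key

end Fermat.Agent.S37.TwoStage
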