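import Mathlib
import Fermat.Agent.S37.GaussNoeth

/-!
# S37, Stage 3, input (FRAC) of WChart: both charts have fraction field `FF L N`

Every element of `FF L N` is a quotient of two elements of the integral closure of `W[j]`
(resp. of `CuspBase W = W[1/j, 1/(1 - 1728/j)]`) in `FF L N`.
-/

set_option autoImplicit false
set_option linter.unusedSectionVars false
set_option linter.style.haveILetI false

noncomputable section

namespace Fermat.Agent.S37.ChartFrac

open Polynomial ModularCurve Fermat.Agent.S18 Fermat.Agent.S18.Gauss Fermat.Agent.S37.GaussPrime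
  Fermat.Agent.S37.GaussNoeth

/-! ### Generic -/

section Generic

/-- The integral closure `B` of a domain `D` in a field `E` that is finite over (a subfield
consisting of) fractions of `D` has fraction field `E`. -/
theorem closure_isFractionRing {D : Type*} [CommRing D] [IsDomain D]
    {E : Type*} [Field E] [Algebra D E]
    (hinj : Function.Injective (algebraMap D E)) (S : Subfield E) [Module.Finite S E]
    (hS : ∀ s ∈ S, ∃ a b : D, algebraMap D E b ≠ 0 ∧ s = algebraMap D E a / algebraMap D E b)
    (B : Type*) [CommRing B] [Algebra D B] [Algebra B E] [IsScalarTower D B E]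
    [IsIntegralClosure B D E] : IsFractionRing B E := by
  letI : Algebra (FractionRing D) E := FFKit.fracAlgebra (FractionRing D) (algebraMap D E) hinj
  haveI : IsScalarTower D (FractionRing D) E := IsScalarTower.of_algebraMap_eq
    (fun a => (FFKit.fracAlgebra_algebraMap (FractionRing D) _ hinj a).symm)
  haveI : FiniteDimensional (FractionRing D) E :=
    FFKit.fracAlgebra_finite (FractionRing D) (algebraMap D E) hinj S hS
  haveI : IsDomain B := (IsIntegralClosure.algebraMap_injective B D E).isDomain _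
  exact IsIntegralClosure.isFractionRing_of_finite_extension D (FractionRing D) E B

/-- Every element of `E` is a quotient of two elements of the integral closure `B`. -/
theorem closure_frac {D : Type*} [CommRing D] [IsDomain D]
    {E : Type*} [Field E] [Algebra D E]
    (hinj : Function.Injective (algebraMap D E)) (S : Subfield E) [Module.Finite S E]
    (hS : ∀ s ∈ S, ∃ a b : D, algebraMap D E b ≠ 0 ∧ s = algebraMap D E a / algebraMap D E b)
    (B : Type*) [CommRing B] [Algebra D B] [Algebra B E] [IsScalarTower D B E]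
    [IsIntegralClosure B D E] (g : E) :
    ∃ y₁ y₂ : B, y₂ ≠ 0 ∧ g * algebraMap B E y₂ = algebraMap B E y₁ := by
  haveI := closure_isFractionRing hinj S hS B
  haveI : IsDomain B := (IsIntegralClosure.algebraMap_injective B D E).isDomain _
  obtain ⟨⟨y₁, y₂⟩, h⟩ := IsLocalization.surj (nonZeroDivisors B) g
  exact ⟨y₁, y₂, nonZeroDivisors.ne_zero y₂.2, h⟩

end Generic

variable {L : Type*} [Field L] [Algebra ℚ L] (W : ValuationSubring L)
  (N : ℕ) [NeZero N]

/-! ### The finite chart -/

section Fin

variable [IsDiscreteValuationRing W]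

/-- the finite chart has fraction field `FF L N` -/
theorem isFractionRing_fin [Algebra (↥W)[X] (Fermat.Agent.S24.FF L N)]
    (halg : algebraMap (↥W)[X] (Fermat.Agent.S24.FF L N) = evF W N)
    (B : Type*) [CommRing B] [Algebra (↥W)[X] B] [Algebra B (Fermat.Agent.S24.FF L N)]
    [IsScalarTower (↥W)[X] B (Fermat.Agent.S24.FF L N)]
    [IsIntegralClosure B (↥W)[X] (Fermat.Agent.S24.FF L N)] :
    IsFractionRing B (Fermat.Agent.S24.FF L N) := by
  haveI h := (Gauss.finrank_FF_le L N).1
  haveI hfin : Module.Finite (IntermediateField.adjoin L {Fermat.Agent.S24.jBC L N}).toSubfield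
      (Fermat.Agent.S24.FF L N) := h
  refine closure_isFractionRing (by rw [halg]; exact evF_injective W N)
    (IntermediateField.adjoin L {Fermat.Agent.S24.jBC L N}).toSubfield ?_ B
  intro s hs
  obtain ⟨a, b, hb, e⟩ := exists_div_of_mem_adjoin (W := ↥W) (Fermat.Agent.S24.jBC L N) s hs
  refine ⟨a, b, ?_, ?_⟩
  · rw [halg, evF_eq_aeval]
    exact hb
  · rw [halg, evF_eq_aeval, evF_eq_aeval]
    exact e

/-- **(FRAC), finite chart**: every element of `FF L N` is a quotient of two elements of any
integral closure `B` of `W[X]` (`X ↦ j`) in `FF L N`. -/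
theorem frac_fin [Algebra (↥W)[X] (Fermat.Agent.S24.FF L N)]
    (halg : algebraMap (↥W)[X] (Fermat.Agent.S24.FF L N) = evF W N)
    (B : Type*) [CommRing B] [Algebra (↥W)[X] B] [Algebra B (Fermat.Agent.S24.FF L N)]
    [IsScalarTower (↥W)[X] B (Fermat.Agent.S24.FF L N)]
    [IsIntegralClosure B (↥W)[X] (Fermat.Agent.S24.FF L N)] (g : Fermat.Agent.S24.FF L N) :
    ∃ y₁ y₂ : B, y₂ ≠ 0 ∧ g * algebraMap B (Fermat.Agent.S24.FF L N) y₂ =
      algebraMap B (Fermat.Agent.S24.FF L N) y₁ := by
  haveI := isFractionRing_fin W N halg B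
  haveI : IsDomain B :=
    (IsIntegralClosure.algebraMap_injective B (↥W)[X] (Fermat.Agent.S24.FF L N)).isDomain _
  obtain ⟨⟨y₁, y₂⟩, h⟩ := IsLocalization.surj (nonZeroDivisors B) g
  exact ⟨y₁, y₂, nonZeroDivisors.ne_zero y₂.2, h⟩

/-- (FRAC) for the finite chart in the literal shape `integralClosure W[X] (FF L N)` under
`(Gauss.evF W N).toAlgebra`. -/
theorem frac_fin_integralClosure :
    letI := (evF W N).toAlgebra
    ∀ g : Fermat.Agent.S24.FF L N,
      ∃ y₁ y₂ : integralClosure (↥W)[X] (Fermat.Agent.S24.FF L N), y₂ ≠ 0 ∧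
        g * algebraMap (integralClosure (↥W)[X] (Fermat.Agent.S24.FF L N))
          (Fermat.Agent.S24.FF L N) y₂ =
        algebraMap (integralClosure (↥W)[X] (Fermat.Agent.S24.FF L N))
          (Fermat.Agent.S24.FF L N) y₁ := by
  letI := (evF W N).toAlgebra
  exact frac_fin W N rfl (integralClosure (↥W)[X] (Fermat.Agent.S24.FF L N))

end Fin

/-! ### The cusp chart -/

section CuspChart

open Fermat.Agent.S18.Cusp

variable [IsDiscreteValuationRing W]

/-- the cusp chart has fraction field `FF L N` -/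
theorem isFractionRing_cusp [Algebra (CuspBase ↥W) (Fermat.Agent.S24.FF L N)]
    (halg : ∀ p : (↥W)[X], algebraMap (CuspBase ↥W) (Fermat.Agent.S24.FF L N)
      (algebraMap (↥W)[X] (CuspBase ↥W) p) = evFinf W N p)
    (B : Type*) [CommRing B] [Algebra (CuspBase ↥W) B] [Algebra B (Fermat.Agent.S24.FF L N)]
    [IsScalarTower (CuspBase ↥W) B (Fermat.Agent.S24.FF L N)]
    [IsIntegralClosure B (CuspBase ↥W) (Fermat.Agent.S24.FF L N)] :
    IsFractionRing B (Fermat.Agent.S24.FF L N) := by
  haveI h := (Gauss.finrank_FF_le L N).1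
  haveI hfin : Module.Finite (IntermediateField.adjoin L {Fermat.Agent.S24.jBC L N}).toSubfield
      (Fermat.Agent.S24.FF L N) := h
  haveI := cuspBase_isDomain ↥W
  refine closure_isFractionRing (cusp_algebraMap_injective W N halg)
    (IntermediateField.adjoin L {Fermat.Agent.S24.jBC L N}).toSubfield ?_ B
  intro s hs
  have hs' : s ∈ IntermediateField.adjoin L {(Fermat.Agent.S24.jBC L N)⁻¹} := by
    have hle : IntermediateField.adjoin L {Fermat.Agent.S24.jBC L N} ≤
        IntermediateField.adjoin L {(Fermat.Agent.S24.jBC L N)⁻¹} := by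
      rw [IntermediateField.adjoin_le_iff, Set.singleton_subset_iff]
      have h1 := inv_mem (IntermediateField.mem_adjoin_simple_self L
        (Fermat.Agent.S24.jBC L N)⁻¹)
      rwa [inv_inv] at h1
    exact hle hs
  obtain ⟨a, b, hb, e⟩ := exists_div_of_mem_adjoin (W := ↥W) (Fermat.Agent.S24.jBC L N)⁻¹ s hs'
  refine ⟨algebraMap (↥W)[X] (CuspBase ↥W) a, algebraMap (↥W)[X] (CuspBase ↥W) b, ?_, ?_⟩
  · rw [halg, evFinf_eq_aeval]
    exact hb
  · rw [halg, halg, evFinf_eq_aeval, evFinf_eq_aeval]
    exact e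

/-- **(FRAC), cusp chart**: every element of `FF L N` is a quotient of two elements of any
integral closure `B` of `CuspBase W` (`t ↦ 1/j`) in `FF L N`. -/
theorem frac_cusp [Algebra (CuspBase ↥W) (Fermat.Agent.S24.FF L N)]
    (halg : ∀ p : (↥W)[X], algebraMap (CuspBase ↥W) (Fermat.Agent.S24.FF L N)
      (algebraMap (↥W)[X] (CuspBase ↥W) p) = evFinf W N p)
    (B : Type*) [CommRing B] [Algebra (CuspBase ↥W) B] [Algebra B (Fermat.Agent.S24.FF L N)]
    [IsScalarTower (CuspBase ↥W) B (Fermat.Agent.S24.FF L N)]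
    [IsIntegralClosure B (CuspBase ↥W) (Fermat.Agent.S24.FF L N)]
    (g : Fermat.Agent.S24.FF L N) :
    ∃ y₁ y₂ : B, y₂ ≠ 0 ∧ g * algebraMap B (Fermat.Agent.S24.FF L N) y₂ =
      algebraMap B (Fermat.Agent.S24.FF L N) y₁ := by
  haveI := isFractionRing_cusp W N halg B
  haveI : IsDomain B :=
    (IsIntegralClosure.algebraMap_injective B (CuspBase ↥W)
      (Fermat.Agent.S24.FF L N)).isDomain _
  obtain ⟨⟨y₁, y₂⟩, h⟩ := IsLocalization.surj (nonZeroDivisors B) g
  exact ⟨y₁, y₂, nonZeroDivisors.ne_zero y₂.2, h⟩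

end CuspChart

end Fermat.Agent.S37.ChartFrac
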