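/-
S37 (chart normality, hypothesis `hinert`) for the Hesse chart (`ℓ = 2`): for every nontrivial
automorphism `σ` of `Y' = F(x0)` over `F` the difference `σ x0 - x0` divides `j (j - 1728)` in
the integral closure of `W[j]`.  From `InertDeriv.hinert_of_derivative` and the identity
`P'(x0) · 9 x0 (x0³ + 8)(x0⁶ - 20 x0³ - 8) z⁵ = j (j - 1728)`, `z = 1/(x0³ - 1)`.
-/
import Mathlib
import Fermat.Agent.S37.InertDeriv
import Fermat.Agent.S18.HesseJ

set_option autoImplicit false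
set_option linter.style.haveILetI false

namespace Fermat.Agent.S37.ChartInstHesseInert

open Polynomial Fermat.Agent.S18 Fermat.Agent.S18.AuxCover Fermat.Agent.S18.Hesse

/-- The key identity in a field: `P'(x) · r0 = J (J - 1728)` for `J = hesJ x z`. -/
theorem hesse_derivative_identity {Y : Type*} [Field Y] (x : Y) (hx : x ^ 3 - 1 ≠ 0) :
    3 * x ^ 2 * (108 * ((x ^ 3 + 8) ^ 2 * (x ^ 3 + 2))
        - 3 * hesJ x (x ^ 3 - 1)⁻¹ * (x ^ 3 - 1) ^ 2)
      * (9 * x * (x ^ 3 + 8) * (x ^ 6 - 20 * x ^ 3 - 8) * ((x ^ 3 - 1)⁻¹) ^ 5)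
      = hesJ x (x ^ 3 - 1)⁻¹ * (hesJ x (x ^ 3 - 1)⁻¹ - 1728) := by
  unfold hesJ
  field_simp
  ring

variable {W F : Type*} [CommRing W] [IsDomain W] [Field F] [CharZero F] [Algebra W F]
  (j : F) [Algebra W[X] F] [IsScalarTower W W[X] F]

omit [IsDomain W] [Algebra W F] [IsScalarTower W W[X] F] in
/-- `x0` is a root of the Hesse polynomial of `X ∈ W[X]` (for the `j`-structure). -/
theorem aeval_hesY_root_poly (hj : algebraMap W[X] F X = j) :
    aeval (hesY_root j) (hessePoly (X : W[X])) = 0 := by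
  have h1 := aeval_hesY_root j
  rw [aeval_hessePoly] at h1 ⊢
  rw [IsScalarTower.algebraMap_apply W[X] F (HesY j), hj]
  exact h1

/-- **`hinert` for the Hesse chart.** -/
theorem hesse_hinert (hj : algebraMap W[X] F X = j) (h3 : IsUnit (3 : W)) (π : W)
    (hπ : ¬ IsUnit π) :
    ∀ σ : HesY j ≃ₐ[F] HesY j, σ ≠ 1 → ∃ y r : HesY j, IsIntegral W[X] y ∧ IsIntegral W[X] r ∧
      ∃ g : W[X], ¬ C π ∣ g ∧ (σ y - y) * r = algebraMap W[X] (HesY j) g := by
  -- `27` is a unit
  obtain ⟨u, hu⟩ : ∃ u : W, 27 * u = 1 := by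
    obtain ⟨v, hv⟩ := h3.exists_right_inv
    exact ⟨v ^ 3, by linear_combination (9 * v ^ 2 + 3 * v + 1) * hv⟩
  have hroot := aeval_hesY_root_poly j hj
  have hx0 : IsIntegral W[X] (hesY_root j) :=
    isIntegral_of_aeval_hessePoly (X : W[X]) (C u)
      (by rw [← map_ofNat C 27, ← C_mul, hu, C_1]) _ hroot
  haveI : Algebra.IsIntegral W[X] (HesJ W) := hesJ_isIntegral W h3
  haveI : IsScalarTower W[X] (HesJ W) (HesY j) := hesY_isScalarTower_poly (W := W) j hj
  -- the cofactor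
  let r0' : HesJ W := 9 * xJ W * (xJ W ^ 3 + 8) * (xJ W ^ 6 - 20 * xJ W ^ 3 - 8) * zJ W ^ 5
  have hr0 : IsIntegral W[X] (algebraMap (HesJ W) (HesY j) r0') :=
    (Algebra.IsIntegral.isIntegral (R := W[X]) r0').algebraMap
  have hne : hesY_root j ^ 3 - 1 ≠ 0 := sub_ne_zero.mpr (hesY_root_cube_ne_one j)
  have hg : aeval (hesY_root j) (derivative (hessePoly (X : W[X]))) *
      algebraMap (HesJ W) (HesY j) r0' = algebraMap W[X] (HesY j) (X * (X - C 1728)) := by
    have hJ : algebraMap W[X] (HesY j) X = hesJ (hesY_root j) (hesY_root j ^ 3 - 1)⁻¹ := by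
      rw [IsScalarTower.algebraMap_apply W[X] F (HesY j), hj, hesJ_hesY_root]
    have hC : algebraMap W[X] (HesY j) (C 1728) = 1728 := by
      rw [map_ofNat C 1728, map_ofNat]
    have hG : algebraMap W[X] (HesY j) (X * (X - C 1728)) =
        hesJ (hesY_root j) (hesY_root j ^ 3 - 1)⁻¹ *
          (hesJ (hesY_root j) (hesY_root j ^ 3 - 1)⁻¹ - 1728) := by
      rw [map_mul, map_sub, hJ, hC]
    have hR : algebraMap (HesJ W) (HesY j) r0' =
        9 * hesY_root j * (hesY_root j ^ 3 + 8) *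
          (hesY_root j ^ 6 - 20 * hesY_root j ^ 3 - 8) * ((hesY_root j ^ 3 - 1)⁻¹) ^ 5 := by
      simp only [r0', map_mul, map_sub, map_add, map_pow, map_ofNat, algebraMap_hesY_xJ,
        algebraMap_hesY_zJ]
    rw [aeval_derivative_hessePoly, hR, hG, hJ]
    exact hesse_derivative_identity (hesY_root j) hne
  refine InertDeriv.hinert_of_derivative (C π) (hessePoly (X : W[X])) (hesY_root j) hx0 hroot
    (adjoin_hesY_root j) _ hr0 (X * (X - C 1728)) ?_ hg
  intro hdvd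
  have h2 := (Polynomial.C_dvd_iff_dvd_coeff _ _).mp hdvd 2
  have hcoeff : (X * (X - C 1728) : W[X]).coeff 2 = 1 := by
    rw [mul_sub, ← sq, coeff_sub, coeff_X_pow, if_pos rfl, mul_comm, coeff_C_mul, coeff_X]
    norm_num
  rw [hcoeff] at h2
  exact hπ (isUnit_of_dvd_one h2)

end Fermat.Agent.S37.ChartInstHesseInert
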