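import Mathlib
import Fermat.Agent.S18.FiniteChartCore

set_option autoImplicit false
set_option linter.style.haveILetI false

/-!
# S37, package C2 (chart-normal instances): `hU` for the finite chart of the function field

The finite chart (Legendre / Hesse) for the function field `F` itself (no Kummer layer):
`W[X]` (`X ↦ j`) is the chart of the `j`-line, `R0` the regular chart of the auxiliary line,
`BM = R0[1/π]`, `K' = Frac R0` Galois over `K = Frac L[X]`, `F = K(θ)`, `Y' = F · K'`.

* `adjoin_simple_eq_top` : `Y' = K'(θ)`;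
* `traceNondeg_vertical_simple` : `hU` at the vertical prime `(π)` of `R0`;
* `finite_chart_hU` : `hU` at `(π)` and at every prime of `R0` not containing `π`.
-/

namespace Fermat.Agent.S37.ChartInst

open Polynomial
open Fermat.Agent.S18

section Generation

/-- `Y' = K'(θ)` as soon as `F = K(θ)` and `Y' = F · K'`. -/
theorem adjoin_simple_eq_top {K F K' Y' : Type*} [Field K] [Field F] [Field K']
    [Field Y'] [Algebra K F] [Algebra K K'] [Algebra K Y'] [Algebra F Y'] [Algebra K' Y']
    [IsScalarTower K F Y'] [IsScalarTower K K' Y']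
    (hFM : IntermediateField.adjoin F (Set.range (algebraMap K' Y')) = ⊤)
    (θ : F) (hθ : IntermediateField.adjoin K {θ} = ⊤) :
    IntermediateField.adjoin K' {algebraMap F Y' θ} = ⊤ := by
  set θ' : Y' := algebraMap F Y' θ with hθ'
  set S : IntermediateField K' Y' := IntermediateField.adjoin K' {θ'} with hS
  have hK : ∀ x : K, algebraMap F Y' (algebraMap K F x) =
      algebraMap K' Y' (algebraMap K K' x) := fun x => by
    rw [← IsScalarTower.algebraMap_apply K F Y', ← IsScalarTower.algebraMap_apply K K' Y']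
  -- the image of `F` lies in `K'(θ')`
  have hA : ∀ x : F, algebraMap F Y' x ∈ S := by
    let T : IntermediateField K F :=
      (S.toSubfield.comap (algebraMap F Y')).toIntermediateField (fun x => by
        change algebraMap F Y' (algebraMap K F x) ∈ S
        rw [hK]
        exact S.algebraMap_mem _)
    have hT : IntermediateField.adjoin K {θ} ≤ T := by
      rw [IntermediateField.adjoin_le_iff, Set.singleton_subset_iff]
      exact IntermediateField.mem_adjoin_simple_self K' θ'
    intro x
    have : x ∈ T := hT (by rw [hθ]; trivial)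
    exact this
  let T3 : IntermediateField F Y' := S.toSubfield.toIntermediateField hA
  have hT3 : IntermediateField.adjoin F (Set.range (algebraMap K' Y')) ≤ T3 := by
    rw [IntermediateField.adjoin_le_iff]
    rintro _ ⟨x, rfl⟩
    exact S.algebraMap_mem x
  rw [eq_top_iff]
  intro y _
  have : y ∈ T3 := hT3 (by rw [hFM]; trivial)
  exact this

end Generation

section Vertical

/-- **Vertical prime of a chart, simple-extension form**: `Y' = K'(θ)` with `θ` killed by a monic
`P` over `W[X]` whose reduction is separable. -/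
theorem traceNondeg_vertical_simple
    {W k R0 K' Y' B' : Type*} [CommRing W] [Field k]
    [CommRing R0] [IsDomain R0] [IsIntegrallyClosed R0]
    [Field K'] [Algebra R0 K'] [IsFractionRing R0 K']
    [Field Y'] [Algebra K' Y'] [Algebra R0 Y'] [IsScalarTower R0 K' Y'] [FiniteDimensional K' Y']
    [Algebra.IsSeparable K' Y']
    [CommRing B'] [Algebra R0 B'] [Algebra B' Y'] [IsScalarTower R0 B' Y']
    [IsIntegralClosure B' R0 Y']
    (κ₀ : Type*) [Field κ₀] [Algebra k[X] κ₀] [IsFractionRing k[X] κ₀]
    (res : W →+* k) (hres : Function.Surjective res)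
    (ι : W[X] →+* R0) (ϖ : R0) (hϖ : Prime ϖ)
    (hι : ∀ f : W[X], ϖ ∣ ι f ↔ f.map res = 0)
    (θ : Y') (hgen : IntermediateField.adjoin K' {θ} = ⊤)
    (P : (W[X])[X]) (hP : P.Monic)
    (hPθ : eval₂ ((algebraMap R0 Y').comp ι) θ P = 0)
    (hsep : ((P.map (mapRingHom res)).map (algebraMap k[X] κ₀)).Separable) :
    TowerUnram.TraceNondeg R0 K' Y' B' (Ideal.span {ϖ}) := by
  have hθint : IsIntegral K' θ := IsIntegral.of_finite K' θ
  have hθalg : Algebra.adjoin K' {θ} = ⊤ := by
    have h1 := IntermediateField.adjoin_simple_toSubalgebra_of_isAlgebraic hθint.isAlgebraic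
    rw [hgen, IntermediateField.top_toSubalgebra] at h1
    exact h1.symm
  have hPθ' : aeval θ (P.map ι) = 0 := by
    rw [aeval_def, eval₂_map]
    exact hPθ
  intro x hx
  exact VerticalChart.hU_vertical_chart' (K := K') κ₀ res hres ϖ hϖ ι hι θ hθalg P hP hPθ' hsep
    x hx

end Vertical

section Main

/-- **`hU` for the finite chart of the function field** (no Kummer layer): the trace form of
the integral closure of `R0` in `Y' = F · K'` is nondegenerate at the vertical prime `(π)` and
at every prime of `R0` not containing `π`. -/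
theorem finite_chart_hU
    {W k L K F R0 BM K' Y' : Type*} [CommRing W] [Field k] [Field L] [Algebra ℚ L]
    [Field K] [Algebra L[X] K] [IsFractionRing L[X] K]
    [Field F] [Algebra K F] [FiniteDimensional K F]
    [Algebra L[X] F] [IsScalarTower L[X] K F] [Algebra W[X] F]
    [CommRing R0] [IsDomain R0] [IsIntegrallyClosed R0]
    [Algebra W[X] R0]
    [Field K'] [Algebra R0 K'] [IsFractionRing R0 K']
    [Algebra K K'] [FiniteDimensional K K'] [IsGalois K K'] [Algebra L[X] K']
    [IsScalarTower L[X] K K']
    [Field Y'] [Algebra K Y'] [Algebra F Y'] [Algebra K' Y'] [IsScalarTower K F Y']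
    [IsScalarTower K K' Y']
    [Algebra R0 Y'] [IsScalarTower R0 K' Y'] [Algebra W[X] Y'] [IsScalarTower W[X] R0 Y']
    [IsScalarTower W[X] F Y']
    (hFM : IntermediateField.adjoin F (Set.range (algebraMap K' Y')) = ⊤)
    [CommRing BM] [Algebra L[X] BM] [Algebra BM K'] [IsScalarTower L[X] BM K']
    [IsIntegralClosure BM L[X] K'] [Algebra BM Y'] [IsScalarTower BM K' Y']
    [Algebra R0 BM] [IsScalarTower R0 BM K']
    (π : W) [IsLocalization.Away (algebraMap W[X] R0 (C π)) BM]
    (hπ : Prime (algebraMap W[X] R0 (C π)))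
    -- horizontal primes: branch data
    (hF : ∀ P : Ideal (integralClosure L[X] F), P.IsPrime → P ≠ ⊥ →
      (X ∈ P.under L[X] → P.ramificationIdx L[X] ∣ 3) ∧
      (X - C 1728 ∈ P.under L[X] → P.ramificationIdx L[X] ∣ 2) ∧
      (X ∉ P.under L[X] → X - C 1728 ∉ P.under L[X] → P.ramificationIdx L[X] = 1))
    (u₀ g₀ u₁ g₁ : BM) (hu₀ : IsUnit u₀) (h₀ : algebraMap L[X] BM X = u₀ * g₀ ^ 3)
    (hu₁ : IsUnit u₁) (h₁ : algebraMap L[X] BM (X - C 1728) = u₁ * g₁ ^ 2)
    -- vertical prime: the monogenic separable datum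
    (κ₀ : Type*) [Field κ₀] [Algebra k[X] κ₀] [IsFractionRing k[X] κ₀]
    (res : W →+* k) (hres : Function.Surjective res)
    (hι : ∀ f : W[X], algebraMap W[X] R0 (C π) ∣ algebraMap W[X] R0 f ↔ f.map res = 0)
    (θ : F) (hθ : IntermediateField.adjoin K {θ} = ⊤)
    (P : (W[X])[X]) (hP : P.Monic)
    (hPθ : eval₂ (algebraMap W[X] F) θ P = 0)
    (hsep : ((P.map (mapRingHom res)).map (algebraMap k[X] κ₀)).Separable)
    (𝔭 : Ideal R0) (h𝔭 : 𝔭.IsPrime)
    (hcase : 𝔭 = Ideal.span {algebraMap W[X] R0 (C π)} ∨ algebraMap W[X] R0 (C π) ∉ 𝔭) :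
    TowerUnram.TraceNondeg R0 K' Y' (integralClosure R0 Y') 𝔭 := by
  classical
  haveI : CharZero L := algebraRat.charZero L
  haveI : CharZero L[X] := charZero_of_injective_algebraMap (C_injective (R := L))
  haveI : CharZero K := charZero_of_injective_algebraMap (IsFractionRing.injective L[X] K)
  haveI : CharZero K' := charZero_of_injective_algebraMap (algebraMap K K').injective
  haveI : IsGalois F Y' := Abhyankar.isGalois_of_adjoin_eq_top (K := K) hFM
  haveI : FiniteDimensional F Y' := Abhyankar.finiteDimensional_of_adjoin_eq_top (K := K) hFM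
  haveI : FiniteDimensional K Y' := FiniteDimensional.trans K F Y'
  haveI : FiniteDimensional K' Y' := FiniteDimensional.right K K' Y'
  haveI : Algebra.IsSeparable K' Y' := inferInstance
  haveI := h𝔭
  rcases hcase with rfl | hcase
  · have hgen := adjoin_simple_eq_top (K := K) hFM θ hθ
    have hPθ' : eval₂ ((algebraMap R0 Y').comp (algebraMap W[X] R0)) (algebraMap F Y' θ) P = 0 := by
      rw [← IsScalarTower.algebraMap_eq W[X] R0 Y', IsScalarTower.algebraMap_eq W[X] F Y',
        ← hom_eval₂, hPθ, map_zero]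
    exact traceNondeg_vertical_simple κ₀ res hres (algebraMap W[X] R0) _ hπ hι
      (algebraMap F Y' θ) hgen P hP hPθ' hsep
  · exact FiniteChartCore.traceNondeg_horizontal K (BF2 := integralClosure L[X] F) hFM hF
      u₀ g₀ u₁ g₁ hu₀ h₀ hu₁ h₁ (algebraMap W[X] R0 (C π)) 𝔭 hcase

end Main

end Fermat.Agent.S37.ChartInst
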