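import Mathlib
import Fermat.Agent.S37.ChartInstHU
import Fermat.Agent.S18.HesseChart
import Fermat.Agent.S18.LegendreChart

set_option autoImplicit false
set_option linter.unusedSectionVars false
set_option linter.style.haveILetI false
set_option linter.unusedSimpArgs false

/-!
# S37, package C2: `hU` for the Hesse and Legendre charts of the function field

`finite_chart_hU` instantiated at the Hesse chart (`R0 = HesJ W`, `K' = HesK L`, `Y' = HesY j`)
and at the Legendre chart (`R0 = LegJ W`, `K' = LegK L`, `Y' = LegY j`), for a field `F` finite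
over `K = Frac L[X]` (the function field itself: no Kummer layer).  The contexts are those of
`Hesse.hesse_finite_chart_lift` / `LegendreJ.legendre_finite_chart_lift` with `F2 := F`.
-/

namespace Fermat.Agent.S37.ChartInst

open Polynomial
open Fermat.Agent.S18

section HesseChart

open Fermat.Agent.S18.Hesse Fermat.Agent.S18.AuxCover

/-- **`hU` for the Hesse chart of `F`** (residue characteristic prime to `3`). -/
theorem hesse_hU
    {W k L K F : Type*} [CommRing W] [IsDomain W] [IsNoetherianRing W] [IsIntegrallyClosed W]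
    [Field k] [Field L] [CharZero L] [Algebra W L]
    [Field K] [Algebra L[X] K] [IsFractionRing L[X] K]
    [Field F] [CharZero F] [Algebra K F] [FiniteDimensional K F]
    [Algebra L[X] F] [IsScalarTower L[X] K F] [Algebra W[X] F]
    [Algebra W F] [Algebra L F] [IsScalarTower W L F] [IsScalarTower L L[X] F]
    [IsScalarTower W W[X] F]
    (j : F) (hjL : algebraMap L[X] F X = j) (hjW : algebraMap W[X] F X = j)
    (htr : Transcendental L j)
    (ω : L) (hω : ω ^ 2 + ω + 1 = 0)
    (π : W) (hπ : Prime π) (hmax : (Ideal.span {π}).IsMaximal) (h3 : IsUnit (3 : W))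
    [IsLocalization.Away π L] (hinj : Function.Injective (algebraMap W L))
    (hF : ∀ P : Ideal (integralClosure L[X] F), P.IsPrime → P ≠ ⊥ →
      (X ∈ P.under L[X] → P.ramificationIdx L[X] ∣ 3) ∧
      (X - C 1728 ∈ P.under L[X] → P.ramificationIdx L[X] ∣ 2) ∧
      (X ∉ P.under L[X] → X - C 1728 ∉ P.under L[X] → P.ramificationIdx L[X] = 1))
    (κ₀ : Type*) [Field κ₀] [Algebra k[X] κ₀] [IsFractionRing k[X] κ₀]
    (res : W →+* k) (hres : Function.Surjective res) (hker : RingHom.ker res = Ideal.span {π})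
    (θ : F) (hθ : IntermediateField.adjoin K {θ} = ⊤)
    (P : (W[X])[X]) (hP : P.Monic)
    (hPθ : eval₂ (algebraMap W[X] F) θ P = 0)
    (hsep : ((P.map (mapRingHom res)).map (algebraMap k[X] κ₀)).Separable) :
    haveI : Fact (Transcendental L j) := ⟨htr⟩
    ∀ 𝔭 : Ideal (HesJ W), 𝔭.IsPrime →
      (𝔭 = Ideal.span {algebraMap W[X] (HesJ W) (C π)} ∨
        algebraMap W[X] (HesJ W) (C π) ∉ 𝔭) →
      TowerUnram.TraceNondeg (HesJ W) (HesK L) (HesY j) (integralClosure (HesJ W) (HesY j)) 𝔭 := by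
  have h3L : (3 : L) ≠ 0 := by norm_num
  haveI : Fact (Transcendental L j) := ⟨htr⟩
  letI := hesKAlgebra L K
  haveI := hesKAlgebra_isScalarTower L K
  haveI := hesKY_isScalarTower_frac (K := K) j hjL
  haveI : FiniteDimensional K (HesK L) := hesKAlgebra_finiteDimensional L K
  haveI : IsGalois K (HesK L) := hesKAlgebra_isGalois L K ω hω
  haveI : IsIntegralClosure (HesJ L) L[X] (HesK L) := hesJ_isIntegralClosure L h3L (HesK L)
  haveI : IsFractionRing (HesJ W) (HesK L) := hesK_isFractionRing W L π hinj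
  haveI : IsLocalization.Away (algebraMap W[X] (HesJ W) (C π)) (HesJ L) :=
    hesBC_isLocalization W L π hinj
  haveI : IsScalarTower W[X] (HesJ W) (HesY j) := hesY_isScalarTower_poly (W := W) j hjW
  obtain ⟨u₀, g₀, hu₀, h₀⟩ := hesJ_branch_zero L h3L
  obtain ⟨u₁, g₁, hu₁, h₁⟩ := hesJ_branch_1728 L h3L
  intro 𝔭 h𝔭 hcase
  exact finite_chart_hU (K := K) (F := F) (R0 := HesJ W) (BM := HesJ L)
    (K' := HesK L) (Y' := HesY j) (hesY_adjoin_range L j) π (hesJ_prime W hπ) hF
    u₀ g₀ u₁ g₁ hu₀ h₀ hu₁ h₁ κ₀ res hres (hesJ_dvd_iff W h3 hπ hmax res hker)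
    θ hθ P hP hPθ hsep 𝔭 h𝔭 hcase

end HesseChart

section LegendreChart

open Fermat.Agent.S18.LegendreJ Fermat.Agent.S18.Legendre Fermat.Agent.S18.AuxCover

/-- **`hU` for the Legendre chart of `F`** (odd residue characteristic). -/
theorem legendre_hU
    {W k L K F : Type*} [CommRing W] [IsDomain W] [IsNoetherianRing W] [IsIntegrallyClosed W]
    [Field k] [Field L] [CharZero L] [Algebra W L]
    [Field K] [Algebra L[X] K] [IsFractionRing L[X] K]
    [Field F] [CharZero F] [Algebra K F] [FiniteDimensional K F]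
    [Algebra L[X] F] [IsScalarTower L[X] K F] [Algebra W[X] F]
    [Algebra W F] [Algebra L F] [IsScalarTower W L F] [IsScalarTower L L[X] F]
    [IsScalarTower W W[X] F]
    (j : F) (hjL : algebraMap L[X] F X = j) (hjW : algebraMap W[X] F X = j)
    (htr : Transcendental L j)
    (π : W) (hπ : Prime π) (hmax : (Ideal.span {π}).IsMaximal) (h2 : IsUnit (2 : W))
    [IsLocalization.Away π L] (hinj : Function.Injective (algebraMap W L))
    (hF : ∀ P : Ideal (integralClosure L[X] F), P.IsPrime → P ≠ ⊥ →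
      (X ∈ P.under L[X] → P.ramificationIdx L[X] ∣ 3) ∧
      (X - C 1728 ∈ P.under L[X] → P.ramificationIdx L[X] ∣ 2) ∧
      (X ∉ P.under L[X] → X - C 1728 ∉ P.under L[X] → P.ramificationIdx L[X] = 1))
    (κ₀ : Type*) [Field κ₀] [Algebra k[X] κ₀] [IsFractionRing k[X] κ₀]
    (res : W →+* k) (hres : Function.Surjective res) (hker : RingHom.ker res = Ideal.span {π})
    (θ : F) (hθ : IntermediateField.adjoin K {θ} = ⊤)
    (P : (W[X])[X]) (hP : P.Monic)
    (hPθ : eval₂ (algebraMap W[X] F) θ P = 0)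
    (hsep : ((P.map (mapRingHom res)).map (algebraMap k[X] κ₀)).Separable) :
    haveI : Fact (Transcendental L j) := ⟨htr⟩
    ∀ 𝔭 : Ideal (LegJ W), 𝔭.IsPrime →
      (𝔭 = Ideal.span {algebraMap W[X] (LegJ W) (C π)} ∨
        algebraMap W[X] (LegJ W) (C π) ∉ 𝔭) →
      TowerUnram.TraceNondeg (LegJ W) (LegK L) (LegY j) (integralClosure (LegJ W) (LegY j)) 𝔭 := by
  haveI : Fact (Transcendental L j) := ⟨htr⟩
  letI := legKAlgebra L K
  haveI := legKAlgebra_isScalarTower L K
  haveI := legKY_isScalarTower_frac (K := K) j hjL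
  haveI : FiniteDimensional K (LegK L) := legKAlgebra_finiteDimensional L K
  haveI : IsGalois K (LegK L) := legKAlgebra_isGalois L K
  haveI : IsIntegralClosure (LegJ L) L[X] (LegK L) := isIntegralClosure L (LegK L)
  haveI hloc : IsLocalization.Away (algebraMap W[X] (LegJ W) (C π)) (LegJ L) :=
    isLocalization_away_of_away π hinj
  haveI : IsFractionRing (LegJ W) (LegK L) :=
    legK_isFractionRing W L (algebraMap W[X] (LegJ W) (C π)) hinj
  haveI : IsScalarTower W[X] (LegJ W) (LegY j) := legY_isScalarTower_poly (W := W) j hjW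
  obtain ⟨u₀, g₀, hu₀, h₀⟩ := branch_X L
  obtain ⟨u₁, g₁, hu₁, h₁⟩ := branch_X_sub L
  intro 𝔭 h𝔭 hcase
  exact finite_chart_hU (K := K) (F := F) (R0 := LegJ W) (BM := LegJ L)
    (K' := LegK L) (Y' := LegY j) (legY_adjoin_range j L) π (prime_poly_C hπ) hF
    u₀ g₀ u₁ g₁ hu₀ h₀ hu₁ h₁ κ₀ res hres (dvd_iff_map_eq_zero h2 hπ hmax res hker)
    θ hθ P hP hPθ hsep 𝔭 h𝔭 hcase

end LegendreChart

end Fermat.Agent.S37.ChartInst
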