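import Mathlib
import Fermat.Agent.S37.ChartInstFin
import Fermat.Agent.S18.ChartNormal

set_option autoImplicit false
set_option linter.unusedSectionVars false
set_option linter.style.haveILetI false
set_option linter.unusedSimpArgs false

/-!
# S37, package C2: normality of the special fibre of the finite chart of the function field

`ChartNormal.chart_normal` instantiated at the finite chart `D = W[X]` (`X ↦ j`), with the
purity hypothesis `hU` discharged by `finite_chart_hU`.  Remaining inputs: `hπF` (`π` is prime in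
the integral closure of `W[X]` in `F`) and `hinert` (no inertia in `Gal(Y'/F)` at `π`).

* `finite_chart_normal` : abstract chart `R0`, `BM`, `K'`, `Y'`;
* `hesse_chart_normal`, `legendre_chart_normal` : the Hesse and Legendre charts.
-/

namespace Fermat.Agent.S37.ChartInst

open Polynomial
open Fermat.Agent.S18

section Abstract

/-- **The special fibre of the finite chart of `F` is a Dedekind domain** (abstract chart). -/
theorem finite_chart_normal
    {W k L K F R0 BM K' Y' : Type*} [CommRing W] [IsNoetherianRing W] [Field k] [IsAlgClosed k]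
    [Field L] [Algebra ℚ L]
    [Field K] [Algebra L[X] K] [IsFractionRing L[X] K]
    [Field F] [Algebra K F] [FiniteDimensional K F]
    [Algebra L[X] F] [IsScalarTower L[X] K F] [Algebra W[X] F]
    [CommRing R0] [IsDomain R0] [IsNoetherianRing R0] [IsIntegrallyClosed R0]
    [Algebra W[X] R0] [Module.Finite W[X] R0]
    [Field K'] [Algebra R0 K'] [IsFractionRing R0 K']
    [Algebra K K'] [FiniteDimensional K K'] [IsGalois K K'] [Algebra L[X] K']
    [IsScalarTower L[X] K K']
    [Field Y'] [Algebra K Y'] [Algebra F Y'] [Algebra K' Y'] [IsScalarTower K F Y']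
    [IsScalarTower K K' Y']
    [Algebra R0 Y'] [IsScalarTower R0 K' Y'] [Algebra W[X] Y'] [IsScalarTower W[X] R0 Y']
    [IsScalarTower W[X] F Y']
    (hFM : IntermediateField.adjoin F (Set.range (algebraMap K' Y')) = ⊤)
    [CommRing BM] [Algebra L[X] BM] [Algebra BM K'] [IsScalarTower L[X] BM K']
    [IsIntegralClosure BM L[X] K'] [Algebra BM Y'] [IsScalarTower BM K' Y']
    [Algebra R0 BM] [IsScalarTower R0 BM K']
    (π : W) [IsLocalization.Away (algebraMap W[X] R0 (C π)) BM]
    (hπ : Prime (algebraMap W[X] R0 (C π)))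
    (hDed : IsDedekindDomain (R0 ⧸ Ideal.span {algebraMap W[X] R0 (C π)}))
    (hcompat : ∀ a : W[X], algebraMap W[X] R0 (C π) ∣ algebraMap W[X] R0 a → C π ∣ a)
    (hinjD : Function.Injective (algebraMap W[X] R0))
    (hF : ∀ P : Ideal (integralClosure L[X] F), P.IsPrime → P ≠ ⊥ →
      (X ∈ P.under L[X] → P.ramificationIdx L[X] ∣ 3) ∧
      (X - C 1728 ∈ P.under L[X] → P.ramificationIdx L[X] ∣ 2) ∧
      (X ∉ P.under L[X] → X - C 1728 ∉ P.under L[X] → P.ramificationIdx L[X] = 1))
    (u₀ g₀ u₁ g₁ : BM) (hu₀ : IsUnit u₀) (h₀ : algebraMap L[X] BM X = u₀ * g₀ ^ 3)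
    (hu₁ : IsUnit u₁) (h₁ : algebraMap L[X] BM (X - C 1728) = u₁ * g₁ ^ 2)
    (κ₀ : Type*) [Field κ₀] [Algebra k[X] κ₀] [IsFractionRing k[X] κ₀]
    (res : W →+* k) (hres : Function.Surjective res) (hker : ∀ a : W, res a = 0 → π ∣ a)
    (hι : ∀ f : W[X], algebraMap W[X] R0 (C π) ∣ algebraMap W[X] R0 f ↔ f.map res = 0)
    (θ : F) (hθ : IntermediateField.adjoin K {θ} = ⊤)
    (P : (W[X])[X]) (hP : P.Monic)
    (hPθ : eval₂ (algebraMap W[X] F) θ P = 0)
    (hsep : ((P.map (mapRingHom res)).map (algebraMap k[X] κ₀)).Separable)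
    (hπF : Prime (algebraMap W[X] (integralClosure W[X] F) (C π)))
    (hinert : ∀ σ : Y' ≃ₐ[F] Y', σ ≠ 1 → ∃ y r : Y', IsIntegral W[X] y ∧ IsIntegral W[X] r ∧
      ∃ g : W[X], ¬ C π ∣ g ∧ (σ y - y) * r = algebraMap W[X] Y' g) :
    IsDedekindDomain
      (integralClosure W[X] F ⧸
        Ideal.span {algebraMap W[X] (integralClosure W[X] F) (C π)}) := by
  classical
  haveI : CharZero L := algebraRat.charZero L
  haveI : CharZero L[X] := charZero_of_injective_algebraMap (C_injective (R := L))
  haveI : CharZero K := charZero_of_injective_algebraMap (IsFractionRing.injective L[X] K)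
  haveI : CharZero K' := charZero_of_injective_algebraMap (algebraMap K K').injective
  haveI : IsGalois F Y' := Abhyankar.isGalois_of_adjoin_eq_top (K := K) hFM
  haveI : FiniteDimensional F Y' := Abhyankar.finiteDimensional_of_adjoin_eq_top (K := K) hFM
  haveI : FiniteDimensional K Y' := FiniteDimensional.trans K F Y'
  haveI : FiniteDimensional K' Y' := FiniteDimensional.right K K' Y'
  haveI : Algebra.IsSeparable K' Y' := inferInstance
  refine ChartNormal.chart_normal (W := W) (k := k) (D := W[X]) (R0 := R0) (K' := K') (F := F)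
    (Y' := Y') res hres (C π) (fun a ha => ?_) hinjD hπ hDed hcompat
    (fun 𝔭 h𝔭 hcase => finite_chart_hU (K := K) (BM := BM) hFM π hπ hF u₀ g₀ u₁ g₁ hu₀ h₀ hu₁ h₁
      κ₀ res hres hι θ hθ P hP hPθ hsep 𝔭 h𝔭 hcase) hπF hinert
  rw [Polynomial.algebraMap_apply, Algebra.algebraMap_self, RingHom.id_apply]
  exact map_dvd C (hker a ha)

end Abstract

section Glue

/-- the chart map `W[X] → R0` is injective as soon as `W[X] → F` is. -/
theorem injective_chart_of_tower {D R0 F Y' : Type*} [CommRing D] [CommRing R0] [Field F]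
    [Field Y'] [Algebra D R0] [Algebra D F] [Algebra R0 Y'] [Algebra F Y'] [Algebra D Y']
    [IsScalarTower D R0 Y'] [IsScalarTower D F Y']
    (h : Function.Injective (algebraMap D F)) : Function.Injective (algebraMap D R0) := by
  have h1 : Function.Injective (algebraMap D Y') := by
    rw [IsScalarTower.algebraMap_eq D F Y']
    exact (algebraMap F Y').injective.comp h
  rw [IsScalarTower.algebraMap_eq D R0 Y'] at h1
  exact Function.Injective.of_comp h1

/-- `W[X] → F`, `X ↦ j`, is injective when `j` is transcendental over `L ⊇ W`. -/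
theorem injective_poly_of_transcendental {W L F : Type*} [CommRing W] [Field L] [Field F]
    [Algebra W L] [Algebra L F] [Algebra W F] [IsScalarTower W L F] [Algebra W[X] F]
    [IsScalarTower W W[X] F] (j : F) (hjW : algebraMap W[X] F X = j)
    (htr : Transcendental L j) (hinj : Function.Injective (algebraMap W L)) :
    Function.Injective (algebraMap W[X] F) := by
  have key : ∀ p : W[X], algebraMap W[X] F p = aeval j (p.map (algebraMap W L)) := by
    intro p
    have h1 : (algebraMap W[X] F) = (aeval j : L[X] →ₐ[L] F).toRingHom.comp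
        (mapRingHom (algebraMap W L)) := by
      refine Polynomial.ringHom_ext (fun a => ?_) ?_
      · rw [RingHom.comp_apply, coe_mapRingHom, map_C]
        simp only [AlgHom.toRingHom_eq_coe, RingHom.coe_coe, aeval_C]
        rw [← IsScalarTower.algebraMap_apply W L F, IsScalarTower.algebraMap_apply W W[X] F,
          Polynomial.algebraMap_apply, Algebra.algebraMap_self, RingHom.id_apply]
      · rw [RingHom.comp_apply, coe_mapRingHom, map_X]
        simp only [AlgHom.toRingHom_eq_coe, RingHom.coe_coe, aeval_X]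
        exact hjW
    rw [h1]
    rfl
  rw [injective_iff_map_eq_zero]
  intro p hp
  rw [key] at hp
  have h2 : p.map (algebraMap W L) = 0 := by
    by_contra h0
    exact htr ⟨_, h0, hp⟩
  exact (Polynomial.map_eq_zero_iff hinj).mp h2

/-- integral and of finite type over the base gives a finite module, for a localisation of a
polynomial ring viewed over another polynomial structure. -/
theorem moduleFinite_of_isIntegral_away {W S : Type*} [CommRing W] [CommRing S] [Algebra W S]
    [Algebra W[X] S] [IsScalarTower W W[X] S] [Algebra.IsIntegral W[X] S]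
    (hft : Algebra.FiniteType W S) : Module.Finite W[X] S := by
  haveI : Algebra.FiniteType W[X] S := Algebra.FiniteType.of_restrictScalars_finiteType W W[X] S
  exact Algebra.IsIntegral.finite

/-- a localisation away from one element of `W[X]` is of finite type over `W`. -/
theorem finiteType_away (W : Type*) [CommRing W] (f : W[X]) :
    Algebra.FiniteType W (Localization.Away f) := by
  haveI : Algebra.FinitePresentation W[X] (Localization.Away f) :=
    IsLocalization.Away.finitePresentation f
  have h1 : Algebra.FiniteType W[X] (Localization.Away f) := inferInstance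
  exact Algebra.FiniteType.trans (inferInstance : Algebra.FiniteType W W[X]) h1

end Glue

section HesseChart

open Fermat.Agent.S18.Hesse Fermat.Agent.S18.AuxCover

theorem hesJ_moduleFinite (W : Type*) [CommRing W] (h3 : IsUnit (3 : W)) :
    Module.Finite W[X] (HesJ W) := by
  haveI := hesJ_isIntegral W h3
  have hft : Algebra.FiniteType W (HesJ W) := finiteType_away W (hesF W)
  exact moduleFinite_of_isIntegral_away hft

/-- **The special fibre of the Hesse chart of `F` is a Dedekind domain** (residue
characteristic prime to `3`), given `hπF` and `hinert`. -/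
theorem hesse_chart_normal
    {W k L K F : Type*} [CommRing W] [IsDomain W] [IsNoetherianRing W] [IsIntegrallyClosed W]
    [Field k] [IsAlgClosed k] [Field L] [CharZero L] [Algebra W L]
    [Field K] [Algebra L[X] K] [IsFractionRing L[X] K]
    [Field F] [CharZero F] [Algebra K F] [FiniteDimensional K F]
    [Algebra L[X] F] [IsScalarTower L[X] K F] [Algebra W[X] F]
    [Algebra W F] [Algebra L F] [IsScalarTower W L F] [IsScalarTower L L[X] F]
    [IsScalarTower W W[X] F]
    (j : F) (hjL : algebraMap L[X] F X = j) (hjW : algebraMap W[X] F X = j)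
    (htr : Transcendental L j)
    (ω : L) (hω : ω ^ 2 + ω + 1 = 0)
    (π : W) (hπ : Prime π) (hmax : (Ideal.span {π}).IsMaximal) (h3 : IsUnit (3 : W))
    [IsLocalization.Away π L] (hinj : Function.Injective (algebraMap W L))
    (hF : ∀ P : Ideal (integralClosure L[X] F), P.IsPrime → P ≠ ⊥ →
      (X ∈ P.under L[X] → P.ramificationIdx L[X] ∣ 3) ∧
      (X - C 1728 ∈ P.under L[X] → P.ramificationIdx L[X] ∣ 2) ∧
      (X ∉ P.under L[X] → X - C 1728 ∉ P.under L[X] → P.ramificationIdx L[X] = 1))
    (κ₀ : Type*) [Field κ₀] [Algebra k[X] κ₀] [IsFractionRing k[X] κ₀]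
    (res : W →+* k) (hres : Function.Surjective res) (hker : RingHom.ker res = Ideal.span {π})
    (θ : F) (hθ : IntermediateField.adjoin K {θ} = ⊤)
    (P : (W[X])[X]) (hP : P.Monic)
    (hPθ : eval₂ (algebraMap W[X] F) θ P = 0)
    (hsep : ((P.map (mapRingHom res)).map (algebraMap k[X] κ₀)).Separable)
    (hπF : Prime (algebraMap W[X] (integralClosure W[X] F) (C π)))
    (hinert : haveI : Fact (Transcendental L j) := ⟨htr⟩
      ∀ σ : HesY j ≃ₐ[F] HesY j, σ ≠ 1 → ∃ y r : HesY j, IsIntegral W[X] y ∧ IsIntegral W[X] r ∧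
        ∃ g : W[X], ¬ C π ∣ g ∧ (σ y - y) * r = algebraMap W[X] (HesY j) g) :
    IsDedekindDomain
      (integralClosure W[X] F ⧸
        Ideal.span {algebraMap W[X] (integralClosure W[X] F) (C π)}) := by
  have h3L : (3 : L) ≠ 0 := by norm_num
  haveI : Fact (Transcendental L j) := ⟨htr⟩
  haveI : IsNoetherianRing W := inferInstance
  letI := hesKAlgebra L K
  haveI := hesKAlgebra_isScalarTower L K
  haveI := hesKY_isScalarTower_frac (K := K) j hjL
  haveI : FiniteDimensional K (HesK L) := hesKAlgebra_finiteDimensional L K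
  haveI : IsGalois K (HesK L) := hesKAlgebra_isGalois L K ω hω
  haveI : IsIntegralClosure (HesJ L) L[X] (HesK L) := hesJ_isIntegralClosure L h3L (HesK L)
  haveI : IsFractionRing (HesJ W) (HesK L) := hesK_isFractionRing W L π hinj
  haveI : IsLocalization.Away (algebraMap W[X] (HesJ W) (C π)) (HesJ L) :=
    hesBC_isLocalization W L π hinj
  haveI : IsScalarTower W[X] (HesJ W) (HesY j) := hesY_isScalarTower_poly (W := W) j hjW
  haveI : Module.Finite W[X] (HesJ W) := hesJ_moduleFinite W h3
  obtain ⟨u₀, g₀, hu₀, h₀⟩ := hesJ_branch_zero L h3L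
  obtain ⟨u₁, g₁, hu₁, h₁⟩ := hesJ_branch_1728 L h3L
  have hker' : ∀ a : W, res a = 0 → π ∣ a := by
    intro a ha
    have : a ∈ RingHom.ker res := ha
    rw [hker] at this
    exact Ideal.mem_span_singleton.mp this
  exact finite_chart_normal (K := K) (F := F) (R0 := HesJ W) (BM := HesJ L)
    (K' := HesK L) (Y' := HesY j) (hesY_adjoin_range L j) π (hesJ_prime W hπ)
    (hesJ_quotient_isDedekindDomain W hπ hmax) (hesJ_compat W h3 hπ hmax)
    (algebraMap_hesJ_injective W h3) hF
    u₀ g₀ u₁ g₁ hu₀ h₀ hu₁ h₁ κ₀ res hres hker' (hesJ_dvd_iff W h3 hπ hmax res hker)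
    θ hθ P hP hPθ hsep hπF hinert

end HesseChart

section LegendreChart

open Fermat.Agent.S18.LegendreJ Fermat.Agent.S18.Legendre Fermat.Agent.S18.AuxCover

theorem legJ_moduleFinite (W : Type*) [CommRing W] (h2 : IsUnit (2 : W)) :
    Module.Finite W[X] (LegJ W) := by
  haveI := isIntegral_poly W h2
  have hft : Algebra.FiniteType W (LegJ W) := finiteType_away W (legF W)
  exact moduleFinite_of_isIntegral_away hft

/-- **The special fibre of the Legendre chart of `F` is a Dedekind domain** (odd residue
characteristic), given `hπF` and `hinert`. -/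
theorem legendre_chart_normal
    {W k L K F : Type*} [CommRing W] [IsDomain W] [IsNoetherianRing W] [IsIntegrallyClosed W]
    [Field k] [IsAlgClosed k] [Field L] [CharZero L] [Algebra W L]
    [Field K] [Algebra L[X] K] [IsFractionRing L[X] K]
    [Field F] [CharZero F] [Algebra K F] [FiniteDimensional K F]
    [Algebra L[X] F] [IsScalarTower L[X] K F] [Algebra W[X] F]
    [Algebra W F] [Algebra L F] [IsScalarTower W L F] [IsScalarTower L L[X] F]
    [IsScalarTower W W[X] F]
    (j : F) (hjL : algebraMap L[X] F X = j) (hjW : algebraMap W[X] F X = j)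
    (htr : Transcendental L j)
    (π : W) (hπ : Prime π) (hmax : (Ideal.span {π}).IsMaximal) (h2 : IsUnit (2 : W))
    [IsLocalization.Away π L] (hinj : Function.Injective (algebraMap W L))
    (hF : ∀ P : Ideal (integralClosure L[X] F), P.IsPrime → P ≠ ⊥ →
      (X ∈ P.under L[X] → P.ramificationIdx L[X] ∣ 3) ∧
      (X - C 1728 ∈ P.under L[X] → P.ramificationIdx L[X] ∣ 2) ∧
      (X ∉ P.under L[X] → X - C 1728 ∉ P.under L[X] → P.ramificationIdx L[X] = 1))
    (κ₀ : Type*) [Field κ₀] [Algebra k[X] κ₀] [IsFractionRing k[X] κ₀]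
    (res : W →+* k) (hres : Function.Surjective res) (hker : RingHom.ker res = Ideal.span {π})
    (θ : F) (hθ : IntermediateField.adjoin K {θ} = ⊤)
    (P : (W[X])[X]) (hP : P.Monic)
    (hPθ : eval₂ (algebraMap W[X] F) θ P = 0)
    (hsep : ((P.map (mapRingHom res)).map (algebraMap k[X] κ₀)).Separable)
    (hπF : Prime (algebraMap W[X] (integralClosure W[X] F) (C π)))
    (hinert : haveI : Fact (Transcendental L j) := ⟨htr⟩
      ∀ σ : LegY j ≃ₐ[F] LegY j, σ ≠ 1 → ∃ y r : LegY j, IsIntegral W[X] y ∧ IsIntegral W[X] r ∧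
        ∃ g : W[X], ¬ C π ∣ g ∧ (σ y - y) * r = algebraMap W[X] (LegY j) g) :
    IsDedekindDomain
      (integralClosure W[X] F ⧸
        Ideal.span {algebraMap W[X] (integralClosure W[X] F) (C π)}) := by
  haveI : Fact (Transcendental L j) := ⟨htr⟩
  letI := legKAlgebra L K
  haveI := legKAlgebra_isScalarTower L K
  haveI := legKY_isScalarTower_frac (K := K) j hjL
  haveI : FiniteDimensional K (LegK L) := legKAlgebra_finiteDimensional L K
  haveI : IsGalois K (LegK L) := legKAlgebra_isGalois L K
  haveI : IsIntegralClosure (LegJ L) L[X] (LegK L) := isIntegralClosure L (LegK L)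
  haveI hloc : IsLocalization.Away (algebraMap W[X] (LegJ W) (C π)) (LegJ L) :=
    isLocalization_away_of_away π hinj
  haveI : IsFractionRing (LegJ W) (LegK L) :=
    legK_isFractionRing W L (algebraMap W[X] (LegJ W) (C π)) hinj
  haveI : IsScalarTower W[X] (LegJ W) (LegY j) := legY_isScalarTower_poly (W := W) j hjW
  haveI : Module.Finite W[X] (LegJ W) := legJ_moduleFinite W h2
  obtain ⟨u₀, g₀, hu₀, h₀⟩ := branch_X L
  obtain ⟨u₁, g₁, hu₁, h₁⟩ := branch_X_sub L
  have hker' : ∀ a : W, res a = 0 → π ∣ a := by
    intro a ha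
    have : a ∈ RingHom.ker res := ha
    rw [hker] at this
    exact Ideal.mem_span_singleton.mp this
  have hinjF : Function.Injective (algebraMap W[X] F) :=
    injective_poly_of_transcendental j hjW htr hinj
  have hinjD : Function.Injective (algebraMap W[X] (LegJ W)) :=
    injective_chart_of_tower (F := F) (Y' := LegY j) hinjF
  exact finite_chart_normal (K := K) (F := F) (R0 := LegJ W) (BM := LegJ L)
    (K' := LegK L) (Y' := LegY j) (legY_adjoin_range j L) π (prime_poly_C hπ)
    (quotient_isDedekindDomain hπ hmax) (dvd_of_algebraMap_dvd h2 hπ hmax) hinjD hF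
    u₀ g₀ u₁ g₁ hu₀ h₀ hu₁ h₁ κ₀ res hres hker' (dvd_iff_map_eq_zero h2 hπ hmax res hker)
    θ hθ P hP hPθ hsep hπF hinert

end LegendreChart

end Fermat.Agent.S37.ChartInst
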