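import Mathlib
import Fermat.Agent.S37.ChartInstNormal
import Fermat.Agent.S37.GaussPrime
import Fermat.Agent.S37.ChartInstHesseInert
import Fermat.Agent.S18.PGOut
import Fermat.Agent.S18.FunctionFieldKitFF
import Fermat.Agent.S18.ChartBasics
import Fermat.Agent.S18.TopReduction
import Fermat.Agent.S18.RamJIdeal

set_option autoImplicit false
set_option linter.unusedSectionVars false
set_option linter.style.haveILetI false
set_option linter.unusedSimpArgs false

/-!
# S37, package C2 (I5): the Hesse chart at a DVR level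

For a level `(L, ι, W)` (`W` a discrete valuation ring of `L` with algebraically closed residue
field of characteristic `ℓ ∤ N`, `ℓ ≠ 3`, `L` containing the roots of unity of order prime to
`ℓ`), the special fibre of the finite chart `W[j]` of `F_L = S24.FF L N` is normal: for the
integral closure `B` of `W[X]` (`X ↦ j`) in `F_L`, the ring `B ⧸ (ϖ)` is a Dedekind domain.

* `isDedekindDomain_quot_of_closure` : transport of the conclusion of `chart_normal` from
  `integralClosure D F` to any integral closure.
* `hesse_chart_dedekind_of_closure` : the statement for any integral closure `B` and any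
  `W[X]`-algebra structure on `F_L` with `algebraMap = Gauss.evF W N`.
* `hesse_chart_dedekind` : the statement for `integralClosure W[X] F_L` under
  `(Gauss.evF W N).toAlgebra`.
-/

namespace Fermat.Agent.S37.ChartInstHesse

open Polynomial ModularCurve AlgebraicCurve
open Fermat.Agent.S18 Fermat.Agent.S18.Hesse Fermat.Agent.S18.AuxCover Fermat.Agent.S18.FFKit

local notation "Qb" => AlgebraicClosure ℚ

/-- A ring isomorphic to a Dedekind domain is a Dedekind domain. -/
theorem isDedekindDomain_of_ringEquiv {R S : Type*} [CommRing R] [CommRing S]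
    [IsDedekindDomain R] (e : R ≃+* S) : IsDedekindDomain S := by
  haveI : IsDomain S := e.symm.toMulEquiv.isDomain
  haveI : IsNoetherianRing S := isNoetherianRing_of_ringEquiv R e
  haveI : Ring.DimensionLEOne S := Ring.DimensionLEOne.of_ringEquiv e.symm
  haveI : IsIntegrallyClosed S := IsIntegrallyClosed.of_equiv e
  exact {}

/-- The Dedekind property of the special fibre does not depend on the model of the integral
closure. -/
theorem isDedekindDomain_quot_of_closure {D F A : Type*} [CommRing D] [Field F] [Algebra D F]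
    [CommRing A] [Algebra D A] [Algebra A F] [IsScalarTower D A F] [IsIntegralClosure A D F]
    (π : D)
    (h : IsDedekindDomain
      (integralClosure D F ⧸ Ideal.span {algebraMap D (integralClosure D F) π})) :
    IsDedekindDomain (A ⧸ Ideal.span {algebraMap D A π}) := by
  let e : integralClosure D F ≃ₐ[D] A := IsIntegralClosure.equiv D (integralClosure D F) F A
  have hmap : Ideal.span {algebraMap D A π} =
      (Ideal.span {algebraMap D (integralClosure D F) π}).map (e : integralClosure D F ≃+* A) := by
    rw [Ideal.map_span, Set.image_singleton]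
    congr 2
    exact (e.commutes π).symm
  haveI := h
  exact isDedekindDomain_of_ringEquiv
    (Ideal.quotientEquiv _ _ (e : integralClosure D F ≃+* A) hmap)

/-- **The special fibre of the finite chart `W[j]` of `F_L = S24.FF L N` is normal** (Hesse
cover; residue characteristic `ℓ ≠ 3`), for any integral closure `B` of `W[X]` in `F_L`. -/
theorem hesse_chart_dedekind_of_closure (N : ℕ) [NeZero N] {ℓ : ℕ} (hℓ : ℓ.Prime)
    (hℓN : ¬ ℓ ∣ N) (hℓ3 : ℓ ≠ 3) {L : Type} [Field L] [Algebra ℚ L] (ι : L →+* Qb)
    (W : ValuationSubring L)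
    [IsDiscreteValuationRing ↥W] [IsAlgClosed (IsLocalRing.ResidueField ↥W)]
    [CharP (IsLocalRing.ResidueField ↥W) ℓ]
    (hroots : ∀ x : Qb, (∃ n : ℕ, ¬ ℓ ∣ n ∧ x ^ n = 1) → ∃ b : L, ι b = x)
    (π : ↥W) (hπ : Irreducible π)
    [Algebra (↥W)[X] (S24.FF L N)] (halg : algebraMap (↥W)[X] (S24.FF L N) = Gauss.evF W N)
    (B : Type*) [CommRing B] [Algebra (↥W)[X] B] [Algebra B (S24.FF L N)]
    [IsScalarTower (↥W)[X] B (S24.FF L N)] [IsIntegralClosure B (↥W)[X] (S24.FF L N)] :
    IsDedekindDomain (B ⧸ Ideal.span {algebraMap (↥W)[X] B (C π)}) := by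
  classical
  haveI : Fact ℓ.Prime := ⟨hℓ⟩
  -- the discrete valuation ring
  have hp : Prime π := hπ.prime
  have hmaxeq : IsLocalRing.maximalIdeal ↥W = Ideal.span {π} := hπ.maximalIdeal_eq
  have hmax : (Ideal.span {π} : Ideal ↥W).IsMaximal :=
    hmaxeq ▸ IsLocalRing.maximalIdeal.isMaximal _
  have hker : RingHom.ker (IsLocalRing.residue ↥W) = Ideal.span {π} := by
    rw [IsLocalRing.ker_residue, hmaxeq]
  have hinjW : Function.Injective (algebraMap ↥W L) := Subtype.val_injective
  haveI : IsLocalization.Away π L := ChartBasics.isLocalization_away_of_irreducible π hπ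
  have hℓ3' : ¬ ℓ ∣ 3 := fun hd => hℓ3 ((Nat.prime_dvd_prime_iff_eq hℓ Nat.prime_three).mp hd)
  have h3 : IsUnit (3 : ↥W) := by
    rw [← IsLocalRing.residue_ne_zero_iff_isUnit, map_ofNat]
    intro h0
    have h1 : ((3 : ℕ) : IsLocalRing.ResidueField ↥W) = 0 := by exact_mod_cast h0
    exact hℓ3' ((CharP.cast_eq_zero_iff (IsLocalRing.ResidueField ↥W) ℓ 3).mp h1)
  -- a primitive cube root of unity
  obtain ⟨ω, hω⟩ : ∃ ω : L, ω ^ 2 + ω + 1 = 0 := by
    obtain ⟨ζ3, hζ3⟩ := TopReduction.exists_isPrimitiveRoot ι hroots 3 (by norm_num) hℓ3'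
    refine ⟨ζ3, ?_⟩
    have h1 : ζ3 ^ 3 = 1 := hζ3.pow_eq_one
    have h2 : ζ3 ≠ 1 := hζ3.ne_one (by norm_num)
    have h4 : (ζ3 - 1) * (ζ3 ^ 2 + ζ3 + 1) = 0 := by linear_combination h1
    exact (mul_eq_zero.mp h4).resolve_left (sub_ne_zero.mpr h2)
  -- the structures on `F`
  haveI : CharZero L := algebraRat.charZero L
  have htr : Transcendental L (S24.jBC L N) := RamJ.transcendental_jBC ι N
  letI : Algebra ↥W (S24.FF L N) :=
    ((algebraMap L (S24.FF L N)).comp (algebraMap ↥W L)).toAlgebra
  haveI : IsScalarTower ↥W L (S24.FF L N) := IsScalarTower.of_algebraMap_eq (fun _ => rfl)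
  haveI : IsScalarTower ↥W (↥W)[X] (S24.FF L N) := IsScalarTower.of_algebraMap_eq (fun a => by
    rw [halg]
    exact (Gauss.evF_C W N a).symm)
  have hjW : algebraMap (↥W)[X] (S24.FF L N) X = S24.jBC L N := by
    rw [halg]; exact Gauss.evF_X W N
  letI : Algebra L[X] (S24.FF L N) := polyAlgebra (S24.jBC L N)
  haveI : IsScalarTower L L[X] (S24.FF L N) := polyAlgebra_isScalarTower (S24.jBC L N)
  letI : Algebra (FractionRing L[X]) (S24.FF L N) :=
    ratAlgebra (FractionRing L[X]) (S24.jBC L N) htr
  haveI : IsScalarTower L[X] (FractionRing L[X]) (S24.FF L N) :=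
    ratAlgebra_isScalarTower (FractionRing L[X]) (S24.jBC L N) htr
  haveI : FiniteDimensional (FractionRing L[X]) (S24.FF L N) :=
    FFKit.finiteDimensional_FF ι N (FractionRing L[X])
  -- ramification over the `j`-line
  have hF : ∀ P : Ideal (integralClosure L[X] (S24.FF L N)), P.IsPrime → P ≠ ⊥ →
      (X ∈ P.under L[X] → P.ramificationIdx L[X] ∣ 3) ∧
      (X - C 1728 ∈ P.under L[X] → P.ramificationIdx L[X] ∣ 2) ∧
      (X ∉ P.under L[X] → X - C 1728 ∉ P.under L[X] → P.ramificationIdx L[X] = 1) := by
    intro P hP hP0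
    haveI : CharZero L[X] := algebraRat.charZero L[X]
    haveI : CharZero (FractionRing L[X]) :=
      charZero_of_injective_algebraMap (IsFractionRing.injective L[X] (FractionRing L[X]))
    haveI : Algebra.IsSeparable (FractionRing L[X]) (S24.FF L N) := inferInstance
    haveI : IsDedekindDomain (integralClosure L[X] (S24.FF L N)) :=
      IsIntegralClosure.isDedekindDomain L[X] (FractionRing L[X]) (S24.FF L N) _
    haveI : IsFractionRing (integralClosure L[X] (S24.FF L N)) (S24.FF L N) :=
      IsIntegralClosure.isFractionRing_of_finite_extension L[X] (FractionRing L[X])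
        (S24.FF L N) _
    haveI : Algebra.IsIntegral L[X] (integralClosure L[X] (S24.FF L N)) :=
      IsIntegralClosure.isIntegral_algebra L[X] (S24.FF L N)
    haveI := hP
    exact RamJ.ramificationIdx_of_hom' ι N (polyAlgebra_X (S24.jBC L N)) P hP0
  -- the monogenic separable datum
  obtain ⟨θ, P, -, -, -, hP, -, hroot, -, hspan, -, hsep⟩ := Gauss.exists_monogenic W N ℓ hℓN
  have hsep' := Gauss.separable_fractionRing_of_redK W P hsep
    (FractionRing (IsLocalRing.ResidueField ↥W)[X])
  have hroot' : eval₂ (algebraMap (↥W)[X] (S24.FF L N)) θ P = 0 := by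
    rw [halg]; exact hroot
  have hgenθ : IntermediateField.adjoin L {S24.jBC L N, θ} = ⊤ :=
    PGOut.adjoin_eq_top_of_span θ hspan
  have hθ : IntermediateField.adjoin (FractionRing L[X]) {θ} = ⊤ := by
    rw [eq_top_iff]
    intro x _
    refine PGOut.map_mem_subfield_of_adjoin_eq_top (RingHom.id (S24.FF L N))
      (IntermediateField.adjoin (FractionRing L[X]) {θ}).toSubfield _ hgenθ
      (fun a => ?_) (fun t ht => ?_) x
    · have e : algebraMap L (S24.FF L N) a =
          algebraMap (FractionRing L[X]) (S24.FF L N)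
            (algebraMap L[X] (FractionRing L[X]) (C a)) := by
        rw [ratAlgebra_algebraMap, aeval_C]
      rw [RingHom.id_apply, e]
      exact IntermediateField.algebraMap_mem _ _
    · rcases ht with rfl | rfl
      · have e : S24.jBC L N =
            algebraMap (FractionRing L[X]) (S24.FF L N)
              (algebraMap L[X] (FractionRing L[X]) X) := by
          rw [ratAlgebra_algebraMap, aeval_X]
        rw [RingHom.id_apply, e]
        exact IntermediateField.algebraMap_mem _ _
      · exact IntermediateField.mem_adjoin_simple_self (FractionRing L[X]) t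
  -- the Gauss prime and the absence of inertia
  have hπF := GaussPrime.prime_C_fin W N ℓ hℓN hπ halg (integralClosure (↥W)[X] (S24.FF L N))
  have hinert := ChartInstHesseInert.hesse_hinert (W := ↥W) (S24.jBC L N) hjW h3 π hp.not_isUnit
  exact isDedekindDomain_quot_of_closure (C π)
    (ChartInst.hesse_chart_normal (W := ↥W) (k := IsLocalRing.ResidueField ↥W) (L := L)
      (K := FractionRing L[X]) (F := S24.FF L N) (S24.jBC L N) (polyAlgebra_X (S24.jBC L N))
      hjW htr ω hω π hp hmax h3 hinjW hF
      (FractionRing (IsLocalRing.ResidueField ↥W)[X]) (IsLocalRing.residue ↥W)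
      IsLocalRing.residue_surjective hker θ hθ P hP hroot' hsep' hπF hinert)

/-- **The special fibre of the finite chart `W[j]` of `F_L` is normal** (Hesse cover, `ℓ ≠ 3`),
literal form: `W[X]` acts on `F_L` through `Gauss.evF W N` and `B = integralClosure W[X] F_L`.
(The second `letI` only helps the elaboration of the quotient; it is the canonical instance.) -/
theorem hesse_chart_dedekind (N : ℕ) [NeZero N] {ℓ : ℕ} (hℓ : ℓ.Prime)
    (hℓN : ¬ ℓ ∣ N) (hℓ3 : ℓ ≠ 3) {L : Type} [Field L] [Algebra ℚ L] (ι : L →+* Qb)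
    (W : ValuationSubring L)
    [IsDiscreteValuationRing ↥W] [IsAlgClosed (IsLocalRing.ResidueField ↥W)]
    [CharP (IsLocalRing.ResidueField ↥W) ℓ]
    (hroots : ∀ x : Qb, (∃ n : ℕ, ¬ ℓ ∣ n ∧ x ^ n = 1) → ∃ b : L, ι b = x)
    (π : ↥W) (hπ : Irreducible π) :
    letI : Algebra (↥W)[X] (S24.FF L N) := (Gauss.evF W N).toAlgebra
    letI : CommRing (integralClosure (↥W)[X] (S24.FF L N)) := inferInstance
    IsDedekindDomain (integralClosure (↥W)[X] (S24.FF L N) ⧸
      Ideal.span {algebraMap (↥W)[X] (integralClosure (↥W)[X] (S24.FF L N)) (C π)}) := by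
  letI : Algebra (↥W)[X] (S24.FF L N) := (Gauss.evF W N).toAlgebra
  exact hesse_chart_dedekind_of_closure N hℓ hℓN hℓ3 ι W hroots π hπ rfl
    (integralClosure (↥W)[X] (S24.FF L N))

end Fermat.Agent.S37.ChartInstHesse
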