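import Mathlib
import Fermat.Agent.S18.LegendreY

/-!
# S37 : inertia input of the chart-normality theorem, Legendre chart

For the Legendre cover `Y' = F(x0)` of a field `F ∋ j` (`x0` a root of the Legendre sextic of `j`):
every nontrivial `σ ∈ Gal(Y'/F)` moves `x0` to one of its five other conjugates
`1 - x0, 1/x0, 1 - 1/x0, 1/(1 - x0), x0/(x0 - 1)`, and `σ x0 - x0` divides `j - 1728` resp. `j`
in the chart ring `W[x, 1/x, 1/(x-1)]`.
-/

set_option autoImplicit false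
set_option linter.unusedSectionVars false
set_option linter.style.haveILetI false
set_option linter.unusedVariables false

namespace Fermat.Agent.S37.ChartInert

open Polynomial Fermat.Agent.S18.Legendre Fermat.Agent.S18.LegendreJ Fermat.Agent.S18.AuxCover

section Core

variable {S : Type*} [CommRing S] {x y z : S}

/-- `x ↦ 1 - x` : `(1 - 2x) ∣ j - 1728`. -/
theorem leg_cofactor_a (hy : x * y = 1) (hz : (x - 1) * z = 1) :
    ((1 - x) - x) * (-64 * (x + 1) ^ 2 * (x - 2) ^ 2 * (2 * x - 1) * y ^ 2 * z ^ 2) =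
      legJ x y z - 1728 := by
  rw [← legR_sq hy hz]; unfold legR; ring

/-- `x ↦ 1/x` : `(1/x - x) ∣ j - 1728`. -/
theorem leg_cofactor_b (hy : x * y = 1) (hz : (x - 1) * z = 1) :
    (y - x) * (-64 * (x + 1) * (x - 2) ^ 2 * (2 * x - 1) ^ 2 * y * z ^ 3) =
      legJ x y z - 1728 := by
  rw [← legR_sq hy hz]; unfold legR
  linear_combination (-64 * (x + 1) * (x - 2) ^ 2 * (2 * x - 1) ^ 2 * y * z ^ 3 * x) * hy +
    (8 * (x + 1) * (x - 2) * (2 * x - 1) * y * z) ^ 2 * hz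

/-- `x ↦ 1 - 1/x` : `(1 - 1/x - x) ∣ j`. -/
theorem leg_cofactor_c (hy : x * y = 1) (hz : (x - 1) * z = 1) :
    ((1 - y) - x) * (-256 * (x ^ 2 - x + 1) ^ 2 * y * z ^ 2) = legJ x y z := by
  unfold legJ
  linear_combination (-256 * (x ^ 2 - x + 1) ^ 2 * y * z ^ 2 * (x - 1)) * hy

/-- `x ↦ 1/(1 - x)` : `(1/(1-x) - x) ∣ j`. -/
theorem leg_cofactor_d (hy : x * y = 1) (hz : (x - 1) * z = 1) :
    ((-z) - x) * (-256 * (x ^ 2 - x + 1) ^ 2 * y ^ 2 * z) = legJ x y z := by
  unfold legJ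
  linear_combination (-256 * (x ^ 2 - x + 1) ^ 2 * y ^ 2 * z * x) * hz

/-- `x ↦ x/(x - 1)` : `(x/(x-1) - x) ∣ j - 1728`. -/
theorem leg_cofactor_e (hy : x * y = 1) (hz : (x - 1) * z = 1) :
    ((1 + z) - x) * (-64 * (x + 1) ^ 2 * (x - 2) * (2 * x - 1) ^ 2 * y ^ 3 * z) =
      legJ x y z - 1728 := by
  rw [← legR_sq hy hz]; unfold legR
  linear_combination (-64 * (x + 1) ^ 2 * (x - 2) * (2 * x - 1) ^ 2 * y ^ 3 * z * (x - 1)) * hz +
    (8 * (x + 1) * (x - 2) * (2 * x - 1) * y * z) ^ 2 * hy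

end Core

section Conjugates

variable {F Y : Type*} [Field F] [Field Y] [Algebra F Y]

/-- The six conjugates: a root of the Legendre sextic of `j` is one of the six Möbius images of
any other root `x0`. -/
theorem legendre_root_cases (h2 : (2 : F) ≠ 0) (j : F) (x0 x1 : Y)
    (hx0 : aeval x0 (legendrePoly j) = 0) (hx1 : aeval x1 (legendrePoly j) = 0) :
    x1 = x0 ∨ x1 = 1 - x0 ∨ x1 = x0⁻¹ ∨ x1 = 1 - x0⁻¹ ∨ x1 = -(x0 - 1)⁻¹ ∨
      x1 = 1 + (x0 - 1)⁻¹ := by
  obtain ⟨h0, h1, hjx⟩ := legJ_of_root h2 j x0 hx0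
  have hy : x0 * x0⁻¹ = 1 := mul_inv_cancel₀ h0
  have hz : (x0 - 1) * (x0 - 1)⁻¹ = 1 := mul_inv_cancel₀ (sub_ne_zero.mpr h1)
  have hfac : (legendrePoly j).map (algebraMap F Y) =
      C 256 * ((X - C x0) * (X - C (1 - x0)) * (X - C x0⁻¹) * (X - C (1 - x0⁻¹)) *
        (X - C (-(x0 - 1)⁻¹)) * (X - C (1 + (x0 - 1)⁻¹))) := by
    rw [map_legendrePoly, ← hjx, legendrePoly_legJ hy hz]
  have h256 : (256 : Y) ≠ 0 := by
    have h2' : (2 : Y) ≠ 0 := by
      have := (map_ne_zero (algebraMap F Y)).mpr h2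
      rwa [map_ofNat] at this
    have : (256 : Y) = 2 ^ 8 := by norm_num
    rw [this]; exact pow_ne_zero _ h2'
  have hev : eval x1 ((legendrePoly j).map (algebraMap F Y)) = 0 := by
    rw [eval_map, ← aeval_def]; exact hx1
  rw [hfac] at hev
  simp only [eval_mul, eval_C, eval_sub, eval_X, mul_eq_zero, sub_eq_zero] at hev
  rcases hev with h | h
  · exact absurd h h256
  · rcases h with ((((h | h) | h) | h) | h) | h
    · exact Or.inl h
    · exact Or.inr (Or.inl h)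
    · exact Or.inr (Or.inr (Or.inl h))
    · exact Or.inr (Or.inr (Or.inr (Or.inl h)))
    · exact Or.inr (Or.inr (Or.inr (Or.inr (Or.inl h))))
    · exact Or.inr (Or.inr (Or.inr (Or.inr (Or.inr h))))

end Conjugates

section Inert

variable {W F2 : Type*} [CommRing W] [IsDomain W] [Field F2] [CharZero F2] [Algebra W F2]
variable (j : F2)

theorem algebraMap_legY_jY :
    algebraMap (LegJ W) (LegY j) (jY W) = (legY_root j)⁻¹ := by
  have h := congrArg (algebraMap (LegJ W) (LegY j)) (jX_mul_jY W)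
  rw [map_mul, map_one, algebraMap_legY_jX] at h
  exact eq_inv_of_mul_eq_one_right h

theorem algebraMap_legY_jZ :
    algebraMap (LegJ W) (LegY j) (jZ W) = (legY_root j - 1)⁻¹ := by
  have h := congrArg (algebraMap (LegJ W) (LegY j)) (jX_sub_one_mul_jZ W)
  rw [map_mul, map_one, map_sub, map_one, algebraMap_legY_jX] at h
  exact eq_inv_of_mul_eq_one_right h

/-- A nontrivial automorphism of `F2(x0)` over `F2` moves `x0`. -/
theorem legY_root_moved (σ : LegY j ≃ₐ[F2] LegY j) (hσ : σ ≠ 1) :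
    σ (legY_root j) ≠ legY_root j := by
  intro h
  apply hσ
  have h1 : (σ : LegY j →ₐ[F2] LegY j) = AlgHom.id F2 (LegY j) :=
    AdjoinRoot.algHom_ext h
  ext y
  exact congrArg (fun f : LegY j →ₐ[F2] LegY j => f y) h1

/-- The core of the inertia input, chart-ring form: for every nontrivial `σ ∈ Gal(F2(x0)/F2)`
there is `r` in the chart ring `W[x, 1/x, 1/(x-1)]` with `(σ x0 - x0) · r = j - 1728` or `= j`. -/
theorem legendre_inert_core (σ : LegY j ≃ₐ[F2] LegY j) (hσ : σ ≠ 1) :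
    ∃ r : LegJ W,
      (σ (legY_root j) - legY_root j) * algebraMap (LegJ W) (LegY j) r =
          algebraMap (LegJ W) (LegY j) (jJ W - 1728) ∨
      (σ (legY_root j) - legY_root j) * algebraMap (LegJ W) (LegY j) r =
          algebraMap (LegJ W) (LegY j) (jJ W) := by
  have h2 : (2 : F2) ≠ 0 := two_ne_zero
  have hx0 := aeval_legY_root j
  have hx1 : aeval (σ (legY_root j)) (legendrePoly j) = 0 := by
    rw [aeval_algEquiv, AlgHom.comp_apply, hx0]; simp
  have hne := legY_root_moved j σ hσ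
  have hy := jX_mul_jY W
  have hz := jX_sub_one_mul_jZ W
  have hX : algebraMap (LegJ W) (LegY j) (jX W) = legY_root j := algebraMap_legY_jX j
  have hY : algebraMap (LegJ W) (LegY j) (jY W) = (legY_root j)⁻¹ := algebraMap_legY_jY j
  have hZ : algebraMap (LegJ W) (LegY j) (jZ W) = (legY_root j - 1)⁻¹ := algebraMap_legY_jZ j
  rcases legendre_root_cases h2 j (legY_root j) (σ (legY_root j)) hx0 hx1 with
    h | h | h | h | h | h
  · exact absurd h hne
  · refine ⟨-64 * (jX W + 1) ^ 2 * (jX W - 2) ^ 2 * (2 * jX W - 1) * jY W ^ 2 * jZ W ^ 2,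
      Or.inl ?_⟩
    have e := congrArg (algebraMap (LegJ W) (LegY j)) (leg_cofactor_a hy hz)
    rw [map_mul, map_sub, map_sub, map_one, hX] at e
    rw [h]; exact e
  · refine ⟨-64 * (jX W + 1) * (jX W - 2) ^ 2 * (2 * jX W - 1) ^ 2 * jY W * jZ W ^ 3,
      Or.inl ?_⟩
    have e := congrArg (algebraMap (LegJ W) (LegY j)) (leg_cofactor_b hy hz)
    rw [map_mul, map_sub, hX, hY] at e
    rw [h]; exact e
  · refine ⟨-256 * (jX W ^ 2 - jX W + 1) ^ 2 * jY W * jZ W ^ 2, Or.inr ?_⟩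
    have e := congrArg (algebraMap (LegJ W) (LegY j)) (leg_cofactor_c hy hz)
    rw [map_mul, map_sub, map_sub, map_one, hX, hY] at e
    rw [h]; exact e
  · refine ⟨-256 * (jX W ^ 2 - jX W + 1) ^ 2 * jY W ^ 2 * jZ W, Or.inr ?_⟩
    have e := congrArg (algebraMap (LegJ W) (LegY j)) (leg_cofactor_d hy hz)
    rw [map_mul, map_sub, map_neg, hX, hZ] at e
    rw [h]; exact e
  · refine ⟨-64 * (jX W + 1) ^ 2 * (jX W - 2) * (2 * jX W - 1) ^ 2 * jY W ^ 3 * jZ W,
      Or.inl ?_⟩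
    have e := congrArg (algebraMap (LegJ W) (LegY j)) (leg_cofactor_e hy hz)
    rw [map_mul, map_sub, map_add, map_one, hX, hZ] at e
    rw [h]; exact e

/-- **Inertia input of chart-normality, Legendre chart** (`2` a unit): for every nontrivial
`σ ∈ Gal(F2(x0)/F2)` there are `y, r ∈ F2(x0)` integral over `W[j]` and `g ∈ W[X] ∖ π W[X]`
(`g = X - 1728` or `g = X`) with `(σ y - y) · r = g(j)`. -/
theorem legendre_hinert [Algebra W[X] F2] [IsScalarTower W W[X] F2]
    (hjW : algebraMap W[X] F2 X = j) (π : W) (hπ : ¬ IsUnit π) (h2 : IsUnit (2 : W))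
    (σ : LegY j ≃ₐ[F2] LegY j) (hσ : σ ≠ 1) :
    ∃ y r : LegY j, IsIntegral W[X] y ∧ IsIntegral W[X] r ∧ ∃ g : W[X], ¬ C π ∣ g ∧
      (σ y - y) * r = algebraMap W[X] (LegY j) g := by
  haveI tW : IsScalarTower W[X] (LegJ W) (LegY j) := legY_isScalarTower_poly j hjW
  haveI : Algebra.IsIntegral W[X] (LegJ W) := isIntegral_poly W h2
  have hint : ∀ s : LegJ W, IsIntegral W[X] (algebraMap (LegJ W) (LegY j) s) := fun s =>
    (Algebra.IsIntegral.isIntegral (R := W[X]) s).algebraMap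
  have hnd : ∀ g : W[X], g.coeff 1 = 1 → ¬ C π ∣ g := by
    intro g hg hdvd
    have h1 := (Polynomial.C_dvd_iff_dvd_coeff _ _).mp hdvd 1
    rw [hg] at h1
    exact hπ (isUnit_of_dvd_one h1)
  obtain ⟨r, hr⟩ := legendre_inert_core (W := W) j σ hσ
  refine ⟨legY_root j, algebraMap (LegJ W) (LegY j) r, ?_, hint r, ?_⟩
  · rw [← algebraMap_legY_jX (W := W) j]; exact hint _
  rcases hr with hr | hr
  · refine ⟨X - C 1728, hnd _ ?_, ?_⟩
    · rw [coeff_sub, coeff_X_one, coeff_C]; simp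
    · rw [hr, IsScalarTower.algebraMap_apply W[X] (LegJ W) (LegY j),
        map_sub (algebraMap W[X] (LegJ W)), algebraMap_poly_X, algebraMap_poly_C, map_ofNat]
  · refine ⟨X, hnd _ coeff_X_one, ?_⟩
    rw [hr, IsScalarTower.algebraMap_apply W[X] (LegJ W) (LegY j), algebraMap_poly_X]

end Inert

end Fermat.Agent.S37.ChartInert
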