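/-
S37 (C2, I5): the chart-normality theorem at the Legendre chart (residue characteristic `≠ 2`).

* `legendre_hU` : the trace-form hypothesis `hU` of `ChartNormal.chart_normal` for the Legendre
  cover `Y' = F(x0)` of a function field `F` (no Kummer layer), in the abstract context of
  `LegendreJ.legendre_finite_chart_lift`.
* `legendre_chart_normal` : the special fibre of the integral closure of `W[j]` in `F` is a
  Dedekind domain (abstract context).
* `legendre_chart_dedekind` : the same at a DVR level `(L, ι, W)` for `F = S24.FF L N`.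
-/
import Mathlib
import Fermat.Agent.S18.ChartNormal
import Fermat.Agent.S18.LegendreChart
import Fermat.Agent.S18.FunctionFieldKitFF
import Fermat.Agent.S18.GaussVal
import Fermat.Agent.S18.PGOut
import Fermat.Agent.S18.FiniteChartK
import Fermat.Agent.S18.ChartBasics
import Fermat.Agent.S37.ChartInert
import Fermat.Agent.S37.GaussPrime
import Fermat.Agent.S37.ChartInstHesse

set_option autoImplicit false
set_option linter.unusedSectionVars false
set_option linter.style.haveILetI false
set_option linter.unusedVariables false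

namespace Fermat.Agent.S37.ChartInstLegendre

open Polynomial ModularCurve AlgebraicCurve
open Fermat.Agent Fermat.Agent.S18 Fermat.Agent.S18.LegendreJ

local notation "Qb" => AlgebraicClosure ℚ

/-! ### Generic lemmas -/

/-- The `W[X]`-structure of `F` factors through the `L[X]`-structure. -/
theorem algebraMap_poly_eq_map {W L F : Type*} [CommRing W] [Field L] [Algebra W L] [Field F]
    [Algebra L[X] F] [Algebra W[X] F] [Algebra W F] [Algebra L F] [IsScalarTower W L F]
    [IsScalarTower L L[X] F] [IsScalarTower W W[X] F]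
    (j : F) (hjL : algebraMap L[X] F X = j) (hjW : algebraMap W[X] F X = j) (p : W[X]) :
    algebraMap W[X] F p = algebraMap L[X] F (p.map (algebraMap W L)) := by
  have key : algebraMap W[X] F = (algebraMap L[X] F).comp (mapRingHom (algebraMap W L)) := by
    refine Polynomial.ringHom_ext (fun a => ?_) ?_
    · rw [RingHom.comp_apply, coe_mapRingHom, map_C, ← Polynomial.algebraMap_eq,
        ← IsScalarTower.algebraMap_apply W W[X] F, ← Polynomial.algebraMap_eq,
        ← IsScalarTower.algebraMap_apply L L[X] F, ← IsScalarTower.algebraMap_apply W L F]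
    · rw [RingHom.comp_apply, coe_mapRingHom, map_X, hjL, hjW]
  rw [key]; rfl

/-- The chart map `W[X] → F` (`X ↦ j`) is injective. -/
theorem algebraMap_poly_injective' {W L F : Type*} [CommRing W] [Field L] [Algebra W L] [Field F]
    [Algebra L[X] F] [Algebra W[X] F] [Algebra W F] [Algebra L F] [IsScalarTower W L F]
    [IsScalarTower L L[X] F] [IsScalarTower W W[X] F]
    (j : F) (hjL : algebraMap L[X] F X = j) (hjW : algebraMap W[X] F X = j)
    (htr : Transcendental L j) (hinj : Function.Injective (algebraMap W L)) :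
    Function.Injective (algebraMap W[X] F) := by
  rw [injective_iff_map_eq_zero]
  intro p hp
  rw [algebraMap_poly_eq_map j hjL hjW] at hp
  have h1 : algebraMap L[X] F (p.map (algebraMap W L)) = aeval j (p.map (algebraMap W L)) := by
    rw [← hjL, aeval_algebraMap_apply, aeval_X_left_apply]
  rw [h1] at hp
  have h2 : p.map (algebraMap W L) = 0 := by
    by_contra h0
    exact htr ⟨_, h0, hp⟩
  exact (Polynomial.map_eq_zero_iff hinj).mp h2

/-! ### The abstract Legendre chart -/

section Abstract

variable {W k L K F : Type*} [CommRing W] [IsDomain W] [IsNoetherianRing W]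
  [IsIntegrallyClosed W] [Field k] [Field L] [CharZero L] [Algebra W L]
  [Field K] [Algebra L[X] K] [IsFractionRing L[X] K]
  [Field F] [CharZero F] [Algebra K F] [FiniteDimensional K F]
  [Algebra L[X] F] [IsScalarTower L[X] K F] [Algebra W[X] F]
  [Algebra W F] [Algebra L F] [IsScalarTower W L F] [IsScalarTower L L[X] F]
  [IsScalarTower W W[X] F]

/-- **The trace-form hypothesis `hU` for the Legendre cover of `F`** (no Kummer layer): at the
vertical prime `(π)` and at every prime of the chart `W[x, 1/x, 1/(x-1)]` not containing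
`π`. -/
theorem legendre_hU
    (j : F) (hjL : algebraMap L[X] F X = j) (hjW : algebraMap W[X] F X = j)
    [htr : Fact (Transcendental L j)]
    (π : W) (hπ : Prime π) (hmax : (Ideal.span {π}).IsMaximal) (h2 : IsUnit (2 : W))
    [IsLocalization.Away π L] (hinj : Function.Injective (algebraMap W L))
    (hF : ∀ P : Ideal (integralClosure L[X] F), P.IsPrime → P ≠ ⊥ →
      (X ∈ P.under L[X] → P.ramificationIdx L[X] ∣ 3) ∧
      (X - C 1728 ∈ P.under L[X] → P.ramificationIdx L[X] ∣ 2) ∧
      (X ∉ P.under L[X] → X - C 1728 ∉ P.under L[X] → P.ramificationIdx L[X] = 1))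
    (κ₀ : Type*) [Field κ₀] [Algebra k[X] κ₀] [IsFractionRing k[X] κ₀]
    (res : W →+* k) (hres : Function.Surjective res) (hker : RingHom.ker res = Ideal.span {π})
    (θ : F) (hθ : IntermediateField.adjoin K {θ} = ⊤)
    (P : (W[X])[X]) (hP : P.Monic)
    (hPθ : eval₂ (algebraMap W[X] F) θ P = 0)
    (hsep : ((P.map (mapRingHom res)).map (algebraMap k[X] κ₀)).Separable)
    (𝔭 : Ideal (LegJ W)) (h𝔭 : 𝔭.IsPrime)
    (hcase : 𝔭 = Ideal.span {algebraMap W[X] (LegJ W) (C π)} ∨
      algebraMap W[X] (LegJ W) (C π) ∉ 𝔭) :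
    TowerUnram.TraceNondeg (LegJ W) (LegK L) (LegY j) (integralClosure (LegJ W) (LegY j)) 𝔭 := by
  classical
  haveI : Algebra.IsIntegral W[X] (LegJ W) := isIntegral_poly W h2
  letI := legKAlgebra L K
  haveI := legKAlgebra_isScalarTower L K
  haveI := legKY_isScalarTower_frac (K := K) j hjL
  haveI : FiniteDimensional K (LegK L) := legKAlgebra_finiteDimensional L K
  haveI : IsGalois K (LegK L) := legKAlgebra_isGalois L K
  haveI : IsIntegralClosure (LegJ L) L[X] (LegK L) := isIntegralClosure L (LegK L)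
  haveI hloc : IsLocalization.Away (algebraMap W[X] (LegJ W) (C π)) (LegJ L) :=
    isLocalization_away_of_away π hinj
  haveI : IsFractionRing (LegJ W) (LegK L) :=
    legK_isFractionRing W L (algebraMap W[X] (LegJ W) (C π)) hinj
  haveI : IsScalarTower W[X] (LegJ W) (LegY j) := legY_isScalarTower_poly (W := W) j hjW
  obtain ⟨u₀, g₀, hu₀, h₀⟩ := branch_X L
  obtain ⟨u₁, g₁, hu₁, h₁⟩ := branch_X_sub L
  have hFM := legY_adjoin_range j L
  have hϖ : Prime (algebraMap W[X] (LegJ W) (C π)) := prime_poly_C hπ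
  haveI : CharZero L[X] := charZero_of_injective_algebraMap (C_injective (R := L))
  haveI : CharZero K := charZero_of_injective_algebraMap (IsFractionRing.injective L[X] K)
  haveI : CharZero (LegK L) := charZero_of_injective_algebraMap (algebraMap K (LegK L)).injective
  haveI : IsGalois F (LegY j) := Abhyankar.isGalois_of_adjoin_eq_top (K := K) hFM
  haveI : FiniteDimensional K (LegY j) := FiniteDimensional.trans K F (LegY j)
  haveI : FiniteDimensional (LegK L) (LegY j) := FiniteDimensional.right K (LegK L) (LegY j)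
  rcases hcase with rfl | hcase
  · -- the vertical prime: the monogenic datum, with the trivial Kummer datum `u = w = 1`
    have hone : IntermediateField.adjoin F {(1 : F)} = ⊤ := by
      rw [eq_top_iff]
      intro x _
      exact (IntermediateField.adjoin F {(1 : F)}).algebraMap_mem x
    obtain ⟨hA, hgen⟩ := FiniteChartCore.adjoin_pair_eq_top (K := K) (F := F) (F2 := F)
      (K' := LegK L) (Y' := LegY j) hFM θ hθ (1 : F) hone
    have hPθ' : eval₂ ((algebraMap (LegJ W) (LegY j)).comp (algebraMap W[X] (LegJ W)))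
        (algebraMap F (LegY j) θ) P = 0 := by
      rw [← IsScalarTower.algebraMap_eq W[X] (LegJ W) (LegY j),
        IsScalarTower.algebraMap_eq W[X] F (LegY j), ← hom_eval₂, hPθ, map_zero]
    have hu2 : IsUnit ((2 : ℕ) : LegJ W) := by
      have := h2.map (algebraMap W (LegJ W))
      rwa [map_ofNat] at this
    have hs2 : ¬ algebraMap W[X] (LegJ W) (C π) ∣ ((2 : ℕ) : LegJ W) := fun hd =>
      hϖ.not_isUnit (isUnit_of_dvd_unit hd hu2)
    haveI : CharP (LegK L) 0 := CharP.ofCharZero (LegK L)
    have hζ : IsPrimitiveRoot (-1 : LegK L) 2 := IsPrimitiveRoot.neg_one 0 (by norm_num)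
    have hG1 : IsGaussInt (LegJ W) (algebraMap W[X] (LegJ W) (C π)) (1 : LegY j) :=
      ⟨1, fun hd => hϖ.not_isUnit (isUnit_of_dvd_one hd), by rw [one_smul]; exact isIntegral_one⟩
    exact FiniteChartCore.traceNondeg_vertical κ₀ res hres (algebraMap W[X] (LegJ W))
      (algebraMap W[X] (LegJ W) (C π)) hϖ (dvd_iff_map_eq_zero h2 hπ hmax res hker)
      (algebraMap F (LegY j) θ) P hP hPθ' hsep 2 Nat.prime_two hs2 (-1) hζ
      (algebraMap F (LegY j) 1) 1 one_ne_zero (by rw [map_one, one_pow]) (one_mem _) hgen hG1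
      (by rw [inv_one]; exact hG1)
  · haveI := h𝔭
    exact FiniteChartCore.traceNondeg_horizontal K (BF2 := integralClosure L[X] F) hFM hF
      u₀ g₀ u₁ g₁ hu₀ h₀ hu₁ h₁ (algebraMap W[X] (LegJ W) (C π)) 𝔭 hcase

/-- **Chart normality at the Legendre chart** (abstract context of
`LegendreJ.legendre_finite_chart_lift`, with `F` in place of `F2` and no Kummer datum): the
special fibre of the integral closure of `W[X]` (`X ↦ j`) in `F` is a Dedekind domain. -/
theorem legendre_chart_normal [IsAlgClosed k]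
    (j : F) (hjL : algebraMap L[X] F X = j) (hjW : algebraMap W[X] F X = j)
    (htr : Transcendental L j)
    (π : W) (hπ : Prime π) (hmax : (Ideal.span {π}).IsMaximal) (h2 : IsUnit (2 : W))
    [IsLocalization.Away π L] (hinj : Function.Injective (algebraMap W L))
    (hF : ∀ P : Ideal (integralClosure L[X] F), P.IsPrime → P ≠ ⊥ →
      (X ∈ P.under L[X] → P.ramificationIdx L[X] ∣ 3) ∧
      (X - C 1728 ∈ P.under L[X] → P.ramificationIdx L[X] ∣ 2) ∧
      (X ∉ P.under L[X] → X - C 1728 ∉ P.under L[X] → P.ramificationIdx L[X] = 1))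
    (κ₀ : Type*) [Field κ₀] [Algebra k[X] κ₀] [IsFractionRing k[X] κ₀]
    (res : W →+* k) (hres : Function.Surjective res) (hker : RingHom.ker res = Ideal.span {π})
    (θ : F) (hθ : IntermediateField.adjoin K {θ} = ⊤)
    (P : (W[X])[X]) (hP : P.Monic)
    (hPθ : eval₂ (algebraMap W[X] F) θ P = 0)
    (hsep : ((P.map (mapRingHom res)).map (algebraMap k[X] κ₀)).Separable)
    (hπF : Prime (algebraMap W[X] (integralClosure W[X] F) (C π))) :
    IsDedekindDomain (integralClosure W[X] F ⧸
      Ideal.span {algebraMap W[X] (integralClosure W[X] F) (C π)}) := by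
  classical
  haveI : Fact (Transcendental L j) := ⟨htr⟩
  haveI : Algebra.IsIntegral W[X] (LegJ W) := isIntegral_poly W h2
  letI := legKAlgebra L K
  haveI := legKAlgebra_isScalarTower L K
  haveI := legKY_isScalarTower_frac (K := K) j hjL
  haveI : FiniteDimensional K (LegK L) := legKAlgebra_finiteDimensional L K
  haveI : IsGalois K (LegK L) := legKAlgebra_isGalois L K
  haveI hloc : IsLocalization.Away (algebraMap W[X] (LegJ W) (C π)) (LegJ L) :=
    isLocalization_away_of_away π hinj
  haveI : IsFractionRing (LegJ W) (LegK L) :=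
    legK_isFractionRing W L (algebraMap W[X] (LegJ W) (C π)) hinj
  haveI : IsScalarTower W[X] (LegJ W) (LegY j) := legY_isScalarTower_poly (W := W) j hjW
  have hFM := legY_adjoin_range j L
  haveI : CharZero L[X] := charZero_of_injective_algebraMap (C_injective (R := L))
  haveI : CharZero K := charZero_of_injective_algebraMap (IsFractionRing.injective L[X] K)
  haveI : CharZero (LegK L) := charZero_of_injective_algebraMap (algebraMap K (LegK L)).injective
  haveI : IsGalois F (LegY j) := Abhyankar.isGalois_of_adjoin_eq_top (K := K) hFM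
  haveI : FiniteDimensional K (LegY j) := FiniteDimensional.trans K F (LegY j)
  haveI : FiniteDimensional (LegK L) (LegY j) := FiniteDimensional.right K (LegK L) (LegY j)
  -- finiteness of the chart over `W[X]`
  haveI : Algebra.FiniteType W (LegJ W) :=
    ⟨Subalgebra.fg_def.mpr ⟨{jX W, jY W, jZ W}, Set.toFinite _, adjoin_eq_top W⟩⟩
  haveI : Algebra.FiniteType W[X] (LegJ W) :=
    Algebra.FiniteType.of_restrictScalars_finiteType W W[X] (LegJ W)
  haveI : Module.Finite W[X] (LegJ W) := Algebra.IsIntegral.finite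
  have hkerD : ∀ a : W, res a = 0 → C π ∣ algebraMap W W[X] a := by
    intro a ha
    have hmem : a ∈ RingHom.ker res := ha
    rw [hker, Ideal.mem_span_singleton] at hmem
    obtain ⟨b, rfl⟩ := hmem
    exact ⟨C b, by rw [Polynomial.algebraMap_eq, C_mul]⟩
  have hinjD : Function.Injective (algebraMap W[X] (LegJ W)) := by
    have h1 := (algebraMap F (LegY j)).injective.comp
      (algebraMap_poly_injective' j hjL hjW htr hinj)
    have h2' : (algebraMap F (LegY j)) ∘ (algebraMap W[X] F) =
        (algebraMap (LegJ W) (LegY j)) ∘ (algebraMap W[X] (LegJ W)) := by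
      funext p
      simp only [Function.comp_apply]
      rw [← IsScalarTower.algebraMap_apply W[X] F (LegY j),
        ← IsScalarTower.algebraMap_apply W[X] (LegJ W) (LegY j)]
    rw [h2'] at h1
    exact Function.Injective.of_comp h1
  exact ChartNormal.chart_normal (W := W) (k := k) (D := W[X]) (R0 := LegJ W) (K' := LegK L)
    (F := F) (Y' := LegY j) res hres (C π) hkerD hinjD (prime_poly_C hπ)
    (quotient_isDedekindDomain hπ hmax) (dvd_of_algebraMap_dvd h2 hπ hmax)
    (fun 𝔭 h𝔭 hcase => legendre_hU (K := K) j hjL hjW π hπ hmax h2 hinj hF κ₀ res hres hker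
      θ hθ P hP hPθ hsep 𝔭 h𝔭 hcase)
    hπF (fun σ hσ => ChartInert.legendre_hinert j hjW π hπ.not_isUnit h2 σ hσ)

end Abstract

/-! ### The DVR level -/

section Concrete

variable {L : Type} [Field L] [Algebra ℚ L]

/-- `2` is a unit of a local ring of odd residue characteristic. -/
theorem isUnit_two_of_char {ℓ : ℕ} (hℓ : ℓ.Prime) (hℓ2 : ℓ ≠ 2) (W : ValuationSubring L)
    [CharP (IsLocalRing.ResidueField ↥W) ℓ] : IsUnit (2 : ↥W) := by
  by_contra hu
  have h1 : IsLocalRing.residue ↥W (2 : ↥W) = 0 := by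
    rw [IsLocalRing.residue_eq_zero_iff]
    exact (IsLocalRing.mem_maximalIdeal _).mpr hu
  have h1' : ((2 : ℕ) : IsLocalRing.ResidueField ↥W) = 0 := by
    rw [← h1, map_ofNat, Nat.cast_ofNat]
  rw [CharP.cast_eq_zero_iff (IsLocalRing.ResidueField ↥W) ℓ] at h1'
  exact hℓ2 ((Nat.prime_dvd_prime_iff_eq hℓ Nat.prime_two).mp h1')

/-- **Chart normality at the finite chart, `ℓ ≠ 2`, conditional on `hπF`** (the Gauss prime
`(π)` of the integral closure `B₁` of `W[j]` in `F = S24.FF L N`): `B₁ ⧸ π B₁` is a Dedekind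
domain. -/
theorem legendre_chart_dedekind_of_prime (N : ℕ) [NeZero N] {ℓ : ℕ} (hℓ : ℓ.Prime)
    (hℓN : ¬ ℓ ∣ N) (hℓ2 : ℓ ≠ 2) (ι : L →+* Qb) (W : ValuationSubring L)
    [IsDiscreteValuationRing ↥W] [IsAlgClosed (IsLocalRing.ResidueField ↥W)]
    [CharP (IsLocalRing.ResidueField ↥W) ℓ] (π : ↥W) (hπ : Irreducible π)
    (hπF : letI := (Gauss.evF W N).toAlgebra
      Prime (algebraMap (↥W)[X] (integralClosure (↥W)[X] (S24.FF L N)) (C π))) :
    letI := (Gauss.evF W N).toAlgebra
    letI : CommRing (↥W)[X] := inferInstance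
    IsDedekindDomain (integralClosure (↥W)[X] (S24.FF L N) ⧸
      Ideal.span {algebraMap (↥W)[X] (integralClosure (↥W)[X] (S24.FF L N)) (C π)}) := by
  classical
  letI : Algebra (↥W)[X] (S24.FF L N) := (Gauss.evF W N).toAlgebra
  letI : Algebra ↥W (S24.FF L N) := ((algebraMap L (S24.FF L N)).comp W.subtype).toAlgebra
  haveI : Fact ℓ.Prime := ⟨hℓ⟩
  haveI : CharZero L := algebraRat.charZero L
  haveI : CharZero (S24.FF L N) :=
    charZero_of_injective_algebraMap (algebraMap L (S24.FF L N)).injective
  have htr : Transcendental L (S24.jBC L N) := RamJ.transcendental_jBC ι N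
  -- the `j`-line structures on `F`
  letI : Algebra L[X] (S24.FF L N) := FFKit.polyAlgebra (S24.jBC L N)
  haveI : IsScalarTower L L[X] (S24.FF L N) := FFKit.polyAlgebra_isScalarTower (S24.jBC L N)
  letI : Algebra (FractionRing L[X]) (S24.FF L N) :=
    FFKit.ratAlgebra (FractionRing L[X]) (S24.jBC L N) htr
  haveI : IsScalarTower L[X] (FractionRing L[X]) (S24.FF L N) :=
    FFKit.ratAlgebra_isScalarTower (FractionRing L[X]) (S24.jBC L N) htr
  haveI : FiniteDimensional (FractionRing L[X]) (S24.FF L N) :=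
    FFKit.finiteDimensional_FF ι N (FractionRing L[X])
  haveI : IsScalarTower ↥W L (S24.FF L N) := IsScalarTower.of_algebraMap_eq (fun _ => rfl)
  haveI : IsScalarTower ↥W (↥W)[X] (S24.FF L N) := IsScalarTower.of_algebraMap_eq (fun a => by
    show algebraMap L (S24.FF L N) (a : L) = Gauss.evF W N (C a)
    rw [Gauss.evF_C])
  have hjL : algebraMap L[X] (S24.FF L N) X = S24.jBC L N := FFKit.polyAlgebra_X (S24.jBC L N)
  have hjW : algebraMap (↥W)[X] (S24.FF L N) X = S24.jBC L N := Gauss.evF_X W N
  -- arithmetic of `W`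
  have hπp : Prime π := hπ.prime
  have hmax : (Ideal.span {π}).IsMaximal := by
    rw [← hπ.maximalIdeal_eq]
    exact IsLocalRing.maximalIdeal.isMaximal ↥W
  have h2 : IsUnit (2 : ↥W) := isUnit_two_of_char hℓ hℓ2 W
  haveI : IsLocalization.Away π L := ChartBasics.isLocalization_away_of_irreducible π hπ
  have hinj : Function.Injective (algebraMap ↥W L) := Subtype.val_injective
  -- horizontal primes: ramification of `F` over the `j`-line
  have hF : ∀ P : Ideal (integralClosure L[X] (S24.FF L N)), P.IsPrime → P ≠ ⊥ →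
      (X ∈ P.under L[X] → P.ramificationIdx L[X] ∣ 3) ∧
      (X - C 1728 ∈ P.under L[X] → P.ramificationIdx L[X] ∣ 2) ∧
      (X ∉ P.under L[X] → X - C 1728 ∉ P.under L[X] → P.ramificationIdx L[X] = 1) := by
    intro P hP hP0
    haveI := hP
    haveI : IsDedekindDomain (integralClosure L[X] (S24.FF L N)) :=
      IsIntegralClosure.isDedekindDomain L[X] (FractionRing L[X]) (S24.FF L N) _
    haveI : IsFractionRing (integralClosure L[X] (S24.FF L N)) (S24.FF L N) :=
      IsIntegralClosure.isFractionRing_of_finite_extension L[X] (FractionRing L[X])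
        (S24.FF L N) _
    exact RamJ.ramificationIdx_of_hom' ι N hjL P hP0
  -- vertical prime: the monogenic separable datum
  obtain ⟨θ, P, -, -, -, hP, -, hroot, -, hspan, -, hsep⟩ := Gauss.exists_monogenic W N ℓ hℓN
  have hgen := PGOut.adjoin_eq_top_of_span θ hspan
  have hθ : IntermediateField.adjoin (FractionRing L[X]) {θ} = ⊤ :=
    FiniteChartK.adjoin_eq_top_of_pair (S24.jBC L N) θ
      (FFKit.ratAlgebra_algebraMap (FractionRing L[X]) (S24.jBC L N) htr) hgen
  exact legendre_chart_normal (K := FractionRing L[X]) (S24.jBC L N) hjL hjW htr π hπp hmax h2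
    hinj hF (FractionRing (IsLocalRing.ResidueField ↥W)[X]) (IsLocalRing.residue ↥W)
    IsLocalRing.residue_surjective (by rw [IsLocalRing.ker_residue, hπ.maximalIdeal_eq])
    θ hθ P hP hroot (Gauss.separable_fractionRing_of_redK W P hsep _) hπF

/-- **The special fibre of the finite chart `W[j]` of `F_L = S24.FF L N` is normal** (Legendre
cover; residue characteristic `ℓ ≠ 2`), for any `W[X]`-structure on `F_L` equal to `X ↦ j` and
any integral closure `B` of `W[X]` in `F_L`.  (Twin of
`ChartInstHesse.hesse_chart_dedekind_of_closure`; the hypothesis `hroots` is not used.) -/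
theorem legendre_chart_dedekind_of_closure (N : ℕ) [NeZero N] {ℓ : ℕ} (hℓ : ℓ.Prime)
    (hℓN : ¬ ℓ ∣ N) (hℓ2 : ℓ ≠ 2) (ι : L →+* Qb) (W : ValuationSubring L)
    [IsDiscreteValuationRing ↥W] [IsAlgClosed (IsLocalRing.ResidueField ↥W)]
    [CharP (IsLocalRing.ResidueField ↥W) ℓ]
    (hroots : ∀ x : Qb, (∃ n : ℕ, ¬ ℓ ∣ n ∧ x ^ n = 1) → ∃ b : L, ι b = x)
    (π : ↥W) (hπ : Irreducible π)
    [Algebra (↥W)[X] (S24.FF L N)] (halg : algebraMap (↥W)[X] (S24.FF L N) = Gauss.evF W N)
    (B : Type*) [CommRing B] [Algebra (↥W)[X] B] [Algebra B (S24.FF L N)]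
    [IsScalarTower (↥W)[X] B (S24.FF L N)] [IsIntegralClosure B (↥W)[X] (S24.FF L N)] :
    IsDedekindDomain (B ⧸ Ideal.span {algebraMap (↥W)[X] B (C π)}) := by
  classical
  letI : Algebra ↥W (S24.FF L N) := ((algebraMap L (S24.FF L N)).comp W.subtype).toAlgebra
  haveI : Fact ℓ.Prime := ⟨hℓ⟩
  haveI : CharZero L := algebraRat.charZero L
  haveI : CharZero (S24.FF L N) :=
    charZero_of_injective_algebraMap (algebraMap L (S24.FF L N)).injective
  have htr : Transcendental L (S24.jBC L N) := RamJ.transcendental_jBC ι N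
  -- the `j`-line structures on `F`
  letI : Algebra L[X] (S24.FF L N) := FFKit.polyAlgebra (S24.jBC L N)
  haveI : IsScalarTower L L[X] (S24.FF L N) := FFKit.polyAlgebra_isScalarTower (S24.jBC L N)
  letI : Algebra (FractionRing L[X]) (S24.FF L N) :=
    FFKit.ratAlgebra (FractionRing L[X]) (S24.jBC L N) htr
  haveI : IsScalarTower L[X] (FractionRing L[X]) (S24.FF L N) :=
    FFKit.ratAlgebra_isScalarTower (FractionRing L[X]) (S24.jBC L N) htr
  haveI : FiniteDimensional (FractionRing L[X]) (S24.FF L N) :=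
    FFKit.finiteDimensional_FF ι N (FractionRing L[X])
  haveI : IsScalarTower ↥W L (S24.FF L N) := IsScalarTower.of_algebraMap_eq (fun _ => rfl)
  haveI : IsScalarTower ↥W (↥W)[X] (S24.FF L N) := IsScalarTower.of_algebraMap_eq (fun a => by
    rw [halg, Polynomial.algebraMap_eq, Gauss.evF_C]
    rfl)
  have hjL : algebraMap L[X] (S24.FF L N) X = S24.jBC L N := FFKit.polyAlgebra_X (S24.jBC L N)
  have hjW : algebraMap (↥W)[X] (S24.FF L N) X = S24.jBC L N := by
    rw [halg]; exact Gauss.evF_X W N
  -- arithmetic of `W`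
  have hπp : Prime π := hπ.prime
  have hmax : (Ideal.span {π}).IsMaximal := by
    rw [← hπ.maximalIdeal_eq]
    exact IsLocalRing.maximalIdeal.isMaximal ↥W
  have h2 : IsUnit (2 : ↥W) := isUnit_two_of_char hℓ hℓ2 W
  haveI : IsLocalization.Away π L := ChartBasics.isLocalization_away_of_irreducible π hπ
  have hinj : Function.Injective (algebraMap ↥W L) := Subtype.val_injective
  -- horizontal primes: ramification of `F` over the `j`-line
  have hF : ∀ P : Ideal (integralClosure L[X] (S24.FF L N)), P.IsPrime → P ≠ ⊥ →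
      (X ∈ P.under L[X] → P.ramificationIdx L[X] ∣ 3) ∧
      (X - C 1728 ∈ P.under L[X] → P.ramificationIdx L[X] ∣ 2) ∧
      (X ∉ P.under L[X] → X - C 1728 ∉ P.under L[X] → P.ramificationIdx L[X] = 1) := by
    intro P hP hP0
    haveI := hP
    haveI : IsDedekindDomain (integralClosure L[X] (S24.FF L N)) :=
      IsIntegralClosure.isDedekindDomain L[X] (FractionRing L[X]) (S24.FF L N) _
    haveI : IsFractionRing (integralClosure L[X] (S24.FF L N)) (S24.FF L N) :=
      IsIntegralClosure.isFractionRing_of_finite_extension L[X] (FractionRing L[X])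
        (S24.FF L N) _
    exact RamJ.ramificationIdx_of_hom' ι N hjL P hP0
  -- vertical prime: the monogenic separable datum
  obtain ⟨θ, P, -, -, -, hP, -, hroot, -, hspan, -, hsep⟩ := Gauss.exists_monogenic W N ℓ hℓN
  have hgen := PGOut.adjoin_eq_top_of_span θ hspan
  have hθ : IntermediateField.adjoin (FractionRing L[X]) {θ} = ⊤ :=
    FiniteChartK.adjoin_eq_top_of_pair (S24.jBC L N) θ
      (FFKit.ratAlgebra_algebraMap (FractionRing L[X]) (S24.jBC L N) htr) hgen
  have hroot' : eval₂ (algebraMap (↥W)[X] (S24.FF L N)) θ P = 0 := by rw [halg]; exact hroot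
  -- the Gauss prime
  have hπF : Prime (algebraMap (↥W)[X] (integralClosure (↥W)[X] (S24.FF L N)) (C π)) :=
    GaussPrime.prime_C_fin W N ℓ hℓN hπ halg (integralClosure (↥W)[X] (S24.FF L N))
  exact ChartInstHesse.isDedekindDomain_quot_of_closure (C π)
    (legendre_chart_normal (K := FractionRing L[X]) (S24.jBC L N) hjL hjW htr π hπp hmax h2
      hinj hF (FractionRing (IsLocalRing.ResidueField ↥W)[X]) (IsLocalRing.residue ↥W)
      IsLocalRing.residue_surjective (by rw [IsLocalRing.ker_residue, hπ.maximalIdeal_eq])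
      θ hθ P hP hroot' (Gauss.separable_fractionRing_of_redK W P hsep _) hπF)

/-- **The special fibre of the finite chart `W[j]` of `F_L` is normal** (Legendre cover,
`ℓ ≠ 2`), literal form: `W[X]` acts on `F_L` through `Gauss.evF W N` and
`B = integralClosure W[X] F_L`.  (The second `letI` only helps the elaboration of the quotient;
it is the canonical instance.) -/
theorem legendre_chart_dedekind (N : ℕ) [NeZero N] {ℓ : ℕ} (hℓ : ℓ.Prime)
    (hℓN : ¬ ℓ ∣ N) (hℓ2 : ℓ ≠ 2) (ι : L →+* Qb) (W : ValuationSubring L)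
    [IsDiscreteValuationRing ↥W] [IsAlgClosed (IsLocalRing.ResidueField ↥W)]
    [CharP (IsLocalRing.ResidueField ↥W) ℓ]
    (hroots : ∀ x : Qb, (∃ n : ℕ, ¬ ℓ ∣ n ∧ x ^ n = 1) → ∃ b : L, ι b = x)
    (π : ↥W) (hπ : Irreducible π) :
    letI : Algebra (↥W)[X] (S24.FF L N) := (Gauss.evF W N).toAlgebra
    letI : CommRing (integralClosure (↥W)[X] (S24.FF L N)) := inferInstance
    IsDedekindDomain (integralClosure (↥W)[X] (S24.FF L N) ⧸
      Ideal.span {algebraMap (↥W)[X] (integralClosure (↥W)[X] (S24.FF L N)) (C π)}) := by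
  letI : Algebra (↥W)[X] (S24.FF L N) := (Gauss.evF W N).toAlgebra
  exact legendre_chart_dedekind_of_closure N hℓ hℓN hℓ2 ι W hroots π hπ rfl
    (integralClosure (↥W)[X] (S24.FF L N))

/-- **The special fibre of the finite chart `W[j]` of `F_L` is normal, every `ℓ ∤ N`**: the
Hesse cover for `ℓ = 2`, the Legendre cover otherwise. -/
theorem finite_chart_dedekind_of_closure (N : ℕ) [NeZero N] {ℓ : ℕ} (hℓ : ℓ.Prime)
    (hℓN : ¬ ℓ ∣ N) (ι : L →+* Qb) (W : ValuationSubring L)
    [IsDiscreteValuationRing ↥W] [IsAlgClosed (IsLocalRing.ResidueField ↥W)]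
    [CharP (IsLocalRing.ResidueField ↥W) ℓ]
    (hroots : ∀ x : Qb, (∃ n : ℕ, ¬ ℓ ∣ n ∧ x ^ n = 1) → ∃ b : L, ι b = x)
    (π : ↥W) (hπ : Irreducible π)
    [Algebra (↥W)[X] (S24.FF L N)] (halg : algebraMap (↥W)[X] (S24.FF L N) = Gauss.evF W N)
    (B : Type*) [CommRing B] [Algebra (↥W)[X] B] [Algebra B (S24.FF L N)]
    [IsScalarTower (↥W)[X] B (S24.FF L N)] [IsIntegralClosure B (↥W)[X] (S24.FF L N)] :
    IsDedekindDomain (B ⧸ Ideal.span {algebraMap (↥W)[X] B (C π)}) := by
  by_cases hℓ2 : ℓ = 2
  · exact ChartInstHesse.hesse_chart_dedekind_of_closure N hℓ hℓN (by omega) ι W hroots π hπ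
      halg B
  · exact legendre_chart_dedekind_of_closure N hℓ hℓN hℓ2 ι W hroots π hπ halg B

end Concrete

end Fermat.Agent.S37.ChartInstLegendre
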