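import Mathlib
import Fermat.Agent.S37.ChartInstHesse
import Fermat.Agent.S37.ChartInstLegendre
import Fermat.Agent.S37.ChartInstCuspFinal
import Fermat.Agent.S37.DedekindTransport
import Fermat.Agent.S37.GaussPrime

/-!
# S37, package C2: (DED) for both charts, any residue characteristic `ℓ ∤ N`, any carrier

`W` is a discrete valuation ring of the level field `L` with algebraically closed residue field
of characteristic `ℓ ∤ N`, `F = S24.FF L N`.

* `legendre_chart_dedekind_of_closure` : the Legendre half (`ℓ ≠ 2`) for an arbitrary integral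
  closure `B` of `W[X]` (`X ↦ j`) in `F`.
* `finite_chart_dedekind` : for every `ℓ ∤ N` (Hesse cover if `ℓ ≠ 3`, Legendre cover if
  `ℓ = 3`): `B ⧸ π B` is a Dedekind domain, `B` any integral closure of `W[X]` in `F`.
* `cusp_chart_dedekind_of_closure` : the same for any integral closure of `CuspBase W`
  (`t ↦ 1/j`) in `F`.
-/

set_option autoImplicit false
set_option linter.unusedSectionVars false
set_option linter.style.haveILetI false

namespace Fermat.Agent.S37.ChartInstSplit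

open Polynomial
open Fermat.Agent.S18 Fermat.Agent.S18.Cusp

local notation "Qb" => AlgebraicClosure ℚ

/-- **Legendre half of (DED), finite chart, any carrier** (`ℓ ≠ 2`). -/
theorem legendre_chart_dedekind_of_closure (N : ℕ) [NeZero N] {ℓ : ℕ} (hℓ : ℓ.Prime)
    (hℓN : ¬ ℓ ∣ N) (hℓ2 : ℓ ≠ 2) {L : Type} [Field L] [Algebra ℚ L] (ι : L →+* Qb)
    (W : ValuationSubring L)
    [IsDiscreteValuationRing ↥W] [IsAlgClosed (IsLocalRing.ResidueField ↥W)]
    [CharP (IsLocalRing.ResidueField ↥W) ℓ]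
    (π : ↥W) (hπ : Irreducible π)
    [inst : Algebra (↥W)[X] (S24.FF L N)]
    (halg : algebraMap (↥W)[X] (S24.FF L N) = Gauss.evF W N)
    (B : Type*) [CommRing B] [Algebra (↥W)[X] B] [Algebra B (S24.FF L N)]
    [IsScalarTower (↥W)[X] B (S24.FF L N)] [IsIntegralClosure B (↥W)[X] (S24.FF L N)] :
    IsDedekindDomain (B ⧸ Ideal.span {algebraMap (↥W)[X] B (C π)}) := by
  haveI : Fact ℓ.Prime := ⟨hℓ⟩
  have hinst : inst = (Gauss.evF W N).toAlgebra := by
    apply Algebra.algebra_ext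
    intro r
    exact congrFun (congrArg DFunLike.coe halg) r
  subst hinst
  letI : Algebra (↥W)[X] (S24.FF L N) := (Gauss.evF W N).toAlgebra
  have h := ChartInstLegendre.legendre_chart_dedekind_of_prime N hℓ hℓN hℓ2 ι W π hπ
    (GaussPrime.prime_C_fin_integralClosure W N ℓ hℓN hπ)
  exact DedekindTransport.isDedekindDomain_quotient_of_isIntegralClosure (E := S24.FF L N)
    (integralClosure (↥W)[X] (S24.FF L N)) B (C π) h

/-- **(DED), finite chart, every residue characteristic `ℓ ∤ N`, any carrier**: for any integral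
closure `B` of `W[X]` (`X ↦ j`) in `F = S24.FF L N`, the special fibre `B ⧸ π B` is a Dedekind
domain. -/
theorem finite_chart_dedekind (N : ℕ) [NeZero N] {ℓ : ℕ} (hℓ : ℓ.Prime)
    (hℓN : ¬ ℓ ∣ N) {L : Type} [Field L] [Algebra ℚ L] (ι : L →+* Qb)
    (W : ValuationSubring L)
    [IsDiscreteValuationRing ↥W] [IsAlgClosed (IsLocalRing.ResidueField ↥W)]
    [CharP (IsLocalRing.ResidueField ↥W) ℓ]
    (hroots : ∀ x : Qb, (∃ n : ℕ, ¬ ℓ ∣ n ∧ x ^ n = 1) → ∃ b : L, ι b = x)
    (π : ↥W) (hπ : Irreducible π)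
    [Algebra (↥W)[X] (S24.FF L N)] (halg : algebraMap (↥W)[X] (S24.FF L N) = Gauss.evF W N)
    (B : Type*) [CommRing B] [Algebra (↥W)[X] B] [Algebra B (S24.FF L N)]
    [IsScalarTower (↥W)[X] B (S24.FF L N)] [IsIntegralClosure B (↥W)[X] (S24.FF L N)] :
    IsDedekindDomain (B ⧸ Ideal.span {algebraMap (↥W)[X] B (C π)}) := by
  by_cases h3 : ℓ = 3
  · exact legendre_chart_dedekind_of_closure N hℓ hℓN (by omega) ι W π hπ halg B
  · exact ChartInstHesse.hesse_chart_dedekind_of_closure N hℓ hℓN h3 ι W hroots π hπ halg B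

/-- **(DED), cusp chart, any carrier**: for any integral closure `B` of
`CuspBase W = W[t, 1/(1 - 1728 t)]` (`t ↦ 1/j`) in `F = S24.FF L N`, the special fibre
`B ⧸ π B` is a Dedekind domain. -/
theorem cusp_chart_dedekind_of_closure (N : ℕ) [NeZero N] {ℓ : ℕ} (hℓ : ℓ.Prime)
    (hℓN : ¬ ℓ ∣ N) {L : Type} [Field L] [Algebra ℚ L] (ι : L →+* Qb)
    (W : ValuationSubring L)
    [IsDiscreteValuationRing ↥W] [IsAlgClosed (IsLocalRing.ResidueField ↥W)]
    [CharP (IsLocalRing.ResidueField ↥W) ℓ]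
    (hroots : ∀ x : Qb, (∃ n : ℕ, ¬ ℓ ∣ n ∧ x ^ n = 1) → ∃ b : L, ι b = x)
    (π : ↥W) (hπ : Irreducible π)
    [Algebra (CuspBase ↥W) (S24.FF L N)]
    (halg : ∀ p : (↥W)[X], algebraMap (CuspBase ↥W) (S24.FF L N)
      (algebraMap (↥W)[X] (CuspBase ↥W) p) = Gauss.evFinf W N p)
    (B : Type*) [CommRing B] [Algebra (CuspBase ↥W) B] [Algebra B (S24.FF L N)]
    [IsScalarTower (CuspBase ↥W) B (S24.FF L N)]
    [IsIntegralClosure B (CuspBase ↥W) (S24.FF L N)] :
    IsDedekindDomain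
      (B ⧸ Ideal.span {algebraMap (CuspBase ↥W) B (algebraMap ↥W (CuspBase ↥W) π)}) :=
  DedekindTransport.isDedekindDomain_quotient_of_isIntegralClosure (E := S24.FF L N)
    (integralClosure (CuspBase ↥W) (S24.FF L N)) B (algebraMap ↥W (CuspBase ↥W) π)
    (ChartInstCuspFinal.cusp_chart_dedekind N hℓ hℓN ι W hroots π hπ halg)

end Fermat.Agent.S37.ChartInstSplit
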