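import Mathlib
import Fermat.Agent.S37.ChartVal

/-!
# S37 (W): saturation of the chart-place classes and the balance of centre divisors

* `SameCentre.symm'`, `isFinPlace_iff_of_sameCentre`, `isInfPlace_iff_of_sameCentre` : the
  relation `Centre.SameCentre` is symmetric and preserves the two classes of chart places.
* `map_eq_zero_of_mem_centreSubgroup` : an additive map on divisors which agrees on `P`, `P'`
  whenever `P ~ P'` kills `centreSubgroup`.
* `sum_eq_zero_of_mem_centreSubgroup` : for a class `S` of places saturated under `~`, the total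
  multiplicity over `S` of a divisor in `centreSubgroup` is zero.
-/

set_option autoImplicit false

namespace Fermat.Agent.S37.ChartBal

open Polynomial AlgebraicCurve ModularCurve Fermat.Agent.S37.GaloisValue Fermat.Agent.S37.Centre
  Fermat.Agent.S37.ChartVal Fermat.Agent.S18

noncomputable section

local notation "Qb" => AlgebraicClosure ℚ

variable {A : ValuationSubring Qb} {N : ℕ} [NeZero N]

/-- `~` is symmetric. -/
theorem sameCentre_symm {P P' : Place Qb ↥(modularFunctionFieldBar N)}
    (h : Centre.SameCentre A N P P') : Centre.SameCentre A N P' P := by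
  rcases h with ⟨h1, h2, h3⟩ | ⟨h1, h2, h3⟩
  · refine Or.inl ⟨h2, h1, fun f hf c c' hc hc' => ?_⟩
    rw [Valuation.map_sub_swap]
    exact h3 f hf c' c hc' hc
  · refine Or.inr ⟨h2, h1, fun f hf c c' hc hc' => ?_⟩
    rw [Valuation.map_sub_swap]
    exact h3 f hf c' c hc' hc

/-- `~` preserves the class of finite places. -/
theorem isFinPlace_iff_of_sameCentre {P P' : Place Qb ↥(modularFunctionFieldBar N)}
    (h : Centre.SameCentre A N P P') :
    Centre.IsFinPlace A N P ↔ Centre.IsFinPlace A N P' := by
  rcases h with ⟨h1, h2, -⟩ | ⟨h1, h2, -⟩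
  · exact ⟨fun _ => h2, fun _ => h1⟩
  · exact ⟨fun hF => absurd h1 (not_isCuspPlace_of_isFinPlace hF),
      fun hF => absurd h2 (not_isCuspPlace_of_isFinPlace hF)⟩

/-- `~` preserves the class of places of the second chart (one direction). -/
theorem isInfPlace_of_sameCentre {P P' : Place Qb ↥(modularFunctionFieldBar N)}
    (h : Centre.SameCentre A N P P') (hP : IsInfPlace A N P) : IsInfPlace A N P' := by
  have h1728 : A.valuation (1728 : Qb) ≤ 1 := (A.valuation_le_one_iff _).mpr (ofNat_mem A 1728)
  rcases h with ⟨hF, hF', hcongr⟩ | ⟨-, hC', -⟩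
  · obtain ⟨b, hb, hPb⟩ := hF
    obtain ⟨b', hb', hPb'⟩ := hF'
    obtain ⟨a, ha, hua, hPa⟩ := hP
    have hj := GaussSmall.jBC_ne_zero (E := Qb) N
    have hab := mul_eq_one_of_isValueAt hj hPb hPa
    have hb1 : A.valuation b ≤ 1 := (A.valuation_le_one_iff b).mpr hb
    have ha1 : A.valuation a ≤ 1 := (A.valuation_le_one_iff a).mpr ha
    have hbunit : A.valuation b = 1 := by
      have h2 := congrArg A.valuation hab
      rw [map_mul, map_one] at h2
      by_contra hne
      have hlt : A.valuation b < 1 := lt_of_le_of_ne hb1 hne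
      have h3 : A.valuation b * A.valuation a < 1 :=
        mul_lt_one_of_nonneg_of_lt_one_left zero_le hlt ha1
      rw [h2] at h3
      exact lt_irrefl _ h3
    have haunit : A.valuation a = 1 := by
      have h2 := congrArg A.valuation hab
      rwa [map_mul, map_one, hbunit, one_mul] at h2
    have hbb' : A.valuation (b - b') < 1 := hcongr _ isFinInt_j b b' hPb hPb'
    have hb'unit : A.valuation b' = 1 := by
      have e : b' = b + (b' - b) := by ring
      rw [e, Valuation.map_add_eq_of_lt_left, hbunit]
      rw [hbunit, Valuation.map_sub_swap]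
      exact hbb'
    have hb'0 : b' ≠ 0 := by
      intro h0
      rw [h0, map_zero] at hb'unit
      exact zero_ne_one hb'unit
    have hb0 : b ≠ 0 := by
      intro h0
      rw [h0, map_zero] at hbunit
      exact zero_ne_one hbunit
    have ha_eq : a = b⁻¹ := eq_inv_of_mul_eq_one_right hab
    have hval' : A.valuation b'⁻¹ = 1 := by rw [map_inv₀, hb'unit, inv_one]
    refine ⟨b'⁻¹, (A.valuation_le_one_iff _).mp hval'.le, ?_, GaussSmall.isValueAt_inv hPb' hb'0⟩
    have hdiff : A.valuation (b⁻¹ - b'⁻¹) < 1 := by
      have e : b⁻¹ - b'⁻¹ = (b' - b) * (b⁻¹ * b'⁻¹) := by field_simp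
      rw [e, map_mul, map_mul, map_inv₀, map_inv₀, hbunit, hb'unit, inv_one, mul_one, mul_one,
        Valuation.map_sub_swap]
      exact hbb'
    have e : 1 - 1728 * b'⁻¹ = (1 - 1728 * a) + 1728 * (b⁻¹ - b'⁻¹) := by rw [ha_eq]; ring
    rw [e, Valuation.map_add_eq_of_lt_left, hua]
    rw [hua, map_mul]
    exact mul_lt_one_of_nonneg_of_lt_one_right h1728 zero_le hdiff
  · obtain ⟨a', ha', hPa'⟩ := hC'
    refine ⟨a', (A.valuation_le_one_iff _).mp ha'.le, ?_, hPa'⟩
    have e : 1 - 1728 * a' = 1 + -(1728 * a') := by ring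
    rw [e, Valuation.map_add_eq_of_lt_left, map_one]
    rw [map_one, Valuation.map_neg, map_mul]
    exact mul_lt_one_of_nonneg_of_lt_one_right h1728 zero_le ha'

/-- `~` preserves the class of places of the second chart. -/
theorem isInfPlace_iff_of_sameCentre {P P' : Place Qb ↥(modularFunctionFieldBar N)}
    (h : Centre.SameCentre A N P P') : IsInfPlace A N P ↔ IsInfPlace A N P' :=
  ⟨isInfPlace_of_sameCentre h, isInfPlace_of_sameCentre (sameCentre_symm h)⟩

/-- An additive map on divisors taking the same value on `P` and `P'` whenever `P ~ P'` vanishes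
on `centreSubgroup`. -/
theorem map_eq_zero_of_mem_centreSubgroup {G : Type*} [AddCommGroup G]
    (φ : Divisor Qb ↥(modularFunctionFieldBar N) →+ G)
    (hφ : ∀ P P' : Place Qb ↥(modularFunctionFieldBar N), Centre.SameCentre A N P P' →
      φ (Finsupp.single P 1) = φ (Finsupp.single P' 1))
    {D : Divisor Qb ↥(modularFunctionFieldBar N)} (hD : D ∈ Centre.centreSubgroup A N) :
    φ D = 0 := by
  have hle : Centre.centreSubgroup A N ≤ φ.ker := by
    unfold Centre.centreSubgroup
    rw [AddSubgroup.closure_le]
    rintro _ ⟨P, P', hPP', rfl⟩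
    show φ _ = 0
    rw [map_sub, hφ P P' hPP', sub_self]
  exact hle hD

/-- **Balance.** For a class `S` of places saturated under `~`, the total multiplicity over `S`
of a divisor in `centreSubgroup` is zero. -/
theorem sum_eq_zero_of_mem_centreSubgroup (S : Place Qb ↥(modularFunctionFieldBar N) → Prop)
    [DecidablePred S]
    (hS : ∀ P P' : Place Qb ↥(modularFunctionFieldBar N), Centre.SameCentre A N P P' →
      (S P ↔ S P'))
    {D : Divisor Qb ↥(modularFunctionFieldBar N)} (hD : D ∈ Centre.centreSubgroup A N) :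
    (D.sum fun P n => if S P then n else 0) = 0 := by
  let φ : Divisor Qb ↥(modularFunctionFieldBar N) →+ ℤ :=
    Finsupp.liftAddHom (fun P => if S P then AddMonoidHom.id ℤ else 0)
  have hφD : φ D = D.sum fun P n => if S P then n else 0 := by
    show (Finsupp.liftAddHom (fun P => if S P then AddMonoidHom.id ℤ else 0)) D = _
    rw [Finsupp.liftAddHom_apply]
    refine Finsupp.sum_congr fun P _ => ?_
    by_cases h : S P <;> simp [h]
  rw [← hφD]
  refine map_eq_zero_of_mem_centreSubgroup φ (fun P P' hPP' => ?_) hD
  show (Finsupp.liftAddHom (fun P => if S P then AddMonoidHom.id ℤ else 0)) _ =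
    (Finsupp.liftAddHom (fun P => if S P then AddMonoidHom.id ℤ else 0)) _
  rw [Finsupp.liftAddHom_apply_single, Finsupp.liftAddHom_apply_single]
  have := hS P P' hPP'
  by_cases h : S P
  · rw [if_pos h, if_pos (this.mp h)]
  · rw [if_neg h, if_neg (fun h' => h (this.mpr h'))]

end

end Fermat.Agent.S37.ChartBal
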