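import Mathlib
import Fermat.Agent.S37.ChartBal
import Fermat.Agent.S37.GaussPrime

/-!
# S37 (W): the (VAL) contract of `WChart` for the two chart rings

For a chart ring `B` with `φ : B →+* F_L` and `ψ := bc ι ∘ φ : B →+* F_ℚ̄`, put
`Pl P := ∀ y : B, ∃ c ∈ A, IsValueAt P (ψ y) c`.  Then for `P ~ P'` (`Centre.SameCentre`):
`Pl P ↔ Pl P'`, and if both hold, the values of every `ψ y` at `P`, `P'` are congruent modulo
`𝔪_A`.

* `val_fin_of` / `val_inf_of` : abstract `B` (elementwise integrality hypotheses);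
* `val_fin` : `B` any integral closure of `W[X]` (`X ↦ j`) in `F_L`;
* `val_cusp` : `B` any integral closure of `Cusp.CuspBase W` (`t ↦ 1/j`) in `F_L`;
* `pl_iff_isFinPlace`, `pl_iff_isInfPlace` : `Pl` is the class of chart places.
-/

set_option autoImplicit false

namespace Fermat.Agent.S37.ChartValB

open Polynomial AlgebraicCurve ModularCurve Fermat.Agent.S37.GaloisValue Fermat.Agent.S37.Centre
  Fermat.Agent.S37.ChartVal Fermat.Agent.S37.ChartBal Fermat.Agent.S18

noncomputable section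

local notation "Qb" => AlgebraicClosure ℚ

variable (N : ℕ) [NeZero N] (A : ValuationSubring Qb) {L : Type} [Field L] [Algebra ℚ L]
  (ι : L →+* Qb)

section Abstract

variable {B : Type*} [CommRing B] (φ : B →+* Fermat.Agent.S24.FF L N)

/-- Chart 1: `Pl` is the class of finite places. -/
theorem pl_iff_isFinPlace
    (hint : ∀ y : B, (Gauss.evF (A.comap ι) N).IsIntegralElem (φ y))
    (hj : ∃ y : B, φ y = Fermat.Agent.S24.jBC L N)
    (P : Place Qb ↥(modularFunctionFieldBar N)) :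
    (∀ y : B, ∃ c : Qb, c ∈ A ∧
      IsValueAt P (((Fermat.Agent.S24.CoeffBC.bc ι (modularFunctionFieldFull N)).comp φ) y) c) ↔
      Centre.IsFinPlace A N P := by
  constructor
  · intro h
    obtain ⟨y, hy⟩ := hj
    obtain ⟨c, hc, hval⟩ := h y
    rw [RingHom.comp_apply, hy, GaussSmall.bc_jBC] at hval
    exact ⟨c, hc, hval⟩
  · intro hF y
    exact exists_value_fin N A ι (hint y) hF

/-- Chart 2: `Pl` is the class of places with `t(P) ∈ A`, `1 - 1728 t(P) ∈ Aˣ`. -/
theorem pl_iff_isInfPlace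
    (hint : ∀ y : B, ∃ m : ℕ, (Gauss.evFinf (A.comap ι) N).IsIntegralElem
      ((1 - 1728 * (Fermat.Agent.S24.jBC L N)⁻¹) ^ m * φ y))
    (ht : ∃ y : B, φ y = (Fermat.Agent.S24.jBC L N)⁻¹)
    (hu : ∃ y : B, φ y * (1 - 1728 * (Fermat.Agent.S24.jBC L N)⁻¹) = 1)
    (P : Place Qb ↥(modularFunctionFieldBar N)) :
    (∀ y : B, ∃ c : Qb, c ∈ A ∧
      IsValueAt P (((Fermat.Agent.S24.CoeffBC.bc ι (modularFunctionFieldFull N)).comp φ) y) c) ↔
      IsInfPlace A N P := by
  constructor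
  · intro h
    obtain ⟨yt, hyt⟩ := ht
    obtain ⟨yu, hyu⟩ := hu
    obtain ⟨a, ha, hvala⟩ := h yt
    obtain ⟨c, hc, hvalc⟩ := h yu
    rw [RingHom.comp_apply, hyt, map_inv₀, GaussSmall.bc_jBC] at hvala
    rw [RingHom.comp_apply] at hvalc
    have hmul := isValueAt_multiplier hvala 1
    rw [pow_one, pow_one] at hmul
    have h1 := hvalc.mul hmul
    have e : Fermat.Agent.S24.CoeffBC.bc ι (modularFunctionFieldFull N) (φ yu) *
        (1 - 1728 * (Fermat.Agent.S24.jBC Qb N)⁻¹) = 1 := by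
      have h2 := congrArg (Fermat.Agent.S24.CoeffBC.bc ι (modularFunctionFieldFull N)) hyu
      rwa [map_mul, map_sub, map_one, map_mul, map_ofNat, map_inv₀, GaussSmall.bc_jBC] at h2
    rw [e] at h1
    have h3 : c * (1 - 1728 * a) = 1 := h1.unique (isValueAt_one P)
    refine ⟨a, ha, ?_, hvala⟩
    have h4 := congrArg A.valuation h3
    rw [map_mul, map_one] at h4
    have hc1 : A.valuation c ≤ 1 := (A.valuation_le_one_iff c).mpr hc
    have hu1 : A.valuation (1 - 1728 * a) ≤ 1 :=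
      (A.valuation_le_one_iff _).mpr (sub_mem (one_mem A) (mul_mem (ofNat_mem A 1728) ha))
    by_contra hne
    have hlt : A.valuation (1 - 1728 * a) < 1 := lt_of_le_of_ne hu1 hne
    have h5 : A.valuation c * A.valuation (1 - 1728 * a) < 1 :=
      mul_lt_one_of_nonneg_of_lt_one_right hc1 zero_le hlt
    rw [h4] at h5
    exact lt_irrefl _ h5
  · intro hI y
    exact exists_value_inf N A ι (hint y) hI

/-- **(VAL), chart 1, abstract carrier.** -/
theorem val_fin_of
    (hint : ∀ y : B, (Gauss.evF (A.comap ι) N).IsIntegralElem (φ y))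
    (hj : ∃ y : B, φ y = Fermat.Agent.S24.jBC L N) :
    ∀ P P' : Place Qb ↥(modularFunctionFieldBar N), Centre.SameCentre A N P P' →
      ((∀ y : B, ∃ c : Qb, c ∈ A ∧ IsValueAt P
          (((Fermat.Agent.S24.CoeffBC.bc ι (modularFunctionFieldFull N)).comp φ) y) c) ↔
        (∀ y : B, ∃ c : Qb, c ∈ A ∧ IsValueAt P'
          (((Fermat.Agent.S24.CoeffBC.bc ι (modularFunctionFieldFull N)).comp φ) y) c)) ∧
      ((∀ y : B, ∃ c : Qb, c ∈ A ∧ IsValueAt P
          (((Fermat.Agent.S24.CoeffBC.bc ι (modularFunctionFieldFull N)).comp φ) y) c) →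
        (∀ y : B, ∃ c : Qb, c ∈ A ∧ IsValueAt P'
          (((Fermat.Agent.S24.CoeffBC.bc ι (modularFunctionFieldFull N)).comp φ) y) c) →
        ∀ (y : B) (c c' : Qb),
          IsValueAt P (((Fermat.Agent.S24.CoeffBC.bc ι (modularFunctionFieldFull N)).comp φ) y) c →
          IsValueAt P'
            (((Fermat.Agent.S24.CoeffBC.bc ι (modularFunctionFieldFull N)).comp φ) y) c' →
          A.valuation (c - c') < 1) := by
  intro P P' hPP'
  refine ⟨?_, fun h1 _ y c c' hc hc' => ?_⟩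
  · rw [pl_iff_isFinPlace N A ι φ hint hj P, pl_iff_isFinPlace N A ι φ hint hj P']
    exact isFinPlace_iff_of_sameCentre hPP'
  · exact valuation_sub_lt_one_of_sameCentre_fin (isFinInt_bc N A ι (hint y))
      ((pl_iff_isFinPlace N A ι φ hint hj P).mp h1) hPP' hc hc'

/-- **(VAL), chart 2, abstract carrier.** -/
theorem val_inf_of
    (hint : ∀ y : B, ∃ m : ℕ, (Gauss.evFinf (A.comap ι) N).IsIntegralElem
      ((1 - 1728 * (Fermat.Agent.S24.jBC L N)⁻¹) ^ m * φ y))
    (ht : ∃ y : B, φ y = (Fermat.Agent.S24.jBC L N)⁻¹)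
    (hu : ∃ y : B, φ y * (1 - 1728 * (Fermat.Agent.S24.jBC L N)⁻¹) = 1) :
    ∀ P P' : Place Qb ↥(modularFunctionFieldBar N), Centre.SameCentre A N P P' →
      ((∀ y : B, ∃ c : Qb, c ∈ A ∧ IsValueAt P
          (((Fermat.Agent.S24.CoeffBC.bc ι (modularFunctionFieldFull N)).comp φ) y) c) ↔
        (∀ y : B, ∃ c : Qb, c ∈ A ∧ IsValueAt P'
          (((Fermat.Agent.S24.CoeffBC.bc ι (modularFunctionFieldFull N)).comp φ) y) c)) ∧
      ((∀ y : B, ∃ c : Qb, c ∈ A ∧ IsValueAt P
          (((Fermat.Agent.S24.CoeffBC.bc ι (modularFunctionFieldFull N)).comp φ) y) c) →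
        (∀ y : B, ∃ c : Qb, c ∈ A ∧ IsValueAt P'
          (((Fermat.Agent.S24.CoeffBC.bc ι (modularFunctionFieldFull N)).comp φ) y) c) →
        ∀ (y : B) (c c' : Qb),
          IsValueAt P (((Fermat.Agent.S24.CoeffBC.bc ι (modularFunctionFieldFull N)).comp φ) y) c →
          IsValueAt P'
            (((Fermat.Agent.S24.CoeffBC.bc ι (modularFunctionFieldFull N)).comp φ) y) c' →
          A.valuation (c - c') < 1) := by
  intro P P' hPP'
  refine ⟨?_, fun h1 h2 y c c' hc hc' => ?_⟩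
  · rw [pl_iff_isInfPlace N A ι φ hint ht hu P, pl_iff_isInfPlace N A ι φ hint ht hu P']
    exact isInfPlace_iff_of_sameCentre hPP'
  · exact valuation_sub_lt_one_of_sameCentre_inf (isInfInt_bc N A ι (hint y))
      ((pl_iff_isInfPlace N A ι φ hint ht hu P).mp h1)
      ((pl_iff_isInfPlace N A ι φ hint ht hu P').mp h2) hPP' hc hc'

end Abstract

/-! ### The two concrete charts -/

section Concrete

/-- **(VAL), chart 1**: `B` any integral closure of `W[X]` (`X ↦ j`) in `F_L`,
`φ := algebraMap B F_L`. -/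
theorem val_fin [Algebra (↥(A.comap ι))[X] (Fermat.Agent.S24.FF L N)]
    (halg : algebraMap (↥(A.comap ι))[X] (Fermat.Agent.S24.FF L N) = Gauss.evF (A.comap ι) N)
    (B : Type*) [CommRing B] [Algebra (↥(A.comap ι))[X] B] [Algebra B (Fermat.Agent.S24.FF L N)]
    [IsScalarTower (↥(A.comap ι))[X] B (Fermat.Agent.S24.FF L N)]
    [IsIntegralClosure B (↥(A.comap ι))[X] (Fermat.Agent.S24.FF L N)] :
    ∀ P P' : Place Qb ↥(modularFunctionFieldBar N), Centre.SameCentre A N P P' →
      ((∀ y : B, ∃ c : Qb, c ∈ A ∧ IsValueAt P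
          (((Fermat.Agent.S24.CoeffBC.bc ι (modularFunctionFieldFull N)).comp
            (algebraMap B (Fermat.Agent.S24.FF L N))) y) c) ↔
        (∀ y : B, ∃ c : Qb, c ∈ A ∧ IsValueAt P'
          (((Fermat.Agent.S24.CoeffBC.bc ι (modularFunctionFieldFull N)).comp
            (algebraMap B (Fermat.Agent.S24.FF L N))) y) c)) ∧
      ((∀ y : B, ∃ c : Qb, c ∈ A ∧ IsValueAt P
          (((Fermat.Agent.S24.CoeffBC.bc ι (modularFunctionFieldFull N)).comp
            (algebraMap B (Fermat.Agent.S24.FF L N))) y) c) →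
        (∀ y : B, ∃ c : Qb, c ∈ A ∧ IsValueAt P'
          (((Fermat.Agent.S24.CoeffBC.bc ι (modularFunctionFieldFull N)).comp
            (algebraMap B (Fermat.Agent.S24.FF L N))) y) c) →
        ∀ (y : B) (c c' : Qb),
          IsValueAt P (((Fermat.Agent.S24.CoeffBC.bc ι (modularFunctionFieldFull N)).comp
            (algebraMap B (Fermat.Agent.S24.FF L N))) y) c →
          IsValueAt P' (((Fermat.Agent.S24.CoeffBC.bc ι (modularFunctionFieldFull N)).comp
            (algebraMap B (Fermat.Agent.S24.FF L N))) y) c' →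
          A.valuation (c - c') < 1) := by
  refine val_fin_of N A ι (algebraMap B (Fermat.Agent.S24.FF L N)) (fun y => ?_) ?_
  · have h : IsIntegral (↥(A.comap ι))[X] (algebraMap B (Fermat.Agent.S24.FF L N) y) :=
      (IsIntegralClosure.isIntegral_iff (A := B)).mpr ⟨y, rfl⟩
    have h' : (algebraMap (↥(A.comap ι))[X] (Fermat.Agent.S24.FF L N)).IsIntegralElem
        (algebraMap B (Fermat.Agent.S24.FF L N) y) := h
    rwa [halg] at h'
  · have hX : IsIntegral (↥(A.comap ι))[X]
        (algebraMap (↥(A.comap ι))[X] (Fermat.Agent.S24.FF L N) X) := isIntegral_algebraMap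
    obtain ⟨y, hy⟩ := (IsIntegralClosure.isIntegral_iff (A := B)).mp hX
    refine ⟨y, ?_⟩
    rw [hy, halg, Gauss.evF_X]

/-- **(VAL), chart 2**: `B` any integral closure of `Cusp.CuspBase W` (`t ↦ 1/j`) in `F_L`,
`φ := algebraMap B F_L`. -/
theorem val_cusp [IsDiscreteValuationRing ↥(A.comap ι)]
    [Algebra (Cusp.CuspBase ↥(A.comap ι)) (Fermat.Agent.S24.FF L N)]
    (halg : ∀ p : (↥(A.comap ι))[X],
      algebraMap (Cusp.CuspBase ↥(A.comap ι)) (Fermat.Agent.S24.FF L N)
        (algebraMap (↥(A.comap ι))[X] (Cusp.CuspBase ↥(A.comap ι)) p)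
        = Gauss.evFinf (A.comap ι) N p)
    (B : Type*) [CommRing B] [Algebra (Cusp.CuspBase ↥(A.comap ι)) B]
    [Algebra B (Fermat.Agent.S24.FF L N)]
    [IsScalarTower (Cusp.CuspBase ↥(A.comap ι)) B (Fermat.Agent.S24.FF L N)]
    [IsIntegralClosure B (Cusp.CuspBase ↥(A.comap ι)) (Fermat.Agent.S24.FF L N)] :
    ∀ P P' : Place Qb ↥(modularFunctionFieldBar N), Centre.SameCentre A N P P' →
      ((∀ y : B, ∃ c : Qb, c ∈ A ∧ IsValueAt P
          (((Fermat.Agent.S24.CoeffBC.bc ι (modularFunctionFieldFull N)).comp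
            (algebraMap B (Fermat.Agent.S24.FF L N))) y) c) ↔
        (∀ y : B, ∃ c : Qb, c ∈ A ∧ IsValueAt P'
          (((Fermat.Agent.S24.CoeffBC.bc ι (modularFunctionFieldFull N)).comp
            (algebraMap B (Fermat.Agent.S24.FF L N))) y) c)) ∧
      ((∀ y : B, ∃ c : Qb, c ∈ A ∧ IsValueAt P
          (((Fermat.Agent.S24.CoeffBC.bc ι (modularFunctionFieldFull N)).comp
            (algebraMap B (Fermat.Agent.S24.FF L N))) y) c) →
        (∀ y : B, ∃ c : Qb, c ∈ A ∧ IsValueAt P'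
          (((Fermat.Agent.S24.CoeffBC.bc ι (modularFunctionFieldFull N)).comp
            (algebraMap B (Fermat.Agent.S24.FF L N))) y) c) →
        ∀ (y : B) (c c' : Qb),
          IsValueAt P (((Fermat.Agent.S24.CoeffBC.bc ι (modularFunctionFieldFull N)).comp
            (algebraMap B (Fermat.Agent.S24.FF L N))) y) c →
          IsValueAt P' (((Fermat.Agent.S24.CoeffBC.bc ι (modularFunctionFieldFull N)).comp
            (algebraMap B (Fermat.Agent.S24.FF L N))) y) c' →
          A.valuation (c - c') < 1) := by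
  refine val_inf_of N A ι (algebraMap B (Fermat.Agent.S24.FF L N)) (fun y => ?_) ?_ ?_
  · exact (GaussPrime.isIntegral_cuspBase_iff (A.comap ι) N halg _).mp
      ((IsIntegralClosure.isIntegral_iff (A := B)).mpr ⟨y, rfl⟩)
  · have hX : IsIntegral (Cusp.CuspBase ↥(A.comap ι))
        (algebraMap (Cusp.CuspBase ↥(A.comap ι)) (Fermat.Agent.S24.FF L N)
          (Cusp.baseT ↥(A.comap ι))) := isIntegral_algebraMap
    obtain ⟨y, hy⟩ := (IsIntegralClosure.isIntegral_iff (A := B)).mp hX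
    refine ⟨y, ?_⟩
    rw [hy, Cusp.baseT, halg, Gauss.evFinf_X]
  · have hX : IsIntegral (Cusp.CuspBase ↥(A.comap ι))
        (algebraMap (Cusp.CuspBase ↥(A.comap ι)) (Fermat.Agent.S24.FF L N)
          (Cusp.baseInv ↥(A.comap ι))) := isIntegral_algebraMap
    obtain ⟨y, hy⟩ := (IsIntegralClosure.isIntegral_iff (A := B)).mp hX
    refine ⟨y, ?_⟩
    rw [hy, ← GaussPrime.evFinf_cuspPoly (A.comap ι) N, ← GaussPrime.cuspG_eq_cuspPoly, ← halg,
      ← map_mul, mul_comm, Cusp.algebraMap_cuspG_mul_baseInv, map_one]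

end Concrete

end

end Fermat.Agent.S37.ChartValB
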