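import Mathlib
import Fermat.Agent.S24.PlacesRaw
import Fermat.Agent.S24.CoeffBC
import Fermat.Agent.S18.Witness
import Fermat.Agent.S37.GaloisValue

/-!
# S37 (W): a prime of a chart ring is the centre of a `ℚ̄`-place  ((EXT))

For any ring `B` mapping injectively into the function field `F_L = S24.FF L N` at a level
`(L, ι : L →+* ℚ̄)`, and any nonzero prime `𝔮` of `B` at which the constants of `L` are local,
there is a place `P` of `F_ℚ̄` whose valuation ring contains the image of `B` and whose centre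
on `B` is `𝔮`.

Proof: Chevalley's extension theorem at the `ℚ̄`-level (`LocalSubring.exists_le_valuationSubring`
for the image of `B_𝔮`), and "every nontrivial valuation ring of `F_ℚ̄` over `ℚ̄` is a place"
(`S24.exists_place_of_valuationSubring`).
-/

set_option autoImplicit false

namespace Fermat.Agent.S37.ExtPlace

open ModularCurve AlgebraicCurve Fermat.Agent.S37.GaloisValue

noncomputable section

local notation "Qb" => AlgebraicClosure ℚ

section Chevalley

variable {K : Type*} [Field K]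

/-- **Chevalley.** A prime of a subring of a field is the centre of a valuation subring. -/
theorem exists_valuationSubring_of_prime (A : Subring K) (P : Ideal A) [P.IsPrime] :
    ∃ V : ValuationSubring K, A ≤ V.toSubring ∧ ∀ a : A, (a : K) ∈ V.nonunits ↔ a ∈ P := by
  obtain ⟨V, hle, hloc⟩ := (LocalSubring.ofPrime A P).exists_le_valuationSubring
  have hA : A ≤ V.toSubring := (LocalSubring.le_ofPrime A P).trans hle
  refine ⟨V, hA, fun a => ?_⟩
  have h1 : IsUnit (algebraMap A (LocalSubring.ofPrime A P).toSubring a) ↔ a ∈ P.primeCompl :=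
    IsLocalization.AtPrime.isUnit_to_map_iff _ P a
  have h2 : IsUnit (algebraMap A (LocalSubring.ofPrime A P).toSubring a) ↔
      IsUnit (Subring.inclusion hle (algebraMap A (LocalSubring.ofPrime A P).toSubring a)) :=
    ⟨fun h => h.map _, fun h => hloc.map_nonunit _ h⟩
  have h3 : IsUnit (Subring.inclusion hle (algebraMap A (LocalSubring.ofPrime A P).toSubring a))
      ↔ (a : K) ∉ V.nonunits := by
    have h4 : IsUnit (⟨(a : K), hA a.2⟩ : V) ↔ V.valuation (a : K) = 1 :=
      V.valuation_eq_one_iff ⟨(a : K), hA a.2⟩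
    have h5 : V.valuation (a : K) ≤ 1 := (V.valuation_le_one_iff _).mpr (hA a.2)
    rw [V.mem_nonunits_iff, not_lt]
    exact h4.trans ⟨fun h => h.ge, fun h => le_antisymm h5 h⟩
  rw [← not_iff_not, ← h3, ← h2, h1]
  exact Iff.rfl

end Chevalley

/-- **(EXT)** A nonzero prime `𝔮` of a ring `B ⊆ F_L` at which the constants are local is the
centre of a place of `F_ℚ̄`. -/
theorem exists_place_of_prime (N : ℕ) [NeZero N] {L : Type} [Field L] [Algebra ℚ L]
    (ι : L →+* Qb) {B : Type*} [CommRing B] (φ : B →+* Fermat.Agent.S24.FF L N)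
    (hφ : Function.Injective φ) (𝔮 : Ideal B) [𝔮.IsPrime] (h0 : 𝔮 ≠ ⊥)
    (hconst : ∀ c : L, ∃ b s : B, s ∉ 𝔮 ∧
      φ s * algebraMap L (Fermat.Agent.S24.FF L N) c = φ b) :
    ∃ P : Place Qb (modularFunctionFieldBar N), ∀ y : B,
      Fermat.Agent.S24.CoeffBC.bc ι (modularFunctionFieldFull N) (φ y) ∈ P.toValuationSubring ∧
      (y ∈ 𝔮 ↔
        IsValueAt P (Fermat.Agent.S24.CoeffBC.bc ι (modularFunctionFieldFull N) (φ y)) 0) := by
  set ψ : B →+* Fermat.Agent.S24.FF Qb N :=
    (Fermat.Agent.S24.CoeffBC.bc ι (modularFunctionFieldFull N)).comp φ with hψ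
  have hψinj : Function.Injective ψ :=
    (Fermat.Agent.S24.CoeffBC.bc ι (modularFunctionFieldFull N)).injective.comp hφ
  have hsurj : Function.Surjective ψ.rangeRestrict := ψ.rangeRestrict_surjective
  have hker : RingHom.ker ψ.rangeRestrict ≤ 𝔮 := by
    intro x hx
    have h1 : ψ x = 0 := congrArg Subtype.val (RingHom.mem_ker.mp hx)
    rw [hψinj (h1.trans (map_zero ψ).symm)]
    exact 𝔮.zero_mem
  have hprime : (𝔮.map ψ.rangeRestrict).IsPrime := Ideal.map_isPrime_of_surjective hsurj hker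
  have hmem : ∀ y : B, ψ.rangeRestrict y ∈ 𝔮.map ψ.rangeRestrict ↔ y ∈ 𝔮 := by
    intro y
    constructor
    · intro h
      obtain ⟨x, hx, hxy⟩ := (Ideal.mem_map_iff_of_surjective _ hsurj).mp h
      have h1 : ψ x = ψ y := congrArg Subtype.val hxy
      rw [← hψinj h1]
      exact hx
    · exact fun h => Ideal.mem_map_of_mem _ h
  obtain ⟨V, hAV, hV⟩ := exists_valuationSubring_of_prime ψ.range (𝔮.map ψ.rangeRestrict)
  have hyV : ∀ y : B, ψ y ∈ V := fun y => hAV ⟨y, rfl⟩
  have hnon : ∀ y : B, ψ y ∈ V.nonunits ↔ y ∈ 𝔮 := fun y =>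
    (hV (ψ.rangeRestrict y)).trans (hmem y)
  -- the constants of `L`
  have hL : ∀ c : L, algebraMap Qb (Fermat.Agent.S24.FF Qb N) (ι c) ∈ V := by
    intro c
    obtain ⟨b, s, hs, hsc⟩ := hconst c
    have h1 : ψ s * algebraMap Qb (Fermat.Agent.S24.FF Qb N) (ι c) = ψ b := by
      rw [hψ, RingHom.comp_apply, RingHom.comp_apply,
        ← Fermat.Agent.S24.CoeffBC.bc_algebraMap, ← map_mul, hsc]
    have hsu : ψ s ∉ V.nonunits := fun h => hs ((hnon s).mp h)
    have hs0 : ψ s ≠ 0 := fun h => hsu ((mem_nonunits_iff_inv_notMem V _).mpr (Or.inl h))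
    have hinv : (ψ s)⁻¹ ∈ V := by
      by_contra hcon
      exact hsu ((mem_nonunits_iff_inv_notMem V _).mpr (Or.inr hcon))
    have h2 : algebraMap Qb (Fermat.Agent.S24.FF Qb N) (ι c) = (ψ s)⁻¹ * ψ b := by
      rw [← h1, inv_mul_cancel_left₀ hs0]
    rw [h2]
    exact V.mul_mem _ _ hinv (hyV b)
  -- the constants of `ℚ̄`
  have hK : ∀ a : Qb, algebraMap Qb (Fermat.Agent.S24.FF Qb N) a ∈ V := by
    intro a
    have ha : IsIntegral ℚ a := ((AlgebraicClosure.isAlgebraic ℚ).isAlgebraic a).isIntegral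
    obtain ⟨p, hp, hpa⟩ := ha
    have hQ : ∀ r : ℚ, ((algebraMap Qb (Fermat.Agent.S24.FF Qb N)).comp (algebraMap ℚ Qb)) r
        ∈ V.toSubring := by
      intro r
      have h1 : algebraMap ℚ Qb r = ι (algebraMap ℚ L r) := by
        rw [eq_ratCast, eq_ratCast, map_ratCast]
      rw [RingHom.comp_apply, h1]
      exact hL _
    let ρ : ℚ →+* V :=
      ((algebraMap Qb (Fermat.Agent.S24.FF Qb N)).comp (algebraMap ℚ Qb)).codRestrict
        V.toSubring hQ
    have hint : IsIntegral V (algebraMap Qb (Fermat.Agent.S24.FF Qb N) a) := by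
      refine ⟨p.map ρ, hp.map _, ?_⟩
      rw [Polynomial.eval₂_map]
      have e : (algebraMap V (Fermat.Agent.S24.FF Qb N)).comp ρ
          = (algebraMap Qb (Fermat.Agent.S24.FF Qb N)).comp (algebraMap ℚ Qb) := rfl
      rw [e, ← Polynomial.hom_eval₂, hpa, map_zero]
    obtain ⟨y, hy⟩ := IsIntegrallyClosed.isIntegral_iff.mp hint
    rw [← hy]
    exact y.2
  -- nontriviality
  have hO : V ≠ ⊤ := by
    intro htop
    obtain ⟨y, hy, hy0⟩ := Submodule.exists_mem_ne_zero_of_ne_bot h0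
    have h1 := (hnon y).mpr hy
    rcases (mem_nonunits_iff_inv_notMem V _).mp h1 with h2 | h2
    · exact hy0 (hψinj (h2.trans (map_zero ψ).symm))
    · exact h2 (htop ▸ ValuationSubring.mem_top _)
  obtain ⟨hx, hfd⟩ := Fermat.Agent.S18.Witness.bar_transcendental_finite N
  obtain ⟨P, hP⟩ := Fermat.Agent.S24.exists_place_of_valuationSubring
    (Fermat.Agent.S24.jBC Qb N) hx V hK hO
  refine ⟨P, fun y => ⟨by rw [hP]; exact hyV y, ?_⟩⟩
  unfold IsValueAt
  rw [map_zero, sub_zero, hP]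
  exact (hnon y).symm

/-- In the fraction field of a discrete valuation ring every element becomes integral after
multiplication by a power of the uniformiser. -/
theorem exists_pow_mul_mem {L : Type*} [Field L] (W : ValuationSubring L)
    [IsDiscreteValuationRing W] {π : W} (hπ : Irreducible π) (c : L) :
    ∃ (n : ℕ) (w : W), (π : L) ^ n * c = (w : L) := by
  by_cases hc : c ∈ W
  · exact ⟨0, ⟨c, hc⟩, by simp⟩
  · have hc0 : c ≠ 0 := fun h => hc (h ▸ W.zero_mem)
    have hinv : c⁻¹ ∈ W := (W.mem_or_inv_mem c).resolve_left hc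
    have hne : (⟨c⁻¹, hinv⟩ : W) ≠ 0 := by
      intro h
      exact inv_ne_zero hc0 (congrArg Subtype.val h)
    obtain ⟨n, u, hu⟩ := IsDiscreteValuationRing.eq_unit_mul_pow_irreducible hne hπ
    have hu' : c⁻¹ = ((u : W) : L) * (π : L) ^ n := by
      have := congrArg Subtype.val hu
      simpa using this
    have huinv : ((u : W) : L) * (((u⁻¹ : Wˣ) : W) : L) = 1 := by
      have h : ((u : W) * ((u⁻¹ : Wˣ) : W) : W) = 1 := u.mul_inv
      exact congrArg Subtype.val h
    refine ⟨n, ((u⁻¹ : Wˣ) : W), ?_⟩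
    have h1 : c * (((u : W) : L) * (π : L) ^ n) = 1 := by
      rw [← hu', mul_inv_cancel₀ hc0]
    calc (π : L) ^ n * c
        = ((π : L) ^ n * c) * (((u : W) : L) * (((u⁻¹ : Wˣ) : W) : L)) := by
          rw [huinv, mul_one]
      _ = (c * (((u : W) : L) * (π : L) ^ n)) * (((u⁻¹ : Wˣ) : W) : L) := by ring
      _ = (((u⁻¹ : Wˣ) : W) : L) := by rw [h1, one_mul]

/-- **(EXT), chart form.**  `W` a discrete valuation ring of `L` with uniformiser `π`; `B` a ring
inside `F_L` containing the constants of `W`; `𝔮` a nonzero prime of `B` not containing `π`.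
Then `𝔮` is the centre of a place of `F_ℚ̄`. -/
theorem exists_place_of_prime_chart (N : ℕ) [NeZero N] {L : Type} [Field L] [Algebra ℚ L]
    (ι : L →+* Qb) (W : ValuationSubring L) [IsDiscreteValuationRing W] {π : W}
    (hπ : Irreducible π) {B : Type*} [CommRing B] (φ : B →+* Fermat.Agent.S24.FF L N)
    (hφ : Function.Injective φ)
    (hW : ∀ w : W, ∃ b : B, φ b = algebraMap L (Fermat.Agent.S24.FF L N) (w : L))
    (𝔮 : Ideal B) [𝔮.IsPrime] (h0 : 𝔮 ≠ ⊥)
    (hπ𝔮 : ∀ b : B, φ b = algebraMap L (Fermat.Agent.S24.FF L N) (π : L) → b ∉ 𝔮) :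
    ∃ P : Place Qb (modularFunctionFieldBar N), ∀ y : B,
      Fermat.Agent.S24.CoeffBC.bc ι (modularFunctionFieldFull N) (φ y) ∈ P.toValuationSubring ∧
      (y ∈ 𝔮 ↔
        IsValueAt P (Fermat.Agent.S24.CoeffBC.bc ι (modularFunctionFieldFull N) (φ y)) 0) := by
  refine exists_place_of_prime N ι φ hφ 𝔮 h0 fun c => ?_
  obtain ⟨n, w, hw⟩ := exists_pow_mul_mem W hπ c
  obtain ⟨bπ, hbπ⟩ := hW π
  obtain ⟨b, hb⟩ := hW w
  refine ⟨b, bπ ^ n, fun h => hπ𝔮 bπ hbπ (Ideal.IsPrime.mem_of_pow_mem inferInstance n h), ?_⟩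
  rw [map_pow, hbπ, hb, ← map_pow, ← map_mul, hw]

end

end Fermat.Agent.S37.ExtPlace
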