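import Mathlib

/-!
# S37, package W1 (a): local divisor compatibility, factorisation form

`R` is a noetherian local domain over a local ring `W` with maximal ideal `(π)`; the maximal
ideal of `R` is `(π, u)` and `π` is a prime element of `R` (so `R/π` is a discrete valuation
ring with uniformiser `u`: the local ring of a normal arithmetic surface at a closed point of
a normal special fibre).  If `b ∈ R` is not divisible by `π` and every prime containing `b` but
not `π` is `W`-rational, then `b = ε * ∏ (u - w_i)` with `ε` a unit and `w_i ∈ π W`.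

Consequences for a consumer: `b ≡ ε * u ^ n mod π` (so `ord_x (b mod π) = n`), while at a rational
horizontal prime `(u - w)` the order of `b` is the number of `i` with `w_i = w`; hence
`ord_x (b mod π) = ∑_{P ↦ x} ord_P b`.
-/

set_option autoImplicit false

namespace Fermat.Agent.S37.DLocal

open IsLocalRing

variable {W R : Type*} [CommRing W] [CommRing R] [IsDomain R] [IsNoetherianRing R]
  [IsLocalRing R] [Algebra W R]

omit [IsNoetherianRing R] [IsLocalRing R] in
/-- a prime element not dividing `b` has no power in `(b)` unless `b` is a unit -/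
theorem isUnit_of_pow_eq_mul {p b : R} (hp : Prime p) (hb : ¬ p ∣ b) :
    ∀ (n : ℕ) (c : R), p ^ n = b * c → IsUnit b := by
  intro n
  induction n with
  | zero =>
    intro c h
    rw [pow_zero] at h
    exact IsUnit.of_mul_eq_one c h.symm
  | succ n ih =>
    intro c h
    have h1 : p ∣ b * c := ⟨p ^ n, by rw [← h, pow_succ]; ring⟩
    rcases hp.dvd_or_dvd h1 with h2 | ⟨c', rfl⟩
    · exact absurd h2 hb
    · apply ih c'
      have h3 : p * p ^ n = p * (b * c') := by
        rw [← pow_succ', h]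
        ring
      exact mul_left_cancel₀ hp.ne_zero h3

omit [IsDomain R] in
/-- a `W`-rational prime not containing `π` is generated by `u - w0` -/
theorem exists_eq_span_sub (π : W) (hW : ∀ w : W, IsUnit w ∨ π ∣ w)
    (u : R) (hM : maximalIdeal R = Ideal.span {algebraMap W R π, u})
    (𝔮 : Ideal R) (h𝔮 : 𝔮.IsPrime) (hπ𝔮 : algebraMap W R π ∉ 𝔮)
    (hrat : ∀ y : R, ∃ w : W, y - algebraMap W R w ∈ 𝔮) :
    ∃ w0 : W, π ∣ w0 ∧ 𝔮 = Ideal.span {u - algebraMap W R w0} := by
  obtain ⟨w0, hw0⟩ := hrat u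
  have h𝔮M : 𝔮 ≤ maximalIdeal R := le_maximalIdeal h𝔮.ne_top
  have huM : u ∈ maximalIdeal R := by
    rw [hM]
    exact Ideal.subset_span (by simp)
  have hπM : algebraMap W R π ∈ maximalIdeal R := by
    rw [hM]
    exact Ideal.subset_span (by simp)
  have hw0π : π ∣ w0 := by
    rcases hW w0 with h | h
    · exfalso
      have h1 : algebraMap W R w0 ∈ maximalIdeal R := by
        have h2 : algebraMap W R w0 = u - (u - algebraMap W R w0) := by ring
        rw [h2]
        exact Ideal.sub_mem _ huM (h𝔮M hw0)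
      exact (mem_maximalIdeal _).mp h1 (h.map (algebraMap W R))
    · exact h
  refine ⟨w0, hw0π, ?_⟩
  obtain ⟨r, rfl⟩ := hw0π
  set t : R := u - algebraMap W R (π * r) with ht
  apply le_antisymm
  · -- Nakayama
    apply Submodule.le_of_le_smul_of_le_jacobson_bot (I := Ideal.span {algebraMap W R π})
      (IsNoetherian.noetherian 𝔮)
    · rw [jacobson_eq_maximalIdeal ⊥ bot_ne_top, Ideal.span_le]
      intro x hx
      rw [Set.mem_singleton_iff] at hx
      rw [hx]
      exact hπM
    · intro y hy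
      have hyM : y ∈ Ideal.span {algebraMap W R π, u} := hM ▸ h𝔮M hy
      obtain ⟨a, c, hac⟩ := Ideal.mem_span_pair.mp hyM
      have h1 : y = c * t + algebraMap W R π * (a + algebraMap W R r * c) := by
        rw [ht, map_mul, ← hac]
        ring
      have h2 : algebraMap W R π * (a + algebraMap W R r * c) ∈ 𝔮 := by
        have h3 : algebraMap W R π * (a + algebraMap W R r * c) = y - c * t := by
          rw [h1]
          ring
        rw [h3]
        exact Ideal.sub_mem _ hy (Ideal.mul_mem_left _ _ hw0)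
      have h4 : a + algebraMap W R r * c ∈ 𝔮 := (h𝔮.mem_or_mem h2).resolve_left hπ𝔮
      rw [h1]
      refine Submodule.add_mem_sup ?_ ?_
      · exact Ideal.mem_span_singleton'.mpr ⟨c, rfl⟩
      · exact Submodule.smul_mem_smul (Ideal.subset_span rfl) h4
  · rw [Ideal.span_le]
    intro x hx
    rw [Set.mem_singleton_iff] at hx
    rw [hx]
    exact hw0

/-- **Local factorisation.**  See the module docstring. -/
theorem exists_factorization (π : W) (hW : ∀ w : W, IsUnit w ∨ π ∣ w)
    (hπR : Prime (algebraMap W R π)) (u : R)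
    (hM : maximalIdeal R = Ideal.span {algebraMap W R π, u})
    (b : R) (hb : ¬ algebraMap W R π ∣ b)
    (hrat : ∀ 𝔮 : Ideal R, 𝔮.IsPrime → b ∈ 𝔮 → algebraMap W R π ∉ 𝔮 →
      ∀ y : R, ∃ w : W, y - algebraMap W R w ∈ 𝔮) :
    ∃ (ws : Multiset W) (ε : Rˣ), (∀ w ∈ ws, π ∣ w) ∧
      b = ε * (ws.map (fun w => u - algebraMap W R w)).prod := by
  have key : ∀ I : Ideal R, ∀ b : R, Ideal.span {b} = I → ¬ algebraMap W R π ∣ b →
      (∀ 𝔮 : Ideal R, 𝔮.IsPrime → b ∈ 𝔮 → algebraMap W R π ∉ 𝔮 →
        ∀ y : R, ∃ w : W, y - algebraMap W R w ∈ 𝔮) →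
      ∃ (ws : Multiset W) (ε : Rˣ), (∀ w ∈ ws, π ∣ w) ∧
        b = ε * (ws.map (fun w => u - algebraMap W R w)).prod := by
    intro I
    induction I using WellFoundedGT.induction with
    | _ I ih =>
      intro b hI hb hrat
      by_cases hbu : IsUnit b
      · obtain ⟨ε, rfl⟩ := hbu
        exact ⟨0, ε, by simp, by simp⟩
      · -- a prime containing `b` but no power of `π`
        have hdisj : Disjoint ((Ideal.span {b} : Ideal R) : Set R)
            (Submonoid.powers (algebraMap W R π) : Set R) := by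
          rw [Set.disjoint_left]
          rintro x hx ⟨n, hn⟩
          obtain ⟨c, hc⟩ := Ideal.mem_span_singleton'.mp hx
          have hn' : algebraMap W R π ^ n = x := hn
          exact hbu (isUnit_of_pow_eq_mul hπR hb n c (by rw [hn', ← hc]; ring))
        obtain ⟨𝔮, h𝔮, hb𝔮, h𝔮disj⟩ := Ideal.exists_le_prime_disjoint _ _ hdisj
        have hb𝔮' : b ∈ 𝔮 := hb𝔮 (Ideal.subset_span rfl)
        have hπ𝔮 : algebraMap W R π ∉ 𝔮 := fun h =>
          Set.disjoint_left.mp h𝔮disj h ⟨1, pow_one _⟩
        obtain ⟨w0, hw0π, h𝔮eq⟩ := exists_eq_span_sub π hW u hM 𝔮 h𝔮 hπ𝔮 (hrat 𝔮 h𝔮 hb𝔮' hπ𝔮)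
        set t : R := u - algebraMap W R w0 with ht
        have hbt : b ∈ Ideal.span {t} := h𝔮eq ▸ hb𝔮'
        obtain ⟨b', hb'⟩ := Ideal.mem_span_singleton'.mp hbt
        have htnu : ¬ IsUnit t := by
          intro h
          apply h𝔮.ne_top
          rw [h𝔮eq]
          exact Ideal.span_singleton_eq_top.mpr h
        have hb0 : b ≠ 0 := by
          rintro rfl
          exact hb (dvd_zero _)
        have hb'0 : b' ≠ 0 := by
          rintro rfl
          rw [zero_mul] at hb'
          exact hb0 hb'.symm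
        have hb'π : ¬ algebraMap W R π ∣ b' := fun h => hb (hb' ▸ Dvd.dvd.mul_right h t)
        have hlt : I < Ideal.span {b'} := by
          rw [← hI]
          refine lt_of_le_of_ne ?_ ?_
          · rw [Ideal.span_singleton_le_span_singleton]
            exact ⟨t, hb'.symm⟩
          · intro heq
            have h1 : b' ∈ Ideal.span {b} := heq ▸ Ideal.subset_span rfl
            obtain ⟨c, hc⟩ := Ideal.mem_span_singleton'.mp h1
            have h2 : b' * (t * c) = b' * 1 := by
              linear_combination hc + c * hb'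
            have h3 : t * c = 1 := mul_left_cancel₀ hb'0 h2
            exact htnu (IsUnit.of_mul_eq_one c h3)
        have hrat' : ∀ 𝔮' : Ideal R, 𝔮'.IsPrime → b' ∈ 𝔮' → algebraMap W R π ∉ 𝔮' →
            ∀ y : R, ∃ w : W, y - algebraMap W R w ∈ 𝔮' := by
          intro 𝔮' h𝔮' hb𝔮'' hπ𝔮'
          exact hrat 𝔮' h𝔮' (hb' ▸ Ideal.mul_mem_right _ _ hb𝔮'') hπ𝔮'
        obtain ⟨ws, ε, hws, hprod⟩ := ih _ hlt b' rfl hb'π hrat'
        refine ⟨w0 ::ₘ ws, ε, ?_, ?_⟩
        · intro w hw
          rcases Multiset.mem_cons.mp hw with rfl | hw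
          · exact hw0π
          · exact hws w hw
        · rw [Multiset.map_cons, Multiset.prod_cons, ← hb', hprod]
          ring
  exact key _ b rfl hb hrat

omit [IsDomain R] [IsNoetherianRing R] [IsLocalRing R] in
/-- the product `∏ (u - w_i)` with all `w_i ∈ π W` is `u ^ n` modulo `π` -/
theorem prod_sub_eq_pow_add (π : W) (u : R) (ws : Multiset W) (hws : ∀ w ∈ ws, π ∣ w) :
    ∃ c : R, (ws.map (fun w => u - algebraMap W R w)).prod =
      u ^ Multiset.card ws + algebraMap W R π * c := by
  induction ws using Multiset.induction_on with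
  | empty => exact ⟨0, by simp⟩
  | cons w ws ih =>
    obtain ⟨c, hc⟩ := ih (fun w' hw' => hws w' (Multiset.mem_cons_of_mem hw'))
    obtain ⟨r, rfl⟩ := hws w (Multiset.mem_cons_self w ws)
    refine ⟨u * c - algebraMap W R r * u ^ Multiset.card ws
      - algebraMap W R π * algebraMap W R r * c, ?_⟩
    rw [Multiset.map_cons, Multiset.prod_cons, hc, Multiset.card_cons, map_mul]
    ring

/-- **Local factorisation, fraction form of rationality**: it suffices that every prime
containing `b` but not `π` has residue field `Frac W` (`W` a valuation ring). -/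
theorem exists_factorization_of_frac [IsDomain W] [ValuationRing W]
    (π : W) (hW : ∀ w : W, IsUnit w ∨ π ∣ w)
    (hπR : Prime (algebraMap W R π)) (u : R)
    (hM : maximalIdeal R = Ideal.span {algebraMap W R π, u})
    (b : R) (hb : ¬ algebraMap W R π ∣ b)
    (hinj : ∀ w : W, w ≠ 0 → ∃ n : ℕ, ∃ ε : R, IsUnit ε ∧ algebraMap W R w = ε * algebraMap W R π ^ n)
    (hrat : ∀ 𝔮 : Ideal R, 𝔮.IsPrime → b ∈ 𝔮 → algebraMap W R π ∉ 𝔮 →
      ∀ y : R, ∃ w1 w2 : W, w2 ≠ 0 ∧ algebraMap W R w2 * y - algebraMap W R w1 ∈ 𝔮) :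
    ∃ (ws : Multiset W) (ε : Rˣ), (∀ w ∈ ws, π ∣ w) ∧
      b = ε * (ws.map (fun w => u - algebraMap W R w)).prod := by
  refine exists_factorization π hW hπR u hM b hb ?_
  intro 𝔮 h𝔮 hb𝔮 hπ𝔮 y
  obtain ⟨w1, w2, hw2, h12⟩ := hrat 𝔮 h𝔮 hb𝔮 hπ𝔮 y
  have hnot : ∀ w : W, w ≠ 0 → algebraMap W R w ∉ 𝔮 := by
    intro w hw hmem
    obtain ⟨n, ε, hε, hwε⟩ := hinj w hw
    rw [hwε] at hmem
    rcases h𝔮.mem_or_mem hmem with h | h
    · exact h𝔮.ne_top (Ideal.eq_top_of_isUnit_mem _ h hε)
    · exact hπ𝔮 (h𝔮.mem_of_pow_mem n h)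
  have h𝔮M : 𝔮 ≤ maximalIdeal R := le_maximalIdeal h𝔮.ne_top
  rcases ValuationRing.dvd_total w2 w1 with ⟨w, rfl⟩ | ⟨c, rfl⟩
  · refine ⟨w, ?_⟩
    have h1 : algebraMap W R w2 * (y - algebraMap W R w) ∈ 𝔮 := by
      have h2 : algebraMap W R w2 * (y - algebraMap W R w) =
          algebraMap W R w2 * y - algebraMap W R (w2 * w) := by
        rw [map_mul]
        ring
      rw [h2]
      exact h12
    exact (h𝔮.mem_or_mem h1).resolve_left (hnot w2 hw2)
  · -- `w2 = w1 * c`: then `c` is a unit of `W`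
    have hw1 : w1 ≠ 0 := by
      rintro rfl
      exact hw2 (zero_mul c)
    have h1 : algebraMap W R w1 * (algebraMap W R c * y - 1) ∈ 𝔮 := by
      have h2 : algebraMap W R w1 * (algebraMap W R c * y - 1) =
          algebraMap W R (w1 * c) * y - algebraMap W R w1 := by
        rw [map_mul]
        ring
      rw [h2]
      exact h12
    have h3 : algebraMap W R c * y - 1 ∈ 𝔮 := (h𝔮.mem_or_mem h1).resolve_left (hnot w1 hw1)
    rcases hW c with hc | ⟨r, rfl⟩
    · obtain ⟨cu, rfl⟩ := hc
      refine ⟨((cu⁻¹ : Wˣ) : W), ?_⟩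
      have h4 : y - algebraMap W R ((cu⁻¹ : Wˣ) : W) =
          algebraMap W R ((cu⁻¹ : Wˣ) : W) * (algebraMap W R (cu : W) * y - 1) := by
        have h5 : algebraMap W R ((cu⁻¹ : Wˣ) : W) * algebraMap W R (cu : W) = 1 := by
          rw [← map_mul, Units.inv_mul, map_one]
        linear_combination (-y) * h5
      rw [h4]
      exact Ideal.mul_mem_left _ _ h3
    · exfalso
      have hπM : algebraMap W R π ∈ maximalIdeal R := by
        rw [hM]
        exact Ideal.subset_span (by simp)
      have h4 : (1 : R) ∈ maximalIdeal R := by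
        have h5 : (1 : R) = algebraMap W R (π * r) * y - (algebraMap W R (π * r) * y - 1) := by
          ring
        rw [h5]
        refine Ideal.sub_mem _ ?_ (h𝔮M h3)
        rw [map_mul, mul_assoc]
        exact Ideal.mul_mem_right _ _ hπM
      exact (mem_maximalIdeal _).mp h4 isUnit_one

end Fermat.Agent.S37.DLocal
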