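import Mathlib
import Fermat.Agent.S37.DLocal

/-!
# S37, package (W): unit congruences on a chart with a normal special fibre

`W` is a local ring with maximal ideal `(π)` (a discrete valuation ring in the applications),
`B` a noetherian domain over `W` in which `π` is a prime element (a chart of an arithmetic
surface with integral special fibre `B / π`).

* `LocalParam π 𝔪 u` : `u ∈ 𝔪` and `𝔪 B_𝔪 = (π, u) B_𝔪`, elementwise in `B`.
* `exists_localParam` : if `B / π` is a Dedekind domain, every maximal ideal containing `π` has a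
  local parameter.
* `exists_prime_gen` : a `W`-rational prime `𝔮 ⊆ 𝔪` not containing `π` is generated locally at
  `𝔪` by `u - w₀` with `w₀ ∈ π W`.
* `local_unit_congr` : let `a, b ∈ B` be not divisible by `π`, all of whose primes inside `𝔪`
  not containing `π` are `W`-rational, and let `m : B → ℤ` be an "order sum" (additive on
  products, zero on elements outside `𝔪`, equal to `1` on the elements `u - w` dividing `a * b`
  locally) with `m a = m b`.  Then `s * b ≡ e * a mod π` with `e, s ∉ 𝔪`.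
* `exists_unit_of_forall_local` : if this holds at every maximal ideal containing `π`, then
  `b ≡ e * a mod π` with `e` a unit modulo `π`.
* `chart_unit_congr` : the combination.
-/

set_option autoImplicit false
set_option linter.unusedSectionVars false

namespace Fermat.Agent.S37.ChartUnit

open IsLocalRing

section Local

variable {W R : Type*} [CommRing W] [CommRing R] [IsDomain R] [IsNoetherianRing R]
  [IsLocalRing R] [Algebra W R]

/-- **Local congruence** in a two-dimensional regular local ring: if the factorisations of `a`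
and `b` of `DLocal.exists_factorization` always have the same number of factors, then
`b ≡ ε * a mod π` for a unit `ε`. -/
theorem exists_unit_congr_of_card (π : W) (hW : ∀ w : W, IsUnit w ∨ π ∣ w)
    (hπR : Prime (algebraMap W R π)) (u : R)
    (hM : maximalIdeal R = Ideal.span {algebraMap W R π, u})
    (a b : R) (ha : ¬ algebraMap W R π ∣ a) (hb : ¬ algebraMap W R π ∣ b)
    (hrat : ∀ 𝔮 : Ideal R, 𝔮.IsPrime → a * b ∈ 𝔮 → algebraMap W R π ∉ 𝔮 →
      ∀ y : R, ∃ w : W, y - algebraMap W R w ∈ 𝔮)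
    (hcard : ∀ (wa wb : Multiset W) (εa εb : Rˣ), (∀ w ∈ wa, π ∣ w) → (∀ w ∈ wb, π ∣ w) →
      a = εa * (wa.map (fun w => u - algebraMap W R w)).prod →
      b = εb * (wb.map (fun w => u - algebraMap W R w)).prod →
      Multiset.card wa = Multiset.card wb) :
    ∃ (ε : Rˣ) (c : R), b - ε * a = algebraMap W R π * c := by
  obtain ⟨wa, εa, hwa, hae⟩ := DLocal.exists_factorization π hW hπR u hM a ha
    (fun 𝔮 h𝔮 ha𝔮 hπ𝔮 => hrat 𝔮 h𝔮 (𝔮.mul_mem_right b ha𝔮) hπ𝔮)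
  obtain ⟨wb, εb, hwb, hbe⟩ := DLocal.exists_factorization π hW hπR u hM b hb
    (fun 𝔮 h𝔮 hb𝔮 hπ𝔮 => hrat 𝔮 h𝔮 (𝔮.mul_mem_left a hb𝔮) hπ𝔮)
  have hn := hcard wa wb εa εb hwa hwb hae hbe
  obtain ⟨ca, hca⟩ := DLocal.prod_sub_eq_pow_add π u wa hwa
  obtain ⟨cb, hcb⟩ := DLocal.prod_sub_eq_pow_add π u wb hwb
  refine ⟨εb * εa⁻¹, εb * (cb - ca), ?_⟩
  have hinv : ((εa⁻¹ : Rˣ) : R) * (εa : R) = 1 := by
    rw [← Units.val_mul, inv_mul_cancel, Units.val_one]
  rw [hbe, hae, hca, hcb, hn, Units.val_mul]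
  linear_combination (-(εb : R) * (u ^ Multiset.card wb + algebraMap W R π * ca)) * hinv

end Local

section Chart

variable {W B : Type*} [CommRing W] [CommRing B] [IsDomain B] [IsNoetherianRing B] [Algebra W B]

/-- `u` is a local parameter of the special fibre at the maximal ideal `𝔪`: `u ∈ 𝔪` and
`𝔪 B_𝔪 = (π, u) B_𝔪`. -/
def LocalParam (π : W) (𝔪 : Ideal B) (u : B) : Prop :=
  u ∈ 𝔪 ∧ ∀ x ∈ 𝔪, ∃ s : B, s ∉ 𝔪 ∧ ∃ c d : B, s * x = algebraMap W B π * c + u * d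

/-- every element of the localisation is a fraction -/
theorem exists_mul_eq (𝔪 : Ideal B) [𝔪.IsMaximal] (x : Localization.AtPrime 𝔪) :
    ∃ x₀ s : B, s ∉ 𝔪 ∧ x * algebraMap B (Localization.AtPrime 𝔪) s =
      algebraMap B (Localization.AtPrime 𝔪) x₀ := by
  obtain ⟨⟨x₀, s⟩, rfl⟩ := IsLocalization.mk'_surjective 𝔪.primeCompl x
  exact ⟨x₀, s, s.2, IsLocalization.mk'_spec _ _ _⟩

theorem algebraMap_injective (𝔪 : Ideal B) [𝔪.IsMaximal] :
    Function.Injective (algebraMap B (Localization.AtPrime 𝔪)) :=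
  IsLocalization.injective _ (M := 𝔪.primeCompl) 𝔪.primeCompl_le_nonZeroDivisors

theorem not_dvd_of_notMem {p : B} (𝔪 : Ideal B) (hp𝔪 : p ∈ 𝔪) {s : B} (hs : s ∉ 𝔪) : ¬ p ∣ s := by
  rintro ⟨c, rfl⟩
  exact hs (𝔪.mul_mem_right c hp𝔪)

theorem prime_algebraMap {p : B} (hp : Prime p) (𝔪 : Ideal B) [𝔪.IsMaximal] (hp𝔪 : p ∈ 𝔪) :
    Prime (algebraMap B (Localization.AtPrime 𝔪) p) := by
  have hinj := algebraMap_injective 𝔪
  refine ⟨?_, ?_, ?_⟩
  · rw [Ne, map_eq_zero_iff _ hinj]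
    exact hp.ne_zero
  · rw [IsLocalization.AtPrime.isUnit_to_map_iff (Localization.AtPrime 𝔪) 𝔪]
    exact fun h => h hp𝔪
  · intro x y hxy
    obtain ⟨z, hz⟩ := hxy
    obtain ⟨x₀, s₁, hs₁, hx⟩ := exists_mul_eq 𝔪 x
    obtain ⟨y₀, s₂, hs₂, hy⟩ := exists_mul_eq 𝔪 y
    obtain ⟨z₀, s₃, hs₃, hz'⟩ := exists_mul_eq 𝔪 z
    have h1 : x₀ * y₀ * s₃ = p * (z₀ * s₁ * s₂) := by
      apply hinj
      simp only [map_mul]
      rw [← hx, ← hy, ← hz']
      linear_combination (algebraMap B (Localization.AtPrime 𝔪) s₁ *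
        algebraMap B (Localization.AtPrime 𝔪) s₂ * algebraMap B (Localization.AtPrime 𝔪) s₃) * hz
    have h2 : p ∣ x₀ * y₀ * s₃ := ⟨_, h1⟩
    have hunit : ∀ s : B, s ∉ 𝔪 → IsUnit (algebraMap B (Localization.AtPrime 𝔪) s) := fun s hs =>
      (IsLocalization.AtPrime.isUnit_to_map_iff (Localization.AtPrime 𝔪) 𝔪 s).mpr hs
    rcases hp.dvd_or_dvd h2 with h3 | h3
    · rcases hp.dvd_or_dvd h3 with ⟨x₁, rfl⟩ | ⟨y₁, rfl⟩
      · left
        obtain ⟨v, hv⟩ := hunit s₁ hs₁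
        refine ⟨algebraMap B (Localization.AtPrime 𝔪) x₁ * (v⁻¹ : (Localization.AtPrime 𝔪)ˣ), ?_⟩
        have : x = algebraMap B (Localization.AtPrime 𝔪) (p * x₁) *
            (v⁻¹ : (Localization.AtPrime 𝔪)ˣ) := by
          rw [← hx, ← hv, mul_assoc, Units.mul_inv, mul_one]
        rw [this, map_mul]
        ring
      · right
        obtain ⟨v, hv⟩ := hunit s₂ hs₂
        refine ⟨algebraMap B (Localization.AtPrime 𝔪) y₁ * (v⁻¹ : (Localization.AtPrime 𝔪)ˣ), ?_⟩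
        have : y = algebraMap B (Localization.AtPrime 𝔪) (p * y₁) *
            (v⁻¹ : (Localization.AtPrime 𝔪)ˣ) := by
          rw [← hy, ← hv, mul_assoc, Units.mul_inv, mul_one]
        rw [this, map_mul]
        ring
    · exact absurd h3 (not_dvd_of_notMem 𝔪 hp𝔪 hs₃)

theorem not_dvd_algebraMap {p : B} (hp : Prime p) (𝔪 : Ideal B) [𝔪.IsMaximal] (hp𝔪 : p ∈ 𝔪)
    {a : B} (ha : ¬ p ∣ a) :
    ¬ algebraMap B (Localization.AtPrime 𝔪) p ∣ algebraMap B (Localization.AtPrime 𝔪) a := by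
  rintro ⟨z, hz⟩
  obtain ⟨z₀, s, hs, hz'⟩ := exists_mul_eq 𝔪 z
  have h1 : a * s = p * z₀ := by
    apply algebraMap_injective 𝔪
    rw [map_mul, map_mul, hz, ← hz']
    ring
  have h2 : p ∣ a * s := ⟨_, h1⟩
  rcases hp.dvd_or_dvd h2 with h3 | h3
  · exact ha h3
  · exact not_dvd_of_notMem 𝔪 hp𝔪 hs h3

theorem maximalIdeal_eq_span (π : W) (𝔪 : Ideal B) [𝔪.IsMaximal]
    (hπ𝔪 : algebraMap W B π ∈ 𝔪) (u : B) (hu : LocalParam π 𝔪 u) :
    maximalIdeal (Localization.AtPrime 𝔪) =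
      Ideal.span {algebraMap W (Localization.AtPrime 𝔪) π,
        algebraMap B (Localization.AtPrime 𝔪) u} := by
  have hπeq : algebraMap W (Localization.AtPrime 𝔪) π =
      algebraMap B (Localization.AtPrime 𝔪) (algebraMap W B π) :=
    IsScalarTower.algebraMap_apply W B (Localization.AtPrime 𝔪) π
  apply le_antisymm
  · intro x hx
    obtain ⟨x₀, s, hs, hxs⟩ := exists_mul_eq 𝔪 x
    have hsu : IsUnit (algebraMap B (Localization.AtPrime 𝔪) s) :=
      (IsLocalization.AtPrime.isUnit_to_map_iff (Localization.AtPrime 𝔪) 𝔪 s).mpr hs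
    have hx₀ : x₀ ∈ 𝔪 := by
      rw [← IsLocalization.AtPrime.to_map_mem_maximal_iff (Localization.AtPrime 𝔪) 𝔪 x₀, ← hxs]
      exact Ideal.mul_mem_right _ _ hx
    obtain ⟨s', hs', c, d, hcd⟩ := hu.2 x₀ hx₀
    have hsu' : IsUnit (algebraMap B (Localization.AtPrime 𝔪) s') :=
      (IsLocalization.AtPrime.isUnit_to_map_iff (Localization.AtPrime 𝔪) 𝔪 s').mpr hs'
    obtain ⟨v, hv⟩ := hsu
    obtain ⟨v', hv'⟩ := hsu'
    have hxeq : x = algebraMap W (Localization.AtPrime 𝔪) π *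
          (algebraMap B (Localization.AtPrime 𝔪) c * (v⁻¹ : (Localization.AtPrime 𝔪)ˣ) *
            (v'⁻¹ : (Localization.AtPrime 𝔪)ˣ)) +
        algebraMap B (Localization.AtPrime 𝔪) u *
          (algebraMap B (Localization.AtPrime 𝔪) d * (v⁻¹ : (Localization.AtPrime 𝔪)ˣ) *
            (v'⁻¹ : (Localization.AtPrime 𝔪)ˣ)) := by
      have h1 := congrArg (algebraMap B (Localization.AtPrime 𝔪)) hcd
      simp only [map_mul, map_add] at h1
      rw [← hxs, ← hv, ← hv'] at h1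
      rw [hπeq]
      have e1 : x = (v' : Localization.AtPrime 𝔪) * (x * (v : Localization.AtPrime 𝔪)) *
          (v⁻¹ : (Localization.AtPrime 𝔪)ˣ) * (v'⁻¹ : (Localization.AtPrime 𝔪)ˣ) := by
        have e2 : (v' : Localization.AtPrime 𝔪) * (x * (v : Localization.AtPrime 𝔪)) *
            (v⁻¹ : (Localization.AtPrime 𝔪)ˣ) * (v'⁻¹ : (Localization.AtPrime 𝔪)ˣ) =
            x * ((v : Localization.AtPrime 𝔪) * (v⁻¹ : (Localization.AtPrime 𝔪)ˣ)) *
              ((v' : Localization.AtPrime 𝔪) * (v'⁻¹ : (Localization.AtPrime 𝔪)ˣ)) := by ring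
        rw [e2, Units.mul_inv, Units.mul_inv, mul_one, mul_one]
      rw [e1, h1]
      ring
    rw [hxeq]
    refine Ideal.add_mem _ (Ideal.mul_mem_right _ _ (Ideal.subset_span (by simp)))
      (Ideal.mul_mem_right _ _ (Ideal.subset_span (by simp)))
  · rw [Ideal.span_le]
    intro x hx
    rcases hx with rfl | rfl
    · rw [hπeq]
      exact (IsLocalization.AtPrime.to_map_mem_maximal_iff (Localization.AtPrime 𝔪) 𝔪 _).mpr hπ𝔪
    · exact (IsLocalization.AtPrime.to_map_mem_maximal_iff (Localization.AtPrime 𝔪) 𝔪 _).mpr hu.1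

/-- rationality of a prime passes to the localisation -/
theorem exists_sub_mem_map (π : W) (hW : ∀ w : W, IsUnit w ∨ π ∣ w)
    (𝔪 : Ideal B) [𝔪.IsMaximal] (hπ𝔪 : algebraMap W B π ∈ 𝔪)
    (𝔮 : Ideal B) (h𝔮𝔪 : 𝔮 ≤ 𝔪) (hrat : ∀ y : B, ∃ w : W, y - algebraMap W B w ∈ 𝔮)
    (𝔔 : Ideal (Localization.AtPrime 𝔪)) [𝔔.IsPrime]
    (h𝔔 : ∀ x ∈ 𝔮, algebraMap B (Localization.AtPrime 𝔪) x ∈ 𝔔)
    (y : Localization.AtPrime 𝔪) :
    ∃ w : W, y - algebraMap W (Localization.AtPrime 𝔪) w ∈ 𝔔 := by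
  obtain ⟨y₀, s, hs, hys⟩ := exists_mul_eq 𝔪 y
  obtain ⟨w₁, hw₁⟩ := hrat y₀
  obtain ⟨w₂, hw₂⟩ := hrat s
  have hw₂u : IsUnit w₂ := by
    rcases hW w₂ with h | ⟨c, rfl⟩
    · exact h
    · exfalso
      apply hs
      have h1 : algebraMap W B (π * c) ∈ 𝔪 := by
        rw [map_mul]
        exact 𝔪.mul_mem_right _ hπ𝔪
      have h2 := 𝔪.add_mem (h𝔮𝔪 hw₂) h1
      rwa [sub_add_cancel] at h2
  obtain ⟨v, rfl⟩ := hw₂u
  refine ⟨w₁ * (v⁻¹ : Wˣ), ?_⟩
  have hsu : IsUnit (algebraMap B (Localization.AtPrime 𝔪) s) :=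
    (IsLocalization.AtPrime.isUnit_to_map_iff (Localization.AtPrime 𝔪) 𝔪 s).mpr hs
  have hs𝔔 : algebraMap B (Localization.AtPrime 𝔪) s ∉ 𝔔 := fun h =>
    (Ideal.IsPrime.ne_top inferInstance) (Ideal.eq_top_of_isUnit_mem _ h hsu)
  have hmem : y₀ - algebraMap W B (w₁ * (v⁻¹ : Wˣ)) * s ∈ 𝔮 := by
    have e : y₀ - algebraMap W B (w₁ * (v⁻¹ : Wˣ)) * s =
        (y₀ - algebraMap W B w₁) - algebraMap W B (w₁ * (v⁻¹ : Wˣ)) * (s - algebraMap W B (v : W))
        := by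
      have e2 : algebraMap W B (w₁ * (v⁻¹ : Wˣ)) * algebraMap W B (v : W) = algebraMap W B w₁ := by
        rw [← map_mul, mul_assoc, Units.inv_mul, mul_one]
      linear_combination (-1 : B) * e2
    rw [e]
    exact 𝔮.sub_mem hw₁ (𝔮.mul_mem_left _ hw₂)
  have h3 := h𝔔 _ hmem
  have e3 : algebraMap B (Localization.AtPrime 𝔪) (y₀ - algebraMap W B (w₁ * (v⁻¹ : Wˣ)) * s) =
      (y - algebraMap W (Localization.AtPrime 𝔪) (w₁ * (v⁻¹ : Wˣ))) *
        algebraMap B (Localization.AtPrime 𝔪) s := by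
    rw [map_sub, map_mul, ← hys,
      IsScalarTower.algebraMap_apply W B (Localization.AtPrime 𝔪) (w₁ * (v⁻¹ : Wˣ))]
    ring
  rw [e3] at h3
  exact (Ideal.IsPrime.mem_or_mem inferInstance h3).resolve_right hs𝔔

/-- **Local generator of a rational horizontal prime.**  A `W`-rational prime `𝔮 ⊆ 𝔪` not
containing `π` is generated, locally at `𝔪`, by `u - w₀` for some `w₀ ∈ π W`. -/
theorem exists_prime_gen (π : W) (hW : ∀ w : W, IsUnit w ∨ π ∣ w)
    (𝔪 : Ideal B) [𝔪.IsMaximal] (hπ𝔪 : algebraMap W B π ∈ 𝔪) (u : B) (hu : LocalParam π 𝔪 u)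
    (𝔮 : Ideal B) [h𝔮 : 𝔮.IsPrime] (h𝔮𝔪 : 𝔮 ≤ 𝔪) (hπ𝔮 : algebraMap W B π ∉ 𝔮)
    (hrat : ∀ y : B, ∃ w : W, y - algebraMap W B w ∈ 𝔮) :
    ∃ w₀ : W, π ∣ w₀ ∧ u - algebraMap W B w₀ ∈ 𝔮 ∧
      ∀ x ∈ 𝔮, ∃ s : B, s ∉ 𝔪 ∧ ∃ c : B, s * x = (u - algebraMap W B w₀) * c := by
  set R := Localization.AtPrime 𝔪 with hR
  have hinj := algebraMap_injective 𝔪
  have hdisj : Disjoint (𝔪.primeCompl : Set B) (𝔮 : Set B) := by
    rw [Set.disjoint_left]
    intro x hx hx𝔮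
    exact hx (h𝔮𝔪 hx𝔮)
  have hprime : (Ideal.map (algebraMap B R) 𝔮).IsPrime :=
    IsLocalization.isPrime_of_isPrime_disjoint 𝔪.primeCompl R 𝔮 h𝔮 hdisj
  have hcomap : Ideal.comap (algebraMap B R) (Ideal.map (algebraMap B R) 𝔮) = 𝔮 :=
    IsLocalization.under_map_of_isPrime_disjoint 𝔪.primeCompl R h𝔮 hdisj
  have hmem : ∀ x : B, algebraMap B R x ∈ Ideal.map (algebraMap B R) 𝔮 ↔ x ∈ 𝔮 := by
    intro x
    rw [← Ideal.mem_comap, hcomap]
  have hπeq : algebraMap W R π = algebraMap B R (algebraMap W B π) :=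
    IsScalarTower.algebraMap_apply W B R π
  have hπ𝔔 : algebraMap W R π ∉ Ideal.map (algebraMap B R) 𝔮 := by
    rw [hπeq, hmem]
    exact hπ𝔮
  obtain ⟨w₀, hw₀, hspan⟩ := DLocal.exists_eq_span_sub π hW (algebraMap B R u)
    (maximalIdeal_eq_span π 𝔪 hπ𝔪 u hu) (Ideal.map (algebraMap B R) 𝔮) hprime hπ𝔔
    (fun y => exists_sub_mem_map π hW 𝔪 hπ𝔪 𝔮 h𝔮𝔪 hrat _ (fun x hx => (hmem x).mpr hx) y)
  have hgen : algebraMap B R u - algebraMap W R w₀ = algebraMap B R (u - algebraMap W B w₀) := by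
    rw [map_sub, ← IsScalarTower.algebraMap_apply W B R]
  rw [hgen] at hspan
  refine ⟨w₀, hw₀, ?_, ?_⟩
  · rw [← hmem, hspan]
    exact Ideal.subset_span rfl
  · intro x hx
    have h1 : algebraMap B R x ∈ Ideal.span {algebraMap B R (u - algebraMap W B w₀)} := by
      rw [← hspan, hmem]
      exact hx
    obtain ⟨z, hz⟩ := Ideal.mem_span_singleton'.mp h1
    obtain ⟨z₀, s, hs, hzs⟩ := exists_mul_eq 𝔪 z
    refine ⟨s, hs, z₀, ?_⟩
    apply hinj
    rw [map_mul, map_mul, ← hz, ← hzs]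
    ring

/-- the order sum of a product of linear factors -/
theorem orderSum_prod (u : B) (m : B → ℤ)
    (hm_mul : ∀ x y : B, x ≠ 0 → y ≠ 0 → m (x * y) = m x + m y) (hm_one : m 1 = 0)
    (ws : Multiset W) (hne : (ws.map (fun w => u - algebraMap W B w)).prod ≠ 0)
    (hone : ∀ w ∈ ws, m (u - algebraMap W B w) = 1) :
    m (ws.map (fun w => u - algebraMap W B w)).prod = Multiset.card ws := by
  induction ws using Multiset.induction_on with
  | empty => simpa using hm_one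
  | cons w ws ih =>
    rw [Multiset.map_cons, Multiset.prod_cons] at hne ⊢
    have h1 : u - algebraMap W B w ≠ 0 := left_ne_zero_of_mul hne
    have h2 : (ws.map (fun w => u - algebraMap W B w)).prod ≠ 0 := right_ne_zero_of_mul hne
    rw [hm_mul _ _ h1 h2, ih h2 (fun w' hw' => hone w' (Multiset.mem_cons_of_mem hw')),
      hone w (Multiset.mem_cons_self w ws), Multiset.card_cons]
    push_cast
    ring

/-- **Unit congruence at a closed point** of a chart with normal special fibre. -/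
theorem local_unit_congr (π : W) (hW : ∀ w : W, IsUnit w ∨ π ∣ w)
    (hπ : Prime (algebraMap W B π))
    (𝔪 : Ideal B) [𝔪.IsMaximal] (hπ𝔪 : algebraMap W B π ∈ 𝔪) (u : B) (hu : LocalParam π 𝔪 u)
    (a b : B) (ha : ¬ algebraMap W B π ∣ a) (hb : ¬ algebraMap W B π ∣ b)
    (hrat : ∀ 𝔮 : Ideal B, 𝔮.IsPrime → 𝔮 ≤ 𝔪 → a * b ∈ 𝔮 → algebraMap W B π ∉ 𝔮 →
      ∀ y : B, ∃ w : W, y - algebraMap W B w ∈ 𝔮)
    (m : B → ℤ) (hm_mul : ∀ x y : B, x ≠ 0 → y ≠ 0 → m (x * y) = m x + m y)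
    (hm_unit : ∀ s : B, s ∉ 𝔪 → m s = 0)
    (hm_u : ∀ w : W, π ∣ w →
      (∃ s : B, s ∉ 𝔪 ∧ ∃ c : B, s * (a * b) = (u - algebraMap W B w) * c) →
      m (u - algebraMap W B w) = 1)
    (hab : m a = m b) :
    ∃ e s : B, e ∉ 𝔪 ∧ s ∉ 𝔪 ∧ algebraMap W B π ∣ s * b - e * a := by
  set R := Localization.AtPrime 𝔪 with hR
  have hinj := algebraMap_injective 𝔪
  have hπeq : algebraMap W R π = algebraMap B R (algebraMap W B π) :=
    IsScalarTower.algebraMap_apply W B R π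
  have hWeq : ∀ w : W, algebraMap W R w = algebraMap B R (algebraMap W B w) := fun w =>
    IsScalarTower.algebraMap_apply W B R w
  have hπR : Prime (algebraMap W R π) := by
    rw [hπeq]
    exact prime_algebraMap hπ 𝔪 hπ𝔪
  have haR : ¬ algebraMap W R π ∣ algebraMap B R a := by
    rw [hπeq]
    exact not_dvd_algebraMap hπ 𝔪 hπ𝔪 ha
  have hbR : ¬ algebraMap W R π ∣ algebraMap B R b := by
    rw [hπeq]
    exact not_dvd_algebraMap hπ 𝔪 hπ𝔪 hb
  have ha0 : a ≠ 0 := fun h => ha (h ▸ dvd_zero _)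
  have hb0 : b ≠ 0 := fun h => hb (h ▸ dvd_zero _)
  have h1𝔪 : (1 : B) ∉ 𝔪 := fun h => (Ideal.IsPrime.ne_top inferInstance)
    ((Ideal.eq_top_iff_one 𝔪).mpr h)
  have hm_one : m 1 = 0 := hm_unit 1 h1𝔪
  have hprodeq : ∀ ws : Multiset W,
      (ws.map (fun w => algebraMap B R u - algebraMap W R w)).prod =
        algebraMap B R (ws.map (fun w => u - algebraMap W B w)).prod := by
    intro ws
    rw [map_multiset_prod, Multiset.map_map]
    congr 1
    apply Multiset.map_congr rfl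
    intro w _
    simp only [Function.comp_apply, map_sub, hWeq]
  -- the number of factors of an element is its order sum
  have hcount : ∀ (x : B), x ≠ 0 → (∃ s : B, s ∉ 𝔪 ∧ ∃ c : B, s * (a * b) = x * c) →
      ∀ (ws : Multiset W) (ε : Rˣ), (∀ w ∈ ws, π ∣ w) →
      algebraMap B R x = ε * (ws.map (fun w => algebraMap B R u - algebraMap W R w)).prod →
      m x = Multiset.card ws := by
    intro x hx0 hxdvd ws ε hws hxe
    obtain ⟨e₁, s₁, hs₁, hε⟩ := exists_mul_eq 𝔪 (ε : R)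
    have hs₁u : IsUnit (algebraMap B R s₁) :=
      (IsLocalization.AtPrime.isUnit_to_map_iff R 𝔪 s₁).mpr hs₁
    have he₁ : e₁ ∉ 𝔪 := by
      have h1 : IsUnit (algebraMap B R e₁) := by
        rw [← hε]
        exact ε.isUnit.mul hs₁u
      exact (IsLocalization.AtPrime.isUnit_to_map_iff R 𝔪 e₁).mp h1
    have hxs : x * s₁ = e₁ * (ws.map (fun w => u - algebraMap W B w)).prod := by
      apply hinj
      rw [map_mul, map_mul, hxe, hprodeq, ← hε]
      ring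
    have hs₁0 : s₁ ≠ 0 := fun h => hs₁ (h ▸ 𝔪.zero_mem)
    have he₁0 : e₁ ≠ 0 := fun h => he₁ (h ▸ 𝔪.zero_mem)
    have hP0 : (ws.map (fun w => u - algebraMap W B w)).prod ≠ 0 := by
      intro h
      rw [h, mul_zero] at hxs
      exact (mul_ne_zero hx0 hs₁0) hxs
    have hone : ∀ w ∈ ws, m (u - algebraMap W B w) = 1 := by
      intro w hw
      apply hm_u w (hws w hw)
      obtain ⟨s, hs, c, hc⟩ := hxdvd
      have hdvd : (u - algebraMap W B w) ∣ (ws.map (fun w => u - algebraMap W B w)).prod :=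
        Multiset.dvd_prod (Multiset.mem_map_of_mem _ hw)
      obtain ⟨r, hr⟩ := hdvd
      refine ⟨s * s₁, ?_, e₁ * r * c, ?_⟩
      · exact fun h => (Ideal.IsPrime.mem_or_mem inferInstance h).elim hs hs₁
      · calc s * s₁ * (a * b) = s₁ * (s * (a * b)) := by ring
          _ = s₁ * (x * c) := by rw [hc]
          _ = (x * s₁) * c := by ring
          _ = e₁ * (ws.map (fun w => u - algebraMap W B w)).prod * c := by rw [hxs]
          _ = (u - algebraMap W B w) * (e₁ * r * c) := by rw [hr]; ring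
    have h2 := congrArg m hxs
    rw [hm_mul _ _ hx0 hs₁0, hm_mul _ _ he₁0 hP0, hm_unit s₁ hs₁, hm_unit e₁ he₁,
      orderSum_prod u m hm_mul hm_one ws hP0 hone] at h2
    linarith
  obtain ⟨ε, c, hεc⟩ := exists_unit_congr_of_card π hW hπR (algebraMap B R u)
    (maximalIdeal_eq_span π 𝔪 hπ𝔪 u hu) (algebraMap B R a) (algebraMap B R b) haR hbR
    (by
      intro 𝔔 h𝔔 hab𝔔 hπ𝔔 y
      have hprime : (Ideal.comap (algebraMap B R) 𝔔).IsPrime := Ideal.comap_isPrime _ _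
      have hle : Ideal.comap (algebraMap B R) 𝔔 ≤ 𝔪 := by
        intro x hx
        rw [← IsLocalization.AtPrime.to_map_mem_maximal_iff R 𝔪 x]
        exact IsLocalRing.le_maximalIdeal (Ideal.IsPrime.ne_top h𝔔) (Ideal.mem_comap.mp hx)
      have hab' : a * b ∈ Ideal.comap (algebraMap B R) 𝔔 := by
        rw [Ideal.mem_comap, map_mul]
        exact hab𝔔
      have hπ' : algebraMap W B π ∉ Ideal.comap (algebraMap B R) 𝔔 := by
        rw [Ideal.mem_comap, ← hπeq]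
        exact hπ𝔔
      exact exists_sub_mem_map π hW 𝔪 hπ𝔪 _ hle
        (hrat _ hprime hle hab' hπ') 𝔔 (fun x hx => Ideal.mem_comap.mp hx) y)
    (by
      intro wa wb εa εb hwa hwb hae hbe
      have h1 := hcount a ha0 ⟨1, h1𝔪, b, by ring⟩ wa εa hwa hae
      have h2 := hcount b hb0 ⟨1, h1𝔪, a, by ring⟩ wb εb hwb hbe
      have h3 : (Multiset.card wa : ℤ) = Multiset.card wb := by rw [← h1, ← h2, hab]
      exact_mod_cast h3)
  obtain ⟨e, s, hs, hεs⟩ := exists_mul_eq 𝔪 (ε : R)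
  obtain ⟨c₀, s₂, hs₂, hcs⟩ := exists_mul_eq 𝔪 c
  have hsu : IsUnit (algebraMap B R s) := (IsLocalization.AtPrime.isUnit_to_map_iff R 𝔪 s).mpr hs
  have he : e ∉ 𝔪 := by
    have h1 : IsUnit (algebraMap B R e) := by
      rw [← hεs]
      exact ε.isUnit.mul hsu
    exact (IsLocalization.AtPrime.isUnit_to_map_iff R 𝔪 e).mp h1
  refine ⟨e, s, he, hs, ?_⟩
  have hkey : s₂ * (s * b - e * a) = algebraMap W B π * (c₀ * s) := by
    apply hinj
    simp only [map_mul, map_sub]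
    rw [← hεs, ← hcs, ← hπeq]
    linear_combination (algebraMap B R s * algebraMap B R s₂) * hεc
  have hdvd : algebraMap W B π ∣ s₂ * (s * b - e * a) := ⟨_, hkey⟩
  exact (hπ.dvd_or_dvd hdvd).resolve_left (not_dvd_of_notMem 𝔪 hπ𝔪 hs₂)

omit [IsNoetherianRing B] in
/-- **Globalisation.**  If `s * b ≡ e * a mod π` with `e, s ∉ 𝔪` at every maximal ideal `𝔪`
containing `π`, then `b ≡ e * a mod π` for some `e` which is a unit modulo `π`. -/
theorem exists_unit_of_forall_local {p : B} (hp : Prime p) (a b : B) (hb : ¬ p ∣ b)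
    (hloc : ∀ 𝔪 : Ideal B, 𝔪.IsMaximal → p ∈ 𝔪 →
      ∃ e s : B, e ∉ 𝔪 ∧ s ∉ 𝔪 ∧ p ∣ s * b - e * a) :
    ∃ e e' : B, p ∣ e * e' - 1 ∧ p ∣ b - e * a := by
  -- the ideal of denominators
  have key : ∀ a b : B, (∀ 𝔪 : Ideal B, 𝔪.IsMaximal → p ∈ 𝔪 →
      ∃ s : B, s ∉ 𝔪 ∧ ∃ e : B, p ∣ s * b - e * a) → ∃ e : B, p ∣ b - e * a := by
    intro a b h
    let I : Ideal B :=
      { carrier := {d | ∃ e : B, p ∣ d * b - e * a}
        add_mem' := by
          rintro d₁ d₂ ⟨e₁, h₁⟩ ⟨e₂, h₂⟩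
          refine ⟨e₁ + e₂, ?_⟩
          have : (d₁ + d₂) * b - (e₁ + e₂) * a = (d₁ * b - e₁ * a) + (d₂ * b - e₂ * a) := by ring
          rw [this]
          exact dvd_add h₁ h₂
        zero_mem' := ⟨0, by simp⟩
        smul_mem' := by
          rintro c d ⟨e, h⟩
          refine ⟨c * e, ?_⟩
          have : c • d * b - c * e * a = c * (d * b - e * a) := by rw [smul_eq_mul]; ring
          rw [this]
          exact Dvd.dvd.mul_left h c }
    have hpI : p ∈ I := ⟨0, by simp⟩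
    have htop : I = ⊤ := by
      by_contra hne
      obtain ⟨𝔪, h𝔪, hI𝔪⟩ := Ideal.exists_le_maximal I hne
      obtain ⟨s, hs, e, hse⟩ := h 𝔪 h𝔪 (hI𝔪 hpI)
      exact hs (hI𝔪 ⟨e, hse⟩)
    have h1 : (1 : B) ∈ I := by rw [htop]; exact Submodule.mem_top
    obtain ⟨e, he⟩ := h1
    exact ⟨e, by simpa using he⟩
  obtain ⟨e, he⟩ := key a b (fun 𝔪 h𝔪 hp𝔪 => by
    obtain ⟨e, s, -, hs, h⟩ := hloc 𝔪 h𝔪 hp𝔪
    exact ⟨s, hs, e, h⟩)
  obtain ⟨e', he'⟩ := key b a (fun 𝔪 h𝔪 hp𝔪 => by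
    obtain ⟨e, s, he, -, h⟩ := hloc 𝔪 h𝔪 hp𝔪
    refine ⟨e, he, s, ?_⟩
    have : e * a - s * b = -(s * b - e * a) := by ring
    rw [this]
    exact (dvd_neg).mpr h)
  refine ⟨e, e', ?_, he⟩
  obtain ⟨x, hx⟩ := he
  obtain ⟨y, hy⟩ := he'
  have h1 : (e * e' - 1) * b = p * (-(x + e * y)) := by
    linear_combination (-1 : B) * hx - e * hy
  have h2 : p ∣ (e * e' - 1) * b := ⟨_, h1⟩
  exact (hp.dvd_or_dvd h2).resolve_right hb

omit [IsDomain B] [IsNoetherianRing B] in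
/-- **A Dedekind special fibre has local parameters.** -/
theorem exists_localParam (π : W)
    (hDed : IsDedekindDomain (B ⧸ Ideal.span {algebraMap W B π}))
    (𝔪 : Ideal B) [h𝔪 : 𝔪.IsMaximal] (hπ𝔪 : algebraMap W B π ∈ 𝔪) :
    ∃ u : B, LocalParam π 𝔪 u := by
  set I : Ideal B := Ideal.span {algebraMap W B π} with hI
  set q := Ideal.Quotient.mk I with hq
  have hqs : Function.Surjective q := Ideal.Quotient.mk_surjective
  have hI𝔪 : I ≤ 𝔪 := by
    rw [hI, Ideal.span_le]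
    intro x hx
    rw [Set.mem_singleton_iff.mp hx]
    exact hπ𝔪
  have hmem : ∀ x : B, q x ∈ Ideal.map q 𝔪 ↔ x ∈ 𝔪 := by
    intro x
    rw [Ideal.mem_map_iff_of_surjective q hqs]
    constructor
    · rintro ⟨y, hy, hyx⟩
      have h1 : y - x ∈ I := by
        rw [← Ideal.Quotient.eq]
        exact hyx
      have h2 := 𝔪.sub_mem hy (hI𝔪 h1)
      rwa [sub_sub_cancel] at h2
    · intro hx
      exact ⟨x, hx, rfl⟩
  have hker : ∀ x : B, q x = 0 → ∃ c : B, x = algebraMap W B π * c := by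
    intro x hx
    rw [Ideal.Quotient.eq_zero_iff_mem, hI, Ideal.mem_span_singleton'] at hx
    obtain ⟨c, hc⟩ := hx
    exact ⟨c, by rw [← hc]; ring⟩
  have h1𝔪 : (1 : B) ∉ 𝔪 := fun h => h𝔪.ne_top ((Ideal.eq_top_iff_one 𝔪).mpr h)
  by_cases hbot : Ideal.map q 𝔪 = ⊥
  · -- the special fibre is a field: `𝔪 = (π)`
    refine ⟨algebraMap W B π, hπ𝔪, ?_⟩
    intro x hx
    have h1 : q x = 0 := by
      have h2 := (hmem x).mpr hx
      rwa [hbot, Ideal.mem_bot] at h2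
    obtain ⟨c, hc⟩ := hker x h1
    exact ⟨1, h1𝔪, c, 0, by rw [hc]; ring⟩
  · have hmax : (Ideal.map q 𝔪).IsMaximal := by
      rcases Ideal.map_eq_top_or_isMaximal_of_surjective q hqs h𝔪 with h | h
      · exfalso
        have h2 : q 1 ∈ Ideal.map q 𝔪 := by rw [h]; exact Submodule.mem_top
        exact h1𝔪 ((hmem 1).mp h2)
      · exact h
    have hprime : (Ideal.map q 𝔪).IsPrime := hmax.isPrime
    have hlt := Ideal.pow_succ_lt_pow hbot 1
    rw [pow_one] at hlt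
    obtain ⟨ubar, hubar, hubar2⟩ := SetLike.exists_of_lt hlt
    have hle : Ideal.span {ubar} ≤ Ideal.map q 𝔪 := by
      rw [Ideal.span_le]
      intro x hx
      rw [Set.mem_singleton_iff.mp hx]
      exact hubar
    obtain ⟨J, hJ⟩ := Ideal.dvd_iff_le.mpr hle
    have hJn : ¬ J ≤ Ideal.map q 𝔪 := by
      intro hJle
      apply hubar2
      have h1 : ubar ∈ Ideal.span {ubar} := Ideal.subset_span rfl
      rw [hJ] at h1
      have h2 : Ideal.map q 𝔪 * J ≤ Ideal.map q 𝔪 ^ (1 + 1) := by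
        rw [pow_succ, pow_one]
        exact Ideal.mul_mono_right hJle
      exact h2 h1
    obtain ⟨sbar, hsbarJ, hsbar⟩ := SetLike.not_le_iff_exists.mp hJn
    obtain ⟨u, rfl⟩ := hqs ubar
    obtain ⟨s, rfl⟩ := hqs sbar
    refine ⟨u, (hmem u).mp hubar, ?_⟩
    intro x hx
    have h1 : q x * q s ∈ Ideal.span {q u} := by
      rw [hJ]
      exact Ideal.mul_mem_mul ((hmem x).mpr hx) hsbarJ
    obtain ⟨dbar, hdbar⟩ := Ideal.mem_span_singleton'.mp h1
    obtain ⟨d, rfl⟩ := hqs dbar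
    have h2 : q (s * x - u * d) = 0 := by
      rw [map_sub, map_mul, map_mul, mul_comm (q s), ← hdbar]
      ring
    obtain ⟨c, hc⟩ := hker _ h2
    exact ⟨s, fun h => hsbar ((hmem s).mpr h), c, d, by linear_combination hc⟩

/-- **Unit congruence on a chart with Dedekind special fibre.**  `a, b ∈ B` are not divisible by
`π`; at every maximal ideal `𝔪 ∋ π` the primes through `a * b` inside `𝔪` not containing `π` are
`W`-rational, and for every local parameter `u` at `𝔪` there is an order sum `m` (additive on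
products, zero outside `𝔪`, equal to `1` on the `u - w`, `w ∈ π W`, dividing `a * b` locally)
with `m a = m b`.  Then `b ≡ e * a mod π` for some `e ∈ B` which is a unit modulo `π`. -/
theorem chart_unit_congr (π : W) (hW : ∀ w : W, IsUnit w ∨ π ∣ w)
    (hπ : Prime (algebraMap W B π))
    (hDed : IsDedekindDomain (B ⧸ Ideal.span {algebraMap W B π}))
    (a b : B) (ha : ¬ algebraMap W B π ∣ a) (hb : ¬ algebraMap W B π ∣ b)
    (hrat : ∀ 𝔪 : Ideal B, 𝔪.IsMaximal → algebraMap W B π ∈ 𝔪 →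
      ∀ 𝔮 : Ideal B, 𝔮.IsPrime → 𝔮 ≤ 𝔪 → a * b ∈ 𝔮 → algebraMap W B π ∉ 𝔮 →
      ∀ y : B, ∃ w : W, y - algebraMap W B w ∈ 𝔮)
    (hbal : ∀ 𝔪 : Ideal B, 𝔪.IsMaximal → algebraMap W B π ∈ 𝔪 → ∀ u : B, LocalParam π 𝔪 u →
      ∃ m : B → ℤ, (∀ x y : B, x ≠ 0 → y ≠ 0 → m (x * y) = m x + m y) ∧
        (∀ s : B, s ∉ 𝔪 → m s = 0) ∧
        (∀ w : W, π ∣ w →
          (∃ s : B, s ∉ 𝔪 ∧ ∃ c : B, s * (a * b) = (u - algebraMap W B w) * c) →
          m (u - algebraMap W B w) = 1) ∧ m a = m b) :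
    ∃ e e' : B, algebraMap W B π ∣ e * e' - 1 ∧ algebraMap W B π ∣ b - e * a := by
  refine exists_unit_of_forall_local hπ a b hb ?_
  intro 𝔪 h𝔪 hπ𝔪
  obtain ⟨u, hu⟩ := exists_localParam π hDed 𝔪 hπ𝔪
  obtain ⟨m, hm_mul, hm_unit, hm_u, hab⟩ := hbal 𝔪 h𝔪 hπ𝔪 u hu
  exact local_unit_congr π hW hπ 𝔪 hπ𝔪 u hu a b ha hb (hrat 𝔪 h𝔪 hπ𝔪) m hm_mul hm_unit hm_u hab

end Chart

end Fermat.Agent.S37.ChartUnit
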