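import Mathlib
import Fermat.Agent.S24.Places
import Fermat.Agent.S37.GaloisValue
import Fermat.Agent.S37.ChartUnit

/-!
# S37, package (W): the unique place through a local generator

`B` is a chart ring over a discrete valuation ring `W` (uniformiser `π`), mapped injectively
into a function field `F` over `K` by `ψ`, `A` is a valuation subring of `K` dominating `W`.
A place `P` of `F` is *centred at the maximal ideal `𝔪`* of `B` (`Cen A ψ 𝔪 P`) if every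
`y ∈ B` has a value in `A` at `P`, and `y ∈ 𝔪` iff this value lies in the maximal ideal of `A`.

`exists_unique_place_localGen` : if `u` is a local parameter of the special fibre at `𝔪` and
`u - w` (`w ∈ π W`) divides `a * b` locally at `𝔪`, where all horizontal primes through `a * b`
inside `𝔪` are `W`-rational and the corresponding places of `F` are unramified over `Frac B`
and determined by their restriction to `Frac B`, then there is exactly one place centred at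
`𝔪` at which `u - w` has nonzero order, and this order is `1`.
-/

set_option autoImplicit false
set_option linter.unusedSectionVars false
set_option linter.style.haveILetI false

namespace Fermat.Agent.S37.LocalGenPlace

open AlgebraicCurve Fermat.Agent.S37.GaloisValue

section Ord

variable {K F : Type*} [Field K] [Field F] [Algebra K F]

/-- a function with a nonzero value at `P` has order `0` -/
theorem ord_eq_zero_of_isValueAt {P : Place K F} {g : F} {c : K} (h : IsValueAt P g c)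
    (hc : c ≠ 0) : P.ord g = 0 := by
  have hg : g ∈ P.toValuationSubring := h.mem
  have hmem : (⟨g, hg⟩ : P.toValuationSubring) - algebraMap K P.toValuationSubring c ∈
      IsLocalRing.maximalIdeal P.toValuationSubring := by
    rw [← ValuationSubring.coe_mem_nonunits_iff]
    exact h
  have hcu : IsUnit (algebraMap K P.toValuationSubring c) :=
    (isUnit_iff_ne_zero.mpr hc).map _
  have hgu : IsUnit (⟨g, hg⟩ : P.toValuationSubring) := by
    by_contra hnu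
    have h1 : (⟨g, hg⟩ : P.toValuationSubring) ∈ IsLocalRing.maximalIdeal P.toValuationSubring :=
      (IsLocalRing.mem_maximalIdeal _).mpr hnu
    have h2 := Ideal.sub_mem _ h1 hmem
    rw [sub_sub_cancel] at h2
    exact (IsLocalRing.mem_maximalIdeal _).mp h2 hcu
  have h3 := P.ord_coe_unit hgu.unit
  rwa [IsUnit.unit_spec] at h3

/-- a nonzero function with value `0` at `P` has positive order -/
theorem ord_pos_of_isValueAt_zero {P : Place K F} {g : F} (hg0 : g ≠ 0)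
    (h : IsValueAt P g 0) : 0 < P.ord g := by
  have hg : g ∈ P.toValuationSubring := h.mem
  have hmem : (⟨g, hg⟩ : P.toValuationSubring) ∈
      IsLocalRing.maximalIdeal P.toValuationSubring := by
    rw [← ValuationSubring.coe_mem_nonunits_iff]
    have h' : g - algebraMap K F 0 ∈ P.toValuationSubring.nonunits := h
    rwa [map_zero, sub_zero] at h'
  have hne : (⟨g, hg⟩ : P.toValuationSubring) ≠ 0 := fun h0 => hg0 (congrArg Subtype.val h0)
  exact (Fermat.Agent.S24.Places.ord_pos_iff_mem_maximalIdeal P ⟨g, hg⟩ hne).mpr hmem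

/-- an integral function of nonzero order at `P` has value `0` at `P` -/
theorem isValueAt_zero_of_ord_ne_zero {P : Place K F} {g : F} (hg : g ∈ P.toValuationSubring)
    (h : P.ord g ≠ 0) : IsValueAt P g 0 := by
  have hg0 : g ≠ 0 := by
    rintro rfl
    exact h P.ord_zero
  have hne : (⟨g, hg⟩ : P.toValuationSubring) ≠ 0 := fun h0 => hg0 (congrArg Subtype.val h0)
  have hnn : 0 ≤ P.ord g := (Fermat.Agent.S24.Places.ord_nonneg_iff_mem P hg0).mpr hg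
  have hpos : 0 < P.ord g := lt_of_le_of_ne hnn (Ne.symm h)
  have hmem := (Fermat.Agent.S24.Places.ord_pos_iff_mem_maximalIdeal P ⟨g, hg⟩ hne).mp hpos
  rw [← ValuationSubring.coe_mem_nonunits_iff] at hmem
  show g - algebraMap K F 0 ∈ P.toValuationSubring.nonunits
  rwa [map_zero, sub_zero]

end Ord

section Chart

variable {K F : Type*} [Field K] [Field F] [Algebra K F]
variable {W B : Type*} [CommRing W] [IsDomain W] [IsDiscreteValuationRing W]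
  [CommRing B] [IsDomain B] [IsNoetherianRing B] [Algebra W B]

/-- `P` lies on the chart `B` and its centre (in the sense of `A`) is `𝔪`: every `y ∈ B` has a
value in `A` at `P`, which lies in the maximal ideal of `A` iff `y ∈ 𝔪`. -/
def Cen (A : ValuationSubring K) (ψ : B →+* F) (𝔪 : Ideal B) (P : Place K F) : Prop :=
  ∀ y : B, ∃ c : K, c ∈ A ∧ IsValueAt P (ψ y) c ∧ (y ∈ 𝔪 ↔ A.valuation c < 1)

/-- `P` dominates the prime `𝔮` of the chart `B`. -/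
def Dom (ψ : B →+* F) (𝔮 : Ideal B) (P : Place K F) : Prop :=
  ∀ y : B, ψ y ∈ P.toValuationSubring ∧ (y ∈ 𝔮 ↔ IsValueAt P (ψ y) 0)

omit [IsDomain B] [IsNoetherianRing B] in
theorem isUnit_or_dvd {π : W} (hπ : Irreducible π) (w : W) : IsUnit w ∨ π ∣ w := by
  by_cases h : IsUnit w
  · exact Or.inl h
  · right
    have h1 : w ∈ IsLocalRing.maximalIdeal W := (IsLocalRing.mem_maximalIdeal _).mpr h
    rw [hπ.maximalIdeal_eq] at h1
    exact Ideal.mem_span_singleton.mp h1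

omit [IsDomain B] [IsNoetherianRing B] in
/-- a prime of `B` not containing `π` meets `W` in `0` -/
theorem algebraMap_notMem_of_ne_zero {π : W} (hπ : Irreducible π) (𝔮 : Ideal B)
    [h𝔮 : 𝔮.IsPrime] (hπ𝔮 : algebraMap W B π ∉ 𝔮) {w : W} (hw : w ≠ 0) :
    algebraMap W B w ∉ 𝔮 := by
  intro hmem
  obtain ⟨n, hn⟩ := IsDiscreteValuationRing.associated_pow_irreducible hw hπ
  obtain ⟨v, hv⟩ := hn
  have h1 : algebraMap W B π ^ n ∈ 𝔮 := by
    rw [← map_pow, ← hv, map_mul]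
    exact 𝔮.mul_mem_right _ hmem
  exact hπ𝔮 (h𝔮.mem_of_pow_mem n h1)

omit [IsDomain B] [IsNoetherianRing B] in
/-- a maximal ideal containing `π` meets `W` in `π W` -/
theorem algebraMap_mem_iff {π : W} (hπ : Irreducible π) (𝔪 : Ideal B) [h𝔪 : 𝔪.IsMaximal]
    (hπ𝔪 : algebraMap W B π ∈ 𝔪) (w : W) : algebraMap W B w ∈ 𝔪 ↔ π ∣ w := by
  constructor
  · intro h
    rcases isUnit_or_dvd hπ w with hu | hd
    · exact absurd (Ideal.eq_top_of_isUnit_mem _ h (hu.map _)) h𝔪.ne_top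
    · exact hd
  · rintro ⟨w', rfl⟩
    rw [map_mul]
    exact 𝔪.mul_mem_right _ hπ𝔪

omit [IsDomain B] [IsNoetherianRing B] [Algebra W B] in
/-- a local homomorphism `W → A` -/
theorem valuation_lt_one_iff {π : W} (hπ : Irreducible π) (A : ValuationSubring K)
    (ι₀ : W →+* K) (hι₀A : ∀ w : W, ι₀ w ∈ A) (hι₀π : A.valuation (ι₀ π) < 1) (w : W) :
    A.valuation (ι₀ w) < 1 ↔ π ∣ w := by
  have hle : ∀ w : W, A.valuation (ι₀ w) ≤ 1 := fun w =>
    (A.valuation_le_one_iff _).mpr (hι₀A w)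
  constructor
  · intro h
    by_cases hu : IsUnit w
    · exfalso
      obtain ⟨v, rfl⟩ := hu
      have h1 : A.valuation (ι₀ (v : W)) * A.valuation (ι₀ ((v⁻¹ : Wˣ) : W)) = 1 := by
        rw [← map_mul, ← map_mul, Units.mul_inv, map_one, map_one]
      have h2 : A.valuation (ι₀ (v : W)) * A.valuation (ι₀ ((v⁻¹ : Wˣ) : W)) < 1 := by
        calc A.valuation (ι₀ (v : W)) * A.valuation (ι₀ ((v⁻¹ : Wˣ) : W))
            ≤ A.valuation (ι₀ (v : W)) * 1 := by gcongr; exact hle _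
          _ = A.valuation (ι₀ (v : W)) := mul_one _
          _ < 1 := h
      rw [h1] at h2
      exact lt_irrefl _ h2
    · have h1 : w ∈ IsLocalRing.maximalIdeal W := (IsLocalRing.mem_maximalIdeal _).mpr hu
      rw [hπ.maximalIdeal_eq] at h1
      exact Ideal.mem_span_singleton.mp h1
  · rintro ⟨w', rfl⟩
    rw [map_mul, map_mul]
    calc A.valuation (ι₀ π) * A.valuation (ι₀ w') ≤ A.valuation (ι₀ π) * 1 := by
          gcongr; exact hle _
      _ = A.valuation (ι₀ π) := mul_one _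
      _ < 1 := hι₀π

omit [IsNoetherianRing B] in
/-- a prime through `g ∈ 𝔪` inside `𝔪` avoiding the prime element `p ∤ g` -/
theorem exists_prime_through {p g : B} (hp : Prime p) (𝔪 : Ideal B) [h𝔪 : 𝔪.IsMaximal]
    (hg𝔪 : g ∈ 𝔪) (hpg : ¬ p ∣ g) :
    ∃ 𝔮 : Ideal B, 𝔮.IsPrime ∧ g ∈ 𝔮 ∧ 𝔮 ≤ 𝔪 ∧ p ∉ 𝔮 := by
  have key : ∀ (n : ℕ) (c y : B), y ∉ 𝔪 → c * g = y * p ^ n → False := by
    intro n
    induction n with
    | zero =>
      intro c y hy h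
      rw [pow_zero, mul_one] at h
      exact hy (h ▸ 𝔪.mul_mem_left c hg𝔪)
    | succ n ih =>
      intro c y hy h
      have h1 : p ∣ c * g := ⟨y * p ^ n, by rw [h, pow_succ]; ring⟩
      rcases hp.dvd_or_dvd h1 with ⟨c', rfl⟩ | h2
      · apply ih c' y hy
        have h3 : p * (c' * g) = p * (y * p ^ n) := by
          rw [pow_succ] at h
          linear_combination h
        exact mul_left_cancel₀ hp.ne_zero h3
      · exact hpg h2
  have hdisj : Disjoint ((Ideal.span {g} : Ideal B) : Set B)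
      ((𝔪.primeCompl ⊔ Submonoid.powers p : Submonoid B) : Set B) := by
    rw [Set.disjoint_left]
    intro x hx hxS
    obtain ⟨c, hc⟩ := Ideal.mem_span_singleton'.mp hx
    obtain ⟨y, hy, z, hz, hyz⟩ := Submonoid.mem_sup.mp hxS
    obtain ⟨n, hn⟩ := (Submonoid.mem_powers_iff _ _).mp hz
    exact key n c y hy (by rw [hc, ← hyz, ← hn])
  obtain ⟨𝔮, h𝔮, hle, h𝔮disj⟩ := Ideal.exists_le_prime_disjoint _ _ hdisj
  refine ⟨𝔮, h𝔮, hle (Ideal.subset_span rfl), ?_, ?_⟩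
  · intro x hx
    by_contra hx𝔪
    exact Set.disjoint_left.mp h𝔮disj hx
      ((le_sup_left : 𝔪.primeCompl ≤ 𝔪.primeCompl ⊔ Submonoid.powers p) hx𝔪)
  · intro hp𝔮
    exact Set.disjoint_left.mp h𝔮disj hp𝔮
      ((le_sup_right : Submonoid.powers p ≤ 𝔪.primeCompl ⊔ Submonoid.powers p)
        (Submonoid.mem_powers p))

/-- **The horizontal prime through a local generator.**  If `u - w` divides `a * b` locally at
`𝔪`, there is a `W`-rational prime `𝔮 ⊆ 𝔪` not containing `π` which is generated by `u - w`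
locally at `𝔪`. -/
theorem exists_rational_prime (π : W) (hπ : Irreducible π) (hπB : Prime (algebraMap W B π))
    (𝔪 : Ideal B) [𝔪.IsMaximal] (hπ𝔪 : algebraMap W B π ∈ 𝔪) (u : B)
    (hu : ChartUnit.LocalParam π 𝔪 u) (a b : B) (ha : ¬ algebraMap W B π ∣ a)
    (hb : ¬ algebraMap W B π ∣ b)
    (hrat : ∀ 𝔮 : Ideal B, 𝔮.IsPrime → 𝔮 ≤ 𝔪 → a * b ∈ 𝔮 → algebraMap W B π ∉ 𝔮 →
      ∀ y : B, ∃ w : W, y - algebraMap W B w ∈ 𝔮)
    (w : W) (hw : π ∣ w) (s c : B) (hs : s ∉ 𝔪)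
    (hsc : s * (a * b) = (u - algebraMap W B w) * c) :
    ∃ 𝔮 : Ideal B, 𝔮.IsPrime ∧ u - algebraMap W B w ∈ 𝔮 ∧ 𝔮 ≤ 𝔪 ∧ algebraMap W B π ∉ 𝔮 ∧
      a * b ∈ 𝔮 ∧ (∀ y : B, ∃ w' : W, y - algebraMap W B w' ∈ 𝔮) ∧
      ∀ x ∈ 𝔮, ∃ s' : B, s' ∉ 𝔪 ∧ ∃ c' : B, s' * x = (u - algebraMap W B w) * c' := by
  have hw𝔪 : algebraMap W B w ∈ 𝔪 := (algebraMap_mem_iff hπ 𝔪 hπ𝔪 w).mpr hw
  have hg𝔪 : u - algebraMap W B w ∈ 𝔪 := 𝔪.sub_mem hu.1 hw𝔪
  have hπg : ¬ algebraMap W B π ∣ u - algebraMap W B w := by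
    intro h
    have h1 : algebraMap W B π ∣ s * (a * b) := hsc ▸ Dvd.dvd.mul_right h c
    rcases hπB.dvd_or_dvd h1 with h2 | h2
    · exact ChartUnit.not_dvd_of_notMem 𝔪 hπ𝔪 hs h2
    · rcases hπB.dvd_or_dvd h2 with h3 | h3
      · exact ha h3
      · exact hb h3
  obtain ⟨𝔮, h𝔮, hg𝔮, h𝔮𝔪, hπ𝔮⟩ := exists_prime_through hπB 𝔪 hg𝔪 hπg
  haveI := h𝔮
  have hs𝔮 : s ∉ 𝔮 := fun h => hs (h𝔮𝔪 h)
  have hab𝔮 : a * b ∈ 𝔮 := by
    have h1 : s * (a * b) ∈ 𝔮 := hsc ▸ 𝔮.mul_mem_right c hg𝔮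
    exact (h𝔮.mem_or_mem h1).resolve_left hs𝔮
  have hrat𝔮 := hrat 𝔮 h𝔮 h𝔮𝔪 hab𝔮 hπ𝔮
  obtain ⟨w₀, hw₀, hw₀𝔮, hgen⟩ := ChartUnit.exists_prime_gen π (isUnit_or_dvd hπ) 𝔪 hπ𝔪 u
    hu 𝔮 h𝔮𝔪 hπ𝔮 hrat𝔮
  have hww : w₀ = w := by
    by_contra hne
    have h1 : algebraMap W B (w₀ - w) ∈ 𝔮 := by
      have e : algebraMap W B (w₀ - w) =
          (u - algebraMap W B w) - (u - algebraMap W B w₀) := by rw [map_sub]; ring
      rw [e]
      exact 𝔮.sub_mem hg𝔮 hw₀𝔮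
    exact algebraMap_notMem_of_ne_zero hπ 𝔮 hπ𝔮 (sub_ne_zero.mpr hne) h1
  subst hww
  exact ⟨𝔮, h𝔮, hg𝔮, h𝔮𝔪, hπ𝔮, hab𝔮, hrat𝔮, hgen⟩

omit [IsNoetherianRing B] in
theorem Dom.ord_eq_zero {ψ : B →+* F} {𝔮 : Ideal B} {P : Place K F} (h : Dom ψ 𝔮 P) {y : B}
    (hy : y ∉ 𝔮) : P.ord (ψ y) = 0 := by
  by_contra h0
  exact hy ((h y).2.mpr (isValueAt_zero_of_ord_ne_zero (h y).1 h0))

omit [IsNoetherianRing B] in
theorem Dom.ord_pos {ψ : B →+* F} (hψ : Function.Injective ψ) {𝔮 : Ideal B} {P : Place K F}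
    (h : Dom ψ 𝔮 P) {y : B} (hy : y ∈ 𝔮) (hy0 : y ≠ 0) : 0 < P.ord (ψ y) :=
  ord_pos_of_isValueAt_zero ((map_ne_zero_iff ψ hψ).mpr hy0) ((h y).2.mp hy)

omit [IsNoetherianRing B] in
/-- the order at a place dominating `𝔮` of an element written as `g ^ k * c / s` -/
theorem Dom.ord_of_decomp {ψ : B →+* F} (hψ : Function.Injective ψ) {𝔮 : Ideal B}
    {P : Place K F} (h : Dom ψ 𝔮 P) {g x s c : B} {k : ℕ} (hg0 : g ≠ 0) (hx : x ≠ 0)
    (hs : s ∉ 𝔮) (hc : c ∉ 𝔮) (e : s * x = g ^ k * c) :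
    P.ord (ψ x) = k * P.ord (ψ g) := by
  have hne : ∀ z : B, z ≠ 0 → ψ z ≠ 0 := fun z hz => (map_ne_zero_iff ψ hψ).mpr hz
  have hs0 : s ≠ 0 := fun h0 => hs (h0 ▸ 𝔮.zero_mem)
  have hc0 : c ≠ 0 := fun h0 => hc (h0 ▸ 𝔮.zero_mem)
  have e1 : ψ s * ψ x = ψ g ^ k * ψ c := by rw [← map_mul, e, map_mul, map_pow]
  have e2 : P.ord (ψ s) + P.ord (ψ x) = P.ord (ψ g ^ k) + P.ord (ψ c) := by
    rw [← P.ord_mul (hne _ hs0) (hne _ hx), e1,
      P.ord_mul (pow_ne_zero k (hne _ hg0)) (hne _ hc0)]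
  have e3 : P.ord (ψ g ^ k) = k * P.ord (ψ g) := by
    have := P.ord_zpow (ψ g) (k : ℤ)
    rwa [zpow_natCast] at this
  rw [h.ord_eq_zero hs, h.ord_eq_zero hc, e3] at e2
  linarith

omit [IsNoetherianRing B] in
/-- if `𝔮` is generated by `g` up to elements outside `𝔮`, every nonzero element of `B` is
`g ^ k * c / s` with `c, s ∉ 𝔮` (induction on the order at a place dominating `𝔮`) -/
theorem Dom.exists_decomp {ψ : B →+* F} (hψ : Function.Injective ψ) {𝔮 : Ideal B}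
    [h𝔮 : 𝔮.IsPrime] {P : Place K F} (h : Dom ψ 𝔮 P) {g : B} (hg : g ∈ 𝔮) (hg0 : g ≠ 0)
    (hgen : ∀ x ∈ 𝔮, ∃ s : B, s ∉ 𝔮 ∧ ∃ c : B, s * x = g * c) :
    ∀ x : B, x ≠ 0 → ∃ (k : ℕ) (s c : B), s ∉ 𝔮 ∧ c ∉ 𝔮 ∧ s * x = g ^ k * c := by
  have hone : (1 : B) ∉ 𝔮 := (Ideal.ne_top_iff_one 𝔮).mp h𝔮.ne_top
  have hne : ∀ z : B, z ≠ 0 → ψ z ≠ 0 := fun z hz => (map_ne_zero_iff ψ hψ).mpr hz
  have key : ∀ (n : ℕ) (x : B), x ≠ 0 → P.ord (ψ x) ≤ n →
      ∃ (k : ℕ) (s c : B), s ∉ 𝔮 ∧ c ∉ 𝔮 ∧ s * x = g ^ k * c := by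
    intro n
    induction n with
    | zero =>
      intro x hx hord
      have hx𝔮 : x ∉ 𝔮 := fun hx𝔮 => by
        have := h.ord_pos hψ hx𝔮 hx
        simp only [Nat.cast_zero] at hord
        omega
      exact ⟨0, 1, x, hone, hx𝔮, by simp⟩
    | succ n ih =>
      intro x hx hord
      by_cases hx𝔮 : x ∈ 𝔮
      · obtain ⟨s₁, hs₁, c₁, hc₁⟩ := hgen x hx𝔮
        have hs₁0 : s₁ ≠ 0 := fun h0 => hs₁ (h0 ▸ 𝔮.zero_mem)
        have hc₁0 : c₁ ≠ 0 := by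
          rintro rfl
          rw [mul_zero] at hc₁
          exact (mul_ne_zero hs₁0 hx) hc₁
        have e : ψ s₁ * ψ x = ψ g * ψ c₁ := by rw [← map_mul, hc₁, map_mul]
        have e2 : P.ord (ψ s₁) + P.ord (ψ x) = P.ord (ψ g) + P.ord (ψ c₁) := by
          rw [← P.ord_mul (hne _ hs₁0) (hne _ hx), e, P.ord_mul (hne _ hg0) (hne _ hc₁0)]
        have h1 := h.ord_eq_zero hs₁
        have h2 := h.ord_pos hψ hg hg0
        have h3 : P.ord (ψ c₁) ≤ n := by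
          push_cast at hord
          omega
        obtain ⟨k, s₂, c₂, hs₂, hc₂, hk⟩ := ih c₁ hc₁0 h3
        refine ⟨k + 1, s₂ * s₁, c₂, ?_, hc₂, ?_⟩
        · exact fun hm => (h𝔮.mem_or_mem hm).elim hs₂ hs₁
        · calc s₂ * s₁ * x = s₂ * (s₁ * x) := by ring
            _ = s₂ * (g * c₁) := by rw [hc₁]
            _ = g * (s₂ * c₁) := by ring
            _ = g * (g ^ k * c₂) := by rw [hk]
            _ = g ^ (k + 1) * c₂ := by ring
      · exact ⟨0, 1, x, hone, hx𝔮, by simp⟩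
  intro x hx
  exact key (P.ord (ψ x)).toNat x hx (Int.self_le_toNat _)

/-- **The unique place through a local generator.**  See the module docstring. -/
theorem exists_unique_place_localGen (A : ValuationSubring K) (ψ : B →+* F)
    (hψ : Function.Injective ψ) (ι₀ : W →+* K)
    (hι₀ : ∀ w : W, ψ (algebraMap W B w) = algebraMap K F (ι₀ w))
    (hι₀A : ∀ w : W, ι₀ w ∈ A) (π : W) (hπ : Irreducible π)
    (hι₀π : A.valuation (ι₀ π) < 1) (hπB : Prime (algebraMap W B π))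
    (𝔪 : Ideal B) [𝔪.IsMaximal] (hπ𝔪 : algebraMap W B π ∈ 𝔪) (u : B)
    (hu : ChartUnit.LocalParam π 𝔪 u) (a b : B) (ha : ¬ algebraMap W B π ∣ a)
    (hb : ¬ algebraMap W B π ∣ b)
    (hrat : ∀ 𝔮 : Ideal B, 𝔮.IsPrime → 𝔮 ≤ 𝔪 → a * b ∈ 𝔮 → algebraMap W B π ∉ 𝔮 →
      ∀ y : B, ∃ w : W, y - algebraMap W B w ∈ 𝔮)
    (hEXT : ∀ 𝔮 : Ideal B, 𝔮.IsPrime → 𝔮 ≠ ⊥ → algebraMap W B π ∉ 𝔮 →
      ∃ P : Place K F, ∀ y : B, ψ y ∈ P.toValuationSubring ∧ (y ∈ 𝔮 ↔ IsValueAt P (ψ y) 0))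
    (hunr : ∀ P : Place K F, 0 < P.ord (ψ (a * b)) →
      ∃ x y : B, y ≠ 0 ∧ P.ord (ψ x) - P.ord (ψ y) = 1)
    (huniq : ∀ P P' : Place K F, 0 < P.ord (ψ (a * b)) →
      (∀ x y : B, y ≠ 0 →
        (ψ x / ψ y ∈ P'.toValuationSubring ↔ ψ x / ψ y ∈ P.toValuationSubring)) → P' = P)
    (w : W) (hw : π ∣ w) (s c : B) (hs : s ∉ 𝔪)
    (hsc : s * (a * b) = (u - algebraMap W B w) * c) :
    ∃ P₀ : Place K F, Cen A ψ 𝔪 P₀ ∧ P₀.ord (ψ (u - algebraMap W B w)) = 1 ∧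
      ∀ P : Place K F, Cen A ψ 𝔪 P → P.ord (ψ (u - algebraMap W B w)) ≠ 0 → P = P₀ := by
  obtain ⟨𝔮, h𝔮, hg𝔮, h𝔮𝔪, hπ𝔮, hab𝔮, hrat𝔮, hgen⟩ :=
    exists_rational_prime π hπ hπB 𝔪 hπ𝔪 u hu a b ha hb hrat w hw s c hs hsc
  haveI := h𝔮
  have hne : ∀ z : B, z ≠ 0 → ψ z ≠ 0 := fun z hz => (map_ne_zero_iff ψ hψ).mpr hz
  have ha0 : a ≠ 0 := by
    rintro rfl
    exact ha (dvd_zero _)
  have hb0 : b ≠ 0 := by
    rintro rfl
    exact hb (dvd_zero _)
  have hs0 : s ≠ 0 := fun h0 => hs (h0 ▸ 𝔪.zero_mem)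
  obtain ⟨g, hg⟩ : ∃ g : B, g = u - algebraMap W B w := ⟨_, rfl⟩
  rw [← hg] at hg𝔮 hgen hsc ⊢
  have hg0 : g ≠ 0 := by
    intro h0
    rw [h0, zero_mul] at hsc
    exact mul_ne_zero hs0 (mul_ne_zero ha0 hb0) hsc
  have hgen' : ∀ x ∈ 𝔮, ∃ s' : B, s' ∉ 𝔮 ∧ ∃ c' : B, s' * x = g * c' := fun x hx => by
    obtain ⟨s', hs', c', hc'⟩ := hgen x hx
    exact ⟨s', fun h => hs' (h𝔮𝔪 h), c', hc'⟩
  have h𝔮bot : 𝔮 ≠ ⊥ := fun h => hg0 (by
    rw [h] at hg𝔮
    exact Ideal.mem_bot.mp hg𝔮)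
  obtain ⟨P₀, hP₀⟩ := hEXT 𝔮 h𝔮 h𝔮bot hπ𝔮
  have hD₀ : Dom ψ 𝔮 P₀ := hP₀
  -- `P₀` is centred at `𝔪`
  have hCen₀ : Cen A ψ 𝔪 P₀ := by
    intro y
    obtain ⟨wy, hwy⟩ := hrat𝔮 y
    refine ⟨ι₀ wy, hι₀A wy, ?_, ?_⟩
    · have h1 := (hP₀ (y - algebraMap W B wy)).2.mp hwy
      have h2 : IsValueAt P₀ (algebraMap K F (ι₀ wy)) (ι₀ wy) := isValueAt_algebraMap P₀ _
      have h3 := h1.add h2
      rwa [map_sub, hι₀, sub_add_cancel, zero_add] at h3
    · rw [valuation_lt_one_iff hπ A ι₀ hι₀A hι₀π wy, ← algebraMap_mem_iff hπ 𝔪 hπ𝔪 wy]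
      constructor
      · intro hy
        have := 𝔪.sub_mem hy (h𝔮𝔪 hwy)
        rwa [sub_sub_cancel] at this
      · intro hwm
        have := 𝔪.add_mem (h𝔮𝔪 hwy) hwm
        rwa [sub_add_cancel] at this
  -- the order of `g` at `P₀` is `1`
  have hdec₀ := hD₀.exists_decomp hψ hg𝔮 hg0 hgen'
  have hpos₀ : 0 < P₀.ord (ψ g) := hD₀.ord_pos hψ hg𝔮 hg0
  have hzero₀ : 0 < P₀.ord (ψ (a * b)) := hD₀.ord_pos hψ hab𝔮 (mul_ne_zero ha0 hb0)
  have hord₀ : P₀.ord (ψ g) = 1 := by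
    obtain ⟨x, y, hy, hxy⟩ := hunr P₀ hzero₀
    obtain ⟨ky, sy, cy, hsy, hcy, ey⟩ := hdec₀ y hy
    have hy' := hD₀.ord_of_decomp hψ hg0 hy hsy hcy ey
    rcases eq_or_ne x 0 with rfl | hx
    · rw [map_zero, Place.ord_zero, hy'] at hxy
      have h1 : (0 : ℤ) ≤ (ky : ℤ) * P₀.ord (ψ g) := mul_nonneg (Int.natCast_nonneg _) hpos₀.le
      omega
    · obtain ⟨kx, sx, cx, hsx, hcx, ex⟩ := hdec₀ x hx
      have hx' := hD₀.ord_of_decomp hψ hg0 hx hsx hcx ex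
      rw [hx', hy'] at hxy
      have h1 : ((kx : ℤ) - ky) * P₀.ord (ψ g) = 1 := by linarith
      exact Int.eq_one_of_mul_eq_one_left hpos₀.le h1
  refine ⟨P₀, hCen₀, hord₀, ?_⟩
  intro P hCen hP
  -- all of `B` is integral at `P`
  have hmem : ∀ y : B, ψ y ∈ P.toValuationSubring := fun y => by
    obtain ⟨c', _, hc', _⟩ := hCen y
    exact hc'.mem
  have hgP : IsValueAt P (ψ g) 0 := isValueAt_zero_of_ord_ne_zero (hmem g) hP
  -- the centre of `P` on `B` is `𝔮`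
  have hto : ∀ y : B, y ∈ 𝔮 → IsValueAt P (ψ y) 0 := by
    intro y hy
    obtain ⟨s₁, hs₁, c₁, hc₁⟩ := hgen y hy
    obtain ⟨cs, -, hcs, hcsm⟩ := hCen s₁
    obtain ⟨cy, -, hcy, -⟩ := hCen y
    obtain ⟨cc, -, hcc, -⟩ := hCen c₁
    have h1 : IsValueAt P (ψ s₁ * ψ y) (cs * cy) := hcs.mul hcy
    have h2 : IsValueAt P (ψ g * ψ c₁) (0 * cc) := hgP.mul hcc
    rw [← map_mul, hc₁, map_mul] at h1
    have h3 := h1.unique h2
    have hcs0 : cs ≠ 0 := by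
      rintro rfl
      exact hs₁ (hcsm.mpr (by rw [map_zero]; exact zero_lt_one))
    have hcy0 : cy = 0 := by
      rw [zero_mul] at h3
      exact (mul_eq_zero.mp h3).resolve_left hcs0
    rwa [hcy0] at hcy
  have hfrom : ∀ y : B, IsValueAt P (ψ y) 0 → y ∈ 𝔮 := by
    intro y hy
    obtain ⟨wy, hwy⟩ := hrat𝔮 y
    have h1 := hto _ hwy
    have h2 : IsValueAt P (ψ (algebraMap W B wy)) 0 := by
      have := hy.sub h1
      rwa [map_sub, sub_sub_cancel, sub_zero] at this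
    rw [hι₀] at h2
    have h3 := h2.unique (isValueAt_algebraMap P (ι₀ wy))
    have h4 : algebraMap W B wy = 0 := by
      apply hψ
      rw [hι₀, ← h3, map_zero, map_zero]
    rwa [h4, sub_zero] at hwy
  have hD : Dom ψ 𝔮 P := fun y => ⟨hmem y, hto y, hfrom y⟩
  have hpos : 0 < P.ord (ψ g) := hD.ord_pos hψ hg𝔮 hg0
  apply huniq P₀ P hzero₀
  intro x y hy
  rcases eq_or_ne x 0 with rfl | hx
  · simp [zero_mem]
  · obtain ⟨kx, sx, cx, hsx, hcx, ex⟩ := hdec₀ x hx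
    obtain ⟨ky, sy, cy, hsy, hcy, ey⟩ := hdec₀ y hy
    have hxy0 : ψ x / ψ y ≠ 0 := div_ne_zero (hne _ hx) (hne _ hy)
    have hdiv : ∀ Q : Place K F, Q.ord (ψ x / ψ y) = Q.ord (ψ x) - Q.ord (ψ y) := by
      intro Q
      rw [div_eq_mul_inv, Q.ord_mul (hne _ hx) (inv_ne_zero (hne _ hy)), Q.ord_inv]
      ring
    rw [← Fermat.Agent.S24.Places.ord_nonneg_iff_mem P hxy0,
      ← Fermat.Agent.S24.Places.ord_nonneg_iff_mem P₀ hxy0, hdiv P, hdiv P₀,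
      hD.ord_of_decomp hψ hg0 hx hsx hcx ex, hD.ord_of_decomp hψ hg0 hy hsy hcy ey,
      hD₀.ord_of_decomp hψ hg0 hx hsx hcx ex, hD₀.ord_of_decomp hψ hg0 hy hsy hcy ey, hord₀]
    have e1 : (kx : ℤ) * P.ord (ψ g) - ky * P.ord (ψ g) = ((kx : ℤ) - ky) * P.ord (ψ g) := by
      ring
    rw [e1, mul_nonneg_iff_of_pos_right hpos]
    constructor <;> intro h' <;> linarith

end Chart

section Rational

variable {K F : Type*} [Field K] [Field F] [Algebra K F]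
variable {W B : Type*} [CommRing W] [IsDomain W] [IsDiscreteValuationRing W]
  [CommRing B] [IsDomain B] [Algebra W B]
variable {L : Type*} [Field L] [Algebra W L] [IsFractionRing W L]

/-- A prime `𝔮 ⊆ 𝔪` of the chart dominated by a place at which every element of `B` has a
value in `L = Frac W` is `W`-rational. -/
theorem exists_sub_mem_of_value (ψ : B →+* F) (ι : L →+* K)
    (hconst : ∀ w : W, ψ (algebraMap W B w) = algebraMap K F (ι (algebraMap W L w)))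
    {π : W} (hπ : Irreducible π) (𝔪 : Ideal B) [h𝔪 : 𝔪.IsMaximal]
    (hπ𝔪 : algebraMap W B π ∈ 𝔪) (𝔮 : Ideal B) (h𝔮𝔪 : 𝔮 ≤ 𝔪) (P : Place K F)
    (hP : Dom ψ 𝔮 P) (hval : ∀ y : B, ∃ c : L, IsValueAt P (ψ y) (ι c)) (y : B) :
    ∃ w : W, y - algebraMap W B w ∈ 𝔮 := by
  obtain ⟨c, hc⟩ := hval y
  by_cases hcr : ∃ w : W, algebraMap W L w = c
  · obtain ⟨w, hw⟩ := hcr
    refine ⟨w, (hP _).2.mpr ?_⟩
    have h1 : IsValueAt P (ψ (algebraMap W B w)) (ι c) := by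
      rw [hconst, hw]
      exact isValueAt_algebraMap P _
    have h2 := hc.sub h1
    rwa [← map_sub, sub_self] at h2
  · exfalso
    have hc0 : c ≠ 0 := by
      rintro rfl
      exact hcr ⟨0, map_zero _⟩
    obtain ⟨v, hv⟩ : ∃ v : W, algebraMap W L v = c⁻¹ := by
      rcases ValuationRing.isInteger_or_isInteger W c with ⟨w, hw⟩ | ⟨v, hv⟩
      · exact absurd ⟨w, hw⟩ hcr
      · exact ⟨v, hv⟩
    have hvu : ¬ IsUnit v := by
      rintro ⟨v', rfl⟩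
      apply hcr
      refine ⟨((v'⁻¹ : Wˣ) : W), ?_⟩
      have h1 : algebraMap W L ((v'⁻¹ : Wˣ) : W) * algebraMap W L (v' : W) = 1 := by
        rw [← map_mul, Units.inv_mul, map_one]
      rw [hv] at h1
      field_simp at h1
      exact h1
    have hv𝔪 : algebraMap W B v ∈ 𝔪 := by
      have h1 : v ∈ IsLocalRing.maximalIdeal W := (IsLocalRing.mem_maximalIdeal _).mpr hvu
      rw [hπ.maximalIdeal_eq] at h1
      obtain ⟨v', rfl⟩ := Ideal.mem_span_singleton.mp h1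
      rw [map_mul]
      exact 𝔪.mul_mem_right _ hπ𝔪
    have h1 : IsValueAt P (ψ (algebraMap W B v)) (ι c⁻¹) := by
      rw [hconst, hv]
      exact isValueAt_algebraMap P _
    have h2 : IsValueAt P (ψ (algebraMap W B v) * ψ y) (ι c⁻¹ * ι c) := h1.mul hc
    have h3 : IsValueAt P (1 : F) 1 := by
      have := isValueAt_algebraMap P (1 : K)
      rwa [map_one] at this
    have h4 := h2.sub h3
    have hv1 : ι c⁻¹ * ι c - 1 = 0 := by
      rw [← map_mul, inv_mul_cancel₀ hc0, map_one, sub_self]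
    have he : ψ (algebraMap W B v) * ψ y - 1 = ψ (algebraMap W B v * y - 1) := by
      rw [map_sub, map_mul, map_one]
    rw [hv1, he] at h4
    have h5 : algebraMap W B v * y - 1 ∈ 𝔪 := h𝔮𝔪 ((hP _).2.mpr h4)
    have h6 := 𝔪.sub_mem (𝔪.mul_mem_right y hv𝔪) h5
    rw [sub_sub_cancel] at h6
    exact h𝔪.ne_top ((Ideal.eq_top_iff_one 𝔪).mpr h6)

/-- **The hypothesis `hrat` of `ChartUnit.chart_unit_congr`** from (EXT) and the rationality of
the places through `a * b`. -/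
theorem rational_of_places (ψ : B →+* F) (hψ : Function.Injective ψ) (ι : L →+* K)
    (hconst : ∀ w : W, ψ (algebraMap W B w) = algebraMap K F (ι (algebraMap W L w)))
    {π : W} (hπ : Irreducible π) (a b : B) (hab : a * b ≠ 0)
    (hEXT : ∀ 𝔮 : Ideal B, 𝔮.IsPrime → 𝔮 ≠ ⊥ → algebraMap W B π ∉ 𝔮 →
      ∃ P : Place K F, ∀ y : B, ψ y ∈ P.toValuationSubring ∧ (y ∈ 𝔮 ↔ IsValueAt P (ψ y) 0))
    (hval : ∀ P : Place K F, 0 < P.ord (ψ (a * b)) → ∀ y : B, ψ y ∈ P.toValuationSubring →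
      ∃ c : L, IsValueAt P (ψ y) (ι c)) :
    ∀ 𝔪 : Ideal B, 𝔪.IsMaximal → algebraMap W B π ∈ 𝔪 →
      ∀ 𝔮 : Ideal B, 𝔮.IsPrime → 𝔮 ≤ 𝔪 → a * b ∈ 𝔮 → algebraMap W B π ∉ 𝔮 →
      ∀ y : B, ∃ w : W, y - algebraMap W B w ∈ 𝔮 := by
  intro 𝔪 h𝔪 hπ𝔪 𝔮 h𝔮 h𝔮𝔪 hab𝔮 hπ𝔮 y
  have h𝔮bot : 𝔮 ≠ ⊥ := fun h => hab (by
    rw [h] at hab𝔮
    exact Ideal.mem_bot.mp hab𝔮)
  obtain ⟨P, hP⟩ := hEXT 𝔮 h𝔮 h𝔮bot hπ𝔮
  have hD : Dom ψ 𝔮 P := hP
  have hzero : 0 < P.ord (ψ (a * b)) := hD.ord_pos hψ hab𝔮 hab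
  exact exists_sub_mem_of_value ψ ι hconst hπ 𝔪 hπ𝔪 𝔮 h𝔮𝔪 P hD
    (fun y => hval P hzero y (hP y).1) y

omit [IsDomain W] [IsDiscreteValuationRing W] [Algebra W B] in
/-- (FRAC) turns an element of order `1` of `E = Frac B` into a quotient of elements of `B`. -/
theorem exists_ord_sub_eq_one_of_frac {E : Type*} [Field E] (φ : B →+* E) (β : E →+* F)
    (hφ : Function.Injective φ)
    (hfrac : ∀ g : E, ∃ y₁ y₂ : B, y₂ ≠ 0 ∧ g * φ y₂ = φ y₁)
    (P : Place K F) (h : ∃ t : E, P.ord (β t) = 1) :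
    ∃ x y : B, y ≠ 0 ∧ P.ord (β (φ x)) - P.ord (β (φ y)) = 1 := by
  obtain ⟨t, ht⟩ := h
  obtain ⟨y₁, y₂, hy₂, e⟩ := hfrac t
  refine ⟨y₁, y₂, hy₂, ?_⟩
  have ht0 : β t ≠ 0 := by
    intro h0
    rw [h0, Place.ord_zero] at ht
    exact zero_ne_one ht
  have hy₂' : β (φ y₂) ≠ 0 := (map_ne_zero β).mpr ((map_ne_zero_iff φ hφ).mpr hy₂)
  rw [← e, map_mul, P.ord_mul ht0 hy₂', ht]
  ring

omit [IsDomain W] [IsDiscreteValuationRing W] [Algebra W B] in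
/-- (FRAC) turns "determined by the restriction to `E = Frac B`" into a statement on quotients
of elements of `B`. -/
theorem eq_of_frac {E : Type*} [Field E] (φ : B →+* E) (β : E →+* F)
    (hφ : Function.Injective φ)
    (hfrac : ∀ g : E, ∃ y₁ y₂ : B, y₂ ≠ 0 ∧ g * φ y₂ = φ y₁) (P P' : Place K F)
    (h : (∀ g : E, β g ∈ P'.toValuationSubring ↔ β g ∈ P.toValuationSubring) → P' = P)
    (h' : ∀ x y : B, y ≠ 0 → (β (φ x) / β (φ y) ∈ P'.toValuationSubring ↔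
      β (φ x) / β (φ y) ∈ P.toValuationSubring)) : P' = P := by
  apply h
  intro g
  obtain ⟨y₁, y₂, hy₂, e⟩ := hfrac g
  have hy₂' : β (φ y₂) ≠ 0 := (map_ne_zero β).mpr ((map_ne_zero_iff φ hφ).mpr hy₂)
  have e1 : β g = β (φ y₁) / β (φ y₂) := by
    rw [← e, map_mul, mul_div_assoc, div_self hy₂', mul_one]
  rw [e1]
  exact h' y₁ y₂ hy₂

variable [IsNoetherianRing B]

/-- **The unique place through a local generator, RatPlace form.**  `E` is the fraction field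
of the chart `B` (the function field at the level `L = Frac W`), `β : E → F` the base change to
the function field over `K`; the places of `F` through `a * b` satisfy the three clauses of
`RatPlace.exists_rational_level`. -/
theorem exists_unique_place_of_rat {E : Type*} [Field E] (A : ValuationSubring K)
    (φ : B →+* E) (hφ : Function.Injective φ) (β : E →+* F) (ι : L →+* K)
    (hconst : ∀ w : W, β (φ (algebraMap W B w)) = algebraMap K F (ι (algebraMap W L w)))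
    (hιA : ∀ w : W, ι (algebraMap W L w) ∈ A) (π : W) (hπ : Irreducible π)
    (hιπ : A.valuation (ι (algebraMap W L π)) < 1) (hπB : Prime (algebraMap W B π))
    (hfrac : ∀ g : E, ∃ y₁ y₂ : B, y₂ ≠ 0 ∧ g * φ y₂ = φ y₁)
    (𝔪 : Ideal B) [𝔪.IsMaximal] (hπ𝔪 : algebraMap W B π ∈ 𝔪) (u : B)
    (hu : ChartUnit.LocalParam π 𝔪 u) (a b : B) (ha : ¬ algebraMap W B π ∣ a)
    (hb : ¬ algebraMap W B π ∣ b)
    (hEXT : ∀ 𝔮 : Ideal B, 𝔮.IsPrime → 𝔮 ≠ ⊥ → algebraMap W B π ∉ 𝔮 →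
      ∃ P : Place K F, ∀ y : B, β (φ y) ∈ P.toValuationSubring ∧
        (y ∈ 𝔮 ↔ IsValueAt P (β (φ y)) 0))
    (hRAT : ∀ P : Place K F, 0 < P.ord (β (φ (a * b))) →
      (∀ g : E, β g ∈ P.toValuationSubring → ∃ c : L, IsValueAt P (β g) (ι c)) ∧
      (∃ t : E, P.ord (β t) = 1) ∧
      (∀ P' : Place K F,
        (∀ g : E, β g ∈ P'.toValuationSubring ↔ β g ∈ P.toValuationSubring) → P' = P))
    (w : W) (hw : π ∣ w) (s c : B) (hs : s ∉ 𝔪)
    (hsc : s * (a * b) = (u - algebraMap W B w) * c) :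
    ∃ P₀ : Place K F, Cen A (β.comp φ) 𝔪 P₀ ∧ P₀.ord (β (φ (u - algebraMap W B w))) = 1 ∧
      ∀ P : Place K F, Cen A (β.comp φ) 𝔪 P →
        P.ord (β (φ (u - algebraMap W B w))) ≠ 0 → P = P₀ := by
  have hψ : Function.Injective (β.comp φ) := β.injective.comp hφ
  have ha0 : a ≠ 0 := by
    rintro rfl
    exact ha (dvd_zero _)
  have hb0 : b ≠ 0 := by
    rintro rfl
    exact hb (dvd_zero _)
  have hrat := rational_of_places (β.comp φ) hψ ι hconst hπ a b (mul_ne_zero ha0 hb0) hEXT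
    (fun P hP y hy => (hRAT P hP).1 (φ y) hy) 𝔪 inferInstance hπ𝔪
  exact exists_unique_place_localGen A (β.comp φ) hψ (ι.comp (algebraMap W L)) hconst hιA π hπ
    hιπ hπB 𝔪 hπ𝔪 u hu a b ha hb hrat hEXT
    (fun P hP => exists_ord_sub_eq_one_of_frac φ β hφ hfrac P (hRAT P hP).2.1)
    (fun P P' hP h' => eq_of_frac φ β hφ hfrac P P' ((hRAT P hP).2.2 P') h')
    w hw s c hs hsc

end Rational

end Fermat.Agent.S37.LocalGenPlace
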