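import Mathlib
import Fermat.Agent.S37.ChartBal

/-!
# S37 (W): the order-sum function over a class of places

For a class `S` of places of `F = modularFunctionFieldBar N`, `orderSum S g` is the sum of
`ord_P g` over the places `P ∈ S` (a finite sum: `g ≠ 0` has finitely many zeros and poles).
It is additive on products, vanishes on functions without zeros or poles in `S`, equals `1` on a
function with a single simple zero in `S`, and vanishes on a function whose divisor lies in
`centreSubgroup` when `S` is saturated under the centre relation.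
-/

set_option autoImplicit false
set_option linter.unusedSectionVars false

namespace Fermat.Agent.S37.OrderSum

open AlgebraicCurve ModularCurve Fermat.Agent.S37.GaloisValue Fermat.Agent.S37.Centre
  Fermat.Agent.S18

noncomputable section

local notation "Qb" => AlgebraicClosure ℚ

variable {N : ℕ} [NeZero N]

open Classical in
/-- The divisor of a function (`0` for the zero function). -/
def divOf (g : ↥(modularFunctionFieldBar N)) : Divisor Qb ↥(modularFunctionFieldBar N) :=
  if h : g = 0 then 0 else Classical.choose (Witness.bar_exists_divisor N g h)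

theorem divOf_apply {g : ↥(modularFunctionFieldBar N)} (hg : g ≠ 0)
    (P : Place Qb ↥(modularFunctionFieldBar N)) : divOf g P = P.ord g := by
  unfold divOf
  rw [dif_neg hg]
  exact (Classical.choose_spec (Witness.bar_exists_divisor N g hg)).1 P

theorem divOf_mul {g h : ↥(modularFunctionFieldBar N)} (hg : g ≠ 0) (hh : h ≠ 0) :
    divOf (g * h) = divOf g + divOf h := by
  ext P
  rw [Finsupp.add_apply, divOf_apply (mul_ne_zero hg hh), divOf_apply hg, divOf_apply hh,
    Place.ord_mul _ hg hh]

open Classical in
/-- The additive map "total multiplicity over `S`". -/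
def sumOver (S : Place Qb ↥(modularFunctionFieldBar N) → Prop) :
    Divisor Qb ↥(modularFunctionFieldBar N) →+ ℤ :=
  Finsupp.liftAddHom (fun P => if S P then AddMonoidHom.id ℤ else 0)

open Classical in
theorem sumOver_apply (S : Place Qb ↥(modularFunctionFieldBar N) → Prop)
    (D : Divisor Qb ↥(modularFunctionFieldBar N)) :
    sumOver S D = D.sum fun P n => if S P then n else 0 := by
  unfold sumOver
  rw [Finsupp.liftAddHom_apply]
  refine Finsupp.sum_congr fun P _ => ?_
  by_cases h : S P <;> simp [h]

/-- The sum of the orders of `g` at the places of the class `S`. -/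
def orderSum (S : Place Qb ↥(modularFunctionFieldBar N) → Prop)
    (g : ↥(modularFunctionFieldBar N)) : ℤ :=
  sumOver S (divOf g)

theorem orderSum_mul (S : Place Qb ↥(modularFunctionFieldBar N) → Prop)
    {g h : ↥(modularFunctionFieldBar N)} (hg : g ≠ 0) (hh : h ≠ 0) :
    orderSum S (g * h) = orderSum S g + orderSum S h := by
  unfold orderSum
  rw [divOf_mul hg hh, map_add]

open Classical in
theorem orderSum_eq_sum (S : Place Qb ↥(modularFunctionFieldBar N) → Prop)
    {g : ↥(modularFunctionFieldBar N)} (hg : g ≠ 0) :
    orderSum S g = ∑ P ∈ (divOf g).support, if S P then P.ord g else 0 := by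
  unfold orderSum
  rw [sumOver_apply, Finsupp.sum]
  refine Finset.sum_congr rfl fun P _ => ?_
  rw [divOf_apply hg]

/-- No zeros or poles in `S`: the order sum vanishes. -/
theorem orderSum_eq_zero (S : Place Qb ↥(modularFunctionFieldBar N) → Prop)
    {g : ↥(modularFunctionFieldBar N)} (hg : g ≠ 0) (h : ∀ P, S P → P.ord g = 0) :
    orderSum S g = 0 := by
  classical
  rw [orderSum_eq_sum S hg]
  refine Finset.sum_eq_zero fun P _ => ?_
  by_cases hP : S P
  · rw [if_pos hP, h P hP]
  · rw [if_neg hP]

theorem orderSum_nonneg (S : Place Qb ↥(modularFunctionFieldBar N) → Prop)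
    {g : ↥(modularFunctionFieldBar N)} (hg : g ≠ 0) (h : ∀ P, S P → 0 ≤ P.ord g) :
    0 ≤ orderSum S g := by
  classical
  rw [orderSum_eq_sum S hg]
  refine Finset.sum_nonneg fun P _ => ?_
  by_cases hP : S P
  · rw [if_pos hP]; exact h P hP
  · rw [if_neg hP]

/-- A single zero in `S`: the order sum is the order at that place. -/
theorem orderSum_eq_ord (S : Place Qb ↥(modularFunctionFieldBar N) → Prop)
    {g : ↥(modularFunctionFieldBar N)} (hg : g ≠ 0)
    (P₀ : Place Qb ↥(modularFunctionFieldBar N)) (h₀ : S P₀)
    (huniq : ∀ P, S P → P.ord g ≠ 0 → P = P₀) : orderSum S g = P₀.ord g := by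
  classical
  rw [orderSum_eq_sum S hg]
  rw [Finset.sum_eq_single P₀]
  · rw [if_pos h₀]
  · intro P _ hne
    by_cases hP : S P
    · rw [if_pos hP]
      by_contra hord
      exact hne (huniq P hP hord)
    · rw [if_neg hP]
  · intro hnot
    rw [if_pos h₀]
    have := Finsupp.notMem_support_iff.mp hnot
    rwa [divOf_apply hg] at this

/-- A single simple zero in `S`: the order sum is `1`. -/
theorem orderSum_eq_one (S : Place Qb ↥(modularFunctionFieldBar N) → Prop)
    {g : ↥(modularFunctionFieldBar N)} (hg : g ≠ 0)
    (P₀ : Place Qb ↥(modularFunctionFieldBar N)) (h₀ : S P₀) (h1 : P₀.ord g = 1)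
    (huniq : ∀ P, S P → P.ord g ≠ 0 → P = P₀) : orderSum S g = 1 := by
  rw [orderSum_eq_ord S hg P₀ h₀ huniq, h1]

/-- Nonzero constants have order sum `0`. -/
theorem orderSum_algebraMap (S : Place Qb ↥(modularFunctionFieldBar N) → Prop) {c : Qb}
    (hc : c ≠ 0) : orderSum S (algebraMap Qb ↥(modularFunctionFieldBar N) c) = 0 := by
  have hc' : algebraMap Qb ↥(modularFunctionFieldBar N) c ≠ 0 := by
    rwa [Ne, map_eq_zero]
  exact orderSum_eq_zero S hc' fun P _ => Descent.ord_algebraMap P c

/-- **Balance.** If the divisor of `f` lies in `centreSubgroup` and `S` is saturated under the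
centre relation, then the order sum of `f` over `S` vanishes. -/
theorem orderSum_eq_zero_of_mem_centreSubgroup {A : ValuationSubring Qb}
    (S : Place Qb ↥(modularFunctionFieldBar N) → Prop)
    (hS : ∀ P P' : Place Qb ↥(modularFunctionFieldBar N), Centre.SameCentre A N P P' →
      (S P ↔ S P'))
    {f : ↥(modularFunctionFieldBar N)} (hf : f ≠ 0)
    {D : Divisor Qb ↥(modularFunctionFieldBar N)} (hD : D ∈ Centre.centreSubgroup A N)
    (hDf : ∀ v, D v = v.ord f) : orderSum S f = 0 := by
  classical
  have hdiv : divOf f = D := by
    ext P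
    rw [divOf_apply hf, hDf]
  unfold orderSum
  rw [hdiv, sumOver_apply]
  exact ChartBal.sum_eq_zero_of_mem_centreSubgroup S hS hD

/-- The order sum of a quotient. -/
theorem orderSum_div (S : Place Qb ↥(modularFunctionFieldBar N) → Prop)
    {g h : ↥(modularFunctionFieldBar N)} (hg : g ≠ 0) (hh : h ≠ 0) :
    orderSum S (g / h) = orderSum S g - orderSum S h := by
  have h1 : g = (g / h) * h := by field_simp
  have h2 := orderSum_mul S (div_ne_zero hg hh) hh
  rw [← h1] at h2
  omega

end

end Fermat.Agent.S37.OrderSum
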