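import Mathlib
import Fermat.Agent.S37.ChartUnit
import Fermat.Agent.S37.LocalGenPlace
import Fermat.Agent.S37.OrderSum

/-!
# S37, package (W): the unit congruence on a chart (glue)

`B` is a chart ring at a discrete valuation ring level `W ⊂ L = Frac W`, embedded by `φ` in the
function field `E` of that level, `β : E → F = modularFunctionFieldBar N` the base change.  From
the chart inputs (PRIME), (DED), (FRAC), (EXT), (VAL), (RAT) and a divisor `D` of the centre
subgroup with `D = div (β φ b) - div (β φ a)` for `a, b ∈ B` not divisible by `π`, we get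
`b ≡ e a mod π` with `e` a unit modulo `π`.
-/

set_option autoImplicit false
set_option linter.unusedSectionVars false

namespace Fermat.Agent.S37.WChartB

open AlgebraicCurve ModularCurve Fermat.Agent.S37.GaloisValue Fermat.Agent.S37

local notation "Qb" => AlgebraicClosure ℚ

variable {N : ℕ} [NeZero N] (A : ValuationSubring Qb)
  {W B E L : Type*} [CommRing W] [IsDomain W] [IsDiscreteValuationRing W]
  [CommRing B] [IsDomain B] [IsNoetherianRing B] [Algebra W B]
  [Field E] [Field L] [Algebra W L] [IsFractionRing W L]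

omit [NeZero N] [IsDomain W] [IsDiscreteValuationRing W] [IsDomain B] [IsNoetherianRing B]
  [Algebra W B] in
/-- The class of places centred at `𝔪` is saturated under the centre relation, by (VAL). -/
theorem cen_iff_of_val (ψ : B →+* ↥(modularFunctionFieldBar N)) (𝔪 : Ideal B)
    (Rel : Place Qb ↥(modularFunctionFieldBar N) → Place Qb ↥(modularFunctionFieldBar N) → Prop)
    (hVAL : ∀ P P' : Place Qb ↥(modularFunctionFieldBar N), Rel P P' →
      ((∀ y : B, ∃ c : Qb, c ∈ A ∧ IsValueAt P (ψ y) c) ↔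
        (∀ y : B, ∃ c : Qb, c ∈ A ∧ IsValueAt P' (ψ y) c)) ∧
      ((∀ y : B, ∃ c : Qb, c ∈ A ∧ IsValueAt P (ψ y) c) →
        (∀ y : B, ∃ c : Qb, c ∈ A ∧ IsValueAt P' (ψ y) c) →
        ∀ (y : B) (c c' : Qb), IsValueAt P (ψ y) c → IsValueAt P' (ψ y) c' →
          A.valuation (c - c') < 1))
    (P P' : Place Qb ↥(modularFunctionFieldBar N)) (h : Rel P P') :
    LocalGenPlace.Cen A ψ 𝔪 P ↔ LocalGenPlace.Cen A ψ 𝔪 P' := by
  obtain ⟨hiff, hcong⟩ := hVAL P P' h
  have key : ∀ c c' : Qb, A.valuation (c - c') < 1 →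
      (A.valuation c < 1 ↔ A.valuation c' < 1) := by
    intro c c' hcc
    constructor
    · intro hc
      have e : c' = c - (c - c') := by ring
      rw [e]
      exact lt_of_le_of_lt (Valuation.map_sub _ _ _) (max_lt hc hcc)
    · intro hc'
      have e : c = c' + (c - c') := by ring
      rw [e]
      exact lt_of_le_of_lt (Valuation.map_add _ _ _) (max_lt hc' hcc)
  constructor
  · intro hP
    have hPl : ∀ y : B, ∃ c : Qb, c ∈ A ∧ IsValueAt P (ψ y) c := fun y => by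
      obtain ⟨c, hc, hv, _⟩ := hP y
      exact ⟨c, hc, hv⟩
    have hPl' := hiff.mp hPl
    intro y
    obtain ⟨c, _, hv, hm⟩ := hP y
    obtain ⟨c', hc', hv'⟩ := hPl' y
    exact ⟨c', hc', hv', hm.trans (key c c' (hcong hPl hPl' y c c' hv hv'))⟩
  · intro hP'
    have hPl' : ∀ y : B, ∃ c : Qb, c ∈ A ∧ IsValueAt P' (ψ y) c := fun y => by
      obtain ⟨c, hc, hv, _⟩ := hP' y
      exact ⟨c, hc, hv⟩
    have hPl := hiff.mpr hPl'
    intro y
    obtain ⟨c', _, hv', hm⟩ := hP' y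
    obtain ⟨c, hc, hv⟩ := hPl y
    exact ⟨c, hc, hv, hm.trans (key c c' (hcong hPl hPl' y c c' hv hv')).symm⟩

/-- **(W) on one chart.**  The unit congruence `b ≡ e a mod π` from the chart inputs. -/
theorem chart_congr (φ : B →+* E) (hφ : Function.Injective φ)
    (β : E →+* ↥(modularFunctionFieldBar N)) (ι : L →+* Qb)
    (hconst : ∀ w : W, β (φ (algebraMap W B w))
      = algebraMap Qb ↥(modularFunctionFieldBar N) (ι (algebraMap W L w)))
    (hιA : ∀ w : W, ι (algebraMap W L w) ∈ A) (π : W) (hπ : Irreducible π)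
    (hιπ : A.valuation (ι (algebraMap W L π)) < 1)
    (hπB : Prime (algebraMap W B π))
    (hDed : IsDedekindDomain (B ⧸ Ideal.span {algebraMap W B π}))
    (hfrac : ∀ g : E, ∃ y₁ y₂ : B, y₂ ≠ 0 ∧ g * φ y₂ = φ y₁)
    (hEXT : ∀ 𝔮 : Ideal B, 𝔮.IsPrime → 𝔮 ≠ ⊥ → algebraMap W B π ∉ 𝔮 →
      ∃ P : Place Qb ↥(modularFunctionFieldBar N), ∀ y : B,
        β (φ y) ∈ P.toValuationSubring ∧ (y ∈ 𝔮 ↔ IsValueAt P (β (φ y)) 0))
    (hVAL : ∀ P P' : Place Qb ↥(modularFunctionFieldBar N), Centre.SameCentre A N P P' →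
      ((∀ y : B, ∃ c : Qb, c ∈ A ∧ IsValueAt P (β (φ y)) c) ↔
        (∀ y : B, ∃ c : Qb, c ∈ A ∧ IsValueAt P' (β (φ y)) c)) ∧
      ((∀ y : B, ∃ c : Qb, c ∈ A ∧ IsValueAt P (β (φ y)) c) →
        (∀ y : B, ∃ c : Qb, c ∈ A ∧ IsValueAt P' (β (φ y)) c) →
        ∀ (y : B) (c c' : Qb), IsValueAt P (β (φ y)) c → IsValueAt P' (β (φ y)) c' →
          A.valuation (c - c') < 1))
    (a b : B) (ha : ¬ algebraMap W B π ∣ a) (hb : ¬ algebraMap W B π ∣ b)
    (hRAT : ∀ P : Place Qb ↥(modularFunctionFieldBar N), 0 < P.ord (β (φ (a * b))) →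
      (∀ g : E, β g ∈ P.toValuationSubring → ∃ c : L, IsValueAt P (β g) (ι c)) ∧
      (∃ t : E, P.ord (β t) = 1) ∧
      (∀ P' : Place Qb ↥(modularFunctionFieldBar N),
        (∀ g : E, β g ∈ P'.toValuationSubring ↔ β g ∈ P.toValuationSubring) → P' = P))
    (D : Divisor Qb ↥(modularFunctionFieldBar N)) (hD : D ∈ Centre.centreSubgroup A N)
    (hDab : ∀ P : Place Qb ↥(modularFunctionFieldBar N),
      D P = P.ord (β (φ b)) - P.ord (β (φ a))) :
    ∃ e e' : B, algebraMap W B π ∣ e * e' - 1 ∧ algebraMap W B π ∣ b - e * a := by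
  classical
  have hW : ∀ w : W, IsUnit w ∨ π ∣ w := LocalGenPlace.isUnit_or_dvd hπ
  have ha0 : a ≠ 0 := fun h => ha (h ▸ dvd_zero _)
  have hb0 : b ≠ 0 := fun h => hb (h ▸ dvd_zero _)
  have hab0 : a * b ≠ 0 := mul_ne_zero ha0 hb0
  have hψ : Function.Injective (β.comp φ) := β.injective.comp hφ
  have hψ0 : ∀ x : B, x ≠ 0 → β (φ x) ≠ 0 := fun x hx h0 =>
    hx (hψ (by rw [RingHom.comp_apply, h0, map_zero]))
  have hrat := LocalGenPlace.rational_of_places (β.comp φ) hψ ι hconst hπ a b hab0 hEXT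
    (fun P hP y hy => (hRAT P hP).1 (φ y) hy)
  refine ChartUnit.chart_unit_congr π hW hπB hDed a b ha hb hrat ?_
  intro 𝔪 h𝔪 hπ𝔪 u hu
  have := h𝔪
  refine ⟨fun x => OrderSum.orderSum (LocalGenPlace.Cen A (β.comp φ) 𝔪) (β (φ x)), ?_, ?_, ?_, ?_⟩
  · intro x y hx hy
    show OrderSum.orderSum _ (β (φ (x * y))) = _
    rw [map_mul, map_mul]
    exact OrderSum.orderSum_mul _ (hψ0 x hx) (hψ0 y hy)
  · intro s hs
    have hs0 : s ≠ 0 := fun h => hs (h ▸ 𝔪.zero_mem)
    refine OrderSum.orderSum_eq_zero _ (hψ0 s hs0) fun P hP => ?_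
    obtain ⟨c, _, hv, hm⟩ := hP s
    have hc0 : c ≠ 0 := by
      rintro rfl
      exact hs (hm.mpr (by simp))
    exact LocalGenPlace.ord_eq_zero_of_isValueAt hv hc0
  · rintro w hw ⟨s, hs, c, hsc⟩
    have hs0 : s ≠ 0 := fun h => hs (h ▸ 𝔪.zero_mem)
    have hne : u - algebraMap W B w ≠ 0 := by
      intro h0
      rw [h0, zero_mul] at hsc
      exact mul_ne_zero hs0 hab0 hsc
    obtain ⟨P₀, hP₀, h1, huniq⟩ := LocalGenPlace.exists_unique_place_of_rat A φ hφ β ι hconst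
      hιA π hπ hιπ hπB hfrac 𝔪 hπ𝔪 u hu a b ha hb hEXT hRAT w hw s c hs hsc
    exact OrderSum.orderSum_eq_one _ (hψ0 _ hne) P₀ hP₀ h1 huniq
  · have hS := cen_iff_of_val A (β.comp φ) 𝔪 (Centre.SameCentre A N) hVAL
    have hfa := hψ0 a ha0
    have hfb := hψ0 b hb0
    have hDf : ∀ v : Place Qb ↥(modularFunctionFieldBar N),
        D v = v.ord (β (φ b) / β (φ a)) := by
      intro v
      rw [hDab v, div_eq_mul_inv, Place.ord_mul _ hfb (inv_ne_zero hfa), Place.ord_inv]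
      ring
    have h0 := OrderSum.orderSum_eq_zero_of_mem_centreSubgroup
      (LocalGenPlace.Cen A (β.comp φ) 𝔪) hS (div_ne_zero hfb hfa) hD hDf
    rw [OrderSum.orderSum_div _ hfb hfa] at h0
    show OrderSum.orderSum _ (β (φ a)) = OrderSum.orderSum _ (β (φ b))
    omega

end Fermat.Agent.S37.WChartB
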