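import Mathlib
import Fermat.Agent.S37.WChartB
import Fermat.Agent.S37.ChartInstSplit
import Fermat.Agent.S37.ChartFrac
import Fermat.Agent.S37.ChartValB
import Fermat.Agent.S37.ExtPlace
import Fermat.Agent.S37.GaussPrime
import Fermat.Agent.S37.GaussNoeth

/-!
# S37, package (W): the chart congruence on the two concrete charts

`WChartB.chart_congr` instantiated on the finite chart (any integral closure `B` of `W[X]`,
`X ↦ j`, in `F = S24.FF L N`) and on the cusp chart (any integral closure of `CuspBase W`,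
`t ↦ 1/j`), with (PRIME), (NOE), (DED), (FRAC), (EXT), (VAL) discharged by the landed providers.
`W = A.comap ι` is a discrete valuation ring with algebraically closed residue field of
characteristic `ℓ ∤ N`.
-/

set_option autoImplicit false
set_option linter.unusedSectionVars false
set_option linter.style.haveILetI false

namespace Fermat.Agent.S37.WChartPkg

open Polynomial AlgebraicCurve ModularCurve Fermat.Agent.S37.GaloisValue
open Fermat.Agent.S18 Fermat.Agent.S18.Cusp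

local notation "Qb" => AlgebraicClosure ℚ

variable (N : ℕ) [NeZero N] {ℓ : ℕ}
  (A : ValuationSubring Qb) {L : Type} [Field L] [Algebra ℚ L] (ι : L →+* Qb)
  [IsDiscreteValuationRing ↥(A.comap ι)]
  [IsAlgClosed (IsLocalRing.ResidueField ↥(A.comap ι))]
  [CharP (IsLocalRing.ResidueField ↥(A.comap ι)) ℓ]

/-- A uniformiser of `A.comap ι` has small image in `A`. -/
theorem valuation_lt_one_of_irreducible {π : ↥(A.comap ι)} (hπ : Irreducible π) :
    A.valuation (ι (π : L)) < 1 := by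
  have hmem : ι (π : L) ∈ A := π.2
  by_contra hlt
  have h1 : A.valuation (ι (π : L)) = 1 :=
    le_antisymm ((A.valuation_le_one_iff _).mpr hmem) (not_lt.mp hlt)
  have hπ0 : (π : L) ≠ 0 := fun h0 => hπ.ne_zero (Subtype.ext h0)
  have hinv : ι ((π : L)⁻¹) ∈ A := by
    rw [map_inv₀, ← A.valuation_le_one_iff, map_inv₀, h1, inv_one]
  apply hπ.not_isUnit
  refine isUnit_iff_exists_inv.mpr ⟨⟨(π : L)⁻¹, hinv⟩, Subtype.ext ?_⟩
  show (π : L) * (π : L)⁻¹ = 1
  exact mul_inv_cancel₀ hπ0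

/-- **(W) on the finite chart.** -/
theorem chart_congr_fin (hℓ : ℓ.Prime) (hℓN : ¬ ℓ ∣ N)
    (hroots : ∀ x : Qb, (∃ n : ℕ, ¬ ℓ ∣ n ∧ x ^ n = 1) → ∃ b : L, ι b = x)
    (π : ↥(A.comap ι)) (hπ : Irreducible π)
    [Algebra (↥(A.comap ι))[X] (S24.FF L N)]
    (halg : algebraMap (↥(A.comap ι))[X] (S24.FF L N) = Gauss.evF (A.comap ι) N)
    (B : Type*) [CommRing B] [Algebra (↥(A.comap ι))[X] B] [Algebra B (S24.FF L N)]
    [IsScalarTower (↥(A.comap ι))[X] B (S24.FF L N)]
    [IsIntegralClosure B (↥(A.comap ι))[X] (S24.FF L N)]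
    (a b : B) (ha : ¬ algebraMap (↥(A.comap ι))[X] B (C π) ∣ a)
    (hb : ¬ algebraMap (↥(A.comap ι))[X] B (C π) ∣ b)
    (hRAT : ∀ P : Place Qb ↥(modularFunctionFieldBar N),
      0 < P.ord (S24.CoeffBC.bc ι (modularFunctionFieldFull N)
        (algebraMap B (S24.FF L N) (a * b))) →
      (∀ g : S24.FF L N, S24.CoeffBC.bc ι (modularFunctionFieldFull N) g ∈ P.toValuationSubring →
        ∃ c : L, IsValueAt P (S24.CoeffBC.bc ι (modularFunctionFieldFull N) g) (ι c)) ∧
      (∃ t : S24.FF L N, P.ord (S24.CoeffBC.bc ι (modularFunctionFieldFull N) t) = 1) ∧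
      (∀ P' : Place Qb ↥(modularFunctionFieldBar N),
        (∀ g : S24.FF L N, S24.CoeffBC.bc ι (modularFunctionFieldFull N) g ∈ P'.toValuationSubring ↔
          S24.CoeffBC.bc ι (modularFunctionFieldFull N) g ∈ P.toValuationSubring) → P' = P))
    (D : Divisor Qb ↥(modularFunctionFieldBar N)) (hD : D ∈ Centre.centreSubgroup A N)
    (hDab : ∀ P : Place Qb ↥(modularFunctionFieldBar N),
      D P = P.ord (S24.CoeffBC.bc ι (modularFunctionFieldFull N) (algebraMap B (S24.FF L N) b))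
        - P.ord (S24.CoeffBC.bc ι (modularFunctionFieldFull N) (algebraMap B (S24.FF L N) a))) :
    ∃ e e' : B, algebraMap (↥(A.comap ι))[X] B (C π) ∣ e * e' - 1 ∧
      algebraMap (↥(A.comap ι))[X] B (C π) ∣ b - e * a := by
  classical
  haveI : Fact ℓ.Prime := ⟨hℓ⟩
  letI : Algebra ↥(A.comap ι) B :=
    ((algebraMap (↥(A.comap ι))[X] B).comp (C : ↥(A.comap ι) →+* (↥(A.comap ι))[X])).toAlgebra
  have hφ : Function.Injective (algebraMap B (S24.FF L N)) :=
    IsIntegralClosure.algebraMap_injective B (↥(A.comap ι))[X] (S24.FF L N)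
  haveI : IsDomain B := hφ.isDomain _
  haveI : IsNoetherianRing B := (GaussNoeth.noeth_fin (A.comap ι) N halg B).1
  have hφW : ∀ w : ↥(A.comap ι), algebraMap B (S24.FF L N) (algebraMap ↥(A.comap ι) B w) =
      algebraMap L (S24.FF L N) (w : L) := by
    intro w
    show algebraMap B (S24.FF L N) (algebraMap (↥(A.comap ι))[X] B (C w)) = _
    rw [← IsScalarTower.algebraMap_apply, halg, Gauss.evF_C]
  have hconst : ∀ w : ↥(A.comap ι),
      S24.CoeffBC.bc ι (modularFunctionFieldFull N)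
        (algebraMap B (S24.FF L N) (algebraMap ↥(A.comap ι) B w)) =
      algebraMap Qb ↥(modularFunctionFieldBar N) (ι (algebraMap ↥(A.comap ι) L w)) := by
    intro w
    rw [hφW, S24.CoeffBC.bc_algebraMap]
    rfl
  have hEXT : ∀ 𝔮 : Ideal B, 𝔮.IsPrime → 𝔮 ≠ ⊥ → algebraMap ↥(A.comap ι) B π ∉ 𝔮 →
      ∃ P : Place Qb ↥(modularFunctionFieldBar N), ∀ y : B,
        S24.CoeffBC.bc ι (modularFunctionFieldFull N) (algebraMap B (S24.FF L N) y) ∈
          P.toValuationSubring ∧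
        (y ∈ 𝔮 ↔ IsValueAt P
          (S24.CoeffBC.bc ι (modularFunctionFieldFull N) (algebraMap B (S24.FF L N) y)) 0) := by
    intro 𝔮 h𝔮 h0 hπ𝔮
    haveI := h𝔮
    refine ExtPlace.exists_place_of_prime_chart N ι (A.comap ι) hπ (algebraMap B (S24.FF L N)) hφ
      (fun w => ⟨algebraMap ↥(A.comap ι) B w, hφW w⟩) 𝔮 h0 ?_
    intro b' hb' hmem
    have : b' = algebraMap ↥(A.comap ι) B π := hφ (by rw [hb', hφW])
    exact hπ𝔮 (this ▸ hmem)
  exact WChartB.chart_congr (N := N) A (W := ↥(A.comap ι)) (B := B) (E := S24.FF L N) (L := L)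
    (algebraMap B (S24.FF L N)) hφ (S24.CoeffBC.bc ι (modularFunctionFieldFull N)) ι hconst
    (fun w => w.2) π hπ (valuation_lt_one_of_irreducible A ι hπ)
    (GaussPrime.prime_C_fin (A.comap ι) N ℓ hℓN hπ halg B)
    (ChartInstSplit.finite_chart_dedekind N hℓ hℓN ι (A.comap ι) hroots π hπ halg B)
    (ChartFrac.frac_fin (A.comap ι) N halg B) hEXT
    (ChartValB.val_fin N A ι halg B) a b ha hb hRAT D hD hDab

/-- **(W) on the cusp chart.** -/
theorem chart_congr_cusp (hℓ : ℓ.Prime) (hℓN : ¬ ℓ ∣ N)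
    (hroots : ∀ x : Qb, (∃ n : ℕ, ¬ ℓ ∣ n ∧ x ^ n = 1) → ∃ b : L, ι b = x)
    (π : ↥(A.comap ι)) (hπ : Irreducible π)
    [Algebra (CuspBase ↥(A.comap ι)) (S24.FF L N)]
    (halg : ∀ p : (↥(A.comap ι))[X], algebraMap (CuspBase ↥(A.comap ι)) (S24.FF L N)
      (algebraMap (↥(A.comap ι))[X] (CuspBase ↥(A.comap ι)) p) = Gauss.evFinf (A.comap ι) N p)
    (B : Type*) [CommRing B] [Algebra (CuspBase ↥(A.comap ι)) B] [Algebra B (S24.FF L N)]
    [IsScalarTower (CuspBase ↥(A.comap ι)) B (S24.FF L N)]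
    [IsIntegralClosure B (CuspBase ↥(A.comap ι)) (S24.FF L N)]
    (a b : B)
    (ha : ¬ algebraMap (CuspBase ↥(A.comap ι)) B
      (algebraMap ↥(A.comap ι) (CuspBase ↥(A.comap ι)) π) ∣ a)
    (hb : ¬ algebraMap (CuspBase ↥(A.comap ι)) B
      (algebraMap ↥(A.comap ι) (CuspBase ↥(A.comap ι)) π) ∣ b)
    (hRAT : ∀ P : Place Qb ↥(modularFunctionFieldBar N),
      0 < P.ord (S24.CoeffBC.bc ι (modularFunctionFieldFull N)
        (algebraMap B (S24.FF L N) (a * b))) →
      (∀ g : S24.FF L N, S24.CoeffBC.bc ι (modularFunctionFieldFull N) g ∈ P.toValuationSubring →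
        ∃ c : L, IsValueAt P (S24.CoeffBC.bc ι (modularFunctionFieldFull N) g) (ι c)) ∧
      (∃ t : S24.FF L N, P.ord (S24.CoeffBC.bc ι (modularFunctionFieldFull N) t) = 1) ∧
      (∀ P' : Place Qb ↥(modularFunctionFieldBar N),
        (∀ g : S24.FF L N, S24.CoeffBC.bc ι (modularFunctionFieldFull N) g ∈ P'.toValuationSubring ↔
          S24.CoeffBC.bc ι (modularFunctionFieldFull N) g ∈ P.toValuationSubring) → P' = P))
    (D : Divisor Qb ↥(modularFunctionFieldBar N)) (hD : D ∈ Centre.centreSubgroup A N)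
    (hDab : ∀ P : Place Qb ↥(modularFunctionFieldBar N),
      D P = P.ord (S24.CoeffBC.bc ι (modularFunctionFieldFull N) (algebraMap B (S24.FF L N) b))
        - P.ord (S24.CoeffBC.bc ι (modularFunctionFieldFull N) (algebraMap B (S24.FF L N) a))) :
    ∃ e e' : B,
      algebraMap (CuspBase ↥(A.comap ι)) B
        (algebraMap ↥(A.comap ι) (CuspBase ↥(A.comap ι)) π) ∣ e * e' - 1 ∧
      algebraMap (CuspBase ↥(A.comap ι)) B
        (algebraMap ↥(A.comap ι) (CuspBase ↥(A.comap ι)) π) ∣ b - e * a := by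
  classical
  haveI : Fact ℓ.Prime := ⟨hℓ⟩
  letI : Algebra ↥(A.comap ι) B :=
    ((algebraMap (CuspBase ↥(A.comap ι)) B).comp
      (algebraMap ↥(A.comap ι) (CuspBase ↥(A.comap ι)))).toAlgebra
  have hφ : Function.Injective (algebraMap B (S24.FF L N)) :=
    IsIntegralClosure.algebraMap_injective B (CuspBase ↥(A.comap ι)) (S24.FF L N)
  haveI : IsDomain B := hφ.isDomain _
  haveI : IsNoetherianRing B := (GaussNoeth.noeth_cusp (A.comap ι) N halg B).1
  have hφW : ∀ w : ↥(A.comap ι), algebraMap B (S24.FF L N) (algebraMap ↥(A.comap ι) B w) =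
      algebraMap L (S24.FF L N) (w : L) := by
    intro w
    show algebraMap B (S24.FF L N) (algebraMap (CuspBase ↥(A.comap ι)) B
      (algebraMap ↥(A.comap ι) (CuspBase ↥(A.comap ι)) w)) = _
    rw [← IsScalarTower.algebraMap_apply]
    have h := halg (C w)
    rw [Gauss.evFinf_C] at h
    rw [← h]
    rfl
  have hconst : ∀ w : ↥(A.comap ι),
      S24.CoeffBC.bc ι (modularFunctionFieldFull N)
        (algebraMap B (S24.FF L N) (algebraMap ↥(A.comap ι) B w)) =
      algebraMap Qb ↥(modularFunctionFieldBar N) (ι (algebraMap ↥(A.comap ι) L w)) := by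
    intro w
    rw [hφW, S24.CoeffBC.bc_algebraMap]
    rfl
  have hEXT : ∀ 𝔮 : Ideal B, 𝔮.IsPrime → 𝔮 ≠ ⊥ → algebraMap ↥(A.comap ι) B π ∉ 𝔮 →
      ∃ P : Place Qb ↥(modularFunctionFieldBar N), ∀ y : B,
        S24.CoeffBC.bc ι (modularFunctionFieldFull N) (algebraMap B (S24.FF L N) y) ∈
          P.toValuationSubring ∧
        (y ∈ 𝔮 ↔ IsValueAt P
          (S24.CoeffBC.bc ι (modularFunctionFieldFull N) (algebraMap B (S24.FF L N) y)) 0) := by
    intro 𝔮 h𝔮 h0 hπ𝔮
    haveI := h𝔮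
    refine ExtPlace.exists_place_of_prime_chart N ι (A.comap ι) hπ (algebraMap B (S24.FF L N)) hφ
      (fun w => ⟨algebraMap ↥(A.comap ι) B w, hφW w⟩) 𝔮 h0 ?_
    intro b' hb' hmem
    have : b' = algebraMap ↥(A.comap ι) B π := hφ (by rw [hb', hφW])
    exact hπ𝔮 (this ▸ hmem)
  exact WChartB.chart_congr (N := N) A (W := ↥(A.comap ι)) (B := B) (E := S24.FF L N) (L := L)
    (algebraMap B (S24.FF L N)) hφ (S24.CoeffBC.bc ι (modularFunctionFieldFull N)) ι hconst
    (fun w => w.2) π hπ (valuation_lt_one_of_irreducible A ι hπ)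
    (GaussPrime.prime_unif_cusp (A.comap ι) N ℓ hℓN hπ halg B)
    (ChartInstSplit.cusp_chart_dedekind_of_closure N hℓ hℓN ι (A.comap ι) hroots π hπ halg B)
    (ChartFrac.frac_cusp (A.comap ι) N halg B) hEXT
    (ChartValB.val_cusp N A ι halg B) a b ha hb hRAT D hD hDab

end Fermat.Agent.S37.WChartPkg
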