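import Mathlib
import Fermat.Agent.S37.TwoStage
import Fermat.Agent.S37.WChartPkg
import Fermat.Agent.S37.LevelDesc
import Fermat.Agent.S37.ChartInstCuspClosure
import Fermat.Agent.S37.TorsionFree
import Fermat.Agent.S37.Centre

/-!
# S37, statement (W): assembly (insurance copy, helper18)

`constReduction`: for a prime `ℓ ∤ N` and a place `A` of `ℚ̄` over `ℓ`, a function whose divisor
lies in the centre subgroup is a constant times a quotient of two integral series with equal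
nonzero reductions.  Two-stage level: the chart fractions are produced at a first level `L₀`, the
zeros of the chart elements are made rational at a second level `L ⊇ L₀`, where the chart
congruences hold.
-/

set_option autoImplicit false
set_option linter.unusedSectionVars false
set_option linter.style.haveILetI false

noncomputable section

namespace Fermat.Agent.S37.WTopC

open Polynomial AlgebraicCurve ModularCurve Fermat.Agent.S37.GaloisValue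
open Fermat.Agent.S18 Fermat.Agent.S18.Gauss Fermat.Agent.S18.Cusp

local notation "Qb" => AlgebraicClosure ℚ

section Stage2

variable (A : ValuationSubring Qb) (N : ℕ) [NeZero N] (ℓ : ℕ) [Fact ℓ.Prime]
  {L₀ L : Type} [Field L₀] [Field L] [Algebra ℚ L₀] [Algebra ℚ L]
  (ι₀ : L₀ →+* Qb) (ι : L →+* Qb) (τ : L₀ →+* L) (hτ : ∀ c, ι (τ c) = ι₀ c)
  [IsDiscreteValuationRing ↥(A.comap ι₀)]
  [CharP (IsLocalRing.ResidueField ↥(A.comap ι₀)) ℓ]
  [IsAlgClosed (IsLocalRing.ResidueField ↥(A.comap ι₀))]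
  [IsDiscreteValuationRing ↥(A.comap ι)]
  [CharP (IsLocalRing.ResidueField ↥(A.comap ι)) ℓ]
  [IsAlgClosed (IsLocalRing.ResidueField ↥(A.comap ι))]

include hτ

/-- Stage 2: stage-1 fractions whose zeros are rational at the level `L` give the conclusion of
`TorsionFree.ConstReduction`. -/
theorem stage2 (hℓN : ¬ ℓ ∣ N)
    (hroots : ∀ x : Qb, (∃ n : ℕ, ¬ ℓ ∣ n ∧ x ^ n = 1) → ∃ b : L, ι b = x)
    {ϖ₀ : ↥(A.comap ι₀)} (hϖ₀ : Irreducible ϖ₀) {ϖ : ↥(A.comap ι)} (hϖ : Irreducible ϖ)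
    -- chart 1, level `L₀`
    [Algebra (↥(A.comap ι₀))[X] (S24.FF L₀ N)]
    (halg₁₀ : algebraMap (↥(A.comap ι₀))[X] (S24.FF L₀ N) = evF (A.comap ι₀) N)
    (B₁₀ : Type*) [CommRing B₁₀] [Algebra (↥(A.comap ι₀))[X] B₁₀]
    [Algebra B₁₀ (S24.FF L₀ N)]
    [IsScalarTower (↥(A.comap ι₀))[X] B₁₀ (S24.FF L₀ N)]
    [IsIntegralClosure B₁₀ (↥(A.comap ι₀))[X] (S24.FF L₀ N)]
    -- chart 2, level `L₀`
    [Algebra (CuspBase ↥(A.comap ι₀)) (S24.FF L₀ N)]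
    (halg₂₀ : ∀ p : (↥(A.comap ι₀))[X], algebraMap (CuspBase ↥(A.comap ι₀))
      (S24.FF L₀ N) (algebraMap (↥(A.comap ι₀))[X] (CuspBase ↥(A.comap ι₀)) p) =
        evFinf (A.comap ι₀) N p)
    (B₂₀ : Type*) [CommRing B₂₀] [Algebra (CuspBase ↥(A.comap ι₀)) B₂₀]
    [Algebra B₂₀ (S24.FF L₀ N)]
    [IsScalarTower (CuspBase ↥(A.comap ι₀)) B₂₀ (S24.FF L₀ N)]
    [IsIntegralClosure B₂₀ (CuspBase ↥(A.comap ι₀)) (S24.FF L₀ N)]
    -- chart 1, level `L`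
    [Algebra (↥(A.comap ι))[X] (S24.FF L N)]
    (halg₁ : algebraMap (↥(A.comap ι))[X] (S24.FF L N) = evF (A.comap ι) N)
    (B₁ : Type*) [CommRing B₁] [Algebra (↥(A.comap ι))[X] B₁]
    [Algebra B₁ (S24.FF L N)]
    [IsScalarTower (↥(A.comap ι))[X] B₁ (S24.FF L N)]
    [IsIntegralClosure B₁ (↥(A.comap ι))[X] (S24.FF L N)]
    -- chart 2, level `L`
    [Algebra (CuspBase ↥(A.comap ι)) (S24.FF L N)]
    (halg₂ : ∀ p : (↥(A.comap ι))[X], algebraMap (CuspBase ↥(A.comap ι))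
      (S24.FF L N) (algebraMap (↥(A.comap ι))[X] (CuspBase ↥(A.comap ι)) p) =
        evFinf (A.comap ι) N p)
    (B₂ : Type*) [CommRing B₂] [Algebra (CuspBase ↥(A.comap ι)) B₂]
    [Algebra B₂ (S24.FF L N)]
    [IsScalarTower (CuspBase ↥(A.comap ι)) B₂ (S24.FF L N)]
    [IsIntegralClosure B₂ (CuspBase ↥(A.comap ι)) (S24.FF L N)]
    -- stage-1 data
    (x₀ : S24.FF L₀ N) (c : L₀) (hc : c ≠ 0) (g : S24.FF L₀ N)
    (hg : (g : LaurentSeries L₀) ∈ contentRing (A.comap ι₀))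
    (hgu : red (A.comap ι₀) ⟨g, hg⟩ ≠ 0)
    (hxg : x₀ = algebraMap L₀ (S24.FF L₀ N) c * g)
    (a₁ b₁ : B₁₀) (ha₁ : ¬ algebraMap (↥(A.comap ι₀))[X] B₁₀ (C ϖ₀) ∣ a₁)
    (hb₁ : ¬ algebraMap (↥(A.comap ι₀))[X] B₁₀ (C ϖ₀) ∣ b₁)
    (hab₁ : algebraMap B₁₀ (S24.FF L₀ N) b₁ = algebraMap B₁₀ (S24.FF L₀ N) a₁ * g)
    (a₂ b₂ : B₂₀)
    (ha₂ : ¬ algebraMap (CuspBase ↥(A.comap ι₀)) B₂₀
      (algebraMap ↥(A.comap ι₀) (CuspBase ↥(A.comap ι₀)) ϖ₀) ∣ a₂)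
    (hb₂ : ¬ algebraMap (CuspBase ↥(A.comap ι₀)) B₂₀
      (algebraMap ↥(A.comap ι₀) (CuspBase ↥(A.comap ι₀)) ϖ₀) ∣ b₂)
    (hab₂ : algebraMap B₂₀ (S24.FF L₀ N) b₂ = algebraMap B₂₀ (S24.FF L₀ N) a₂ * g)
    -- the divisor
    (D : Divisor Qb ↥(modularFunctionFieldBar N)) (hD : D ∈ Centre.centreSubgroup A N)
    (hD₁ : ∀ P : Place Qb ↥(modularFunctionFieldBar N),
      D P = P.ord (S24.CoeffBC.bc ι₀ (modularFunctionFieldFull N)
          (algebraMap B₁₀ (S24.FF L₀ N) b₁))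
        - P.ord (S24.CoeffBC.bc ι₀ (modularFunctionFieldFull N)
          (algebraMap B₁₀ (S24.FF L₀ N) a₁)))
    (hD₂ : ∀ P : Place Qb ↥(modularFunctionFieldBar N),
      D P = P.ord (S24.CoeffBC.bc ι₀ (modularFunctionFieldFull N)
          (algebraMap B₂₀ (S24.FF L₀ N) b₂))
        - P.ord (S24.CoeffBC.bc ι₀ (modularFunctionFieldFull N)
          (algebraMap B₂₀ (S24.FF L₀ N) a₂)))
    -- rationality of the zeros at the level `L`
    (hRAT₁ : ∀ P : Place Qb ↥(modularFunctionFieldBar N),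
      P.ord (S24.CoeffBC.bc ι₀ (modularFunctionFieldFull N)
        (algebraMap B₁₀ (S24.FF L₀ N) (a₁ * b₁))) ≠ 0 →
      (∀ h : S24.FF L N, S24.CoeffBC.bc ι (modularFunctionFieldFull N) h ∈ P.toValuationSubring →
        ∃ c : L, IsValueAt P (S24.CoeffBC.bc ι (modularFunctionFieldFull N) h) (ι c)) ∧
      (∃ t : S24.FF L N, P.ord (S24.CoeffBC.bc ι (modularFunctionFieldFull N) t) = 1) ∧
      (∀ P' : Place Qb ↥(modularFunctionFieldBar N),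
        (∀ h : S24.FF L N, S24.CoeffBC.bc ι (modularFunctionFieldFull N) h ∈ P'.toValuationSubring ↔
          S24.CoeffBC.bc ι (modularFunctionFieldFull N) h ∈ P.toValuationSubring) → P' = P))
    (hRAT₂ : ∀ P : Place Qb ↥(modularFunctionFieldBar N),
      P.ord (S24.CoeffBC.bc ι₀ (modularFunctionFieldFull N)
        (algebraMap B₂₀ (S24.FF L₀ N) (a₂ * b₂))) ≠ 0 →
      (∀ h : S24.FF L N, S24.CoeffBC.bc ι (modularFunctionFieldFull N) h ∈ P.toValuationSubring →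
        ∃ c : L, IsValueAt P (S24.CoeffBC.bc ι (modularFunctionFieldFull N) h) (ι c)) ∧
      (∃ t : S24.FF L N, P.ord (S24.CoeffBC.bc ι (modularFunctionFieldFull N) t) = 1) ∧
      (∀ P' : Place Qb ↥(modularFunctionFieldBar N),
        (∀ h : S24.FF L N, S24.CoeffBC.bc ι (modularFunctionFieldFull N) h ∈ P'.toValuationSubring ↔
          S24.CoeffBC.bc ι (modularFunctionFieldFull N) h ∈ P.toValuationSubring) → P' = P)) :
    ∃ (c' : Qb) (Y₁ Y₂ : LaurentSeries A)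
      (h₁ : Witness.IsMem A (IsLocalRing.residue A) N Y₁)
      (h₂ : Witness.IsMem A (IsLocalRing.residue A) N Y₂),
      c' ≠ 0 ∧ coeffMap (IsLocalRing.residue A) Y₁ = coeffMap (IsLocalRing.residue A) Y₂ ∧
      coeffMap (IsLocalRing.residue A) Y₁ ≠ 0 ∧
      S24.CoeffBC.bc ι₀ (modularFunctionFieldFull N) x₀ =
        algebraMap Qb (modularFunctionFieldBar N) c' *
          (Witness.toBar Y₁ h₁ / Witness.toBar Y₂ h₂) := by
  have hℓ : ℓ.Prime := Fact.out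
  obtain ⟨a₁', b₁', a₂', b₂', ⟨ha₁', hb₁', hna₁, hnb₁⟩, ⟨ha₂', hb₂', hna₂, hnb₂⟩, hfin⟩ :=
    TwoStage.exists_stage2 A N ℓ ι₀ ι τ hτ hℓN hϖ₀ hϖ halg₁₀ B₁₀ halg₂₀ B₂₀ halg₁ B₁ halg₂ B₂
      x₀ c hc g hg hgu hxg a₁ b₁ ha₁ hb₁ hab₁ a₂ b₂ ha₂ hb₂ hab₂
  -- chart 1
  have hDab₁ : ∀ P : Place Qb ↥(modularFunctionFieldBar N),
      D P = P.ord (S24.CoeffBC.bc ι (modularFunctionFieldFull N)
          (algebraMap B₁ (S24.FF L N) b₁'))
        - P.ord (S24.CoeffBC.bc ι (modularFunctionFieldFull N)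
          (algebraMap B₁ (S24.FF L N) a₁')) := by
    intro P
    rw [hb₁', ha₁']
    exact hD₁ P
  have hR₁ : ∀ P : Place Qb ↥(modularFunctionFieldBar N),
      0 < P.ord (S24.CoeffBC.bc ι (modularFunctionFieldFull N)
        (algebraMap B₁ (S24.FF L N) (a₁' * b₁'))) →
      (∀ h : S24.FF L N, S24.CoeffBC.bc ι (modularFunctionFieldFull N) h ∈ P.toValuationSubring →
        ∃ c : L, IsValueAt P (S24.CoeffBC.bc ι (modularFunctionFieldFull N) h) (ι c)) ∧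
      (∃ t : S24.FF L N, P.ord (S24.CoeffBC.bc ι (modularFunctionFieldFull N) t) = 1) ∧
      (∀ P' : Place Qb ↥(modularFunctionFieldBar N),
        (∀ h : S24.FF L N, S24.CoeffBC.bc ι (modularFunctionFieldFull N) h ∈ P'.toValuationSubring ↔
          S24.CoeffBC.bc ι (modularFunctionFieldFull N) h ∈ P.toValuationSubring) → P' = P) := by
    intro P hP
    refine hRAT₁ P ?_
    rw [map_mul, map_mul, ha₁', hb₁', ← map_mul, ← map_mul] at hP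
    exact hP.ne'
  obtain ⟨e₁, -, -, he₁⟩ := WChartPkg.chart_congr_fin N A ι hℓ hℓN hroots ϖ hϖ halg₁ B₁
    a₁' b₁' hna₁ hnb₁ hR₁ D hD hDab₁
  -- chart 2
  have hDab₂ : ∀ P : Place Qb ↥(modularFunctionFieldBar N),
      D P = P.ord (S24.CoeffBC.bc ι (modularFunctionFieldFull N)
          (algebraMap B₂ (S24.FF L N) b₂'))
        - P.ord (S24.CoeffBC.bc ι (modularFunctionFieldFull N)
          (algebraMap B₂ (S24.FF L N) a₂')) := by
    intro P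
    rw [hb₂', ha₂']
    exact hD₂ P
  have hR₂ : ∀ P : Place Qb ↥(modularFunctionFieldBar N),
      0 < P.ord (S24.CoeffBC.bc ι (modularFunctionFieldFull N)
        (algebraMap B₂ (S24.FF L N) (a₂' * b₂'))) →
      (∀ h : S24.FF L N, S24.CoeffBC.bc ι (modularFunctionFieldFull N) h ∈ P.toValuationSubring →
        ∃ c : L, IsValueAt P (S24.CoeffBC.bc ι (modularFunctionFieldFull N) h) (ι c)) ∧
      (∃ t : S24.FF L N, P.ord (S24.CoeffBC.bc ι (modularFunctionFieldFull N) t) = 1) ∧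
      (∀ P' : Place Qb ↥(modularFunctionFieldBar N),
        (∀ h : S24.FF L N, S24.CoeffBC.bc ι (modularFunctionFieldFull N) h ∈ P'.toValuationSubring ↔
          S24.CoeffBC.bc ι (modularFunctionFieldFull N) h ∈ P.toValuationSubring) → P' = P) := by
    intro P hP
    refine hRAT₂ P ?_
    rw [map_mul, map_mul, ha₂', hb₂', ← map_mul, ← map_mul] at hP
    exact hP.ne'
  obtain ⟨e₂, -, -, he₂⟩ := WChartPkg.chart_congr_cusp N A ι hℓ hℓN hroots ϖ hϖ halg₂ B₂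
    a₂' b₂' hna₂ hnb₂ hR₂ D hD hDab₂
  exact hfin e₁ e₂ he₁ he₂

end Stage2

section Stage1

variable (A : ValuationSubring Qb) (N : ℕ) [NeZero N] (ℓ : ℕ) [Fact ℓ.Prime]
  {L₀ : Type} [Field L₀] [Algebra ℚ L₀] (ι₀ : L₀ →+* Qb)
  [IsDiscreteValuationRing ↥(A.comap ι₀)]
  [CharP (IsLocalRing.ResidueField ↥(A.comap ι₀)) ℓ]
  [IsAlgClosed (IsLocalRing.ResidueField ↥(A.comap ι₀))]

/-- Stage 1: at a level `L₀` over which `x₀` is defined and above which arbitrarily large levels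
exist, the conclusion of `TorsionFree.ConstReduction` holds for `bc ι₀ x₀`. -/
theorem stage1 (hℓN : ¬ ℓ ∣ N) (S₀ : Finset Qb)
    (hnext : ∀ S : Finset Qb, ∃ (L : Type) (_ : Field L) (_ : Algebra ℚ L) (ι : L →+* Qb)
      (τ : L₀ →+* L), (∀ c, ι (τ c) = ι₀ c) ∧ LevelChange.IsLevel A ℓ (S₀ ∪ S) ι)
    -- chart 1, level `L₀`
    [Algebra (↥(A.comap ι₀))[X] (S24.FF L₀ N)]
    (halg₁₀ : algebraMap (↥(A.comap ι₀))[X] (S24.FF L₀ N) = evF (A.comap ι₀) N)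
    (B₁₀ : Type*) [CommRing B₁₀] [Algebra (↥(A.comap ι₀))[X] B₁₀]
    [Algebra B₁₀ (S24.FF L₀ N)]
    [IsScalarTower (↥(A.comap ι₀))[X] B₁₀ (S24.FF L₀ N)]
    [IsIntegralClosure B₁₀ (↥(A.comap ι₀))[X] (S24.FF L₀ N)]
    -- chart 2, level `L₀`
    [Algebra (CuspBase ↥(A.comap ι₀)) (S24.FF L₀ N)]
    (halg₂₀ : ∀ p : (↥(A.comap ι₀))[X], algebraMap (CuspBase ↥(A.comap ι₀))
      (S24.FF L₀ N) (algebraMap (↥(A.comap ι₀))[X] (CuspBase ↥(A.comap ι₀)) p) =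
        evFinf (A.comap ι₀) N p)
    (B₂₀ : Type*) [CommRing B₂₀] [Algebra (CuspBase ↥(A.comap ι₀)) B₂₀]
    [Algebra B₂₀ (S24.FF L₀ N)]
    [IsScalarTower (CuspBase ↥(A.comap ι₀)) B₂₀ (S24.FF L₀ N)]
    [IsIntegralClosure B₂₀ (CuspBase ↥(A.comap ι₀)) (S24.FF L₀ N)]
    (x₀ : S24.FF L₀ N) (hx₀ : x₀ ≠ 0)
    (D : Divisor Qb ↥(modularFunctionFieldBar N)) (hD : D ∈ Centre.centreSubgroup A N)
    (hdiv : ∀ v : Place Qb ↥(modularFunctionFieldBar N),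
      D v = v.ord (S24.CoeffBC.bc ι₀ (modularFunctionFieldFull N) x₀)) :
    ∃ (c' : Qb) (Y₁ Y₂ : LaurentSeries A)
      (h₁ : Witness.IsMem A (IsLocalRing.residue A) N Y₁)
      (h₂ : Witness.IsMem A (IsLocalRing.residue A) N Y₂),
      c' ≠ 0 ∧ coeffMap (IsLocalRing.residue A) Y₁ = coeffMap (IsLocalRing.residue A) Y₂ ∧
      coeffMap (IsLocalRing.residue A) Y₁ ≠ 0 ∧
      S24.CoeffBC.bc ι₀ (modularFunctionFieldFull N) x₀ =
        algebraMap Qb (modularFunctionFieldBar N) c' *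
          (Witness.toBar Y₁ h₁ / Witness.toBar Y₂ h₂) := by
  obtain ⟨ϖ₀, hϖ₀⟩ := IsDiscreteValuationRing.exists_irreducible ↥(A.comap ι₀)
  obtain ⟨c, g, hg, hc, hgu, hxg, ⟨a₁, b₁, ha₁, hb₁, hab₁, -⟩, ⟨a₂, b₂, ha₂, hb₂, hab₂, -⟩⟩ :=
    GaussRed.exists_fractions (A.comap ι₀) N ℓ hℓN hϖ₀ halg₁₀ B₁₀ halg₂₀ B₂₀ x₀ hx₀
  -- nonvanishing
  have hψ : Function.Injective (S24.CoeffBC.bc ι₀ (modularFunctionFieldFull N)) :=
    RingHom.injective _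
  have hφ₁ : Function.Injective (algebraMap B₁₀ (S24.FF L₀ N)) :=
    IsIntegralClosure.algebraMap_injective B₁₀ (↥(A.comap ι₀))[X] (S24.FF L₀ N)
  have hφ₂ : Function.Injective (algebraMap B₂₀ (S24.FF L₀ N)) :=
    IsIntegralClosure.algebraMap_injective B₂₀ (CuspBase ↥(A.comap ι₀)) (S24.FF L₀ N)
  have hg0 : g ≠ 0 := by
    rintro rfl
    exact hx₀ (by rw [hxg, mul_zero])
  have ha₁0 : a₁ ≠ 0 := by
    rintro rfl
    exact ha₁ (dvd_zero _)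
  have hb₁0 : b₁ ≠ 0 := by
    rintro rfl
    exact hb₁ (dvd_zero _)
  have ha₂0 : a₂ ≠ 0 := by
    rintro rfl
    exact ha₂ (dvd_zero _)
  have hb₂0 : b₂ ≠ 0 := by
    rintro rfl
    exact hb₂ (dvd_zero _)
  have hψg : S24.CoeffBC.bc ι₀ (modularFunctionFieldFull N) g ≠ 0 := fun h =>
    hg0 (hψ (by rw [h, map_zero]))
  have hψa₁ : S24.CoeffBC.bc ι₀ (modularFunctionFieldFull N)
      (algebraMap B₁₀ (S24.FF L₀ N) a₁) ≠ 0 := fun h =>
    ha₁0 (hφ₁ (hψ (by rw [h, map_zero, map_zero])))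
  have hψa₂ : S24.CoeffBC.bc ι₀ (modularFunctionFieldFull N)
      (algebraMap B₂₀ (S24.FF L₀ N) a₂) ≠ 0 := fun h =>
    ha₂0 (hφ₂ (hψ (by rw [h, map_zero, map_zero])))
  have hφa₁ : algebraMap B₁₀ (S24.FF L₀ N) a₁ ≠ 0 := fun h => ha₁0 (hφ₁ (by rw [h, map_zero]))
  have hφb₁ : algebraMap B₁₀ (S24.FF L₀ N) b₁ ≠ 0 := fun h => hb₁0 (hφ₁ (by rw [h, map_zero]))
  have hφa₂ : algebraMap B₂₀ (S24.FF L₀ N) a₂ ≠ 0 := fun h => ha₂0 (hφ₂ (by rw [h, map_zero]))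
  have hφb₂ : algebraMap B₂₀ (S24.FF L₀ N) b₂ ≠ 0 := fun h => hb₂0 (hφ₂ (by rw [h, map_zero]))
  have hψab₁ : S24.CoeffBC.bc ι₀ (modularFunctionFieldFull N)
      (algebraMap B₁₀ (S24.FF L₀ N) (a₁ * b₁)) ≠ 0 := fun h =>
    mul_ne_zero hφa₁ hφb₁ (hψ (by rw [← map_mul, h, map_zero]))
  have hψab₂ : S24.CoeffBC.bc ι₀ (modularFunctionFieldFull N)
      (algebraMap B₂₀ (S24.FF L₀ N) (a₂ * b₂)) ≠ 0 := fun h =>
    mul_ne_zero hφa₂ hφb₂ (hψ (by rw [← map_mul, h, map_zero]))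
  -- the divisor of `g`
  have hDg : ∀ P : Place Qb ↥(modularFunctionFieldBar N),
      D P = P.ord (S24.CoeffBC.bc ι₀ (modularFunctionFieldFull N) g) := by
    intro P
    have hc' : algebraMap Qb ↥(modularFunctionFieldBar N) (ι₀ c) ≠ 0 := by
      rw [Ne, map_eq_zero, map_eq_zero]
      exact hc
    rw [hdiv P, hxg, map_mul, S24.CoeffBC.bc_algebraMap]
    exact (P.ord_mul hc' hψg).trans (by rw [S24.Hurwitz.ord_algebraMap, zero_add])
  have hD₁ : ∀ P : Place Qb ↥(modularFunctionFieldBar N),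
      D P = P.ord (S24.CoeffBC.bc ι₀ (modularFunctionFieldFull N)
          (algebraMap B₁₀ (S24.FF L₀ N) b₁))
        - P.ord (S24.CoeffBC.bc ι₀ (modularFunctionFieldFull N)
          (algebraMap B₁₀ (S24.FF L₀ N) a₁)) := by
    intro P
    rw [hab₁, map_mul, P.ord_mul hψa₁ hψg, hDg P]
    ring
  have hD₂ : ∀ P : Place Qb ↥(modularFunctionFieldBar N),
      D P = P.ord (S24.CoeffBC.bc ι₀ (modularFunctionFieldFull N)
          (algebraMap B₂₀ (S24.FF L₀ N) b₂))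
        - P.ord (S24.CoeffBC.bc ι₀ (modularFunctionFieldFull N)
          (algebraMap B₂₀ (S24.FF L₀ N) a₂)) := by
    intro P
    rw [hab₂, map_mul, P.ord_mul hψa₂ hψg, hDg P]
    ring
  -- stage 2 level
  have hE₁ := LevelDesc.eventually_rational_of_ord_ne_zero N _ hψab₁
  have hE₂ := LevelDesc.eventually_rational_of_ord_ne_zero N _ hψab₂
  obtain ⟨S, hS⟩ := hE₁.and hE₂
  obtain ⟨L, _, _, ι, τ, hτ, hlev⟩ := hnext S
  obtain ⟨hSL, hroots, hDVR, hAC, -, hCh, -, -⟩ := hlev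
  haveI := hDVR
  haveI := hAC
  haveI := hCh
  obtain ⟨hR₁, hR₂⟩ := hS L ι (fun a ha => hSL a (Finset.mem_union_right _ ha))
  obtain ⟨ϖ, hϖ⟩ := IsDiscreteValuationRing.exists_irreducible ↥(A.comap ι)
  letI : Algebra (↥(A.comap ι))[X] (S24.FF L N) := (evF (A.comap ι) N).toAlgebra
  letI : Algebra (CuspBase ↥(A.comap ι)) (S24.FF L N) :=
    (Cusp.baseLift ↥(A.comap ι) (S24.jBC L N)⁻¹
      (FFKit.one_sub_jBC_inv_ne_zero ι N)).toRingHom.toAlgebra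
  exact stage2 A N ℓ ι₀ ι τ hτ hℓN hroots hϖ₀ hϖ halg₁₀ B₁₀ halg₂₀ B₂₀ rfl
    (integralClosure (↥(A.comap ι))[X] (S24.FF L N))
    (fun p => ChartInstCuspClosure.baseLift_halg N ι (A.comap ι) p)
    (integralClosure (CuspBase ↥(A.comap ι)) (S24.FF L N))
    x₀ c hc g hg hgu hxg a₁ b₁ ha₁ hb₁ hab₁ a₂ b₂ ha₂ hb₂ hab₂ D hD hD₁ hD₂ hR₁ hR₂

end Stage1

/-- **Statement (W)** for the centre subgroup. -/
theorem constReduction (N : ℕ) [NeZero N] {ℓ : ℕ} (hℓ : ℓ.Prime) (hℓN : ¬ ℓ ∣ N)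
    (A : ValuationSubring Qb) (hA : A.LiesOverPrime ℓ) :
    TorsionFree.ConstReduction A N (Centre.centreSubgroup A N) := by
  intro f hf D hD hdiv
  haveI : Fact ℓ.Prime := ⟨hℓ⟩
  obtain ⟨S₀, hS₀⟩ := LevelDesc.eventually_exists_bc N f
  obtain ⟨L₀, _, _, ι₀, hlev₀, hnext⟩ := LevelChange.exists_base_pair A hℓ hA S₀
  obtain ⟨hS₀L, -, hDVR, hAC, -, hCh, -, -⟩ := hlev₀
  haveI := hDVR
  haveI := hAC
  haveI := hCh
  obtain ⟨x₀, hx₀⟩ := hS₀ L₀ ι₀ hS₀L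
  have hx₀0 : x₀ ≠ 0 := by
    rintro rfl
    exact hf (by rw [← hx₀, map_zero])
  letI : Algebra (↥(A.comap ι₀))[X] (S24.FF L₀ N) := (evF (A.comap ι₀) N).toAlgebra
  letI : Algebra (CuspBase ↥(A.comap ι₀)) (S24.FF L₀ N) :=
    (Cusp.baseLift ↥(A.comap ι₀) (S24.jBC L₀ N)⁻¹
      (FFKit.one_sub_jBC_inv_ne_zero ι₀ N)).toRingHom.toAlgebra
  have key := stage1 A N ℓ ι₀ hℓN S₀ hnext rfl
    (integralClosure (↥(A.comap ι₀))[X] (S24.FF L₀ N))
    (fun p => ChartInstCuspClosure.baseLift_halg N ι₀ (A.comap ι₀) p)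
    (integralClosure (CuspBase ↥(A.comap ι₀)) (S24.FF L₀ N))
    x₀ hx₀0 D hD (fun v => by rw [hx₀]; exact hdiv v)
  rw [hx₀] at key
  exact key

end Fermat.Agent.S37.WTopC
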