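import Mathlib
import Fermat.Prelude.Def_AlgebraicCurve_DivisorClassGroup
import Fermat.Agent.S24.Places
import Fermat.Agent.S37.GaloisValue
import Fermat.Agent.S37.ChartUnit

/-!
# S37, package (W): the unit congruence on a chart from a balanced divisor

`K` is an algebraically closed field with a valuation ring `A`, `F` a function field over `K`,
`L ⊆ K` a subfield (`ι : L →+* K`) with valuation ring `W = A ∩ L`, `B` a chart ring over `W`
mapping to `F` by `ψ`.  A place `P` of `F` is *in the class of* a maximal ideal `𝔪` of `B` if all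
chart functions have values in `A` at `P` and the functions with value in `𝔪_A` are exactly
those of `𝔪`.

`chart_congr`: if the divisor of `b / a` is a sum of differences `P - P'` of places with the same
centre, then `b ≡ e * a mod π` for an `e ∈ B` which is a unit modulo `π`.
-/

set_option autoImplicit false
set_option linter.unusedSectionVars false

namespace Fermat.Agent.S37.WChart

open AlgebraicCurve Fermat.Agent.S37.GaloisValue Fermat.Agent.S37.ChartUnit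

section Ord

variable {K F : Type*} [Field K] [Field F] [Algebra K F]

/-- a function with a nonzero value has order zero -/
theorem ord_eq_zero_of_isValueAt {P : Place K F} {f : F} {c : K} (h : IsValueAt P f c)
    (hc : c ≠ 0) : P.ord f = 0 := by
  have hmem : f ∈ P.toValuationSubring := h.mem
  have hc1 : P.toValuationSubring.valuation (algebraMap K F c) = 1 := by
    have h1 : P.toValuationSubring.valuation (algebraMap K F c) ≤ 1 :=
      (P.toValuationSubring.valuation_le_one_iff _).mpr (P.algebraMap_mem' c)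
    have h2 : P.toValuationSubring.valuation (algebraMap K F c⁻¹) ≤ 1 :=
      (P.toValuationSubring.valuation_le_one_iff _).mpr (P.algebraMap_mem' c⁻¹)
    have h3 : P.toValuationSubring.valuation (algebraMap K F c)
        * P.toValuationSubring.valuation (algebraMap K F c⁻¹) = 1 := by
      rw [← map_mul, ← map_mul, mul_inv_cancel₀ hc, map_one, map_one]
    exact le_antisymm h1 (by
      calc (1 : _) = P.toValuationSubring.valuation (algebraMap K F c)
            * P.toValuationSubring.valuation (algebraMap K F c⁻¹) := h3.symm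
        _ ≤ P.toValuationSubring.valuation (algebraMap K F c) * 1 := by gcongr
        _ = _ := mul_one _)
  have hf1 : P.toValuationSubring.valuation f = 1 := by
    have h1 : P.toValuationSubring.valuation (f - algebraMap K F c) < 1 := (isValueAt_iff _ _ _).mp h
    have h2 : f = algebraMap K F c + (f - algebraMap K F c) := by ring
    have h3 : P.toValuationSubring.valuation (f - algebraMap K F c)
        < P.toValuationSubring.valuation (algebraMap K F c) := by rw [hc1]; exact h1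
    rw [h2, Valuation.map_add_eq_of_lt_left (v := P.toValuationSubring.valuation) h3, hc1]
  have hu : IsUnit (⟨f, hmem⟩ : P.toValuationSubring) :=
    (P.toValuationSubring.valuation_eq_one_iff ⟨f, hmem⟩).mpr hf1
  have := P.ord_coe_unit hu.unit
  rwa [IsUnit.unit_spec] at this

/-- a nonzero function with value zero has positive order -/
theorem ord_pos_of_isValueAt_zero {P : Place K F} {f : F} (h : IsValueAt P f 0) (hf : f ≠ 0) :
    0 < P.ord f := by
  have hmem : f ∈ P.toValuationSubring := h.mem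
  have h1 : f ∈ P.toValuationSubring.nonunits := by
    have := h
    unfold IsValueAt at this
    rwa [map_zero, sub_zero] at this
  have h2 : (⟨f, hmem⟩ : P.toValuationSubring) ∈ IsLocalRing.maximalIdeal P.toValuationSubring :=
    ValuationSubring.coe_mem_nonunits_iff.mp h1
  exact (Fermat.Agent.S24.Places.ord_pos_iff_mem_maximalIdeal P ⟨f, hmem⟩
    (fun h0 => hf (congrArg Subtype.val h0))).mpr h2

/-- a nonzero function of the valuation ring has nonnegative order -/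
theorem ord_nonneg_of_mem {P : Place K F} {f : F} (h : f ∈ P.toValuationSubring) (hf : f ≠ 0) :
    0 ≤ P.ord f :=
  (Fermat.Agent.S24.Places.ord_nonneg_iff_mem P hf).mpr h

theorem ord_pow (P : Place K F) (f : F) (k : ℕ) : P.ord (f ^ k) = k * P.ord f := by
  have := P.ord_zpow f (k : ℤ)
  rwa [zpow_natCast] at this

end Ord

section Chi

variable {α : Type*}

open Classical in
/-- a class function which is constant on related points kills the differences of related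
points -/
theorem sum_class_eq_zero (C : α → Prop) (Same : α → α → Prop)
    (hC : ∀ P P', Same P P' → (C P ↔ C P'))
    (D : α →₀ ℤ)
    (hD : D ∈ AddSubgroup.closure {D : α →₀ ℤ | ∃ P P', Same P P' ∧
      D = Finsupp.single P 1 - Finsupp.single P' 1})
    (T : Finset α) (hT : D.support ⊆ T) :
    ∑ P ∈ T, (if C P then D P else 0) = 0 := by
  let χ : (α →₀ ℤ) →+ ℤ :=
    Finsupp.liftAddHom (fun P => if C P then AddMonoidHom.id ℤ else 0)
  have hχ : ∀ E : α →₀ ℤ, E ∈ AddSubgroup.closure {D : α →₀ ℤ | ∃ P P', Same P P' ∧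
      D = Finsupp.single P 1 - Finsupp.single P' 1} → χ E = 0 := by
    intro E hE
    induction hE using AddSubgroup.closure_induction with
    | mem x hx =>
      obtain ⟨P, P', h, rfl⟩ := hx
      simp only [χ, map_sub, Finsupp.liftAddHom_apply_single]
      by_cases h1 : C P
      · have h2 := (hC P P' h).mp h1
        simp [h1, h2]
      · have h2 : ¬ C P' := fun h2 => h1 ((hC P P' h).mpr h2)
        simp [h1, h2]
    | zero => exact map_zero χ
    | add x y _ _ hx hy => rw [map_add, hx, hy, add_zero]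
    | neg x _ hx => rw [map_neg, hx, neg_zero]
  have h1 : χ D = ∑ P ∈ T, (if C P then D P else 0) := by
    show (Finsupp.liftAddHom _) D = _
    rw [Finsupp.liftAddHom_apply, Finsupp.sum_of_support_subset D hT]
    · refine Finset.sum_congr rfl fun P _ => ?_
      split_ifs <;> simp
    · intro P _
      simp
  rw [← h1, hχ D hD]

end Chi

section Prime

variable {B : Type*} [CommRing B] [IsDomain B]

/-- a prime ideal through `t` inside `𝔪` avoiding the prime element `p` -/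
theorem exists_prime_through {p t : B} (hp : Prime p) (𝔪 : Ideal B) [h𝔪 : 𝔪.IsMaximal]
    (ht𝔪 : t ∈ 𝔪) (htp : ¬ p ∣ t) :
    ∃ 𝔮 : Ideal B, 𝔮.IsPrime ∧ t ∈ 𝔮 ∧ 𝔮 ≤ 𝔪 ∧ p ∉ 𝔮 := by
  have key : ∀ (n : ℕ) (c s : B), s ∉ 𝔪 → t * c ≠ s * p ^ n := by
    intro n
    induction n with
    | zero =>
      intro c s hs h
      rw [pow_zero, mul_one] at h
      exact hs (h ▸ 𝔪.mul_mem_right _ ht𝔪)
    | succ n ih =>
      intro c s hs h
      have h1 : p ∣ t * c := ⟨s * p ^ n, by rw [h]; ring⟩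
      obtain ⟨c', rfl⟩ := (hp.dvd_or_dvd h1).resolve_left htp
      refine ih c' s hs (mul_left_cancel₀ hp.ne_zero ?_)
      rw [pow_succ] at h
      linear_combination h
  let S : Submonoid B := 𝔪.primeCompl ⊔ Submonoid.powers p
  have hdisj : Disjoint ((Ideal.span {t} : Ideal B) : Set B) (S : Set B) := by
    rw [Set.disjoint_left]
    intro x hx hxS
    obtain ⟨c, rfl⟩ := Ideal.mem_span_singleton'.mp hx
    obtain ⟨s, hs, z, ⟨n, rfl⟩, hsz⟩ := Submonoid.mem_sup.mp hxS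
    exact key n c s hs (by rw [hsz]; ring)
  obtain ⟨𝔮, h𝔮, hle, hdisj'⟩ := Ideal.exists_le_prime_disjoint _ S hdisj
  refine ⟨𝔮, h𝔮, hle (Ideal.mem_span_singleton_self t), ?_, ?_⟩
  · intro x hx
    by_contra hx𝔪
    exact Set.disjoint_left.mp hdisj' hx (Submonoid.mem_sup_left hx𝔪)
  · intro hp𝔮
    exact Set.disjoint_left.mp hdisj' hp𝔮 (Submonoid.mem_sup_right (Submonoid.mem_powers p))

end Prime

section Core

variable {K F L : Type*} [Field K] [Field F] [Algebra K F] [Field L]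
  (A : ValuationSubring K) (ι : L →+* K) (W : ValuationSubring L)
  {B : Type*} [CommRing B] [IsDomain B] [IsNoetherianRing B] [Algebra W B]
  (ψ : B →+* F)

/-- all chart functions have values in `A` at `P` -/
def Pl (P : Place K F) : Prop := ∀ y : B, ∃ c : K, c ∈ A ∧ IsValueAt P (ψ y) c

/-- the centre of `P` on the chart is `𝔪` -/
def CentreAt (𝔪 : Ideal B) (P : Place K F) : Prop :=
  ∀ y : B, y ∈ 𝔪 ↔ ∃ c : K, A.valuation c < 1 ∧ IsValueAt P (ψ y) c

/-- `P` is an `A`-integral point of the chart with centre `𝔪` -/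
def InClass (𝔪 : Ideal B) (P : Place K F) : Prop := Pl A ψ P ∧ CentreAt A ψ 𝔪 P

/-- the chart is compatible with the relation `Same` on places: related places are
simultaneously integral points of the chart, with congruent values of the chart functions -/
def ValCompat (Same : Place K F → Place K F → Prop) : Prop :=
  ∀ P P', Same P P' → (Pl A ψ P ↔ Pl A ψ P') ∧
    (Pl A ψ P → Pl A ψ P' → ∀ (y : B) (c c' : K), IsValueAt P (ψ y) c →
      IsValueAt P' (ψ y) c' → A.valuation (c - c') < 1)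

/-- the place `P` is rational and unramified over the fraction field of the chart, and is the
only place with its restriction -/
def RatAtB (P : Place K F) : Prop :=
  (∀ y : B, ψ y ∈ P.toValuationSubring → ∃ c : L, IsValueAt P (ψ y) (ι c)) ∧
  (∃ y₁ y₂ : B, y₁ ≠ 0 ∧ y₂ ≠ 0 ∧ P.ord (ψ y₁) - P.ord (ψ y₂) = 1) ∧
  (∀ P' : Place K F, (∀ y₁ y₂ : B, y₁ ≠ 0 → y₂ ≠ 0 →
      (P'.ord (ψ y₂) ≤ P'.ord (ψ y₁) ↔ P.ord (ψ y₂) ≤ P.ord (ψ y₁))) → P' = P)

theorem val_lt_one_of_sub {c c' : K} (hc : A.valuation c < 1) (h : A.valuation (c - c') < 1) :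
    A.valuation c' < 1 := by
  have e : c' = c - (c - c') := by ring
  rw [e]
  exact lt_of_le_of_lt (Valuation.map_sub _ _ _) (max_lt hc h)

/-- the class of a maximal ideal is a union of classes of `Same` -/
theorem inClass_congr {Same : Place K F → Place K F → Prop} (hval : ValCompat A ψ Same)
    (𝔪 : Ideal B) {P P' : Place K F} (h : Same P P') :
    InClass A ψ 𝔪 P ↔ InClass A ψ 𝔪 P' := by
  obtain ⟨hiff, hcong⟩ := hval P P' h
  constructor
  · rintro ⟨hPl, hC⟩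
    have hPl' := hiff.mp hPl
    refine ⟨hPl', fun y => ?_⟩
    rw [hC y]
    constructor
    · rintro ⟨c, hc, hcv⟩
      obtain ⟨c', -, hc'v⟩ := hPl' y
      exact ⟨c', val_lt_one_of_sub A hc (hcong hPl hPl' y c c' hcv hc'v), hc'v⟩
    · rintro ⟨c', hc', hc'v⟩
      obtain ⟨c, -, hcv⟩ := hPl y
      have h1 := hcong hPl hPl' y c c' hcv hc'v
      have h2 : A.valuation (c' - c) < 1 := by
        rw [← Valuation.map_neg, neg_sub]
        exact h1
      exact ⟨c, val_lt_one_of_sub A hc' h2, hcv⟩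
  · rintro ⟨hPl', hC'⟩
    have hPl := hiff.mpr hPl'
    refine ⟨hPl, fun y => ?_⟩
    rw [hC' y]
    constructor
    · rintro ⟨c', hc', hc'v⟩
      obtain ⟨c, -, hcv⟩ := hPl y
      have h1 := hcong hPl hPl' y c c' hcv hc'v
      have h2 : A.valuation (c' - c) < 1 := by
        rw [← Valuation.map_neg, neg_sub]
        exact h1
      exact ⟨c, val_lt_one_of_sub A hc' h2, hcv⟩
    · rintro ⟨c, hc, hcv⟩
      obtain ⟨c', -, hc'v⟩ := hPl' y
      exact ⟨c', val_lt_one_of_sub A hc (hcong hPl hPl' y c c' hcv hc'v), hc'v⟩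

/-- the elements of `W` of small image are the non-units -/
theorem val_lt_one_iff_not_isUnit (hWA : ∀ x : L, x ∈ W ↔ ι x ∈ A) (w : W) :
    A.valuation (ι w) < 1 ↔ ¬ IsUnit w := by
  constructor
  · intro hlt hu
    obtain ⟨w', hw'⟩ := isUnit_iff_exists_inv.mp hu
    have h1 : ι (w : L) * ι (w' : L) = 1 := by
      rw [← map_mul]
      have := congrArg Subtype.val hw'
      rw [MulMemClass.coe_mul, OneMemClass.coe_one] at this
      rw [this, map_one]
    have h2 : A.valuation (ι (w' : L)) ≤ 1 :=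
      (A.valuation_le_one_iff _).mpr ((hWA _).mp w'.2)
    have h3 := congrArg A.valuation h1
    rw [map_mul, map_one] at h3
    have h4 : A.valuation (ι (w : L)) * A.valuation (ι (w' : L)) < 1 := by
      calc A.valuation (ι (w : L)) * A.valuation (ι (w' : L))
          ≤ A.valuation (ι (w : L)) * 1 := by gcongr
        _ = A.valuation (ι (w : L)) := mul_one _
        _ < 1 := hlt
    exact absurd h3 h4.ne
  · intro hnu
    by_contra hge
    have hle : A.valuation (ι (w : L)) ≤ 1 :=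
      (A.valuation_le_one_iff _).mpr ((hWA _).mp w.2)
    have heq : A.valuation (ι (w : L)) = 1 := le_antisymm hle (not_lt.mp hge)
    have hne : ι (w : L) ≠ 0 := by
      intro h0
      rw [h0, map_zero] at heq
      exact zero_ne_one heq
    have hw0 : (w : L) ≠ 0 := fun h0 => hne (by rw [h0, map_zero])
    have hinv : (w : L)⁻¹ ∈ W := by
      rw [hWA, map_inv₀, ← A.valuation_le_one_iff, map_inv₀, heq, inv_one]
    exact hnu (isUnit_iff_exists_inv.mpr ⟨⟨(w : L)⁻¹, hinv⟩, Subtype.ext (by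
      rw [MulMemClass.coe_mul, OneMemClass.coe_one]
      exact mul_inv_cancel₀ hw0)⟩)

theorem isValueAt_algebraMap_W (hψW : ∀ w : W, ψ (algebraMap W B w) = algebraMap K F (ι w))
    (P : Place K F) (w : W) : IsValueAt P (ψ (algebraMap W B w)) (ι w) := by
  rw [hψW]
  exact isValueAt_algebraMap P _

theorem isValueAt_sub_iff (hψW : ∀ w : W, ψ (algebraMap W B w) = algebraMap K F (ι w))
    (P : Place K F) (y : B) (w : W) :
    IsValueAt P (ψ (y - algebraMap W B w)) 0 ↔ IsValueAt P (ψ y) (ι w) := by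
  unfold IsValueAt
  rw [map_sub, hψW, map_zero, sub_zero]

theorem isValueAt_zero_mul {P : Place K F} (hP : Pl A ψ P) {t : B} (ht : IsValueAt P (ψ t) 0)
    (c : B) : IsValueAt P (ψ (t * c)) 0 := by
  obtain ⟨c', -, hc'⟩ := hP c
  have := ht.mul hc'
  rwa [zero_mul, ← map_mul] at this

theorem exists_value_ne_zero {𝔪 : Ideal B} {P : Place K F} (hP : InClass A ψ 𝔪 P) {s : B}
    (hs : s ∉ 𝔪) : ∃ c : K, c ≠ 0 ∧ IsValueAt P (ψ s) c := by
  obtain ⟨c, -, hc⟩ := hP.1 s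
  refine ⟨c, ?_, hc⟩
  rintro rfl
  exact hs ((hP.2 s).mpr ⟨0, by rw [map_zero]; exact zero_lt_one, hc⟩)

theorem ord_eq_zero_of_notMem {𝔪 : Ideal B} {P : Place K F} (hP : InClass A ψ 𝔪 P) {s : B}
    (hs : s ∉ 𝔪) : P.ord (ψ s) = 0 := by
  obtain ⟨c, hc0, hc⟩ := exists_value_ne_zero A ψ hP hs
  exact ord_eq_zero_of_isValueAt hc hc0

theorem isValueAt_zero_of_mul {𝔪 : Ideal B} {P : Place K F} (hP : InClass A ψ 𝔪 P) {s : B}
    (hs : s ∉ 𝔪) {y : B} (h : IsValueAt P (ψ (s * y)) 0) : IsValueAt P (ψ y) 0 := by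
  obtain ⟨c, hc0, hc⟩ := exists_value_ne_zero A ψ hP hs
  obtain ⟨cy, -, hcy⟩ := hP.1 y
  have h1 : IsValueAt P (ψ (s * y)) (c * cy) := by
    rw [map_mul]
    exact hc.mul hcy
  have h2 := h1.unique h
  have h3 : cy = 0 := (mul_eq_zero.mp h2).resolve_left hc0
  rwa [h3] at hcy

theorem ord_eq_zero_of_not_isValueAt_zero {P : Place K F} (hP : Pl A ψ P) {c : B}
    (h : ¬ IsValueAt P (ψ c) 0) : P.ord (ψ c) = 0 := by
  obtain ⟨c', -, hc'⟩ := hP c
  refine ord_eq_zero_of_isValueAt hc' ?_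
  rintro rfl
  exact h hc'

/-- the ideal of the chart functions vanishing at an integral point -/
def zeroIdeal (P : Place K F) (hP : Pl A ψ P) : Ideal B where
  carrier := {y | IsValueAt P (ψ y) 0}
  add_mem' := by
    intro x y hx hy
    have h : IsValueAt P (ψ x + ψ y) (0 + 0) := IsValueAt.add hx hy
    rw [add_zero, ← map_add] at h
    exact h
  zero_mem' := by
    show IsValueAt P (ψ 0) 0
    rw [map_zero]
    simpa using isValueAt_algebraMap P (0 : K)
  smul_mem' := by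
    intro c y hy
    obtain ⟨c', -, hc'⟩ := hP c
    have h : IsValueAt P (ψ c * ψ y) (c' * 0) := hc'.mul hy
    show IsValueAt P (ψ (c • y)) 0
    rw [smul_eq_mul, map_mul]
    rwa [mul_zero] at h

theorem mem_zeroIdeal (P : Place K F) (hP : Pl A ψ P) (y : B) :
    y ∈ zeroIdeal A ψ P hP ↔ IsValueAt P (ψ y) 0 := Iff.rfl

theorem zeroIdeal_isPrime (P : Place K F) (hP : Pl A ψ P) : (zeroIdeal A ψ P hP).IsPrime := by
  refine ⟨?_, ?_⟩
  · rw [Ideal.ne_top_iff_one]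
    intro h1
    have h2 : IsValueAt P (ψ 1) 1 := by
      rw [map_one]
      simpa using isValueAt_algebraMap P (1 : K)
    exact one_ne_zero (h2.unique ((mem_zeroIdeal A ψ P hP 1).mp h1))
  · intro x y hxy
    obtain ⟨cx, -, hcx⟩ := hP x
    obtain ⟨cy, -, hcy⟩ := hP y
    have h1 : IsValueAt P (ψ (x * y)) (cx * cy) := by
      rw [map_mul]
      exact hcx.mul hcy
    have h2 := h1.unique ((mem_zeroIdeal A ψ P hP _).mp hxy)
    rcases mul_eq_zero.mp h2 with h | h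
    · left
      rw [h] at hcx
      exact hcx
    · right
      rw [h] at hcy
      exact hcy

/-- **Rationality of a prime** from the rationality of a place centred at it. -/
theorem rational_of_place
    (hψW : ∀ w : W, ψ (algebraMap W B w) = algebraMap K F (ι w))
    (π : W) (hW : ∀ w : W, IsUnit w ∨ π ∣ w)
    (𝔪 : Ideal B) (h𝔪 : 𝔪 ≠ ⊤) (hπ𝔪 : algebraMap W B π ∈ 𝔪)
    (𝔮 : Ideal B) (h𝔮𝔪 : 𝔮 ≤ 𝔪) (P : Place K F)
    (hP : ∀ y : B, ψ y ∈ P.toValuationSubring ∧ (y ∈ 𝔮 ↔ IsValueAt P (ψ y) 0))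
    (hrat : ∀ y : B, ψ y ∈ P.toValuationSubring → ∃ c : L, IsValueAt P (ψ y) (ι c)) :
    ∀ y : B, ∃ w : W, y - algebraMap W B w ∈ 𝔮 := by
  intro y
  obtain ⟨c, hc⟩ := hrat y (hP y).1
  have hcW : c ∈ W := by
    by_contra hcW
    have hc0 : c ≠ 0 := fun h0 => hcW (h0 ▸ W.zero_mem)
    have hinv : c⁻¹ ∈ W := (W.mem_or_inv_mem c).resolve_left hcW
    set w₁ : W := ⟨c⁻¹, hinv⟩ with hw₁
    have hnu : ¬ IsUnit w₁ := by
      intro hu
      obtain ⟨w', hw'⟩ := isUnit_iff_exists_inv.mp hu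
      have h1 := congrArg Subtype.val hw'
      rw [MulMemClass.coe_mul, OneMemClass.coe_one] at h1
      have h2 : (w' : L) = c := by
        have h3 : c⁻¹ * (w' : L) = 1 := h1
        field_simp at h3
        exact h3
      exact hcW (h2 ▸ w'.2)
    have hdvd : π ∣ w₁ := (hW w₁).resolve_left hnu
    have hw₁𝔪 : algebraMap W B w₁ ∈ 𝔪 := by
      obtain ⟨w', hw'⟩ := hdvd
      rw [hw', map_mul]
      exact 𝔪.mul_mem_right _ hπ𝔪
    have hval : IsValueAt P (ψ (y * algebraMap W B w₁ - 1)) 0 := by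
      have h1 : IsValueAt P (ψ y * ψ (algebraMap W B w₁)) (ι c * ι (w₁ : L)) :=
        hc.mul (isValueAt_algebraMap_W ι W ψ hψW P w₁)
      have h2 : IsValueAt P (1 : F) 1 := by simpa using isValueAt_algebraMap P (1 : K)
      have h3 := h1.sub h2
      have h4 : ι c * ι (w₁ : L) - 1 = 0 := by
        rw [← map_mul]
        show ι (c * c⁻¹) - 1 = 0
        rw [mul_inv_cancel₀ hc0, map_one, sub_self]
      rw [h4] at h3
      rwa [map_sub, map_mul, map_one]
    have h5 : y * algebraMap W B w₁ - 1 ∈ 𝔪 := h𝔮𝔪 ((hP _).2.mpr hval)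
    have h6 : (1 : B) ∈ 𝔪 := by
      have := sub_mem (𝔪.mul_mem_left y hw₁𝔪) h5
      rwa [sub_sub_cancel] at this
    exact h𝔪 ((Ideal.eq_top_iff_one _).mpr h6)
  refine ⟨⟨c, hcW⟩, (hP _).2.mpr ?_⟩
  exact (isValueAt_sub_iff ι W ψ hψW P y ⟨c, hcW⟩).mpr hc

/-- a place centred at a rational prime inside `𝔪` is in the class of `𝔪` -/
theorem inClass_of_rational (hWA : ∀ x : L, x ∈ W ↔ ι x ∈ A)
    (hψW : ∀ w : W, ψ (algebraMap W B w) = algebraMap K F (ι w))
    (π : W) (hW : ∀ w : W, IsUnit w ∨ π ∣ w)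
    (𝔪 : Ideal B) (h𝔪 : 𝔪 ≠ ⊤) (hπ𝔪 : algebraMap W B π ∈ 𝔪)
    (𝔮 : Ideal B) (h𝔮𝔪 : 𝔮 ≤ 𝔪) (P : Place K F)
    (hP : ∀ y : B, ψ y ∈ P.toValuationSubring ∧ (y ∈ 𝔮 ↔ IsValueAt P (ψ y) 0))
    (hrat : ∀ y : B, ∃ w : W, y - algebraMap W B w ∈ 𝔮) : InClass A ψ 𝔪 P := by
  have hv : ∀ y : B, ∃ w : W, IsValueAt P (ψ y) (ι w) ∧ (y ∈ 𝔪 ↔ ¬ IsUnit w) := by
    intro y
    obtain ⟨w, hw⟩ := hrat y
    refine ⟨w, (isValueAt_sub_iff ι W ψ hψW P y w).mp ((hP _).2.mp hw), ?_⟩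
    have hw𝔪 : y - algebraMap W B w ∈ 𝔪 := h𝔮𝔪 hw
    constructor
    · intro hy hu
      have h1 : algebraMap W B w ∈ 𝔪 := by
        have := sub_mem hy hw𝔪
        rwa [sub_sub_cancel] at this
      exact h𝔪 (Ideal.eq_top_of_isUnit_mem _ h1 (hu.map _))
    · intro hnu
      obtain ⟨w', hw'⟩ := (hW w).resolve_left hnu
      have h1 : algebraMap W B w ∈ 𝔪 := by
        rw [hw', map_mul]
        exact 𝔪.mul_mem_right _ hπ𝔪
      have := add_mem hw𝔪 h1
      rwa [sub_add_cancel] at this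
  refine ⟨fun y => ?_, fun y => ?_⟩
  · obtain ⟨w, hw, -⟩ := hv y
    exact ⟨ι w, (hWA _).mp w.2, hw⟩
  · obtain ⟨w, hw, hiff⟩ := hv y
    constructor
    · intro hy
      exact ⟨ι w, (val_lt_one_iff_not_isUnit A ι W hWA w).mpr (hiff.mp hy), hw⟩
    · rintro ⟨c, hc, hcv⟩
      have : c = ι w := hcv.unique hw
      rw [this] at hc
      exact hiff.mpr ((val_lt_one_iff_not_isUnit A ι W hWA w).mp hc)

end Core

section Main

variable {K F L : Type*} [Field K] [Field F] [Algebra K F] [Field L]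
  (A : ValuationSubring K) (ι : L →+* K) (W : ValuationSubring L)
  {B : Type*} [CommRing B] [IsDomain B] [IsNoetherianRing B] [Algebra W B]
  (ψ : B →+* F)

/-- **Local generator at a rational class place.**  At a rational place `P` in the class of `𝔪`
at which `t = u - w` vanishes, the chart functions vanishing at `P` are the multiples of `t`,
locally at `𝔪`. -/
theorem exists_local_gen
    (hψW : ∀ w : W, ψ (algebraMap W B w) = algebraMap K F (ι w))
    (π : W) (hW : ∀ w : W, IsUnit w ∨ π ∣ w) (hπ0 : π ≠ 0)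
    (𝔪 : Ideal B) [h𝔪 : 𝔪.IsMaximal] (hπ𝔪 : algebraMap W B π ∈ 𝔪) (u : B)
    (hu : LocalParam π 𝔪 u) (w : W)
    (P : Place K F) (hP : InClass A ψ 𝔪 P)
    (hrat : ∀ y : B, ψ y ∈ P.toValuationSubring → ∃ c : L, IsValueAt P (ψ y) (ι c))
    (ht : IsValueAt P (ψ (u - algebraMap W B w)) 0) :
    ∀ y : B, IsValueAt P (ψ y) 0 →
      ∃ s : B, s ∉ 𝔪 ∧ ∃ c : B, s * y = (u - algebraMap W B w) * c := by
  set 𝔮 := zeroIdeal A ψ P hP.1 with h𝔮def
  have h𝔮 : 𝔮.IsPrime := zeroIdeal_isPrime A ψ P hP.1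
  have h𝔮𝔪 : 𝔮 ≤ 𝔪 := fun y hy =>
    (hP.2 y).mpr ⟨0, by rw [map_zero]; exact zero_lt_one, hy⟩
  have hπ𝔮 : algebraMap W B π ∉ 𝔮 := by
    intro h
    have h1 : ι (π : L) = 0 := (isValueAt_algebraMap_W ι W ψ hψW P π).unique h
    have h2 : (π : L) = 0 := (map_eq_zero ι).mp h1
    exact hπ0 (Subtype.ext h2)
  have hPq : ∀ y : B, ψ y ∈ P.toValuationSubring ∧ (y ∈ 𝔮 ↔ IsValueAt P (ψ y) 0) := fun y =>
    ⟨(hP.1 y).choose_spec.2.mem, Iff.rfl⟩
  have hratq : ∀ y : B, ∃ w : W, y - algebraMap W B w ∈ 𝔮 :=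
    rational_of_place ι W ψ hψW π hW 𝔪 h𝔪.ne_top hπ𝔪 𝔮 h𝔮𝔪 P hPq hrat
  obtain ⟨w₀, -, hmem, hgen⟩ := exists_prime_gen π hW 𝔪 hπ𝔪 u hu 𝔮 h𝔮𝔪 hπ𝔮 hratq
  have hww : w₀ = w := by
    have h1 : algebraMap W B (w₀ - w) ∈ 𝔮 := by
      have h2 : (u - algebraMap W B w) - (u - algebraMap W B w₀) ∈ 𝔮 := sub_mem ht hmem
      have h3 : (u - algebraMap W B w) - (u - algebraMap W B w₀) = algebraMap W B (w₀ - w) := by
        rw [map_sub]
        ring
      rwa [h3] at h2
    have h4 : ι ((w₀ - w : W) : L) = 0 :=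
      (isValueAt_algebraMap_W ι W ψ hψW P (w₀ - w)).unique h1
    have h5 : ((w₀ - w : W) : L) = 0 := (map_eq_zero ι).mp h4
    have h6 : w₀ - w = 0 := Subtype.ext h5
    exact sub_eq_zero.mp h6
  rw [hww] at hgen
  intro y hy
  exact hgen y hy

/-- **Factorisation by the order.**  Every nonzero chart function is, locally at `𝔪`, a power of
`t` times a function not vanishing at `P`. -/
theorem exists_pow_mul (hψ : Function.Injective ψ)
    (𝔪 : Ideal B) [h𝔪 : 𝔪.IsMaximal] (t : B) (ht0 : t ≠ 0)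
    (P : Place K F) (hP : InClass A ψ 𝔪 P) (ht : IsValueAt P (ψ t) 0)
    (hgen : ∀ y : B, IsValueAt P (ψ y) 0 → ∃ s : B, s ∉ 𝔪 ∧ ∃ c : B, s * y = t * c) :
    ∀ (n : ℕ) (y : B), y ≠ 0 → (P.ord (ψ y)).toNat ≤ n →
      ∃ (k : ℕ) (s c : B), s ∉ 𝔪 ∧ ¬ IsValueAt P (ψ c) 0 ∧ s * y = t ^ k * c := by
  have h1𝔪 : (1 : B) ∉ 𝔪 := (Ideal.ne_top_iff_one 𝔪).mp h𝔪.ne_top
  have hψ0 : ∀ y : B, y ≠ 0 → ψ y ≠ 0 := fun y hy h => hy (hψ (by rw [h, map_zero]))
  have htpos : 0 < P.ord (ψ t) := ord_pos_of_isValueAt_zero ht (hψ0 t ht0)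
  intro n
  induction n with
  | zero =>
    intro y hy hn
    by_cases hyv : IsValueAt P (ψ y) 0
    · exfalso
      have h1 : 0 < P.ord (ψ y) := ord_pos_of_isValueAt_zero hyv (hψ0 y hy)
      have h2 : P.ord (ψ y) ≤ ((0 : ℕ) : ℤ) := Int.toNat_le.mp hn
      omega
    · exact ⟨0, 1, y, h1𝔪, hyv, by ring⟩
  | succ n ih =>
    intro y hy hn
    by_cases hyv : IsValueAt P (ψ y) 0
    · obtain ⟨s, hs, c, hsc⟩ := hgen y hyv
      have hs0 : s ≠ 0 := fun h => hs (h ▸ 𝔪.zero_mem)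
      have hc0 : c ≠ 0 := by
        rintro rfl
        rw [mul_zero] at hsc
        exact (mul_ne_zero hs0 hy) hsc
      have h1 : P.ord (ψ s) + P.ord (ψ y) = P.ord (ψ t) + P.ord (ψ c) := by
        rw [← P.ord_mul (hψ0 s hs0) (hψ0 y hy), ← P.ord_mul (hψ0 t ht0) (hψ0 c hc0),
          ← map_mul, ← map_mul, hsc]
      have h2 : P.ord (ψ s) = 0 := ord_eq_zero_of_notMem A ψ hP hs
      have h3 : P.ord (ψ y) ≤ ((n + 1 : ℕ) : ℤ) := Int.toNat_le.mp hn
      have h4 : (P.ord (ψ c)).toNat ≤ n := by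
        rw [Int.toNat_le]
        push_cast at h3
        omega
      obtain ⟨k, s', c', hs', hc', hsc'⟩ := ih c hc0 h4
      refine ⟨k + 1, s' * s, c', ?_, hc', ?_⟩
      · intro h
        rcases h𝔪.isPrime.mem_or_mem h with h | h
        · exact hs' h
        · exact hs h
      · calc s' * s * y = s' * (s * y) := by ring
          _ = s' * (t * c) := by rw [hsc]
          _ = t * (s' * c) := by ring
          _ = t * (t ^ k * c') := by rw [hsc']
          _ = t ^ (k + 1) * c' := by ring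
    · exact ⟨0, 1, y, h1𝔪, hyv, by ring⟩

/-- two class places with the same local generator have proportional orders -/
theorem exists_ord_eq (hψ : Function.Injective ψ)
    (𝔪 : Ideal B) [h𝔪 : 𝔪.IsMaximal] (t : B) (ht0 : t ≠ 0)
    (P₁ P₂ : Place K F) (h₁ : InClass A ψ 𝔪 P₁) (h₂ : InClass A ψ 𝔪 P₂)
    (ht₁ : IsValueAt P₁ (ψ t) 0)
    (hgen₁ : ∀ y : B, IsValueAt P₁ (ψ y) 0 → ∃ s : B, s ∉ 𝔪 ∧ ∃ c : B, s * y = t * c)
    (hgen₂ : ∀ y : B, IsValueAt P₂ (ψ y) 0 → ∃ s : B, s ∉ 𝔪 ∧ ∃ c : B, s * y = t * c) :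
    ∀ y : B, y ≠ 0 → ∃ k : ℕ, P₁.ord (ψ y) = k * P₁.ord (ψ t) ∧
      P₂.ord (ψ y) = k * P₂.ord (ψ t) := by
  have hψ0 : ∀ y : B, y ≠ 0 → ψ y ≠ 0 := fun y hy h => hy (hψ (by rw [h, map_zero]))
  intro y hy
  obtain ⟨k, s, c, hs, hc, hsc⟩ :=
    exists_pow_mul A ψ hψ 𝔪 t ht0 P₁ h₁ ht₁ hgen₁ _ y hy le_rfl
  have hs0 : s ≠ 0 := fun h => hs (h ▸ 𝔪.zero_mem)
  have hc0 : c ≠ 0 := by
    rintro rfl
    apply hc
    rw [map_zero]
    simpa using isValueAt_algebraMap P₁ (0 : K)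
  have hc₂ : ¬ IsValueAt P₂ (ψ c) 0 := by
    intro h
    obtain ⟨s', hs', c', h'⟩ := hgen₂ c h
    apply hc
    apply isValueAt_zero_of_mul A ψ h₁ hs'
    rw [h']
    exact isValueAt_zero_mul A ψ h₁.1 ht₁ c'
  have hkey : ∀ P : Place K F, InClass A ψ 𝔪 P → ¬ IsValueAt P (ψ c) 0 →
      P.ord (ψ y) = k * P.ord (ψ t) := by
    intro P hP hcP
    have h1 : P.ord (ψ s) + P.ord (ψ y) = P.ord (ψ (t ^ k)) + P.ord (ψ c) := by
      rw [← P.ord_mul (hψ0 s hs0) (hψ0 y hy),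
        ← P.ord_mul (hψ0 _ (pow_ne_zero k ht0)) (hψ0 c hc0), ← map_mul, ← map_mul, hsc]
    rw [ord_eq_zero_of_notMem A ψ hP hs, ord_eq_zero_of_not_isValueAt_zero A ψ hP.1 hcP,
      map_pow, ord_pow] at h1
    linarith
  exact ⟨k, hkey P₁ h₁ hc, hkey P₂ h₂ hc₂⟩

/-- two class places with the same local generator coincide if one of them is rational, and the
generator is then a uniformiser -/
theorem eq_and_ord_eq_one (hψ : Function.Injective ψ)
    (𝔪 : Ideal B) [h𝔪 : 𝔪.IsMaximal] (t : B) (ht0 : t ≠ 0)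
    (P₁ P₂ : Place K F) (h₁ : InClass A ψ 𝔪 P₁) (h₂ : InClass A ψ 𝔪 P₂)
    (ht₁ : IsValueAt P₁ (ψ t) 0) (ht₂ : IsValueAt P₂ (ψ t) 0)
    (hgen₁ : ∀ y : B, IsValueAt P₁ (ψ y) 0 → ∃ s : B, s ∉ 𝔪 ∧ ∃ c : B, s * y = t * c)
    (hgen₂ : ∀ y : B, IsValueAt P₂ (ψ y) 0 → ∃ s : B, s ∉ 𝔪 ∧ ∃ c : B, s * y = t * c)
    (hR₂ : RatAtB ι ψ P₂) : P₁ = P₂ ∧ P₂.ord (ψ t) = 1 := by
  have hψ0 : ∀ y : B, y ≠ 0 → ψ y ≠ 0 := fun y hy h => hy (hψ (by rw [h, map_zero]))
  have he₁ : 0 < P₁.ord (ψ t) := ord_pos_of_isValueAt_zero ht₁ (hψ0 t ht0)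
  have he₂ : 0 < P₂.ord (ψ t) := ord_pos_of_isValueAt_zero ht₂ (hψ0 t ht0)
  have hk := exists_ord_eq A ψ hψ 𝔪 t ht0 P₁ P₂ h₁ h₂ ht₁ hgen₁ hgen₂
  refine ⟨hR₂.2.2 P₁ ?_, ?_⟩
  · intro y₁ y₂ hy₁ hy₂
    obtain ⟨k₁, h11, h12⟩ := hk y₁ hy₁
    obtain ⟨k₂, h21, h22⟩ := hk y₂ hy₂
    rw [h11, h12, h21, h22]
    constructor
    · intro h
      have h' : (k₂ : ℤ) ≤ k₁ := le_of_mul_le_mul_right h he₁
      exact mul_le_mul_of_nonneg_right h' he₂.le
    · intro h
      have h' : (k₂ : ℤ) ≤ k₁ := le_of_mul_le_mul_right h he₂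
      exact mul_le_mul_of_nonneg_right h' he₁.le
  · obtain ⟨y₁, y₂, hy₁, hy₂, h1⟩ := hR₂.2.1
    obtain ⟨k₁, -, h12⟩ := hk y₁ hy₁
    obtain ⟨k₂, -, h22⟩ := hk y₂ hy₂
    rw [h12, h22] at h1
    refine Int.eq_one_of_dvd_one he₂.le ⟨(k₁ : ℤ) - k₂, ?_⟩
    linarith

open Classical in
/-- **The unit congruence on a chart from a balanced divisor** (abstract form).  `a, b ∈ B` are
not divisible by `π`, the divisor `D` of `ψ b / ψ a` lies in the subgroup generated by the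
differences of `Same`-related places, the chart is compatible with `Same`, every prime of `B` not
containing `π` is the centre of a place, and the zeros of `ψ (a * b)` are rational.  Then
`b ≡ e * a mod π` with `e` a unit modulo `π`. -/
theorem chart_congr_core (hWA : ∀ x : L, x ∈ W ↔ ι x ∈ A)
    (hψ : Function.Injective ψ) (hψW : ∀ w : W, ψ (algebraMap W B w) = algebraMap K F (ι w))
    (π : W) (hW : ∀ w : W, IsUnit w ∨ π ∣ w)
    (hprime : Prime (algebraMap W B π))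
    (hDed : IsDedekindDomain (B ⧸ Ideal.span {algebraMap W B π}))
    (hext : ∀ 𝔮 : Ideal B, 𝔮.IsPrime → 𝔮 ≠ ⊥ → algebraMap W B π ∉ 𝔮 →
      ∃ P : Place K F, ∀ y : B, ψ y ∈ P.toValuationSubring ∧ (y ∈ 𝔮 ↔ IsValueAt P (ψ y) 0))
    (Same : Place K F → Place K F → Prop) (hval : ValCompat A ψ Same)
    (a b : B) (ha : ¬ algebraMap W B π ∣ a) (hb : ¬ algebraMap W B π ∣ b)
    (Z : Finset (Place K F)) (hZ : ∀ P : Place K F, IsValueAt P (ψ (a * b)) 0 → P ∈ Z)
    (hRat : ∀ P ∈ Z, RatAtB ι ψ P)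
    (D : Place K F →₀ ℤ)
    (hD : D ∈ AddSubgroup.closure {D : Place K F →₀ ℤ | ∃ P P', Same P P' ∧
      D = Finsupp.single P 1 - Finsupp.single P' 1})
    (hDab : ∀ P : Place K F, D P = P.ord (ψ b) - P.ord (ψ a)) :
    ∃ e e' : B, algebraMap W B π ∣ e * e' - 1 ∧ algebraMap W B π ∣ b - e * a := by
  have ha0 : a ≠ 0 := fun h => ha (h ▸ dvd_zero _)
  have hb0 : b ≠ 0 := fun h => hb (h ▸ dvd_zero _)
  have hab0 : a * b ≠ 0 := mul_ne_zero ha0 hb0
  have hψ0 : ∀ y : B, y ≠ 0 → ψ y ≠ 0 := fun y hy h => hy (hψ (by rw [h, map_zero]))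
  have hπ0 : π ≠ 0 := by
    rintro rfl
    exact hprime.ne_zero (map_zero _)
  refine chart_unit_congr π hW hprime hDed a b ha hb ?_ ?_
  · intro 𝔪 h𝔪 hπ𝔪 𝔮 h𝔮 h𝔮𝔪 hab𝔮 hπ𝔮
    have h0 : 𝔮 ≠ ⊥ := by
      intro h
      rw [h] at hab𝔮
      exact hab0 ((Ideal.mem_bot).mp hab𝔮)
    obtain ⟨P, hP⟩ := hext 𝔮 h𝔮 h0 hπ𝔮
    have hPZ : P ∈ Z := hZ P ((hP _).2.mp hab𝔮)
    exact rational_of_place ι W ψ hψW π hW 𝔪 h𝔪.ne_top hπ𝔪 𝔮 h𝔮𝔪 P hP (hRat P hPZ).1
  · intro 𝔪 h𝔪 hπ𝔪 u hu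
    set T := Z ∪ D.support with hT
    refine ⟨fun y => ∑ P ∈ T, if InClass A ψ 𝔪 P then P.ord (ψ y) else 0, ?_, ?_, ?_, ?_⟩
    · intro x y hx hy
      show ∑ P ∈ T, (if InClass A ψ 𝔪 P then P.ord (ψ (x * y)) else 0) =
        ∑ P ∈ T, (if InClass A ψ 𝔪 P then P.ord (ψ x) else 0) +
        ∑ P ∈ T, (if InClass A ψ 𝔪 P then P.ord (ψ y) else 0)
      rw [← Finset.sum_add_distrib]
      refine Finset.sum_congr rfl fun P _ => ?_
      split_ifs
      · rw [map_mul, P.ord_mul (hψ0 x hx) (hψ0 y hy)]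
      · simp
    · intro s hs
      refine Finset.sum_eq_zero fun P _ => ?_
      split_ifs with hc
      · exact ord_eq_zero_of_notMem A ψ hc hs
      · rfl
    · rintro w hw ⟨s, hs, c, hsc⟩
      set t := u - algebraMap W B w with ht
      have hwm : algebraMap W B w ∈ 𝔪 := by
        obtain ⟨w', rfl⟩ := hw
        rw [map_mul]
        exact 𝔪.mul_mem_right _ hπ𝔪
      have ht𝔪 : t ∈ 𝔪 := sub_mem hu.1 hwm
      have htπ : ¬ algebraMap W B π ∣ t := by
        intro hdvd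
        have h1 : algebraMap W B π ∣ s * (a * b) := by
          rw [hsc]
          exact Dvd.dvd.mul_right hdvd c
        rcases hprime.dvd_or_dvd h1 with h | h
        · obtain ⟨d, rfl⟩ := h
          exact hs (𝔪.mul_mem_right _ hπ𝔪)
        · rcases hprime.dvd_or_dvd h with h | h
          · exact ha h
          · exact hb h
      have ht0 : t ≠ 0 := fun h => htπ (h ▸ dvd_zero _)
      obtain ⟨𝔮, h𝔮, ht𝔮, h𝔮𝔪, hπ𝔮⟩ := exists_prime_through hprime 𝔪 ht𝔪 htπ
      have hab𝔮 : a * b ∈ 𝔮 := by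
        have h1 : s * (a * b) ∈ 𝔮 := by
          rw [hsc]
          exact 𝔮.mul_mem_right _ ht𝔮
        exact (h𝔮.mem_or_mem h1).resolve_left (fun h => hs (h𝔮𝔪 h))
      have h0 : 𝔮 ≠ ⊥ := by
        intro h
        rw [h] at hab𝔮
        exact hab0 ((Ideal.mem_bot).mp hab𝔮)
      obtain ⟨P₀, hP₀⟩ := hext 𝔮 h𝔮 h0 hπ𝔮
      have hP₀Z : P₀ ∈ Z := hZ P₀ ((hP₀ _).2.mp hab𝔮)
      have hR₀ := hRat P₀ hP₀Z
      have hrat𝔮 := rational_of_place ι W ψ hψW π hW 𝔪 h𝔪.ne_top hπ𝔪 𝔮 h𝔮𝔪 P₀ hP₀ hR₀.1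
      have hcl₀ : InClass A ψ 𝔪 P₀ :=
        inClass_of_rational A ι W ψ hWA hψW π hW 𝔪 h𝔪.ne_top hπ𝔪 𝔮 h𝔮𝔪 P₀ hP₀ hrat𝔮
      have ht₀ : IsValueAt P₀ (ψ t) 0 := (hP₀ t).2.mp ht𝔮
      have hgen₀ := exists_local_gen A ι W ψ hψW π hW hπ0 𝔪 hπ𝔪 u hu w P₀ hcl₀ hR₀.1 ht₀
      have key : ∀ P : Place K F, InClass A ψ 𝔪 P → P ≠ P₀ → P.ord (ψ t) = 0 := by
        intro P hcl hne
        obtain ⟨ct, -, hct⟩ := hcl.1 t
        by_cases hct0 : ct = 0
        · exfalso
          rw [hct0] at hct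
          have habP : IsValueAt P (ψ (a * b)) 0 := by
            apply isValueAt_zero_of_mul A ψ hcl hs
            rw [hsc]
            exact isValueAt_zero_mul A ψ hcl.1 hct c
          have hR := hRat P (hZ P habP)
          have hgen := exists_local_gen A ι W ψ hψW π hW hπ0 𝔪 hπ𝔪 u hu w P hcl hR.1 hct
          exact hne (eq_and_ord_eq_one A ι ψ hψ 𝔪 t ht0 P P₀ hcl hcl₀ hct ht₀ hgen hgen₀ hR₀).1
        · exact ord_eq_zero_of_isValueAt hct hct0
      have hord₀ : P₀.ord (ψ t) = 1 :=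
        (eq_and_ord_eq_one A ι ψ hψ 𝔪 t ht0 P₀ P₀ hcl₀ hcl₀ ht₀ ht₀ hgen₀ hgen₀ hR₀).2
      show ∑ P ∈ T, (if InClass A ψ 𝔪 P then P.ord (ψ t) else 0) = 1
      rw [Finset.sum_eq_single P₀]
      · rw [if_pos hcl₀, hord₀]
      · intro P _ hne
        split_ifs with hc
        · exact key P hc hne
        · rfl
      · intro h
        exact absurd (Finset.mem_union_left _ hP₀Z) h
    · have h := sum_class_eq_zero (InClass A ψ 𝔪) Same
        (fun P P' h => inClass_congr A ψ hval 𝔪 h) D hD T Finset.subset_union_right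
      have h2 : ∑ P ∈ T, (if InClass A ψ 𝔪 P then P.ord (ψ b) else 0)
          - ∑ P ∈ T, (if InClass A ψ 𝔪 P then P.ord (ψ a) else 0) = 0 := by
        rw [← Finset.sum_sub_distrib, ← h]
        refine Finset.sum_congr rfl fun P _ => ?_
        split_ifs
        · rw [hDab]
        · simp
      show ∑ P ∈ T, (if InClass A ψ 𝔪 P then P.ord (ψ a) else 0) =
        ∑ P ∈ T, (if InClass A ψ 𝔪 P then P.ord (ψ b) else 0)
      linarith

end Main

section Wrapper

variable {K F L FL : Type*} [Field K] [Field F] [Algebra K F] [Field L] [Field FL]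
  [Algebra L FL] (A : ValuationSubring K) (ι : L →+* K) (W : ValuationSubring L)
  (bcF : FL →+* F)
  {B : Type*} [CommRing B] [IsDomain B] [IsNoetherianRing B] [Algebra W B] (φ : B →+* FL)

/-- the place `P` of `F` is rational and unramified over the subfield `FL`, and is the only
place with its restriction to `FL` -/
def RatAt (P : Place K F) : Prop :=
  (∀ g : FL, bcF g ∈ P.toValuationSubring → ∃ c : L, IsValueAt P (bcF g) (ι c)) ∧
  (∃ t : FL, P.ord (bcF t) = 1) ∧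
  (∀ P' : Place K F,
    (∀ g : FL, bcF g ∈ P'.toValuationSubring ↔ bcF g ∈ P.toValuationSubring) → P' = P)

theorem ratAtB_of_ratAt (hφ : Function.Injective φ)
    (hfrac : ∀ g : FL, ∃ y₁ y₂ : B, y₂ ≠ 0 ∧ g * φ y₂ = φ y₁)
    {P : Place K F} (h : RatAt ι bcF P) : RatAtB ι (bcF.comp φ) P := by
  have hψ0 : ∀ y : B, y ≠ 0 → bcF (φ y) ≠ 0 := fun y hy h0 =>
    hy (hφ (by rw [(map_eq_zero bcF).mp h0, map_zero]))
  have hy₁ : ∀ (g : FL) (y₁ y₂ : B), g ≠ 0 → y₂ ≠ 0 → g * φ y₂ = φ y₁ → y₁ ≠ 0 := by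
    intro g y₁ y₂ hg hy₂ he hy₁
    rw [hy₁, map_zero] at he
    rcases mul_eq_zero.mp he with h1 | h1
    · exact hg h1
    · exact hy₂ (hφ (by rw [h1, map_zero]))
  refine ⟨fun y hy => h.1 (φ y) hy, ?_, ?_⟩
  · obtain ⟨t, ht⟩ := h.2.1
    obtain ⟨y₁, y₂, hy₂, he⟩ := hfrac t
    have ht0 : bcF t ≠ 0 := by
      intro h0
      rw [h0, Place.ord_zero] at ht
      exact zero_ne_one ht
    have ht0' : t ≠ 0 := fun h0 => ht0 (by rw [h0, map_zero])
    refine ⟨y₁, y₂, hy₁ t y₁ y₂ ht0' hy₂ he, hy₂, ?_⟩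
    have h2 : bcF t * bcF (φ y₂) = bcF (φ y₁) := by rw [← map_mul, he]
    show P.ord (bcF (φ y₁)) - P.ord (bcF (φ y₂)) = 1
    rw [← h2, P.ord_mul ht0 (hψ0 y₂ hy₂), ht]
    ring
  · intro P' hP'
    apply h.2.2 P'
    intro g
    by_cases hg : g = 0
    · subst hg
      rw [map_zero]
      exact ⟨fun _ => zero_mem _, fun _ => zero_mem _⟩
    obtain ⟨y₁, y₂, hy₂, he⟩ := hfrac g
    have hg0 : bcF g ≠ 0 := (map_ne_zero bcF).mpr hg
    have hy₁0 : y₁ ≠ 0 := hy₁ g y₁ y₂ hg hy₂ he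
    have h2 : bcF g * bcF (φ y₂) = bcF (φ y₁) := by rw [← map_mul, he]
    have key : ∀ Q : Place K F, bcF g ∈ Q.toValuationSubring ↔
        Q.ord (bcF (φ y₂)) ≤ Q.ord (bcF (φ y₁)) := by
      intro Q
      rw [← Fermat.Agent.S24.Places.ord_nonneg_iff_mem Q hg0, ← h2,
        Q.ord_mul hg0 (hψ0 y₂ hy₂)]
      constructor <;> intro h <;> linarith
    rw [key P', key P]
    exact hP' y₁ y₂ hy₁0 hy₂

/-- **The unit congruence on a chart from a balanced divisor**, for a chart ring `B` inside a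
subfield `FL` of `F` whose fraction field is `FL`. -/
theorem chart_congr (hWA : ∀ x : L, x ∈ W ↔ ι x ∈ A)
    (hbc : ∀ c : L, bcF (algebraMap L FL c) = algebraMap K F (ι c))
    (hφ : Function.Injective φ)
    (hφW : ∀ w : W, φ (algebraMap W B w) = algebraMap L FL (w : L))
    (π : W) (hW : ∀ w : W, IsUnit w ∨ π ∣ w)
    (hprime : Prime (algebraMap W B π))
    (hDed : IsDedekindDomain (B ⧸ Ideal.span {algebraMap W B π}))
    (hfrac : ∀ g : FL, ∃ y₁ y₂ : B, y₂ ≠ 0 ∧ g * φ y₂ = φ y₁)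
    (hext : ∀ 𝔮 : Ideal B, 𝔮.IsPrime → 𝔮 ≠ ⊥ → algebraMap W B π ∉ 𝔮 →
      ∃ P : Place K F, ∀ y : B, bcF (φ y) ∈ P.toValuationSubring ∧
        (y ∈ 𝔮 ↔ IsValueAt P (bcF (φ y)) 0))
    (Same : Place K F → Place K F → Prop) (hval : ValCompat A (bcF.comp φ) Same)
    (a b : B) (ha : ¬ algebraMap W B π ∣ a) (hb : ¬ algebraMap W B π ∣ b)
    (Z : Finset (Place K F)) (hZ : ∀ P : Place K F, IsValueAt P (bcF (φ (a * b))) 0 → P ∈ Z)
    (hRat : ∀ P ∈ Z, RatAt ι bcF P)
    (D : Place K F →₀ ℤ)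
    (hD : D ∈ AddSubgroup.closure {D : Place K F →₀ ℤ | ∃ P P', Same P P' ∧
      D = Finsupp.single P 1 - Finsupp.single P' 1})
    (hDab : ∀ P : Place K F, D P = P.ord (bcF (φ b)) - P.ord (bcF (φ a))) :
    ∃ e e' : B, algebraMap W B π ∣ e * e' - 1 ∧ algebraMap W B π ∣ b - e * a :=
  chart_congr_core A ι W (bcF.comp φ) hWA ((RingHom.injective bcF).comp hφ)
    (fun w => by rw [RingHom.comp_apply, hφW, hbc]) π hW hprime hDed hext Same hval a b ha hb
    Z hZ (fun P hP => ratAtB_of_ratAt ι bcF φ hφ hfrac (hRat P hP)) D hD hDab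

end Wrapper

end Fermat.Agent.S37.WChart
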