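import Mathlib
import Fermat.Agent.S37.WChart
import Fermat.Agent.S37.Centre
import Fermat.Agent.S37.ExtPlace

/-!
# S37, package (W): the chart congruence for the modular function field

`WChart.chart_congr` for `K = ℚ̄`, `F = modularFunctionFieldBar N`, `FL = S24.FF L N`,
`W = A.comap ι` a discrete valuation ring, `Same = Centre.SameCentre A N`; the extension of primes
to places is `ExtPlace.exists_place_of_prime_chart`.
-/

set_option autoImplicit false
set_option linter.unusedSectionVars false

namespace Fermat.Agent.S37.WChartInst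

open ModularCurve AlgebraicCurve Fermat.Agent.S37.GaloisValue Fermat.Agent.S37.WChart

local notation "Qb" => AlgebraicClosure ℚ

/-- in a discrete valuation ring every element is a unit or a multiple of the uniformiser -/
theorem dvr_unit_or_dvd {R : Type*} [CommRing R] [IsDomain R] [IsDiscreteValuationRing R]
    {π : R} (hπ : Irreducible π) (w : R) : IsUnit w ∨ π ∣ w := by
  by_cases hu : IsUnit w
  · exact Or.inl hu
  · right
    have h1 : w ∈ IsLocalRing.maximalIdeal R := (IsLocalRing.mem_maximalIdeal w).mpr hu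
    rw [hπ.maximalIdeal_eq] at h1
    exact Ideal.mem_span_singleton.mp h1

/-- **(W), chart form.**  `B` a noetherian chart domain over the discrete valuation ring
`W = A.comap ι` inside `F_L = S24.FF L N` with fraction field `F_L`, prime `π` and Dedekind
special fibre; the chart is compatible with `Centre.SameCentre`; `a, b ∈ B ∖ π B` with
`div (b / a) = D ∈ centreSubgroup A N`, and the `ℚ̄`-zeros of `a * b` are rational at the level
`(L, ι)`.  Then `b ≡ e * a mod π` with `e` a unit modulo `π`. -/
theorem chart_congr_S37 (A : ValuationSubring Qb) (N : ℕ) [NeZero N] {L : Type} [Field L]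
    [Algebra ℚ L] (ι : L →+* Qb) [IsDiscreteValuationRing (A.comap ι)] (π : A.comap ι)
    (hπ : Irreducible π)
    {B : Type*} [CommRing B] [IsDomain B] [IsNoetherianRing B] [Algebra (A.comap ι) B]
    (φ : B →+* Fermat.Agent.S24.FF L N) (hφ : Function.Injective φ)
    (hφW : ∀ w : A.comap ι,
      φ (algebraMap (A.comap ι) B w) = algebraMap L (Fermat.Agent.S24.FF L N) (w : L))
    (hprime : Prime (algebraMap (A.comap ι) B π))
    (hDed : IsDedekindDomain (B ⧸ Ideal.span {algebraMap (A.comap ι) B π}))
    (hfrac : ∀ g : Fermat.Agent.S24.FF L N, ∃ y₁ y₂ : B, y₂ ≠ 0 ∧ g * φ y₂ = φ y₁)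
    (hval : ValCompat (F := ↥(modularFunctionFieldBar N)) A
      ((Fermat.Agent.S24.CoeffBC.bc ι (modularFunctionFieldFull N)).comp φ)
      (Centre.SameCentre A N))
    (a b : B) (ha : ¬ algebraMap (A.comap ι) B π ∣ a) (hb : ¬ algebraMap (A.comap ι) B π ∣ b)
    (Z : Finset (Place Qb (modularFunctionFieldBar N)))
    (hZ : ∀ P : Place Qb (modularFunctionFieldBar N),
      IsValueAt P (Fermat.Agent.S24.CoeffBC.bc ι (modularFunctionFieldFull N) (φ (a * b))) 0 →
        P ∈ Z)
    (hRat : ∀ P ∈ Z, RatAt (F := ↥(modularFunctionFieldBar N)) ι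
      (Fermat.Agent.S24.CoeffBC.bc ι (modularFunctionFieldFull N)) P)
    (D : Divisor Qb (modularFunctionFieldBar N)) (hD : D ∈ Centre.centreSubgroup A N)
    (hDab : ∀ P : Place Qb (modularFunctionFieldBar N),
      D P = P.ord (Fermat.Agent.S24.CoeffBC.bc ι (modularFunctionFieldFull N) (φ b))
        - P.ord (Fermat.Agent.S24.CoeffBC.bc ι (modularFunctionFieldFull N) (φ a))) :
    ∃ e e' : B, algebraMap (A.comap ι) B π ∣ e * e' - 1 ∧
      algebraMap (A.comap ι) B π ∣ b - e * a := by
  refine chart_congr (F := ↥(modularFunctionFieldBar N)) A ι (A.comap ι)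
    (Fermat.Agent.S24.CoeffBC.bc ι (modularFunctionFieldFull N)) φ (fun x => Iff.rfl)
    (fun c => Fermat.Agent.S24.CoeffBC.bc_algebraMap ι (modularFunctionFieldFull N) c)
    hφ hφW π (dvr_unit_or_dvd hπ) hprime hDed hfrac ?_ (Centre.SameCentre A N) hval a b ha hb
    Z hZ hRat D hD hDab
  intro 𝔮 h𝔮 h0 hπ𝔮
  have := h𝔮
  refine ExtPlace.exists_place_of_prime_chart N ι (A.comap ι) hπ φ hφ
    (fun w => ⟨algebraMap (A.comap ι) B w, hφW w⟩) 𝔮 h0 ?_
  intro b' hb' hmem
  have : b' = algebraMap (A.comap ι) B π := hφ (by rw [hb', hφW])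
  exact hπ𝔮 (this ▸ hmem)

end Fermat.Agent.S37.WChartInst
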