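import Mathlib
import Fermat.Agent.S28.SeriesBasic

/-!
# S37: degree bounds for the modular polynomial

If `Φ ∈ A[Y][X]` satisfies `Φ(X, j(q^ℓ)) = (X - j(q^(ℓ²))) ∏_{c<ℓ} (X - j(ζ^c q))`, then `Φ` has
`Y`-degree `≤ ℓ + 1`, the coefficient of `Y^(ℓ+1)` in `Φ(0, Y)` is a unit of `A`, and `Y^(ℓ+1)`
does not occur in the coefficients of `X^k`, `k ≥ 1`.  (Pole orders in `q`.)
-/

set_option autoImplicit false

open Polynomial

namespace Fermat.Agent.S37.ModPolyBounds

open ModularCurve Fermat.Agent.S28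

/-! ### Laurent series of order at least `n` -/

section Order

variable {R : Type*} [CommRing R]

/-- all coefficients below `n` vanish -/
def Ge (n : ℤ) (x : LaurentSeries R) : Prop := ∀ m < n, x.coeff m = 0

theorem Ge.mono {n n' : ℤ} {x : LaurentSeries R} (h : Ge n x) (hn : n' ≤ n) : Ge n' x :=
  fun m hm => h m (lt_of_lt_of_le hm hn)

theorem ge_zero (n : ℤ) : Ge n (0 : LaurentSeries R) := fun _ _ => HahnSeries.coeff_zero

theorem Ge.add {n : ℤ} {x y : LaurentSeries R} (hx : Ge n x) (hy : Ge n y) : Ge n (x + y) :=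
  fun m hm => by rw [HahnSeries.coeff_add, hx m hm, hy m hm, add_zero]

theorem Ge.neg {n : ℤ} {x : LaurentSeries R} (hx : Ge n x) : Ge n (-x) :=
  fun m hm => by rw [HahnSeries.coeff_neg, hx m hm, neg_zero]

theorem Ge.sub {n : ℤ} {x y : LaurentSeries R} (hx : Ge n x) (hy : Ge n y) : Ge n (x - y) := by
  rw [sub_eq_add_neg]
  exact hx.add hy.neg

theorem ge_one : Ge 0 (1 : LaurentSeries R) := fun m hm => by
  rw [HahnSeries.coeff_one, if_neg hm.ne]

theorem Ge.mul {n m : ℤ} {x y : LaurentSeries R} (hx : Ge n x) (hy : Ge m y) :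
    Ge (n + m) (x * y) := by
  intro k hk
  rw [HahnSeries.coeff_mul]
  refine Finset.sum_eq_zero fun ij hij => ?_
  have hsum : ij.1 + ij.2 = k := (Finset.mem_antidiagonal.mp hij).2.2
  by_cases h : ij.1 < n
  · rw [hx _ h, zero_mul]
  · rw [hy _ (by omega), mul_zero]

theorem Ge.coeff_mul {n m : ℤ} {x y : LaurentSeries R} (hx : Ge n x) (hy : Ge m y) :
    (x * y).coeff (n + m) = x.coeff n * y.coeff m := by
  rw [HahnSeries.coeff_mul, Finset.sum_eq_single (n, m)]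
  · intro ij hij hne
    have hsum : ij.1 + ij.2 = n + m := (Finset.mem_antidiagonal.mp hij).2.2
    rcases lt_trichotomy ij.1 n with h | h | h
    · rw [hx _ h, zero_mul]
    · have h2 : ij.2 = m := by omega
      exact absurd (Prod.ext h h2) hne
    · rw [hy _ (by omega), mul_zero]
  · intro hnot
    rw [Finset.mem_antidiagonal] at hnot
    by_cases h1 : x.coeff n = 0
    · rw [h1, zero_mul]
    · by_cases h2 : y.coeff m = 0
      · rw [h2, mul_zero]
      · exact absurd ⟨h1, h2, rfl⟩ hnot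

theorem isMonicAt_one [Nontrivial R] : IsMonicAt (1 : LaurentSeries R) 0 :=
  ⟨by rw [HahnSeries.coeff_one, if_pos rfl], ge_one⟩

theorem isMonicAt_pow [Nontrivial R] {x : LaurentSeries R} {e : ℤ} (hx : IsMonicAt x e) (j : ℕ) :
    IsMonicAt (x ^ j) ((j : ℤ) * e) := by
  induction j with
  | zero => simpa using (isMonicAt_one (R := R))
  | succ j ih =>
    have h := ih.mul hx
    rw [pow_succ]
    have e1 : ((j + 1 : ℕ) : ℤ) * e = (j : ℤ) * e + e := by push_cast; ring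
    rw [e1]
    exact h

/-! ### Weights of the coefficients of a product of linear factors -/

/-- multiplying by `X - r`, `r` of pole order `≤ e`, raises the weight by `e` -/
theorem weight_mul_X_sub_C (p : Polynomial (LaurentSeries R)) (M e : ℤ) (he : 1 ≤ e)
    (hp : ∀ k : ℕ, Ge ((k : ℤ) - M) (p.coeff k)) (r : LaurentSeries R) (hr : Ge (-e) r) :
    (∀ k : ℕ, Ge ((k : ℤ) - (M + e)) ((p * (X - C r)).coeff k)) ∧
      ((p * (X - C r)).coeff 0).coeff (-(M + e)) = -((p.coeff 0).coeff (-M) * r.coeff (-e)) := by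
  have h0 : (p * (X - C r)).coeff 0 = p.coeff 0 * (-r) := by
    rw [Polynomial.mul_coeff_zero, Polynomial.coeff_sub, Polynomial.coeff_X_zero,
      Polynomial.coeff_C_zero, zero_sub]
  have hp0 : Ge (-M) (p.coeff 0) := by
    have := hp 0
    simpa using this
  constructor
  · intro k
    rcases k with _ | k
    · rw [h0]
      have := hp0.mul hr.neg
      have e1 : ((0 : ℕ) : ℤ) - (M + e) = -M + -e := by push_cast; ring
      rw [e1]
      exact this
    · rw [Polynomial.coeff_mul_X_sub_C]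
      refine Ge.sub ((hp k).mono (by push_cast; omega)) ?_
      have := (hp (k + 1)).mul hr
      refine this.mono (by push_cast; omega)
  · rw [h0]
    have := hp0.coeff_mul hr.neg
    have e1 : -(M + e) = -M + -e := by ring
    rw [e1, this, HahnSeries.coeff_neg, mul_neg]

/-- a product of `n` linear factors with roots of pole order `≤ 1` -/
theorem weight_prod (r : ℕ → LaurentSeries R) (hr : ∀ c, Ge (-1) (r c)) (n : ℕ) :
    (∀ k : ℕ, Ge ((k : ℤ) - n) ((∏ c ∈ Finset.range n, (X - C (r c))).coeff k)) ∧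
      ((∏ c ∈ Finset.range n, (X - C (r c))).coeff 0).coeff (-(n : ℤ)) =
        ∏ c ∈ Finset.range n, (-(r c).coeff (-1)) := by
  induction n with
  | zero =>
    constructor
    · intro k
      rw [Finset.prod_range_zero, Polynomial.coeff_one]
      split_ifs with h
      · subst h
        simpa using (ge_one (R := R))
      · exact ge_zero _
    · rw [Finset.prod_range_zero, Finset.prod_range_zero, Polynomial.coeff_one_zero]
      simp [HahnSeries.coeff_one]
  | succ n ih =>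
    obtain ⟨ih1, ih2⟩ := ih
    have h := weight_mul_X_sub_C (∏ c ∈ Finset.range n, (X - C (r c))) n 1 le_rfl ih1 (r n) (hr n)
    rw [Finset.prod_range_succ]
    constructor
    · intro k
      have := h.1 k
      have e1 : ((n + 1 : ℕ) : ℤ) = (n : ℤ) + 1 := by push_cast; ring
      rw [e1]
      exact this
    · have e1 : -(((n + 1 : ℕ) : ℤ)) = -((n : ℤ) + 1) := by push_cast; ring
      rw [e1, h.2, ih2, Finset.prod_range_succ]
      ring

/-! ### Evaluation of a polynomial at a series with a pole -/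

/-- coefficients of `p(x)` for `x = q^(-e) + …` -/
theorem evalAt_ge_and_coeff [Nontrivial R] (x : LaurentSeries R) (e : ℕ) (he : 1 ≤ e)
    (hx : IsMonicAt x (-(e : ℤ))) (p : Polynomial R) (d : ℕ) (hd : p.natDegree ≤ d) :
    Ge (-((e : ℤ) * d)) (evalAt x p) ∧ (evalAt x p).coeff (-((e : ℤ) * d)) = p.coeff d := by
  have hev : evalAt x p = ∑ j ∈ Finset.range (d + 1), HahnSeries.C (p.coeff j) * x ^ j := by
    show Polynomial.eval₂ (HahnSeries.C : R →+* LaurentSeries R) x p = _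
    exact Polynomial.eval₂_eq_sum_range' (HahnSeries.C : R →+* LaurentSeries R)
      (Nat.lt_succ_of_le hd) x
  have hcoeff : ∀ (j : ℕ) (n : ℤ), (HahnSeries.C (p.coeff j) * x ^ j).coeff n =
      p.coeff j * (x ^ j).coeff n := by
    intro j n
    rw [HahnSeries.C_mul_eq_smul, HahnSeries.coeff_smul, smul_eq_mul]
  have hpow : ∀ j : ℕ, IsMonicAt (x ^ j) (-((e : ℤ) * j)) := by
    intro j
    have := isMonicAt_pow hx j
    have e1 : (j : ℤ) * -(e : ℤ) = -((e : ℤ) * j) := by ring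
    rw [e1] at this
    exact this
  have he' : (1 : ℤ) ≤ e := by exact_mod_cast he
  constructor
  · intro n hn
    rw [hev, HahnSeries.coeff_sum]
    refine Finset.sum_eq_zero fun j hj => ?_
    rw [hcoeff, (hpow j).2 n ?_, mul_zero]
    have hjd : (j : ℤ) ≤ d := by exact_mod_cast Nat.lt_succ_iff.mp (Finset.mem_range.mp hj)
    nlinarith
  · rw [hev, HahnSeries.coeff_sum, Finset.sum_eq_single d]
    · rw [hcoeff, (hpow d).1, mul_one]
    · intro j hj hne
      rw [hcoeff, (hpow j).2 _ ?_, mul_zero]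
      have hjd : (j : ℤ) < d := by
        have := Nat.lt_succ_iff.mp (Finset.mem_range.mp hj)
        exact_mod_cast lt_of_le_of_ne this hne
      nlinarith
    · intro hnot
      exact absurd (Finset.mem_range.mpr (Nat.lt_succ_self d)) hnot

end Order


/-! ### The degree bounds -/

section Main

/-- **Degree bounds for the modular polynomial**, general form: `φ : R → K` an injective ring
homomorphism, `Φ ∈ R[Y][X]` with `Φ(X, j(q^ℓ)) = (X - j(q^(ℓ²))) ∏_{c<ℓ} (X - j(ζ^c q))`. -/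
theorem modPoly_bounds_gen {R K : Type*} [CommRing R] [CommRing K] [Nontrivial K]
    (φ : R →+* K) (hφ : Function.Injective φ) (ℓ : ℕ) [NeZero ℓ]
    (Φ : Polynomial (Polynomial R)) (ζ : Kˣ) (hζ : ζ ^ ℓ = 1)
    (hΦ : (Φ.map (mapRingHom φ)).map (evalAt (qExpand K ℓ (jS K))) =
      (X - C (qExpand K (ℓ * ℓ) (jS K))) *
        ∏ c ∈ Finset.range ℓ, (X - C (tw (ζ ^ c) (jS K)))) :
    (∀ k, (Φ.coeff k).natDegree ≤ ℓ + 1) ∧ IsUnit ((Φ.coeff 0).coeff (ℓ + 1)) ∧
      (∀ k, k ≠ 0 → (Φ.coeff k).coeff (ℓ + 1) = 0) := by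
  classical
  have hℓpos : 0 < ℓ := NeZero.pos ℓ
  have hℓpos' : (0 : ℤ) < ℓ := by exact_mod_cast hℓpos
  have hxm : IsMonicAt (qExpand K ℓ (jS K)) (-(ℓ : ℤ)) := by
    have := (isMonicAt_jS (R := K)).qExpand ℓ
    rwa [mul_neg_one] at this
  have hinf : IsMonicAt (qExpand K (ℓ * ℓ) (jS K)) (-((ℓ * ℓ : ℕ) : ℤ)) := by
    have := (isMonicAt_jS (R := K)).qExpand (ℓ * ℓ)
    rwa [mul_neg_one] at this
  have hrge : ∀ c, Ge (-1) (tw (ζ ^ c) (jS K)) :=
    fun c => ((isMonicAt_jS (R := K)).tw_coeff (ζ ^ c)).2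
  have hrc : ∀ c, (tw (ζ ^ c) (jS K)).coeff (-1) = (((ζ ^ c) ^ (-1 : ℤ) : Kˣ) : K) :=
    fun c => ((isMonicAt_jS (R := K)).tw_coeff (ζ ^ c)).1
  obtain ⟨hw1, hw2⟩ := weight_prod (fun c => tw (ζ ^ c) (jS K)) hrge ℓ
  have hℓ1 : (1 : ℤ) ≤ ((ℓ * ℓ : ℕ) : ℤ) := by
    exact_mod_cast Nat.mul_pos hℓpos hℓpos
  obtain ⟨hQ1, hQ2⟩ := weight_mul_X_sub_C (∏ c ∈ Finset.range ℓ, (X - C (tw (ζ ^ c) (jS K))))
    ℓ ((ℓ * ℓ : ℕ) : ℤ) hℓ1 hw1 _ hinf.2
  rw [mul_comm] at hΦ
  have hcoeff : ∀ k, evalAt (qExpand K ℓ (jS K)) ((Φ.coeff k).map φ) =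
      ((∏ c ∈ Finset.range ℓ, (X - C (tw (ζ ^ c) (jS K)))) *
        (X - C (qExpand K (ℓ * ℓ) (jS K)))).coeff k := by
    intro k
    rw [← hΦ, Polynomial.coeff_map, Polynomial.coeff_map]
    rfl
  have hbound : ∀ k : ℕ, (Φ.coeff k).map φ ≠ 0 →
      (ℓ : ℤ) * ((Φ.coeff k).map φ).natDegree ≤ (ℓ : ℤ) + ((ℓ * ℓ : ℕ) : ℤ) - k := by
    intro k hne
    by_contra hlt
    push Not at hlt
    obtain ⟨-, h2⟩ := evalAt_ge_and_coeff (qExpand K ℓ (jS K)) ℓ hℓpos hxm
      ((Φ.coeff k).map φ) _ le_rfl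
    have h3 := hQ1 k (-((ℓ : ℤ) * ((Φ.coeff k).map φ).natDegree)) (by omega)
    rw [hcoeff, h3] at h2
    exact hne (Polynomial.leadingCoeff_eq_zero.mp h2.symm)
  have hdeg : ∀ k, (Φ.coeff k).natDegree = ((Φ.coeff k).map φ).natDegree :=
    fun k => (Polynomial.natDegree_map_eq_of_injective hφ _).symm
  have h1 : ∀ k, (Φ.coeff k).natDegree ≤ ℓ + 1 := by
    intro k
    rw [hdeg]
    by_cases hne : (Φ.coeff k).map φ = 0
    · rw [hne, Polynomial.natDegree_zero]
      exact Nat.zero_le _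
    · have hb := hbound k hne
      have hk : (0 : ℤ) ≤ k := Int.natCast_nonneg k
      have : (ℓ : ℤ) * ((Φ.coeff k).map φ).natDegree ≤ (ℓ : ℤ) * ((ℓ + 1 : ℕ) : ℤ) := by
        push_cast at hb ⊢
        nlinarith
      exact_mod_cast le_of_mul_le_mul_left this hℓpos'
  refine ⟨h1, ?_, ?_⟩
  · -- the leading coefficient of `Φ(0, Y)`
    obtain ⟨-, h2⟩ := evalAt_ge_and_coeff (qExpand K ℓ (jS K)) ℓ hℓpos hxm
      ((Φ.coeff 0).map φ) (ℓ + 1) (by rw [← hdeg]; exact h1 0)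
    have e1 : -((ℓ : ℤ) * ((ℓ + 1 : ℕ) : ℤ)) = -((ℓ : ℤ) + ((ℓ * ℓ : ℕ) : ℤ)) := by
      push_cast; ring
    rw [hcoeff, e1, hQ2, hw2, hinf.1, mul_one, Polynomial.coeff_map] at h2
    have hv : ∀ c : ℕ, ((((ζ ^ c) ^ (-1 : ℤ) : Kˣ) : K)) ^ ℓ = 1 := by
      intro c
      have : ((ζ ^ c) ^ (-1 : ℤ)) ^ ℓ = (1 : Kˣ) := by
        rw [zpow_neg_one, inv_pow, ← pow_mul, mul_comm, pow_mul, hζ, one_pow, inv_one]
      rw [← Units.val_pow_eq_pow_val, this, Units.val_one]
    have hpow : (φ ((Φ.coeff 0).coeff (ℓ + 1))) ^ (2 * ℓ) = 1 := by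
      rw [← h2, Even.neg_pow (even_two_mul ℓ), ← Finset.prod_pow]
      refine Finset.prod_eq_one fun c _ => ?_
      rw [hrc, Even.neg_pow (even_two_mul ℓ), mul_comm 2 ℓ, pow_mul, hv c, one_pow]
    have hpow' : ((Φ.coeff 0).coeff (ℓ + 1)) ^ (2 * ℓ) = 1 := by
      apply hφ
      rw [map_pow, hpow, map_one]
    exact IsUnit.of_pow_eq_one hpow' (by omega)
  · intro k hk
    by_cases hne : (Φ.coeff k).map φ = 0
    · have : Φ.coeff k = 0 := (Polynomial.map_eq_zero_iff hφ).mp hne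
      rw [this, Polynomial.coeff_zero]
    · have hb := hbound k hne
      have hk' : (1 : ℤ) ≤ k := by exact_mod_cast Nat.one_le_iff_ne_zero.mpr hk
      apply Polynomial.coeff_eq_zero_of_natDegree_lt
      rw [hdeg]
      have : (ℓ : ℤ) * ((Φ.coeff k).map φ).natDegree < (ℓ : ℤ) * ((ℓ + 1 : ℕ) : ℤ) := by
        push_cast at hb ⊢
        nlinarith
      exact_mod_cast lt_of_mul_lt_mul_left this hℓpos'.le

/-- **Degree bounds for the modular polynomial** over a valuation subring of `ℚ̄`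
(`Φ_ℓ(X, Y)` is monic of degree `ℓ + 1` in `Y` up to a unit). -/
theorem modPoly_bounds (A : ValuationSubring (AlgebraicClosure ℚ)) (ℓ : ℕ) [NeZero ℓ]
    (_hℓ : ℓ.Prime) (ΦA : Polynomial (Polynomial ↥A)) (ζ : (AlgebraicClosure ℚ)ˣ)
    (hζ : ζ ^ ℓ = 1)
    (hΦ : (ΦA.map (mapRingHom A.subtype)).map
        (evalAt (qExpand (AlgebraicClosure ℚ) ℓ (jS (AlgebraicClosure ℚ)))) =
      (X - C (qExpand (AlgebraicClosure ℚ) (ℓ * ℓ) (jS (AlgebraicClosure ℚ)))) *
        ∏ c ∈ Finset.range ℓ, (X - C (tw (ζ ^ c) (jS (AlgebraicClosure ℚ))))) :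
    (∀ k, (ΦA.coeff k).natDegree ≤ ℓ + 1) ∧ IsUnit ((ΦA.coeff 0).coeff (ℓ + 1)) ∧
      (∀ k, k ≠ 0 → (ΦA.coeff k).coeff (ℓ + 1) = 0) :=
  modPoly_bounds_gen A.subtype Subtype.val_injective ℓ ΦA ζ hζ hΦ

end Main

end Fermat.Agent.S37.ModPolyBounds
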