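import Mathlib
import Fermat.Agent.S37.TwoStage
import Fermat.Agent.S37.WChartPkg
import Fermat.Agent.S37.LevelDesc
import Fermat.Agent.S37.LevelChange
import Fermat.Agent.S37.ChartInstCuspClosure
import Fermat.Agent.S37.TorsionFree
import Fermat.Agent.S37.Centre

/-!
# S37, statement (W): constant reduction modulo the centre subgroup (assembly)

`constReduction` : for a prime `ℓ ∤ N` and a valuation subring `A` of `ℚ̄` over `ℓ`, a function
`f` on `X₀(N)` over `ℚ̄` whose divisor lies in `Centre.centreSubgroup A N` is, up to a constant,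
a quotient of two `A`-integral `q`-series with the same nonzero reduction.

Glue of the landed pieces: a first level `(L₀, ι₀)` over which `f` is defined and the fractions
`f = c · b_i / a_i` on the two charts (`GaussRed.exists_fractions`); a second level `(L, ι)`
over which all zeros of `a_i b_i` are rational (`LevelDesc`, `LevelChange.exists_base_pair`);
the transport to that level (`TwoStage.exists_stage2`); the chart congruences
(`WChartPkg.chart_congr_fin`, `chart_congr_cusp`).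
-/

set_option autoImplicit false
set_option linter.unusedSectionVars false
set_option linter.style.haveILetI false
set_option linter.unusedVariables false

noncomputable section

namespace Fermat.Agent.S37.WTopB

open Polynomial AlgebraicCurve ModularCurve Fermat.Agent.S37.GaloisValue
open Fermat.Agent.S18 Fermat.Agent.S18.Cusp Fermat.Agent.S37.RatPlace

local notation "Qb" => AlgebraicClosure ℚ

set_option maxHeartbeats 1600000 in
/-- **(W)**: constant reduction modulo the centre subgroup. -/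
theorem constReduction (N : ℕ) [NeZero N] {ℓ : ℕ} (hℓ : ℓ.Prime) (hℓN : ¬ ℓ ∣ N)
    (A : ValuationSubring Qb) (hA : A.LiesOverPrime ℓ) :
    TorsionFree.ConstReduction A N (Centre.centreSubgroup A N) := by
  classical
  intro f hf D hD hDf
  haveI : Fact ℓ.Prime := ⟨hℓ⟩
  -- stage 1: a level over which `f` is defined
  obtain ⟨S₀, hS₀⟩ := LevelDesc.eventually_exists_bc N f
  obtain ⟨L₀, _, _, ι₀, ⟨hS₀', hroots₀, hdvr₀, halgc₀, hperf₀, hchar₀, hℓ₀, hres₀⟩, hnext⟩ :=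
    LevelChange.exists_base_pair A hℓ hA S₀
  obtain ⟨x₀, hx₀⟩ := hS₀ L₀ ι₀ hS₀'
  haveI := hdvr₀
  haveI := halgc₀
  haveI := hchar₀
  obtain ⟨ϖ₀, hϖ₀⟩ := IsDiscreteValuationRing.exists_irreducible ↥(A.comap ι₀)
  letI alg₁₀ : Algebra (↥(A.comap ι₀))[X] (S24.FF L₀ N) := (Gauss.evF (A.comap ι₀) N).toAlgebra
  letI alg₂₀ : Algebra (CuspBase ↥(A.comap ι₀)) (S24.FF L₀ N) :=
    (Cusp.baseLift ↥(A.comap ι₀) (S24.jBC L₀ N)⁻¹
      (FFKit.one_sub_jBC_inv_ne_zero ι₀ N)).toRingHom.toAlgebra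
  have halg₂₀ : ∀ p : (↥(A.comap ι₀))[X], algebraMap (CuspBase ↥(A.comap ι₀)) (S24.FF L₀ N)
      (algebraMap (↥(A.comap ι₀))[X] (CuspBase ↥(A.comap ι₀)) p) =
        Gauss.evFinf (A.comap ι₀) N p :=
    fun p => ChartInstCuspClosure.baseLift_halg N ι₀ (A.comap ι₀) p
  have hx₀0 : x₀ ≠ 0 := by
    rintro rfl
    exact hf (by rw [← hx₀, map_zero])
  obtain ⟨c, g, hg, hc, hgu, hxg, ⟨a₁, b₁, ha₁, hb₁, hab₁, -⟩, ⟨a₂, b₂, ha₂, hb₂, hab₂, -⟩⟩ :=
    GaussRed.exists_fractions (A.comap ι₀) N ℓ hℓN hϖ₀ rfl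
      (integralClosure (↥(A.comap ι₀))[X] (S24.FF L₀ N)) halg₂₀
      (integralClosure (CuspBase ↥(A.comap ι₀)) (S24.FF L₀ N)) x₀ hx₀0
  -- the `ℚ̄`-images of the chart elements
  have hinj₁₀ : Function.Injective
      (algebraMap (integralClosure (↥(A.comap ι₀))[X] (S24.FF L₀ N)) (S24.FF L₀ N)) :=
    IsIntegralClosure.algebraMap_injective _ (↥(A.comap ι₀))[X] (S24.FF L₀ N)
  have hinj₂₀ : Function.Injective
      (algebraMap (integralClosure (CuspBase ↥(A.comap ι₀)) (S24.FF L₀ N)) (S24.FF L₀ N)) :=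
    IsIntegralClosure.algebraMap_injective _ (CuspBase ↥(A.comap ι₀)) (S24.FF L₀ N)
  have hbc₀ : Function.Injective (S24.CoeffBC.bc ι₀ (modularFunctionFieldFull N)) :=
    (S24.CoeffBC.bc ι₀ (modularFunctionFieldFull N)).injective
  have ha₁0 : a₁ ≠ 0 := fun h => ha₁ (h ▸ dvd_zero _)
  have hb₁0 : b₁ ≠ 0 := fun h => hb₁ (h ▸ dvd_zero _)
  have ha₂0 : a₂ ≠ 0 := fun h => ha₂ (h ▸ dvd_zero _)
  have hb₂0 : b₂ ≠ 0 := fun h => hb₂ (h ▸ dvd_zero _)
  have hψ₁ : ∀ y : integralClosure (↥(A.comap ι₀))[X] (S24.FF L₀ N), y ≠ 0 →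
      S24.CoeffBC.bc ι₀ (modularFunctionFieldFull N) (algebraMap _ (S24.FF L₀ N) y) ≠ 0 :=
    fun y hy h0 => hy (hinj₁₀ (hbc₀ (by rw [h0, map_zero, map_zero])))
  have hψ₂ : ∀ y : integralClosure (CuspBase ↥(A.comap ι₀)) (S24.FF L₀ N), y ≠ 0 →
      S24.CoeffBC.bc ι₀ (modularFunctionFieldFull N) (algebraMap _ (S24.FF L₀ N) y) ≠ 0 :=
    fun y hy h0 => hy (hinj₂₀ (hbc₀ (by rw [h0, map_zero, map_zero])))
  -- stage 2: a level over which the zeros of `a_i b_i` are rational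
  obtain ⟨S, hS⟩ := (LevelDesc.eventually_rational_of_ord_ne_zero N _
      (hψ₁ (a₁ * b₁) (mul_ne_zero ha₁0 hb₁0))).and
    (LevelDesc.eventually_rational_of_ord_ne_zero N _ (hψ₂ (a₂ * b₂) (mul_ne_zero ha₂0 hb₂0)))
  obtain ⟨L, _, _, ι, τ, hτ, hSL, hroots, hdvr, halgc, hperf, hchar, hℓW, hres⟩ := hnext S
  obtain ⟨hrat₁, hrat₂⟩ := hS L ι (fun a ha => hSL a (Finset.mem_union_right _ ha))
  haveI := hdvr
  haveI := halgc
  haveI := hchar
  obtain ⟨ϖ, hϖ⟩ := IsDiscreteValuationRing.exists_irreducible ↥(A.comap ι)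
  letI alg₁ : Algebra (↥(A.comap ι))[X] (S24.FF L N) := (Gauss.evF (A.comap ι) N).toAlgebra
  letI alg₂ : Algebra (CuspBase ↥(A.comap ι)) (S24.FF L N) :=
    (Cusp.baseLift ↥(A.comap ι) (S24.jBC L N)⁻¹
      (FFKit.one_sub_jBC_inv_ne_zero ι N)).toRingHom.toAlgebra
  have halg₂ : ∀ p : (↥(A.comap ι))[X], algebraMap (CuspBase ↥(A.comap ι)) (S24.FF L N)
      (algebraMap (↥(A.comap ι))[X] (CuspBase ↥(A.comap ι)) p) =
        Gauss.evFinf (A.comap ι) N p :=
    fun p => ChartInstCuspClosure.baseLift_halg N ι (A.comap ι) p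
  obtain ⟨a₁', b₁', a₂', b₂', ⟨h1a, h1b, hna₁, hnb₁⟩, ⟨h2a, h2b, hna₂, hnb₂⟩, hfin⟩ :=
    TwoStage.exists_stage2 A N ℓ ι₀ ι τ hτ hℓN hϖ₀ hϖ rfl
      (integralClosure (↥(A.comap ι₀))[X] (S24.FF L₀ N)) halg₂₀
      (integralClosure (CuspBase ↥(A.comap ι₀)) (S24.FF L₀ N)) rfl
      (integralClosure (↥(A.comap ι))[X] (S24.FF L N)) halg₂
      (integralClosure (CuspBase ↥(A.comap ι)) (S24.FF L N))
      x₀ c hc g hg hgu hxg a₁ b₁ ha₁ hb₁ hab₁ a₂ b₂ ha₂ hb₂ hab₂
  -- the divisor of `f` in terms of `g`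
  have hg0 : g ≠ 0 := by
    rintro rfl
    exact hx₀0 (by rw [hxg, mul_zero])
  have hψg : S24.CoeffBC.bc ι₀ (modularFunctionFieldFull N) g ≠ 0 := fun h0 =>
    hg0 (hbc₀ (by rw [h0, map_zero]))
  have hDg : ∀ P : Place Qb ↥(modularFunctionFieldBar N),
      D P = P.ord (S24.CoeffBC.bc ι₀ (modularFunctionFieldFull N) g) := by
    intro P
    have hc' : algebraMap Qb ↥(modularFunctionFieldBar N) (ι₀ c) ≠ 0 := by
      rw [Ne, map_eq_zero, map_eq_zero]
      exact hc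
    rw [hDf P, ← hx₀, hxg, RingHom.map_mul, S24.CoeffBC.bc_algebraMap, Place.ord_mul P hc' hψg,
      Descent.ord_algebraMap, zero_add]
  have hDab₁ : ∀ P : Place Qb ↥(modularFunctionFieldBar N),
      D P = P.ord (S24.CoeffBC.bc ι (modularFunctionFieldFull N)
          (algebraMap (integralClosure (↥(A.comap ι))[X] (S24.FF L N)) (S24.FF L N) b₁'))
        - P.ord (S24.CoeffBC.bc ι (modularFunctionFieldFull N)
          (algebraMap (integralClosure (↥(A.comap ι))[X] (S24.FF L N)) (S24.FF L N) a₁')) := by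
    intro P
    rw [h1a, h1b, hab₁, RingHom.map_mul, Place.ord_mul P (hψ₁ a₁ ha₁0) hψg, hDg P]
    ring
  have hDab₂ : ∀ P : Place Qb ↥(modularFunctionFieldBar N),
      D P = P.ord (S24.CoeffBC.bc ι (modularFunctionFieldFull N)
          (algebraMap (integralClosure (CuspBase ↥(A.comap ι)) (S24.FF L N)) (S24.FF L N) b₂'))
        - P.ord (S24.CoeffBC.bc ι (modularFunctionFieldFull N)
          (algebraMap (integralClosure (CuspBase ↥(A.comap ι)) (S24.FF L N)) (S24.FF L N) a₂')) := by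
    intro P
    rw [h2a, h2b, hab₂, RingHom.map_mul, Place.ord_mul P (hψ₂ a₂ ha₂0) hψg, hDg P]
    ring
  have he₁ : S24.CoeffBC.bc ι (modularFunctionFieldFull N)
      (algebraMap (integralClosure (↥(A.comap ι))[X] (S24.FF L N)) (S24.FF L N) (a₁' * b₁')) =
      S24.CoeffBC.bc ι₀ (modularFunctionFieldFull N)
        (algebraMap (integralClosure (↥(A.comap ι₀))[X] (S24.FF L₀ N)) (S24.FF L₀ N)
          (a₁ * b₁)) := by
    rw [RingHom.map_mul, RingHom.map_mul, h1a, h1b, RingHom.map_mul, RingHom.map_mul]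
  have he₂ : S24.CoeffBC.bc ι (modularFunctionFieldFull N)
      (algebraMap (integralClosure (CuspBase ↥(A.comap ι)) (S24.FF L N)) (S24.FF L N)
        (a₂' * b₂')) =
      S24.CoeffBC.bc ι₀ (modularFunctionFieldFull N)
        (algebraMap (integralClosure (CuspBase ↥(A.comap ι₀)) (S24.FF L₀ N)) (S24.FF L₀ N)
          (a₂ * b₂)) := by
    rw [RingHom.map_mul, RingHom.map_mul, h2a, h2b, RingHom.map_mul, RingHom.map_mul]
  have hP₁ : ∀ P : Place Qb ↥(modularFunctionFieldBar N),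
      0 < P.ord (S24.CoeffBC.bc ι (modularFunctionFieldFull N)
        (algebraMap (integralClosure (↥(A.comap ι))[X] (S24.FF L N)) (S24.FF L N) (a₁' * b₁'))) →
      P.ord (S24.CoeffBC.bc ι₀ (modularFunctionFieldFull N)
        (algebraMap (integralClosure (↥(A.comap ι₀))[X] (S24.FF L₀ N)) (S24.FF L₀ N)
          (a₁ * b₁))) ≠ 0 := by
    intro P hP
    rw [← he₁]
    exact hP.ne'
  have hP₂ : ∀ P : Place Qb ↥(modularFunctionFieldBar N),
      0 < P.ord (S24.CoeffBC.bc ι (modularFunctionFieldFull N)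
        (algebraMap (integralClosure (CuspBase ↥(A.comap ι)) (S24.FF L N)) (S24.FF L N)
          (a₂' * b₂'))) →
      P.ord (S24.CoeffBC.bc ι₀ (modularFunctionFieldFull N)
        (algebraMap (integralClosure (CuspBase ↥(A.comap ι₀)) (S24.FF L₀ N)) (S24.FF L₀ N)
          (a₂ * b₂))) ≠ 0 := by
    intro P hP
    rw [← he₂]
    exact hP.ne'
  have hRAT₁ := fun P hP => hrat₁ P (hP₁ P hP)
  have hRAT₂ := fun P hP => hrat₂ P (hP₂ P hP)
  -- the chart congruences at the level `L`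
  have hc₁ := WChartPkg.chart_congr_fin (ℓ := ℓ) N A ι hℓ hℓN hroots ϖ hϖ rfl
    (integralClosure (↥(A.comap ι))[X] (S24.FF L N)) a₁' b₁' hna₁ hnb₁ hRAT₁ D hD hDab₁
  have hc₂ := WChartPkg.chart_congr_cusp (ℓ := ℓ) N A ι hℓ hℓN hroots ϖ hϖ halg₂
    (integralClosure (CuspBase ↥(A.comap ι)) (S24.FF L N)) a₂' b₂' hna₂ hnb₂ hRAT₂ D hD hDab₂
  obtain ⟨e₁, -, -, hcong₁⟩ := hc₁
  obtain ⟨e₂, -, -, hcong₂⟩ := hc₂
  obtain ⟨c', Y₁, Y₂, h₁, h₂, hc', hY, hY0, hfin'⟩ := hfin e₁ e₂ hcong₁ hcong₂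
  exact ⟨c', Y₁, Y₂, h₁, h₂, hc', hY, hY0, by rw [← hx₀]; exact hfin'⟩

end Fermat.Agent.S37.WTopB
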