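import Mathlib
import Fermat.Prelude.Def_ModularCurve_HeckeModule
import Fermat.Agent.S24.Defs
import Fermat.Agent.S37.GaloisValue

/-!
# S37: centres of places and the subgroup of divisors with trivial specialisation

`A` is a valuation subring of `ℚ̄` (a place over `ℓ`), `F = modularFunctionFieldBar N`.
For a place `P` of `F` over `ℚ̄`, "the value of `f` at `P` is `c`" is
`GaloisValue.IsValueAt P f c`.

* `IntFin A N f` : `f` is integral over `A[j]`;  `IntInf A N f` : `f` is integral over `A[1/j]`
  (both in the instance-free form `RingHom.IsIntegralElem` along the inclusion of the subring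
  `ringOver A N g` generated by the constants of `A` and `g`).
* `InFin A N P` : `j(P) ∈ A`;  `InInf A N P` : `(1/j)(P) ∈ m_A`.
* `SameCenter A N P P'` : both places are finite and every `f` integral over `A[j]` has
  congruent values modulo `m_A` at `P` and `P'`, or both are infinite and the same holds for
  every `f` integral over `A[1/j]`.
* `redTrivDiv A N` : the subgroup of divisors generated by the `P - P'` with
  `SameCenter A N P P'`.
-/

set_option autoImplicit false

noncomputable section

namespace Fermat.Agent.S37.Center

open ModularCurve AlgebraicCurve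
open Fermat.Agent.S37.GaloisValue

local notation "Qb" => AlgebraicClosure ℚ

variable (A : ValuationSubring Qb) (N : ℕ) [NeZero N]

/-- the `j`-invariant as an element of the function field over `ℚ̄` -/
def jBar : modularFunctionFieldBar N := Fermat.Agent.S24.jBC Qb N

theorem coe_jBar : ((jBar N : modularFunctionFieldBar N) : LaurentSeries Qb) = coeffEmb Qb jq :=
  rfl

/-- the subring `A[g]` of `F` generated by the constants of `A` and the function `g` -/
def ringOver (g : modularFunctionFieldBar N) : Subring (modularFunctionFieldBar N) :=
  Subring.closure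
    (Set.image (algebraMap Qb (modularFunctionFieldBar N)) (A : Set Qb) ∪ {g})

omit [NeZero N] in
theorem algebraMap_mem_ringOver (g : modularFunctionFieldBar N) {a : Qb} (ha : a ∈ A) :
    algebraMap Qb (modularFunctionFieldBar N) a ∈ ringOver A N g :=
  Subring.subset_closure (Or.inl ⟨a, ha, rfl⟩)

omit [NeZero N] in
theorem self_mem_ringOver (g : modularFunctionFieldBar N) : g ∈ ringOver A N g :=
  Subring.subset_closure (Or.inr rfl)

/-- `f` is integral over `A[j]` -/
def IntFin (f : modularFunctionFieldBar N) : Prop :=
  (ringOver A N (jBar N)).subtype.IsIntegralElem f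

/-- `f` is integral over `A[1/j]` -/
def IntInf (f : modularFunctionFieldBar N) : Prop :=
  (ringOver A N (jBar N)⁻¹).subtype.IsIntegralElem f

/-- the place `P` is finite with respect to `A`: `j(P) ∈ A` -/
def InFin (P : Place Qb (modularFunctionFieldBar N)) : Prop :=
  ∃ a ∈ A, IsValueAt P (jBar N) a

/-- the place `P` is infinite with respect to `A`: `(1/j)(P) ∈ m_A` -/
def InInf (P : Place Qb (modularFunctionFieldBar N)) : Prop :=
  ∃ a ∈ A.nonunits, IsValueAt P (jBar N)⁻¹ a

/-- `P` and `P'` have congruent values on every function of the family `I` -/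
def CongrOn (I : modularFunctionFieldBar N → Prop)
    (P P' : Place Qb (modularFunctionFieldBar N)) : Prop :=
  ∀ f : modularFunctionFieldBar N, I f → ∀ c c' : Qb, IsValueAt P f c → IsValueAt P' f c' →
    c - c' ∈ A.nonunits

/-- `P` and `P'` have the same centre on the special fibre of the two-chart model. -/
def SameCenter (P P' : Place Qb (modularFunctionFieldBar N)) : Prop :=
  (InFin A N P ∧ InFin A N P' ∧ CongrOn A N (IntFin A N) P P') ∨
    (InInf A N P ∧ InInf A N P' ∧ CongrOn A N (IntInf A N) P P')

/-- the divisors `P - P'` with `P`, `P'` of the same centre -/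
def centerGens : Set (Divisor Qb (modularFunctionFieldBar N)) :=
  {D | ∃ P P' : Place Qb (modularFunctionFieldBar N), SameCenter A N P P' ∧
    D = Finsupp.single P 1 - Finsupp.single P' 1}

/-- the subgroup of divisors with trivial specialisation -/
def redTrivDiv : AddSubgroup (Divisor Qb (modularFunctionFieldBar N)) :=
  AddSubgroup.closure (centerGens A N)

variable {A N}

theorem sub_mem_redTrivDiv {P P' : Place Qb (modularFunctionFieldBar N)}
    (h : SameCenter A N P P') :
    (Finsupp.single P 1 - Finsupp.single P' 1 : Divisor Qb (modularFunctionFieldBar N))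
      ∈ redTrivDiv A N :=
  AddSubgroup.subset_closure ⟨P, P', h, rfl⟩

omit [NeZero N] in
theorem CongrOn.symm {I : modularFunctionFieldBar N → Prop}
    {P P' : Place Qb (modularFunctionFieldBar N)} (h : CongrOn A N I P P') :
    CongrOn A N I P' P := by
  intro f hf c c' hc hc'
  have h1 := h f hf c' c hc' hc
  have h2 : c - c' = -(c' - c) := by ring
  rw [A.mem_nonunits_iff] at h1 ⊢
  rwa [h2, Valuation.map_neg]

omit [NeZero N] in
theorem CongrOn.refl (I : modularFunctionFieldBar N → Prop)
    (P : Place Qb (modularFunctionFieldBar N)) : CongrOn A N I P P := by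
  intro f _ c c' hc hc'
  rw [hc.unique hc', sub_self, A.mem_nonunits_iff, map_zero]
  exact zero_lt_one

theorem SameCenter.symm {P P' : Place Qb (modularFunctionFieldBar N)}
    (h : SameCenter A N P P') : SameCenter A N P' P := by
  rcases h with ⟨h1, h2, h3⟩ | ⟨h1, h2, h3⟩
  · exact Or.inl ⟨h2, h1, h3.symm⟩
  · exact Or.inr ⟨h2, h1, h3.symm⟩

theorem SameCenter.refl_of_inFin {P : Place Qb (modularFunctionFieldBar N)}
    (h : InFin A N P) : SameCenter A N P P :=
  Or.inl ⟨h, h, CongrOn.refl _ P⟩

theorem SameCenter.refl_of_inInf {P : Place Qb (modularFunctionFieldBar N)}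
    (h : InInf A N P) : SameCenter A N P P :=
  Or.inr ⟨h, h, CongrOn.refl _ P⟩

/-- An additive functional on divisors which takes the same value on `P` and `P'` whenever
they have the same centre vanishes on `redTrivDiv`. -/
theorem map_eq_zero_of_mem_redTrivDiv {G : Type*} [AddCommGroup G]
    (φ : Divisor Qb (modularFunctionFieldBar N) →+ G)
    (hφ : ∀ P P' : Place Qb (modularFunctionFieldBar N), SameCenter A N P P' →
      φ (Finsupp.single P 1) = φ (Finsupp.single P' 1))
    {D : Divisor Qb (modularFunctionFieldBar N)} (hD : D ∈ redTrivDiv A N) : φ D = 0 := by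
  have : redTrivDiv A N ≤ φ.ker := by
    refine (AddSubgroup.closure_le _).mpr ?_
    rintro _ ⟨P, P', h, rfl⟩
    show φ _ = 0
    rw [map_sub, hφ P P' h, sub_self]
  exact this hD

end Fermat.Agent.S37.Center
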