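import Mathlib
import Fermat.Agent.S37.GaussNoeth

/-!
# S37, Stage 3: (FRAC) with denominators in the base of the chart

Every element of the function field `FF L N` is a quotient `y₁ / d` with `y₁` in the chart ring
(the integral closure of `W[j]`, resp. of `CuspBase W = W[1/j, 1/(1 - 1728/j)]`, in `FF L N`) and
`d` a nonzero element of the base `W[j]` (resp. `CuspBase W`).

* `exists_quot_of_isAlgebraic`, `closure_frac_den`: the generic statements;
* `frac_fin_den`: the finite chart;
* `frac_cusp_den`: the cusp chart.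
-/

set_option autoImplicit false
set_option linter.unusedSectionVars false
set_option linter.style.haveILetI false

noncomputable section

namespace Fermat.Agent.S37.ChartFracDen

open Polynomial ModularCurve Fermat.Agent.S18 Fermat.Agent.S18.Gauss Fermat.Agent.S37.GaussPrime
  Fermat.Agent.S37.GaussNoeth

/-! ### Generic -/

section Generic

/-- An element of a field `E` that is algebraic over a ring `D ⊆ E` is a quotient of an element
of (any model `B` of) the integral closure of `D` in `E` by a nonzero element of `D`. -/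
theorem exists_quot_of_isAlgebraic {D : Type*} [CommRing D] {E : Type*} [Field E]
    [Algebra D E] (hinj : Function.Injective (algebraMap D E))
    (B : Type*) [CommRing B] [Algebra D B] [Algebra B E] [IsScalarTower D B E]
    [IsIntegralClosure B D E] (g : E) (hg : IsAlgebraic D g) :
    ∃ (y₁ : B) (d : D), d ≠ 0 ∧ algebraMap D B d ≠ 0 ∧
      g * algebraMap B E (algebraMap D B d) = algebraMap B E y₁ := by
  obtain ⟨y, hy0, hy⟩ := hg.exists_integral_multiple
  obtain ⟨b, hb⟩ := (IsIntegralClosure.isIntegral_iff (A := B)).mp hy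
  refine ⟨b, y, hy0, ?_, ?_⟩
  · intro h0
    have h1 : algebraMap D E y = 0 := by
      rw [IsScalarTower.algebraMap_apply D B E, h0, map_zero]
    exact hy0 (hinj (by rw [h1, map_zero]))
  · rw [hb, ← IsScalarTower.algebraMap_apply D B E, Algebra.smul_def, mul_comm]

/-- The integral closure `B` of a domain `D` in a field `E` that is finite over a subfield
consisting of fractions of `D`: every element of `E` is a quotient of an element of `B` by a
nonzero element of `D`. -/
theorem closure_frac_den {D : Type*} [CommRing D] [IsDomain D] {E : Type*} [Field E]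
    [Algebra D E] (hinj : Function.Injective (algebraMap D E)) (S : Subfield E)
    [Module.Finite S E]
    (hS : ∀ s ∈ S, ∃ a b : D, algebraMap D E b ≠ 0 ∧ s = algebraMap D E a / algebraMap D E b)
    (B : Type*) [CommRing B] [Algebra D B] [Algebra B E] [IsScalarTower D B E]
    [IsIntegralClosure B D E] (g : E) :
    ∃ (y₁ : B) (d : D), d ≠ 0 ∧ algebraMap D B d ≠ 0 ∧
      g * algebraMap B E (algebraMap D B d) = algebraMap B E y₁ := by
  letI : Algebra (FractionRing D) E := FFKit.fracAlgebra (FractionRing D) (algebraMap D E) hinj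
  haveI : IsScalarTower D (FractionRing D) E := IsScalarTower.of_algebraMap_eq
    (fun a => (FFKit.fracAlgebra_algebraMap (FractionRing D) _ hinj a).symm)
  haveI : FiniteDimensional (FractionRing D) E :=
    FFKit.fracAlgebra_finite (FractionRing D) (algebraMap D E) hinj S hS
  have hg : IsAlgebraic D g :=
    (IsFractionRing.isAlgebraic_iff D (FractionRing D) E).mpr (Algebra.IsAlgebraic.isAlgebraic g)
  exact exists_quot_of_isAlgebraic hinj B g hg

end Generic

variable {L : Type*} [Field L] [Algebra ℚ L] (W : ValuationSubring L)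
  (N : ℕ) [NeZero N]

/-! ### The finite chart -/

section Fin

/-- The finite chart, denominator in `W[X]`: for any integral closure `B` of `W[X]`
(`X ↦ j`) in `FF L N`, every `g : FF L N` is `y₁ / p(j)` with `y₁ ∈ B`, `p ∈ W[X]`, `p ≠ 0`. -/
theorem frac_fin_den [Algebra (↥W)[X] (Fermat.Agent.S24.FF L N)]
    (halg : algebraMap (↥W)[X] (Fermat.Agent.S24.FF L N) = evF W N)
    (B : Type*) [CommRing B] [Algebra (↥W)[X] B] [Algebra B (Fermat.Agent.S24.FF L N)]
    [IsScalarTower (↥W)[X] B (Fermat.Agent.S24.FF L N)]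
    [IsIntegralClosure B (↥W)[X] (Fermat.Agent.S24.FF L N)] (g : Fermat.Agent.S24.FF L N) :
    ∃ (y₁ : B) (p : (↥W)[X]), p ≠ 0 ∧ algebraMap (↥W)[X] B p ≠ 0 ∧
      g * algebraMap B (Fermat.Agent.S24.FF L N) (algebraMap (↥W)[X] B p) =
        algebraMap B (Fermat.Agent.S24.FF L N) y₁ := by
  haveI h := (Gauss.finrank_FF_le L N).1
  haveI hfin : Module.Finite (IntermediateField.adjoin L {Fermat.Agent.S24.jBC L N}).toSubfield
      (Fermat.Agent.S24.FF L N) := h
  refine closure_frac_den (by rw [halg]; exact evF_injective W N)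
    (IntermediateField.adjoin L {Fermat.Agent.S24.jBC L N}).toSubfield ?_ B g
  intro s hs
  obtain ⟨a, b, hb, e⟩ := exists_div_of_mem_adjoin (W := ↥W) (Fermat.Agent.S24.jBC L N) s hs
  refine ⟨a, b, ?_, ?_⟩
  · rw [halg, evF_eq_aeval]
    exact hb
  · rw [halg, evF_eq_aeval, evF_eq_aeval]
    exact e

end Fin

/-! ### The cusp chart -/

section CuspChart

open Fermat.Agent.S18.Cusp

variable [IsDiscreteValuationRing W]

/-- The cusp chart, denominator in the base: for any integral closure `B` of `CuspBase W`
(`t ↦ 1/j`) in `FF L N`, every `g : FF L N` is `y₁ / d` with `y₁ ∈ B` and `d` a nonzero element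
of `CuspBase W`. -/
theorem frac_cusp_den [Algebra (CuspBase ↥W) (Fermat.Agent.S24.FF L N)]
    (halg : ∀ p : (↥W)[X], algebraMap (CuspBase ↥W) (Fermat.Agent.S24.FF L N)
      (algebraMap (↥W)[X] (CuspBase ↥W) p) = evFinf W N p)
    (B : Type*) [CommRing B] [Algebra (CuspBase ↥W) B] [Algebra B (Fermat.Agent.S24.FF L N)]
    [IsScalarTower (CuspBase ↥W) B (Fermat.Agent.S24.FF L N)]
    [IsIntegralClosure B (CuspBase ↥W) (Fermat.Agent.S24.FF L N)]
    (g : Fermat.Agent.S24.FF L N) :
    ∃ (y₁ : B) (d : CuspBase ↥W), d ≠ 0 ∧ algebraMap (CuspBase ↥W) B d ≠ 0 ∧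
      g * algebraMap B (Fermat.Agent.S24.FF L N) (algebraMap (CuspBase ↥W) B d) =
        algebraMap B (Fermat.Agent.S24.FF L N) y₁ := by
  haveI h := (Gauss.finrank_FF_le L N).1
  haveI hfin : Module.Finite (IntermediateField.adjoin L {Fermat.Agent.S24.jBC L N}).toSubfield
      (Fermat.Agent.S24.FF L N) := h
  haveI := cuspBase_isDomain ↥W
  refine closure_frac_den (cusp_algebraMap_injective W N halg)
    (IntermediateField.adjoin L {Fermat.Agent.S24.jBC L N}).toSubfield ?_ B g
  intro s hs
  have hs' : s ∈ IntermediateField.adjoin L {(Fermat.Agent.S24.jBC L N)⁻¹} := by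
    have hle : IntermediateField.adjoin L {Fermat.Agent.S24.jBC L N} ≤
        IntermediateField.adjoin L {(Fermat.Agent.S24.jBC L N)⁻¹} := by
      rw [IntermediateField.adjoin_le_iff, Set.singleton_subset_iff]
      have h1 := inv_mem (IntermediateField.mem_adjoin_simple_self L
        (Fermat.Agent.S24.jBC L N)⁻¹)
      rwa [inv_inv] at h1
    exact hle hs
  obtain ⟨a, b, hb, e⟩ := exists_div_of_mem_adjoin (W := ↥W) (Fermat.Agent.S24.jBC L N)⁻¹ s hs'
  refine ⟨algebraMap (↥W)[X] (CuspBase ↥W) a, algebraMap (↥W)[X] (CuspBase ↥W) b, ?_, ?_⟩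
  · rw [halg, evFinf_eq_aeval]
    exact hb
  · rw [halg, halg, evFinf_eq_aeval, evFinf_eq_aeval]
    exact e

end CuspChart

end Fermat.Agent.S37.ChartFracDen
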