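import Mathlib
import Fermat.Agent.S18.HesseJ

/-!
# S37 : inertia input of the chart-normality theorem, Hesse chart

For the Hesse cover `Y' = F(x0)` of a field `F ∋ j` (`x0` a root of the Hesse polynomial of `j`,
degree `12`): every nontrivial `σ ∈ Gal(Y'/F)` moves `x0` to one of its eleven other conjugates
`wⁱ x0`, `wⁱ (wᵏ x0 + 2)/(wᵏ x0 - 1)`, and `σ x0 - x0` divides `j` (elements of order `3`) resp.
`j - 1728` (elements of order `2`) in the chart ring `W[x, 1/(x³-1)]`.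
-/

set_option autoImplicit false
set_option linter.unusedSectionVars false
set_option linter.style.haveILetI false
set_option linter.unusedVariables false

namespace Fermat.Agent.S37.ChartInertH

open Polynomial Fermat.Agent.S18.Hesse Fermat.Agent.S18.AuxCover

section Core

variable {S : Type*} [CommRing S]

/-- A Möbius conjugate of order `3`: `e (u + 2)/(u - 1) - x` divides `j`. -/
theorem hes_mobius3 (x z v e u I r : S) (hz : (x ^ 3 - 1) * z = 1) (hv : v ^ 3 = 1)
    (he : e ^ 3 = 1) (hp : (e * v) ^ 2 + e * v + 1 = 0) (hu : u = v * x) (hI : I * (u - 1) = 1)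
    (hr : r = e * ((u + 2) * I)) : (r - x) ∣ hesJ x z := by
  have hc3 : (e ^ 2 * v) ^ 3 = 1 := by
    calc (e ^ 2 * v) ^ 3 = (e ^ 3) ^ 2 * v ^ 3 := by ring
      _ = 1 := by rw [he, hv]; ring
  have h1 : r - x = (-(I * v) * (x - e ^ 2 * v)) * (x + 2 * (e ^ 2 * v)) := by
    subst hu hr
    linear_combination x * hI + I * x * hp - 2 * I * e * he - 2 * I * e ^ 4 * hv
  have hU : IsUnit (-(I * v) * (x - e ^ 2 * v)) := by
    refine IsUnit.mul (IsUnit.neg (IsUnit.mul ?_ ?_)) ?_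
    · exact IsUnit.of_mul_eq_one _ hI
    · exact IsUnit.of_mul_eq_one (v ^ 2) (by linear_combination hv)
    · refine IsUnit.of_mul_eq_one ((x ^ 2 + (e ^ 2 * v) * x + (e ^ 2 * v) ^ 2) * z) ?_
      linear_combination hz - z * hc3
  have hd : (x + 2 * (e ^ 2 * v)) ∣ hesJ x z := by
    refine Dvd.intro ((x ^ 2 - 2 * (e ^ 2 * v) * x + 4 * (e ^ 2 * v) ^ 2) *
      (27 * x ^ 3 * (x ^ 3 + 8) ^ 2 * z ^ 3)) ?_
    unfold hesJ
    linear_combination (8 * 27 * x ^ 3 * (x ^ 3 + 8) ^ 2 * z ^ 3) * hc3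
  rw [h1]
  exact (hU.mul_left_dvd).mpr hd

/-- A Möbius conjugate of order `2`: `e (u + 2)/(u - 1) - x` divides `j - 1728`. -/
theorem hes_mobius2 (x z v e u I r : S) (hz : (x ^ 3 - 1) * z = 1) (hv : v ^ 3 = 1)
    (hev : e * v = 1) (hu : u = v * x) (hI : I * (u - 1) = 1)
    (hr : r = e * ((u + 2) * I)) : (r - x) ∣ hesJ x z - 1728 := by
  have hv2 : (v ^ 2) ^ 3 = 1 := by
    calc (v ^ 2) ^ 3 = (v ^ 3) ^ 2 := by ring
      _ = 1 := by rw [hv]; ring
  have h1 : r - x = (-(I * v ^ 2)) * (v ^ 2 * x ^ 2 - 2 * (v ^ 2) ^ 2 * x - 2) := by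
    subst hu hr
    linear_combination x * hI + (I * x + 2 * I * v ^ 2) * hev +
      (I * v * x ^ 2 - 2 * I * x * (v ^ 3 + 1) - 2 * I * e) * hv
  have hU : IsUnit (-(I * v ^ 2)) := by
    refine IsUnit.neg (IsUnit.mul ?_ ?_)
    · exact IsUnit.of_mul_eq_one _ hI
    · exact IsUnit.of_mul_eq_one v (by linear_combination hv)
  have hG := hesG_sub x z (v ^ 2) hz hv2
  have hd1 : (v ^ 2 * x ^ 2 - 2 * (v ^ 2) ^ 2 * x - 2) ∣ hesG x z - 12 * v ^ 2 := by
    rw [hG]
    exact Dvd.intro (3 * v ^ 2 * (v ^ 2 * x ^ 2 - 2 * (v ^ 2) ^ 2 * x - 2) * z) (by ring)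
  have hd2 : (hesG x z - 12 * v ^ 2) ∣ hesJ x z - 1728 := by
    refine Dvd.intro (hesG x z ^ 2 + 12 * v ^ 2 * hesG x z + 144 * v ^ 4) ?_
    rw [← hesG_pow_three]
    linear_combination (-1728 * (v ^ 3 + 1)) * hv
  rw [h1]
  exact (hU.mul_left_dvd).mpr (hd1.trans hd2)

/-- Each of the twelve conjugates `r` of `x` is `x` itself, or `r - x` divides `j` or
`j - 1728` in the chart ring. -/
theorem hes_root_dvd (x z w : S) (hz : (x ^ 3 - 1) * z = 1) (hw : w ^ 2 + w + 1 = 0) (r : S)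
    (hr : r ∈ hesRoots x z w) :
    r = x ∨ (r - x) ∣ hesJ x z ∨ (r - x) ∣ hesJ x z - 1728 := by
  have hw3 : w ^ 3 = 1 := cube_eq_one_of_root hw
  have hw6 : (w ^ 2) ^ 3 = 1 := by linear_combination (w ^ 3 + 1) * hw3
  have h0 : hesI0 x z * (x - 1) = 1 := hesI0_mul x z hz
  have h1 : hesI1 x z w * (w * x - 1) = 1 := hesI1_mul x z w hz hw
  have h2 : hesI2 x z w * (w ^ 2 * x - 1) = 1 := hesI2_mul x z w hz hw
  simp only [hesRoots, List.mem_cons, List.mem_nil_iff, or_false] at hr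
  rcases hr with rfl | rfl | rfl | rfl | rfl | rfl | rfl | rfl | rfl | rfl | rfl | rfl
  · exact Or.inl rfl
  · refine Or.inr (Or.inl (Dvd.intro ((w ^ 2 - 1) * 9 * x ^ 2 * (x ^ 3 + 8) ^ 3 * z ^ 3) ?_))
    unfold hesJ
    linear_combination (9 * x ^ 3 * (x ^ 3 + 8) ^ 3 * z ^ 3 * (w - 2)) * hw
  · refine Or.inr (Or.inl (Dvd.intro ((w - 1) * 9 * x ^ 2 * (x ^ 3 + 8) ^ 3 * z ^ 3) ?_))
    unfold hesJ
    linear_combination (9 * x ^ 3 * (x ^ 3 + 8) ^ 3 * z ^ 3 * (w - 2)) * hw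
  -- v = 1
  · exact Or.inr (Or.inr (hes_mobius2 x z 1 1 x (hesI0 x z) _ hz (by ring) (by ring) (by ring) h0
      (by unfold hesC0; ring)))
  · exact Or.inr (Or.inl (hes_mobius3 x z 1 w x (hesI0 x z) _ hz (by ring) hw3
      (by linear_combination hw) (by ring) h0 (by unfold hesC0; ring)))
  · exact Or.inr (Or.inl (hes_mobius3 x z 1 (w ^ 2) x (hesI0 x z) _ hz (by ring) hw6
      (by linear_combination w * hw3 + hw) (by ring) h0 (by unfold hesC0; ring)))
  -- v = w
  · exact Or.inr (Or.inl (hes_mobius3 x z w 1 (w * x) (hesI1 x z w) _ hz hw3 (by ring)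
      (by linear_combination hw) rfl h1 (by unfold hesC1; ring)))
  · exact Or.inr (Or.inl (hes_mobius3 x z w w (w * x) (hesI1 x z w) _ hz hw3 hw3
      (by linear_combination w * hw3 + hw) rfl h1 (by unfold hesC1; ring)))
  · exact Or.inr (Or.inr (hes_mobius2 x z w (w ^ 2) (w * x) (hesI1 x z w) _ hz hw3
      (by linear_combination hw3) rfl h1 (by unfold hesC1; ring)))
  -- v = w²
  · exact Or.inr (Or.inl (hes_mobius3 x z (w ^ 2) 1 (w ^ 2 * x) (hesI2 x z w) _ hz hw6 (by ring)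
      (by linear_combination w * hw3 + hw) rfl h2 (by unfold hesC2; ring)))
  · exact Or.inr (Or.inr (hes_mobius2 x z (w ^ 2) w (w ^ 2 * x) (hesI2 x z w) _ hz hw6
      (by linear_combination hw3) rfl h2 (by unfold hesC2; ring)))
  · exact Or.inr (Or.inl (hes_mobius3 x z (w ^ 2) (w ^ 2) (w ^ 2 * x) (hesI2 x z w) _ hz hw6 hw6
      (by linear_combination (w ^ 2 * (w ^ 3 + 1) + w) * hw3 + hw) rfl h2
      (by unfold hesC2; ring)))

/-- The list of conjugates is compatible with ring homomorphisms. -/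
theorem map_hesRoots {S' : Type*} [CommRing S'] (φ : S →+* S') (x z w : S) :
    (hesRoots x z w).map φ = hesRoots (φ x) (φ z) (φ w) := by
  simp only [hesRoots, hesC0, hesC1, hesC2, hesI0, hesI1, hesI2, List.map_cons, List.map_nil,
    map_mul, map_add, map_sub, map_pow, map_one, map_ofNat]

end Core

section Inert

variable {W F2 : Type*} [CommRing W] [IsDomain W] [Field F2] [CharZero F2] [Algebra W F2]
variable (j : F2)

/-- A nontrivial automorphism of `F2(x0)` over `F2` moves `x0`. -/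
theorem hesY_root_moved (σ : HesY j ≃ₐ[F2] HesY j) (hσ : σ ≠ 1) :
    σ (hesY_root j) ≠ hesY_root j := by
  intro h
  apply hσ
  have h1 : (σ : HesY j →ₐ[F2] HesY j) = AlgHom.id F2 (HesY j) :=
    AdjoinRoot.algHom_ext h
  ext y
  exact congrArg (fun f : HesY j →ₐ[F2] HesY j => f y) h1

/-- The core of the inertia input, chart-ring form: for every nontrivial `σ ∈ Gal(F2(x0)/F2)`
there is `r` in the chart ring `W[x, 1/(x³-1)]` (`W` containing a primitive cube root of unity)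
with `(σ x0 - x0) · r = j - 1728` or `= j`. -/
theorem hesse_inert_core (ω : W) (hω : ω ^ 2 + ω + 1 = 0) (σ : HesY j ≃ₐ[F2] HesY j)
    (hσ : σ ≠ 1) :
    ∃ r : HesJ W,
      (σ (hesY_root j) - hesY_root j) * algebraMap (HesJ W) (HesY j) r =
          algebraMap (HesJ W) (HesY j) (jJ W - 1728) ∨
      (σ (hesY_root j) - hesY_root j) * algebraMap (HesJ W) (HesY j) r =
          algebraMap (HesJ W) (HesY j) (jJ W) := by
  haveI : CharZero (HesY j) :=
    charZero_of_injective_algebraMap (algebraMap F2 (HesY j)).injective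
  have h3 : (3 : HesY j) ≠ 0 := three_ne_zero
  have hne := hesY_root_moved j σ hσ
  -- the chart side
  set φ : HesJ W →+* HesY j := algebraMap (HesJ W) (HesY j) with hφ
  set w : HesJ W := algebraMap W (HesJ W) ω with hwdef
  have hw : w ^ 2 + w + 1 = 0 := by
    have := congrArg (algebraMap W (HesJ W)) hω
    simpa using this
  have hz : (xJ W ^ 3 - 1) * zJ W = 1 := xJ_mul_zJ W
  have hX : φ (xJ W) = hesY_root j := algebraMap_hesY_xJ j
  have hZ : φ (zJ W) = (hesY_root j ^ 3 - 1)⁻¹ := algebraMap_hesY_zJ j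
  have hw' : (φ w) ^ 2 + φ w + 1 = 0 := by
    have := congrArg φ hw
    simpa using this
  -- `σ x0` is a root
  have hx0 : (hessePoly (algebraMap F2 (HesY j) j)).eval (hesY_root j) = 0 := by
    rw [← hessePoly_map, eval_map_algebraMap]; exact aeval_hesY_root j
  have hx1 : (hessePoly (algebraMap F2 (HesY j) j)).eval (σ (hesY_root j)) = 0 := by
    rw [← hessePoly_map, eval_map_algebraMap, aeval_algEquiv, AlgHom.comp_apply,
      aeval_hesY_root j]
    simp
  have hmem := mem_hesRoots_of_root h3 (φ w) hw' _ (hesY_root j) hx0 _ hx1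
  rw [← hZ, ← hX, ← map_hesRoots φ, List.mem_map] at hmem
  obtain ⟨r, hr, hrσ⟩ := hmem
  rw [hX] at hrσ
  rcases hes_root_dvd (xJ W) (zJ W) w hz hw r hr with h | h | h
  · exact absurd (by rw [← hrσ, h, hX]) hne
  · obtain ⟨c, hc⟩ := h
    refine ⟨c, Or.inr ?_⟩
    rw [jJ_eq, hc, map_mul, map_sub, hrσ, hX]
  · obtain ⟨c, hc⟩ := h
    refine ⟨c, Or.inl ?_⟩
    rw [jJ_eq, hc, map_mul, map_sub, hrσ, hX]

/-- **Inertia input of chart-normality, Hesse chart** (`3` a unit, `ω ∈ W` a primitive cube root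
of unity): for every nontrivial `σ ∈ Gal(F2(x0)/F2)` there are `y, r ∈ F2(x0)` integral over
`W[j]` and `g ∈ W[X] ∖ π W[X]` (`g = X - 1728` or `g = X`) with `(σ y - y) · r = g(j)`. -/
theorem hesse_hinert [Algebra W[X] F2] [IsScalarTower W W[X] F2]
    (hjW : algebraMap W[X] F2 X = j) (π : W) (hπ : ¬ IsUnit π) (h3 : IsUnit (3 : W))
    (ω : W) (hω : ω ^ 2 + ω + 1 = 0)
    (σ : HesY j ≃ₐ[F2] HesY j) (hσ : σ ≠ 1) :
    ∃ y r : HesY j, IsIntegral W[X] y ∧ IsIntegral W[X] r ∧ ∃ g : W[X], ¬ C π ∣ g ∧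
      (σ y - y) * r = algebraMap W[X] (HesY j) g := by
  haveI tW : IsScalarTower W[X] (HesJ W) (HesY j) := hesY_isScalarTower_poly j hjW
  haveI : Algebra.IsIntegral W[X] (HesJ W) := hesJ_isIntegral W h3
  have hint : ∀ s : HesJ W, IsIntegral W[X] (algebraMap (HesJ W) (HesY j) s) := fun s =>
    (Algebra.IsIntegral.isIntegral (R := W[X]) s).algebraMap
  have hnd : ∀ g : W[X], g.coeff 1 = 1 → ¬ C π ∣ g := by
    intro g hg hdvd
    have h1 := (Polynomial.C_dvd_iff_dvd_coeff _ _).mp hdvd 1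
    rw [hg] at h1
    exact hπ (isUnit_of_dvd_one h1)
  obtain ⟨r, hr⟩ := hesse_inert_core (W := W) j ω hω σ hσ
  refine ⟨hesY_root j, algebraMap (HesJ W) (HesY j) r, ?_, hint r, ?_⟩
  · rw [← algebraMap_hesY_xJ (W := W) j]; exact hint _
  rcases hr with hr | hr
  · refine ⟨X - C 1728, hnd _ ?_, ?_⟩
    · rw [coeff_sub, coeff_X_one, coeff_C]; simp
    · rw [hr, IsScalarTower.algebraMap_apply W[X] (HesJ W) (HesY j),
        map_sub (algebraMap W[X] (HesJ W)), algebraMap_hesJ_X, algebraMap_hesJ_C, map_ofNat]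
  · refine ⟨X, hnd _ coeff_X_one, ?_⟩
    rw [hr, IsScalarTower.algebraMap_apply W[X] (HesJ W) (HesY j), algebraMap_hesJ_X]

/-- A primitive cube root of unity of the fraction field of an integrally closed domain lies in
the domain. -/
theorem exists_cube_root {L : Type*} [Field L] [Algebra W L] [IsFractionRing W L]
    [IsIntegrallyClosed W] (ω : L) (hω : ω ^ 2 + ω + 1 = 0) :
    ∃ ω' : W, ω' ^ 2 + ω' + 1 = 0 ∧ algebraMap W L ω' = ω := by
  have hint : IsIntegral W ω := by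
    refine ⟨X ^ 2 + X + 1, ?_, ?_⟩
    · have h : (X ^ 2 + X + 1 : W[X]) = X ^ 2 + (X + 1) := by ring
      rw [h]
      exact monic_X_pow_add (by
        rw [show (X + 1 : W[X]) = X + C 1 by simp]
        exact (degree_X_add_C (1 : W)).trans_lt (by norm_num))
    · simp only [eval₂_add, eval₂_pow, eval₂_X, eval₂_one]
      exact hω
  obtain ⟨ω', rfl⟩ := IsIntegrallyClosed.isIntegral_iff.mp hint
  refine ⟨ω', ?_, rfl⟩
  apply IsFractionRing.injective W L
  simpa using hω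

end Inert

end Fermat.Agent.S37.ChartInertH
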