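import Fermat.Agent.S37.ChartInstNormal
import Fermat.Agent.S37.ChartInstHesseInert
import Fermat.Agent.S37.ChartInert
import Fermat.Agent.S37.GaussPrime

set_option autoImplicit false
set_option linter.unusedSectionVars false
set_option linter.style.haveILetI false

namespace Fermat.Agent.S37.ChartInst

open Polynomial
open Fermat.Agent.S18

section HesseChart

open Fermat.Agent.S18.Hesse Fermat.Agent.S18.AuxCover

theorem hesse_chart_normal_of_prime
    {W k L K F : Type*} [CommRing W] [IsDomain W] [IsNoetherianRing W] [IsIntegrallyClosed W]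
    [Field k] [IsAlgClosed k] [Field L] [CharZero L] [Algebra W L]
    [Field K] [Algebra L[X] K] [IsFractionRing L[X] K]
    [Field F] [CharZero F] [Algebra K F] [FiniteDimensional K F]
    [Algebra L[X] F] [IsScalarTower L[X] K F] [Algebra W[X] F]
    [Algebra W F] [Algebra L F] [IsScalarTower W L F] [IsScalarTower L L[X] F]
    [IsScalarTower W W[X] F]
    (j : F) (hjL : algebraMap L[X] F X = j) (hjW : algebraMap W[X] F X = j)
    (htr : Transcendental L j)
    (ω : L) (hω : ω ^ 2 + ω + 1 = 0)
    (π : W) (hπ : Prime π) (hmax : (Ideal.span {π}).IsMaximal) (h3 : IsUnit (3 : W))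
    [IsLocalization.Away π L] (hinj : Function.Injective (algebraMap W L))
    (hF : ∀ P : Ideal (integralClosure L[X] F), P.IsPrime → P ≠ ⊥ →
      (X ∈ P.under L[X] → P.ramificationIdx L[X] ∣ 3) ∧
      (X - C 1728 ∈ P.under L[X] → P.ramificationIdx L[X] ∣ 2) ∧
      (X ∉ P.under L[X] → X - C 1728 ∉ P.under L[X] → P.ramificationIdx L[X] = 1))
    (κ₀ : Type*) [Field κ₀] [Algebra k[X] κ₀] [IsFractionRing k[X] κ₀]
    (res : W →+* k) (hres : Function.Surjective res) (hker : RingHom.ker res = Ideal.span {π})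
    (θ : F) (hθ : IntermediateField.adjoin K {θ} = ⊤)
    (P : (W[X])[X]) (hP : P.Monic)
    (hPθ : eval₂ (algebraMap W[X] F) θ P = 0)
    (hsep : ((P.map (mapRingHom res)).map (algebraMap k[X] κ₀)).Separable)
    (hπF : Prime (algebraMap W[X] (integralClosure W[X] F) (C π))) :
    IsDedekindDomain
      (integralClosure W[X] F ⧸
        Ideal.span {algebraMap W[X] (integralClosure W[X] F) (C π)}) :=
  hesse_chart_normal j hjL hjW htr ω hω π hπ hmax h3 hinj hF κ₀ res hres hker θ hθ P hP hPθ hsep
    hπF (ChartInstHesseInert.hesse_hinert j hjW h3 π hπ.not_isUnit)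

end HesseChart

section LegendreChart

open Fermat.Agent.S18.LegendreJ Fermat.Agent.S18.Legendre Fermat.Agent.S18.AuxCover

theorem legendre_chart_normal_of_prime
    {W k L K F : Type*} [CommRing W] [IsDomain W] [IsNoetherianRing W] [IsIntegrallyClosed W]
    [Field k] [IsAlgClosed k] [Field L] [CharZero L] [Algebra W L]
    [Field K] [Algebra L[X] K] [IsFractionRing L[X] K]
    [Field F] [CharZero F] [Algebra K F] [FiniteDimensional K F]
    [Algebra L[X] F] [IsScalarTower L[X] K F] [Algebra W[X] F]
    [Algebra W F] [Algebra L F] [IsScalarTower W L F] [IsScalarTower L L[X] F]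
    [IsScalarTower W W[X] F]
    (j : F) (hjL : algebraMap L[X] F X = j) (hjW : algebraMap W[X] F X = j)
    (htr : Transcendental L j)
    (π : W) (hπ : Prime π) (hmax : (Ideal.span {π}).IsMaximal) (h2 : IsUnit (2 : W))
    [IsLocalization.Away π L] (hinj : Function.Injective (algebraMap W L))
    (hF : ∀ P : Ideal (integralClosure L[X] F), P.IsPrime → P ≠ ⊥ →
      (X ∈ P.under L[X] → P.ramificationIdx L[X] ∣ 3) ∧
      (X - C 1728 ∈ P.under L[X] → P.ramificationIdx L[X] ∣ 2) ∧
      (X ∉ P.under L[X] → X - C 1728 ∉ P.under L[X] → P.ramificationIdx L[X] = 1))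
    (κ₀ : Type*) [Field κ₀] [Algebra k[X] κ₀] [IsFractionRing k[X] κ₀]
    (res : W →+* k) (hres : Function.Surjective res) (hker : RingHom.ker res = Ideal.span {π})
    (θ : F) (hθ : IntermediateField.adjoin K {θ} = ⊤)
    (P : (W[X])[X]) (hP : P.Monic)
    (hPθ : eval₂ (algebraMap W[X] F) θ P = 0)
    (hsep : ((P.map (mapRingHom res)).map (algebraMap k[X] κ₀)).Separable)
    (hπF : Prime (algebraMap W[X] (integralClosure W[X] F) (C π))) :
    IsDedekindDomain
      (integralClosure W[X] F ⧸
        Ideal.span {algebraMap W[X] (integralClosure W[X] F) (C π)}) :=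
  legendre_chart_normal j hjL hjW htr π hπ hmax h2 hinj hF κ₀ res hres hker θ hθ P hP hPθ hsep
    hπF (fun σ hσ => ChartInert.legendre_hinert j hjW π hπ.not_isUnit h2 σ hσ)

end LegendreChart

end Fermat.Agent.S37.ChartInst
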