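import Mathlib
import Fermat.Agent.S37.ChartValB

/-!
# S37 (W): the class `Pl` of a chart ring is the class of chart places (closure binders)

For `B` an integral closure of `W[X]` (`X ↦ j`), resp. of `Cusp.CuspBase W` (`t ↦ 1/j`), in
`F_L`, with `ψ := bc ι ∘ algebraMap B F_L`:
`(∀ y : B, ∃ c ∈ A, IsValueAt P (ψ y) c) ↔ IsFinPlace A N P` resp. `↔ IsInfPlace A N P`,
together with the elementwise facts used (`isIntegralElem_fin`, `exists_j`, `intCusp`,
`exists_t`, `exists_u`).
-/

set_option autoImplicit false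
set_option linter.unusedSectionVars false

namespace Fermat.Agent.S37.ChartValC

open Polynomial AlgebraicCurve ModularCurve Fermat.Agent.S37.GaloisValue Fermat.Agent.S37.Centre
  Fermat.Agent.S37.ChartVal Fermat.Agent.S37.ChartBal Fermat.Agent.S37.ChartValB Fermat.Agent.S18

noncomputable section

local notation "Qb" => AlgebraicClosure ℚ

variable (N : ℕ) [NeZero N] (A : ValuationSubring Qb) {L : Type} [Field L] [Algebra ℚ L]
  (ι : L →+* Qb)

section Fin

variable [Algebra (↥(A.comap ι))[X] (Fermat.Agent.S24.FF L N)]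
  (halg : algebraMap (↥(A.comap ι))[X] (Fermat.Agent.S24.FF L N) = Gauss.evF (A.comap ι) N)
  (B : Type*) [CommRing B] [Algebra (↥(A.comap ι))[X] B] [Algebra B (Fermat.Agent.S24.FF L N)]
  [IsScalarTower (↥(A.comap ι))[X] B (Fermat.Agent.S24.FF L N)]
  [IsIntegralClosure B (↥(A.comap ι))[X] (Fermat.Agent.S24.FF L N)]

include halg in
/-- Elements of the chart ring are integral along `Gauss.evF`. -/
theorem isIntegralElem_fin (y : B) :
    (Gauss.evF (A.comap ι) N).IsIntegralElem (algebraMap B (Fermat.Agent.S24.FF L N) y) := by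
  have h : IsIntegral (↥(A.comap ι))[X] (algebraMap B (Fermat.Agent.S24.FF L N) y) :=
    (IsIntegralClosure.isIntegral_iff (A := B)).mpr ⟨y, rfl⟩
  have h' : (algebraMap (↥(A.comap ι))[X] (Fermat.Agent.S24.FF L N)).IsIntegralElem
      (algebraMap B (Fermat.Agent.S24.FF L N) y) := h
  rwa [halg] at h'

include halg in
/-- `j` lies in the chart ring. -/
theorem exists_j : ∃ y : B, algebraMap B (Fermat.Agent.S24.FF L N) y = Fermat.Agent.S24.jBC L N := by
  have hX : IsIntegral (↥(A.comap ι))[X]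
      (algebraMap (↥(A.comap ι))[X] (Fermat.Agent.S24.FF L N) X) := isIntegral_algebraMap
  obtain ⟨y, hy⟩ := (IsIntegralClosure.isIntegral_iff (A := B)).mp hX
  exact ⟨y, by rw [hy, halg, Gauss.evF_X]⟩

include halg in
/-- Chart 1: `Pl` is the class of finite places. -/
theorem pl_iff_isFinPlace_closure (P : Place Qb ↥(modularFunctionFieldBar N)) :
    (∀ y : B, ∃ c : Qb, c ∈ A ∧ IsValueAt P
      (((Fermat.Agent.S24.CoeffBC.bc ι (modularFunctionFieldFull N)).comp
        (algebraMap B (Fermat.Agent.S24.FF L N))) y) c) ↔ Centre.IsFinPlace A N P :=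
  pl_iff_isFinPlace N A ι (algebraMap B (Fermat.Agent.S24.FF L N))
    (isIntegralElem_fin N A ι halg B) (exists_j N A ι halg B) P

end Fin

section CuspChart

variable [IsDiscreteValuationRing ↥(A.comap ι)]
  [Algebra (Cusp.CuspBase ↥(A.comap ι)) (Fermat.Agent.S24.FF L N)]
  (halg : ∀ p : (↥(A.comap ι))[X],
    algebraMap (Cusp.CuspBase ↥(A.comap ι)) (Fermat.Agent.S24.FF L N)
      (algebraMap (↥(A.comap ι))[X] (Cusp.CuspBase ↥(A.comap ι)) p)
      = Gauss.evFinf (A.comap ι) N p)
  (B : Type*) [CommRing B] [Algebra (Cusp.CuspBase ↥(A.comap ι)) B]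
  [Algebra B (Fermat.Agent.S24.FF L N)]
  [IsScalarTower (Cusp.CuspBase ↥(A.comap ι)) B (Fermat.Agent.S24.FF L N)]
  [IsIntegralClosure B (Cusp.CuspBase ↥(A.comap ι)) (Fermat.Agent.S24.FF L N)]

include halg in
/-- Elements of the cusp chart ring are integral in the multiplier form. -/
theorem intCusp (y : B) :
    ∃ m : ℕ, (Gauss.evFinf (A.comap ι) N).IsIntegralElem
      ((1 - 1728 * (Fermat.Agent.S24.jBC L N)⁻¹) ^ m *
        algebraMap B (Fermat.Agent.S24.FF L N) y) :=
  (GaussPrime.isIntegral_cuspBase_iff (A.comap ι) N halg _).mp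
    ((IsIntegralClosure.isIntegral_iff (A := B)).mpr ⟨y, rfl⟩)

include halg in
/-- `t = 1/j` lies in the cusp chart ring. -/
theorem exists_t :
    ∃ y : B, algebraMap B (Fermat.Agent.S24.FF L N) y = (Fermat.Agent.S24.jBC L N)⁻¹ := by
  have hX : IsIntegral (Cusp.CuspBase ↥(A.comap ι))
      (algebraMap (Cusp.CuspBase ↥(A.comap ι)) (Fermat.Agent.S24.FF L N)
        (Cusp.baseT ↥(A.comap ι))) := isIntegral_algebraMap
  obtain ⟨y, hy⟩ := (IsIntegralClosure.isIntegral_iff (A := B)).mp hX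
  exact ⟨y, by rw [hy, Cusp.baseT, halg, Gauss.evFinf_X]⟩

include halg in
/-- `1/(1 - 1728 t)` lies in the cusp chart ring. -/
theorem exists_u :
    ∃ y : B, algebraMap B (Fermat.Agent.S24.FF L N) y *
      (1 - 1728 * (Fermat.Agent.S24.jBC L N)⁻¹) = 1 := by
  have hX : IsIntegral (Cusp.CuspBase ↥(A.comap ι))
      (algebraMap (Cusp.CuspBase ↥(A.comap ι)) (Fermat.Agent.S24.FF L N)
        (Cusp.baseInv ↥(A.comap ι))) := isIntegral_algebraMap
  obtain ⟨y, hy⟩ := (IsIntegralClosure.isIntegral_iff (A := B)).mp hX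
  refine ⟨y, ?_⟩
  rw [hy, ← GaussPrime.evFinf_cuspPoly (A.comap ι) N, ← GaussPrime.cuspG_eq_cuspPoly, ← halg,
    ← map_mul, mul_comm, Cusp.algebraMap_cuspG_mul_baseInv, map_one]

include halg in
/-- Chart 2: `Pl` is the class of places with `t(P) ∈ A` and `1 - 1728 t(P) ∈ Aˣ`. -/
theorem pl_iff_isInfPlace_closure (P : Place Qb ↥(modularFunctionFieldBar N)) :
    (∀ y : B, ∃ c : Qb, c ∈ A ∧ IsValueAt P
      (((Fermat.Agent.S24.CoeffBC.bc ι (modularFunctionFieldFull N)).comp
        (algebraMap B (Fermat.Agent.S24.FF L N))) y) c) ↔ IsInfPlace A N P :=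
  pl_iff_isInfPlace N A ι (algebraMap B (Fermat.Agent.S24.FF L N))
    (intCusp N A ι halg B) (exists_t N A ι halg B) (exists_u N A ι halg B) P

end CuspChart

end

end Fermat.Agent.S37.ChartValC
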