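import Mathlib
import Fermat.Agent.S37.ChartValB

/-!
# S37 (W): the class `Pl` of the cusp chart ring is the class of cusp-chart places

Complement to `ChartValB` (which proves the (VAL) contract `val_cusp` for the cusp chart): for
`B` any integral closure of `Cusp.CuspBase W` (`t ↦ 1/j`, `W = A.comap ι`) in `F_L` and
`ψ := bc ι ∘ algebraMap B F_L`, the class
`Pl P := ∀ y : B, ∃ c ∈ A, IsValueAt P (ψ y) c` is exactly `ChartVal.IsInfPlace A N P`
(`t(P) ∈ A`, `1 - 1728 t(P) ∈ Aˣ`).

* `cusp_hint`, `cusp_ht`, `cusp_hu` : the three elementwise inputs of the abstract statements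
  `ChartValB.pl_iff_isInfPlace` / `ChartValB.val_inf_of` for this carrier;
* `pl_iff_isInfPlace_cusp` : `Pl P ↔ IsInfPlace A N P`;
* `val_iff_cusp` : both halves of the contract in one statement.
-/

set_option autoImplicit false
set_option linter.unusedSectionVars false

namespace Fermat.Agent.S37.ChartValIffCusp

open Polynomial AlgebraicCurve ModularCurve Fermat.Agent.S37.GaloisValue Fermat.Agent.S37.Centre
  Fermat.Agent.S37.ChartVal Fermat.Agent.S37.ChartBal Fermat.Agent.S18

noncomputable section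

local notation "Qb" => AlgebraicClosure ℚ

variable (N : ℕ) [NeZero N] (A : ValuationSubring Qb) {L : Type} [Field L] [Algebra ℚ L]
  (ι : L →+* Qb)

section Concrete

variable [IsDiscreteValuationRing ↥(A.comap ι)]
  [Algebra (Cusp.CuspBase ↥(A.comap ι)) (Fermat.Agent.S24.FF L N)]
  (halg : ∀ p : (↥(A.comap ι))[X],
    algebraMap (Cusp.CuspBase ↥(A.comap ι)) (Fermat.Agent.S24.FF L N)
      (algebraMap (↥(A.comap ι))[X] (Cusp.CuspBase ↥(A.comap ι)) p)
      = Gauss.evFinf (A.comap ι) N p)
  (B : Type*) [CommRing B] [Algebra (Cusp.CuspBase ↥(A.comap ι)) B]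
  [Algebra B (Fermat.Agent.S24.FF L N)]
  [IsScalarTower (Cusp.CuspBase ↥(A.comap ι)) B (Fermat.Agent.S24.FF L N)]
  [IsIntegralClosure B (Cusp.CuspBase ↥(A.comap ι)) (Fermat.Agent.S24.FF L N)]

include halg

/-- Every element of the cusp chart ring is integral over `W[1/j]` up to a power of
`1 - 1728/j`. -/
theorem cusp_hint (y : B) :
    ∃ m : ℕ, (Gauss.evFinf (A.comap ι) N).IsIntegralElem
      ((1 - 1728 * (Fermat.Agent.S24.jBC L N)⁻¹) ^ m *
        algebraMap B (Fermat.Agent.S24.FF L N) y) :=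
  (GaussPrime.isIntegral_cuspBase_iff (A.comap ι) N halg _).mp
    ((IsIntegralClosure.isIntegral_iff (A := B)).mpr ⟨y, rfl⟩)

/-- `t = 1/j` lies in the cusp chart ring. -/
theorem cusp_ht :
    ∃ y : B, algebraMap B (Fermat.Agent.S24.FF L N) y = (Fermat.Agent.S24.jBC L N)⁻¹ := by
  have hX : IsIntegral (Cusp.CuspBase ↥(A.comap ι))
      (algebraMap (Cusp.CuspBase ↥(A.comap ι)) (Fermat.Agent.S24.FF L N)
        (Cusp.baseT ↥(A.comap ι))) := isIntegral_algebraMap
  obtain ⟨y, hy⟩ := (IsIntegralClosure.isIntegral_iff (A := B)).mp hX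
  refine ⟨y, ?_⟩
  rw [hy, Cusp.baseT, halg, Gauss.evFinf_X]

/-- `(1 - 1728/j)⁻¹` lies in the cusp chart ring. -/
theorem cusp_hu :
    ∃ y : B, algebraMap B (Fermat.Agent.S24.FF L N) y *
      (1 - 1728 * (Fermat.Agent.S24.jBC L N)⁻¹) = 1 := by
  have hX : IsIntegral (Cusp.CuspBase ↥(A.comap ι))
      (algebraMap (Cusp.CuspBase ↥(A.comap ι)) (Fermat.Agent.S24.FF L N)
        (Cusp.baseInv ↥(A.comap ι))) := isIntegral_algebraMap
  obtain ⟨y, hy⟩ := (IsIntegralClosure.isIntegral_iff (A := B)).mp hX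
  refine ⟨y, ?_⟩
  rw [hy, ← GaussPrime.evFinf_cuspPoly (A.comap ι) N, ← GaussPrime.cuspG_eq_cuspPoly, ← halg,
    ← map_mul, mul_comm, Cusp.algebraMap_cuspG_mul_baseInv, map_one]

/-- **(VAL-iff) (i), chart 2**: for `B` any integral closure of `Cusp.CuspBase W` (`t ↦ 1/j`) in
`F_L`, the places at which every element of `B` has a value in `A` are exactly the places with
`t(P) ∈ A` and `1 - 1728 t(P) ∈ Aˣ`. -/
theorem pl_iff_isInfPlace_cusp (P : Place Qb ↥(modularFunctionFieldBar N)) :
    (∀ y : B, ∃ c : Qb, c ∈ A ∧ IsValueAt P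
      (((Fermat.Agent.S24.CoeffBC.bc ι (modularFunctionFieldFull N)).comp
        (algebraMap B (Fermat.Agent.S24.FF L N))) y) c) ↔ IsInfPlace A N P :=
  ChartValB.pl_iff_isInfPlace N A ι (algebraMap B (Fermat.Agent.S24.FF L N))
    (cusp_hint N A ι halg B) (cusp_ht N A ι halg B) (cusp_hu N A ι halg B) P

/-- **(VAL-iff), chart 2, both halves**: `Pl` is the class of cusp-chart places, it is stable
under `Centre.SameCentre`, and the values of every element of `B` at two places with the same
centre are congruent modulo the maximal ideal of `A`. -/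
theorem val_iff_cusp :
    (∀ P : Place Qb ↥(modularFunctionFieldBar N),
      (∀ y : B, ∃ c : Qb, c ∈ A ∧ IsValueAt P
        (((Fermat.Agent.S24.CoeffBC.bc ι (modularFunctionFieldFull N)).comp
          (algebraMap B (Fermat.Agent.S24.FF L N))) y) c) ↔ IsInfPlace A N P) ∧
    ∀ P P' : Place Qb ↥(modularFunctionFieldBar N), Centre.SameCentre A N P P' →
      ((∀ y : B, ∃ c : Qb, c ∈ A ∧ IsValueAt P
          (((Fermat.Agent.S24.CoeffBC.bc ι (modularFunctionFieldFull N)).comp
            (algebraMap B (Fermat.Agent.S24.FF L N))) y) c) ↔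
        (∀ y : B, ∃ c : Qb, c ∈ A ∧ IsValueAt P'
          (((Fermat.Agent.S24.CoeffBC.bc ι (modularFunctionFieldFull N)).comp
            (algebraMap B (Fermat.Agent.S24.FF L N))) y) c)) ∧
      ((∀ y : B, ∃ c : Qb, c ∈ A ∧ IsValueAt P
          (((Fermat.Agent.S24.CoeffBC.bc ι (modularFunctionFieldFull N)).comp
            (algebraMap B (Fermat.Agent.S24.FF L N))) y) c) →
        (∀ y : B, ∃ c : Qb, c ∈ A ∧ IsValueAt P'
          (((Fermat.Agent.S24.CoeffBC.bc ι (modularFunctionFieldFull N)).comp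
            (algebraMap B (Fermat.Agent.S24.FF L N))) y) c) →
        ∀ (y : B) (c c' : Qb),
          IsValueAt P (((Fermat.Agent.S24.CoeffBC.bc ι (modularFunctionFieldFull N)).comp
            (algebraMap B (Fermat.Agent.S24.FF L N))) y) c →
          IsValueAt P' (((Fermat.Agent.S24.CoeffBC.bc ι (modularFunctionFieldFull N)).comp
            (algebraMap B (Fermat.Agent.S24.FF L N))) y) c' →
          A.valuation (c - c') < 1) :=
  ⟨pl_iff_isInfPlace_cusp N A ι halg B, ChartValB.val_cusp N A ι halg B⟩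

end Concrete

end

end Fermat.Agent.S37.ChartValIffCusp
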