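import Mathlib
import Fermat.Agent.S37.ChartValB

/-!
# S37 (W): the class `Pl` of the finite chart ring is the class of finite places

Complement to `ChartValB` (which proves the (VAL) contract `val_fin` for the finite chart) and
twin of `ChartValIffCusp`: for `B` any integral closure of `W[X]` (`X ↦ j`, `W = A.comap ι`) in
`F_L` and `ψ := bc ι ∘ algebraMap B F_L`, the class
`Pl P := ∀ y : B, ∃ c ∈ A, IsValueAt P (ψ y) c` is exactly `Centre.IsFinPlace A N P`
(`j(P) ∈ A`).

* `fin_hint`, `fin_hj` : the two elementwise inputs of the abstract statements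
  `ChartValB.pl_iff_isFinPlace` / `ChartValB.val_fin_of` for this carrier;
* `pl_iff_isFinPlace_fin` : `Pl P ↔ IsFinPlace A N P`;
* `val_iff_fin` : both halves of the contract in one statement.
-/

set_option autoImplicit false
set_option linter.unusedSectionVars false

namespace Fermat.Agent.S37.ChartValIffFin

open Polynomial AlgebraicCurve ModularCurve Fermat.Agent.S37.GaloisValue Fermat.Agent.S37.Centre
  Fermat.Agent.S37.ChartVal Fermat.Agent.S37.ChartBal Fermat.Agent.S18

noncomputable section

local notation "Qb" => AlgebraicClosure ℚ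

variable (N : ℕ) [NeZero N] (A : ValuationSubring Qb) {L : Type} [Field L] [Algebra ℚ L]
  (ι : L →+* Qb)

section Concrete

variable [Algebra (↥(A.comap ι))[X] (Fermat.Agent.S24.FF L N)]
  (halg : algebraMap (↥(A.comap ι))[X] (Fermat.Agent.S24.FF L N) = Gauss.evF (A.comap ι) N)
  (B : Type*) [CommRing B] [Algebra (↥(A.comap ι))[X] B] [Algebra B (Fermat.Agent.S24.FF L N)]
  [IsScalarTower (↥(A.comap ι))[X] B (Fermat.Agent.S24.FF L N)]
  [IsIntegralClosure B (↥(A.comap ι))[X] (Fermat.Agent.S24.FF L N)]

include halg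

/-- Every element of the finite chart ring is integral over `W[j]`. -/
theorem fin_hint (y : B) :
    (Gauss.evF (A.comap ι) N).IsIntegralElem (algebraMap B (Fermat.Agent.S24.FF L N) y) := by
  have h : IsIntegral (↥(A.comap ι))[X] (algebraMap B (Fermat.Agent.S24.FF L N) y) :=
    (IsIntegralClosure.isIntegral_iff (A := B)).mpr ⟨y, rfl⟩
  have h' : (algebraMap (↥(A.comap ι))[X] (Fermat.Agent.S24.FF L N)).IsIntegralElem
      (algebraMap B (Fermat.Agent.S24.FF L N) y) := h
  rwa [halg] at h'

/-- `j` lies in the finite chart ring. -/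
theorem fin_hj :
    ∃ y : B, algebraMap B (Fermat.Agent.S24.FF L N) y = Fermat.Agent.S24.jBC L N := by
  have hX : IsIntegral (↥(A.comap ι))[X]
      (algebraMap (↥(A.comap ι))[X] (Fermat.Agent.S24.FF L N) X) := isIntegral_algebraMap
  obtain ⟨y, hy⟩ := (IsIntegralClosure.isIntegral_iff (A := B)).mp hX
  refine ⟨y, ?_⟩
  rw [hy, halg, Gauss.evF_X]

/-- **(VAL-iff) (i), chart 1**: for `B` any integral closure of `W[X]` (`X ↦ j`) in `F_L`, the
places at which every element of `B` has a value in `A` are exactly the places with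
`j(P) ∈ A`. -/
theorem pl_iff_isFinPlace_fin (P : Place Qb ↥(modularFunctionFieldBar N)) :
    (∀ y : B, ∃ c : Qb, c ∈ A ∧ IsValueAt P
      (((Fermat.Agent.S24.CoeffBC.bc ι (modularFunctionFieldFull N)).comp
        (algebraMap B (Fermat.Agent.S24.FF L N))) y) c) ↔ Centre.IsFinPlace A N P :=
  ChartValB.pl_iff_isFinPlace N A ι (algebraMap B (Fermat.Agent.S24.FF L N))
    (fin_hint N A ι halg B) (fin_hj N A ι halg B) P

/-- **(VAL-iff), chart 1, both halves**: `Pl` is the class of finite places, it is stable under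
`Centre.SameCentre`, and the values of every element of `B` at two places with the same centre
are congruent modulo the maximal ideal of `A`. -/
theorem val_iff_fin :
    (∀ P : Place Qb ↥(modularFunctionFieldBar N),
      (∀ y : B, ∃ c : Qb, c ∈ A ∧ IsValueAt P
        (((Fermat.Agent.S24.CoeffBC.bc ι (modularFunctionFieldFull N)).comp
          (algebraMap B (Fermat.Agent.S24.FF L N))) y) c) ↔ Centre.IsFinPlace A N P) ∧
    ∀ P P' : Place Qb ↥(modularFunctionFieldBar N), Centre.SameCentre A N P P' →
      ((∀ y : B, ∃ c : Qb, c ∈ A ∧ IsValueAt P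
          (((Fermat.Agent.S24.CoeffBC.bc ι (modularFunctionFieldFull N)).comp
            (algebraMap B (Fermat.Agent.S24.FF L N))) y) c) ↔
        (∀ y : B, ∃ c : Qb, c ∈ A ∧ IsValueAt P'
          (((Fermat.Agent.S24.CoeffBC.bc ι (modularFunctionFieldFull N)).comp
            (algebraMap B (Fermat.Agent.S24.FF L N))) y) c)) ∧
      ((∀ y : B, ∃ c : Qb, c ∈ A ∧ IsValueAt P
          (((Fermat.Agent.S24.CoeffBC.bc ι (modularFunctionFieldFull N)).comp
            (algebraMap B (Fermat.Agent.S24.FF L N))) y) c) →
        (∀ y : B, ∃ c : Qb, c ∈ A ∧ IsValueAt P'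
          (((Fermat.Agent.S24.CoeffBC.bc ι (modularFunctionFieldFull N)).comp
            (algebraMap B (Fermat.Agent.S24.FF L N))) y) c) →
        ∀ (y : B) (c c' : Qb),
          IsValueAt P (((Fermat.Agent.S24.CoeffBC.bc ι (modularFunctionFieldFull N)).comp
            (algebraMap B (Fermat.Agent.S24.FF L N))) y) c →
          IsValueAt P' (((Fermat.Agent.S24.CoeffBC.bc ι (modularFunctionFieldFull N)).comp
            (algebraMap B (Fermat.Agent.S24.FF L N))) y) c' →
          A.valuation (c - c') < 1) :=
  ⟨pl_iff_isFinPlace_fin N A ι halg B, ChartValB.val_fin N A ι halg B⟩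

end Concrete

end

end Fermat.Agent.S37.ChartValIffFin
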