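import Mathlib

/-!
# S37: no inertia at the Gauss primes of an auxiliary cover (`hinert`), generic form

`Y = F(x0)` where `x0` is a root of a polynomial `P ∈ F[X]` that splits in `Y` into linear
factors with integral roots.  If `P'(x0)` divides (with an integral cofactor) an element `g` of
the chart ring `D`, then for every `F`-automorphism `σ ≠ 1` of `Y` the difference `σ x0 - x0`
divides `g` with an integral cofactor.
-/

set_option autoImplicit false

namespace Fermat.Agent.S37.Hinert

open Polynomial

section Generic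

variable {D F Y : Type*} [CommRing D] [Field F] [Field Y] [Algebra F Y] [Algebra D Y]

omit [Algebra F Y] in
/-- The derivative of `lc · ∏ (X - r)` (over `x0 :: l`) at `x0`. -/
theorem eval_derivative_prod (lc x0 : Y) (l : List Y) :
    (derivative (C lc * ((x0 :: l).map (fun r => X - C r)).prod)).eval x0 =
      lc * (l.map (fun r => x0 - r)).prod := by
  rw [List.map_cons, List.prod_cons, derivative_mul, derivative_C, zero_mul, zero_add,
    derivative_mul, derivative_sub, derivative_X, derivative_C, sub_zero, one_mul, eval_mul,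
    eval_C, eval_add, eval_mul, eval_sub, eval_X, eval_C, sub_self, zero_mul, add_zero,
    eval_list_prod, List.map_map]
  congr 2
  refine List.map_congr_left fun r _ => ?_
  simp

omit [Algebra F Y] in
theorem eval_prod_eq_zero_iff (lc : Y) (hlc : lc ≠ 0) (l : List Y) (y : Y) :
    (C lc * (l.map (fun r => X - C r)).prod).eval y = 0 ↔ y ∈ l := by
  rw [eval_mul, eval_C, eval_list_prod, List.map_map, mul_eq_zero, List.prod_eq_zero_iff]
  constructor
  · rintro (h | h)
    · exact absurd h hlc
    · obtain ⟨r, hr, hr0⟩ := List.mem_map.mp h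
      simp only [Function.comp_apply, eval_sub, eval_X, eval_C] at hr0
      rw [sub_eq_zero.mp hr0]; exact hr
  · intro h
    exact Or.inr (List.mem_map.mpr ⟨y, h, by simp⟩)

/-- **Generic `hinert`.** -/
theorem hinert_of_derivative (P : F[X]) (x0 : Y) (hgen : Algebra.adjoin F {x0} = ⊤)
    (lc : Y) (l : List Y)
    (hfac : P.map (algebraMap F Y) = C lc * ((x0 :: l).map (fun r => X - C r)).prod)
    (hlc : lc ≠ 0) (hlcI : IsIntegral D lc) (hint : ∀ r ∈ x0 :: l, IsIntegral D r)
    (r0 : Y) (hr0 : IsIntegral D r0) (g : D)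
    (hg : aeval x0 (derivative P) * r0 = algebraMap D Y g) :
    ∀ σ : Y ≃ₐ[F] Y, σ ≠ 1 → ∃ r : Y, IsIntegral D r ∧ (σ x0 - x0) * r = algebraMap D Y g := by
  classical
  intro σ hσ
  have hne : σ x0 ≠ x0 := by
    intro h
    apply hσ
    have h1 : (σ : Y →ₐ[F] Y) = AlgHom.id F Y := AlgHom.ext_of_adjoin_eq_top hgen (by
      intro y hy
      rw [Set.mem_singleton_iff] at hy
      rw [hy]; exact h)
    ext y
    exact congrArg (fun f : Y →ₐ[F] Y => f y) h1
  have hx0 : aeval x0 P = 0 := by
    rw [← eval_map_algebraMap, hfac]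
    exact (eval_prod_eq_zero_iff lc hlc (x0 :: l) x0).mpr List.mem_cons_self
  have hσroot : aeval (σ x0) P = 0 := by
    have := aeval_algHom_apply (σ : Y →ₐ[F] Y) x0 P
    rw [hx0, map_zero] at this
    exact this
  have hmem : σ x0 ∈ x0 :: l := by
    rw [← eval_map_algebraMap, hfac] at hσroot
    exact (eval_prod_eq_zero_iff lc hlc (x0 :: l) (σ x0)).mp hσroot
  have hmem' : σ x0 ∈ l := by
    rcases List.mem_cons.mp hmem with h | h
    · exact absurd h hne
    · exact h
  have hder : aeval x0 (derivative P) = lc * (l.map (fun r => x0 - r)).prod := by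
    rw [← eval_map_algebraMap, ← derivative_map, hfac]
    exact eval_derivative_prod lc x0 l
  have hsplit : (l.map (fun r => x0 - r)).prod =
      (x0 - σ x0) * ((l.erase (σ x0)).map (fun r => x0 - r)).prod :=
    (List.prod_map_erase (fun r => x0 - r) hmem').symm
  have hx0I : IsIntegral D x0 := hint x0 List.mem_cons_self
  have hE : IsIntegral D ((l.erase (σ x0)).map (fun r => x0 - r)).prod := by
    refine List.prod_induction (fun y => IsIntegral D y) (fun a b ha hb => ha.mul hb)
      isIntegral_one ?_
    intro y hy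
    obtain ⟨r, hr, rfl⟩ := List.mem_map.mp hy
    exact hx0I.sub (hint r (List.mem_cons_of_mem _ (List.mem_of_mem_erase hr)))
  refine ⟨-(lc * ((l.erase (σ x0)).map (fun r => x0 - r)).prod * r0),
    ((hlcI.mul hE).mul hr0).neg, ?_⟩
  rw [← hg, hder, hsplit]
  ring

end Generic

end Fermat.Agent.S37.Hinert
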