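import Mathlib
import Fermat.Agent.S18.HesseJ
import Fermat.Agent.S37.Hinert

/-!
# S37: `hinert` for the Hesse cover

For `Y' = F(x0)`, `x0` a root of the Hesse polynomial of `j`, and every `F`-automorphism
`σ ≠ 1` of `Y'`: `σ x0 - x0` divides `j (j - 1728)` with a cofactor integral over `W[j]`.
-/

set_option autoImplicit false

namespace Fermat.Agent.S37.Hinert

open Polynomial Fermat.Agent.S18 Fermat.Agent.S18.AuxCover Fermat.Agent.S18.Hesse

set_option linter.unusedSectionVars false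
set_option linter.style.haveILetI false
set_option linter.unusedSimpArgs false

/-- `X (X - 1728)` is not divisible by a non-unit constant. -/
theorem not_C_dvd_X_mul {W : Type*} [CommRing W] {π : W} (hπ : ¬ IsUnit π) :
    ¬ C π ∣ (X * (X - C 1728) : W[X]) := by
  intro h
  have hmonic : (X * (X - C 1728) : W[X]).Monic := monic_X.mul (monic_X_sub_C _)
  rw [Polynomial.C_dvd_iff_dvd_coeff] at h
  have h1 := h (X * (X - C 1728) : W[X]).natDegree
  rw [coeff_natDegree, hmonic.leadingCoeff] at h1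
  exact hπ (isUnit_of_dvd_one h1)

/-- **`hinert` for the Hesse cover** (the chart ring `D = W[X]` acts through `X ↦ j`). -/
theorem hesse_hinert {W F : Type*} [CommRing W] [IsDomain W] [Field F] [CharZero F]
    [Algebra W F] [Algebra W[X] F] [IsScalarTower W W[X] F] (j : F)
    (hjW : algebraMap W[X] F X = j) (h3 : IsUnit (3 : W)) (ω : F) (hω : ω ^ 2 + ω + 1 = 0)
    (π : W) (hπ : ¬ IsUnit π) :
    ∀ σ : HesY j ≃ₐ[F] HesY j, σ ≠ 1 → ∃ y r : HesY j, IsIntegral W[X] y ∧ IsIntegral W[X] r ∧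
      ∃ g : W[X], ¬ C π ∣ g ∧ (σ y - y) * r = algebraMap W[X] (HesY j) g := by
  intro σ hσ
  haveI : IsScalarTower W[X] (HesJ W) (HesY j) := hesY_isScalarTower_poly (W := W) j hjW
  haveI : Algebra.IsIntegral W[X] (HesJ W) := hesJ_isIntegral W h3
  haveI : CharZero (HesY j) := charZero_of_injective_algebraMap (algebraMap F (HesY j)).injective
  have hz : (hesY_root j ^ 3 - 1) * (hesY_root j ^ 3 - 1)⁻¹ = 1 :=
    mul_inv_cancel₀ (sub_ne_zero.mpr (hesY_root_cube_ne_one j))
  have hww : algebraMap F (HesY j) ω ^ 2 + algebraMap F (HesY j) ω + 1 = 0 := by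
    have := congrArg (algebraMap F (HesY j)) hω
    simpa using this
  have hJ : hesJ (hesY_root j) (hesY_root j ^ 3 - 1)⁻¹ = algebraMap F (HesY j) j :=
    hesJ_hesY_root j
  have hJD : algebraMap W[X] (HesY j) X = hesJ (hesY_root j) (hesY_root j ^ 3 - 1)⁻¹ := by
    rw [IsScalarTower.algebraMap_apply W[X] F (HesY j), hjW, hJ]
  -- images of the chart ring are integral
  have hchart : ∀ s : HesJ W, IsIntegral W[X] (algebraMap (HesJ W) (HesY j) s) := fun s =>
    (Algebra.IsIntegral.isIntegral s).algebraMap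
  -- the splitting of the Hesse polynomial
  have hfac : (hessePoly j).map (algebraMap F (HesY j)) = C 27 *
      ((hesY_root j :: (hesRoots (hesY_root j) (hesY_root j ^ 3 - 1)⁻¹
        (algebraMap F (HesY j) ω)).tail).map (fun r => X - C r)).prod := by
    rw [hessePoly_map, ← hJ, hessePoly_hesJ_list _ _ _ hz hww]
    rfl
  -- every conjugate is integral
  obtain ⟨v, hv⟩ := h3
  have hu : (27 : W[X]) * C ((↑v⁻¹ : W) ^ 3) = 1 := by
    have h3' : (3 : W) * (↑v⁻¹ : W) = 1 := by rw [← hv, Units.mul_inv]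
    have h27 : (27 : W) * (↑v⁻¹ : W) ^ 3 = 1 := by
      have : (27 : W) * (↑v⁻¹ : W) ^ 3 = ((3 : W) * (↑v⁻¹ : W)) ^ 3 := by ring
      rw [this, h3', one_pow]
    have := congrArg (C : W → W[X]) h27
    rwa [map_mul, map_ofNat C, map_one] at this
  have hint : ∀ r ∈ hesY_root j :: (hesRoots (hesY_root j) (hesY_root j ^ 3 - 1)⁻¹
      (algebraMap F (HesY j) ω)).tail, IsIntegral W[X] r := by
    intro r hr
    have hr' : r ∈ hesRoots (hesY_root j) (hesY_root j ^ 3 - 1)⁻¹ (algebraMap F (HesY j) ω) := hr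
    have h0 := eval_hesRoots _ _ _ hz hww r hr'
    refine isIntegral_of_aeval_hessePoly (X : W[X]) _ hu r ?_
    rw [← eval_map_algebraMap, hessePoly_map, hJD]
    exact h0
  have h27I : IsIntegral W[X] (27 : HesY j) := by
    have := isIntegral_algebraMap (R := W[X]) (A := HesY j) (x := (27 : W[X]))
    rwa [map_ofNat] at this
  -- the cofactor
  have hr0 : IsIntegral W[X] (9 * hesY_root j * (hesY_root j ^ 3 + 8) *
      (hesY_root j ^ 6 - 20 * hesY_root j ^ 3 - 8) * ((hesY_root j ^ 3 - 1)⁻¹) ^ 5) := by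
    have := hchart (9 * xJ W * (xJ W ^ 3 + 8) * (xJ W ^ 6 - 20 * xJ W ^ 3 - 8) * zJ W ^ 5)
    simpa only [map_mul, map_pow, map_add, map_sub, map_ofNat, algebraMap_hesY_xJ,
      algebraMap_hesY_zJ] using this
  have hder : aeval (hesY_root j) (derivative (hessePoly j)) =
      81 * hesY_root j ^ 2 * (hesY_root j ^ 3 + 8) ^ 2 *
        (hesY_root j ^ 6 - 20 * hesY_root j ^ 3 - 8) * (hesY_root j ^ 3 - 1)⁻¹ := by
    rw [aeval_derivative_hessePoly, ← hJ]
    unfold hesJ
    linear_combination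
      (-243 * hesY_root j ^ 5 * (hesY_root j ^ 3 + 8) ^ 3 * (hesY_root j ^ 3 - 1)⁻¹ *
          ((hesY_root j ^ 3 - 1) * (hesY_root j ^ 3 - 1)⁻¹ + 1) -
        324 * hesY_root j ^ 2 * (hesY_root j ^ 3 + 8) ^ 2 * (hesY_root j ^ 3 + 2)) * hz
  have hg : aeval (hesY_root j) (derivative (hessePoly j)) *
      (9 * hesY_root j * (hesY_root j ^ 3 + 8) *
        (hesY_root j ^ 6 - 20 * hesY_root j ^ 3 - 8) * ((hesY_root j ^ 3 - 1)⁻¹) ^ 5) =
      algebraMap W[X] (HesY j) (X * (X - C 1728)) := by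
    have hJ' := hesJ_sub (hesY_root j) (hesY_root j ^ 3 - 1)⁻¹ hz
    have h1728 : algebraMap W[X] (HesY j) (C 1728) = 1728 := by
      rw [map_ofNat C, map_ofNat]
    rw [map_mul, map_sub, hJD, h1728, hJ', hder]
    unfold hesJ
    ring
  have h27 : (27 : HesY j) ≠ 0 := by norm_num
  obtain ⟨r, hr, hrg⟩ := hinert_of_derivative (D := W[X]) (hessePoly j) (hesY_root j)
    AdjoinRoot.adjoinRoot_eq_top 27 _ hfac h27 h27I hint _ hr0 _ hg σ hσ
  exact ⟨hesY_root j, r, hint _ List.mem_cons_self, hr, X * (X - C 1728),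
    not_C_dvd_X_mul hπ, hrg⟩

end Fermat.Agent.S37.Hinert
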