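import Mathlib

/-!
# S37: the local chart at the cusp — transfer of integrality

`A` is a local ring (e.g. a valuation subring of `ℚ̄`), `K` a field, `c : A →+* K` the constants.
For `y : K` the *local chart ring at `y`* is the image of `Λ = A[X]_(𝔪_A, X)` under `X ↦ y`.
An element `z : K` is integral over it iff `u(y) z` is integral over `A[y]` for some `u ∈ A[X]`
with unit constant coefficient (`isIntegralElem_locHom_iff`).

**Transfer** (`transfer`): if `x` is a root of a polynomial `Ψ(T, y)`, `Ψ ∈ A[Y][T]`, whose
leading coefficient has unit constant term and whose lower coefficients are divisible by `Y`,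
then every element integral over the local chart ring at `x` is integral over the local chart
ring at `y`.  (For the modular equation: `x = 1/j(q)`, `y = 1/j(q^ℓ)`.)
-/

set_option autoImplicit false
set_option linter.unusedSectionVars false
set_option linter.style.haveILetI false

namespace Fermat.Agent.S37

open Polynomial

namespace LocalChart

section Unit

variable {Λ C : Type*} [CommRing Λ] [IsLocalRing Λ] [CommRing C] [Algebra Λ C]
  [Algebra.IsIntegral Λ C]

/-- every maximal ideal of an integral extension of a local ring lies over the maximal ideal -/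
theorem comap_maximal (M : Ideal C) [M.IsMaximal] :
    M.comap (algebraMap Λ C) = IsLocalRing.maximalIdeal Λ :=
  IsLocalRing.eq_maximalIdeal (Ideal.isMaximal_comap_of_isIntegral_of_isMaximal M)

/-- a root of a polynomial over a local ring with unit leading coefficient and all lower
coefficients in the maximal ideal lies in every maximal ideal of an integral extension -/
theorem mem_maximal_of_aeval_eq_zero (p : Λ[X]) (hlead : IsUnit p.leadingCoeff)
    (hlow : ∀ k < p.natDegree, p.coeff k ∈ IsLocalRing.maximalIdeal Λ) (x : C)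
    (hx : aeval x p = 0) (M : Ideal C) [hM : M.IsMaximal] : x ∈ M := by
  have hMc := comap_maximal (Λ := Λ) M
  rw [aeval_eq_sum_range, Finset.sum_range_succ] at hx
  have hsum : ∑ i ∈ Finset.range p.natDegree, p.coeff i • x ^ i ∈ M := by
    refine Ideal.sum_mem _ fun i hi => ?_
    rw [Algebra.smul_def]
    refine Ideal.mul_mem_right _ _ ?_
    have h1 := hlow i (Finset.mem_range.mp hi)
    rw [← hMc] at h1
    exact h1
  have hlc : p.coeff p.natDegree • x ^ p.natDegree ∈ M := by
    have h2 : p.coeff p.natDegree • x ^ p.natDegree =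
        -(∑ i ∈ Finset.range p.natDegree, p.coeff i • x ^ i) := by
      rw [eq_neg_iff_add_eq_zero, add_comm]
      exact hx
    rw [h2]
    exact neg_mem hsum
  rw [Algebra.smul_def] at hlc
  rcases hM.isPrime.mem_or_mem hlc with h | h
  · exfalso
    have h3 : p.leadingCoeff ∈ IsLocalRing.maximalIdeal Λ := by
      rw [← hMc]
      exact h
    exact (IsLocalRing.mem_maximalIdeal _).mp h3 hlead
  · exact hM.isPrime.mem_of_pow_mem _ h

/-- `a + x * t` is a unit when `a` is a unit of the local ring and `x` lies in every maximal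
ideal -/
theorem isUnit_add_mul (a : Λ) (ha : IsUnit a) (x t : C)
    (hx : ∀ M : Ideal C, M.IsMaximal → x ∈ M) : IsUnit (algebraMap Λ C a + x * t) := by
  by_contra hnu
  obtain ⟨M, hM, hmem⟩ := exists_max_ideal_of_mem_nonunits hnu
  haveI := hM
  have h1 : algebraMap Λ C a ∈ M := by
    have h0 := M.sub_mem hmem (M.mul_mem_right t (hx M hM))
    rwa [add_sub_cancel_right] at h0
  have h2 : a ∈ IsLocalRing.maximalIdeal Λ := by
    rw [← comap_maximal (Λ := Λ) M]
    exact h1
  exact (IsLocalRing.mem_maximalIdeal _).mp h2 ha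

end Unit

section Origin

variable (A : Type*) [CommRing A] [IsLocalRing A]

/-- the ideal `(𝔪_A, X)` of `A[X]` -/
noncomputable def originIdeal : Ideal A[X] := (IsLocalRing.maximalIdeal A).comap constantCoeff

instance originIdeal_isPrime : (originIdeal A).IsPrime :=
  Ideal.comap_isPrime _ _

variable {A}

theorem mem_originIdeal_iff (u : A[X]) : u ∈ originIdeal A ↔ ¬ IsUnit (u.coeff 0) := by
  rw [originIdeal, Ideal.mem_comap, constantCoeff_apply, IsLocalRing.mem_maximalIdeal,
    mem_nonunits_iff]

theorem mem_primeCompl_iff (u : A[X]) :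
    u ∈ (originIdeal A).primeCompl ↔ IsUnit (u.coeff 0) := by
  rw [Ideal.mem_primeCompl_iff, mem_originIdeal_iff, not_not]

theorem X_mem_originIdeal : (X : A[X]) ∈ originIdeal A := by
  rw [mem_originIdeal_iff, coeff_X_zero]
  exact not_isUnit_zero

variable (A) in
/-- the local ring `A[X]_(𝔪_A, X)` -/
abbrev LocRing : Type _ := Localization.AtPrime (originIdeal A)

variable {K : Type*} [Field K] (c : A →+* K) (y : K)
  (hy : ∀ u : A[X], IsUnit (u.coeff 0) → eval₂ c y u ≠ 0)

/-- the local chart map `A[X]_(𝔪_A, X) → K`, `X ↦ y` -/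
noncomputable def locHom : LocRing A →+* K :=
  IsLocalization.lift (M := (originIdeal A).primeCompl) (g := eval₂RingHom c y)
    (fun u => isUnit_iff_ne_zero.mpr (hy u.1 ((mem_primeCompl_iff u.1).mp u.2)))

theorem locHom_algebraMap (u : A[X]) :
    locHom c y hy (algebraMap A[X] (LocRing A) u) = eval₂ c y u :=
  IsLocalization.lift_eq _ u

theorem isUnit_algebraMap (u : A[X]) (hu : IsUnit (u.coeff 0)) :
    IsUnit (algebraMap A[X] (LocRing A) u) :=
  IsLocalization.map_units _ (⟨u, (mem_primeCompl_iff u).mpr hu⟩ : (originIdeal A).primeCompl)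

/-- **Elementwise form of integrality over the local chart ring**: `z` is integral over the
image of `A[X]_(𝔪_A, X)` iff `u(y) z` is integral over `A[y]` for some `u` with unit constant
coefficient. -/
theorem isIntegralElem_locHom_iff (z : K) :
    (locHom c y hy).IsIntegralElem z ↔
      ∃ u : A[X], IsUnit (u.coeff 0) ∧
        (eval₂RingHom c y).IsIntegralElem (eval₂ c y u * z) := by
  letI : Algebra A[X] K := (eval₂RingHom c y).toAlgebra
  letI : Algebra (LocRing A) K := (locHom c y hy).toAlgebra
  haveI : IsScalarTower A[X] (LocRing A) K :=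
    IsScalarTower.of_algebraMap_eq (fun u => (locHom_algebraMap c y hy u).symm)
  constructor
  · intro hz
    obtain ⟨m, hm⟩ := IsIntegral.exists_multiple_integral_of_isLocalization
      (originIdeal A).primeCompl z hz
    exact ⟨m.1, (mem_primeCompl_iff m.1).mp m.2, hm⟩
  · rintro ⟨u, hu, hz⟩
    have h1 : IsIntegral (LocRing A) (eval₂ c y u * z) := IsIntegral.tower_top (R := A[X]) hz
    obtain ⟨v, hv⟩ := isUnit_algebraMap u hu
    have h2 : z = algebraMap (LocRing A) K ((v⁻¹ : (LocRing A)ˣ) : LocRing A) *
        (eval₂ c y u * z) := by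
      have h3 : algebraMap (LocRing A) K ((v⁻¹ : (LocRing A)ˣ) : LocRing A) * eval₂ c y u = 1 := by
        rw [← locHom_algebraMap c y hy u, ← hv]
        show algebraMap (LocRing A) K _ * algebraMap (LocRing A) K _ = 1
        rw [← map_mul, Units.inv_mul, map_one]
      rw [← mul_assoc, h3, one_mul]
    show IsIntegral (LocRing A) z
    rw [h2]
    exact IsIntegral.mul isIntegral_algebraMap h1

include hy in
/-- **Transfer of local integrality** from the chart at `x` to the chart at `y`, when `x` is a
root of `Ψ(T, y)` with `Ψ ∈ A[Y][T]` whose leading coefficient has unit constant term and whose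
lower coefficients are divisible by `Y`. -/
theorem transfer (x : K) (Ψ : (A[X])[X]) (hΨ : eval₂ (eval₂RingHom c y) x Ψ = 0)
    (hlead : IsUnit (Ψ.leadingCoeff.coeff 0)) (hlow : ∀ k < Ψ.natDegree, X ∣ Ψ.coeff k) (z : K)
    (hz : ∃ u : A[X], IsUnit (u.coeff 0) ∧
      (eval₂RingHom c x).IsIntegralElem (eval₂ c x u * z)) :
    ∃ u : A[X], IsUnit (u.coeff 0) ∧
      (eval₂RingHom c y).IsIntegralElem (eval₂ c y u * z) := by
  rw [← isIntegralElem_locHom_iff c y hy]
  letI : Algebra (LocRing A) K := (locHom c y hy).toAlgebra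
  show IsIntegral (LocRing A) z
  set Ψ' : (LocRing A)[X] := Ψ.map (algebraMap A[X] (LocRing A)) with hΨ'
  have hlcunit : IsUnit (algebraMap A[X] (LocRing A) Ψ.leadingCoeff) :=
    isUnit_algebraMap _ hlead
  have hlc : Ψ'.leadingCoeff = algebraMap A[X] (LocRing A) Ψ.leadingCoeff :=
    leadingCoeff_map_of_leadingCoeff_ne_zero _ hlcunit.ne_zero
  have hdeg : Ψ'.natDegree = Ψ.natDegree :=
    natDegree_map_of_leadingCoeff_ne_zero _ hlcunit.ne_zero
  have hcomp : (algebraMap (LocRing A) K).comp (algebraMap A[X] (LocRing A)) =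
      eval₂RingHom c y := by
    exact RingHom.ext fun u => locHom_algebraMap c y hy u
  have hroot : aeval x Ψ' = 0 := by
    rw [hΨ', aeval_def, eval₂_map, hcomp]
    exact hΨ
  -- `x` is integral over the local chart ring at `y`
  have hxint : IsIntegral (LocRing A) x := by
    have h1 := isIntegral_leadingCoeff_smul Ψ' x hroot
    rw [hlc] at h1
    obtain ⟨v, hv⟩ := hlcunit
    have h2 : x = ((v⁻¹ : (LocRing A)ˣ) : LocRing A) •
        ((algebraMap A[X] (LocRing A) Ψ.leadingCoeff) • x) := by
      rw [← hv, smul_smul, Units.inv_mul, one_smul]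
    rw [h2]
    exact h1.smul _
  let xC : integralClosure (LocRing A) K := ⟨x, hxint⟩
  have hxC : aeval xC Ψ' = 0 := by
    apply Subtype.ext
    have h1 : ((aeval xC Ψ' : integralClosure (LocRing A) K) : K) = aeval x Ψ' :=
      (Subalgebra.aeval_coe (integralClosure (LocRing A) K) xC Ψ').symm
    rw [h1, hroot]
    rfl
  have hxmem : ∀ M : Ideal (integralClosure (LocRing A) K), M.IsMaximal → xC ∈ M := by
    intro M hM
    refine mem_maximal_of_aeval_eq_zero Ψ' (hlc ▸ hlcunit) (fun k hk => ?_) xC hxC M
    rw [hdeg] at hk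
    obtain ⟨q, hq⟩ := hlow k hk
    rw [hΨ', coeff_map, hq, IsLocalization.AtPrime.to_map_mem_maximal_iff _ (originIdeal A)]
    exact Ideal.mul_mem_right _ _ X_mem_originIdeal
  -- the chart map at `x`, with values in the integral closure
  let cC : A →+* integralClosure (LocRing A) K :=
    (algebraMap (LocRing A) (integralClosure (LocRing A) K)).comp
      ((algebraMap A[X] (LocRing A)).comp C)
  let φxC : A[X] →+* integralClosure (LocRing A) K := eval₂RingHom cC xC
  have hcC : ∀ a : A, ((cC a : integralClosure (LocRing A) K) : K) = c a := by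
    intro a
    show algebraMap (LocRing A) K (algebraMap A[X] (LocRing A) (C a)) = c a
    have h1 := locHom_algebraMap c y hy (C a)
    rw [eval₂_C] at h1
    exact h1
  have hφ : (algebraMap (integralClosure (LocRing A) K) K).comp φxC = eval₂RingHom c x := by
    refine Polynomial.ringHom_ext (fun a => ?_) ?_
    · show ((φxC (C a) : integralClosure (LocRing A) K) : K) = eval₂RingHom c x (C a)
      simp only [φxC, coe_eval₂RingHom, eval₂_C]
      exact hcC a
    · show ((φxC X : integralClosure (LocRing A) K) : K) = eval₂RingHom c x X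
      simp only [φxC, coe_eval₂RingHom, eval₂_X]
      rfl
  have hunit : ∀ u : A[X], IsUnit (u.coeff 0) → IsUnit (φxC u) := by
    intro u hu
    have h1 : φxC u = algebraMap (LocRing A) (integralClosure (LocRing A) K)
        (algebraMap A[X] (LocRing A) (C (u.coeff 0))) + xC * φxC u.divX := by
      conv_lhs => rw [← divX_mul_X_add u]
      rw [map_add, map_mul]
      have h2 : φxC X = xC := by simp only [φxC, coe_eval₂RingHom, eval₂_X]
      have h3 : φxC (C (u.coeff 0)) = cC (u.coeff 0) := by
        simp only [φxC, coe_eval₂RingHom, eval₂_C]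
      rw [h2, h3, add_comm, mul_comm]
      rfl
    rw [h1]
    exact isUnit_add_mul _ (isUnit_algebraMap _ (by rw [coeff_C_zero]; exact hu)) xC _ hxmem
  obtain ⟨u, hu, hzint⟩ := hz
  have hz1 : IsIntegral (LocRing A) (eval₂ c x u * z) := by
    obtain ⟨p, hp, hpz⟩ := hzint
    have h1 : IsIntegral (integralClosure (LocRing A) K) (eval₂ c x u * z) := by
      refine ⟨p.map φxC, hp.map _, ?_⟩
      rw [eval₂_map, hφ]
      exact hpz
    exact isIntegral_trans _ h1
  obtain ⟨v, hv⟩ := hunit u hu
  have hmul : eval₂ c x u *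
      (((v⁻¹ : (integralClosure (LocRing A) K)ˣ) : integralClosure (LocRing A) K) : K) = 1 := by
    have h1 : eval₂ c x u = ((φxC u : integralClosure (LocRing A) K) : K) := by
      have h2 := congrArg (fun f : A[X] →+* K => f u) hφ
      exact h2.symm
    rw [h1, ← hv]
    exact congrArg Subtype.val v.mul_inv
  have h4 : z = (eval₂ c x u * z) *
      (((v⁻¹ : (integralClosure (LocRing A) K)ˣ) : integralClosure (LocRing A) K) : K) := by
    rw [mul_comm (eval₂ c x u) z, mul_assoc, hmul, mul_one]
  rw [h4]
  exact hz1.mul ((v⁻¹ : (integralClosure (LocRing A) K)ˣ) : integralClosure (LocRing A) K).2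

/-- the local chart map is compatible with field homomorphisms -/
theorem comp_locHom {K' : Type*} [Field K'] (g : K →+* K')
    (hy' : ∀ u : A[X], IsUnit (u.coeff 0) → eval₂ (g.comp c) (g y) u ≠ 0) :
    g.comp (locHom c y hy) = locHom (g.comp c) (g y) hy' := by
  refine IsLocalization.ringHom_ext (originIdeal A).primeCompl (RingHom.ext fun u => ?_)
  show g (locHom c y hy (algebraMap A[X] (LocRing A) u)) =
    locHom (g.comp c) (g y) hy' (algebraMap A[X] (LocRing A) u)
  rw [locHom_algebraMap, locHom_algebraMap, hom_eval₂]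

include hy in
theorem eval₂_comp_ne_zero {K' : Type*} [Field K'] (g : K →+* K') (u : A[X])
    (hu : IsUnit (u.coeff 0)) : eval₂ (g.comp c) (g y) u ≠ 0 := by
  rw [← hom_eval₂, Ne, map_eq_zero]
  exact hy u hu

/-- integrality over the local chart ring is preserved by field homomorphisms -/
theorem isIntegralElem_locHom_map {K' : Type*} [Field K'] (g : K →+* K') (z : K)
    (hz : (locHom c y hy).IsIntegralElem z) :
    (locHom (g.comp c) (g y) (eval₂_comp_ne_zero c y hy g)).IsIntegralElem (g z) := by
  rw [← comp_locHom c y hy g]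
  obtain ⟨p, hp, hpz⟩ := hz
  exact ⟨p, hp, by rw [← hom_eval₂, hpz, map_zero]⟩

end Origin

end LocalChart

end Fermat.Agent.S37
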