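import Mathlib

/-!
# S37, package (W): rationality of a place from finite local data

Setting: fields `L ⊆ E` (the function field over a small field of constants) and `Ω ⊆ E'`
(the function field over the big field of constants), a ring map `φ : E → E'` over `ι : L → Ω`,
and a valuation `v` of `E'` which is trivial on `Ω` (a place).

Data (all of it finite in the applications): elements `b i ∈ E` with "values" `θ i ∈ L`
(`v (φ (b i) - θ i) < 1`), an element `t ∈ E` with `v (φ t) < 1`, certificates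
`S i * (b i - θ i) = t * C i` with `S i, C i ∈ L[b]` and `S i (θ) ≠ 0` ("`t` generates the maximal
ideal of `L[b]` at the point `θ`"), and the fact that `E` is the field of fractions of `L[b]`.

Conclusions (`Compat` is the hypothesis on the valuation):
* `exists_factor` : every nonzero `h ∈ E` satisfies `h * t ^ k₂ * U' = t ^ k₁ * U` with
  `U, U' ∈ L[b]` not vanishing at `θ`; the exponents do not depend on the valuation;
* `exists_value` : every `h ∈ E` with `v (φ h) ≤ 1` has a value in `L` (the place is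
  `L`-rational);
* `le_one_iff` : two compatible valuations have the same valuation ring on `φ E`
  (uniqueness of the extension of the place, and `t` is a uniformiser for both).
-/

set_option autoImplicit false
set_option linter.unusedSectionVars false

namespace Fermat.Agent.S37.Rational

open MvPolynomial

section Core

variable {L E Ω E' : Type*} [Field L] [Field E] [Algebra L E] [Field Ω] [Field E'] [Algebra Ω E']
variable {σ : Type*}
variable {Γ : Type*} [LinearOrderedCommGroupWithZero Γ]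

/-- The valuation `v` of `E'` is trivial on the constants, the `b i` have the values `θ i`, and
`t` has positive valuation. -/
def Compat (ι : L →+* Ω) (φ : E →+* E') (b : σ → E) (θ : σ → L) (t : E)
    (v : Valuation E' Γ) : Prop :=
  (∀ c : Ω, v (algebraMap Ω E' c) ≤ 1) ∧
    (∀ i, v (φ (b i) - algebraMap Ω E' (ι (θ i))) < 1) ∧ v (φ t) < 1

variable {ι : L →+* Ω} {φ : E →+* E'} {b : σ → E} {θ : σ → L} {t : E} {v : Valuation E' Γ}

theorem Compat.const_eq_one (hv : Compat ι φ b θ t v) {c : Ω} (hc : c ≠ 0) :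
    v (algebraMap Ω E' c) = 1 := by
  have h1 := hv.1 c
  have h2 := hv.1 c⁻¹
  have h3 : v (algebraMap Ω E' c) * v (algebraMap Ω E' c⁻¹) = 1 := by
    rw [← map_mul, ← map_mul, mul_inv_cancel₀ hc, map_one, map_one]
  refine le_antisymm h1 ?_
  calc (1 : Γ) = v (algebraMap Ω E' c) * v (algebraMap Ω E' c⁻¹) := h3.symm
    _ ≤ v (algebraMap Ω E' c) * 1 := mul_le_mul_right h2 _
    _ = v (algebraMap Ω E' c) := mul_one _

theorem Compat.gen_le_one (hv : Compat ι φ b θ t v) (i : σ) : v (φ (b i)) ≤ 1 := by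
  have h1 : φ (b i) = (φ (b i) - algebraMap Ω E' (ι (θ i))) + algebraMap Ω E' (ι (θ i)) := by ring
  rw [h1]
  exact Valuation.map_add_le v (hv.2.1 i).le (hv.1 _)

/-- Polynomial expressions in the `b i` have the expected values. -/
theorem Compat.aeval_sub_lt_one (hφ : ∀ c : L, φ (algebraMap L E c) = algebraMap Ω E' (ι c))
    (hv : Compat ι φ b θ t v) (P : MvPolynomial σ L) :
    v (φ (aeval b P) - algebraMap Ω E' (ι (eval θ P))) < 1 := by
  induction P using MvPolynomial.induction_on with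
  | C a =>
    rw [aeval_C, eval_C, hφ, sub_self, map_zero]
    exact zero_lt_one
  | add p q hp hq =>
    have h1 : φ (aeval b (p + q)) - algebraMap Ω E' (ι (eval θ (p + q))) =
        (φ (aeval b p) - algebraMap Ω E' (ι (eval θ p))) +
          (φ (aeval b q) - algebraMap Ω E' (ι (eval θ q))) := by
      simp only [map_add]
      ring
    rw [h1]
    exact Valuation.map_add_lt v hp hq
  | mul_X p i hp =>
    have h1 : φ (aeval b (p * X i)) - algebraMap Ω E' (ι (eval θ (p * X i))) =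
        (φ (aeval b p) - algebraMap Ω E' (ι (eval θ p))) * φ (b i) +
          algebraMap Ω E' (ι (eval θ p)) * (φ (b i) - algebraMap Ω E' (ι (θ i))) := by
      simp only [map_mul, aeval_X, eval_X]
      ring
    rw [h1]
    refine Valuation.map_add_lt v ?_ ?_
    · rw [map_mul]
      calc v (φ (aeval b p) - algebraMap Ω E' (ι (eval θ p))) * v (φ (b i))
          ≤ v (φ (aeval b p) - algebraMap Ω E' (ι (eval θ p))) * 1 :=
            mul_le_mul_right (hv.gen_le_one i) _
        _ = v (φ (aeval b p) - algebraMap Ω E' (ι (eval θ p))) := mul_one _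
        _ < 1 := hp
    · rw [map_mul]
      calc v (algebraMap Ω E' (ι (eval θ p))) * v (φ (b i) - algebraMap Ω E' (ι (θ i)))
          ≤ 1 * v (φ (b i) - algebraMap Ω E' (ι (θ i))) := mul_le_mul_left (hv.1 _) _
        _ = v (φ (b i) - algebraMap Ω E' (ι (θ i))) := one_mul _
        _ < 1 := hv.2.1 i

theorem Compat.aeval_le_one (hφ : ∀ c : L, φ (algebraMap L E c) = algebraMap Ω E' (ι c))
    (hv : Compat ι φ b θ t v) (P : MvPolynomial σ L) : v (φ (aeval b P)) ≤ 1 := by
  have h1 : φ (aeval b P) = (φ (aeval b P) - algebraMap Ω E' (ι (eval θ P))) +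
      algebraMap Ω E' (ι (eval θ P)) := by ring
  rw [h1]
  exact Valuation.map_add_le v (hv.aeval_sub_lt_one hφ P).le (hv.1 _)

theorem Compat.aeval_eq_one (hφ : ∀ c : L, φ (algebraMap L E c) = algebraMap Ω E' (ι c))
    (hv : Compat ι φ b θ t v) {P : MvPolynomial σ L} (hP : eval θ P ≠ 0) :
    v (φ (aeval b P)) = 1 := by
  have h0 : ι (eval θ P) ≠ 0 := (map_ne_zero ι).mpr hP
  have h1 : φ (aeval b P) = (φ (aeval b P) - algebraMap Ω E' (ι (eval θ P))) +
      algebraMap Ω E' (ι (eval θ P)) := by ring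
  have h2 := hv.aeval_sub_lt_one hφ P
  have h3 := hv.const_eq_one h0
  rw [h1, Valuation.map_add_eq_of_lt_right v (by rw [h3]; exact h2), h3]

theorem Compat.aeval_lt_one (hφ : ∀ c : L, φ (algebraMap L E c) = algebraMap Ω E' (ι c))
    (hv : Compat ι φ b θ t v) {P : MvPolynomial σ L} (hP : eval θ P = 0) :
    v (φ (aeval b P)) < 1 := by
  have h2 := hv.aeval_sub_lt_one hφ P
  rwa [hP, map_zero, map_zero, sub_zero] at h2

theorem Compat.aeval_ne_zero (hφ : ∀ c : L, φ (algebraMap L E c) = algebraMap Ω E' (ι c))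
    (hv : Compat ι φ b θ t v) {P : MvPolynomial σ L} (hP : eval θ P ≠ 0) :
    aeval b P ≠ 0 := by
  intro h
  have h1 := hv.aeval_eq_one hφ hP
  rw [h, map_zero, map_zero] at h1
  exact zero_ne_one h1

end Core

section Factor

variable {L E Ω E' : Type*} [Field L] [Field E] [Algebra L E] [Field Ω] [Field E'] [Algebra Ω E']
variable {σ : Type*}
variable {Γ : Type*} [LinearOrderedCommGroupWithZero Γ]
variable {ι : L →+* Ω} {φ : E →+* E'} {b : σ → E} {θ : σ → L} {t : E}

/-- **Local generation.**  If `t` generates the ideal of the point `θ` locally (certificates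
`S i * (b i - θ i) = t * C i` with `S i (θ) ≠ 0`), then every polynomial expression `P (b)`
satisfies `S * (P (b) - P (θ)) = t * Q (b)` with `S (θ) ≠ 0`. -/
theorem exists_mul_sub_eq (hloc : ∀ i, ∃ S C : MvPolynomial σ L, eval θ S ≠ 0 ∧
      aeval b S * (b i - algebraMap L E (θ i)) = t * aeval b C)
    (P : MvPolynomial σ L) :
    ∃ S Q : MvPolynomial σ L, eval θ S ≠ 0 ∧
      aeval b S * (aeval b P - algebraMap L E (eval θ P)) = t * aeval b Q := by
  induction P using MvPolynomial.induction_on with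
  | C a =>
    refine ⟨1, 0, by simp, ?_⟩
    rw [aeval_C, eval_C, sub_self, mul_zero, map_zero, mul_zero]
  | add p q hp hq =>
    obtain ⟨S₁, Q₁, hS₁, h₁⟩ := hp
    obtain ⟨S₂, Q₂, hS₂, h₂⟩ := hq
    refine ⟨S₁ * S₂, S₂ * Q₁ + S₁ * Q₂, ?_, ?_⟩
    · rw [map_mul]
      exact mul_ne_zero hS₁ hS₂
    · have e : aeval b (S₁ * S₂) * (aeval b (p + q) - algebraMap L E (eval θ (p + q))) =
          aeval b S₂ * (aeval b S₁ * (aeval b p - algebraMap L E (eval θ p))) +
            aeval b S₁ * (aeval b S₂ * (aeval b q - algebraMap L E (eval θ q))) := by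
        simp only [map_add, map_mul]
        ring
      rw [e, h₁, h₂]
      simp only [map_add, map_mul]
      ring
  | mul_X p i hp =>
    obtain ⟨S₁, Q₁, hS₁, h₁⟩ := hp
    obtain ⟨Sᵢ, Cᵢ, hSᵢ, hᵢ⟩ := hloc i
    refine ⟨S₁ * Sᵢ, Sᵢ * Q₁ * X i + S₁ * C (eval θ p) * Cᵢ, ?_, ?_⟩
    · rw [map_mul]
      exact mul_ne_zero hS₁ hSᵢ
    · have e : aeval b (S₁ * Sᵢ) * (aeval b (p * X i) - algebraMap L E (eval θ (p * X i))) =
          aeval b Sᵢ * (aeval b S₁ * (aeval b p - algebraMap L E (eval θ p))) * b i +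
            aeval b S₁ * algebraMap L E (eval θ p) *
              (aeval b Sᵢ * (b i - algebraMap L E (θ i))) := by
        simp only [map_mul, aeval_X, eval_X]
        ring
      rw [e, h₁, hᵢ]
      simp only [map_add, map_mul, aeval_X, aeval_C]
      ring

/-- **Factoring out `t`** from a polynomial expression: `P (b) * U' (b) = t ^ k * U (b)` with
`U, U'` not vanishing at `θ`.  One compatible valuation `v₀` with the Krull property
(`v₀ (φ t) ^ k < v₀ x` for large `k`) is needed for the termination. -/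
theorem exists_pow_mul_eq (hφ : ∀ c : L, φ (algebraMap L E c) = algebraMap Ω E' (ι c))
    (ht0 : t ≠ 0)
    (hloc : ∀ i, ∃ S C : MvPolynomial σ L, eval θ S ≠ 0 ∧
      aeval b S * (b i - algebraMap L E (θ i)) = t * aeval b C)
    (v₀ : Valuation E' Γ) (hv₀ : Compat ι φ b θ t v₀)
    (hK : ∀ x : E', x ≠ 0 → ∃ k : ℕ, v₀ (φ t) ^ k < v₀ x)
    (P : MvPolynomial σ L) (hP : aeval b P ≠ 0) :
    ∃ (k : ℕ) (U U' : MvPolynomial σ L), eval θ U ≠ 0 ∧ eval θ U' ≠ 0 ∧
      aeval b P * aeval b U' = t ^ k * aeval b U := by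
  have hφt0 : v₀ (φ t) ≠ 0 := (Valuation.ne_zero_iff v₀).mpr ((map_ne_zero φ).mpr ht0)
  have key : ∀ n : ℕ, ∀ P : MvPolynomial σ L, aeval b P ≠ 0 →
      v₀ (φ t) ^ n < v₀ (φ (aeval b P)) →
      ∃ (k : ℕ) (U U' : MvPolynomial σ L), eval θ U ≠ 0 ∧ eval θ U' ≠ 0 ∧
        aeval b P * aeval b U' = t ^ k * aeval b U := by
    intro n
    induction n with
    | zero =>
      intro P _ hlt
      rw [pow_zero] at hlt
      exact absurd (hv₀.aeval_le_one hφ P) (not_le.mpr hlt)
    | succ n ih =>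
      intro P hP hlt
      by_cases h0 : eval θ P = 0
      · obtain ⟨S, Q, hS, hSQ⟩ := exists_mul_sub_eq hloc P
        rw [h0, map_zero, sub_zero] at hSQ
        have hS0 : aeval b S ≠ 0 := hv₀.aeval_ne_zero hφ hS
        have hQ0 : aeval b Q ≠ 0 := by
          intro hQ
          rw [hQ, mul_zero] at hSQ
          exact (mul_ne_zero hS0 hP) hSQ
        have hval : v₀ (φ (aeval b P)) = v₀ (φ t) * v₀ (φ (aeval b Q)) := by
          have h1 := congrArg (fun x => v₀ (φ x)) hSQ
          simp only [map_mul] at h1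
          rw [hv₀.aeval_eq_one hφ hS, one_mul] at h1
          exact h1
        have hlt' : v₀ (φ t) ^ n < v₀ (φ (aeval b Q)) := by
          rw [hval, pow_succ'] at hlt
          exact lt_of_mul_lt_mul_left' hlt
        obtain ⟨k, U, U', hU, hU', hQU⟩ := ih Q hQ0 hlt'
        refine ⟨k + 1, U, S * U', hU, ?_, ?_⟩
        · rw [map_mul]
          exact mul_ne_zero hS hU'
        · rw [map_mul]
          calc aeval b P * (aeval b S * aeval b U')
              = aeval b S * aeval b P * aeval b U' := by ring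
            _ = t * aeval b Q * aeval b U' := by rw [hSQ]
            _ = t * (aeval b Q * aeval b U') := by ring
            _ = t ^ (k + 1) * aeval b U := by rw [hQU]; ring
      · exact ⟨0, P, 1, h0, by simp, by simp⟩
  have hx : φ (aeval b P) ≠ 0 := (map_ne_zero φ).mpr hP
  obtain ⟨n, hn⟩ := hK _ hx
  exact key n P hP hn

/-- **Every nonzero element of `E = Frac L[b]` is a power of `t` times a unit at `θ`.**  The
exponents and the two polynomials are independent of any valuation. -/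
theorem exists_factor (hφ : ∀ c : L, φ (algebraMap L E c) = algebraMap Ω E' (ι c))
    (ht0 : t ≠ 0)
    (hloc : ∀ i, ∃ S C : MvPolynomial σ L, eval θ S ≠ 0 ∧
      aeval b S * (b i - algebraMap L E (θ i)) = t * aeval b C)
    (hgen : ∀ h : E, ∃ P Q : MvPolynomial σ L, aeval b Q ≠ 0 ∧ h * aeval b Q = aeval b P)
    (v₀ : Valuation E' Γ) (hv₀ : Compat ι φ b θ t v₀)
    (hK : ∀ x : E', x ≠ 0 → ∃ k : ℕ, v₀ (φ t) ^ k < v₀ x)
    (h : E) (hh : h ≠ 0) :
    ∃ (k₁ k₂ : ℕ) (U U' : MvPolynomial σ L), eval θ U ≠ 0 ∧ eval θ U' ≠ 0 ∧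
      h * t ^ k₂ * aeval b U' = t ^ k₁ * aeval b U := by
  obtain ⟨P, Q, hQ, hPQ⟩ := hgen h
  have hP : aeval b P ≠ 0 := by
    rw [← hPQ]
    exact mul_ne_zero hh hQ
  obtain ⟨k₁, U₁, U₁', hU₁, hU₁', e₁⟩ := exists_pow_mul_eq hφ ht0 hloc v₀ hv₀ hK P hP
  obtain ⟨k₂, U₂, U₂', hU₂, hU₂', e₂⟩ := exists_pow_mul_eq hφ ht0 hloc v₀ hv₀ hK Q hQ
  refine ⟨k₁, k₂, U₁ * U₂', U₂ * U₁', ?_, ?_, ?_⟩
  · rw [map_mul]
    exact mul_ne_zero hU₁ hU₂'
  · rw [map_mul]
    exact mul_ne_zero hU₂ hU₁'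
  · rw [map_mul, map_mul]
    calc h * t ^ k₂ * (aeval b U₂ * aeval b U₁')
        = h * (t ^ k₂ * aeval b U₂) * aeval b U₁' := by ring
      _ = h * (aeval b Q * aeval b U₂') * aeval b U₁' := by rw [e₂]
      _ = (h * aeval b Q) * aeval b U₁' * aeval b U₂' := by ring
      _ = (aeval b P * aeval b U₁') * aeval b U₂' := by rw [hPQ]
      _ = t ^ k₁ * (aeval b U₁ * aeval b U₂') := by rw [e₁]; ring

end Factor

section Consequences

variable {L E Ω E' : Type*} [Field L] [Field E] [Algebra L E] [Field Ω] [Field E'] [Algebra Ω E']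
variable {σ : Type*}
variable {Γ : Type*} [LinearOrderedCommGroupWithZero Γ]
variable {ι : L →+* Ω} {φ : E →+* E'} {b : σ → E} {θ : σ → L} {t : E} {v : Valuation E' Γ}

/-- The valuation of an element in terms of its factorisation. -/
theorem valuation_mul_pow (hφ : ∀ c : L, φ (algebraMap L E c) = algebraMap Ω E' (ι c))
    (hv : Compat ι φ b θ t v) {h : E} {k₁ k₂ : ℕ} {U U' : MvPolynomial σ L}
    (hU : eval θ U ≠ 0) (hU' : eval θ U' ≠ 0)
    (e : h * t ^ k₂ * aeval b U' = t ^ k₁ * aeval b U) :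
    v (φ h) * v (φ t) ^ k₂ = v (φ t) ^ k₁ := by
  have h1 := congrArg (fun x => v (φ x)) e
  simp only [map_mul, map_pow] at h1
  rwa [hv.aeval_eq_one hφ hU, hv.aeval_eq_one hφ hU', mul_one, mul_one] at h1

/-- Integrality at the valuation is read off from the exponents. -/
theorem le_one_iff_le (hφ : ∀ c : L, φ (algebraMap L E c) = algebraMap Ω E' (ι c))
    (ht0 : t ≠ 0) (hv : Compat ι φ b θ t v) {h : E} {k₁ k₂ : ℕ} {U U' : MvPolynomial σ L}
    (hU : eval θ U ≠ 0) (hU' : eval θ U' ≠ 0)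
    (e : h * t ^ k₂ * aeval b U' = t ^ k₁ * aeval b U) :
    v (φ h) ≤ 1 ↔ k₂ ≤ k₁ := by
  have hval := valuation_mul_pow hφ hv hU hU' e
  have hφt0 : v (φ t) ≠ 0 := (Valuation.ne_zero_iff v).mpr ((map_ne_zero φ).mpr ht0)
  have hlt : v (φ t) < 1 := hv.2.2
  constructor
  · intro hle
    by_contra hk
    have hk' : k₁ < k₂ := not_le.mp hk
    obtain ⟨d, rfl⟩ : ∃ d, k₂ = k₁ + (d + 1) := ⟨k₂ - k₁ - 1, by omega⟩
    have h2 : v (φ t) ^ k₁ * (v (φ h) * v (φ t) ^ (d + 1)) = v (φ t) ^ k₁ * 1 := by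
      calc v (φ t) ^ k₁ * (v (φ h) * v (φ t) ^ (d + 1))
          = v (φ h) * v (φ t) ^ (k₁ + (d + 1)) := by
            rw [pow_add (v (φ t)) k₁ (d + 1)]; ac_rfl
        _ = v (φ t) ^ k₁ := hval
        _ = v (φ t) ^ k₁ * 1 := (mul_one _).symm
    have h3 : v (φ h) * v (φ t) ^ (d + 1) = 1 :=
      mul_left_cancel₀ (pow_ne_zero _ hφt0) h2
    have h4 : v (φ t) ^ (d + 1) < 1 := (pow_lt_one_iff (Nat.succ_ne_zero d)).mpr hlt
    have h5 : v (φ h) * v (φ t) ^ (d + 1) ≤ 1 * v (φ t) ^ (d + 1) := mul_le_mul_left hle _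
    rw [h3, one_mul] at h5
    exact absurd h4 (not_lt.mpr h5)
  · intro hk
    obtain ⟨d, rfl⟩ : ∃ d, k₁ = k₂ + d := ⟨k₁ - k₂, by omega⟩
    have h2 : v (φ t) ^ k₂ * v (φ h) = v (φ t) ^ k₂ * v (φ t) ^ d := by
      rw [← pow_add, ← hval]
      exact mul_comm _ _
    have h3 : v (φ h) = v (φ t) ^ d := mul_left_cancel₀ (pow_ne_zero _ hφt0) h2
    rw [h3]
    exact Right.pow_le_one_of_le hlt.le

/-- The valuation is `< 1` exactly when the first exponent is strictly larger. -/
theorem lt_one_iff_lt (hφ : ∀ c : L, φ (algebraMap L E c) = algebraMap Ω E' (ι c))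
    (ht0 : t ≠ 0) (hv : Compat ι φ b θ t v) {h : E} {k₁ k₂ : ℕ} {U U' : MvPolynomial σ L}
    (hU : eval θ U ≠ 0) (hU' : eval θ U' ≠ 0)
    (e : h * t ^ k₂ * aeval b U' = t ^ k₁ * aeval b U) :
    v (φ h) < 1 ↔ k₂ < k₁ := by
  have hval := valuation_mul_pow hφ hv hU hU' e
  have hφt0 : v (φ t) ≠ 0 := (Valuation.ne_zero_iff v).mpr ((map_ne_zero φ).mpr ht0)
  have hlt : v (φ t) < 1 := hv.2.2
  constructor
  · intro hh
    by_contra hk
    have hk' : k₁ ≤ k₂ := not_lt.mp hk
    obtain ⟨d, rfl⟩ : ∃ d, k₂ = k₁ + d := ⟨k₂ - k₁, by omega⟩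
    have h2 : v (φ t) ^ k₁ * (v (φ h) * v (φ t) ^ d) = v (φ t) ^ k₁ * 1 := by
      calc v (φ t) ^ k₁ * (v (φ h) * v (φ t) ^ d)
          = v (φ h) * v (φ t) ^ (k₁ + d) := by
            rw [pow_add (v (φ t)) k₁ d]; ac_rfl
        _ = v (φ t) ^ k₁ := hval
        _ = v (φ t) ^ k₁ * 1 := (mul_one _).symm
    have h3 : v (φ h) * v (φ t) ^ d = 1 := mul_left_cancel₀ (pow_ne_zero _ hφt0) h2
    have h4 : v (φ t) ^ d ≤ 1 := Right.pow_le_one_of_le hlt.le
    have h5 : v (φ h) * v (φ t) ^ d ≤ v (φ h) * 1 := mul_le_mul_right h4 _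
    rw [h3, mul_one] at h5
    exact absurd hh (not_lt.mpr h5)
  · intro hk
    obtain ⟨d, rfl⟩ : ∃ d, k₁ = k₂ + (d + 1) := ⟨k₁ - k₂ - 1, by omega⟩
    have h2 : v (φ t) ^ k₂ * v (φ h) = v (φ t) ^ k₂ * v (φ t) ^ (d + 1) := by
      rw [← pow_add, ← hval]
      exact mul_comm _ _
    have h3 : v (φ h) = v (φ t) ^ (d + 1) := mul_left_cancel₀ (pow_ne_zero _ hφt0) h2
    rw [h3]
    exact (pow_lt_one_iff (Nat.succ_ne_zero d)).mpr hlt

end Consequences

section Main

variable {L E Ω E' : Type*} [Field L] [Field E] [Algebra L E] [Field Ω] [Field E'] [Algebra Ω E']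
variable {σ : Type*}
variable {Γ Γ' Γ₀ : Type*} [LinearOrderedCommGroupWithZero Γ] [LinearOrderedCommGroupWithZero Γ']
  [LinearOrderedCommGroupWithZero Γ₀]
variable {ι : L →+* Ω} {φ : E →+* E'} {b : σ → E} {θ : σ → L} {t : E}

/-- **Rationality.**  Every element of `E` which is integral at a compatible valuation `v` has a
value in `L`. -/
theorem exists_value (hφ : ∀ c : L, φ (algebraMap L E c) = algebraMap Ω E' (ι c))
    (ht0 : t ≠ 0)
    (hloc : ∀ i, ∃ S C : MvPolynomial σ L, eval θ S ≠ 0 ∧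
      aeval b S * (b i - algebraMap L E (θ i)) = t * aeval b C)
    (hgen : ∀ h : E, ∃ P Q : MvPolynomial σ L, aeval b Q ≠ 0 ∧ h * aeval b Q = aeval b P)
    (v₀ : Valuation E' Γ₀) (hv₀ : Compat ι φ b θ t v₀)
    (hK : ∀ x : E', x ≠ 0 → ∃ k : ℕ, v₀ (φ t) ^ k < v₀ x)
    (v : Valuation E' Γ) (hv : Compat ι φ b θ t v)
    (h : E) (hh : v (φ h) ≤ 1) :
    ∃ c : L, v (φ h - algebraMap Ω E' (ι c)) < 1 := by
  rcases eq_or_ne h 0 with rfl | h0
  · exact ⟨0, by simp⟩
  obtain ⟨k₁, k₂, U, U', hU, hU', e⟩ := exists_factor hφ ht0 hloc hgen v₀ hv₀ hK h h0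
  have hk : k₂ ≤ k₁ := (le_one_iff_le hφ ht0 hv hU hU' e).mp hh
  rcases Nat.lt_or_ge k₂ k₁ with hlt | hge
  · refine ⟨0, ?_⟩
    rw [map_zero, map_zero, sub_zero]
    exact (lt_one_iff_lt hφ ht0 hv hU hU' e).mpr hlt
  · have hkk : k₁ = k₂ := le_antisymm hge hk
    subst hkk
    have e' : h * aeval b U' = aeval b U := by
      have h1 : t ^ k₁ * (h * aeval b U') = t ^ k₁ * aeval b U := by
        rw [← e]
        ring
      exact mul_left_cancel₀ (pow_ne_zero _ ht0) h1
    refine ⟨eval θ U / eval θ U', ?_⟩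
    have hU'1 := hv.aeval_eq_one hφ hU'
    have hcU' : v (algebraMap Ω E' (ι (eval θ U'))) = 1 :=
      hv.const_eq_one ((map_ne_zero ι).mpr hU')
    have hx0 : φ (aeval b U') ≠ 0 := by
      intro hx
      rw [hx, map_zero] at hU'1
      exact zero_ne_one hU'1
    have hy0 : algebraMap Ω E' (ι (eval θ U')) ≠ 0 := by
      intro hy
      rw [hy, map_zero] at hcU'
      exact zero_ne_one hcU'
    have key : (φ h - algebraMap Ω E' (ι (eval θ U / eval θ U'))) *
        (φ (aeval b U') * algebraMap Ω E' (ι (eval θ U'))) =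
        (φ (aeval b U) - algebraMap Ω E' (ι (eval θ U))) * algebraMap Ω E' (ι (eval θ U')) -
          algebraMap Ω E' (ι (eval θ U)) *
            (φ (aeval b U') - algebraMap Ω E' (ι (eval θ U'))) := by
      rw [← e', map_div₀, map_div₀, map_mul]
      field_simp
      ring
    have hval : v ((φ h - algebraMap Ω E' (ι (eval θ U / eval θ U'))) *
        (φ (aeval b U') * algebraMap Ω E' (ι (eval θ U')))) < 1 := by
      rw [key, sub_eq_add_neg]
      refine Valuation.map_add_lt v ?_ ?_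
      · rw [map_mul, hcU', mul_one]
        exact hv.aeval_sub_lt_one hφ U
      · rw [Valuation.map_neg, map_mul]
        calc v (algebraMap Ω E' (ι (eval θ U))) *
              v (φ (aeval b U') - algebraMap Ω E' (ι (eval θ U')))
            ≤ 1 * v (φ (aeval b U') - algebraMap Ω E' (ι (eval θ U'))) :=
              mul_le_mul_left (hv.1 _) _
          _ = v (φ (aeval b U') - algebraMap Ω E' (ι (eval θ U'))) := one_mul _
          _ < 1 := hv.aeval_sub_lt_one hφ U'
    rwa [map_mul, map_mul, hU'1, hcU', mul_one, mul_one] at hval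

/-- **Uniqueness of the valuation ring.**  Two compatible valuations have the same valuation
ring on `φ E`. -/
theorem le_one_iff (hφ : ∀ c : L, φ (algebraMap L E c) = algebraMap Ω E' (ι c))
    (ht0 : t ≠ 0)
    (hloc : ∀ i, ∃ S C : MvPolynomial σ L, eval θ S ≠ 0 ∧
      aeval b S * (b i - algebraMap L E (θ i)) = t * aeval b C)
    (hgen : ∀ h : E, ∃ P Q : MvPolynomial σ L, aeval b Q ≠ 0 ∧ h * aeval b Q = aeval b P)
    (v₀ : Valuation E' Γ₀) (hv₀ : Compat ι φ b θ t v₀)
    (hK : ∀ x : E', x ≠ 0 → ∃ k : ℕ, v₀ (φ t) ^ k < v₀ x)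
    (v : Valuation E' Γ) (hv : Compat ι φ b θ t v)
    (v' : Valuation E' Γ') (hv' : Compat ι φ b θ t v') (h : E) :
    v (φ h) ≤ 1 ↔ v' (φ h) ≤ 1 := by
  rcases eq_or_ne h 0 with rfl | h0
  · simp
  obtain ⟨k₁, k₂, U, U', hU, hU', e⟩ := exists_factor hφ ht0 hloc hgen v₀ hv₀ hK h h0
  rw [le_one_iff_le hφ ht0 hv hU hU' e, le_one_iff_le hφ ht0 hv' hU hU' e]

/-- **`t` is a uniformiser**: the valuation of every nonzero element of `E` is an integral power
of the valuation of `t`. -/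
theorem exists_valuation_eq_zpow (hφ : ∀ c : L, φ (algebraMap L E c) = algebraMap Ω E' (ι c))
    (ht0 : t ≠ 0)
    (hloc : ∀ i, ∃ S C : MvPolynomial σ L, eval θ S ≠ 0 ∧
      aeval b S * (b i - algebraMap L E (θ i)) = t * aeval b C)
    (hgen : ∀ h : E, ∃ P Q : MvPolynomial σ L, aeval b Q ≠ 0 ∧ h * aeval b Q = aeval b P)
    (v₀ : Valuation E' Γ₀) (hv₀ : Compat ι φ b θ t v₀)
    (hK : ∀ x : E', x ≠ 0 → ∃ k : ℕ, v₀ (φ t) ^ k < v₀ x)
    (v : Valuation E' Γ) (hv : Compat ι φ b θ t v) (h : E) (h0 : h ≠ 0) :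
    ∃ k : ℤ, v (φ h) = v (φ t) ^ k := by
  obtain ⟨k₁, k₂, U, U', hU, hU', e⟩ := exists_factor hφ ht0 hloc hgen v₀ hv₀ hK h h0
  have hval := valuation_mul_pow hφ hv hU hU' e
  have hφt0 : v (φ t) ≠ 0 := (Valuation.ne_zero_iff v).mpr ((map_ne_zero φ).mpr ht0)
  refine ⟨(k₁ : ℤ) - k₂, ?_⟩
  rw [zpow_sub₀ hφt0, zpow_natCast, zpow_natCast, eq_div_iff (pow_ne_zero _ hφt0), hval]

end Main

section Krull

variable {E' : Type*} [Field E']

/-- The Krull property of a noetherian valuation ring (e.g. the valuation ring of a place):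
powers of an element of positive valuation become smaller than any nonzero element. -/
theorem exists_pow_lt (O : ValuationSubring E') [IsNoetherianRing O] (t' : E')
    (ht : O.valuation t' < 1) (x : E') (hx : x ≠ 0) :
    ∃ k : ℕ, O.valuation t' ^ k < O.valuation x := by
  by_contra hcon
  replace hcon : ∀ k : ℕ, O.valuation x ≤ O.valuation t' ^ k := fun k =>
    not_lt.mp fun hk => hcon ⟨k, hk⟩
  rcases eq_or_ne t' 0 with rfl | ht0
  · have h1 := hcon 1
    rw [map_zero, pow_one] at h1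
    exact hx ((Valuation.zero_iff _).mp (le_antisymm h1 zero_le))
  have hxO : x ∈ O := by
    rw [← ValuationSubring.valuation_le_one_iff]
    simpa using hcon 0
  have htO : t' ∈ O := by
    rw [← ValuationSubring.valuation_le_one_iff]
    exact ht.le
  have hdiv : ∀ k : ℕ, x * (t' ^ k)⁻¹ ∈ O := by
    intro k
    rw [← ValuationSubring.valuation_le_one_iff, map_mul, map_inv₀, map_pow]
    have hne : O.valuation t' ^ k ≠ 0 := pow_ne_zero _ ((Valuation.ne_zero_iff _).mpr ht0)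
    rw [mul_inv_le_iff₀ (lt_of_le_of_ne zero_le hne.symm), one_mul]
    exact hcon k
  set I : Ideal O := Ideal.span {(⟨t', htO⟩ : O)} with hI
  have hItop : I ≠ ⊤ := by
    rw [hI, Ne, Ideal.span_singleton_eq_top]
    intro hu
    have := (ValuationSubring.valuation_eq_one_iff O ⟨t', htO⟩).mp hu
    exact absurd this (ne_of_lt ht)
  have hmem : ∀ k : ℕ, (⟨x, hxO⟩ : O) ∈ I ^ k := by
    intro k
    rw [hI, Ideal.span_singleton_pow, Ideal.mem_span_singleton]
    refine ⟨⟨x * (t' ^ k)⁻¹, hdiv k⟩, ?_⟩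
    apply Subtype.ext
    simp only [MulMemClass.coe_mul, SubmonoidClass.coe_pow]
    field_simp
  have hbot : (⨅ k : ℕ, I ^ k) = ⊥ := Ideal.iInf_pow_eq_bot_of_isLocalRing I hItop
  have hx0 : (⟨x, hxO⟩ : O) ∈ (⨅ k : ℕ, I ^ k) := Ideal.mem_iInf.mpr hmem
  rw [hbot, Ideal.mem_bot] at hx0
  exact hx (congrArg Subtype.val hx0)

end Krull

end Fermat.Agent.S37.Rational
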