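import Mathlib
import Fermat.Agent.S37.Inertia

/-!
# S37, row G (1): functions integral on a chart have values in `A`

`Centre.ValueProp A N`, unconditionally: if `f` is integral over `A[j]` and `j(P) ∈ A`, then the
monic equation of `f` has coefficients in the valuation ring of `P`, so `f` has a value at `P`,
and this value is a root of a monic polynomial over `A`, hence lies in `A`.  On the cusp chart
the multiplier `u(1/j)` has the value `u(a)`, a unit of `A`.
-/

set_option autoImplicit false

namespace Fermat.Agent.S37.ValueInt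

open ModularCurve AlgebraicCurve Polynomial Fermat.Agent.S37.GaloisValue Fermat.Agent.S37.Centre
  Fermat.Agent.S37.Inertia

noncomputable section

local notation "Qb" => AlgebraicClosure ℚ

section General

variable {K F : Type*} [Field K] [Field F] [Algebra K F]

theorem isValueAt_zero (v : Place K F) : IsValueAt v (0 : F) 0 := by
  simpa using isValueAt_algebraMap v (0 : K)

theorem isValueAt_sum {ι : Type*} (v : Place K F) (s : Finset ι) (u : ι → F) (a : ι → K)
    (h : ∀ i ∈ s, IsValueAt v (u i) (a i)) : IsValueAt v (∑ i ∈ s, u i) (∑ i ∈ s, a i) := by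
  classical
  induction s using Finset.induction_on with
  | empty => simpa using isValueAt_zero v
  | insert i s hi ih =>
    rw [Finset.sum_insert hi, Finset.sum_insert hi]
    exact (h i (Finset.mem_insert_self i s)).add
      (ih fun j hj => h j (Finset.mem_insert_of_mem hj))

/-- Values commute with polynomial evaluation. -/
theorem isValueAt_eval₂ {R : Type*} [CommRing R] (v : Place K F) (φ : R →+* F) (ψ : R →+* K)
    (hφ : ∀ r, IsValueAt v (φ r) (ψ r)) {u : F} {a : K} (hu : IsValueAt v u a) (p : R[X]) :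
    IsValueAt v (p.eval₂ φ u) (p.eval₂ ψ a) := by
  rw [Polynomial.eval₂_eq_sum_range, Polynomial.eval₂_eq_sum_range]
  exact isValueAt_sum v _ _ _ fun i _ => (hφ _).mul (hu.pow i)

/-- An element integral along `φ : R →+* F`, where every `φ r` lies in the valuation ring of
`v`, lies in the valuation ring of `v`. -/
theorem mem_of_isIntegralElem {R : Type*} [CommRing R] (v : Place K F) (φ : R →+* F)
    (hφ : ∀ r, φ r ∈ v.toValuationSubring) {x : F} (hx : φ.IsIntegralElem x) :
    x ∈ v.toValuationSubring := by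
  obtain ⟨p, hp, hpx⟩ := hx
  let φ' : R →+* v.toValuationSubring := φ.codRestrict v.toValuationSubring.toSubring hφ
  have hint : IsIntegral v.toValuationSubring x := by
    refine ⟨p.map φ', hp.map _, ?_⟩
    rw [Polynomial.eval₂_map]
    exact hpx
  obtain ⟨y, rfl⟩ := IsIntegrallyClosed.isIntegral_iff.mp hint
  exact y.2

/-- If `x` is integral along `φ : R →+* F`, every `φ r` has the value `ψ r` at the degree-one
place `v`, then `x` has a value at `v`, and this value is integral along `ψ`. -/
theorem exists_isValueAt_of_isIntegralElem {R : Type*} [CommRing R] (v : Place K F)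
    (hdeg : v.deg = 1) (φ : R →+* F) (ψ : R →+* K) (hφ : ∀ r, IsValueAt v (φ r) (ψ r)) {x : F}
    (hx : φ.IsIntegralElem x) : ∃ c : K, ψ.IsIntegralElem c ∧ IsValueAt v x c := by
  have hxv : x ∈ v.toValuationSubring := mem_of_isIntegralElem v φ (fun r => (hφ r).mem) hx
  obtain ⟨p, hp, hpx⟩ := hx
  obtain ⟨c, hc⟩ := exists_isValueAt_of_deg_eq_one hdeg hxv
  refine ⟨c, ⟨p, hp, ?_⟩, hc⟩
  have h1 := isValueAt_eval₂ v φ ψ hφ hc p
  rw [hpx] at h1
  exact h1.unique (isValueAt_zero v)

end General

section Modular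

variable (A : ValuationSubring Qb) (N : ℕ) [NeZero N]

/-- An element of `ℚ̄` integral along `A[X] → ℚ̄`, `X ↦ a ∈ A`, lies in `A`. -/
theorem mem_of_isIntegralElem_eval₂ {a : Qb} (ha : a ∈ A) {c : Qb}
    (hc : (Polynomial.eval₂RingHom A.subtype a).IsIntegralElem c) : c ∈ A := by
  obtain ⟨p, hp, hpc⟩ := hc
  have hint : IsIntegral A c := by
    refine ⟨p.map (Polynomial.evalRingHom (⟨a, ha⟩ : A)), hp.map _, ?_⟩
    rw [Polynomial.eval₂_map]
    have e : (algebraMap (↥A) Qb).comp (Polynomial.evalRingHom (⟨a, ha⟩ : A))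
        = Polynomial.eval₂RingHom A.subtype a := by
      refine Polynomial.ringHom_ext (fun r => ?_) ?_
      · simp
      · simp
    rw [e]
    exact hpc
  obtain ⟨y, rfl⟩ := IsIntegrallyClosed.isIntegral_iff.mp hint
  exact y.2

theorem isValueAt_evJ {P : Place Qb ↥(modularFunctionFieldBar N)} {a : Qb}
    (hP : IsValueAt P (Fermat.Agent.S24.jBC Qb N) a) (q : Polynomial ↥A) :
    IsValueAt P (evJ A N q) (Polynomial.eval₂RingHom A.subtype a q) :=
  isValueAt_eval₂ P (constA A N) A.subtype (fun r => isValueAt_algebraMap P (r : Qb)) hP q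

theorem isValueAt_evJinv {P : Place Qb ↥(modularFunctionFieldBar N)} {a : Qb}
    (hP : IsValueAt P (Fermat.Agent.S24.jBC Qb N)⁻¹ a) (q : Polynomial ↥A) :
    IsValueAt P (evJinv A N q) (Polynomial.eval₂RingHom A.subtype a q) :=
  isValueAt_eval₂ P (constA A N) A.subtype (fun r => isValueAt_algebraMap P (r : Qb)) hP q

/-- (VAL), finite chart. -/
theorem valueProp_fin (f : ↥(modularFunctionFieldBar N)) (hf : IsFinInt A N f)
    (P : Place Qb ↥(modularFunctionFieldBar N)) (hP : IsFinPlace A N P) :
    ∃ c : Qb, c ∈ A ∧ IsValueAt P f c := by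
  obtain ⟨a, ha, hPa⟩ := hP
  have hdeg : P.deg = 1 := Fermat.Agent.S18.Witness.bar_deg_eq_one N P
  obtain ⟨c, hc, hval⟩ := exists_isValueAt_of_isIntegralElem P hdeg (evJ A N)
    (Polynomial.eval₂RingHom A.subtype a) (fun q => isValueAt_evJ A N hPa q) hf
  exact ⟨c, mem_of_isIntegralElem_eval₂ A ha hc, hval⟩

/-- A polynomial over `A` with unit constant coefficient takes unit values on the maximal
ideal. -/
theorem valuation_eval₂_eq_one {a : Qb} (ha : A.valuation a < 1) (u : Polynomial ↥A)
    (hu : IsUnit (u.coeff 0)) : A.valuation (Polynomial.eval₂RingHom A.subtype a u) = 1 := by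
  have haA : a ∈ A := (A.valuation_le_one_iff a).mp ha.le
  have hmem : (⟨a, haA⟩ : A) ∈ IsLocalRing.maximalIdeal A :=
    (A.valuation_lt_one_iff (⟨a, haA⟩ : A)).mpr ha
  have e : Polynomial.eval₂RingHom A.subtype a u = ((u.eval (⟨a, haA⟩ : A) : A) : Qb) := by
    have := Polynomial.hom_eval₂ u (RingHom.id A) A.subtype (⟨a, haA⟩ : A)
    rw [RingHom.comp_id, Polynomial.eval₂_id] at this
    exact this.symm
  rw [e]
  have hunit : IsUnit (u.eval (⟨a, haA⟩ : A)) := by
    by_contra hnu
    have h1 : u.eval (⟨a, haA⟩ : A) ∈ IsLocalRing.maximalIdeal A :=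
      (IsLocalRing.mem_maximalIdeal _).mpr hnu
    have h2 : u.coeff 0 = u.eval (⟨a, haA⟩ : A) - (u.divX.eval (⟨a, haA⟩ : A)) * ⟨a, haA⟩ := by
      have h := congrArg (Polynomial.eval (⟨a, haA⟩ : A)) (Polynomial.divX_mul_X_add u)
      rw [Polynomial.eval_add, Polynomial.eval_mul, Polynomial.eval_X, Polynomial.eval_C] at h
      rw [← h]; ring
    have h3 : u.coeff 0 ∈ IsLocalRing.maximalIdeal A := by
      rw [h2]
      exact sub_mem h1 (Ideal.mul_mem_left _ _ hmem)
    exact (IsLocalRing.mem_maximalIdeal _).mp h3 hu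
  exact (A.valuation_eq_one_iff _).mp hunit

/-- (VAL), cusp chart. -/
theorem valueProp_cusp (f : ↥(modularFunctionFieldBar N)) (hf : IsCuspInt A N f)
    (P : Place Qb ↥(modularFunctionFieldBar N)) (hP : IsCuspPlace A N P) :
    ∃ c : Qb, c ∈ A ∧ IsValueAt P f c := by
  obtain ⟨a, ha, hPa⟩ := hP
  obtain ⟨u, hu, hint⟩ := hf
  have haA : a ∈ A := (A.valuation_le_one_iff a).mp ha.le
  have hdeg : P.deg = 1 := Fermat.Agent.S18.Witness.bar_deg_eq_one N P
  obtain ⟨c', hc', hval'⟩ := exists_isValueAt_of_isIntegralElem P hdeg (evJinv A N)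
    (Polynomial.eval₂RingHom A.subtype a) (fun q => isValueAt_evJinv A N hPa q) hint
  have hc'A : c' ∈ A := mem_of_isIntegralElem_eval₂ A haA hc'
  have hua : IsValueAt P (evJinv A N u) (Polynomial.eval₂RingHom A.subtype a u) :=
    isValueAt_evJinv A N hPa u
  have hunit := valuation_eval₂_eq_one A ha u hu
  have hne : Polynomial.eval₂RingHom A.subtype a u ≠ 0 := by
    intro h0
    rw [h0, map_zero] at hunit
    exact zero_ne_one hunit
  have hu0 : evJinv A N u ≠ 0 := by
    intro h0
    rw [h0] at hua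
    exact hne ((isValueAt_zero P).unique hua).symm
  have hf' := (isValueAt_inv hua hne).mul hval'
  rw [inv_mul_cancel_left₀ hu0] at hf'
  refine ⟨_, A.mul_mem _ _ ?_ hc'A, hf'⟩
  rw [← A.valuation_le_one_iff, map_inv₀, hunit, inv_one]

/-- **(VAL)**: functions integral on a chart have values in `A` at the places of that chart. -/
theorem valueProp : ValueProp A N :=
  ⟨valueProp_fin A N, valueProp_cusp A N⟩

end Modular

end

end Fermat.Agent.S37.ValueInt
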