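/-
S37, (W): the chart congruence `WChartB.chart_congr` on the two concrete charts of the
`j`-line at a level `W = A ∩ L` (helper1).  All chart inputs (PRIME), (NOE), (DED), (FRAC),
(EXT), (VAL) are discharged from the landed providers; the carriers are abstract integral
closures `B` of `W[X]` (`X ↦ j`) resp. `CuspBase W` (`t ↦ 1/j`) in `FF L N`.
-/
import Mathlib
import Fermat.Agent.S37.WChartB
import Fermat.Agent.S37.GaussPrime
import Fermat.Agent.S37.GaussNoeth
import Fermat.Agent.S37.ChartFrac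
import Fermat.Agent.S37.ChartValB
import Fermat.Agent.S37.ChartInstSplit
import Fermat.Agent.S37.ExtPlace

set_option autoImplicit false
set_option linter.style.haveILetI false

noncomputable section

namespace Fermat.Agent.S37.WChartConc

open AlgebraicCurve ModularCurve Polynomial Fermat.Agent.S18 Fermat.Agent.S18.Gauss
  Fermat.Agent.S18.Cusp Fermat.Agent.S37.GaloisValue Fermat.Agent.S37

local notation "Qb" => AlgebraicClosure ℚ

variable (N : ℕ) [NeZero N] {ℓ : ℕ} (A : ValuationSubring Qb) {L : Type} [Field L]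
  [Algebra ℚ L] (ι : L →+* Qb) [IsDiscreteValuationRing ↥(A.comap ι)]
  [IsAlgClosed (IsLocalRing.ResidueField ↥(A.comap ι))]
  [CharP (IsLocalRing.ResidueField ↥(A.comap ι)) ℓ]

omit [NeZero N] [Algebra ℚ L] [IsDiscreteValuationRing ↥(A.comap ι)]
  [IsAlgClosed (IsLocalRing.ResidueField ↥(A.comap ι))]
  [CharP (IsLocalRing.ResidueField ↥(A.comap ι)) ℓ] in
/-- A uniformiser of `A ∩ L` has valuation `< 1` in `A`. -/
theorem valuation_unif_lt_one {ϖ : ↥(A.comap ι)} (hϖ : Irreducible ϖ) :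
    A.valuation (ι (ϖ : L)) < 1 := by
  have hmem : ι (ϖ : L) ∈ A := ϖ.2
  have hle : A.valuation (ι (ϖ : L)) ≤ 1 := (A.valuation_le_one_iff _).mpr hmem
  refine lt_of_le_of_ne hle fun h1 => hϖ.not_isUnit ?_
  have hϖ0 : (ϖ : L) ≠ 0 := by
    intro h0
    exact hϖ.ne_zero (Subtype.ext h0)
  have hinv : (ϖ : L)⁻¹ ∈ A.comap ι := by
    rw [ValuationSubring.mem_comap, map_inv₀, ← A.valuation_le_one_iff, map_inv₀, h1, inv_one]
  exact IsUnit.of_mul_eq_one (⟨(ϖ : L)⁻¹, hinv⟩ : ↥(A.comap ι))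
    (Subtype.ext (mul_inv_cancel₀ hϖ0))

/-- **(W) on the finite chart.** -/
theorem fin_congr (hℓ : ℓ.Prime) (hℓN : ¬ ℓ ∣ N)
    (hroots : ∀ x : Qb, (∃ n : ℕ, ¬ ℓ ∣ n ∧ x ^ n = 1) → ∃ b : L, ι b = x)
    {ϖ : ↥(A.comap ι)} (hϖ : Irreducible ϖ)
    [Algebra (↥(A.comap ι))[X] (Fermat.Agent.S24.FF L N)]
    (halg : algebraMap (↥(A.comap ι))[X] (Fermat.Agent.S24.FF L N) = evF (A.comap ι) N)
    (B : Type*) [CommRing B] [Algebra (↥(A.comap ι))[X] B]
    [Algebra B (Fermat.Agent.S24.FF L N)]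
    [IsScalarTower (↥(A.comap ι))[X] B (Fermat.Agent.S24.FF L N)]
    [IsIntegralClosure B (↥(A.comap ι))[X] (Fermat.Agent.S24.FF L N)]
    (a b : B) (ha : ¬ algebraMap (↥(A.comap ι))[X] B (C ϖ) ∣ a)
    (hb : ¬ algebraMap (↥(A.comap ι))[X] B (C ϖ) ∣ b)
    (hRAT : ∀ P : Place Qb ↥(modularFunctionFieldBar N),
      0 < P.ord (Fermat.Agent.S24.CoeffBC.bc ι (modularFunctionFieldFull N)
        (algebraMap B (Fermat.Agent.S24.FF L N) (a * b))) →
      (∀ g : Fermat.Agent.S24.FF L N,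
        Fermat.Agent.S24.CoeffBC.bc ι (modularFunctionFieldFull N) g ∈ P.toValuationSubring →
        ∃ c : L, IsValueAt P (Fermat.Agent.S24.CoeffBC.bc ι (modularFunctionFieldFull N) g)
          (ι c)) ∧
      (∃ t : Fermat.Agent.S24.FF L N,
        P.ord (Fermat.Agent.S24.CoeffBC.bc ι (modularFunctionFieldFull N) t) = 1) ∧
      (∀ P' : Place Qb ↥(modularFunctionFieldBar N),
        (∀ g : Fermat.Agent.S24.FF L N,
          Fermat.Agent.S24.CoeffBC.bc ι (modularFunctionFieldFull N) g ∈ P'.toValuationSubring ↔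
          Fermat.Agent.S24.CoeffBC.bc ι (modularFunctionFieldFull N) g ∈ P.toValuationSubring) →
        P' = P))
    (D : Divisor Qb ↥(modularFunctionFieldBar N)) (hD : D ∈ Centre.centreSubgroup A N)
    (hDab : ∀ P : Place Qb ↥(modularFunctionFieldBar N),
      D P = P.ord (Fermat.Agent.S24.CoeffBC.bc ι (modularFunctionFieldFull N)
          (algebraMap B (Fermat.Agent.S24.FF L N) b)) -
        P.ord (Fermat.Agent.S24.CoeffBC.bc ι (modularFunctionFieldFull N)
          (algebraMap B (Fermat.Agent.S24.FF L N) a))) :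
    ∃ e e' : B, algebraMap (↥(A.comap ι))[X] B (C ϖ) ∣ e * e' - 1 ∧
      algebraMap (↥(A.comap ι))[X] B (C ϖ) ∣ b - e * a := by
  haveI : Fact ℓ.Prime := ⟨hℓ⟩
  letI : Algebra ↥(A.comap ι) B :=
    ((algebraMap (↥(A.comap ι))[X] B).comp (C : ↥(A.comap ι) →+* (↥(A.comap ι))[X])).toAlgebra
  have hφ : Function.Injective (algebraMap B (Fermat.Agent.S24.FF L N)) :=
    IsIntegralClosure.algebraMap_injective B (↥(A.comap ι))[X] (Fermat.Agent.S24.FF L N)
  haveI : IsDomain B := hφ.isDomain _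
  haveI : IsNoetherianRing B := (GaussNoeth.noeth_fin (A.comap ι) N halg B).1
  have hφW : ∀ w : ↥(A.comap ι), algebraMap B (Fermat.Agent.S24.FF L N)
      (algebraMap ↥(A.comap ι) B w) = algebraMap L (Fermat.Agent.S24.FF L N) (w : L) := by
    intro w
    show algebraMap B (Fermat.Agent.S24.FF L N) (algebraMap (↥(A.comap ι))[X] B (C w)) = _
    rw [← IsScalarTower.algebraMap_apply, halg, evF_C]
  refine WChartB.chart_congr (N := N) A (W := ↥(A.comap ι)) (B := B)
    (E := Fermat.Agent.S24.FF L N) (L := L)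
    (algebraMap B (Fermat.Agent.S24.FF L N)) hφ
    (Fermat.Agent.S24.CoeffBC.bc ι (modularFunctionFieldFull N)) ι ?_ (fun w => w.2) ϖ hϖ
    (valuation_unif_lt_one A ι hϖ) (GaussPrime.prime_C_fin (A.comap ι) N ℓ hℓN hϖ halg B)
    (ChartInstSplit.finite_chart_dedekind N hℓ hℓN ι (A.comap ι) hroots ϖ hϖ halg B)
    (ChartFrac.frac_fin (A.comap ι) N halg B) ?_
    (fun P P' h => ChartValB.val_fin N A ι halg B P P' h) a b ha hb hRAT D hD hDab
  · intro w
    rw [hφW, Fermat.Agent.S24.CoeffBC.bc_algebraMap]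
    rfl
  · intro 𝔮 h𝔮 h0 hπ𝔮
    have := h𝔮
    refine ExtPlace.exists_place_of_prime_chart N ι (A.comap ι) hϖ
      (algebraMap B (Fermat.Agent.S24.FF L N)) hφ
      (fun w => ⟨algebraMap ↥(A.comap ι) B w, hφW w⟩) 𝔮 h0 ?_
    intro b' hb' hmem
    have : b' = algebraMap ↥(A.comap ι) B ϖ := hφ (by rw [hb', hφW])
    exact hπ𝔮 (this ▸ hmem)

/-- **(W) on the cusp chart.** -/
theorem cusp_congr (hℓ : ℓ.Prime) (hℓN : ¬ ℓ ∣ N)
    (hroots : ∀ x : Qb, (∃ n : ℕ, ¬ ℓ ∣ n ∧ x ^ n = 1) → ∃ b : L, ι b = x)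
    {ϖ : ↥(A.comap ι)} (hϖ : Irreducible ϖ)
    [Algebra (CuspBase ↥(A.comap ι)) (Fermat.Agent.S24.FF L N)]
    (halg : ∀ p : (↥(A.comap ι))[X], algebraMap (CuspBase ↥(A.comap ι))
      (Fermat.Agent.S24.FF L N) (algebraMap (↥(A.comap ι))[X] (CuspBase ↥(A.comap ι)) p) =
        evFinf (A.comap ι) N p)
    (B : Type*) [CommRing B] [Algebra (CuspBase ↥(A.comap ι)) B]
    [Algebra B (Fermat.Agent.S24.FF L N)]
    [IsScalarTower (CuspBase ↥(A.comap ι)) B (Fermat.Agent.S24.FF L N)]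
    [IsIntegralClosure B (CuspBase ↥(A.comap ι)) (Fermat.Agent.S24.FF L N)]
    (a b : B)
    (ha : ¬ algebraMap (CuspBase ↥(A.comap ι)) B
      (algebraMap ↥(A.comap ι) (CuspBase ↥(A.comap ι)) ϖ) ∣ a)
    (hb : ¬ algebraMap (CuspBase ↥(A.comap ι)) B
      (algebraMap ↥(A.comap ι) (CuspBase ↥(A.comap ι)) ϖ) ∣ b)
    (hRAT : ∀ P : Place Qb ↥(modularFunctionFieldBar N),
      0 < P.ord (Fermat.Agent.S24.CoeffBC.bc ι (modularFunctionFieldFull N)
        (algebraMap B (Fermat.Agent.S24.FF L N) (a * b))) →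
      (∀ g : Fermat.Agent.S24.FF L N,
        Fermat.Agent.S24.CoeffBC.bc ι (modularFunctionFieldFull N) g ∈ P.toValuationSubring →
        ∃ c : L, IsValueAt P (Fermat.Agent.S24.CoeffBC.bc ι (modularFunctionFieldFull N) g)
          (ι c)) ∧
      (∃ t : Fermat.Agent.S24.FF L N,
        P.ord (Fermat.Agent.S24.CoeffBC.bc ι (modularFunctionFieldFull N) t) = 1) ∧
      (∀ P' : Place Qb ↥(modularFunctionFieldBar N),
        (∀ g : Fermat.Agent.S24.FF L N,
          Fermat.Agent.S24.CoeffBC.bc ι (modularFunctionFieldFull N) g ∈ P'.toValuationSubring ↔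
          Fermat.Agent.S24.CoeffBC.bc ι (modularFunctionFieldFull N) g ∈ P.toValuationSubring) →
        P' = P))
    (D : Divisor Qb ↥(modularFunctionFieldBar N)) (hD : D ∈ Centre.centreSubgroup A N)
    (hDab : ∀ P : Place Qb ↥(modularFunctionFieldBar N),
      D P = P.ord (Fermat.Agent.S24.CoeffBC.bc ι (modularFunctionFieldFull N)
          (algebraMap B (Fermat.Agent.S24.FF L N) b)) -
        P.ord (Fermat.Agent.S24.CoeffBC.bc ι (modularFunctionFieldFull N)
          (algebraMap B (Fermat.Agent.S24.FF L N) a))) :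
    ∃ e e' : B,
      algebraMap (CuspBase ↥(A.comap ι)) B
        (algebraMap ↥(A.comap ι) (CuspBase ↥(A.comap ι)) ϖ) ∣ e * e' - 1 ∧
      algebraMap (CuspBase ↥(A.comap ι)) B
        (algebraMap ↥(A.comap ι) (CuspBase ↥(A.comap ι)) ϖ) ∣ b - e * a := by
  haveI : Fact ℓ.Prime := ⟨hℓ⟩
  letI : Algebra ↥(A.comap ι) B :=
    ((algebraMap (CuspBase ↥(A.comap ι)) B).comp
      (algebraMap ↥(A.comap ι) (CuspBase ↥(A.comap ι)))).toAlgebra
  have hφ : Function.Injective (algebraMap B (Fermat.Agent.S24.FF L N)) :=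
    IsIntegralClosure.algebraMap_injective B (CuspBase ↥(A.comap ι)) (Fermat.Agent.S24.FF L N)
  haveI : IsDomain B := hφ.isDomain _
  haveI : IsNoetherianRing B := (GaussNoeth.noeth_cusp (A.comap ι) N halg B).1
  have hφW : ∀ w : ↥(A.comap ι), algebraMap B (Fermat.Agent.S24.FF L N)
      (algebraMap ↥(A.comap ι) B w) = algebraMap L (Fermat.Agent.S24.FF L N) (w : L) := by
    intro w
    show algebraMap B (Fermat.Agent.S24.FF L N) (algebraMap (CuspBase ↥(A.comap ι)) B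
      (algebraMap ↥(A.comap ι) (CuspBase ↥(A.comap ι)) w)) = _
    rw [← IsScalarTower.algebraMap_apply]
    have h := halg (C w)
    rw [evFinf_C] at h
    rw [← h]
    rfl
  refine WChartB.chart_congr (N := N) A (W := ↥(A.comap ι)) (B := B)
    (E := Fermat.Agent.S24.FF L N) (L := L)
    (algebraMap B (Fermat.Agent.S24.FF L N)) hφ
    (Fermat.Agent.S24.CoeffBC.bc ι (modularFunctionFieldFull N)) ι ?_ (fun w => w.2) ϖ hϖ
    (valuation_unif_lt_one A ι hϖ) (GaussPrime.prime_unif_cusp (A.comap ι) N ℓ hℓN hϖ halg B)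
    (ChartInstSplit.cusp_chart_dedekind_of_closure N hℓ hℓN ι (A.comap ι) hroots ϖ hϖ halg B)
    (ChartFrac.frac_cusp (A.comap ι) N halg B) ?_
    (fun P P' h => ChartValB.val_cusp N A ι halg B P P' h) a b ha hb hRAT D hD hDab
  · intro w
    rw [hφW, Fermat.Agent.S24.CoeffBC.bc_algebraMap]
    rfl
  · intro 𝔮 h𝔮 h0 hπ𝔮
    have := h𝔮
    refine ExtPlace.exists_place_of_prime_chart N ι (A.comap ι) hϖ
      (algebraMap B (Fermat.Agent.S24.FF L N)) hφ
      (fun w => ⟨algebraMap ↥(A.comap ι) B w, hφW w⟩) 𝔮 h0 ?_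
    intro b' hb' hmem
    have : b' = algebraMap ↥(A.comap ι) B ϖ := hφ (by rw [hb', hφW])
    exact hπ𝔮 (this ▸ hmem)

end Fermat.Agent.S37.WChartConc
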