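import Mathlib
import Fermat.Agent.S37.WChartInst
import Fermat.Agent.S37.LevelChange
import Fermat.Agent.S37.LevelDesc
import Fermat.Agent.S37.GaussRed
import Fermat.Agent.S37.GaussNoeth
import Fermat.Agent.S37.ConstRedB
import Fermat.Agent.S37.ChartInstSplit
import Fermat.Agent.S37.ChartValB
import Fermat.Agent.S37.ChartFrac
import Fermat.Agent.S37.ChartInstCuspClosure
import Fermat.Agent.S37.TorsionFree

/-!
# S37, package (W): constant reduction for the centre subgroup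

`constReduction`: for `ℓ ∤ N` and a valuation ring `A` of `ℚ̄` over `ℓ`, a function on `X₀(N)`
over `ℚ̄` whose divisor lies in `Centre.centreSubgroup A N` is a constant times a quotient of two
`A`-integral `q`-expansions with the same nonzero reduction.

Route: descend `f` to a first discrete level `(L₀, ι₀)`, normalise `f = c · g` with `g` a Gauss
unit and write `g = b / a` on both charts (`GaussRed.exists_fractions`); enlarge the level so
that all zeros of `a · b` are rational (`LevelDesc`), transport the chart elements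
(`LevelChange`), apply the chart congruence (`WChartInst.chart_congr_S37`) on both charts and
conclude by `ConstRedB.constReduction_of_closure`.
-/

set_option autoImplicit false
set_option linter.unusedSectionVars false
set_option linter.style.haveILetI false

noncomputable section

namespace Fermat.Agent.S37.WTop

open Polynomial ModularCurve AlgebraicCurve Fermat.Agent.S18 Fermat.Agent.S18.Gauss
  Fermat.Agent.S18.Cusp Fermat.Agent.S37.GaloisValue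

local notation "Qb" => AlgebraicClosure ℚ

section Ord

variable {N : ℕ} [NeZero N]

/-- the order of `f = c · g` is the order of `v / u` when `v = u · g` -/
theorem ord_eq_sub (P : Place Qb ↥(modularFunctionFieldBar N))
    {f g u v : ↥(modularFunctionFieldBar N)} {c : Qb}
    (hf : f = algebraMap Qb ↥(modularFunctionFieldBar N) c * g) (hc : c ≠ 0) (hg : g ≠ 0)
    (hu : u ≠ 0) (hv : v = u * g) : P.ord f = P.ord v - P.ord u := by
  have hc0 : algebraMap Qb ↥(modularFunctionFieldBar N) c ≠ 0 := by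
    rw [Ne, map_eq_zero]
    exact hc
  have h1 : P.ord (algebraMap Qb ↥(modularFunctionFieldBar N) c) = 0 :=
    WChart.ord_eq_zero_of_isValueAt (isValueAt_algebraMap P c) hc
  rw [hf, hv, P.ord_mul hc0 hg, P.ord_mul hu hg, h1]
  ring

end Ord

section Charts

variable (A : ValuationSubring Qb) (N : ℕ) [NeZero N] {ℓ : ℕ} (hℓ : ℓ.Prime) (hℓN : ¬ ℓ ∣ N)
  {L : Type} [Field L] [Algebra ℚ L] (ι : L →+* Qb)
  [IsDiscreteValuationRing ↥(A.comap ι)]
  [IsAlgClosed (IsLocalRing.ResidueField ↥(A.comap ι))]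
  [CharP (IsLocalRing.ResidueField ↥(A.comap ι)) ℓ]
  (hroots : ∀ x : Qb, (∃ n : ℕ, ¬ ℓ ∣ n ∧ x ^ n = 1) → ∃ b : L, ι b = x)
  (π : ↥(A.comap ι)) (hπ : Irreducible π)

include hℓ hℓN hroots hπ

/-- **(W) on the finite chart**, for any integral closure `B` of `W[X]` (`X ↦ j`). -/
theorem fin_congr [Algebra (↥(A.comap ι))[X] (Fermat.Agent.S24.FF L N)]
    (halg : algebraMap (↥(A.comap ι))[X] (Fermat.Agent.S24.FF L N) = evF (A.comap ι) N)
    (B : Type*) [CommRing B] [Algebra (↥(A.comap ι))[X] B]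
    [Algebra B (Fermat.Agent.S24.FF L N)]
    [IsScalarTower (↥(A.comap ι))[X] B (Fermat.Agent.S24.FF L N)]
    [IsIntegralClosure B (↥(A.comap ι))[X] (Fermat.Agent.S24.FF L N)]
    (a b : B) (ha : ¬ algebraMap (↥(A.comap ι))[X] B (C π) ∣ a)
    (hb : ¬ algebraMap (↥(A.comap ι))[X] B (C π) ∣ b)
    (hRAT : ∀ P : Place Qb ↥(modularFunctionFieldBar N),
      P.ord (Fermat.Agent.S24.CoeffBC.bc ι (modularFunctionFieldFull N)
        (algebraMap B (Fermat.Agent.S24.FF L N) (a * b))) ≠ 0 →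
      WChart.RatAt (F := ↥(modularFunctionFieldBar N)) ι
        (Fermat.Agent.S24.CoeffBC.bc ι (modularFunctionFieldFull N)) P)
    (D : Divisor Qb ↥(modularFunctionFieldBar N)) (hD : D ∈ Centre.centreSubgroup A N)
    (hDab : ∀ P : Place Qb ↥(modularFunctionFieldBar N),
      D P = P.ord (Fermat.Agent.S24.CoeffBC.bc ι (modularFunctionFieldFull N)
          (algebraMap B (Fermat.Agent.S24.FF L N) b))
        - P.ord (Fermat.Agent.S24.CoeffBC.bc ι (modularFunctionFieldFull N)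
          (algebraMap B (Fermat.Agent.S24.FF L N) a))) :
    ∃ e : B, algebraMap (↥(A.comap ι))[X] B (C π) ∣ b - e * a := by
  classical
  haveI : Fact ℓ.Prime := ⟨hℓ⟩
  have hinj : Function.Injective (algebraMap B (Fermat.Agent.S24.FF L N)) :=
    IsIntegralClosure.algebraMap_injective B (↥(A.comap ι))[X] (Fermat.Agent.S24.FF L N)
  haveI : IsDomain B := hinj.isDomain _
  haveI : IsNoetherianRing B := (GaussNoeth.noeth_fin (A.comap ι) N halg B).1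
  letI : Algebra ↥(A.comap ι) B := ((algebraMap (↥(A.comap ι))[X] B).comp C).toAlgebra
  have hφW : ∀ w : ↥(A.comap ι), algebraMap B (Fermat.Agent.S24.FF L N)
      (algebraMap ↥(A.comap ι) B w) = algebraMap L (Fermat.Agent.S24.FF L N) (w : L) := by
    intro w
    show algebraMap B (Fermat.Agent.S24.FF L N) (algebraMap (↥(A.comap ι))[X] B (C w)) = _
    rw [← IsScalarTower.algebraMap_apply, halg, evF_C]
  have hprime : Prime (algebraMap ↥(A.comap ι) B π) :=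
    GaussPrime.prime_C_fin (A.comap ι) N ℓ hℓN hπ halg B
  have hDed : IsDedekindDomain (B ⧸ Ideal.span {algebraMap ↥(A.comap ι) B π}) :=
    ChartInstSplit.finite_chart_dedekind N hℓ hℓN ι (A.comap ι) hroots π hπ halg B
  have hfrac := ChartFrac.frac_fin (A.comap ι) N halg B
  have hval := ChartValB.val_fin N A ι halg B
  have ha0 : a ≠ 0 := fun h => ha (h ▸ dvd_zero _)
  have hb0 : b ≠ 0 := fun h => hb (h ▸ dvd_zero _)
  have hu0 : Fermat.Agent.S24.CoeffBC.bc ι (modularFunctionFieldFull N)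
      (algebraMap B (Fermat.Agent.S24.FF L N) (a * b)) ≠ 0 := by
    rw [Ne, map_eq_zero, map_eq_zero_iff _ hinj]
    exact mul_ne_zero ha0 hb0
  obtain ⟨Z₀, hZ₀⟩ := LevelDesc.exists_finset_ord_ne_zero N _ hu0
  obtain ⟨e, e', -, he⟩ := WChartInst.chart_congr_S37 A N ι π hπ
    (algebraMap B (Fermat.Agent.S24.FF L N)) hinj hφW hprime hDed hfrac hval a b ha hb
    (Z₀.filter fun P => P.ord (Fermat.Agent.S24.CoeffBC.bc ι (modularFunctionFieldFull N)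
        (algebraMap B (Fermat.Agent.S24.FF L N) (a * b))) ≠ 0)
    (fun P hP => by
      have h1 := WChart.ord_pos_of_isValueAt_zero hP hu0
      exact Finset.mem_filter.mpr ⟨hZ₀ P h1.ne', h1.ne'⟩)
    (fun P hP => hRAT P (Finset.mem_filter.mp hP).2) D hD hDab
  exact ⟨e, he⟩

/-- **(W) on the cusp chart**, for any integral closure `B` of `CuspBase W` (`t ↦ 1/j`). -/
theorem cusp_congr [Algebra (CuspBase ↥(A.comap ι)) (Fermat.Agent.S24.FF L N)]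
    (halg : ∀ p : (↥(A.comap ι))[X], algebraMap (CuspBase ↥(A.comap ι))
      (Fermat.Agent.S24.FF L N) (algebraMap (↥(A.comap ι))[X] (CuspBase ↥(A.comap ι)) p) =
        evFinf (A.comap ι) N p)
    (B : Type*) [CommRing B] [Algebra (CuspBase ↥(A.comap ι)) B]
    [Algebra B (Fermat.Agent.S24.FF L N)]
    [IsScalarTower (CuspBase ↥(A.comap ι)) B (Fermat.Agent.S24.FF L N)]
    [IsIntegralClosure B (CuspBase ↥(A.comap ι)) (Fermat.Agent.S24.FF L N)]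
    (a b : B)
    (ha : ¬ algebraMap (CuspBase ↥(A.comap ι)) B
      (algebraMap ↥(A.comap ι) (CuspBase ↥(A.comap ι)) π) ∣ a)
    (hb : ¬ algebraMap (CuspBase ↥(A.comap ι)) B
      (algebraMap ↥(A.comap ι) (CuspBase ↥(A.comap ι)) π) ∣ b)
    (hRAT : ∀ P : Place Qb ↥(modularFunctionFieldBar N),
      P.ord (Fermat.Agent.S24.CoeffBC.bc ι (modularFunctionFieldFull N)
        (algebraMap B (Fermat.Agent.S24.FF L N) (a * b))) ≠ 0 →
      WChart.RatAt (F := ↥(modularFunctionFieldBar N)) ι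
        (Fermat.Agent.S24.CoeffBC.bc ι (modularFunctionFieldFull N)) P)
    (D : Divisor Qb ↥(modularFunctionFieldBar N)) (hD : D ∈ Centre.centreSubgroup A N)
    (hDab : ∀ P : Place Qb ↥(modularFunctionFieldBar N),
      D P = P.ord (Fermat.Agent.S24.CoeffBC.bc ι (modularFunctionFieldFull N)
          (algebraMap B (Fermat.Agent.S24.FF L N) b))
        - P.ord (Fermat.Agent.S24.CoeffBC.bc ι (modularFunctionFieldFull N)
          (algebraMap B (Fermat.Agent.S24.FF L N) a))) :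
    ∃ e : B, algebraMap (CuspBase ↥(A.comap ι)) B
      (algebraMap ↥(A.comap ι) (CuspBase ↥(A.comap ι)) π) ∣ b - e * a := by
  classical
  haveI : Fact ℓ.Prime := ⟨hℓ⟩
  have hinj : Function.Injective (algebraMap B (Fermat.Agent.S24.FF L N)) :=
    IsIntegralClosure.algebraMap_injective B (CuspBase ↥(A.comap ι)) (Fermat.Agent.S24.FF L N)
  haveI : IsDomain B := hinj.isDomain _
  haveI : IsNoetherianRing B := (GaussNoeth.noeth_cusp (A.comap ι) N halg B).1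
  letI : Algebra ↥(A.comap ι) B := ((algebraMap (CuspBase ↥(A.comap ι)) B).comp
    (algebraMap ↥(A.comap ι) (CuspBase ↥(A.comap ι)))).toAlgebra
  have hφW : ∀ w : ↥(A.comap ι), algebraMap B (Fermat.Agent.S24.FF L N)
      (algebraMap ↥(A.comap ι) B w) = algebraMap L (Fermat.Agent.S24.FF L N) (w : L) := by
    intro w
    show algebraMap B (Fermat.Agent.S24.FF L N) (algebraMap (CuspBase ↥(A.comap ι)) B
      (algebraMap ↥(A.comap ι) (CuspBase ↥(A.comap ι)) w)) = _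
    rw [← IsScalarTower.algebraMap_apply]
    have h := halg (C w)
    rw [evFinf_C] at h
    rw [← h]
    rfl
  have hprime : Prime (algebraMap ↥(A.comap ι) B π) :=
    GaussPrime.prime_unif_cusp (A.comap ι) N ℓ hℓN hπ halg B
  have hDed : IsDedekindDomain (B ⧸ Ideal.span {algebraMap ↥(A.comap ι) B π}) :=
    ChartInstSplit.cusp_chart_dedekind_of_closure N hℓ hℓN ι (A.comap ι) hroots π hπ halg B
  have hfrac := ChartFrac.frac_cusp (A.comap ι) N halg B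
  have hval := ChartValB.val_cusp N A ι halg B
  have ha0 : a ≠ 0 := fun h => ha (h ▸ dvd_zero _)
  have hb0 : b ≠ 0 := fun h => hb (h ▸ dvd_zero _)
  have hu0 : Fermat.Agent.S24.CoeffBC.bc ι (modularFunctionFieldFull N)
      (algebraMap B (Fermat.Agent.S24.FF L N) (a * b)) ≠ 0 := by
    rw [Ne, map_eq_zero, map_eq_zero_iff _ hinj]
    exact mul_ne_zero ha0 hb0
  obtain ⟨Z₀, hZ₀⟩ := LevelDesc.exists_finset_ord_ne_zero N _ hu0
  obtain ⟨e, e', -, he⟩ := WChartInst.chart_congr_S37 A N ι π hπ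
    (algebraMap B (Fermat.Agent.S24.FF L N)) hinj hφW hprime hDed hfrac hval a b ha hb
    (Z₀.filter fun P => P.ord (Fermat.Agent.S24.CoeffBC.bc ι (modularFunctionFieldFull N)
        (algebraMap B (Fermat.Agent.S24.FF L N) (a * b))) ≠ 0)
    (fun P hP => by
      have h1 := WChart.ord_pos_of_isValueAt_zero hP hu0
      exact Finset.mem_filter.mpr ⟨hZ₀ P h1.ne', h1.ne'⟩)
    (fun P hP => hRAT P (Finset.mem_filter.mp hP).2) D hD hDab
  exact ⟨e, he⟩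

end Charts

section Transport

theorem red_ne_zero_of_eq {K : Type*} [Field K] (W : ValuationSubring K)
    {x y : LaurentSeries K} (h : x = y) (hx : x ∈ contentRing W) (hy : y ∈ contentRing W)
    (hr : red W ⟨x, hx⟩ ≠ 0) : red W ⟨y, hy⟩ ≠ 0 := by
  subst h
  exact hr

variable (A : ValuationSubring Qb) (N : ℕ) [NeZero N] (ℓ : ℕ) [Fact ℓ.Prime] (hℓN : ¬ ℓ ∣ N)
  {L₀ L : Type} [Field L₀] [Field L] [Algebra ℚ L₀] [Algebra ℚ L]
  (ι₀ : L₀ →+* Qb) (ι : L →+* Qb) (τ : L₀ →+* L) (hτ : ∀ c, ι (τ c) = ι₀ c)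
  [IsDiscreteValuationRing ↥(A.comap ι₀)]
  [IsAlgClosed (IsLocalRing.ResidueField ↥(A.comap ι₀))]
  [CharP (IsLocalRing.ResidueField ↥(A.comap ι₀)) ℓ]
  [IsDiscreteValuationRing ↥(A.comap ι)]
  [IsAlgClosed (IsLocalRing.ResidueField ↥(A.comap ι))]
  [CharP (IsLocalRing.ResidueField ↥(A.comap ι)) ℓ]
  {ϖ₀ : ↥(A.comap ι₀)} (hϖ₀ : Irreducible ϖ₀) {ϖ : ↥(A.comap ι)} (hϖ : Irreducible ϖ)

include hℓN hτ hϖ₀ hϖ

/-- **Transport of a chart element, finite chart.**  An element of the chart ring at the level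
`(L₀, ι₀)` not divisible by the uniformiser goes to such an element at the level `(L, ι)`. -/
theorem transport_fin
    [Algebra (↥(A.comap ι₀))[X] (Fermat.Agent.S24.FF L₀ N)]
    (halg₀ : algebraMap (↥(A.comap ι₀))[X] (Fermat.Agent.S24.FF L₀ N) = evF (A.comap ι₀) N)
    (B₀ : Type*) [CommRing B₀] [Algebra (↥(A.comap ι₀))[X] B₀]
    [Algebra B₀ (Fermat.Agent.S24.FF L₀ N)]
    [IsScalarTower (↥(A.comap ι₀))[X] B₀ (Fermat.Agent.S24.FF L₀ N)]
    [IsIntegralClosure B₀ (↥(A.comap ι₀))[X] (Fermat.Agent.S24.FF L₀ N)]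
    [Algebra (↥(A.comap ι))[X] (Fermat.Agent.S24.FF L N)]
    (halg : algebraMap (↥(A.comap ι))[X] (Fermat.Agent.S24.FF L N) = evF (A.comap ι) N)
    (B : Type*) [CommRing B] [Algebra (↥(A.comap ι))[X] B]
    [Algebra B (Fermat.Agent.S24.FF L N)]
    [IsScalarTower (↥(A.comap ι))[X] B (Fermat.Agent.S24.FF L N)]
    [IsIntegralClosure B (↥(A.comap ι))[X] (Fermat.Agent.S24.FF L N)]
    (a₀ : B₀) (ha₀ : ¬ algebraMap (↥(A.comap ι₀))[X] B₀ (C ϖ₀) ∣ a₀) :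
    ∃ a : B, algebraMap B (Fermat.Agent.S24.FF L N) a =
        Fermat.Agent.S24.CoeffBC.bc τ (modularFunctionFieldFull N)
          (algebraMap B₀ (Fermat.Agent.S24.FF L₀ N) a₀) ∧
      ¬ algebraMap (↥(A.comap ι))[X] B (C ϖ) ∣ a := by
  have h0 : (evF (A.comap ι₀) N).IsIntegralElem
      (algebraMap B₀ (Fermat.Agent.S24.FF L₀ N) a₀) := by
    have h : IsIntegral (↥(A.comap ι₀))[X] (algebraMap B₀ (Fermat.Agent.S24.FF L₀ N) a₀) :=
      (IsIntegralClosure.isIntegral_iff (A := B₀)).mpr ⟨a₀, rfl⟩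
    have h' : (algebraMap (↥(A.comap ι₀))[X] (Fermat.Agent.S24.FF L₀ N)).IsIntegralElem
        (algebraMap B₀ (Fermat.Agent.S24.FF L₀ N) a₀) := h
    rwa [halg₀] at h'
  have h1 := LevelChange.isIntegralElem_evF_bc' A ι₀ ι τ hτ N h0
  have h2 : IsIntegral (↥(A.comap ι))[X]
      (Fermat.Agent.S24.CoeffBC.bc τ (modularFunctionFieldFull N)
        (algebraMap B₀ (Fermat.Agent.S24.FF L₀ N) a₀)) := by
    show (algebraMap (↥(A.comap ι))[X] (Fermat.Agent.S24.FF L N)).IsIntegralElem _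
    rw [halg]
    exact h1
  obtain ⟨a, ha⟩ := (IsIntegralClosure.isIntegral_iff (A := B)).mp h2
  refine ⟨a, ha, ?_⟩
  rw [GaussRed.dvd_iff_red_fin (A.comap ι) N ℓ B hℓN hϖ halg a]
  have hr0 := GaussRed.red_ne_zero_fin (A.comap ι₀) N ℓ B₀ hℓN hϖ₀ halg₀ a₀ ha₀
  have hr1 := LevelChange.red_bc_ne_zero' A ι₀ ι τ hτ N _ hr0
  exact red_ne_zero_of_eq (A.comap ι)
    (congrArg (fun z : Fermat.Agent.S24.FF L N => (z : LaurentSeries L)) ha.symm) _ _ hr1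

/-- **Transport of a chart element, cusp chart.** -/
theorem transport_cusp
    [Algebra (CuspBase ↥(A.comap ι₀)) (Fermat.Agent.S24.FF L₀ N)]
    (halg₀ : ∀ p : (↥(A.comap ι₀))[X], algebraMap (CuspBase ↥(A.comap ι₀))
      (Fermat.Agent.S24.FF L₀ N) (algebraMap (↥(A.comap ι₀))[X] (CuspBase ↥(A.comap ι₀)) p) =
        evFinf (A.comap ι₀) N p)
    (B₀ : Type*) [CommRing B₀] [Algebra (CuspBase ↥(A.comap ι₀)) B₀]
    [Algebra B₀ (Fermat.Agent.S24.FF L₀ N)]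
    [IsScalarTower (CuspBase ↥(A.comap ι₀)) B₀ (Fermat.Agent.S24.FF L₀ N)]
    [IsIntegralClosure B₀ (CuspBase ↥(A.comap ι₀)) (Fermat.Agent.S24.FF L₀ N)]
    [Algebra (CuspBase ↥(A.comap ι)) (Fermat.Agent.S24.FF L N)]
    (halg : ∀ p : (↥(A.comap ι))[X], algebraMap (CuspBase ↥(A.comap ι))
      (Fermat.Agent.S24.FF L N) (algebraMap (↥(A.comap ι))[X] (CuspBase ↥(A.comap ι)) p) =
        evFinf (A.comap ι) N p)
    (B : Type*) [CommRing B] [Algebra (CuspBase ↥(A.comap ι)) B]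
    [Algebra B (Fermat.Agent.S24.FF L N)]
    [IsScalarTower (CuspBase ↥(A.comap ι)) B (Fermat.Agent.S24.FF L N)]
    [IsIntegralClosure B (CuspBase ↥(A.comap ι)) (Fermat.Agent.S24.FF L N)]
    (a₀ : B₀)
    (ha₀ : ¬ algebraMap (CuspBase ↥(A.comap ι₀)) B₀
      (algebraMap ↥(A.comap ι₀) (CuspBase ↥(A.comap ι₀)) ϖ₀) ∣ a₀) :
    ∃ a : B, algebraMap B (Fermat.Agent.S24.FF L N) a =
        Fermat.Agent.S24.CoeffBC.bc τ (modularFunctionFieldFull N)
          (algebraMap B₀ (Fermat.Agent.S24.FF L₀ N) a₀) ∧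
      ¬ algebraMap (CuspBase ↥(A.comap ι)) B
        (algebraMap ↥(A.comap ι) (CuspBase ↥(A.comap ι)) ϖ) ∣ a := by
  have h0 : IsIntegral (CuspBase ↥(A.comap ι₀))
      (algebraMap B₀ (Fermat.Agent.S24.FF L₀ N) a₀) :=
    (IsIntegralClosure.isIntegral_iff (A := B₀)).mpr ⟨a₀, rfl⟩
  obtain ⟨m, hm⟩ := (GaussPrime.isIntegral_cuspBase_iff (A.comap ι₀) N halg₀ _).mp h0
  have h1 := LevelChange.isIntegralElem_cusp_bc' A ι₀ ι τ hτ N hm
  have h2 : IsIntegral (CuspBase ↥(A.comap ι))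
      (Fermat.Agent.S24.CoeffBC.bc τ (modularFunctionFieldFull N)
        (algebraMap B₀ (Fermat.Agent.S24.FF L₀ N) a₀)) :=
    (GaussPrime.isIntegral_cuspBase_iff (A.comap ι) N halg _).mpr ⟨m, h1⟩
  obtain ⟨a, ha⟩ := (IsIntegralClosure.isIntegral_iff (A := B)).mp h2
  refine ⟨a, ha, ?_⟩
  rw [GaussRed.dvd_iff_red_cusp (A.comap ι) N ℓ B hℓN hϖ halg a]
  have hr0 := GaussRed.red_ne_zero_cusp (A.comap ι₀) N ℓ B₀ hℓN hϖ₀ halg₀ a₀ ha₀
  have hr1 := LevelChange.red_bc_ne_zero' A ι₀ ι τ hτ N _ hr0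
  exact red_ne_zero_of_eq (A.comap ι)
    (congrArg (fun z : Fermat.Agent.S24.FF L N => (z : LaurentSeries L)) ha.symm) _ _ hr1

end Transport

section TwoLevel

variable (A : ValuationSubring Qb) (N : ℕ) [NeZero N] {ℓ : ℕ} (hℓ : ℓ.Prime) (hℓN : ¬ ℓ ∣ N)
  {L₀ L : Type} [Field L₀] [Field L] [Algebra ℚ L₀] [Algebra ℚ L]
  (ι₀ : L₀ →+* Qb) (ι : L →+* Qb) (τ : L₀ →+* L) (hτ : ∀ c, ι (τ c) = ι₀ c)
  [IsDiscreteValuationRing ↥(A.comap ι₀)]
  [IsAlgClosed (IsLocalRing.ResidueField ↥(A.comap ι₀))]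
  [CharP (IsLocalRing.ResidueField ↥(A.comap ι₀)) ℓ]
  [IsDiscreteValuationRing ↥(A.comap ι)]
  [IsAlgClosed (IsLocalRing.ResidueField ↥(A.comap ι))]
  [CharP (IsLocalRing.ResidueField ↥(A.comap ι)) ℓ]
  (hroots : ∀ x : Qb, (∃ n : ℕ, ¬ ℓ ∣ n ∧ x ^ n = 1) → ∃ b : L, ι b = x)
  {ϖ₀ : ↥(A.comap ι₀)} (hϖ₀ : Irreducible ϖ₀) {ϖ : ↥(A.comap ι)} (hϖ : Irreducible ϖ)

include hℓ hℓN hτ hroots hϖ₀ hϖ

/-- **(W) from two levels.**  The chart fractions `g₀ = b_i / a_i` are given at the level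
`(L₀, ι₀)`; at the level `(L, ι)` above it the zeros of `a_i · b_i` are rational. -/
theorem constReduction_of_levels
    [Algebra (↥(A.comap ι₀))[X] (Fermat.Agent.S24.FF L₀ N)]
    (halg1₀ : algebraMap (↥(A.comap ι₀))[X] (Fermat.Agent.S24.FF L₀ N) = evF (A.comap ι₀) N)
    (B₁₀ : Type*) [CommRing B₁₀] [Algebra (↥(A.comap ι₀))[X] B₁₀]
    [Algebra B₁₀ (Fermat.Agent.S24.FF L₀ N)]
    [IsScalarTower (↥(A.comap ι₀))[X] B₁₀ (Fermat.Agent.S24.FF L₀ N)]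
    [IsIntegralClosure B₁₀ (↥(A.comap ι₀))[X] (Fermat.Agent.S24.FF L₀ N)]
    [Algebra (CuspBase ↥(A.comap ι₀)) (Fermat.Agent.S24.FF L₀ N)]
    (halg2₀ : ∀ p : (↥(A.comap ι₀))[X], algebraMap (CuspBase ↥(A.comap ι₀))
      (Fermat.Agent.S24.FF L₀ N) (algebraMap (↥(A.comap ι₀))[X] (CuspBase ↥(A.comap ι₀)) p) =
        evFinf (A.comap ι₀) N p)
    (B₂₀ : Type*) [CommRing B₂₀] [Algebra (CuspBase ↥(A.comap ι₀)) B₂₀]
    [Algebra B₂₀ (Fermat.Agent.S24.FF L₀ N)]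
    [IsScalarTower (CuspBase ↥(A.comap ι₀)) B₂₀ (Fermat.Agent.S24.FF L₀ N)]
    [IsIntegralClosure B₂₀ (CuspBase ↥(A.comap ι₀)) (Fermat.Agent.S24.FF L₀ N)]
    [Algebra (↥(A.comap ι))[X] (Fermat.Agent.S24.FF L N)]
    (halg1 : algebraMap (↥(A.comap ι))[X] (Fermat.Agent.S24.FF L N) = evF (A.comap ι) N)
    (B₁ : Type*) [CommRing B₁] [Algebra (↥(A.comap ι))[X] B₁]
    [Algebra B₁ (Fermat.Agent.S24.FF L N)]
    [IsScalarTower (↥(A.comap ι))[X] B₁ (Fermat.Agent.S24.FF L N)]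
    [IsIntegralClosure B₁ (↥(A.comap ι))[X] (Fermat.Agent.S24.FF L N)]
    [Algebra (CuspBase ↥(A.comap ι)) (Fermat.Agent.S24.FF L N)]
    (halg2 : ∀ p : (↥(A.comap ι))[X], algebraMap (CuspBase ↥(A.comap ι))
      (Fermat.Agent.S24.FF L N) (algebraMap (↥(A.comap ι))[X] (CuspBase ↥(A.comap ι)) p) =
        evFinf (A.comap ι) N p)
    (B₂ : Type*) [CommRing B₂] [Algebra (CuspBase ↥(A.comap ι)) B₂]
    [Algebra B₂ (Fermat.Agent.S24.FF L N)]
    [IsScalarTower (CuspBase ↥(A.comap ι)) B₂ (Fermat.Agent.S24.FF L N)]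
    [IsIntegralClosure B₂ (CuspBase ↥(A.comap ι)) (Fermat.Agent.S24.FF L N)]
    (x₀ : Fermat.Agent.S24.FF L₀ N) (c₀ : L₀) (hc₀ : c₀ ≠ 0) (g₀ : Fermat.Agent.S24.FF L₀ N)
    (hg₀ : (g₀ : LaurentSeries L₀) ∈ contentRing (A.comap ι₀))
    (hgu₀ : red (A.comap ι₀) ⟨g₀, hg₀⟩ ≠ 0)
    (hxg₀ : x₀ = algebraMap L₀ (Fermat.Agent.S24.FF L₀ N) c₀ * g₀)
    (a₁ b₁ : B₁₀) (ha₁ : ¬ algebraMap (↥(A.comap ι₀))[X] B₁₀ (C ϖ₀) ∣ a₁)
    (hb₁ : ¬ algebraMap (↥(A.comap ι₀))[X] B₁₀ (C ϖ₀) ∣ b₁)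
    (hab₁ : algebraMap B₁₀ (Fermat.Agent.S24.FF L₀ N) b₁ =
      algebraMap B₁₀ (Fermat.Agent.S24.FF L₀ N) a₁ * g₀)
    (a₂ b₂ : B₂₀)
    (ha₂ : ¬ algebraMap (CuspBase ↥(A.comap ι₀)) B₂₀
      (algebraMap ↥(A.comap ι₀) (CuspBase ↥(A.comap ι₀)) ϖ₀) ∣ a₂)
    (hb₂ : ¬ algebraMap (CuspBase ↥(A.comap ι₀)) B₂₀
      (algebraMap ↥(A.comap ι₀) (CuspBase ↥(A.comap ι₀)) ϖ₀) ∣ b₂)
    (hab₂ : algebraMap B₂₀ (Fermat.Agent.S24.FF L₀ N) b₂ =
      algebraMap B₂₀ (Fermat.Agent.S24.FF L₀ N) a₂ * g₀)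
    (hRAT₁ : ∀ P : Place Qb ↥(modularFunctionFieldBar N),
      P.ord (Fermat.Agent.S24.CoeffBC.bc ι₀ (modularFunctionFieldFull N)
        (algebraMap B₁₀ (Fermat.Agent.S24.FF L₀ N) (a₁ * b₁))) ≠ 0 →
      WChart.RatAt (F := ↥(modularFunctionFieldBar N)) ι
        (Fermat.Agent.S24.CoeffBC.bc ι (modularFunctionFieldFull N)) P)
    (hRAT₂ : ∀ P : Place Qb ↥(modularFunctionFieldBar N),
      P.ord (Fermat.Agent.S24.CoeffBC.bc ι₀ (modularFunctionFieldFull N)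
        (algebraMap B₂₀ (Fermat.Agent.S24.FF L₀ N) (a₂ * b₂))) ≠ 0 →
      WChart.RatAt (F := ↥(modularFunctionFieldBar N)) ι
        (Fermat.Agent.S24.CoeffBC.bc ι (modularFunctionFieldFull N)) P)
    (D : Divisor Qb ↥(modularFunctionFieldBar N)) (hD : D ∈ Centre.centreSubgroup A N)
    (hDf : ∀ v : Place Qb ↥(modularFunctionFieldBar N),
      D v = v.ord (Fermat.Agent.S24.CoeffBC.bc ι₀ (modularFunctionFieldFull N) x₀)) :
    ∃ (c : Qb) (Y₁ Y₂ : LaurentSeries A)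
      (h₁ : Witness.IsMem A (IsLocalRing.residue A) N Y₁)
      (h₂ : Witness.IsMem A (IsLocalRing.residue A) N Y₂),
      c ≠ 0 ∧ coeffMap (IsLocalRing.residue A) Y₁ = coeffMap (IsLocalRing.residue A) Y₂ ∧
      coeffMap (IsLocalRing.residue A) Y₁ ≠ 0 ∧
      Fermat.Agent.S24.CoeffBC.bc ι₀ (modularFunctionFieldFull N) x₀ =
        algebraMap Qb (modularFunctionFieldBar N) c *
          (Witness.toBar Y₁ h₁ / Witness.toBar Y₂ h₂) := by
  haveI : Fact ℓ.Prime := ⟨hℓ⟩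
  have hbb : ∀ y : Fermat.Agent.S24.FF L₀ N,
      Fermat.Agent.S24.CoeffBC.bc ι (modularFunctionFieldFull N)
        (Fermat.Agent.S24.CoeffBC.bc τ (modularFunctionFieldFull N) y) =
      Fermat.Agent.S24.CoeffBC.bc ι₀ (modularFunctionFieldFull N) y :=
    fun y => LevelChange.bc_bc τ N ι₀ ι hτ y
  have hinj₁ : Function.Injective (algebraMap B₁₀ (Fermat.Agent.S24.FF L₀ N)) :=
    IsIntegralClosure.algebraMap_injective B₁₀ (↥(A.comap ι₀))[X] (Fermat.Agent.S24.FF L₀ N)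
  have hinj₂ : Function.Injective (algebraMap B₂₀ (Fermat.Agent.S24.FF L₀ N)) :=
    IsIntegralClosure.algebraMap_injective B₂₀ (CuspBase ↥(A.comap ι₀))
      (Fermat.Agent.S24.FF L₀ N)
  have ha₁0 : algebraMap B₁₀ (Fermat.Agent.S24.FF L₀ N) a₁ ≠ 0 := by
    rw [Ne, map_eq_zero_iff _ hinj₁]
    exact fun h => ha₁ (h ▸ dvd_zero _)
  have hb₁0 : algebraMap B₁₀ (Fermat.Agent.S24.FF L₀ N) b₁ ≠ 0 := by
    rw [Ne, map_eq_zero_iff _ hinj₁]
    exact fun h => hb₁ (h ▸ dvd_zero _)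
  have ha₂0 : algebraMap B₂₀ (Fermat.Agent.S24.FF L₀ N) a₂ ≠ 0 := by
    rw [Ne, map_eq_zero_iff _ hinj₂]
    exact fun h => ha₂ (h ▸ dvd_zero _)
  have hg₀ne : g₀ ≠ 0 := by
    rintro rfl
    rw [mul_zero] at hab₁
    exact hb₁0 hab₁
  -- the data at the level `(L, ι)`
  obtain ⟨a₁', ha₁e, ha₁'⟩ :=
    transport_fin A N ℓ hℓN ι₀ ι τ hτ hϖ₀ hϖ halg1₀ B₁₀ halg1 B₁ a₁ ha₁
  obtain ⟨b₁', hb₁e, hb₁'⟩ :=
    transport_fin A N ℓ hℓN ι₀ ι τ hτ hϖ₀ hϖ halg1₀ B₁₀ halg1 B₁ b₁ hb₁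
  obtain ⟨a₂', ha₂e, ha₂'⟩ :=
    transport_cusp A N ℓ hℓN ι₀ ι τ hτ hϖ₀ hϖ halg2₀ B₂₀ halg2 B₂ a₂ ha₂
  obtain ⟨b₂', hb₂e, hb₂'⟩ :=
    transport_cusp A N ℓ hℓN ι₀ ι τ hτ hϖ₀ hϖ halg2₀ B₂₀ halg2 B₂ b₂ hb₂
  have hg : ((Fermat.Agent.S24.CoeffBC.bc τ (modularFunctionFieldFull N) g₀ :
      Fermat.Agent.S24.FF L N) : LaurentSeries L) ∈ contentRing (A.comap ι) :=
    LevelChange.mem_contentRing_bc' A ι₀ ι τ hτ N hg₀
  have hgu : red (A.comap ι) ⟨_, hg⟩ ≠ 0 :=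
    LevelChange.red_bc_ne_zero' A ι₀ ι τ hτ N hg₀ hgu₀
  have hxg : Fermat.Agent.S24.CoeffBC.bc τ (modularFunctionFieldFull N) x₀ =
      algebraMap L (Fermat.Agent.S24.FF L N) (τ c₀) *
        Fermat.Agent.S24.CoeffBC.bc τ (modularFunctionFieldFull N) g₀ := by
    rw [hxg₀, map_mul, Fermat.Agent.S24.CoeffBC.bc_algebraMap]
  have hc : τ c₀ ≠ 0 := (_root_.map_ne_zero τ).mpr hc₀
  have hab₁' : algebraMap B₁ (Fermat.Agent.S24.FF L N) b₁' =
      algebraMap B₁ (Fermat.Agent.S24.FF L N) a₁' *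
        Fermat.Agent.S24.CoeffBC.bc τ (modularFunctionFieldFull N) g₀ := by
    rw [hb₁e, ha₁e, hab₁, map_mul]
  have hab₂' : algebraMap B₂ (Fermat.Agent.S24.FF L N) b₂' =
      algebraMap B₂ (Fermat.Agent.S24.FF L N) a₂' *
        Fermat.Agent.S24.CoeffBC.bc τ (modularFunctionFieldFull N) g₀ := by
    rw [hb₂e, ha₂e, hab₂, map_mul]
  -- the divisor of `f`
  have hfeq : Fermat.Agent.S24.CoeffBC.bc ι₀ (modularFunctionFieldFull N) x₀ =
      algebraMap Qb ↥(modularFunctionFieldBar N) (ι₀ c₀) *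
        Fermat.Agent.S24.CoeffBC.bc ι₀ (modularFunctionFieldFull N) g₀ := by
    rw [hxg₀, map_mul, Fermat.Agent.S24.CoeffBC.bc_algebraMap]
  have hιc : ι₀ c₀ ≠ 0 := (_root_.map_ne_zero ι₀).mpr hc₀
  have hg₀' : Fermat.Agent.S24.CoeffBC.bc ι₀ (modularFunctionFieldFull N) g₀ ≠ 0 :=
    (_root_.map_ne_zero _).mpr hg₀ne
  have hDab₁ : ∀ P : Place Qb ↥(modularFunctionFieldBar N),
      D P = P.ord (Fermat.Agent.S24.CoeffBC.bc ι (modularFunctionFieldFull N)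
          (algebraMap B₁ (Fermat.Agent.S24.FF L N) b₁'))
        - P.ord (Fermat.Agent.S24.CoeffBC.bc ι (modularFunctionFieldFull N)
          (algebraMap B₁ (Fermat.Agent.S24.FF L N) a₁')) := by
    intro P
    rw [hDf P]
    refine ord_eq_sub P hfeq hιc hg₀' ?_ ?_
    · rw [ha₁e, hbb]
      exact (_root_.map_ne_zero _).mpr ha₁0
    · rw [hb₁e, ha₁e, hbb, hbb, hab₁, map_mul]
  have hDab₂ : ∀ P : Place Qb ↥(modularFunctionFieldBar N),
      D P = P.ord (Fermat.Agent.S24.CoeffBC.bc ι (modularFunctionFieldFull N)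
          (algebraMap B₂ (Fermat.Agent.S24.FF L N) b₂'))
        - P.ord (Fermat.Agent.S24.CoeffBC.bc ι (modularFunctionFieldFull N)
          (algebraMap B₂ (Fermat.Agent.S24.FF L N) a₂')) := by
    intro P
    rw [hDf P]
    refine ord_eq_sub P hfeq hιc hg₀' ?_ ?_
    · rw [ha₂e, hbb]
      exact (_root_.map_ne_zero _).mpr ha₂0
    · rw [hb₂e, ha₂e, hbb, hbb, hab₂, map_mul]
  have he₁ : Fermat.Agent.S24.CoeffBC.bc ι (modularFunctionFieldFull N)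
      (algebraMap B₁ (Fermat.Agent.S24.FF L N) (a₁' * b₁')) =
      Fermat.Agent.S24.CoeffBC.bc ι₀ (modularFunctionFieldFull N)
        (algebraMap B₁₀ (Fermat.Agent.S24.FF L₀ N) (a₁ * b₁)) := by
    rw [map_mul (algebraMap B₁ (Fermat.Agent.S24.FF L N)), ha₁e, hb₁e, ← map_mul, hbb,
      ← map_mul]
  have he₂ : Fermat.Agent.S24.CoeffBC.bc ι (modularFunctionFieldFull N)
      (algebraMap B₂ (Fermat.Agent.S24.FF L N) (a₂' * b₂')) =
      Fermat.Agent.S24.CoeffBC.bc ι₀ (modularFunctionFieldFull N)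
        (algebraMap B₂₀ (Fermat.Agent.S24.FF L₀ N) (a₂ * b₂)) := by
    rw [map_mul (algebraMap B₂ (Fermat.Agent.S24.FF L N)), ha₂e, hb₂e, ← map_mul, hbb,
      ← map_mul]
  obtain ⟨e₁, hcong₁⟩ := fin_congr A N hℓ hℓN ι hroots ϖ hϖ halg1 B₁ a₁' b₁' ha₁' hb₁'
    (fun P hP => hRAT₁ P (by rw [← he₁]; exact hP)) D hD hDab₁
  obtain ⟨e₂, hcong₂⟩ := cusp_congr A N hℓ hℓN ι hroots ϖ hϖ halg2 B₂ a₂' b₂' ha₂' hb₂'
    (fun P hP => hRAT₂ P (by rw [← he₂]; exact hP)) D hD hDab₂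
  have key := ConstRedB.constReduction_of_closure A N ℓ ι hℓN hϖ halg1 B₁ halg2 B₂
    (Fermat.Agent.S24.CoeffBC.bc τ (modularFunctionFieldFull N) x₀) (τ c₀) hc
    (Fermat.Agent.S24.CoeffBC.bc τ (modularFunctionFieldFull N) g₀) hg hgu hxg
    a₁' b₁' e₁ ha₁' hab₁' hcong₁ a₂' b₂' e₂ ha₂' hab₂' hcong₂
  rw [hbb] at key
  exact key

end TwoLevel

/-- **(W) for the centre subgroup.**  For `ℓ ∤ N` and a valuation ring `A` of `ℚ̄` above `ℓ`:
a function whose divisor lies in `Centre.centreSubgroup A N` is a constant times a quotient of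
two `A`-integral `q`-expansions with the same nonzero reduction. -/
theorem constReduction (N : ℕ) [NeZero N] {ℓ : ℕ} (hℓ : ℓ.Prime) (hℓN : ¬ ℓ ∣ N)
    (A : ValuationSubring Qb) (hA : A.LiesOverPrime ℓ) :
    TorsionFree.ConstReduction A N (Centre.centreSubgroup A N) := by
  intro f hf D hD hDf
  haveI : Fact ℓ.Prime := ⟨hℓ⟩
  -- first level: `f` is defined
  obtain ⟨S₀, hS₀⟩ := LevelDesc.eventually_exists_bc N f
  obtain ⟨L₀, iF₀, iA₀, ι₀, ⟨hS₀', hroots₀, hdvr₀, halgc₀, hperf₀, hchar₀, hℓ₀, hres₀⟩, hnext⟩ :=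
    LevelChange.exists_base_pair A hℓ hA S₀
  obtain ⟨x₀, hx₀⟩ := hS₀ L₀ ι₀ hS₀'
  haveI := hdvr₀
  haveI := halgc₀
  haveI := hchar₀
  obtain ⟨ϖ₀, hϖ₀⟩ := IsDiscreteValuationRing.exists_irreducible ↥(A.comap ι₀)
  letI alg1₀ : Algebra (↥(A.comap ι₀))[X] (Fermat.Agent.S24.FF L₀ N) :=
    (evF (A.comap ι₀) N).toAlgebra
  letI alg2₀ : Algebra (CuspBase ↥(A.comap ι₀)) (Fermat.Agent.S24.FF L₀ N) :=
    (Cusp.baseLift ↥(A.comap ι₀) (Fermat.Agent.S24.jBC L₀ N)⁻¹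
      (FFKit.one_sub_jBC_inv_ne_zero ι₀ N)).toRingHom.toAlgebra
  have halg2₀ : ∀ p : (↥(A.comap ι₀))[X], algebraMap (CuspBase ↥(A.comap ι₀))
      (Fermat.Agent.S24.FF L₀ N) (algebraMap (↥(A.comap ι₀))[X] (CuspBase ↥(A.comap ι₀)) p) =
        evFinf (A.comap ι₀) N p :=
    fun p => ChartInstCuspClosure.baseLift_halg N ι₀ (A.comap ι₀) p
  have hx₀ne : x₀ ≠ 0 := by
    rintro rfl
    rw [map_zero] at hx₀
    exact hf hx₀.symm
  obtain ⟨c₀, g₀, hg₀, hc₀, hgu₀, hxg₀, ⟨a₁, b₁, ha₁, hb₁, hab₁, -⟩,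
      ⟨a₂, b₂, ha₂, hb₂, hab₂, -⟩⟩ :=
    GaussRed.exists_fractions (A.comap ι₀) N ℓ hℓN hϖ₀ rfl
      (integralClosure (↥(A.comap ι₀))[X] (Fermat.Agent.S24.FF L₀ N)) halg2₀
      (integralClosure (CuspBase ↥(A.comap ι₀)) (Fermat.Agent.S24.FF L₀ N)) x₀ hx₀ne
  -- second level: the zeros of `a_i * b_i` are rational
  have hu₁ : Fermat.Agent.S24.CoeffBC.bc ι₀ (modularFunctionFieldFull N)
      (algebraMap (integralClosure (↥(A.comap ι₀))[X] (Fermat.Agent.S24.FF L₀ N))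
        (Fermat.Agent.S24.FF L₀ N) (a₁ * b₁)) ≠ 0 := by
    rw [Ne, map_eq_zero, map_eq_zero_iff _ (IsIntegralClosure.algebraMap_injective
      (integralClosure (↥(A.comap ι₀))[X] (Fermat.Agent.S24.FF L₀ N)) (↥(A.comap ι₀))[X]
      (Fermat.Agent.S24.FF L₀ N))]
    exact mul_ne_zero (fun h => ha₁ (h ▸ dvd_zero _)) (fun h => hb₁ (h ▸ dvd_zero _))
  have hu₂ : Fermat.Agent.S24.CoeffBC.bc ι₀ (modularFunctionFieldFull N)
      (algebraMap (integralClosure (CuspBase ↥(A.comap ι₀)) (Fermat.Agent.S24.FF L₀ N))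
        (Fermat.Agent.S24.FF L₀ N) (a₂ * b₂)) ≠ 0 := by
    rw [Ne, map_eq_zero, map_eq_zero_iff _ (IsIntegralClosure.algebraMap_injective
      (integralClosure (CuspBase ↥(A.comap ι₀)) (Fermat.Agent.S24.FF L₀ N))
      (CuspBase ↥(A.comap ι₀)) (Fermat.Agent.S24.FF L₀ N))]
    exact mul_ne_zero (fun h => ha₂ (h ▸ dvd_zero _)) (fun h => hb₂ (h ▸ dvd_zero _))
  obtain ⟨S, hS⟩ := (LevelDesc.eventually_rational_of_ord_ne_zero N _ hu₁).and
    (LevelDesc.eventually_rational_of_ord_ne_zero N _ hu₂)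
  obtain ⟨L, iF, iA, ι, τ, hτ, hSL, hroots, hdvr, halgc, hperf, hchar, hℓW, hres⟩ := hnext S
  obtain ⟨hR₁, hR₂⟩ := hS L ι (fun a ha => hSL a (Finset.mem_union_right _ ha))
  haveI := hdvr
  haveI := halgc
  haveI := hchar
  obtain ⟨ϖ, hϖ⟩ := IsDiscreteValuationRing.exists_irreducible ↥(A.comap ι)
  letI alg1 : Algebra (↥(A.comap ι))[X] (Fermat.Agent.S24.FF L N) :=
    (evF (A.comap ι) N).toAlgebra
  letI alg2 : Algebra (CuspBase ↥(A.comap ι)) (Fermat.Agent.S24.FF L N) :=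
    (Cusp.baseLift ↥(A.comap ι) (Fermat.Agent.S24.jBC L N)⁻¹
      (FFKit.one_sub_jBC_inv_ne_zero ι N)).toRingHom.toAlgebra
  have halg2 : ∀ p : (↥(A.comap ι))[X], algebraMap (CuspBase ↥(A.comap ι))
      (Fermat.Agent.S24.FF L N) (algebraMap (↥(A.comap ι))[X] (CuspBase ↥(A.comap ι)) p) =
        evFinf (A.comap ι) N p :=
    fun p => ChartInstCuspClosure.baseLift_halg N ι (A.comap ι) p
  have key := constReduction_of_levels A N hℓ hℓN ι₀ ι τ hτ hroots hϖ₀ hϖ rfl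
    (integralClosure (↥(A.comap ι₀))[X] (Fermat.Agent.S24.FF L₀ N)) halg2₀
    (integralClosure (CuspBase ↥(A.comap ι₀)) (Fermat.Agent.S24.FF L₀ N)) rfl
    (integralClosure (↥(A.comap ι))[X] (Fermat.Agent.S24.FF L N)) halg2
    (integralClosure (CuspBase ↥(A.comap ι)) (Fermat.Agent.S24.FF L N))
    x₀ c₀ hc₀ g₀ hg₀ hgu₀ hxg₀ a₁ b₁ ha₁ hb₁ hab₁ a₂ b₂ ha₂ hb₂ hab₂ hR₁ hR₂ D hD
    (fun v => by rw [hx₀]; exact hDf v)
  rw [hx₀] at key
  exact key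

end Fermat.Agent.S37.WTop
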